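/-
Programme TW (statement S56, Taylor–Wiles primes / Selmer bound).  TOP-LEVEL INTERFACE (helper57).

S56 is cut into three independent pillars, glued in `TW/Assembly.lean`:

* pillar (A)  `BrickA`   : commutative algebra.  A complete Noetherian local `𝒪`-algebra `R` with residue field
                           `k = 𝒪/m` having at most `|k|^r` `𝒪`-algebra maps to the dual numbers `k[ε]`
                           is a quotient of `𝒪⟦X₁,…,X_r⟧`.
* pillar (D)  `BrickD_SO`, `BrickD_FL` : dictionary.  For a universal deformation ring `DQ` of type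
                           "strict ordinary / flat at `p`, unramified outside `T`, unipotent at `Smin`",
                           the `𝒪`-algebra maps `DQ.R → k[ε]` inject into cohomology classes of
                           *Selmer cocycles* `c : G_ℚ → End_k(V)` (plain functions, no cohomology library),
                           and `ρbar` itself is of that type with `T = Smin`.
* pillar (S)  `BrickS_SO`, `BrickS_FL` : the arithmetic.  There is `r` such that for every `n` there are `r`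
                           Taylor–Wiles primes of level `n` for which every family of pairwise
                           non-cohomologous Selmer cocycles has at most `|k|^r` members.

Conventions.  `V = ρbar.V`, `End = Module.End k V`, `G_ℚ` acts on `End` by conjugation `conj`.
A cocycle `c` encodes the lift `σ ↦ (1 + ε c σ) ρbar σ` on `V[ε] = V × V` (`liftAct`).
-/
import Mathlib
import Fermat.Prelude.Def_GaloisRep_DeformationRingData
import Fermat.Prelude.Def_GaloisRep_LocalConditions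
import Fermat.Prelude.Def_GaloisRep_StrictOrdinary
import Fermat.Prelude.Def_GaloisRep_Flat
import Fermat.Prelude.Def_GaloisRep_Residual

set_option autoImplicit false

open Polynomial IsLocalRing

namespace Fermat.Agent.TW.Interface

/-- `G_ℚ`. -/
abbrev GalQ : Type := AlgebraicClosure ℚ ≃ₐ[ℚ] AlgebraicClosure ℚ

section Cocycles

variable {k : Type} [Field k] (ρbar : ResidualGaloisRep k)

/-- The conjugation (adjoint) action of `G_ℚ` on `End_k(V)`. -/
noncomputable def conj (σ : GalQ) (X : Module.End k ρbar.V) : Module.End k ρbar.V :=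
  ρbar.ρ σ * X * ρbar.ρ σ⁻¹

/-- A (continuous, trace-zero) 1-cocycle of `G_ℚ` with values in `ad ρbar`, as a plain function. -/
structure IsDefCocycle (c : GalQ → Module.End k ρbar.V) : Prop where
  map_mul : ∀ σ τ : GalQ, c (σ * τ) = c σ + conj ρbar σ (c τ)
  trace_eq_zero : ∀ σ : GalQ, LinearMap.trace k ρbar.V (c σ) = 0
  level : ∃ F : IntermediateField ℚ (AlgebraicClosure ℚ), FiniteDimensional ℚ F ∧
    ∀ σ τ : GalQ, (∀ x ∈ F, τ x = x) → c (σ * τ) = c σ

/-- Two cocycles differ by a coboundary. -/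
def Cohomologous (c c' : GalQ → Module.End k ρbar.V) : Prop :=
  ∃ X : Module.End k ρbar.V, ∀ σ : GalQ, c' σ - c σ = conj ρbar σ X - X

/-- The action of `G_ℚ` on `V[ε] = V × V` (`(v, w) = v + ε w`) attached to a cocycle:
`σ ↦ (1 + ε c σ) ρbar σ`. -/
noncomputable def liftAct (c : GalQ → Module.End k ρbar.V) (σ : GalQ) : ρbar.V × ρbar.V → ρbar.V × ρbar.V :=
  fun x => (ρbar.ρ σ x.1, ρbar.ρ σ x.2 + c σ (ρbar.ρ σ x.1))

end Cocycles

/-- A finite `G_ℚ`-module (additive group with an action by functions) is *flat at `p`*: it is,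
equivariantly, the group of `ℚ̄`-points of a finite flat cocommutative Hopf algebra over `ℤ_(p)`
(verbatim the shape used in `GaloisRepAdic.IsFlatAt`). -/
def IsFlatGaloisModule (p : ℕ) (X : Type) [AddCommGroup X] (act : GalQ → X → X) : Prop :=
  ∃ (H : Type) (_ : CommRing H) (_ : HopfAlgebra (GaloisRep.ratLocalizedAt p) H),
    Module.Finite (GaloisRep.ratLocalizedAt p) H ∧
    Module.Flat (GaloisRep.ratLocalizedAt p) H ∧
    Coalgebra.IsCocomm (GaloisRep.ratLocalizedAt p) H ∧
    ∃ e : WithConv (H →ₐ[GaloisRep.ratLocalizedAt p] AlgebraicClosure ℚ) ≃ X,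
      (∀ f g : WithConv (H →ₐ[GaloisRep.ratLocalizedAt p] AlgebraicClosure ℚ),
        e (f * g) = e f + e g) ∧
      ∀ (σ : GalQ) (f g : WithConv (H →ₐ[GaloisRep.ratLocalizedAt p] AlgebraicClosure ℚ)),
        (∀ h : H, g h = σ (f h)) → e g = act σ (e f)

section LocalConditions

variable {k : Type} [Field k] (ρbar : ResidualGaloisRep k) (p : ℕ)

/-- Strict-ordinary local condition at `p` on a cocycle: after subtracting a coboundary `dX`, on the
decomposition group the cocycle takes values in `Hom(V/L, L)`, `L` the ordinary line of `ρbar`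
(`D_p` acts on `L` by `x`, on `V/L` by the unramified `z`, `x = ω z`). -/
def SOLocal (c : GalQ → Module.End k ρbar.V) : Prop :=
  ∀ P : ValuationSubring (AlgebraicClosure ℚ), P.LiesOverPrime p →
    ∃ (L : Submodule k ρbar.V) (X : Module.End k ρbar.V),
      Module.finrank k L = 1 ∧
      (∀ σ ∈ P.decompositionSubgroup ℚ, ∀ v ∈ L, ρbar.ρ σ v ∈ L) ∧
      (∀ σ ∈ P.inertiaSubgroupIn ℚ, ∀ v : ρbar.V, ρbar.ρ σ v - v ∈ L) ∧
      (∀ σ ∈ P.decompositionSubgroup ℚ, ∃ x z : k,
        (∀ w ∈ L, ρbar.ρ σ w = x • w) ∧ (∀ v : ρbar.V, ρbar.ρ σ v - z • v ∈ L) ∧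
        ∀ a : ℕ, (∀ μ : AlgebraicClosure ℚ, μ ^ p = 1 → σ μ = μ ^ a) → x = (a : k) * z) ∧
      (∀ σ ∈ P.decompositionSubgroup ℚ,
        (∀ v : ρbar.V, (c σ - (conj ρbar σ X - X)) v ∈ L) ∧
        ∀ v ∈ L, (c σ - (conj ρbar σ X - X)) v = 0)

/-- Flat local condition at `p` on a cocycle: the lift to `V[ε]` is flat at `p`. -/
def FLLocal (c : GalQ → Module.End k ρbar.V) : Prop :=
  IsFlatGaloisModule p (ρbar.V × ρbar.V) (liftAct ρbar c)

/-- A Selmer cocycle for the minimal problem with ramification allowed in `T ⊇ Smin`: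
unramified outside `T`; at `q ∈ Smin ∖ {p}` the lift `(1 + ε c σ) ρbar σ` has characteristic
polynomial `(X - 1)^2` for `σ` in inertia (given that `ρbar σ` has, and `tr c σ = 0`, this is
literally `tr (c σ ∘ ρbar σ) = 0`; the local-Galois consequence "the class dies on inertia" belongs to
pillar (S)); and the local condition `atp` at `p`.  Everything here is pure linear algebra on the
dictionary side. -/
structure IsSelmerCocycle (Smin T : Finset ℕ)
    (atp : (GalQ → Module.End k ρbar.V) → Prop) (c : GalQ → Module.End k ρbar.V) : Prop where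
  isDefCocycle : IsDefCocycle ρbar c
  unramified : ∀ q : ℕ, q.Prime → q ∉ T → ∀ P : ValuationSubring (AlgebraicClosure ℚ),
    P.LiesOverPrime q → ∀ σ ∈ P.inertiaSubgroupIn ℚ, c σ = 0
  unipotent : ∀ q ∈ Smin, q.Prime → q ≠ p → ∀ P : ValuationSubring (AlgebraicClosure ℚ),
    P.LiesOverPrime q → ∀ σ ∈ P.inertiaSubgroupIn ℚ,
      LinearMap.trace k ρbar.V (c σ * ρbar.ρ σ) = 0
  atp : atp c

end LocalConditions

section Statements

/-- The deformation condition of S56, strict-ordinary version. -/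
def condSO (𝒪 : Type) [CommRing 𝒪] (p : ℕ) (Smin T : Finset ℕ) :
    ∀ ⦃A : Type⦄ [CommRing A] [IsLocalRing A] [Algebra 𝒪 A], GaloisRepAdic A → Prop :=
  fun _A _ _ _ ρ => GaloisRep.strictOrdinaryCondition 𝒪 p T ρ ∧
    ∀ q ∈ Smin, q.Prime → q ≠ p → ρ.IsUnipotentOnInertiaAt q

/-- The deformation condition of S56, flat version. -/
def condFL (𝒪 : Type) [CommRing 𝒪] (p : ℕ) (Smin T : Finset ℕ) :
    ∀ ⦃A : Type⦄ [CommRing A] [IsLocalRing A] [Algebra 𝒪 A], GaloisRepAdic A → Prop :=
  fun _A _ _ _ ρ => GaloisRep.flatCondition 𝒪 p T ρ ∧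
    ∀ q ∈ Smin, q.Prime → q ≠ p → ρ.IsUnipotentOnInertiaAt q

variable (𝒪 : Type) [CommRing 𝒪] [IsDomain 𝒪] [IsDiscreteValuationRing 𝒪]
  [IsAdicComplete (maximalIdeal 𝒪) 𝒪] [Finite (ResidueField 𝒪)]

/-- The standing hypotheses of S56. -/
structure Hyp (p : ℕ) (ρbar : ResidualGaloisRep (ResidueField 𝒪)) (S Smin : Finset ℕ) : Prop where
  hp2 : p ≠ 2
  hp𝒪 : (p : 𝒪) ∈ maximalIdeal 𝒪
  habs : ρbar.IsAbsolutelyIrreducible
  hdet : (GaloisRepAdic.ofResidualGaloisRep ρbar).DetIsCyclotomic p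
  hsplit : ∀ σ : GalQ, ∃ α β : ResidueField 𝒪,
    LinearMap.charpoly (ρbar.ρ σ) = (X - C α) * (X - C β)
  hTW : ∀ (K : Type) [Field K] [Algebra (ResidueField 𝒪) K] (G : Subgroup GalQ), G.index = 2 →
    ∀ V : Submodule K (ρbar.baseChange K).V,
      (∀ σ ∈ G, ∀ x ∈ V, (ρbar.baseChange K).ρ σ x ∈ V) → V = ⊥ ∨ V = ⊤
  hpSmin : p ∈ Smin
  hSmin : Smin ⊆ S
  hS : ∀ q ∈ S, q.Prime
  hmin : ∀ q : ℕ, q.Prime → q ≠ p → (q ∈ Smin ↔ ¬ ρbar.IsUnramifiedAt q)

/-- `qv` is a family of Taylor–Wiles primes of level `n` (verbatim the clauses of S56). -/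
def IsTWFamily (p : ℕ) (ρbar : ResidualGaloisRep (ResidueField 𝒪)) (S : Finset ℕ) (n : ℕ) {r : ℕ}
    (qv : Fin r → ℕ) : Prop :=
  Function.Injective qv ∧
  (∀ i, (qv i).Prime ∧ qv i ∉ S ∧ p ^ (n + 1) ∣ qv i - 1) ∧
  (∀ i, ∀ P : ValuationSubring (AlgebraicClosure ℚ), P.LiesOverPrime (qv i) →
    ∀ φ : GalQ, P.IsFrobeniusAt φ (qv i) →
      ∃ α β : ResidueField 𝒪, α ≠ β ∧ LinearMap.charpoly (ρbar.ρ φ) = (X - C α) * (X - C β))

/-- **Pillar (A).**  Tangent count ⇒ power-series presentation. -/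
def BrickA : Prop :=
  ∀ (R : Type) [CommRing R] [IsLocalRing R] [IsNoetherianRing R]
    [IsAdicComplete (maximalIdeal R) R] [Algebra 𝒪 R] [IsLocalHom (algebraMap 𝒪 R)],
    Function.Surjective (residue R ∘ algebraMap 𝒪 R) →
    ∀ r : ℕ, (∀ s : Finset (R →ₐ[𝒪] DualNumber (ResidueField 𝒪)),
        s.card ≤ Nat.card (ResidueField 𝒪) ^ r) →
      ∃ γ : MvPowerSeries (Fin r) 𝒪 →ₐ[𝒪] R, Function.Surjective γ

/-- **Pillar (D)**, generic shape: `cond Smin T` is the deformation condition with ramification set `T`,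
`atp` the local condition at `p` on cocycles.  Only the SURJECTIVE maps `DQ.R → k[ε]` are sent to
Selmer cocycles (base change along a surjection needs no products of group schemes); the unique
non-surjective map (through the residue field) is counted separately in the assembly. -/
def BrickD (p : ℕ)
    (cond : Finset ℕ → Finset ℕ →
      ∀ ⦃A : Type⦄ [CommRing A] [IsLocalRing A] [Algebra 𝒪 A], GaloisRepAdic A → Prop)
    (atp : ∀ ρbar : ResidualGaloisRep (ResidueField 𝒪),
      (GalQ → Module.End (ResidueField 𝒪) ρbar.V) → Prop) : Prop :=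
  ∀ (ρbar : ResidualGaloisRep (ResidueField 𝒪)) (S Smin : Finset ℕ), Hyp 𝒪 p ρbar S Smin →
    ∀ T : Finset ℕ, Smin ⊆ T → ∀ DQ : GaloisRep.DeformationRingData 𝒪 ρbar (cond Smin T),
      cond Smin Smin (GaloisRepAdic.ofResidualGaloisRep ρbar) ∧
      (∀ φ φ' : DQ.R →ₐ[𝒪] DualNumber (ResidueField 𝒪),
        ¬ Function.Surjective φ → ¬ Function.Surjective φ' → φ = φ') ∧
      ∃ F : (DQ.R →ₐ[𝒪] DualNumber (ResidueField 𝒪)) →
          (GalQ → Module.End (ResidueField 𝒪) ρbar.V),
        (∀ φ : DQ.R →ₐ[𝒪] DualNumber (ResidueField 𝒪), Function.Surjective φ →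
          IsSelmerCocycle ρbar p Smin T (atp ρbar) (F φ) ∧ ¬ Cohomologous ρbar 0 (F φ)) ∧
        ∀ φ φ' : DQ.R →ₐ[𝒪] DualNumber (ResidueField 𝒪),
          Function.Surjective φ → Function.Surjective φ' →
          Cohomologous ρbar (F φ) (F φ') → φ = φ'

/-- **Pillar (S)**, generic shape: at most `|k|^r - 1` pairwise non-cohomologous, cohomologically
non-trivial Selmer cocycles (i.e. the Selmer group, which contains `0`, has at most `|k|^r`
elements). -/
def BrickS (p : ℕ)
    (cond : Finset ℕ → Finset ℕ →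
      ∀ ⦃A : Type⦄ [CommRing A] [IsLocalRing A] [Algebra 𝒪 A], GaloisRepAdic A → Prop)
    (atp : ∀ ρbar : ResidualGaloisRep (ResidueField 𝒪),
      (GalQ → Module.End (ResidueField 𝒪) ρbar.V) → Prop) : Prop :=
  ∀ (ρbar : ResidualGaloisRep (ResidueField 𝒪)) (S Smin : Finset ℕ), Hyp 𝒪 p ρbar S Smin →
    cond Smin Smin (GaloisRepAdic.ofResidualGaloisRep ρbar) →
    ∃ r : ℕ, ∀ n : ℕ, ∃ qv : Fin r → ℕ, IsTWFamily 𝒪 p ρbar S n qv ∧
      ∀ s : Finset (GalQ → Module.End (ResidueField 𝒪) ρbar.V),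
        (∀ c ∈ s, IsSelmerCocycle ρbar p Smin (Smin ∪ Finset.univ.image qv) (atp ρbar) c ∧
          ¬ Cohomologous ρbar 0 c) →
        (∀ c ∈ s, ∀ c' ∈ s, Cohomologous ρbar c c' → c = c') →
        s.card + 1 ≤ Nat.card (ResidueField 𝒪) ^ r

/-- Pillar (D), strict-ordinary. -/
def BrickD_SO (p : ℕ) : Prop :=
  BrickD 𝒪 p (fun Smin T => condSO 𝒪 p Smin T) (fun ρbar => SOLocal ρbar p)

/-- Pillar (D), flat. -/
def BrickD_FL (p : ℕ) : Prop :=
  BrickD 𝒪 p (fun Smin T => condFL 𝒪 p Smin T) (fun ρbar => FLLocal ρbar p)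

/-- Pillar (S), strict-ordinary. -/
def BrickS_SO (p : ℕ) : Prop :=
  BrickS 𝒪 p (fun Smin T => condSO 𝒪 p Smin T) (fun ρbar => SOLocal ρbar p)

/-- Pillar (S), flat. -/
def BrickS_FL (p : ℕ) : Prop :=
  BrickS 𝒪 p (fun Smin T => condFL 𝒪 p Smin T) (fun ρbar => FLLocal ρbar p)

end Statements

end Fermat.Agent.TW.Interface
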