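/-
Programme TW (S56), brick B5-(H), leaf 6 (helper48): the local model of `B5/Iface` versus the
abstract model of `PT/LOC`; scalars `ℤ_(p)`.

For a finite-dimensional `E : IntermediateField ℚ_[p] (PadicAlgCl p)`:
* `norm_eq_spectralNorm` : the norm of `PadicAlgCl p` restricted to `E` is the spectral norm of `E`;
* `toInt`, `ofInt` : mutually inverse ring isomorphisms `intSubring p E ≃ intRing p E`
  (`intRing = integralClosure ℤ_[p] E`, a complete discrete valuation ring by `PT/LOC`);
* `zlocToPadicInt : ℤ_(p) →+* ℤ_[p]` and the induced `ℤ_(p)`-algebra structures.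
-/
import Mathlib
import Fermat.Agent.TW.B5.Iface
import Fermat.Agent.PT.LOC.StructureTower27
import Fermat.Agent.PT.LOC.StructureNorm14

set_option autoImplicit false
set_option linter.unusedSectionVars false

open scoped Fermat.Agent.PT.LOC.Interface12
open Fermat.Agent.PT.LOC.Interface12 Fermat.Agent.PT.LOC.Structure14
open Fermat.Agent.TW.B5.Iface

namespace Fermat.Agent.TW.PmModel48

noncomputable section

variable (p : ℕ) [hp : Fact p.Prime]

section Norm

variable (E : IntermediateField ℚ_[p] (Kbar p))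

theorem norm_eq_spectralNorm (x : E) : ‖(x : Kbar p)‖ = spectralNorm ℚ_[p] E x := by
  rw [← PadicAlgCl.spectralNorm_eq]
  exact (spectralNorm.eq_of_tower (K := ℚ_[p]) (L := Kbar p) x).symm

variable [FiniteDimensional ℚ_[p] E]

theorem mem_intRing_iff_norm (x : E) : x ∈ intRing p E ↔ ‖(x : Kbar p)‖ ≤ 1 := by
  rw [mem_intRing_iff, norm_eq_spectralNorm]

/-- `intSubring p E → intRing p E`. -/
def toInt : intSubring p E →+* intRing p E where
  toFun x := ⟨⟨x.1, x.2.1⟩, (mem_intRing_iff_norm p E ⟨x.1, x.2.1⟩).mpr x.2.2⟩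
  map_one' := rfl
  map_mul' _ _ := rfl
  map_zero' := rfl
  map_add' _ _ := rfl

/-- `intRing p E → intSubring p E`. -/
def ofInt : intRing p E →+* intSubring p E where
  toFun y := ⟨((y : E) : Kbar p), ⟨(y : E).2, (mem_intRing_iff_norm p E y).mp y.2⟩⟩
  map_one' := rfl
  map_mul' _ _ := rfl
  map_zero' := rfl
  map_add' _ _ := rfl

@[simp] theorem ofInt_toInt (x : intSubring p E) : ofInt p E (toInt p E x) = x := rfl

@[simp] theorem toInt_ofInt (y : intRing p E) : toInt p E (ofInt p E y) = y := rfl

theorem coe_ofInt (y : intRing p E) : ((ofInt p E y : intSubring p E) : Kbar p) = ((y : E) : Kbar p) :=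
  rfl

theorem coe_toInt (x : intSubring p E) : (((toInt p E x : intRing p E) : E) : Kbar p) = (x : Kbar p) :=
  rfl

theorem ofInt_injective : Function.Injective (ofInt p E) := fun a b h => by
  have := congrArg (toInt p E) h
  simpa using this

theorem ofInt_surjective : Function.Surjective (ofInt p E) := fun x => ⟨toInt p E x, rfl⟩

end Norm

section Scalars

/-- The canonical map `ℤ_(p) → ℤ_[p]`. -/
def zlocToPadicInt : Zloc p →+* ℤ_[p] where
  toFun r := ⟨((r : ℚ) : ℚ_[p]), Padic.norm_rat_le_one (by
    have h : (r : ℚ).den.Coprime p := r.2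
    exact fun hd => (Nat.Prime.coprime_iff_not_dvd hp.out).mp h.symm hd)⟩
  map_one' := by apply Subtype.ext; simp
  map_mul' a b := by
    apply Subtype.ext
    show (((a * b : Zloc p) : ℚ) : ℚ_[p]) = ((a : ℚ) : ℚ_[p]) * ((b : ℚ) : ℚ_[p])
    rw [Subring.coe_mul, Rat.cast_mul]
  map_zero' := by apply Subtype.ext; simp
  map_add' a b := by
    apply Subtype.ext
    show (((a + b : Zloc p) : ℚ) : ℚ_[p]) = ((a : ℚ) : ℚ_[p]) + ((b : ℚ) : ℚ_[p])
    rw [Subring.coe_add, Rat.cast_add]

theorem coe_zlocToPadicInt (r : Zloc p) : ((zlocToPadicInt p r : ℤ_[p]) : ℚ_[p]) = ((r : ℚ) : ℚ_[p]) :=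
  rfl

theorem algebraMap_zloc_kbar (r : Zloc p) : algebraMap (Zloc p) (Kbar p) r = ((r : ℚ) : Kbar p) := by
  rfl

end Scalars

section Finite

open Polynomial

/-- A module-finite algebra has finitely many algebra maps to a domain. -/
theorem finite_algHom_of_module_finite (R H Ω : Type*) [CommRing R] [CommRing H] [Algebra R H]
    [Module.Finite R H] [CommRing Ω] [IsDomain Ω] [Algebra R Ω] : Finite (H →ₐ[R] Ω) := by
  classical
  have : Nontrivial R := (algebraMap R Ω).domain_nontrivial
  obtain ⟨n, s, hs⟩ := Module.Finite.exists_fin (R := R) (M := H)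
  have hint : ∀ i, IsIntegral R (s i) := fun i => Algebra.IsIntegral.isIntegral (s i)
  choose P hPm hP using hint
  let T : Fin n → Set Ω := fun i => (P i).rootSet Ω
  have hTfin : ∀ i, Finite (T i) := fun i => (rootSet_finite (P i) Ω).to_subtype
  let F : (H →ₐ[R] Ω) → (∀ i, T i) := fun f i => ⟨f (s i), by
    rw [mem_rootSet']
    refine ⟨((hPm i).map (algebraMap R Ω)).ne_zero, ?_⟩
    have h1 : aeval (f (s i)) (P i) = f (aeval (s i) (P i)) := (aeval_algHom_apply f (s i) (P i))
    rw [h1]
    have h2 : aeval (s i) (P i) = 0 := hP i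
    rw [h2, map_zero]⟩
  have hF : Function.Injective F := by
    intro f g hfg
    apply AlgHom.toLinearMap_injective
    apply LinearMap.ext_on_range hs
    intro i
    have := congrFun hfg i
    exact congrArg Subtype.val this
  exact Finite.of_injective F hF

end Finite

section IntAlgebra

variable (E : IntermediateField ℚ_[p] (Kbar p)) [FiniteDimensional ℚ_[p] E]

/-- `ℤ_(p) → 𝒪_E`. -/
def zlocToInt : Zloc p →+* intRing p E :=
  (algebraMap ℤ_[p] (intRing p E)).comp (zlocToPadicInt p)

/-- The `ℤ_(p)`-algebra structure of `𝒪_E`. -/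
@[reducible] def algZlocInt : Algebra (Zloc p) (intRing p E) := (zlocToInt p E).toAlgebra

theorem coe_zlocToInt (r : Zloc p) :
    (((zlocToInt p E r : intRing p E) : E) : Kbar p) = ((r : ℚ) : Kbar p) := by
  show algebraMap E (Kbar p) (algebraMap ℚ_[p] E ((r : ℚ) : ℚ_[p])) = ((r : ℚ) : Kbar p)
  rw [map_ratCast, map_ratCast]

/-- The inclusion `𝒪_E → K̄` as a `ℤ_(p)`-algebra map. -/
def incl : letI := algZlocInt p E; intRing p E →ₐ[Zloc p] Kbar p :=
  letI := algZlocInt p E
  { toFun := fun y => ((y : E) : Kbar p)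
    map_one' := rfl
    map_mul' := fun _ _ => rfl
    map_zero' := rfl
    map_add' := fun _ _ => rfl
    commutes' := fun r => coe_zlocToInt p E r }

theorem incl_apply (y : intRing p E) : incl p E y = ((y : E) : Kbar p) := rfl

theorem incl_injective : Function.Injective (incl p E) := by
  intro a b h
  apply Subtype.ext
  apply Subtype.ext
  exact h

end IntAlgebra

end

end Fermat.Agent.TW.PmModel48
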