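/-
Programme TW (S56), brick B5, glue (H) → (K) (helper48): **base change of Fontaine's property
`(P_m)`** in the `K̄`-model of `B5/Iface` ("Galois twist").

For `K₀ ≤ K` intermediate fields of `K̄ = PadicAlgCl p`, `K` finite over `ℚ_p`, and `L` stable
under `Gal(K̄/K₀)`:

  `FontainePm p K₀ L → FontainePm p K L`.

Proof.  A test ring `C` for `(K, L)` is a test ring for `(K₀, L)`, so `(P_m)` over `K₀` gives a ring
map `ι : 𝒪_L → C` over `𝒪_{K₀}` (not necessarily over `𝒪_K`).  Choose an `𝒪_K`-embedding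
`j : C → K̄`.  Then `j ∘ ι : 𝒪_L → K̄` fixes `𝒪_{K₀}`, hence is the restriction of some
`τ ∈ Gal(K̄/K₀)` (uniqueness of algebraic closures over the domain `𝒪_L`), and
`ι ∘ τ⁻¹ : 𝒪_L → C` (`τ⁻¹ 𝒪_L = 𝒪_L` by normality) satisfies `j ∘ (ι ∘ τ⁻¹) = id`; in particular it is
`𝒪_K`-linear, `j` being injective.

* `zpToSub E : ℤ_[p] →+* intSubring p E`, `moduleFinite_intSubring`;
* `exists_galois_extension` : a ring map `𝒪_L → K̄` fixing `𝒪_{K₀}` extends to `τ ∈ Gal(K̄/K₀)`;
* `fontainePm_base_change`.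
-/
import Mathlib
import Fermat.Agent.TW.B5.Iface
import Fermat.Agent.TW.PmModel48

set_option autoImplicit false
set_option linter.unusedSectionVars false
set_option linter.style.haveILetI false

open IsLocalRing
open scoped Fermat.Agent.PT.LOC.Interface12
open Fermat.Agent.PT.LOC.Interface12 Fermat.Agent.PT.LOC.Structure14
open Fermat.Agent.TW.B5.Iface Fermat.Agent.TW.PmModel48

namespace Fermat.Agent.TW.PmTwist48

noncomputable section

variable (p : ℕ) [hp : Fact p.Prime]

/-! ### `ℤ_p → 𝒪_E` -/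

section Zp

variable (E : IntermediateField ℚ_[p] (Kbar p))

/-- `ℤ_p → 𝒪_E` (subring model). -/
def zpToSub : ℤ_[p] →+* intSubring p E where
  toFun x := ⟨algebraMap ℚ_[p] (Kbar p) (x : ℚ_[p]), ⟨E.algebraMap_mem _, by
    rw [PadicAlgCl.norm_extends]; exact x.2⟩⟩
  map_one' := Subtype.ext (by simp)
  map_mul' x y := Subtype.ext (by simp)
  map_zero' := Subtype.ext (by simp)
  map_add' x y := Subtype.ext (by simp)

@[simp] theorem coe_zpToSub (x : ℤ_[p]) :
    ((zpToSub p E x : intSubring p E) : Kbar p) = algebraMap ℚ_[p] (Kbar p) (x : ℚ_[p]) := rfl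

theorem zpToSub_injective : Function.Injective (zpToSub p E) := by
  intro x y h
  have h1 := congrArg (fun z : intSubring p E => (z : Kbar p)) h
  simp only [coe_zpToSub] at h1
  exact Subtype.ext ((algebraMap ℚ_[p] (Kbar p)).injective h1)

/-- The `ℤ_p`-algebra structure on `𝒪_E` (not an instance). -/
@[reducible] def algZpSub : Algebra ℤ_[p] (intSubring p E) := (zpToSub p E).toAlgebra

theorem ofInt_algebraMap [FiniteDimensional ℚ_[p] E] (c : ℤ_[p]) :
    ofInt p E (algebraMap ℤ_[p] (intRing p E) c) = zpToSub p E c := rfl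

/-- `𝒪_E` is a finite `ℤ_p`-module. -/
theorem moduleFinite_intSubring [FiniteDimensional ℚ_[p] E] :
    letI := algZpSub p E
    Module.Finite ℤ_[p] (intSubring p E) := by
  letI := algZpSub p E
  let f : intRing p E →ₗ[ℤ_[p]] intSubring p E :=
    { toFun := ofInt p E
      map_add' := map_add _
      map_smul' := fun c x => by
        rw [Algebra.smul_def, Algebra.smul_def, map_mul, ofInt_algebraMap]
        rfl }
  exact Module.Finite.of_surjective f (ofInt_surjective p E)

end Zp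

/-! ### Extending ring maps on `𝒪_L` to automorphisms of `K̄` -/

section Extend

/-- `K̄` is algebraic over `ℤ_p`. -/
theorem isAlgebraic_zp (x : Kbar p) :
    ∃ P : Polynomial ℤ_[p], P ≠ 0 ∧
      Polynomial.eval₂ ((algebraMap ℚ_[p] (Kbar p)).comp (algebraMap ℤ_[p] ℚ_[p])) x P = 0 := by
  have h1 : IsAlgebraic ℚ_[p] x := Algebra.IsAlgebraic.isAlgebraic x
  have h2 : IsAlgebraic ℤ_[p] x := (IsFractionRing.isAlgebraic_iff ℤ_[p] ℚ_[p] (Kbar p)).mpr h1
  obtain ⟨P, hP0, hP⟩ := h2
  refine ⟨P, hP0, ?_⟩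
  rw [Polynomial.aeval_def, IsScalarTower.algebraMap_eq ℤ_[p] ℚ_[p] (Kbar p)] at hP
  exact hP

variable (L : IntermediateField ℚ_[p] (Kbar p))

/-- `K̄` is algebraic over `𝒪_L` for any algebra structure which is the standard one on `ℤ_p`. -/
theorem isAlgebraic_of_fixes [alg : Algebra (intSubring p L) (Kbar p)]
    (hφ : ∀ c : ℤ_[p], algebraMap (intSubring p L) (Kbar p) (zpToSub p L c)
      = algebraMap ℚ_[p] (Kbar p) (c : ℚ_[p])) :
    Algebra.IsAlgebraic (intSubring p L) (Kbar p) := by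
  refine ⟨fun x => ?_⟩
  obtain ⟨P, hP0, hP⟩ := isAlgebraic_zp p x
  refine ⟨P.map (zpToSub p L), ?_, ?_⟩
  · rwa [Ne, Polynomial.map_eq_zero_iff (zpToSub_injective p L)]
  · rw [Polynomial.aeval_def, Polynomial.eval₂_map]
    have h1 : (algebraMap (intSubring p L) (Kbar p)).comp (zpToSub p L)
        = (algebraMap ℚ_[p] (Kbar p)).comp (algebraMap ℤ_[p] ℚ_[p]) := by
      ext c
      exact hφ c
    rw [h1]
    exact hP

/-- A ring embedding `𝒪_L → K̄` which is the identity on `ℤ_p` is the restriction of an element of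
`G_p = Gal(K̄/ℚ_p)`. -/
theorem exists_gp_extension (φ : intSubring p L →+* Kbar p) (hφinj : Function.Injective φ)
    (hφ : ∀ c : ℤ_[p], φ (zpToSub p L c) = algebraMap ℚ_[p] (Kbar p) (c : ℚ_[p])) :
    ∃ τ : Gp p, ∀ y : intSubring p L, τ (y : Kbar p) = φ y := by
  let alg1 : Algebra (intSubring p L) (Kbar p) := inferInstance
  let alg2 : Algebra (intSubring p L) (Kbar p) := φ.toAlgebra
  have tf1 : @Module.IsTorsionFree (intSubring p L) (Kbar p) _ _ alg1.toModule :=
    (@Module.isTorsionFree_iff_algebraMap_injective (intSubring p L) (Kbar p) _ _ alg1 _ _).mpr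
      Subtype.val_injective
  have tf2 : @Module.IsTorsionFree (intSubring p L) (Kbar p) _ _ alg2.toModule :=
    (@Module.isTorsionFree_iff_algebraMap_injective (intSubring p L) (Kbar p) _ _ alg2 _ _).mpr
      hφinj
  have ac1 : @IsAlgClosure (intSubring p L) (Kbar p) _ _ alg1 tf1 :=
    @IsAlgClosure.mk _ _ _ _ alg1 tf1 inferInstance
      (@isAlgebraic_of_fixes p _ L alg1 (fun _ => rfl))
  have ac2 : @IsAlgClosure (intSubring p L) (Kbar p) _ _ alg2 tf2 :=
    @IsAlgClosure.mk _ _ _ _ alg2 tf2 inferInstance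
      (@isAlgebraic_of_fixes p _ L alg2 hφ)
  let τ0 : @AlgEquiv (intSubring p L) (Kbar p) (Kbar p) _ _ _ alg1 alg2 :=
    @IsAlgClosure.equiv (intSubring p L) _ _ (Kbar p) (Kbar p) _ _ alg2 tf2 ac2 alg1 tf1 ac1
  have hτ0 : ∀ y : intSubring p L, τ0 (y : Kbar p) = φ y := fun y =>
    @AlgEquiv.commutes (intSubring p L) (Kbar p) (Kbar p) _ _ _ alg1 alg2 τ0 y
  have hzp : ∀ c : ℤ_[p], τ0 (algebraMap ℚ_[p] (Kbar p) (c : ℚ_[p]))
      = algebraMap ℚ_[p] (Kbar p) (c : ℚ_[p]) := by
    intro c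
    have h1 := hτ0 (zpToSub p L c)
    rw [hφ, coe_zpToSub] at h1
    exact h1
  have hfix : ∀ r : ℚ_[p], τ0 (algebraMap ℚ_[p] (Kbar p) r) = algebraMap ℚ_[p] (Kbar p) r := by
    intro r
    obtain ⟨a, b, hb, rfl⟩ := IsFractionRing.div_surjective (A := ℤ_[p]) r
    rw [map_div₀, map_div₀]
    exact congrArg₂ (· / ·) (hzp a) (hzp b)
  refine ⟨AlgEquiv.ofRingEquiv (f := (τ0 : Kbar p ≃+* Kbar p)) hfix, fun y => ?_⟩
  exact hτ0 y

end Extend

/-! ### Auxiliary lemmas -/

/-- A ring map out of a domain integral over `R` which is injective on `R` is injective. -/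
theorem injective_of_isIntegral {R S T : Type*} [CommRing R] [Nontrivial R] [CommRing S] [IsDomain S] [CommRing T]
    [Algebra R S] [Algebra.IsIntegral R S] (f : S →+* T)
    (h : Function.Injective (f.comp (algebraMap R S))) : Function.Injective f := by
  rw [injective_iff_map_eq_zero]
  intro c hc
  by_contra hc0
  have h1 := Ideal.comap_ne_bot_of_integral_mem (R := R) hc0
    (show c ∈ RingHom.ker f from hc) (Algebra.IsIntegral.isIntegral c)
  apply h1
  rw [eq_bot_iff]
  intro a ha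
  have h2 : f (algebraMap R S a) = 0 := ha
  rw [Ideal.mem_bot]
  apply h
  rw [RingHom.comp_apply, h2, map_zero]

/-- `K₀ = Frac 𝒪_{K₀}`: every element of `K₀` is an integer divided by a power of `p`. -/
theorem exists_pow_mul_mem (K₀ : IntermediateField ℚ_[p] (Kbar p)) {x : Kbar p}
    (hx : x ∈ K₀) : ∃ k : ℕ, (p : Kbar p) ^ k * x ∈ intSubring p K₀ := by
  have hp1 : (1 : ℝ) < p := by exact_mod_cast hp.out.one_lt
  have hnp : ‖(p : Kbar p)‖ = (p : ℝ)⁻¹ := by
    have h1 : ((p : ℕ) : Kbar p) = algebraMap ℚ_[p] (Kbar p) (p : ℚ_[p]) := by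
      rw [map_natCast]
    rw [h1, PadicAlgCl.norm_extends]
    exact Padic.norm_p
  obtain ⟨k, hk⟩ := pow_unbounded_of_one_lt ‖x‖ hp1
  refine ⟨k, ⟨K₀.mul_mem (pow_mem (natCast_mem K₀ p) k) hx, ?_⟩⟩
  rw [norm_mul, norm_pow, hnp, inv_pow]
  have hpos : (0 : ℝ) < (p : ℝ) ^ k := pow_pos (by linarith) k
  rw [inv_mul_le_iff₀ hpos, mul_one]
  exact hk.le

theorem norm_gp (τ : Gp p) (y : Kbar p) : ‖τ y‖ = ‖y‖ := by
  have h := nnnorm_padicAlgCl_algEquiv p τ y
  rw [← coe_nnnorm, ← coe_nnnorm, h]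

/-! ### The base change -/

section BaseChange

variable (K₀ K L : IntermediateField ℚ_[p] (Kbar p))

/-- **Base change of `(P_m)`** along `K₀ ≤ K ≤ L`, `L` normal over `K₀`. -/
theorem fontainePm_base_change [FiniteDimensional ℚ_[p] K] [FiniteDimensional ℚ_[p] L]
    (hK₀K : K₀ ≤ K) (hKL : K ≤ L) (hLn : IsNormalOver p K₀ L)
    (h : FontainePm p K₀ L) : FontainePm p K L := by
  intro C _ _ _ _ _ _ N e heC hN η hη
  have hK₀L : K₀ ≤ L := hK₀K.trans hKL
  -- `𝒪_{K₀} → 𝒪_K` and the `𝒪_{K₀}`-algebra structure of `C`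
  let inc : intSubring p K₀ →+* intSubring p K :=
    Subring.inclusion (fun x hx => ⟨hK₀K hx.1, hx.2⟩)
  have hAinj : Function.Injective (algebraMap (intSubring p K) C) :=
    FaithfulSMul.algebraMap_injective _ _
  letI alg0 : Algebra (intSubring p K₀) C := ((algebraMap (intSubring p K) C).comp inc).toAlgebra
  have hinc : Function.Injective inc := Subring.inclusion_injective _
  have hA0inj : Function.Injective (algebraMap (intSubring p K₀) C) := hAinj.comp hinc
  haveI : NoZeroSMulDivisors (intSubring p K₀) C := ⟨fun {c x} hcx => by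
    rw [Algebra.smul_def] at hcx
    rcases mul_eq_zero.mp hcx with h0 | h0
    · exact Or.inl (hA0inj (by rw [h0, map_zero]))
    · exact Or.inr h0⟩
  haveI : Module.Finite (intSubring p K₀) C := by
    letI := algZpSub p K
    letI := algZpSub p K₀
    letI algZC : Algebra ℤ_[p] C :=
      ((algebraMap (intSubring p K) C).comp (zpToSub p K)).toAlgebra
    haveI : IsScalarTower ℤ_[p] (intSubring p K) C := IsScalarTower.of_algebraMap_eq (fun _ => rfl)
    haveI : IsScalarTower ℤ_[p] (intSubring p K₀) C :=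
      IsScalarTower.of_algebraMap_eq (fun _ => rfl)
    haveI : Module.Finite ℤ_[p] (intSubring p K) := moduleFinite_intSubring p K
    haveI : Module.Finite ℤ_[p] C := Module.Finite.trans (intSubring p K) C
    exact Module.Finite.of_restrictScalars_finite ℤ_[p] (intSubring p K₀) C
  -- `(P_m)` over `K₀`
  obtain ⟨ι, hι⟩ := h C N e heC hN η (fun a ha => hη (inc a) ha)
  -- an embedding of `C` into `K̄` over `𝒪_K`
  haveI : Algebra.IsAlgebraic (intSubring p K) C := Algebra.IsAlgebraic.of_finite _ _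
  let j : C →ₐ[intSubring p K] Kbar p := IsAlgClosed.lift
  have hjA : ∀ a : intSubring p K, j (algebraMap (intSubring p K) C a) = (a : Kbar p) :=
    fun a => j.commutes a
  have hjinj : Function.Injective j := by
    haveI : Algebra.IsIntegral (intSubring p K) C := inferInstance
    apply injective_of_isIntegral (R := intSubring p K) (j : C →+* Kbar p)
    intro a b hab
    rw [RingHom.comp_apply, RingHom.comp_apply] at hab
    change j (algebraMap (intSubring p K) C a) = j (algebraMap (intSubring p K) C b) at hab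
    rw [hjA, hjA] at hab
    exact Subtype.ext hab
  -- the composite `𝒪_L → C → K̄`
  let φ : intSubring p L →+* Kbar p := (j : C →+* Kbar p).comp ι
  have hφK₀ : ∀ (a : intSubring p K₀) (ha : (a : Kbar p) ∈ intSubring p L),
      φ ⟨a, ha⟩ = (a : Kbar p) := by
    intro a ha
    show j (ι ⟨a, ha⟩) = a
    rw [hι a ha]
    exact hjA (inc a)
  have hφzp : ∀ c : ℤ_[p], φ (zpToSub p L c) = algebraMap ℚ_[p] (Kbar p) (c : ℚ_[p]) :=
    fun c => hφK₀ (zpToSub p K₀ c) (zpToSub p L c).2
  have hφinj : Function.Injective φ := by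
    letI := algZpSub p L
    haveI : Module.Finite ℤ_[p] (intSubring p L) := moduleFinite_intSubring p L
    haveI : Algebra.IsIntegral ℤ_[p] (intSubring p L) := inferInstance
    apply injective_of_isIntegral (R := ℤ_[p]) φ
    intro a b hab
    rw [RingHom.comp_apply, RingHom.comp_apply] at hab
    change φ (zpToSub p L a) = φ (zpToSub p L b) at hab
    rw [hφzp, hφzp] at hab
    exact Subtype.ext ((algebraMap ℚ_[p] (Kbar p)).injective hab)
  obtain ⟨τ, hτ⟩ := exists_gp_extension p L φ hφinj hφzp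
  -- `τ` fixes `K₀`
  have hp0 : (p : Kbar p) ≠ 0 := Nat.cast_ne_zero.mpr hp.out.ne_zero
  have hτK₀ : ∀ x ∈ K₀, τ x = x := by
    intro x hx
    obtain ⟨k, hk⟩ := exists_pow_mul_mem p K₀ hx
    have hkL : (p : Kbar p) ^ k * x ∈ intSubring p L := ⟨hK₀L hk.1, hk.2⟩
    have h1 := hτ ⟨_, hkL⟩
    rw [hφK₀ ⟨_, hk⟩ hkL] at h1
    change τ ((p : Kbar p) ^ k * x) = (p : Kbar p) ^ k * x at h1
    rw [map_mul, map_pow, map_natCast] at h1
    exact mul_left_cancel₀ (pow_ne_zero k hp0) h1
  have hτK₀' : ∀ x ∈ K₀, (τ⁻¹ : Gp p) x = x := by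
    intro x hx
    have h1 : (τ⁻¹ : Gp p) (τ x) = x := by
      show τ.symm (τ x) = x
      exact τ.symm_apply_apply x
    rw [hτK₀ x hx] at h1
    exact h1
  -- `τ⁻¹` preserves `𝒪_L`
  have hτL : ∀ y : intSubring p L, (τ⁻¹ : Gp p) (y : Kbar p) ∈ intSubring p L := fun y =>
    ⟨hLn τ⁻¹ hτK₀' y y.2.1, by rw [norm_gp]; exact y.2.2⟩
  let σ : intSubring p L →+* intSubring p L :=
    { toFun := fun y => ⟨(τ⁻¹ : Gp p) (y : Kbar p), hτL y⟩
      map_one' := Subtype.ext (map_one _)
      map_mul' := fun x y => Subtype.ext (map_mul _ _ _)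
      map_zero' := Subtype.ext (map_zero _)
      map_add' := fun x y => Subtype.ext (map_add _ _ _) }
  refine ⟨ι.comp σ, fun a ha => ?_⟩
  apply hjinj
  rw [hjA]
  show φ (σ ⟨a, ha⟩) = (a : Kbar p)
  rw [← hτ]
  show τ ((τ⁻¹ : Gp p) (a : Kbar p)) = (a : Kbar p)
  show τ (τ.symm (a : Kbar p)) = (a : Kbar p)
  exact τ.apply_symm_apply _

end BaseChange

end

end Fermat.Agent.TW.PmTwist48
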