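/-
Programme TW (S56), sub-programme C = GREENBERG–WILES INEQUALITY on top of PT/ (S55 library).
Interface file (helper97, sub-architect C).  Definitions + statement shapes ONLY; no proofs of
substance.  Everything lives over `ZMod p` in the level-cohomology model of `PT/PRO/LevelCoh28`
with the bases of `PT/BR/LevelBridge13`, exactly as in `PT/BR/ShaBridge13` (used by S55):

* `Γ = Gal(ℚ̄/ℚ)`, `S : Finset Nat.Primes`, `M : Rep (ZMod p) Γ`;
* global groups  `H1g S M`, `H2g S M`   (level basis `globalBasis S` = fields unramified outside `S`);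
* local groups   `H1l q M`, `H2l q M`   (group `primeLocalGaloisGroup q`, basis pulled back along
  `primeLocalToGlobal q`), restriction maps `res1`, `res2` (= `ShaBridge13.resH1/resH2`);
* `dual M = M.dualTwist (cycloChar p)` (Tate dual `M^∨(1)`), `h0g`, `h0l`, `h0c` (invariants of `Γ`,
  of the local group at `q`, of complex conjugation);
* Selmer groups `Sel S M L` for a family `L q ≤ H1l q M`, `q ∈ S`.

DELIVERABLE of sub-programme C (consumed by the assembly of S56): `Nonempty (GWPackage p)` for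
`p ≠ 2`, see `GWPackage` below.  Internal brick statements: `MiddleExact`, `TailBound`,
`GlobalEulerLe`, `LocalEuler`, `ShaCount`.
-/
import Mathlib
import Fermat.Agent.PT.BR.ShaBridge13
import Fermat.Prelude.Def_GaloisRep_ComplexConjugation

set_option autoImplicit false

open ExtCitation
open Fermat.Agent.PT.PRO Fermat.Agent.PT.BR Fermat.Agent.PT.BR.LevelBridge13

namespace Fermat.Agent.TW.GWIface97

local notation "Γ" => (AlgebraicClosure ℚ ≃ₐ[ℚ] AlgebraicClosure ℚ)

variable {p : ℕ} [Fact p.Prime]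

/-! ### Coefficient modules -/

/-- Standing hypotheses on a coefficient module (verbatim those of S55): finite-dimensional,
smooth (open stabilisers), unramified outside `S`. -/
structure IsGood (S : Finset Nat.Primes) (M : Rep.{0} (ZMod p) Γ) : Prop where
  fin : FiniteDimensional (ZMod p) M
  smooth : ∀ m : M, ∃ F : IntermediateField ℚ (AlgebraicClosure ℚ), FiniteDimensional ℚ F ∧
    ∀ s ∈ F.fixingSubgroup, M.ρ s m = m
  unram : ∀ q : Nat.Primes, q ∉ S → ∀ A : ValuationSubring (AlgebraicClosure ℚ),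
    A.LiesOverPrime (q : ℕ) → ∀ g ∈ A.inertiaSubgroupIn ℚ, M.ρ g = 1

/-- The Tate dual `M^∨(1)`. -/
noncomputable abbrev dual (M : Rep.{0} (ZMod p) Γ) : Rep.{0} (ZMod p) Γ :=
  M.dualTwist (cycloChar p)

/-! ### Cohomology groups -/

/-- `H¹(G_S, M)` (level cohomology of `Γ` w.r.t. the fields unramified outside `S`). -/
abbrev H1g (S : Finset Nat.Primes) (M : Rep.{0} (ZMod p) Γ) : Type :=
  LevelCoh28.H1 (globalBasis S) M

/-- `H²(G_S, M)`. -/
abbrev H2g (S : Finset Nat.Primes) (M : Rep.{0} (ZMod p) Γ) : Type :=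
  LevelCoh28.H2 (globalBasis S) M

/-- `H¹(ℚ_q, M)` (continuous cohomology of `Gal(ℚ̄_q/ℚ_q)`). -/
abbrev H1l (q : Nat.Primes) (M : Rep.{0} (ZMod p) Γ) : Type :=
  LevelCoh28.H1 (pullBasis (primeLocalToGlobal q)) (Rep.res (primeLocalToGlobal q) M)

/-- `H²(ℚ_q, M)`. -/
abbrev H2l (q : Nat.Primes) (M : Rep.{0} (ZMod p) Γ) : Type :=
  LevelCoh28.H2 (pullBasis (primeLocalToGlobal q)) (Rep.res (primeLocalToGlobal q) M)

/-- Restriction `H¹(G_S, M) → H¹(ℚ_q, M)`. -/
noncomputable abbrev res1 (S : Finset Nat.Primes) (q : Nat.Primes) (M : Rep.{0} (ZMod p) Γ) :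
    H1g S M →ₗ[ZMod p] H1l q M :=
  ShaBridge13.resH1 S (primeLocalToGlobal q) M

/-- Restriction `H²(G_S, M) → H²(ℚ_q, M)`. -/
noncomputable abbrev res2 (S : Finset Nat.Primes) (q : Nat.Primes) (M : Rep.{0} (ZMod p) Γ) :
    H2g S M →ₗ[ZMod p] H2l q M :=
  ShaBridge13.resH2 S (primeLocalToGlobal q) M

/-- `h⁰(G_ℚ, M)`. -/
noncomputable def h0g (M : Rep.{0} (ZMod p) Γ) : ℕ :=
  Module.finrank (ZMod p) M.ρ.invariants

/-- `h⁰(ℚ_q, M)`. -/
noncomputable def h0l (q : Nat.Primes) (M : Rep.{0} (ZMod p) Γ) : ℕ :=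
  Module.finrank (ZMod p) (Rep.res (primeLocalToGlobal q) M).ρ.invariants

/-- `h⁰(ℝ, M)`: dimension of the fixed space of the complex conjugation of the prelude. -/
noncomputable def h0c (M : Rep.{0} (ZMod p) Γ) : ℕ :=
  Module.finrank (ZMod p) (LinearMap.ker (M.ρ complexConjugation - 1))

/-! ### Selmer groups -/

/-- The Selmer group cut out by the local conditions `L q ≤ H¹(ℚ_q, M)`, `q ∈ S`, inside
`H¹(G_S, M)` (classes unramified outside `S`). -/
noncomputable def Sel (S : Finset Nat.Primes) (M : Rep.{0} (ZMod p) Γ)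
    (L : ∀ q : ↥S, Submodule (ZMod p) (H1l q.1 M)) : Submodule (ZMod p) (H1g S M) :=
  ⨅ q : ↥S, (L q).comap (res1 S q.1 M)

theorem mem_Sel_iff (S : Finset Nat.Primes) (M : Rep.{0} (ZMod p) Γ)
    (L : ∀ q : ↥S, Submodule (ZMod p) (H1l q.1 M)) (x : H1g S M) :
    x ∈ Sel S M L ↔ ∀ q : ↥S, res1 S q.1 M x ∈ L q := by
  simp [Sel, Submodule.mem_iInf]

/-! ### The deliverable -/

/-- **The Greenberg–Wiles package** (deliverable of sub-programme C).

`perp q M L` is the annihilator of `L ≤ H¹(ℚ_q, M)` in `H¹(ℚ_q, M^∨(1))` under local Tate duality;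
it is INTRINSIC (does not depend on any global set `S`).  `main` is the Greenberg–Wiles
inequality: an UPPER bound for the Selmer group of `M` in terms of the dual Selmer group. -/
structure GWPackage (p : ℕ) [Fact p.Prime] where
  /-- local orthogonal complement -/
  perp : ∀ (q : Nat.Primes) (M : Rep.{0} (ZMod p) Γ),
    Submodule (ZMod p) (H1l q M) → Submodule (ZMod p) (H1l q (dual M))
  perp_top : ∀ (q : Nat.Primes) (M : Rep.{0} (ZMod p) Γ) (S : Finset Nat.Primes),
    IsGood S M → perp q M ⊤ = ⊥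
  perp_anti : ∀ (q : Nat.Primes) (M : Rep.{0} (ZMod p) Γ) (L L' : Submodule (ZMod p) (H1l q M)),
    L ≤ L' → perp q M L' ≤ perp q M L
  /-- local finiteness -/
  finite_H1l : ∀ (q : Nat.Primes) (M : Rep.{0} (ZMod p) Γ) (S : Finset Nat.Primes),
    IsGood S M → Module.Finite (ZMod p) (H1l q M)
  /-- local Euler characteristic + duality away from `p` -/
  finrank_H1l : ∀ (q : Nat.Primes) (M : Rep.{0} (ZMod p) Γ) (S : Finset Nat.Primes),
    IsGood S M → (q : ℕ) ≠ p →
      Module.finrank (ZMod p) (H1l q M) = h0l q M + h0l q (dual M)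
  /-- local Euler characteristic + duality at `p` -/
  finrank_H1l_p : ∀ (M : Rep.{0} (ZMod p) Γ) (S : Finset Nat.Primes), IsGood S M →
      Module.finrank (ZMod p) (H1l (pPrime p) M) =
        h0l (pPrime p) M + h0l (pPrime p) (dual M) + Module.finrank (ZMod p) M
  /-- global finiteness -/
  finite_H1g : ∀ (S : Finset Nat.Primes) (M : Rep.{0} (ZMod p) Γ), pPrime p ∈ S → IsGood S M →
    Module.Finite (ZMod p) (H1g S M)
  /-- **the Greenberg–Wiles inequality** -/
  main : ∀ (S : Finset Nat.Primes) (M : Rep.{0} (ZMod p) Γ), pPrime p ∈ S → IsGood S M →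
    ∀ L : ∀ q : ↥S, Submodule (ZMod p) (H1l q.1 M),
      Module.finrank (ZMod p) (Sel S M L) + h0g (dual M) + (∑ q : ↥S, h0l q.1 M) + h0c M ≤
        Module.finrank (ZMod p) (Sel S (dual M) (fun q => perp q.1 M (L q))) + h0g M +
          ∑ q : ↥S, Module.finrank (ZMod p) (L q)

/-- The final statement of sub-programme C. -/
def GWStatement (p : ℕ) [Fact p.Prime] : Prop := p ≠ 2 → Nonempty (GWPackage p)

/-! ### Internal brick statements (C1 – C4, S55 count) -/

/-- A `ZMod p`-valued local pairing at `q` with trivial RIGHT kernel (`H¹(ℚ_q, M^∨(1))` injects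
into the dual of `H¹(ℚ_q, M)`); the left kernel is not needed anywhere in the Greenberg–Wiles
inequality. -/
structure LocalPairing (q : Nat.Primes) (M : Rep.{0} (ZMod p) Γ) where
  pair : H1l q M →ₗ[ZMod p] H1l q (dual M) →ₗ[ZMod p] ZMod p
  right : ∀ y, (∀ x, pair x y = 0) → y = 0

/-- The annihilator of `L` under a local pairing. -/
def LocalPairing.perp {q : Nat.Primes} {M : Rep.{0} (ZMod p) Γ} (T : LocalPairing q M)
    (L : Submodule (ZMod p) (H1l q M)) : Submodule (ZMod p) (H1l q (dual M)) where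
  carrier := {y | ∀ x ∈ L, T.pair x y = 0}
  add_mem' {a b} ha hb x hx := by rw [map_add, ha x hx, hb x hx, add_zero]
  zero_mem' x _ := by rw [map_zero]
  smul_mem' c a ha x hx := by rw [map_smul, ha x hx, smul_zero]

/-- **(C1) middle exactness of Poitou–Tate**, for a fixed intrinsic `perp`: there are right-nondegenerate
local pairings at the places of `S` whose annihilators are given by `perp`, such that the image
of `H¹(G_S, M) → ∏_{q ∈ S} H¹(ℚ_q, M)` is EXACTLY the annihilator of the image of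
`H¹(G_S, M^∨(1))` under the sum of the local pairings. -/
def MiddleExact (perp : ∀ (q : Nat.Primes) (M : Rep.{0} (ZMod p) Γ),
    Submodule (ZMod p) (H1l q M) → Submodule (ZMod p) (H1l q (dual M)))
    (S : Finset Nat.Primes) (M : Rep.{0} (ZMod p) Γ) : Prop :=
  ∃ T : ∀ q : ↥S, LocalPairing q.1 M,
    (∀ (q : ↥S) (L : Submodule (ZMod p) (H1l q.1 M)), (T q).perp L = perp q.1 M L) ∧
    ∀ b : ∀ q : ↥S, H1l q.1 M,
      (∀ y : H1g S (dual M), ∑ q : ↥S, (T q).pair (b q) (res1 S q.1 (dual M) y) = 0) ↔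
        ∃ x : H1g S M, ∀ q : ↥S, res1 S q.1 M x = b q

/-- **(C2) the easy half of the tail**: the image of `H²(G_S, M) → ∏ H²(ℚ_q, M)` has codimension
at least `h⁰(G_ℚ, M^∨(1))`. -/
def TailBound (S : Finset Nat.Primes) (M : Rep.{0} (ZMod p) Γ) : Prop :=
  Module.finrank (ZMod p) (LinearMap.range (ShaBridge13.locH2 S M)) + h0g (dual M) ≤
    ∑ q : ↥S, Module.finrank (ZMod p) (H2l q.1 M)

/-- **(C3) Tate's global Euler characteristic, as ONE inequality**:
`h¹(G_S, M) ≤ h⁰(G_S, M) + h²(G_S, M) + dim M − h⁰(ℝ, M)`. -/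
def GlobalEulerLe (S : Finset Nat.Primes) (M : Rep.{0} (ZMod p) Γ) : Prop :=
  Module.finrank (ZMod p) (H1g S M) + h0c M ≤
    h0g M + Module.finrank (ZMod p) (H2g S M) + Module.finrank (ZMod p) M

/-- **(C4) local duality `h² = h⁰` of the dual + Tate's local Euler characteristic** at `q`. -/
def LocalEuler (q : Nat.Primes) (M : Rep.{0} (ZMod p) Γ) : Prop :=
  Module.Finite (ZMod p) (H1l q M) ∧ Module.Finite (ZMod p) (H2l q M) ∧
  Module.finrank (ZMod p) (H2l q M) = h0l q (dual M) ∧
  Module.finrank (ZMod p) (H1l q M) = h0l q M + Module.finrank (ZMod p) (H2l q M) +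
    (if (q : ℕ) = p then Module.finrank (ZMod p) M else 0)

/-- Auxiliary form of the S55 count for a general pair `(A, M)` (stating it directly with
`A = dual M` makes instance search on the product of local groups fail; same trick as in
`ShaBridge13.s55_of_level`). -/
def ShaCountAt (S : Finset Nat.Primes) (A M : Rep.{0} (ZMod p) Γ) : Prop :=
  Module.Finite (ZMod p) (LinearMap.ker (ShaBridge13.locH1 S A)) ∧
  Module.Finite (ZMod p) (LinearMap.ker (ShaBridge13.locH2 S M)) ∧
  Module.finrank (ZMod p) (LinearMap.ker (ShaBridge13.locH1 S A)) =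
    Module.finrank (ZMod p) (LinearMap.ker (ShaBridge13.locH2 S M))

/-- **(S55 count)** `dim Ш¹(M^∨(1)) = dim Ш²(M)` in level cohomology (this is `MainFinal4.main`
with the three inputs plugged in as in `Fermat/Agent/S55.lean`). -/
def ShaCount (S : Finset Nat.Primes) (M : Rep.{0} (ZMod p) Γ) : Prop :=
  ShaCountAt S (dual M) M

end Fermat.Agent.TW.GWIface97
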