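/-
Programme TW (S56), sub-programme C = GREENBERG–WILES INEQUALITY on top of PT/ (S55 library).
SECOND interface file (helper97, sub-architect C), on top of `GWIface97`.  Statement shapes only.

NEW ARCHITECTURE (after helper62's route for C3, messages 559/601):

* C3 (helper62) proves Tate's global Euler characteristic only for LARGE sets of places:
  `TateEventually S M : ∃ S₀, ∀ S' ⊇ S ∪ S₀, GlobalEulerLe S' M`, from the three inputs
  `GlobalFin`, `GlobalSym`, `GlobalTail` (all finite `S'`, all good `M`) = `TateStatement`.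
* C2 (helper25 + helper44) proves the tail of the nine-term sequence as an EQUALITY: `TailEq S M`.
* consequently the deliverable of C is the Greenberg–Wiles inequality for all LARGE `S'`:
  `GWPackageW` (`W` = weak), whose `main` reads
  `∃ S₀, ∀ S' ⊇ S ∪ S₀, ∀ L, (GW inequality for (S', M, L))`, `S₀` depending on `(S, M)` only.
  For the patching argument this is enough: enlarge the base set `Smin` to `Smin ∪ S₀` with the
  unramified condition `H1ur` at the new places (`dim H1ur ≤ h0l`).
* `H1ur q M` (unramified classes) is defined here, for pillar (S) and for the optional descent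
  `GWPackageW → GWPackage` (bricks C6, only needed if somebody insists on the strong form).
-/
import Mathlib
import Fermat.Agent.TW.GWIface97

set_option autoImplicit false

open ExtCitation
open Fermat.Agent.PT.PRO Fermat.Agent.PT.BR Fermat.Agent.PT.BR.LevelBridge13

namespace Fermat.Agent.TW.GWIface2_97

open Fermat.Agent.TW.GWIface97

local notation "Γ" => (AlgebraicClosure ℚ ≃ₐ[ℚ] AlgebraicClosure ℚ)

variable {p : ℕ} [Fact p.Prime]

/-! ### (C2) the tail, as an equality -/

/-- **(C2) the tail of the nine-term sequence, both halves**: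
`H²(G_S, M) → ∏_{q ∈ S} H²(ℚ_q, M) → H⁰(G_ℚ, M^∨(1))^∨ → 0` is exact, in dimension form. -/
def TailEq (S : Finset Nat.Primes) (M : Rep.{0} (ZMod p) Γ) : Prop :=
  Module.finrank (ZMod p) (LinearMap.range (ShaBridge13.locH2 S M)) + h0g (dual M) =
    ∑ q : ↥S, Module.finrank (ZMod p) (H2l q.1 M)

theorem TailEq.tailBound {S : Finset Nat.Primes} {M : Rep.{0} (ZMod p) Γ} (h : TailEq S M) :
    TailBound S M := le_of_eq h

/-! ### (C3) inputs and output of helper62's proof of Tate's formula -/

/-- **(FIN)** finiteness of the global groups. -/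
def GlobalFin (S : Finset Nat.Primes) (M : Rep.{0} (ZMod p) Γ) : Prop :=
  Module.Finite (ZMod p) (H1g S M) ∧ Module.Finite (ZMod p) (H2g S M)

/-- **(SYM)** `χ(G_S, M) + χ(G_S, M^∨(1)) = - dim M`, written in `ℕ`:
`h⁰(M) + h²(M) + h⁰(M^∨(1)) + h²(M^∨(1)) + dim M = h¹(M) + h¹(M^∨(1))`. -/
def GlobalSym (S : Finset Nat.Primes) (M : Rep.{0} (ZMod p) Γ) : Prop :=
  h0g M + Module.finrank (ZMod p) (H2g S M) + h0g (dual M) +
      Module.finrank (ZMod p) (H2g S (dual M)) + Module.finrank (ZMod p) M =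
    Module.finrank (ZMod p) (H1g S M) + Module.finrank (ZMod p) (H1g S (dual M))

/-- **(TAIL)** `h²(G_S, M) ≥ ∑_{q ∈ S} h⁰(ℚ_q, M^∨(1)) − h⁰(G_ℚ, M^∨(1))`. -/
def GlobalTail (S : Finset Nat.Primes) (M : Rep.{0} (ZMod p) Γ) : Prop :=
  ∑ q : ↥S, h0l q.1 (dual M) ≤ Module.finrank (ZMod p) (H2g S M) + h0g (dual M)

/-- **(C3) output**: Tate's inequality for all sufficiently large sets of places. -/
def TateEventually (S : Finset Nat.Primes) (M : Rep.{0} (ZMod p) Γ) : Prop :=
  ∃ S₀ : Finset Nat.Primes, ∀ S' : Finset Nat.Primes, S ⊆ S' → S₀ ⊆ S' → GlobalEulerLe S' M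

/-- **(C3) the theorem to be proved by helper62's team**, as a `Prop`. -/
def TateStatement (p : ℕ) [Fact p.Prime] : Prop :=
  p ≠ 2 →
  (∀ (S : Finset Nat.Primes) (M : Rep.{0} (ZMod p) Γ), pPrime p ∈ S → IsGood S M →
    GlobalFin S M) →
  (∀ (S : Finset Nat.Primes) (M : Rep.{0} (ZMod p) Γ), pPrime p ∈ S → IsGood S M →
    GlobalSym S M) →
  (∀ (S : Finset Nat.Primes) (M : Rep.{0} (ZMod p) Γ), pPrime p ∈ S → IsGood S M →
    GlobalTail S M) →
  ∀ (S : Finset Nat.Primes) (M : Rep.{0} (ZMod p) Γ), pPrime p ∈ S → IsGood S M →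
    TateEventually S M

/-! ### The weak Greenberg–Wiles package (deliverable of C) -/

/-- The Greenberg–Wiles inequality for `(S, M, L)`. -/
def GWIneq (perp : ∀ (q : Nat.Primes) (M : Rep.{0} (ZMod p) Γ),
    Submodule (ZMod p) (H1l q M) → Submodule (ZMod p) (H1l q (dual M)))
    (S : Finset Nat.Primes) (M : Rep.{0} (ZMod p) Γ)
    (L : ∀ q : ↥S, Submodule (ZMod p) (H1l q.1 M)) : Prop :=
  Module.finrank (ZMod p) (Sel S M L) + h0g (dual M) + (∑ q : ↥S, h0l q.1 M) + h0c M ≤
    Module.finrank (ZMod p) (Sel S (dual M) (fun q => perp q.1 M (L q))) + h0g M +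
      ∑ q : ↥S, Module.finrank (ZMod p) (L q)

/-- **The weak Greenberg–Wiles package**: as `GWPackage`, but the inequality is only claimed for
all sets of places `S' ⊇ S ∪ S₀`, where the finite set `S₀` depends on `(S, M)` only. -/
structure GWPackageW (p : ℕ) [Fact p.Prime] where
  /-- local orthogonal complement -/
  perp : ∀ (q : Nat.Primes) (M : Rep.{0} (ZMod p) Γ),
    Submodule (ZMod p) (H1l q M) → Submodule (ZMod p) (H1l q (dual M))
  perp_top : ∀ (q : Nat.Primes) (M : Rep.{0} (ZMod p) Γ) (S : Finset Nat.Primes),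
    IsGood S M → perp q M ⊤ = ⊥
  perp_anti : ∀ (q : Nat.Primes) (M : Rep.{0} (ZMod p) Γ) (L L' : Submodule (ZMod p) (H1l q M)),
    L ≤ L' → perp q M L' ≤ perp q M L
  finite_H1l : ∀ (q : Nat.Primes) (M : Rep.{0} (ZMod p) Γ) (S : Finset Nat.Primes),
    IsGood S M → Module.Finite (ZMod p) (H1l q M)
  finrank_H1l : ∀ (q : Nat.Primes) (M : Rep.{0} (ZMod p) Γ) (S : Finset Nat.Primes),
    IsGood S M → (q : ℕ) ≠ p →
      Module.finrank (ZMod p) (H1l q M) = h0l q M + h0l q (dual M)
  finrank_H1l_p : ∀ (M : Rep.{0} (ZMod p) Γ) (S : Finset Nat.Primes), IsGood S M →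
      Module.finrank (ZMod p) (H1l (pPrime p) M) =
        h0l (pPrime p) M + h0l (pPrime p) (dual M) + Module.finrank (ZMod p) M
  finite_H1g : ∀ (S : Finset Nat.Primes) (M : Rep.{0} (ZMod p) Γ), pPrime p ∈ S → IsGood S M →
    Module.Finite (ZMod p) (H1g S M)
  /-- **the Greenberg–Wiles inequality for all large sets of places** -/
  main : ∀ (S : Finset Nat.Primes) (M : Rep.{0} (ZMod p) Γ), pPrime p ∈ S → IsGood S M →
    ∃ S₀ : Finset Nat.Primes, ∀ S' : Finset Nat.Primes, S ⊆ S' → S₀ ⊆ S' →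
      ∀ L : ∀ q : ↥S', Submodule (ZMod p) (H1l q.1 M), GWIneq perp S' M L

/-- The final statement of sub-programme C, weak form. -/
def GWStatementW (p : ℕ) [Fact p.Prime] : Prop := p ≠ 2 → Nonempty (GWPackageW p)

/-- The strong package gives the weak one. -/
def GWPackageW.ofStrong (G : GWPackage p) : GWPackageW p where
  perp := G.perp
  perp_top := G.perp_top
  perp_anti := G.perp_anti
  finite_H1l := G.finite_H1l
  finrank_H1l := G.finrank_H1l
  finrank_H1l_p := G.finrank_H1l_p
  finite_H1g := G.finite_H1g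
  main _ M hpS hM := ⟨∅, fun S' hS _ L =>
    G.main S' M (hS hpS) ⟨hM.fin, hM.smooth, fun q hq => hM.unram q (fun h => hq (hS h))⟩ L⟩

/-! ### Unramified classes -/

/-- The inertia subgroup of the local Galois group at `q` (preimage of the inertia group of the
chosen place `primeLocalPlace q` of `ℚ̄`). -/
noncomputable def localInertia (q : Nat.Primes) : Subgroup (primeLocalGaloisGroup q) :=
  ((primeLocalPlace q).inertiaSubgroupIn ℚ).comap (primeLocalToGlobal q)

/-- Level cocycles of the local group vanishing on inertia. -/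
def Z1ur (q : Nat.Primes) (M : Rep.{0} (ZMod p) Γ) :
    Submodule (ZMod p) ↥(LevelCoh28.Z1 (pullBasis (primeLocalToGlobal q))
      (Rep.res (primeLocalToGlobal q) M)) where
  carrier := {c | ∀ g ∈ localInertia q, (c : primeLocalGaloisGroup q → M) g = 0}
  add_mem' {a b} ha hb g hg := by
    show (a : primeLocalGaloisGroup q → M) g + (b : primeLocalGaloisGroup q → M) g = 0
    rw [ha g hg, hb g hg, add_zero]
  zero_mem' _ _ := rfl
  smul_mem' c a ha g hg := by
    show c • (a : primeLocalGaloisGroup q → M) g = 0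
    rw [ha g hg, smul_zero]

/-- **Unramified classes** `H¹_ur(ℚ_q, M) ≤ H¹(ℚ_q, M)`: the classes of the level cocycles
vanishing on the inertia group (for `M` unramified at `q` this is the image of
`H¹(G_q / I_q, M)`; in general it is the kernel of the restriction to inertia). -/
noncomputable def H1ur (q : Nat.Primes) (M : Rep.{0} (ZMod p) Γ) : Submodule (ZMod p) (H1l q M) :=
  (Z1ur q M).map (LevelCoh28.H1mk (pullBasis (primeLocalToGlobal q))
    (Rep.res (primeLocalToGlobal q) M))

/-! ### Change of the set of places (inflation `G_S → G_{S'}`) -/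

theorem Z1_mono {S S' : Finset Nat.Primes} (h : S ⊆ S') (M : Rep.{0} (ZMod p) Γ) :
    LevelCoh28.Z1 (globalBasis S) M ≤ LevelCoh28.Z1 (globalBasis S') M := by
  rintro c ⟨hc, U, ⟨F, hF, rfl⟩, hU⟩
  exact ⟨hc, _, ⟨F, hF.mono h, rfl⟩, hU⟩

/-- Inflation `H¹(G_S, M) → H¹(G_{S'}, M)` for `S ⊆ S'` (identity on cocycles). -/
noncomputable def infl1 {S S' : Finset Nat.Primes} (h : S ⊆ S') (M : Rep.{0} (ZMod p) Γ) :
    H1g S M →ₗ[ZMod p] H1g S' M :=
  Submodule.mapQ _ _ (Submodule.inclusion (Z1_mono h M)) (fun _ hc => hc)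

theorem infl1_mk {S S' : Finset Nat.Primes} (h : S ⊆ S') (M : Rep.{0} (ZMod p) Γ)
    (c : ↥(LevelCoh28.Z1 (globalBasis S) M)) :
    infl1 h M (LevelCoh28.H1mk (globalBasis S) M c) =
      LevelCoh28.H1mk (globalBasis S') M (Submodule.inclusion (Z1_mono h M) c) := rfl

/-! ### (C6) optional descent statements `GWPackageW → GWPackage` -/

/-- **(C6a)** `dim H¹_ur(ℚ_q, M) = h⁰(ℚ_q, M)`. -/
def UnramDim (q : Nat.Primes) (M : Rep.{0} (ZMod p) Γ) : Prop :=
  Module.finrank (ZMod p) (H1ur q M) = h0l q M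

/-- **(C6b)** the annihilator of the unramified classes of `M` consists of unramified classes of
`M^∨(1)` (for `q ≠ p` and `M` unramified at `q`). -/
def UnramPerp (perp : ∀ (q : Nat.Primes) (M : Rep.{0} (ZMod p) Γ),
    Submodule (ZMod p) (H1l q M) → Submodule (ZMod p) (H1l q (dual M)))
    (q : Nat.Primes) (M : Rep.{0} (ZMod p) Γ) : Prop :=
  perp q M (H1ur q M) ≤ H1ur q (dual M)

/-- **(C6c)** a class of `H¹(G_{S'}, M)` which is unramified at all places of `S' \ S` is inflated
from `G_S` (for `M` unramified outside `S`). -/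
def InflRange (S S' : Finset Nat.Primes) (h : S ⊆ S') (M : Rep.{0} (ZMod p) Γ) : Prop :=
  ∀ x : H1g S' M, (∀ q ∈ S', q ∉ S → res1 S' q M x ∈ H1ur q M) →
    x ∈ LinearMap.range (infl1 h M)

end Fermat.Agent.TW.GWIface2_97
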