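/-
Programme TW (S56), helper66: structure of the local Galois group `Γ_q = Gal(ℚ̄_q/ℚ_q)` modulo
inertia, via Mathlib's profinite "stabilizer surjects onto the automorphisms of the residue field".

`Ω = PadicAlgCl q`, `K = ℚ_[q]`, `G = Ω ≃ₐ[K] Ω`, `B = integralClosure ℤ_[q] Ω` (the integers of `Ω`),
`Q = {b ∈ B | ‖b‖ < 1}` (a prime ideal), `κ = B ⧸ Q`.

* `exists_lift` (LS): for an intermediate field `E` and a ring automorphism `α` of `κ` fixing the
  classes of the elements of `B ∩ E`, there is `g ∈ G` fixing `E` pointwise and inducing `α`.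
* `exists_frobenius` : there is `φ ∈ G` with `φ b ≡ b ^ q mod Q` for all `b ∈ B`.
* `eq_top_of_open` (GEN): an open subgroup of `G` containing `φ` and all elements acting trivially on
  `κ` is everything.
-/
import Mathlib
import Fermat.Prelude.Def_GaloisRep_CompletionBridge

set_option autoImplicit false

open scoped Pointwise NNReal

namespace Fermat.Agent.TW.LocalFrob66

variable (q : ℕ) [Fact q.Prime]

/-- The local Galois group. -/
abbrev GK : Type := PadicAlgCl q ≃ₐ[ℚ_[q]] PadicAlgCl q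

/-- The integers of `ℚ̄_q`. -/
noncomputable abbrev B : Subalgebra ℤ_[q] (PadicAlgCl q) := integralClosure ℤ_[q] (PadicAlgCl q)

variable {q}

theorem norm_algebraMap_padicInt_le (z : ℤ_[q]) :
    ‖algebraMap ℤ_[q] (PadicAlgCl q) z‖ ≤ 1 := by
  rw [IsScalarTower.algebraMap_apply ℤ_[q] ℚ_[q] (PadicAlgCl q), PadicAlgCl.norm_extends]
  exact z.2

/-- Integral elements have norm at most one. -/
theorem norm_le_one_of_isIntegral {x : PadicAlgCl q} (hx : IsIntegral ℤ_[q] x) : ‖x‖ ≤ 1 := by
  by_contra hcon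
  push Not at hcon
  obtain ⟨f, hf, hfx⟩ := hx
  -- `x ^ n = - ∑_{i<n} a_i x^i`, and every term on the right has norm `< ‖x‖ ^ n`
  set n := f.natDegree with hn
  have hx0 : x ≠ 0 := by
    rintro rfl
    rw [norm_zero] at hcon
    linarith
  have hsum : x ^ n = - ∑ i ∈ Finset.range n, algebraMap ℤ_[q] (PadicAlgCl q) (f.coeff i) * x ^ i := by
    have h1 := hfx
    rw [Polynomial.eval₂_eq_sum_range, Finset.sum_range_succ, ← hn] at h1
    have h2 : f.coeff n = 1 := hf.coeff_natDegree
    rw [h2, map_one, one_mul] at h1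
    rw [eq_neg_iff_add_eq_zero, add_comm]
    exact h1
  have hlt : ‖∑ i ∈ Finset.range n, algebraMap ℤ_[q] (PadicAlgCl q) (f.coeff i) * x ^ i‖
      < ‖x‖ ^ n := by
    rcases Nat.eq_zero_or_pos n with h0 | hpos
    · rw [h0] at hsum
      simp only [pow_zero, Finset.range_zero, Finset.sum_empty, neg_zero] at hsum
      exact absurd hsum one_ne_zero
    have hne : (Finset.range n).Nonempty := ⟨0, Finset.mem_range.2 hpos⟩
    obtain ⟨i, hi, hle⟩ := IsUltrametricDist.exists_norm_finsetSum_le_of_nonempty hne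
      (fun i => algebraMap ℤ_[q] (PadicAlgCl q) (f.coeff i) * x ^ i)
    refine lt_of_le_of_lt hle ?_
    rw [norm_mul, norm_pow]
    have hi' : i < n := Finset.mem_range.1 hi
    calc ‖algebraMap ℤ_[q] (PadicAlgCl q) (f.coeff i)‖ * ‖x‖ ^ i ≤ 1 * ‖x‖ ^ i := by
          gcongr
          exact norm_algebraMap_padicInt_le _
      _ = ‖x‖ ^ i := one_mul _
      _ < ‖x‖ ^ n := pow_lt_pow_right₀ hcon hi'
  rw [← norm_pow, hsum, norm_neg] at hlt
  exact lt_irrefl _ hlt

theorem norm_le_one (b : B q) : ‖(b : PadicAlgCl q)‖ ≤ 1 := norm_le_one_of_isIntegral b.2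

variable (q)

/-- The prime ideal of the elements of norm `< 1`. -/
def Qid : Ideal (B q) where
  carrier := {b | ‖(b : PadicAlgCl q)‖ < 1}
  add_mem' {a b} ha hb := by
    show ‖((a + b : B q) : PadicAlgCl q)‖ < 1
    have : ((a + b : B q) : PadicAlgCl q) = (a : PadicAlgCl q) + (b : PadicAlgCl q) := rfl
    rw [this]
    exact lt_of_le_of_lt (IsUltrametricDist.norm_add_le_max _ _) (max_lt ha hb)
  zero_mem' := by
    show ‖((0 : B q) : PadicAlgCl q)‖ < 1
    simp
  smul_mem' c b hb := by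
    show ‖((c • b : B q) : PadicAlgCl q)‖ < 1
    have : ((c • b : B q) : PadicAlgCl q) = (c : PadicAlgCl q) * (b : PadicAlgCl q) := rfl
    rw [this, norm_mul]
    calc ‖(c : PadicAlgCl q)‖ * ‖(b : PadicAlgCl q)‖ ≤ 1 * ‖(b : PadicAlgCl q)‖ := by
          gcongr
          exact norm_le_one c
      _ = ‖(b : PadicAlgCl q)‖ := one_mul _
      _ < 1 := hb

variable {q}

theorem mem_Qid_iff (b : B q) : b ∈ Qid q ↔ ‖(b : PadicAlgCl q)‖ < 1 := Iff.rfl

instance isPrime_Qid : (Qid q).IsPrime where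
  ne_top' := by
    rw [Ideal.ne_top_iff_one]
    intro h
    rw [mem_Qid_iff] at h
    simp at h
  mem_or_mem' {a b} hab := by
    rw [mem_Qid_iff] at hab ⊢
    have : ((a * b : B q) : PadicAlgCl q) = (a : PadicAlgCl q) * (b : PadicAlgCl q) := rfl
    rw [this, norm_mul] at hab
    by_contra hcon
    push Not at hcon
    rw [mem_Qid_iff, not_lt] at hcon
    have h1 : ‖(a : PadicAlgCl q)‖ = 1 := le_antisymm (norm_le_one a) hcon.1
    have h2 : ‖(b : PadicAlgCl q)‖ = 1 := le_antisymm (norm_le_one b) hcon.2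
    rw [h1, h2, one_mul] at hab
    exact lt_irrefl _ hab

/-- The Galois group acts isometrically. -/
theorem norm_apply (g : GK q) (x : PadicAlgCl q) : ‖g x‖ = ‖x‖ := by
  have := nnnorm_padicAlgCl_algEquiv q g x
  exact congrArg NNReal.toReal this

theorem coe_smul (g : GK q) (b : B q) : ((g • b : B q) : PadicAlgCl q) = g (b : PadicAlgCl q) := rfl

theorem smul_mem_Qid_iff (g : GK q) (b : B q) : g • b ∈ Qid q ↔ b ∈ Qid q := by
  rw [mem_Qid_iff, mem_Qid_iff, coe_smul, norm_apply]

theorem natCast_mem_Qid : ((q : ℕ) : B q) ∈ Qid q := by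
  rw [mem_Qid_iff]
  have : (((q : ℕ) : B q) : PadicAlgCl q) = algebraMap ℚ_[q] (PadicAlgCl q) (q : ℚ_[q]) := by
    simp
  rw [this, PadicAlgCl.norm_extends]
  exact Padic.norm_p_lt_one


/-! ### The relative Galois groups acting on the integers -/

section Relative

variable (E : IntermediateField ℚ_[q] (PadicAlgCl q))

/-- Restriction of scalars `Gal(Ω/E) → Gal(Ω/K)`. -/
noncomputable def resK : (PadicAlgCl q ≃ₐ[E] PadicAlgCl q) →* GK q where
  toFun h := h.restrictScalars ℚ_[q]
  map_one' := rfl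
  map_mul' _ _ := rfl

@[simp] theorem resK_apply (h : PadicAlgCl q ≃ₐ[E] PadicAlgCl q) (x : PadicAlgCl q) :
    resK E h x = h x := rfl

/-- The action of `Gal(Ω/E)` on the integers of `Ω`. -/
noncomputable local instance actE : MulSemiringAction (PadicAlgCl q ≃ₐ[E] PadicAlgCl q) (B q) :=
  MulSemiringAction.compHom (B q) (resK E)

theorem coe_smulE (h : PadicAlgCl q ≃ₐ[E] PadicAlgCl q) (b : B q) :
    ((h • b : B q) : PadicAlgCl q) = h (b : PadicAlgCl q) := rfl

/-- The integers of `E`, as a subring of the integers of `Ω`. -/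
def AE : Subring (B q) where
  carrier := {b | (b : PadicAlgCl q) ∈ E}
  mul_mem' ha hb := E.mul_mem ha hb
  one_mem' := E.one_mem
  add_mem' ha hb := E.add_mem ha hb
  zero_mem' := E.zero_mem
  neg_mem' ha := E.neg_mem ha

theorem mem_AE_iff (b : B q) : b ∈ AE E ↔ (b : PadicAlgCl q) ∈ E := Iff.rfl

local instance smulCommE : SMulCommClass (PadicAlgCl q ≃ₐ[E] PadicAlgCl q) (AE E) (B q) where
  smul_comm h a b := by
    apply Subtype.ext
    change h ((a : B q) * b : B q) = ((a : B q) * (h • b) : B q)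
    have h1 : h (((a : B q) : PadicAlgCl q)) = ((a : B q) : PadicAlgCl q) :=
      h.commutes ⟨_, a.2⟩
    change h ((((a : B q)) : PadicAlgCl q) * (b : PadicAlgCl q)) =
      (((a : B q)) : PadicAlgCl q) * h (b : PadicAlgCl q)
    rw [map_mul, h1]

/-- discrete topology on the integers -/
local instance topB : TopologicalSpace (B q) := ⊥

local instance discB : DiscreteTopology (B q) := ⟨rfl⟩

local instance contE : ContinuousSMul (PadicAlgCl q ≃ₐ[E] PadicAlgCl q) (B q) := by
  rw [continuousSMul_iff_stabilizer_isOpen]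
  intro b
  have h := stabilizer_isOpen_of_isIntegral (K := E) (L := PadicAlgCl q) (b : PadicAlgCl q)
  convert h using 2
  ext g
  simp only [MulAction.mem_stabilizer_iff]
  constructor
  · intro hg
    exact congrArg Subtype.val hg
  · intro hg
    exact Subtype.ext hg

local instance invE : Algebra.IsInvariant (AE E) (B q) (PadicAlgCl q ≃ₐ[E] PadicAlgCl q) := by
  constructor
  intro b hb
  have hfix : ∀ g : PadicAlgCl q ≃ₐ[E] PadicAlgCl q, g (b : PadicAlgCl q) = (b : PadicAlgCl q) :=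
    fun g => congrArg Subtype.val (hb g)
  have hbot : (b : PadicAlgCl q) ∈ (⊥ : IntermediateField E (PadicAlgCl q)) :=
    (InfiniteGalois.mem_bot_iff_fixed (b : PadicAlgCl q)).mpr hfix
  obtain ⟨e, he⟩ := IntermediateField.mem_bot.mp hbot
  have hbE : (b : PadicAlgCl q) ∈ E := by
    rw [← he]
    exact e.2
  exact ⟨⟨b, hbE⟩, rfl⟩

/-- **(LS) local surjectivity**: a ring automorphism of `κ = B ⧸ Q` fixing the classes of the
integers of `E` is induced by an element of `Gal(Ω/K)` fixing `E` pointwise. -/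
theorem exists_lift (α : (B q ⧸ Qid q) ≃+* (B q ⧸ Qid q))
    (hα : ∀ b : B q, (b : PadicAlgCl q) ∈ E →
      α (Ideal.Quotient.mk (Qid q) b) = Ideal.Quotient.mk (Qid q) b) :
    ∃ g : GK q, (∀ x ∈ E, g x = x) ∧
      ∀ b : B q, Ideal.Quotient.mk (Qid q) (g • b) = α (Ideal.Quotient.mk (Qid q) b) := by
  set P : Ideal (AE E) := (Qid q).under (AE E) with hP
  have : (Qid q).LiesOver P := ⟨rfl⟩
  -- `α` as an algebra automorphism
  let α' : (B q ⧸ Qid q) ≃ₐ[AE E ⧸ P] (B q ⧸ Qid q) :=
    { α with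
      commutes' := by
        intro r
        obtain ⟨a, rfl⟩ := Ideal.Quotient.mk_surjective r
        rw [Ideal.Quotient.algebraMap_mk_of_liesOver]
        exact hα _ a.2 }
  obtain ⟨σ, hσ⟩ := Ideal.Quotient.stabilizerHom_surjective_of_profinite
    (G := PadicAlgCl q ≃ₐ[E] PadicAlgCl q) P (Qid q) α'
  refine ⟨resK E σ.1, fun x hx => σ.1.commutes ⟨x, hx⟩, fun b => ?_⟩
  have h1 := DFunLike.congr_fun hσ (Ideal.Quotient.mk (Qid q) b)
  rw [Ideal.Quotient.stabilizerHom_apply] at h1
  exact h1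

end Relative


/-! ### The residue field -/

section Residue

instance isDomain_quot : IsDomain (B q ⧸ Qid q) := Ideal.Quotient.isDomain _

theorem mk_eq_mk_iff (a b : B q) :
    Ideal.Quotient.mk (Qid q) a = Ideal.Quotient.mk (Qid q) b ↔
      ‖(a : PadicAlgCl q) - (b : PadicAlgCl q)‖ < 1 := by
  rw [Ideal.Quotient.eq, mem_Qid_iff]
  rfl

instance charP_quot : CharP (B q ⧸ Qid q) q := by
  have hq : (q : ℕ).Prime := Fact.out
  have : Nontrivial (B q ⧸ Qid q) := (isDomain_quot (q := q)).toNontrivial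
  rw [CharP.charP_iff_prime_eq_zero hq]
  have h : Ideal.Quotient.mk (Qid q) ((q : ℕ) : B q) = 0 :=
    Ideal.Quotient.eq_zero_iff_mem.mpr natCast_mem_Qid
  rw [← h, map_natCast]

/-- In a domain of prime characteristic `q`, the solutions of `y ^ q = y` are the integers. -/
theorem exists_natCast_of_pow_eq {R : Type*} [CommRing R] [IsDomain R] (q : ℕ) [Fact q.Prime]
    [CharP R q] {y : R} (hy : y ^ q = y) : ∃ n : ℕ, y = n := by
  classical
  have hq : q.Prime := Fact.out
  let _ : Algebra (ZMod q) R := ZMod.algebra R q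
  have hcard : Fintype.card (ZMod q) = q := ZMod.card q
  have hroots : (Polynomial.X ^ q - Polynomial.X : Polynomial (ZMod q)).roots
      = (Finset.univ : Finset (ZMod q)).val := by
    have := FiniteField.roots_X_pow_card_sub_X (ZMod q)
    rwa [hcard] at this
  have hmonic : (Polynomial.X ^ q - Polynomial.X : Polynomial (ZMod q)).Monic := by
    apply Polynomial.monic_X_pow_sub
    rw [Polynomial.degree_X]
    exact_mod_cast hq.one_lt
  have hdeg : (Polynomial.X ^ q - Polynomial.X : Polynomial (ZMod q)).natDegree = q :=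
    FiniteField.X_pow_card_sub_X_natDegree_eq (ZMod q) hq.one_lt
  have hprod := Polynomial.prod_multiset_X_sub_C_of_monic_of_roots_card_eq hmonic (by
    rw [hroots, hdeg]
    simp [hcard])
  rw [hroots] at hprod
  have h1 := congrArg (Polynomial.aeval y) hprod
  rw [map_sub, map_pow, Polynomial.aeval_X, hy, sub_self] at h1
  rw [← Finset.prod_eq_multiset_prod, map_prod, Finset.prod_eq_zero_iff] at h1
  obtain ⟨a, -, ha⟩ := h1
  rw [map_sub, Polynomial.aeval_X, Polynomial.aeval_C, sub_eq_zero] at ha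
  refine ⟨a.val, ?_⟩
  rw [ha, ← map_natCast (algebraMap (ZMod q) R), ZMod.natCast_zmod_val]

/-- The automorphism of `κ = B ⧸ Q` induced by an element of the Galois group. -/
noncomputable def redAut (g : GK q) : (B q ⧸ Qid q) ≃+* (B q ⧸ Qid q) :=
  Ideal.quotientEquiv (Qid q) (Qid q) (MulSemiringAction.toRingEquiv (GK q) (B q) g) (by
    rw [Ideal.map_comap_of_equiv]
    ext b
    rw [Ideal.mem_comap]
    change b ∈ Qid q ↔ g⁻¹ • b ∈ Qid q
    rw [smul_mem_Qid_iff])

@[simp] theorem redAut_mk (g : GK q) (b : B q) :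
    redAut g (Ideal.Quotient.mk (Qid q) b) = Ideal.Quotient.mk (Qid q) (g • b) := rfl

/-- The Frobenius endomorphism of `κ` is bijective. -/
theorem frobenius_bijective : Function.Bijective (frobenius (B q ⧸ Qid q) q) := by
  constructor
  · exact frobenius_inj (B q ⧸ Qid q) q
  · intro y
    obtain ⟨b, rfl⟩ := Ideal.Quotient.mk_surjective y
    obtain ⟨c, hc⟩ := IsAlgClosed.exists_pow_nat_eq (b : PadicAlgCl q)
      (Fact.out : q.Prime).pos
    have hcint : IsIntegral ℤ_[q] c := by
      have h1 : IsIntegral ℤ_[q] (c ^ q) := hc ▸ b.2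
      exact h1.of_pow (Fact.out : q.Prime).pos
    refine ⟨Ideal.Quotient.mk (Qid q) ⟨c, hcint⟩, ?_⟩
    rw [frobenius_def, ← map_pow]
    congr 1
    exact Subtype.ext hc

/-- The Frobenius automorphism of `κ`. -/
noncomputable def frobK (q : ℕ) [Fact q.Prime] : (B q ⧸ Qid q) ≃+* (B q ⧸ Qid q) :=
  RingEquiv.ofBijective (frobenius (B q ⧸ Qid q) q) frobenius_bijective

@[simp] theorem frobK_apply (y : B q ⧸ Qid q) : frobK q y = y ^ q := rfl

/-- The class of an integer of `ℚ_q` is the class of a natural number. -/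
theorem exists_natCast_of_mem_bot {b : B q}
    (hb : (b : PadicAlgCl q) ∈ (⊥ : IntermediateField ℚ_[q] (PadicAlgCl q))) :
    ∃ n : ℕ, Ideal.Quotient.mk (Qid q) b = n := by
  obtain ⟨r, hr⟩ := IntermediateField.mem_bot.mp hb
  have hint : IsIntegral ℤ_[q] r := by
    have hb' : IsIntegral ℤ_[q] (algebraMap ℚ_[q] (PadicAlgCl q) r) := hr ▸ b.2
    exact (isIntegral_algebraMap_iff (algebraMap ℚ_[q] (PadicAlgCl q)).injective).mp hb'
  obtain ⟨z, hz⟩ := IsIntegrallyClosed.isIntegral_iff.mp hint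
  obtain ⟨n, -, hn⟩ := PadicInt.exists_mem_range z
  refine ⟨n, ?_⟩
  have h1 : Ideal.Quotient.mk (Qid q) b = Ideal.Quotient.mk (Qid q) ((n : ℕ) : B q) := by
    rw [mk_eq_mk_iff]
    have h2 : ((((n : ℕ) : B q)) : PadicAlgCl q)
        = algebraMap ℚ_[q] (PadicAlgCl q) ((n : ℕ) : ℚ_[q]) := by
      simp
    rw [h2, ← hr, ← hz, ← map_sub, PadicAlgCl.norm_extends]
    have h3 : ‖z - (n : ℤ_[q])‖ < 1 := by
      rwa [← PadicInt.mem_nonunits, ← IsLocalRing.mem_maximalIdeal]
    have h4 : (algebraMap ℤ_[q] ℚ_[q] z - ((n : ℕ) : ℚ_[q]))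
        = ((z - (n : ℤ_[q]) : ℤ_[q]) : ℚ_[q]) := by
      simp
    rw [h4]
    exact h3
  rw [h1, map_natCast]

/-- **Existence of a local Frobenius.** -/
theorem exists_frobenius (q : ℕ) [Fact q.Prime] :
    ∃ φ : GK q, ∀ b : B q,
      Ideal.Quotient.mk (Qid q) (φ • b) = Ideal.Quotient.mk (Qid q) b ^ q := by
  obtain ⟨g, -, hg⟩ := exists_lift (⊥ : IntermediateField ℚ_[q] (PadicAlgCl q)) (frobK q) (by
    intro b hb
    obtain ⟨n, hn⟩ := exists_natCast_of_mem_bot hb
    rw [frobK_apply, hn, ← frobenius_def, map_natCast])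
  exact ⟨g, fun b => by rw [hg b, frobK_apply]⟩

/-- **(GEN)** An open subgroup of the local Galois group which contains a Frobenius and every
element acting trivially on the residue field is the whole group. -/
theorem eq_top_of_open {φ : GK q}
    (hφ : ∀ b : B q, Ideal.Quotient.mk (Qid q) (φ • b) = Ideal.Quotient.mk (Qid q) b ^ q)
    (Z : Subgroup (GK q)) (hZo : IsOpen (Z : Set (GK q)))
    (hI : ∀ g : GK q,
      (∀ b : B q, Ideal.Quotient.mk (Qid q) (g • b) = Ideal.Quotient.mk (Qid q) b) → g ∈ Z)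
    (hφZ : φ ∈ Z) : Z = ⊤ := by
  rw [eq_top_iff]
  intro σ _
  let Zc : ClosedSubgroup (GK q) := ⟨Z, Subgroup.isClosed_of_isOpen Z hZo⟩
  have hfix : (IntermediateField.fixedField Z).fixingSubgroup = Z :=
    InfiniteGalois.fixingSubgroup_fixedField Zc
  obtain ⟨g, hgE, hg⟩ := exists_lift (IntermediateField.fixedField Z) (redAut σ) (by
    intro b hb
    have h1 : φ • b = b := by
      apply Subtype.ext
      rw [coe_smul]
      exact hb ⟨φ, hφZ⟩
    have h2 : Ideal.Quotient.mk (Qid q) b ^ q = Ideal.Quotient.mk (Qid q) b := by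
      rw [← hφ b, h1]
    obtain ⟨n, hn⟩ := exists_natCast_of_pow_eq q h2
    rw [hn, map_natCast])
  have hgZ : g ∈ Z := by
    rw [← hfix, IntermediateField.mem_fixingSubgroup_iff]
    exact hgE
  have hI' : g⁻¹ * σ ∈ Z := by
    apply hI
    intro b
    rw [mk_eq_mk_iff, coe_smul]
    have h3 := hg b
    rw [redAut_mk, mk_eq_mk_iff, coe_smul, coe_smul] at h3
    have h4 : (g⁻¹ * σ) (b : PadicAlgCl q) - (b : PadicAlgCl q)
        = g⁻¹ (σ (b : PadicAlgCl q) - g (b : PadicAlgCl q)) := by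
      rw [map_sub, AlgEquiv.mul_apply]
      congr 1
      change (b : PadicAlgCl q) = (g⁻¹ * g) (b : PadicAlgCl q)
      rw [inv_mul_cancel, AlgEquiv.one_apply]
    rw [h4, norm_apply, ← norm_neg, neg_sub]
    exact h3
  have := Z.mul_mem hgZ hI'
  rwa [mul_inv_cancel_left] at this

end Residue

end Fermat.Agent.TW.LocalFrob66
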