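/-
Programme TW (S56), helper66: bridge from the intrinsic local picture of `LocalFrob66`
(`Ω = PadicAlgCl q`, `B = integralClosure ℤ_[q] Ω`, `κ = B ⧸ Qid`) to the global vocabulary
(`padicPlace q`, `localGaloisToGlobal q`, `inertiaSubgroupIn`, `IsFrobeniusAt`, `pullSets`).

* `isIntegral_of_norm_le_one` : the unit ball of `Ω` is integral over `ℤ_[q]`;
* `mem_maximalIdeal_iff`, `residue_eq_iff` : the residue field of `padicPlace q` inside `κ`;
* `liesOverPrime_padicPlace` : `padicPlace q` lies over `q`;
* `mem_inertia_of_trivial` : local elements acting trivially on `κ` map into the global inertia group;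
* `isFrobeniusAt_of` : a local Frobenius maps to a global Frobenius at `padicPlace q`;
* `exists_gen_nat`, `exists_gen` (GEN): there is `φ` in the local group, mapping to a Frobenius,
  such that every subgroup containing the local inertia group, `φ` and a member of the level basis
  is everything;
* `normal_localInertia`, `exists_frobenius_global`.
-/
import Mathlib
import Fermat.Agent.TW.LocalFrob66
import Fermat.Agent.TW.GWIface2_97

set_option autoImplicit false

open scoped Pointwise NNReal
open ExtCitation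
open Fermat.Agent.PT.BR Fermat.Agent.PT.BR.LevelBridge13
open Fermat.Agent.TW.LocalFrob66

namespace Fermat.Agent.TW.LocalGen66

local notation "Qbar" => AlgebraicClosure ℚ
local notation "Γ" => (AlgebraicClosure ℚ ≃ₐ[ℚ] AlgebraicClosure ℚ)

/-! ### Generic facts on inertia subgroups (copies of `FrobFacts12`, to keep imports light) -/

section Generic

variable {K L : Type*} [Field K] [Field L] [Algebra K L] (A : ValuationSubring L)

theorem mem_inertiaSubgroup_iff' (g : A.decompositionSubgroup K) :
    g ∈ A.inertiaSubgroup K ↔ ∀ x : IsLocalRing.ResidueField A, g • x = x := by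
  rw [ValuationSubring.inertiaSubgroup, MonoidHom.mem_ker]
  constructor
  · intro h x
    have := congrArg (fun φ : RingAut (IsLocalRing.ResidueField A) => φ x) h
    simpa using this
  · intro h
    ext x
    simpa using h x

theorem mem_inertiaSubgroupIn_iff' {τ : L ≃ₐ[K] L} :
    τ ∈ A.inertiaSubgroupIn K ↔ ∃ h : τ ∈ A.decompositionSubgroup K,
      ∀ x : IsLocalRing.ResidueField A, (⟨τ, h⟩ : A.decompositionSubgroup K) • x = x := by
  rw [ValuationSubring.inertiaSubgroupIn, Subgroup.mem_map]
  constructor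
  · rintro ⟨g, hg, rfl⟩
    exact ⟨g.2, (mem_inertiaSubgroup_iff' A g).mp hg⟩
  · rintro ⟨h, hx⟩
    exact ⟨⟨τ, h⟩, (mem_inertiaSubgroup_iff' A _).mpr hx, rfl⟩

theorem conj_mem_inertiaSubgroupIn' {σ0 τ : L ≃ₐ[K] L} (h0 : σ0 ∈ A.decompositionSubgroup K)
    (hτ : τ ∈ A.inertiaSubgroupIn K) : σ0 * τ * σ0⁻¹ ∈ A.inertiaSubgroupIn K := by
  obtain ⟨h, hx⟩ := (mem_inertiaSubgroupIn_iff' A).mp hτ
  refine (mem_inertiaSubgroupIn_iff' A).mpr
    ⟨(A.decompositionSubgroup K).mul_mem ((A.decompositionSubgroup K).mul_mem h0 h)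
      ((A.decompositionSubgroup K).inv_mem h0), fun x => ?_⟩
  have heq : (⟨σ0 * τ * σ0⁻¹, (A.decompositionSubgroup K).mul_mem
      ((A.decompositionSubgroup K).mul_mem h0 h) ((A.decompositionSubgroup K).inv_mem h0)⟩ :
      A.decompositionSubgroup K)
      = (⟨σ0, h0⟩ : A.decompositionSubgroup K) * ⟨τ, h⟩ * (⟨σ0, h0⟩ : A.decompositionSubgroup K)⁻¹ :=
    rfl
  rw [heq, mul_smul, mul_smul, hx, smul_inv_smul]

end Generic

section NatPrime

variable (q : ℕ) [Fact q.Prime]

/-- The unit ball of `ℚ̄_q` is integral over `ℤ_q`. -/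
theorem isIntegral_of_norm_le_one {y : PadicAlgCl q} (h : ‖y‖ ≤ 1) : IsIntegral ℤ_[q] y := by
  have hint : IsIntegral ℚ_[q] y := ((PadicAlgCl.isAlgebraic q).isAlgebraic y).isIntegral
  have hs : spectralNorm ℚ_[q] (PadicAlgCl q) y ≤ 1 := by
    rw [PadicAlgCl.spectralNorm_eq]; exact h
  rw [spectralNorm, spectralValue_le_one_iff (minpoly.monic hint)] at hs
  have hl : minpoly ℚ_[q] y ∈ Polynomial.lifts (algebraMap ℤ_[q] ℚ_[q]) := by
    rw [Polynomial.lifts_iff_coeff_lifts]
    intro n
    exact ⟨⟨_, hs n⟩, rfl⟩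
  obtain ⟨P, hP, -, hmonic⟩ := Polynomial.lifts_and_degree_eq_and_monic hl (minpoly.monic hint)
  refine ⟨P, hmonic, ?_⟩
  have h0 : Polynomial.aeval y (minpoly ℚ_[q] y) = 0 := minpoly.aeval ℚ_[q] y
  rw [← hP, Polynomial.aeval_map_algebraMap] at h0
  exact h0

theorem norm_le_one_of_mem {x : Qbar} (hx : x ∈ padicPlace q) : ‖padicEmbedding q x‖ ≤ 1 := by
  rw [mem_padicPlace_iff] at hx
  exact_mod_cast hx

theorem mem_padicPlace_iff_norm {x : Qbar} : x ∈ padicPlace q ↔ ‖padicEmbedding q x‖ ≤ 1 := by
  rw [mem_padicPlace_iff]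
  exact Iff.rfl

/-- The image in `B` of an element of the place. -/
noncomputable def toB (a : padicPlace q) : B q :=
  ⟨padicEmbedding q (a : Qbar), isIntegral_of_norm_le_one q (norm_le_one_of_mem q a.2)⟩

@[simp] theorem coe_toB (a : padicPlace q) : ((toB q a : B q) : PadicAlgCl q) =
    padicEmbedding q (a : Qbar) := rfl

/-- The maximal ideal of `padicPlace q` is the open unit ball. -/
theorem mem_maximalIdeal_iff (a : padicPlace q) :
    a ∈ IsLocalRing.maximalIdeal (padicPlace q) ↔ ‖padicEmbedding q (a : Qbar)‖ < 1 := by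
  rw [IsLocalRing.mem_maximalIdeal, mem_nonunits_iff]
  constructor
  · intro hnu
    by_contra hcon
    rw [not_lt] at hcon
    have h1 : ‖padicEmbedding q (a : Qbar)‖ = 1 := le_antisymm (norm_le_one_of_mem q a.2) hcon
    have ha0 : (a : Qbar) ≠ 0 := by
      intro h0
      rw [h0, map_zero, norm_zero] at h1
      exact zero_ne_one h1
    have hinv : (a : Qbar)⁻¹ ∈ padicPlace q := by
      rw [mem_padicPlace_iff_norm, map_inv₀, norm_inv, h1, inv_one]
    apply hnu
    rw [isUnit_iff_exists_inv]
    exact ⟨⟨_, hinv⟩, Subtype.ext (mul_inv_cancel₀ ha0)⟩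
  · intro hlt hu
    rw [isUnit_iff_exists_inv] at hu
    obtain ⟨b, hb⟩ := hu
    have h1 : (a : Qbar) * (b : Qbar) = 1 := congrArg Subtype.val hb
    have h2 := congrArg (fun z => ‖padicEmbedding q z‖) h1
    simp only [map_mul, norm_mul, map_one, norm_one] at h2
    have h3 : ‖padicEmbedding q (b : Qbar)‖ ≤ 1 := norm_le_one_of_mem q b.2
    have h4 : ‖padicEmbedding q (a : Qbar)‖ * ‖padicEmbedding q (b : Qbar)‖ < 1 := by
      calc ‖padicEmbedding q (a : Qbar)‖ * ‖padicEmbedding q (b : Qbar)‖
          ≤ ‖padicEmbedding q (a : Qbar)‖ * 1 := by gcongr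
        _ < 1 := by rwa [mul_one]
    rw [h2] at h4
    exact lt_irrefl _ h4

theorem residue_eq_iff (a b : padicPlace q) :
    IsLocalRing.residue (padicPlace q) a = IsLocalRing.residue (padicPlace q) b ↔
      ‖padicEmbedding q (a : Qbar) - padicEmbedding q (b : Qbar)‖ < 1 := by
  have h : IsLocalRing.residue (padicPlace q) a = IsLocalRing.residue (padicPlace q) b ↔
      a - b ∈ IsLocalRing.maximalIdeal (padicPlace q) := Ideal.Quotient.eq
  rw [h, mem_maximalIdeal_iff]
  have : ((a - b : padicPlace q) : Qbar) = (a : Qbar) - (b : Qbar) := rfl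
  rw [this, map_sub]

/-- `padicPlace q` lies over `q`. -/
theorem liesOverPrime_padicPlace : (padicPlace q).LiesOverPrime q := by
  have hmem : ((q : ℕ) : Qbar) ∈ padicPlace q := natCast_mem _ q
  have h1 : (⟨((q : ℕ) : Qbar), hmem⟩ : padicPlace q) ∈ IsLocalRing.maximalIdeal (padicPlace q) := by
    rw [mem_maximalIdeal_iff]
    show ‖padicEmbedding q ((q : ℕ) : Qbar)‖ < 1
    rw [map_natCast]
    have : ((q : ℕ) : PadicAlgCl q) = algebraMap ℚ_[q] (PadicAlgCl q) (q : ℚ_[q]) := by simp
    rw [this, PadicAlgCl.norm_extends]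
    exact Padic.norm_p_lt_one
  rw [ValuationSubring.LiesOverPrime, ValuationSubring.mem_nonunits_iff_exists_mem_maximalIdeal]
  exact ⟨hmem, h1⟩

/-- The action of (the image of) a local element on the place, through the embedding. -/
theorem padicEmbedding_smul (g : GK q)
    (h : localGaloisToGlobal q g ∈ (padicPlace q).decompositionSubgroup ℚ) (a : padicPlace q) :
    padicEmbedding q (((⟨localGaloisToGlobal q g, h⟩ : (padicPlace q).decompositionSubgroup ℚ) • a :
      padicPlace q) : Qbar) = g (padicEmbedding q (a : Qbar)) := by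
  rw [← padicEmbedding_localGaloisToGlobal]
  rfl

/-- Key comparison: congruences in the residue field of the place are congruences modulo `Qid`. -/
theorem residue_smul_eq_iff (g : GK q)
    (h : localGaloisToGlobal q g ∈ (padicPlace q).decompositionSubgroup ℚ) (a b : padicPlace q) :
    IsLocalRing.residue (padicPlace q)
        ((⟨localGaloisToGlobal q g, h⟩ : (padicPlace q).decompositionSubgroup ℚ) • a) =
      IsLocalRing.residue (padicPlace q) b ↔
    Ideal.Quotient.mk (Qid q) (g • toB q a) = Ideal.Quotient.mk (Qid q) (toB q b) := by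
  rw [residue_eq_iff, padicEmbedding_smul, mk_eq_mk_iff]
  rfl

/-- **(D)** local elements acting trivially on the residue field `κ` map into the inertia group of
`padicPlace q`. -/
theorem mem_inertia_of_trivial (g : GK q)
    (hg : ∀ b : B q, Ideal.Quotient.mk (Qid q) (g • b) = Ideal.Quotient.mk (Qid q) b) :
    localGaloisToGlobal q g ∈ (padicPlace q).inertiaSubgroupIn ℚ := by
  rw [mem_inertiaSubgroupIn_iff']
  refine ⟨localGaloisToGlobal_mem_decompositionSubgroup q g, fun x => ?_⟩
  obtain ⟨a, rfl⟩ := IsLocalRing.residue_surjective x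
  rw [← IsLocalRing.ResidueField.residue_smul, residue_smul_eq_iff]
  exact hg _

/-- A local Frobenius maps to a global Frobenius at `padicPlace q`. -/
theorem isFrobeniusAt_of (φ : GK q)
    (hφ : ∀ b : B q, Ideal.Quotient.mk (Qid q) (φ • b) = Ideal.Quotient.mk (Qid q) b ^ q) :
    (padicPlace q).IsFrobeniusAt (localGaloisToGlobal q φ) q := by
  refine ⟨localGaloisToGlobal_mem_decompositionSubgroup q φ, fun x => ?_⟩
  obtain ⟨a, rfl⟩ := IsLocalRing.residue_surjective x
  rw [← IsLocalRing.ResidueField.residue_smul, ← map_pow, residue_smul_eq_iff, hφ, ← map_pow]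
  congr 1
  apply Subtype.ext
  rw [coe_toB]
  simp only [SubmonoidClass.coe_pow, coe_toB, map_pow]

/-- The local inertia group (preimage of the global one) is normal. -/
theorem normal_comap_inertia :
    (((padicPlace q).inertiaSubgroupIn ℚ).comap (localGaloisToGlobal q)).Normal := by
  refine ⟨fun τ hτ g => ?_⟩
  rw [Subgroup.mem_comap] at hτ ⊢
  rw [map_mul, map_mul, map_inv]
  exact conj_mem_inertiaSubgroupIn' _ (localGaloisToGlobal_mem_decompositionSubgroup q g) hτ

/-- Members of the level basis are open. -/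
theorem isOpen_of_mem_pullSets {U : Subgroup (GK q)} (hU : U ∈ pullSets (localGaloisToGlobal q)) :
    IsOpen (U : Set (GK q)) := by
  obtain ⟨E, hE, rfl⟩ := pullSets_subset_localSets q hU
  exact IntermediateField.fixingSubgroup_isOpen E

/-- **(GEN)** for the local Galois group, in global vocabulary. -/
theorem exists_gen_nat : ∃ φ : GK q,
    (padicPlace q).IsFrobeniusAt (localGaloisToGlobal q φ) q ∧
    ∀ Z : Subgroup (GK q),
      ((padicPlace q).inertiaSubgroupIn ℚ).comap (localGaloisToGlobal q) ≤ Z → φ ∈ Z →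
      (∃ U ∈ pullSets (localGaloisToGlobal q), U ≤ Z) → Z = ⊤ := by
  obtain ⟨φ, hφ⟩ := exists_frobenius q
  refine ⟨φ, isFrobeniusAt_of q φ hφ, fun Z hI hφZ hU => ?_⟩
  obtain ⟨U, hU, hUZ⟩ := hU
  refine eq_top_of_open hφ Z (Subgroup.isOpen_mono hUZ (isOpen_of_mem_pullSets q hU))
    (fun g hg => hI ?_) hφZ
  rw [Subgroup.mem_comap]
  exact mem_inertia_of_trivial q g hg

end NatPrime

/-! ### Versions for `q : Nat.Primes` -/

open Fermat.Agent.TW.GWIface2_97

/-- `primeLocalPlace q` lies over `q`. -/
theorem liesOverPrime_primeLocalPlace (q : Nat.Primes) : (primeLocalPlace q).LiesOverPrime q := by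
  have : Fact (q : ℕ).Prime := ⟨q.2⟩
  exact liesOverPrime_padicPlace (q : ℕ)

/-- The image of the local Galois group lies in the decomposition group. -/
theorem primeLocalToGlobal_mem_decompositionSubgroup (q : Nat.Primes) (g : primeLocalGaloisGroup q) :
    primeLocalToGlobal q g ∈ (primeLocalPlace q).decompositionSubgroup ℚ := by
  have : Fact (q : ℕ).Prime := ⟨q.2⟩
  exact localGaloisToGlobal_mem_decompositionSubgroup (q : ℕ) g

instance normal_localInertia (q : Nat.Primes) : (localInertia q).Normal := by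
  have : Fact (q : ℕ).Prime := ⟨q.2⟩
  exact normal_comap_inertia (q : ℕ)

/-- **(GEN)**: there is a local element `φ`, mapping to a Frobenius at `primeLocalPlace q`, such that
every subgroup of the local Galois group containing the local inertia group, `φ` and a member of the
level basis is everything. -/
theorem exists_gen (q : Nat.Primes) : ∃ φ : primeLocalGaloisGroup q,
    (primeLocalPlace q).IsFrobeniusAt (primeLocalToGlobal q φ) q ∧
    ∀ Z : Subgroup (primeLocalGaloisGroup q), localInertia q ≤ Z → φ ∈ Z →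
      (∃ U ∈ (pullBasis (primeLocalToGlobal q)).sets, U ≤ Z) → Z = ⊤ := by
  have : Fact (q : ℕ).Prime := ⟨q.2⟩
  exact exists_gen_nat (q : ℕ)

/-- There is a local element mapping to a Frobenius at `primeLocalPlace q`. -/
theorem exists_frobenius_global (q : Nat.Primes) : ∃ g : primeLocalGaloisGroup q,
    (primeLocalPlace q).IsFrobeniusAt (primeLocalToGlobal q g) q := by
  obtain ⟨φ, hφ, -⟩ := exists_gen q
  exact ⟨φ, hφ⟩

end Fermat.Agent.TW.LocalGen66
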