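/-
Programme TW (S56), brick B5-(H), leaf 5 (helper48): from an injection on points to an embedding
of rings of integers (the field-theoretic end of Fontaine's property `(P_m)`).

`Ω` a field, `β : B → Ω`, `j : C → Ω` injective `R`-algebra maps, `C` an integrally closed domain.
Assume every `Ω`-point of `H` is `B`-valued, that there are only finitely many of them, and that
`Φ : (H →ₐ[R] B) → (H →ₐ[R] C)` is injective.  Then every `Ω`-point of `H` is `C`-valued
(`forall_mem_range_of_injective`).  If moreover `β(B)` is integral over `j(C)` and contained in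
every subfield of `Ω` containing `j(C)` and the values of the points (`B` is the ring of integers of
the field generated by the coordinates of the points), then `β` factors through `j`
(`exists_algHom_of_injective`).
-/
import Mathlib

set_option autoImplicit false
set_option linter.unusedSectionVars false

namespace Fermat.Agent.TW.PmEmbed48

section Count

variable {R : Type*} [CommRing R] {H : Type*} [CommRing H] [Algebra R H]
  {Ω : Type*} [Field Ω] [Algebra R Ω] [Finite (H →ₐ[R] Ω)]
  {B : Type*} [CommRing B] [Algebra R B] {C : Type*} [CommRing C] [Algebra R C]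

/-- Counting: if all `Ω`-points are `B`-valued and `Γ(B)` injects into `Γ(C)`, all `Ω`-points are
`C`-valued. -/
theorem forall_mem_range_of_injective (β : B →ₐ[R] Ω) (hβ : Function.Injective β)
    (j : C →ₐ[R] Ω) (hj : Function.Injective j)
    (hpts : ∀ (g : H →ₐ[R] Ω) (h : H), g h ∈ β.range)
    (Φ : (H →ₐ[R] B) → (H →ₐ[R] C)) (hΦ : Function.Injective Φ) :
    ∀ (g : H →ₐ[R] Ω) (h : H), g h ∈ j.range := by
  -- factor points through `β`
  have hfac : ∀ g : H →ₐ[R] Ω, ∃ gB : H →ₐ[R] B, β.comp gB = g := by
    intro g
    let e := AlgEquiv.ofInjective β hβ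
    refine ⟨(e.symm : β.range →ₐ[R] B).comp (g.codRestrict β.range (hpts g)), ?_⟩
    apply AlgHom.ext
    intro h
    show β (e.symm (g.codRestrict β.range (hpts g) h)) = g h
    have h1 : (e (e.symm (g.codRestrict β.range (hpts g) h)) : Ω) =
        β (e.symm (g.codRestrict β.range (hpts g) h)) := rfl
    rw [← h1, AlgEquiv.apply_symm_apply]
    rfl
  choose gB hgB using hfac
  let Ψ : (H →ₐ[R] Ω) → (H →ₐ[R] Ω) := fun g => j.comp (Φ (gB g))
  have hΨ : Function.Injective Ψ := by
    intro g g' hgg'
    have h1 : Φ (gB g) = Φ (gB g') := by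
      apply AlgHom.ext
      intro h
      apply hj
      exact AlgHom.congr_fun hgg' h
    have h2 : gB g = gB g' := hΦ h1
    rw [← hgB g, ← hgB g', h2]
  have hsurj : Function.Surjective Ψ := Finite.injective_iff_surjective.mp hΨ
  intro g h
  obtain ⟨g', rfl⟩ := hsurj g
  exact ⟨Φ (gB g') h, rfl⟩

end Count

section IntClosed

variable {Ω : Type*} [Field Ω] {C : Type*} [CommRing C] [IsDomain C] [IsIntegrallyClosed C]

/-- An element of the fraction field of `j(C)` inside `Ω` which is integral over `j(C)` lies in
`j(C)`, for `C` integrally closed. -/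
theorem mem_range_of_isIntegral (j : C →+* Ω) (hj : Function.Injective j)
    (x : FractionRing C) (hx : IsIntegral j.range (IsFractionRing.lift (g := j) hj x)) :
    IsFractionRing.lift (g := j) hj x ∈ j.range := by
  set j' : FractionRing C →+* Ω := IsFractionRing.lift (g := j) hj with hj'
  have hj'c : ∀ c : C, j' (algebraMap C (FractionRing C) c) = j c := fun c =>
    IsFractionRing.lift_algebraMap hj c
  -- pull the integrality equation back to `FractionRing C`
  obtain ⟨P, hPm, hP⟩ := hx
  -- lift the coefficients of `P` to `C`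
  have hcoef : ∀ n, ∃ c : C, j c = (P.coeff n : Ω) := fun n => (P.coeff n).2
  choose cf hcf using hcoef
  have hxint : IsIntegral C x := by
    refine ⟨∑ n ∈ Finset.range (P.natDegree + 1), Polynomial.monomial n (cf n), ?_, ?_⟩
    · -- monic
      have hdeg : (∑ n ∈ Finset.range (P.natDegree + 1), Polynomial.monomial n (cf n)).natDegree
          ≤ P.natDegree := by
        apply Polynomial.natDegree_sum_le_of_forall_le
        intro n hn
        exact (Polynomial.natDegree_monomial_le _).trans (by
          have := Finset.mem_range.mp hn; omega)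
      have hlead : (∑ n ∈ Finset.range (P.natDegree + 1),
          Polynomial.monomial n (cf n)).coeff P.natDegree = 1 := by
        rw [Polynomial.finsetSum_coeff]
        simp only [Polynomial.coeff_monomial]
        rw [Finset.sum_ite_eq' (Finset.range (P.natDegree + 1)) P.natDegree]
        simp only [Finset.mem_range, Nat.lt_succ_self, if_true]
        apply hj
        rw [hcf, map_one]
        have : P.coeff P.natDegree = 1 := hPm
        rw [this]
        rfl
      exact Polynomial.monic_of_natDegree_le_of_coeff_eq_one _ hdeg hlead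
    · -- root
      apply j'.injective
      rw [map_zero, Polynomial.eval₂_finsetSum, map_sum]
      have hP' : Polynomial.eval₂ (algebraMap j.range Ω) (j' x) P = 0 := hP
      rw [Polynomial.eval₂_eq_sum_range] at hP'
      rw [← hP']
      apply Finset.sum_congr rfl
      intro n _
      rw [Polynomial.eval₂_monomial, map_mul, map_pow, hj'c, hcf]
      rfl
  obtain ⟨c, hc⟩ := IsIntegrallyClosed.isIntegral_iff.mp hxint
  exact ⟨c, by rw [← hc, hj'c]⟩

end IntClosed

section Embed

variable {R : Type*} [CommRing R] {H : Type*} [CommRing H] [Algebra R H]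
  {Ω : Type*} [Field Ω] [Algebra R Ω] [Finite (H →ₐ[R] Ω)]
  {B : Type*} [CommRing B] [Algebra R B]
  {C : Type*} [CommRing C] [IsDomain C] [IsIntegrallyClosed C] [Algebra R C]

/-- **The field-theoretic end of `(P_m)`.** -/
theorem exists_algHom_of_injective (β : B →ₐ[R] Ω) (hβ : Function.Injective β)
    (j : C →ₐ[R] Ω) (hj : Function.Injective j)
    (hpts : ∀ (g : H →ₐ[R] Ω) (h : H), g h ∈ β.range)
    (Φ : (H →ₐ[R] B) → (H →ₐ[R] C)) (hΦ : Function.Injective Φ)
    (hint : ∀ b : B, IsIntegral (j : C →+* Ω).range (β b))
    (hgen : ∀ F : Subfield Ω, (∀ c : C, j c ∈ F) → (∀ (g : H →ₐ[R] Ω) (h : H), g h ∈ F) →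
      ∀ b : B, β b ∈ F) :
    ∃ ι : B →ₐ[R] C, ∀ b, j (ι b) = β b := by
  have hval := forall_mem_range_of_injective β hβ j hj hpts Φ hΦ
  have hj0 : Function.Injective (j : C →+* Ω) := hj
  set j' : FractionRing C →+* Ω := IsFractionRing.lift (g := (j : C →+* Ω)) hj0 with hj'
  have hj'c : ∀ c : C, j' (algebraMap C (FractionRing C) c) = j c := fun c =>
    IsFractionRing.lift_algebraMap hj0 c
  have hB : ∀ b : B, β b ∈ j.range := by
    intro b
    have h1 : β b ∈ j'.fieldRange := by
      apply hgen
      · intro c
        exact ⟨algebraMap C (FractionRing C) c, hj'c c⟩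
      · intro g h
        obtain ⟨c, hc⟩ := hval g h
        exact ⟨algebraMap C (FractionRing C) c, by rw [hj'c]; exact hc⟩
    obtain ⟨x, hx⟩ := h1
    have h2 := mem_range_of_isIntegral (j : C →+* Ω) hj0 x (by rw [← hj', hx]; exact hint b)
    rw [← hj', hx] at h2
    obtain ⟨c, hc⟩ := h2
    exact ⟨c, hc⟩
  let e := AlgEquiv.ofInjective j hj
  refine ⟨(e.symm : j.range →ₐ[R] C).comp (β.codRestrict j.range hB), ?_⟩
  intro b
  show j (e.symm (β.codRestrict j.range hB b)) = β b
  have h1 : (e (e.symm (β.codRestrict j.range hB b)) : Ω) =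
      j (e.symm (β.codRestrict j.range hB b)) := rfl
  rw [← h1, AlgEquiv.apply_symm_apply]
  rfl

end Embed

end Fermat.Agent.TW.PmEmbed48
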