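/-
Programme TW (S56), brick B5-(H), leaf 2 (helper48): the convolution ring `Hom_R(B, S)`.

For a cocommutative `R`-coalgebra `B` (finite free as a module) and a commutative `R`-algebra `S`,
the convolution ring `WithConv (B →ₗ[R] S)` is a commutative `S`-algebra, finite free as an
`S`-module.  We record:

* evaluation formulas for scalars, membership in principal ideals generated by scalars
  (`mem_span_algebraMap_iff`), regularity of scalars, `π`-adic completeness (`isAdicComplete_conv`);
* functoriality: `pull` (precomposition with a coalgebra map) and `push` (postcomposition with an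
  algebra map) are ring homomorphisms;
* for a commutative bialgebra `A`: the two monoid maps `mulPull, sqMap : Conv(A,S) → Conv(A ⊗ A, S)`,
  `mulPull g = g ∘ μ_A`, `sqMap g = μ_S ∘ (g ⊗ g)`; a linear map `g` is multiplicative iff
  `mulPull g = sqMap g`.
-/
import Mathlib
import Fermat.Agent.PT.GLOB.PowerNearOne16

set_option autoImplicit false
set_option linter.unusedSectionVars false

open Coalgebra TensorProduct WithConv

namespace Fermat.Agent.TW.ConvRing48

section Basic

variable {R : Type*} [CommRing R] {B : Type*} [AddCommGroup B] [Module R B] [Coalgebra R B]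
  [Coalgebra.IsCocomm R B] {S : Type*} [CommRing S] [Algebra R S]

theorem algebraMap_mul_apply (s : S) (g : WithConv (B →ₗ[R] S)) (b : B) :
    (algebraMap S (WithConv (B →ₗ[R] S)) s * g) b = s * g b := by
  rw [← Algebra.smul_def]
  rfl

theorem one_apply (b : B) :
    (1 : WithConv (B →ₗ[R] S)) b = algebraMap R S (counit (R := R) b) := rfl

theorem sub_apply (f g : WithConv (B →ₗ[R] S)) (b : B) : (f - g) b = f b - g b := rfl

theorem add_apply (f g : WithConv (B →ₗ[R] S)) (b : B) : (f + g) b = f b + g b := rfl

/-- Scalars which are non-zero-divisors of `S` are non-zero-divisors of the convolution ring. -/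
theorem algebraMap_mem_nonZeroDivisors {π : S} (hπ : π ∈ nonZeroDivisors S) :
    algebraMap S (WithConv (B →ₗ[R] S)) π ∈ nonZeroDivisors (WithConv (B →ₗ[R] S)) := by
  rw [mem_nonZeroDivisors_iff]
  have key : ∀ g : WithConv (B →ₗ[R] S),
      algebraMap S (WithConv (B →ₗ[R] S)) π * g = 0 → g = 0 := by
    intro g hg
    apply WithConv.ext
    apply LinearMap.ext
    intro b
    have h1 : (algebraMap S (WithConv (B →ₗ[R] S)) π * g) b = 0 := by rw [hg]; rfl
    rw [algebraMap_mul_apply] at h1
    exact (mem_nonZeroDivisors_iff.mp hπ).1 _ h1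
  exact ⟨key, fun g hg => key g (by rw [mul_comm]; exact hg)⟩

theorem apply_mem_of_mem_span {s : S} {g : WithConv (B →ₗ[R] S)}
    (hg : g ∈ Ideal.span {algebraMap S (WithConv (B →ₗ[R] S)) s}) (b : B) :
    g b ∈ Ideal.span {s} := by
  obtain ⟨g', rfl⟩ := Ideal.mem_span_singleton.mp hg
  rw [algebraMap_mul_apply]
  exact Ideal.mul_mem_right _ _ (Ideal.mem_span_singleton_self s)

variable [Module.Free R B] [Module.Finite R B]

theorem mem_span_of_forall_apply_mem {s : S} {g : WithConv (B →ₗ[R] S)}
    (hg : ∀ b, g b ∈ Ideal.span {s}) :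
    g ∈ Ideal.span {algebraMap S (WithConv (B →ₗ[R] S)) s} := by
  classical
  let bs := Module.Free.chooseBasis R B
  have h : ∀ i, ∃ c : S, g (bs i) = s * c := fun i => Ideal.mem_span_singleton.mp (hg (bs i))
  choose c hc using h
  rw [Ideal.mem_span_singleton]
  refine ⟨toConv (bs.constr S c), ?_⟩
  apply WithConv.ext
  apply bs.ext
  intro i
  have h1 : (algebraMap S (WithConv (B →ₗ[R] S)) s * toConv (bs.constr S c)) (bs i) =
      s * (bs.constr S c) (bs i) := algebraMap_mul_apply s _ _
  have h2 : (bs.constr S c) (bs i) = c i := bs.constr_basis S c i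
  show g (bs i) = (algebraMap S (WithConv (B →ₗ[R] S)) s * toConv (bs.constr S c)) (bs i)
  rw [h1, h2, hc]

/-- Membership in the ideal generated by a scalar is tested on values. -/
theorem mem_span_algebraMap_iff {s : S} {g : WithConv (B →ₗ[R] S)} :
    g ∈ Ideal.span {algebraMap S (WithConv (B →ₗ[R] S)) s} ↔ ∀ b, g b ∈ Ideal.span {s} :=
  ⟨fun h b => apply_mem_of_mem_span h b, mem_span_of_forall_apply_mem⟩

/-- The convolution ring of a finite free coalgebra with values in a `π`-adically complete ring is
`π`-adically complete. -/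
theorem isAdicComplete_conv (π : S) [IsAdicComplete (Ideal.span {π}) S] :
    IsAdicComplete (Ideal.span {algebraMap S (WithConv (B →ₗ[R] S)) π})
      (WithConv (B →ₗ[R] S)) := by
  classical
  let bs := Module.Free.chooseBasis R B
  let e : (Module.Free.ChooseBasisIndex R B → S) ≃ₗ[S] WithConv (B →ₗ[R] S) :=
    (bs.constr S).trans (WithConv.linearEquiv S (B →ₗ[R] S)).symm
  have h1 : IsAdicComplete (Ideal.span {π}) (Module.Free.ChooseBasisIndex R B → S) :=
    Fermat.Agent.PT.GLOB.PowerNearOne16.isAdicComplete_pi _ _
  have h2 : IsAdicComplete (Ideal.span {π}) (WithConv (B →ₗ[R] S)) :=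
    Fermat.Agent.PT.GLOB.PowerNearOne16.isAdicComplete_of_linearEquiv _ e
  have hmap : (Ideal.span {algebraMap S (WithConv (B →ₗ[R] S)) π} : Ideal (WithConv (B →ₗ[R] S))) =
      (Ideal.span {π}).map (algebraMap S (WithConv (B →ₗ[R] S))) := by
    rw [Ideal.map_span, Set.image_singleton]
  rw [hmap]
  have h3 : IsHausdorff ((Ideal.span {π}).map (algebraMap S (WithConv (B →ₗ[R] S))))
      (WithConv (B →ₗ[R] S)) := IsHausdorff.map_algebraMap_iff.mpr h2.toIsHausdorff
  have h4 : IsPrecomplete ((Ideal.span {π}).map (algebraMap S (WithConv (B →ₗ[R] S))))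
      (WithConv (B →ₗ[R] S)) := IsPrecomplete.map_algebraMap_iff.mpr h2.toIsPrecomplete
  exact { toIsHausdorff := h3, toIsPrecomplete := h4 }

end Basic

section Functoriality

variable {R : Type*} [CommRing R] {B B' : Type*} [AddCommGroup B] [Module R B] [Coalgebra R B]
  [AddCommGroup B'] [Module R B'] [Coalgebra R B']
  {S S' : Type*} [CommRing S] [Algebra R S] [CommRing S'] [Algebra R S']

/-- Precomposition with a coalgebra map is a ring homomorphism of convolution rings. -/
noncomputable def pull (h : B' →ₗc[R] B) : WithConv (B →ₗ[R] S) →+* WithConv (B' →ₗ[R] S) where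
  toFun g := toConv (g.ofConv ∘ₗ h.toLinearMap)
  map_one' := by
    apply WithConv.ext
    apply LinearMap.ext
    intro b
    show algebraMap R S (counit (R := R) (h b)) = algebraMap R S (counit (R := R) b)
    rw [CoalgHomClass.counit_comp_apply]
  map_mul' f g := by
    apply WithConv.ofConv_injective
    exact LinearMap.convMul_comp_coalgHom_distrib f g h
  map_zero' := by
    apply WithConv.ext
    apply LinearMap.ext
    intro b
    rfl
  map_add' f g := by
    apply WithConv.ext
    apply LinearMap.ext
    intro b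
    rfl

@[simp] theorem pull_apply (h : B' →ₗc[R] B) (g : WithConv (B →ₗ[R] S)) (b : B') :
    (pull h g) b = g (h b) := rfl

/-- Postcomposition with an algebra map is a ring homomorphism of convolution rings. -/
noncomputable def push (φ : S →ₐ[R] S') : WithConv (B →ₗ[R] S) →+* WithConv (B →ₗ[R] S') where
  toFun g := toConv (φ.toLinearMap ∘ₗ g.ofConv)
  map_one' := by
    apply WithConv.ext
    apply LinearMap.ext
    intro b
    show φ (algebraMap R S (counit (R := R) b)) = algebraMap R S' (counit (R := R) b)
    rw [AlgHom.commutes]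
  map_mul' f g := by
    apply WithConv.ofConv_injective
    exact LinearMap.algHom_comp_convMul_distrib φ f g
  map_zero' := by
    apply WithConv.ext
    apply LinearMap.ext
    intro b
    show φ 0 = 0
    rw [map_zero]
  map_add' f g := by
    apply WithConv.ext
    apply LinearMap.ext
    intro b
    show φ (f b + g b) = φ (f b) + φ (g b)
    rw [map_add]

@[simp] theorem push_apply (φ : S →ₐ[R] S') (g : WithConv (B →ₗ[R] S)) (b : B) :
    (push φ g) b = φ (g b) := rfl

end Functoriality

section Mult

variable {R : Type*} [CommRing R] {A : Type*} [CommRing A] [Bialgebra R A]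
  {S : Type*} [CommRing S] [Algebra R S]

/-- `g ↦ g ∘ μ_A`. -/
noncomputable def mulPull : WithConv (A →ₗ[R] S) →+* WithConv (A ⊗[R] A →ₗ[R] S) :=
  pull (Bialgebra.mulCoalgHom R A)

@[simp] theorem mulPull_tmul (g : WithConv (A →ₗ[R] S)) (a b : A) :
    (mulPull g) (a ⊗ₜ[R] b) = g (a * b) := by
  show g (Bialgebra.mulCoalgHom R A (a ⊗ₜ[R] b)) = g (a * b)
  simp

/-- `g ↦ μ_S ∘ (g ⊗ g)`, a multiplicative map of convolution rings. -/
noncomputable def sqMap : WithConv (A →ₗ[R] S) →* WithConv (A ⊗[R] A →ₗ[R] S) where
  toFun g := toConv ((Algebra.TensorProduct.lmul' R (S := S)).toLinearMap ∘ₗ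
    TensorProduct.map g.ofConv g.ofConv)
  map_one' := by
    apply WithConv.ext
    apply TensorProduct.ext'
    intro a b
    show (Algebra.TensorProduct.lmul' R (S := S))
      ((algebraMap R S (counit (R := R) a)) ⊗ₜ[R] (algebraMap R S (counit (R := R) b))) =
      algebraMap R S (counit (R := R) (a ⊗ₜ[R] b))
    simp [Algebra.TensorProduct.lmul'_apply_tmul, mul_comm]
  map_mul' f g := by
    apply WithConv.ofConv_injective
    have h1 := TensorProduct.map_convMul_map (R := R) (f := f) (h := g) (g := f) (k := g)
    have h2 := LinearMap.algHom_comp_convMul_distrib (Algebra.TensorProduct.lmul' R (S := S))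
      (toConv (TensorProduct.map f.ofConv f.ofConv)) (toConv (TensorProduct.map g.ofConv g.ofConv))
    rw [h1] at h2
    exact h2

@[simp] theorem sqMap_tmul (g : WithConv (A →ₗ[R] S)) (a b : A) :
    (sqMap g) (a ⊗ₜ[R] b) = g a * g b := by
  show (Algebra.TensorProduct.lmul' R (S := S)) (g a ⊗ₜ[R] g b) = g a * g b
  simp

/-- A linear map is multiplicative iff `mulPull g = sqMap g`. -/
theorem map_mul_of_mulPull_eq_sqMap {g : WithConv (A →ₗ[R] S)} (h : mulPull g = sqMap g) (a b : A) :
    g (a * b) = g a * g b := by
  rw [← mulPull_tmul, h, sqMap_tmul]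

end Mult

end Fermat.Agent.TW.ConvRing48
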