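/-
Programme TW (S56), brick B5-(H), leaf 1 (helper48): `p`-power roots near `1`.

Setting: a commutative ring `B`, an element `π`, a prime `p` with `p = π ^ e' * υ` (`υ` a unit),
`π` a non-zero-divisor and `B` complete for the `π`-adic topology.  (Think of `B` finite free over
a complete discrete valuation ring of mixed characteristic with uniformizer `π` and absolute
ramification index `e'`.)  For an exponent `a` with `e' < (p - 1) * a`:

* `eq_one_of_pow_eq_one`   : `z ^ (p ^ n) = 1`, `z ≡ 1 mod π ^ a` implies `z = 1`;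
* `exists_pow_eq_one_add`  : every `1 + γ` with `γ ∈ (p ^ n * π ^ a)` has a `p ^ n`-th root
                             `w ≡ 1 mod π ^ a`;
* `existsUnique_pow_eq_one`: if `z ^ (p ^ n) ≡ 1 mod p ^ n * π ^ a` then there is a unique `x` with
                             `x ^ (p ^ n) = 1` and `x ≡ z mod π ^ a`.

These are the two facts (injectivity and lifting for `μ_{p^n}`) which replace the differential
calculus (`Ω¹`, complete intersections, divided powers) in Fontaine's proof of his ramification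
bound for finite flat group schemes.
-/
import Mathlib
import Fermat.Agent.PT.GLOB.PowerNearOne16

set_option autoImplicit false

open Polynomial

namespace Fermat.Agent.TW.RootsNearOne48

variable {B : Type*} [CommRing B]

/-- `(1 + y) ^ p = 1 + p y + p y² q(y) + y ^ p` with `q` an (integral) polynomial. -/
theorem exists_poly_one_add_pow {p : ℕ} (hp : p.Prime) :
    ∃ q : B[X], ∀ y : B,
      (1 + y) ^ p = 1 + (p : B) * y + (p : B) * y ^ 2 * q.eval y + y ^ p := by
  obtain ⟨n, rfl⟩ : ∃ n, p = n + 2 := ⟨p - 2, by have := hp.two_le; omega⟩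
  refine ⟨∑ k ∈ Finset.range n, C ((((n + 2).choose (k + 2) / (n + 2) : ℕ)) : B) * X ^ k,
    fun y => ?_⟩
  rw [add_comm (1 : B) y, add_pow]
  simp only [one_pow, mul_one]
  rw [Finset.sum_range_succ, Finset.sum_range_succ', Finset.sum_range_succ']
  simp only [eval_finsetSum, eval_mul, eval_C, eval_pow, eval_X]
  have hterm : ∀ k ∈ Finset.range n,
      y ^ (k + 1 + 1) * (((n + 2).choose (k + 1 + 1) : ℕ) : B) =
      ((n + 2 : ℕ) : B) * y ^ 2 * (((((n + 2).choose (k + 2) / (n + 2) : ℕ)) : B) * y ^ k) := by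
    intro k hk
    have hk' : k < n := Finset.mem_range.mp hk
    have hdvd : (n + 2) ∣ (n + 2).choose (k + 2) :=
      hp.dvd_choose_self (by omega) (by omega)
    obtain ⟨c, hc⟩ := hdvd
    have hc' : (n + 2).choose (k + 2) / (n + 2) = c := by
      rw [hc, Nat.mul_div_cancel_left _ (by omega : 0 < n + 2)]
    rw [hc', show k + 1 + 1 = k + 2 from rfl, hc, Nat.cast_mul]
    ring
  rw [Finset.sum_congr rfl hterm, ← Finset.mul_sum]
  simp only [Nat.choose_self, Nat.cast_one, mul_one, zero_add, pow_zero, Nat.choose_zero_right,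
    pow_one, Nat.choose_one_right]
  ring

section Complete

variable {p : ℕ} (hp : p.Prime) {π υ : B} {e' : ℕ}
  (hπ : π ∈ nonZeroDivisors B) (hυ : IsUnit υ) (hpπ : (p : B) = π ^ e' * υ)
  [IsAdicComplete (Ideal.span {π}) B]

include hp hπ hυ hpπ

omit hp hπ hυ hpπ in
theorem isUnit_of_sub_one_mem {x : B} (hx : x - 1 ∈ Ideal.span {π}) : IsUnit x := by
  have hjac := IsAdicComplete.le_jacobson_bot (Ideal.span {π} : Ideal B)
  have h1 : x - 1 ∈ (⊥ : Ideal B).jacobson := hjac hx
  have := (Ideal.mem_jacobson_bot.mp h1) 1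
  simpa using this

omit hp hπ hυ hpπ [IsAdicComplete (Ideal.span {π}) B] in
theorem span_pow_le_span {a : ℕ} (ha : 1 ≤ a) :
    (Ideal.span {π ^ a} : Ideal B) ≤ Ideal.span {π} := by
  rw [Ideal.span_singleton_le_span_singleton]
  exact dvd_pow_self π (by omega)

/-- One improvement step: `z ^ p = 1`, `z ≡ 1 mod π ^ j` with `e' < (p - 1) j` implies
`z ≡ 1 mod π ^ (j + 1)`. -/
theorem sub_one_mem_succ {j : ℕ} (hj : e' < (p - 1) * j) {z : B} (hz : z ^ p = 1)
    (hz1 : z - 1 ∈ Ideal.span {π ^ j}) : z - 1 ∈ Ideal.span {π ^ (j + 1)} := by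
  have hj1 : 1 ≤ j := by
    rcases Nat.eq_zero_or_pos j with h | h
    · subst h; omega
    · exact h
  obtain ⟨q, hq⟩ := exists_poly_one_add_pow (B := B) hp
  obtain ⟨y', hy'⟩ := Ideal.mem_span_singleton.mp hz1
  set y := z - 1 with hy
  have hzy : z = 1 + y := by rw [hy]; ring
  have hid := hq y
  rw [← hzy, hz] at hid
  -- the unit `u = 1 + y q(y)`
  have hu : IsUnit (1 + y * q.eval y) := by
    apply isUnit_of_sub_one_mem (π := π)
    have : y ∈ Ideal.span {π} := span_pow_le_span hj1 hz1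
    simpa using Ideal.mul_mem_right _ _ this
  obtain ⟨d, hd⟩ : ∃ d, p * j = e' + j + (d + 1) := by
    have h2 : (p - 1) * j + j = p * j := by
      have := hp.one_le
      calc (p - 1) * j + j = (p - 1 + 1) * j := by ring
        _ = p * j := by rw [Nat.sub_add_cancel this]
    exact ⟨(p - 1) * j - e' - 1, by omega⟩
  have hyp : y ^ p = π ^ (e' + j) * (π ^ (d + 1) * y' ^ p) := by
    rw [hy', mul_pow, ← pow_mul, mul_comm j p, hd, pow_add]
    ring
  have h0 : (p : B) * y * (1 + y * q.eval y) + y ^ p = 0 := by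
    linear_combination -hid
  have hmain : π ^ (e' + j) * (υ * y' * (1 + y * q.eval y) + π ^ (d + 1) * y' ^ p) = 0 := by
    calc π ^ (e' + j) * (υ * y' * (1 + y * q.eval y) + π ^ (d + 1) * y' ^ p)
        = (π ^ e' * υ) * (π ^ j * y') * (1 + y * q.eval y)
            + π ^ (e' + j) * (π ^ (d + 1) * y' ^ p) := by rw [pow_add]; ring
      _ = (p : B) * y * (1 + y * q.eval y) + y ^ p := by rw [← hpπ, ← hy', ← hyp]
      _ = 0 := h0
  have hcancel : υ * y' * (1 + y * q.eval y) + π ^ (d + 1) * y' ^ p = 0 := by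
    have hreg : π ^ (e' + j) ∈ nonZeroDivisors B := pow_mem hπ _
    exact (mul_left_mem_nonZeroDivisors_eq_zero_iff hreg).mp hmain
  obtain ⟨w, hw⟩ := (hυ.mul hu).exists_left_inv
  have hy'π : y' = π * (-(w * π ^ d * y' ^ p)) := by
    have h1 : υ * (1 + y * q.eval y) * y' = -(π ^ (d + 1) * y' ^ p) := by
      rw [eq_neg_iff_add_eq_zero, ← hcancel]; ring
    calc y' = w * (υ * (1 + y * q.eval y)) * y' := by rw [hw, one_mul]
      _ = w * (υ * (1 + y * q.eval y) * y') := by ring
      _ = w * (-(π ^ (d + 1) * y' ^ p)) := by rw [h1]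
      _ = π * (-(w * π ^ d * y' ^ p)) := by rw [pow_succ]; ring
  rw [Ideal.mem_span_singleton]
  refine ⟨-(w * π ^ d * y' ^ p), ?_⟩
  rw [hy']
  conv_lhs => rw [hy'π]
  rw [pow_succ]
  ring

/-- `z ^ p = 1`, `z ≡ 1 mod π ^ a` with `e' < (p - 1) a` implies `z = 1`. -/
theorem eq_one_of_pow_prime_eq_one {a : ℕ} (ha : e' < (p - 1) * a) {z : B} (hz : z ^ p = 1)
    (hz1 : z - 1 ∈ Ideal.span {π ^ a}) : z = 1 := by
  have hall : ∀ k, z - 1 ∈ Ideal.span {π ^ (a + k)} := by
    intro k
    induction k with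
    | zero => simpa using hz1
    | succ k ih =>
      have hj : e' < (p - 1) * (a + k) := lt_of_lt_of_le ha (Nat.mul_le_mul_left _ (by omega))
      have := sub_one_mem_succ hp hπ hυ hpπ hj hz ih
      simpa [add_assoc] using this
  have h0 : z - 1 = 0 := by
    refine IsHausdorff.haus' (I := (Ideal.span {π} : Ideal B)) (z - 1) fun n => ?_
    rw [SModEq.zero, Ideal.smul_eq_mul, Ideal.mul_top, Ideal.span_singleton_pow]
    have h1 := hall n
    refine (Ideal.span_singleton_le_span_singleton.mpr ?_) h1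
    exact pow_dvd_pow π (by omega)
  exact sub_eq_zero.mp h0

/-- **Injectivity.**  `z ^ (p ^ n) = 1`, `z ≡ 1 mod π ^ a` with `e' < (p - 1) a` implies `z = 1`. -/
theorem eq_one_of_pow_eq_one {a : ℕ} (ha : e' < (p - 1) * a) (n : ℕ) {z : B}
    (hz : z ^ (p ^ n) = 1) (hz1 : z - 1 ∈ Ideal.span {π ^ a}) : z = 1 := by
  induction n generalizing z with
  | zero => simpa using hz
  | succ n ih =>
    have h1 : (z ^ p) ^ (p ^ n) = 1 := by rw [← pow_mul, ← pow_succ']; exact hz
    have h2 : z ^ p - 1 ∈ Ideal.span {π ^ a} := by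
      obtain ⟨c, hc⟩ := sub_dvd_pow_sub_pow z 1 p
      rw [one_pow] at hc
      rw [hc]
      exact Ideal.mul_mem_right _ _ hz1
    have h3 : z ^ p = 1 := ih h1 h2
    exact eq_one_of_pow_prime_eq_one hp hπ hυ hpπ ha h3 hz1

omit hπ in
/-- Extraction of a `p`-th root of `1 + p π ^ j δ`, `e' < (p - 1) j`. -/
theorem exists_prime_root {j : ℕ} (hj : e' < (p - 1) * j) (δ : B) :
    ∃ u : B, (1 + π ^ j * u) ^ p = 1 + (p : B) * π ^ j * δ := by
  have hj1 : 1 ≤ j := by
    rcases Nat.eq_zero_or_pos j with h | h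
    · subst h; omega
    · exact h
  obtain ⟨q, hq⟩ := exists_poly_one_add_pow (B := B) hp
  obtain ⟨d, hd⟩ : ∃ d, p * j = e' + j + (d + 1) := by
    have h2 : (p - 1) * j + j = p * j := by
      have := hp.one_le
      calc (p - 1) * j + j = (p - 1 + 1) * j := by ring
        _ = p * j := by rw [Nat.sub_add_cancel this]
    exact ⟨(p - 1) * j - e' - 1, by omega⟩
  obtain ⟨υ', hυ'⟩ := hυ.exists_right_inv
  obtain ⟨j', rfl⟩ : ∃ j', j = j' + 1 := ⟨j - 1, by omega⟩
  -- the polynomial `f = X - δ + π g`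
  set g : B[X] := C (π ^ j') * X ^ 2 * q.comp (C (π ^ (j' + 1)) * X) + C (υ' * π ^ d) * X ^ p
    with hg
  set f : B[X] := X - C δ + C π * g with hf
  have h1 : f.eval δ ∈ Ideal.span {π} := by
    rw [hf]
    simp only [eval_add, eval_sub, eval_X, eval_C, eval_mul, sub_self, zero_add]
    exact Ideal.mul_mem_right _ _ (Ideal.mem_span_singleton_self π)
  have h2 : IsUnit (Ideal.Quotient.mk (Ideal.span {π}) (f.derivative.eval δ)) := by
    have : f.derivative.eval δ = 1 + π * g.derivative.eval δ := by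
      rw [hf]
      simp only [derivative_add, derivative_sub, derivative_X, derivative_C, sub_zero,
        derivative_mul, zero_mul, zero_add, eval_add, eval_one, eval_mul, eval_C]
    rw [this, map_add, map_one, map_mul]
    have hπ0 : Ideal.Quotient.mk (Ideal.span {π}) π = 0 :=
      Ideal.Quotient.eq_zero_iff_mem.mpr (Ideal.mem_span_singleton_self π)
    rw [hπ0, zero_mul, add_zero]
    exact isUnit_one
  obtain ⟨u, hu, -⟩ :=
    Fermat.Agent.PT.GLOB.PowerNearOne16.exists_isRoot_of_isAdicComplete (Ideal.span {π}) f δ h1 h2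
  refine ⟨u, ?_⟩
  have hroot : u - δ + π * (π ^ j' * u ^ 2 * q.eval (π ^ (j' + 1) * u) + υ' * π ^ d * u ^ p) = 0 := by
    have := hu
    rw [IsRoot.def, hf, hg] at this
    simpa only [eval_add, eval_sub, eval_X, eval_C, eval_mul, eval_pow, eval_comp] using this
  have hδ : δ = u + π * (π ^ j' * u ^ 2 * q.eval (π ^ (j' + 1) * u) + υ' * π ^ d * u ^ p) := by
    have := hroot
    linear_combination -this
  have hpow : (π ^ (j' + 1) * u) ^ p = (p : B) * π ^ (j' + 1) * (π * (υ' * π ^ d * u ^ p)) := by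
    rw [mul_pow, ← pow_mul, mul_comm (j' + 1) p, hd, pow_add, pow_add, hpπ]
    have : π ^ e' * π ^ (j' + 1) * π ^ (d + 1) * u ^ p =
        π ^ e' * (υ * υ') * π ^ (j' + 1) * π ^ (d + 1) * u ^ p := by rw [hυ', mul_one]
    rw [this, pow_succ π d]
    ring
  rw [hq (π ^ (j' + 1) * u), hpow]
  conv_rhs => rw [hδ]
  rw [pow_succ π j']
  ring

omit hπ in
/-- **Root extraction.**  Every `1 + γ`, `γ ∈ (p ^ n π ^ a)`, `e' < (p - 1) a`, has a
`p ^ n`-th root congruent to `1` modulo `π ^ a`. -/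
theorem exists_pow_eq_one_add (n : ℕ) {a : ℕ} (ha : e' < (p - 1) * a) {γ : B}
    (hγ : γ ∈ Ideal.span {(p : B) ^ n * π ^ a}) :
    ∃ w : B, w - 1 ∈ Ideal.span {π ^ a} ∧ w ^ (p ^ n) = 1 + γ := by
  induction n generalizing γ with
  | zero =>
    refine ⟨1 + γ, ?_, by simp⟩
    simpa using hγ
  | succ n ih =>
    obtain ⟨δ, hδ⟩ := Ideal.mem_span_singleton.mp hγ
    obtain ⟨υ', hυ'⟩ := hυ.exists_right_inv
    have hj : e' < (p - 1) * (n * e' + a) :=
      lt_of_lt_of_le ha (Nat.mul_le_mul_left _ (by omega))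
    obtain ⟨u, hu⟩ := exists_prime_root hp hυ hpπ hj (υ ^ n * δ)
    have hγ' : π ^ (n * e' + a) * u ∈ Ideal.span {(p : B) ^ n * π ^ a} := by
      rw [Ideal.mem_span_singleton]
      refine ⟨υ' ^ n * u, ?_⟩
      rw [hpπ, mul_pow, pow_add, ← pow_mul, mul_comm n e']
      have : π ^ (e' * n) * υ ^ n * π ^ a * (υ' ^ n * u) =
          π ^ (e' * n) * (υ * υ') ^ n * π ^ a * u := by rw [mul_pow]; ring
      rw [this, hυ', one_pow]
      ring
    obtain ⟨w, hw1, hw2⟩ := ih hγ'
    refine ⟨w, hw1, ?_⟩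
    rw [pow_succ, pow_mul, hw2, hu, hδ, hpπ, mul_pow, pow_add, ← pow_mul, mul_comm n e']
    ring

/-- **Lifting of `p ^ n`-th roots of unity.**  If `z ^ (p ^ n) ≡ 1 mod p ^ n π ^ a` with
`e' < (p - 1) a`, there is a unique `x` with `x ^ (p ^ n) = 1` and `x ≡ z mod π ^ a`. -/
theorem existsUnique_pow_eq_one (n : ℕ) {a : ℕ} (ha : e' < (p - 1) * a) {z : B}
    (hz : z ^ (p ^ n) - 1 ∈ Ideal.span {(p : B) ^ n * π ^ a}) :
    ∃! x : B, x ^ (p ^ n) = 1 ∧ x - z ∈ Ideal.span {π ^ a} := by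
  have ha1 : 1 ≤ a := by
    rcases Nat.eq_zero_or_pos a with h | h
    · subst h; omega
    · exact h
  have hpn : 0 < p ^ n := pow_pos hp.pos n
  obtain ⟨w, hw1, hw2⟩ := exists_pow_eq_one_add hp hυ hpπ n ha hz
  have hwz : w ^ (p ^ n) = z ^ (p ^ n) := by rw [hw2]; ring
  have hwu : IsUnit w := isUnit_of_sub_one_mem (π := π) (span_pow_le_span ha1 hw1)
  obtain ⟨w', hw'⟩ := hwu.exists_right_inv
  refine ⟨z * w', ⟨?_, ?_⟩, ?_⟩
  · rw [mul_pow, ← hwz, ← mul_pow, hw', one_pow]
  · have : z * w' - z = (w - 1) * (-(z * w')) := by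
      have h : z * w' - z = z * w' * (1 - w * 1) + z * (w * w' - 1) := by ring
      rw [h, hw']; ring
    rw [this]
    exact Ideal.mul_mem_right _ _ hw1
  · rintro x ⟨hx1, hx2⟩
    -- `d = x * (z w')⁻¹` is a root of unity congruent to `1`
    set x₀ := z * w' with hx₀
    have hx₀1 : x₀ ^ (p ^ n) = 1 := by
      rw [hx₀, mul_pow, ← hwz, ← mul_pow, hw', one_pow]
    have hx₀z : x₀ - z ∈ Ideal.span {π ^ a} := by
      have : z * w' - z = (w - 1) * (-(z * w')) := by
        have h : z * w' - z = z * w' * (1 - w * 1) + z * (w * w' - 1) := by ring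
        rw [h, hw']; ring
      rw [hx₀, this]
      exact Ideal.mul_mem_right _ _ hw1
    obtain ⟨m, hm⟩ : ∃ m, p ^ n = m + 1 := ⟨p ^ n - 1, by omega⟩
    set d := x * x₀ ^ m with hd
    have hd1 : d ^ (p ^ n) = 1 := by
      rw [hd, mul_pow, hx1, one_mul, ← pow_mul, mul_comm, pow_mul, hx₀1, one_pow]
    have hd2 : d - 1 ∈ Ideal.span {π ^ a} := by
      have : d - 1 = (x - x₀) * x₀ ^ m := by
        rw [hd, sub_mul, ← pow_succ', ← hm, hx₀1]
      rw [this]
      refine Ideal.mul_mem_right _ _ ?_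
      have : x - x₀ = (x - z) - (x₀ - z) := by ring
      rw [this]
      exact Ideal.sub_mem _ hx2 hx₀z
    have hd3 : d = 1 := eq_one_of_pow_eq_one hp hπ hυ hpπ ha n hd1 hd2
    calc x = x * x₀ ^ (p ^ n) := by rw [hx₀1, mul_one]
      _ = d * x₀ := by rw [hd, hm, pow_succ]; ring
      _ = x₀ := by rw [hd3, one_mul]

end Complete

end Fermat.Agent.TW.RootsNearOne48
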