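/-
Programme TW (S56), brick B5-(H), leaf 3 (helper48): lifting points of finite flat commutative
group schemes killed by `p ^ n` (Fontaine's lifting lemma, without differentials).

`A` is a commutative cocommutative bialgebra over `R`, finite free as an `R`-module (the affine
algebra of a finite flat commutative group scheme `Γ` over `R`); `S` is a commutative `R`-algebra in
which `π` is a non-zero-divisor, `p = π ^ e' * unit`, complete for the `π`-adic topology (think: the
ring of integers of a finite extension of `K`, `R = 𝒪_K`).  Let `a` be such that `e' < (p - 1) a`.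

* `existsUnique_algHom_of_linear_lift`, `existsUnique_algHom_lift`:
  a point `ḡ ∈ Γ(S / p ^ n π ^ a)` with `p ^ n ḡ = 0` has a unique "lift" `g ∈ Γ(S)` with
  `p ^ n g = 0` and `g ≡ ḡ mod π ^ a`;
* `algHom_eq_of_congr`: two `p ^ n`-torsion points of `Γ(S)` congruent modulo `π ^ a` are equal.

Method: `Γ(S)` is the set of "group-like" elements of the convolution algebra
`C = Hom_R(A, S)`, a finite free commutative `S`-algebra, and `p ^ n`-torsion points are
`p ^ n`-th roots of unity of `C`; roots of unity near `1` are controlled by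
`RootsNearOne48`.  Group-likeness of the lifted root of unity follows from uniqueness of lifts in
`Hom_R(A ⊗ A, S)`.
-/
import Mathlib
import Fermat.Agent.TW.RootsNearOne48
import Fermat.Agent.TW.ConvRing48

set_option autoImplicit false
set_option linter.unusedSectionVars false

open Coalgebra TensorProduct WithConv

namespace Fermat.Agent.TW.HopfLift48

open Fermat.Agent.TW.ConvRing48 Fermat.Agent.TW.RootsNearOne48

section Transfer

variable {R : Type*} [CommRing R] {B : Type*} [AddCommGroup B] [Module R B] [Coalgebra R B]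
  [Coalgebra.IsCocomm R B] [Module.Free R B] [Module.Finite R B]
  {S : Type*} [CommRing S] [Algebra R S]
  {p : ℕ} (hp : p.Prime) {π υ : S} {e' : ℕ} (hπ : π ∈ nonZeroDivisors S) (hυ : IsUnit υ)
  (hpπ : (p : S) = π ^ e' * υ) [IsAdicComplete (Ideal.span {π}) S]

omit [Coalgebra.IsCocomm R B] [Module.Free R B] [Module.Finite R B]
  [IsAdicComplete (Ideal.span {π}) S] in
theorem natCast_eq_algebraMap (hpπ : (p : S) = π ^ e' * υ) :
    ((p : ℕ) : WithConv (B →ₗ[R] S)) =
      algebraMap S (WithConv (B →ₗ[R] S)) π ^ e' * algebraMap S (WithConv (B →ₗ[R] S)) υ := by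
  have h := (map_natCast (algebraMap S (WithConv (B →ₗ[R] S))) p).symm
  rw [h, hpπ, map_mul, map_pow]

include hp hπ hυ hpπ

/-- Injectivity for roots of unity in the convolution ring, in terms of values. -/
theorem conv_eq_one_of_pow_eq_one {a : ℕ} (ha : e' < (p - 1) * a) (n : ℕ)
    {z : WithConv (B →ₗ[R] S)} (hz : z ^ (p ^ n) = 1)
    (hz1 : ∀ b, (z - 1) b ∈ Ideal.span {π ^ a}) : z = 1 := by
  have := isAdicComplete_conv (R := R) (B := B) π
  have hpP : ((p : ℕ) : WithConv (B →ₗ[R] S)) =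
      algebraMap S (WithConv (B →ₗ[R] S)) π ^ e' * algebraMap S (WithConv (B →ₗ[R] S)) υ :=
    natCast_eq_algebraMap hpπ
  have h1 := algebraMap_mem_nonZeroDivisors (R := R) (B := B) hπ
  have h2 : IsUnit (algebraMap S (WithConv (B →ₗ[R] S)) υ) := hυ.map _
  have h3 : z - 1 ∈ Ideal.span {algebraMap S (WithConv (B →ₗ[R] S)) π ^ a} := by
    rw [← map_pow]
    exact mem_span_algebraMap_iff.mpr hz1
  exact eq_one_of_pow_eq_one (B := WithConv (B →ₗ[R] S))
    (π := algebraMap S (WithConv (B →ₗ[R] S)) π) (υ := algebraMap S (WithConv (B →ₗ[R] S)) υ)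
    hp h1 h2 hpP ha n hz h3

/-- Lifting of roots of unity in the convolution ring, in terms of values. -/
theorem conv_existsUnique_pow_eq_one (n : ℕ) {a : ℕ} (ha : e' < (p - 1) * a)
    {z : WithConv (B →ₗ[R] S)}
    (hz : ∀ b, (z ^ (p ^ n) - 1) b ∈ Ideal.span {(p : S) ^ n * π ^ a}) :
    ∃! x : WithConv (B →ₗ[R] S), x ^ (p ^ n) = 1 ∧ ∀ b, (x - z) b ∈ Ideal.span {π ^ a} := by
  have := isAdicComplete_conv (R := R) (B := B) π
  have hpP : ((p : ℕ) : WithConv (B →ₗ[R] S)) =
      algebraMap S (WithConv (B →ₗ[R] S)) π ^ e' * algebraMap S (WithConv (B →ₗ[R] S)) υ :=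
    natCast_eq_algebraMap hpπ
  have hz' : z ^ (p ^ n) - 1 ∈ Ideal.span
      {((p : ℕ) : WithConv (B →ₗ[R] S)) ^ n * algebraMap S (WithConv (B →ₗ[R] S)) π ^ a} := by
    have h0 := (map_natCast (algebraMap S (WithConv (B →ₗ[R] S))) p).symm
    have h1 : ((p : ℕ) : WithConv (B →ₗ[R] S)) ^ n * algebraMap S (WithConv (B →ₗ[R] S)) π ^ a =
        algebraMap S (WithConv (B →ₗ[R] S)) ((p : S) ^ n * π ^ a) := by
      rw [h0, map_mul, map_pow, map_pow]
    rw [h1]
    exact mem_span_algebraMap_iff.mpr hz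
  have h1 := algebraMap_mem_nonZeroDivisors (R := R) (B := B) hπ
  have h2 : IsUnit (algebraMap S (WithConv (B →ₗ[R] S)) υ) := hυ.map _
  obtain ⟨x, ⟨hx1, hx2⟩, hxu⟩ := existsUnique_pow_eq_one (B := WithConv (B →ₗ[R] S))
    (π := algebraMap S (WithConv (B →ₗ[R] S)) π) (υ := algebraMap S (WithConv (B →ₗ[R] S)) υ)
    hp h1 h2 hpP n ha hz'
  refine ⟨x, ⟨hx1, ?_⟩, ?_⟩
  · rw [← map_pow] at hx2
    exact mem_span_algebraMap_iff.mp hx2
  · rintro y ⟨hy1, hy2⟩
    refine hxu y ⟨hy1, ?_⟩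
    rw [← map_pow]
    exact mem_span_algebraMap_iff.mpr hy2

end Transfer

section Main

variable {R : Type*} [CommRing R] {A : Type*} [CommRing A] [Bialgebra R A]
  [Coalgebra.IsCocomm R A] [Module.Free R A] [Module.Finite R A]
  {S : Type*} [CommRing S] [Algebra R S]
  {p : ℕ} (hp : p.Prime) {π υ : S} {e' : ℕ} (hπ : π ∈ nonZeroDivisors S) (hυ : IsUnit υ)
  (hpπ : (p : S) = π ^ e' * υ) [IsAdicComplete (Ideal.span {π}) S]

omit [Coalgebra.IsCocomm R A] [Module.Free R A] [Module.Finite R A] in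
theorem conv_mul_apply_one (f g : WithConv (A →ₗ[R] S)) : (f * g) 1 = f 1 * g 1 := by
  rw [LinearMap.convMul_apply, Bialgebra.comul_one, Algebra.TensorProduct.one_def]
  simp

omit [Coalgebra.IsCocomm R A] [Module.Free R A] [Module.Finite R A] in
theorem conv_one_apply_one : (1 : WithConv (A →ₗ[R] S)) 1 = 1 := by
  rw [LinearMap.convOne_apply, Bialgebra.counit_one, map_one]

include hp hπ hυ hpπ

/-- **Lifting lemma, core form.**  Let `g₀ : A → S` be a linear map which is multiplicative modulo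
`π ^ a` and whose `p ^ n`-th convolution power is trivial modulo `p ^ n π ^ a`.  Then there is a
unique algebra map `g : A → S`, of `p ^ n`-torsion for convolution, congruent to `g₀` modulo
`π ^ a`. -/
theorem existsUnique_algHom_of_linear_lift (n : ℕ) {a : ℕ} (ha : e' < (p - 1) * a)
    (g₀ : A →ₗ[R] S)
    (hmul : ∀ x y, g₀ (x * y) - g₀ x * g₀ y ∈ Ideal.span {π ^ a})
    (htors : ∀ x, (toConv g₀ ^ (p ^ n)) x - algebraMap R S (counit (R := R) x) ∈
      Ideal.span {(p : S) ^ n * π ^ a}) :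
    ∃! g : A →ₐ[R] S, toConv g.toLinearMap ^ (p ^ n) = 1 ∧
      ∀ x, g x - g₀ x ∈ Ideal.span {π ^ a} := by
  obtain ⟨x, ⟨hx1, hx2⟩, hxu⟩ :=
    conv_existsUnique_pow_eq_one (R := R) (B := A) hp hπ hυ hpπ n ha (z := toConv g₀) htors
  have hx2' : ∀ t, x t - g₀ t ∈ Ideal.span {π ^ a} := hx2
  obtain ⟨m, hm⟩ : ∃ m, p ^ n = m + 1 := ⟨p ^ n - 1, by have := pow_pos hp.pos n; omega⟩
  -- `x` is multiplicative
  have hM : mulPull x ^ (p ^ n) = 1 := by rw [← map_pow, hx1, map_one]
  have hQ : sqMap x ^ (p ^ n) = 1 := by rw [← map_pow, hx1, map_one]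
  have hcongr : ∀ t : A ⊗[R] A, (mulPull x - sqMap x) t ∈ Ideal.span {π ^ a} := by
    intro t
    induction t using TensorProduct.induction_on with
    | zero =>
      have : (mulPull x - sqMap x) (0 : A ⊗[R] A) = 0 := map_zero (mulPull x - sqMap x).ofConv
      rw [this]; exact Ideal.zero_mem _
    | tmul u v =>
      have h0 : (mulPull x - sqMap x) (u ⊗ₜ[R] v) = x (u * v) - x u * x v := by
        rw [ConvRing48.sub_apply, mulPull_tmul, sqMap_tmul]
      rw [h0]
      have e1 : x (u * v) - x u * x v =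
          (x (u * v) - g₀ (u * v)) + (g₀ (u * v) - g₀ u * g₀ v)
            - ((x u - g₀ u) * x v + g₀ u * (x v - g₀ v)) := by ring
      rw [e1]
      refine Ideal.sub_mem _ (Ideal.add_mem _ (hx2' _) (hmul u v))
        (Ideal.add_mem _ (Ideal.mul_mem_right _ _ (hx2' u)) (Ideal.mul_mem_left _ _ (hx2' v)))
    | add s t hs ht =>
      have : (mulPull x - sqMap x) (s + t) = (mulPull x - sqMap x) s + (mulPull x - sqMap x) t :=
        map_add (mulPull x - sqMap x).ofConv s t
      rw [this]; exact Ideal.add_mem _ hs ht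
  have hd1 : (mulPull x * sqMap x ^ m) ^ (p ^ n) = 1 := by
    rw [mul_pow, hM, one_mul, ← pow_mul, mul_comm, pow_mul, hQ, one_pow]
  have hd2 : ∀ t : A ⊗[R] A, (mulPull x * sqMap x ^ m - 1) t ∈ Ideal.span {π ^ a} := by
    have h1 : mulPull x * sqMap x ^ m - 1 = (mulPull x - sqMap x) * sqMap x ^ m := by
      rw [sub_mul, ← pow_succ', ← hm, hQ]
    have h2 : mulPull x - sqMap x ∈
        Ideal.span {algebraMap S (WithConv (A ⊗[R] A →ₗ[R] S)) (π ^ a)} :=
      mem_span_algebraMap_iff.mpr hcongr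
    rw [h1]
    exact mem_span_algebraMap_iff.mp (Ideal.mul_mem_right _ _ h2)
  have hd3 : mulPull x * sqMap x ^ m = 1 :=
    conv_eq_one_of_pow_eq_one (R := R) (B := A ⊗[R] A) hp hπ hυ hpπ ha n hd1 hd2
  have hMQ : mulPull x = sqMap x := by
    calc mulPull x = mulPull x * sqMap x ^ (p ^ n) := by rw [hQ, mul_one]
      _ = (mulPull x * sqMap x ^ m) * sqMap x := by rw [hm, pow_succ]; ring
      _ = sqMap x := by rw [hd3, one_mul]
  have hmulx : ∀ u v : A, x (u * v) = x u * x v := map_mul_of_mulPull_eq_sqMap hMQ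
  have hone : x 1 = 1 := by
    have h1 : x 1 * (x ^ m) 1 = 1 := by
      rw [← conv_mul_apply_one, ← pow_succ', ← hm, hx1, conv_one_apply_one]
    have h2 : x 1 = x 1 * x 1 := by
      conv_lhs => rw [← mul_one (1 : A)]
      exact hmulx 1 1
    calc x 1 = x 1 * (x 1 * (x ^ m) 1) := by rw [h1, mul_one]
      _ = (x 1 * x 1) * (x ^ m) 1 := by ring
      _ = 1 := by rw [← h2, h1]
  refine ⟨AlgHom.ofLinearMap x.ofConv hone hmulx, ⟨?_, ?_⟩, ?_⟩
  · have : toConv (AlgHom.ofLinearMap x.ofConv hone hmulx).toLinearMap = x := by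
      apply WithConv.ext
      apply LinearMap.ext
      intro t
      rfl
    rw [this, hx1]
  · intro t
    exact hx2' t
  · rintro g' ⟨hg'1, hg'2⟩
    have h := hxu (toConv g'.toLinearMap) ⟨hg'1, fun t => hg'2 t⟩
    apply AlgHom.ext
    intro t
    have : (toConv g'.toLinearMap) t = x t := by rw [h]
    exact this

/-- **Injectivity.**  Two `p ^ n`-torsion points of `Γ(S)` which are congruent modulo `π ^ a`,
`e' < (p - 1) a`, are equal. -/
theorem algHom_eq_of_congr (n : ℕ) {a : ℕ} (ha : e' < (p - 1) * a) (g g' : A →ₐ[R] S)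
    (hg : toConv g.toLinearMap ^ (p ^ n) = 1) (hg' : toConv g'.toLinearMap ^ (p ^ n) = 1)
    (h : ∀ x, g x - g' x ∈ Ideal.span {π ^ a}) : g = g' := by
  have hmul : ∀ x y, g'.toLinearMap (x * y) - g'.toLinearMap x * g'.toLinearMap y ∈
      Ideal.span {π ^ a} := by
    intro x y
    have : g'.toLinearMap (x * y) - g'.toLinearMap x * g'.toLinearMap y = 0 := by
      simp
    rw [this]; exact Ideal.zero_mem _
  have htors : ∀ x, (toConv g'.toLinearMap ^ (p ^ n)) x - algebraMap R S (counit (R := R) x) ∈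
      Ideal.span {(p : S) ^ n * π ^ a} := by
    intro x
    rw [hg']
    have : (1 : WithConv (A →ₗ[R] S)) x - algebraMap R S (counit (R := R) x) = 0 := by
      rw [LinearMap.convOne_apply, sub_self]
    rw [this]; exact Ideal.zero_mem _
  obtain ⟨g₁, -, hu⟩ :=
    existsUnique_algHom_of_linear_lift hp hπ hυ hpπ n ha g'.toLinearMap hmul htors
  have h1 : g = g₁ := hu g ⟨hg, h⟩
  have h2 : g' = g₁ := hu g' ⟨hg', fun x => by
    have : g' x - g'.toLinearMap x = 0 := by simp
    rw [this]; exact Ideal.zero_mem _⟩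
  rw [h1, h2]

/-- **Lifting lemma.**  A `p ^ n`-torsion point `ḡ` of `Γ` with values in `S / J`, `J ⊆ (p ^ n π ^ a)`, has a
unique lift to a `p ^ n`-torsion point `g` of `Γ(S)` which agrees with `ḡ` modulo `π ^ a`. -/
theorem existsUnique_algHom_lift (n : ℕ) {a : ℕ} (ha : e' < (p - 1) * a)
    (J : Ideal S) (hJ : J ≤ Ideal.span {(p : S) ^ n * π ^ a})
    (gbar : A →ₐ[R] S ⧸ J) (hgbar : toConv gbar.toLinearMap ^ (p ^ n) = 1) :
    ∃! g : A →ₐ[R] S, toConv g.toLinearMap ^ (p ^ n) = 1 ∧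
      ∀ x s, gbar x = Ideal.Quotient.mk J s → g x - s ∈ Ideal.span {π ^ a} := by
  have hJle : J ≤ Ideal.span {π ^ a} := by
    refine hJ.trans ?_
    rw [Ideal.span_singleton_le_span_singleton]
    exact Dvd.intro_left _ rfl
  -- a linear lift
  obtain ⟨g₀, hg₀⟩ := Module.projective_lifting_property
    (Ideal.Quotient.mkₐ R J).toLinearMap gbar.toLinearMap
    (Ideal.Quotient.mkₐ_surjective R J)
  have hg₀' : ∀ x, Ideal.Quotient.mk J (g₀ x) = gbar x := fun x => LinearMap.congr_fun hg₀ x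
  have hmul : ∀ x y, g₀ (x * y) - g₀ x * g₀ y ∈ Ideal.span {π ^ a} := by
    intro x y
    apply hJle
    rw [← Ideal.Quotient.eq_zero_iff_mem, RingHom.map_sub, RingHom.map_mul, hg₀', hg₀', hg₀',
      map_mul, sub_self]
  have hpush : push (B := A) (Ideal.Quotient.mkₐ R J) (toConv g₀) = toConv gbar.toLinearMap := by
    apply WithConv.ext
    apply LinearMap.ext
    intro x
    exact hg₀' x
  have htors : ∀ x, (toConv g₀ ^ (p ^ n)) x - algebraMap R S (counit (R := R) x) ∈
      Ideal.span {(p : S) ^ n * π ^ a} := by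
    intro x
    have h1 : push (B := A) (Ideal.Quotient.mkₐ R J) (toConv g₀ ^ (p ^ n)) = 1 := by
      rw [map_pow, hpush, hgbar]
    have h2 : Ideal.Quotient.mk J ((toConv g₀ ^ (p ^ n)) x) =
        algebraMap R (S ⧸ J) (counit (R := R) x) := by
      have := congrArg (fun f : WithConv (A →ₗ[R] S ⧸ J) => f x) h1
      exact this
    apply hJ
    rw [← Ideal.Quotient.eq_zero_iff_mem, RingHom.map_sub, h2]
    rw [← Ideal.Quotient.algebraMap_eq, ← IsScalarTower.algebraMap_apply, sub_self]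
  obtain ⟨g, ⟨hg1, hg2⟩, hgu⟩ :=
    existsUnique_algHom_of_linear_lift hp hπ hυ hpπ n ha g₀ hmul htors
  refine ⟨g, ⟨hg1, ?_⟩, ?_⟩
  · intro x s hs
    have h1 : g₀ x - s ∈ Ideal.span {π ^ a} := by
      apply hJle
      rw [← Ideal.Quotient.eq_zero_iff_mem, RingHom.map_sub, hg₀', hs, sub_self]
    have : g x - s = (g x - g₀ x) + (g₀ x - s) := by ring
    rw [this]
    exact Ideal.add_mem _ (hg2 x) h1
  · rintro g' ⟨hg'1, hg'2⟩
    exact hgu g' ⟨hg'1, fun x => hg'2 x (g₀ x) (hg₀' x).symm⟩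

end Main

end Fermat.Agent.TW.HopfLift48
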