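/-
Programme TW (S56), brick B5-(H), leaf 4 (helper48): the injection `Γ(B) ↪ Γ(C)` behind Fontaine's
property `(P_m)`.

`H` a finite free commutative cocommutative bialgebra over `R`, all of whose `B`-points are
`p ^ n`-torsion; `B`, `C` commutative `R`-algebras, both complete for a non-zero-divisor (`πB`, `πC`)
with `p = π ^ e * unit`.  Given a ring map `η : B → C / J`, `J ⊆ (p ^ n πC ^ aC)`, such that
`η b ∈ (πC ^ aC) / J` forces `b ∈ (πB ^ aB)` (`eB < (p-1) aB`, `eC < (p-1) aC`), composition with `η`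
followed by the lifting lemma of `HopfLift48` is an *injective* map
`(H →ₐ[R] B) → (H →ₐ[R] C)`.
-/
import Mathlib
import Fermat.Agent.TW.HopfLift48

set_option autoImplicit false
set_option linter.unusedSectionVars false

open Coalgebra TensorProduct WithConv

namespace Fermat.Agent.TW.PmInject48

open Fermat.Agent.TW.ConvRing48 Fermat.Agent.TW.HopfLift48

section Inject

variable {R : Type*} [CommRing R] {H : Type*} [CommRing H] [Bialgebra R H]
  [Coalgebra.IsCocomm R H] [Module.Free R H] [Module.Finite R H]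
  {B : Type*} [CommRing B] [Algebra R B] {C : Type*} [CommRing C] [Algebra R C]
  {p : ℕ} (hp : p.Prime)
  {πB υB : B} {eB : ℕ} (hπB : πB ∈ nonZeroDivisors B) (hυB : IsUnit υB)
  (hpB : (p : B) = πB ^ eB * υB) [IsAdicComplete (Ideal.span {πB}) B]
  {πC υC : C} {eC : ℕ} (hπC : πC ∈ nonZeroDivisors C) (hυC : IsUnit υC)
  (hpC : (p : C) = πC ^ eC * υC) [IsAdicComplete (Ideal.span {πC}) C]

include hp hπB hυB hpB hπC hυC hpC

/-- **The injection behind `(P_m)`.** -/
theorem exists_injective_lift (n : ℕ) {aB aC : ℕ} (haB : eB < (p - 1) * aB)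
    (haC : eC < (p - 1) * aC) (J : Ideal C) (hJ : J ≤ Ideal.span {(p : C) ^ n * πC ^ aC})
    (η : B →ₐ[R] C ⧸ J)
    (hker : ∀ b : B, (∃ c : C, η b = Ideal.Quotient.mk J (πC ^ aC * c)) →
      b ∈ Ideal.span {πB ^ aB})
    (htors : ∀ g : H →ₐ[R] B, toConv g.toLinearMap ^ (p ^ n) = 1) :
    ∃ Φ : (H →ₐ[R] B) → (H →ₐ[R] C), Function.Injective Φ ∧
      ∀ (g : H →ₐ[R] B) (x : H) (s : C), η (g x) = Ideal.Quotient.mk J s →
        Φ g x - s ∈ Ideal.span {πC ^ aC} := by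
  -- the torsion hypothesis transported along `η`
  have hbar : ∀ g : H →ₐ[R] B, toConv (η.comp g).toLinearMap ^ (p ^ n) = 1 := by
    intro g
    have h1 : toConv (η.comp g).toLinearMap = push (B := H) η (toConv g.toLinearMap) := by
      apply WithConv.ext
      apply LinearMap.ext
      intro x
      rfl
    rw [h1, ← map_pow, htors g, map_one]
  have hex : ∀ g : H →ₐ[R] B, ∃! g' : H →ₐ[R] C, toConv g'.toLinearMap ^ (p ^ n) = 1 ∧
      ∀ x s, (η.comp g) x = Ideal.Quotient.mk J s → g' x - s ∈ Ideal.span {πC ^ aC} :=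
    fun g => existsUnique_algHom_lift hp hπC hυC hpC n haC J hJ (η.comp g) (hbar g)
  choose Φ hΦ using fun g => (hex g).exists
  refine ⟨Φ, ?_, fun g x s hs => (hΦ g).2 x s hs⟩
  intro g g' hgg'
  refine algHom_eq_of_congr hp hπB hυB hpB n haB g g' (htors g) (htors g') ?_
  intro x
  apply hker
  obtain ⟨s, hs⟩ := Ideal.Quotient.mk_surjective (η (g x))
  obtain ⟨s', hs'⟩ := Ideal.Quotient.mk_surjective (η (g' x))
  have h1 : Φ g x - s ∈ Ideal.span {πC ^ aC} := (hΦ g).2 x s hs.symm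
  have h2 : Φ g' x - s' ∈ Ideal.span {πC ^ aC} := (hΦ g').2 x s' hs'.symm
  rw [hgg'] at h1
  have h3 : s - s' ∈ Ideal.span {πC ^ aC} := by
    have : s - s' = (Φ g' x - s') - (Φ g' x - s) := by ring
    rw [this]
    exact Ideal.sub_mem _ h2 h1
  obtain ⟨c, hc⟩ := Ideal.mem_span_singleton.mp h3
  refine ⟨c, ?_⟩
  rw [map_sub, ← hs, ← hs', ← map_sub, hc]

end Inject

section DVR

open IsLocalRing

theorem pow_eq_of_unit_mul {C : Type*} [CommRing C] [IsDomain C] {ϖ : C} (hϖ : Irreducible ϖ)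
    {m n : ℕ} {u v : C} (hu : IsUnit u) (hv : IsUnit v) (h : ϖ ^ m * u = ϖ ^ n * v) : m = n := by
  apply le_antisymm
  · have h1 : ϖ ^ m ∣ ϖ ^ n * v := ⟨u, h.symm⟩
    have h2 : ϖ ^ m ∣ ϖ ^ n := (IsUnit.dvd_mul_right hv).mp h1
    exact (pow_dvd_pow_iff hϖ.ne_zero hϖ.not_isUnit).mp h2
  · have h1 : ϖ ^ n ∣ ϖ ^ m * u := ⟨v, h⟩
    have h2 : ϖ ^ n ∣ ϖ ^ m := (IsUnit.dvd_mul_right hu).mp h1
    exact (pow_dvd_pow_iff hϖ.ne_zero hϖ.not_isUnit).mp h2

theorem isUnit_of_isUnit_mk {C : Type*} [CommRing C] [IsLocalRing C] {J : Ideal C}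
    (hJ : J ≤ maximalIdeal C) {w : C} (hw : IsUnit (Ideal.Quotient.mk J w)) : IsUnit w := by
  obtain ⟨w', hw'⟩ := hw.exists_right_inv
  obtain ⟨w'', rfl⟩ := Ideal.Quotient.mk_surjective w'
  rw [← map_mul, ← map_one (Ideal.Quotient.mk J), Ideal.Quotient.eq] at hw'
  have h1 : w * w'' - 1 ∈ maximalIdeal C := hJ hw'
  have h2 : IsUnit (w * w'') := by
    by_contra hnu
    have h3 : w * w'' ∈ maximalIdeal C := (mem_maximalIdeal _).mpr hnu
    have h4 : (1 : C) ∈ maximalIdeal C := by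
      have : (1 : C) = w * w'' - (w * w'' - 1) := by ring
      rw [this]
      exact Ideal.sub_mem _ h3 h1
    exact (Ideal.ne_top_iff_one _).mp (maximalIdeal.isMaximal C).ne_top h4
  exact isUnit_of_mul_isUnit_left h2

variable {B : Type*} [CommRing B] [IsDomain B] [IsDiscreteValuationRing B]
  {C : Type*} [CommRing C] [IsDomain C] [IsDiscreteValuationRing C] {p : ℕ}

/-- **Valuations are preserved by a ring map `B → C / ϖC ^ N` of discrete valuation rings of mixed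
characteristic, `N > v_C(p) ≥ 1`.**  With `p = ϖB ^ eB * unit = ϖC ^ eC * unit`, `eC = r * eB` and an
element whose image is divisible by `ϖC ^ a` (`a ≤ N`) is divisible by `ϖB ^ aB` as soon as
`r * aB < a + r`. -/
theorem dvr_kernel {ϖB : B} (hϖB : Irreducible ϖB) {ϖC : C} (hϖC : Irreducible ϖC)
    {uB : B} (huB : IsUnit uB) {eB : ℕ} (hpB : (p : B) = ϖB ^ eB * uB)
    {uC : C} (huC : IsUnit uC) {eC : ℕ} (hpC : (p : C) = ϖC ^ eC * uC) (heC : 1 ≤ eC)
    {N : ℕ} (hN : eC < N) (J : Ideal C) (hJ : J ≤ Ideal.span {ϖC ^ N}) (η : B →+* C ⧸ J) :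
    ∃ r : ℕ, eC = r * eB ∧ ∀ (b : B) (a : ℕ), a ≤ N →
      (∃ c : C, η b = Ideal.Quotient.mk J (ϖC ^ a * c)) →
      ∀ aB : ℕ, r * aB < a + r → b ∈ Ideal.span {ϖB ^ aB} := by
  have hϖCmem : ϖC ∈ maximalIdeal C := (mem_maximalIdeal _).mpr hϖC.not_isUnit
  have hJmax : J ≤ maximalIdeal C := by
    refine hJ.trans ?_
    rw [Ideal.span_singleton_le_iff_mem]
    obtain ⟨N', rfl⟩ : ∃ N', N = N' + 1 := ⟨N - 1, by omega⟩
    rw [pow_succ]
    exact Ideal.mul_mem_left _ _ hϖCmem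
  -- images of units are represented by units
  have hunit : ∀ u : B, IsUnit u → ∃ w : C, IsUnit w ∧ η u = Ideal.Quotient.mk J w := by
    intro u hu
    obtain ⟨w, hw⟩ := Ideal.Quotient.mk_surjective (η u)
    refine ⟨w, isUnit_of_isUnit_mk hJmax ?_, hw.symm⟩
    rw [hw]
    exact hu.map η
  obtain ⟨t, ht⟩ := Ideal.Quotient.mk_surjective (η ϖB)
  obtain ⟨w, hwu, hw⟩ := hunit uB huB
  -- the image of `p`
  have h1 : Ideal.Quotient.mk J (t ^ eB * w) = Ideal.Quotient.mk J (p : C) := by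
    rw [map_mul, map_pow, ht, ← hw, ← map_pow, ← map_mul, ← hpB, map_natCast, map_natCast]
  rw [Ideal.Quotient.eq] at h1
  obtain ⟨c, hc⟩ := Ideal.mem_span_singleton.mp (hJ h1)
  obtain ⟨k, hk⟩ : ∃ k, N = eC + (k + 1) := ⟨N - eC - 1, by omega⟩
  have h2 : t ^ eB * w = ϖC ^ eC * (uC + ϖC ^ (k + 1) * c) := by
    have : t ^ eB * w = (p : C) + ϖC ^ N * c := by rw [← hc]; ring
    rw [this, hpC, hk, pow_add]
    ring
  have hv : IsUnit (uC + ϖC ^ (k + 1) * c) := by
    rw [← notMem_maximalIdeal]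
    intro hmem
    have h3 : ϖC ^ (k + 1) * c ∈ maximalIdeal C := by
      apply Ideal.mul_mem_right
      rw [pow_succ]
      exact Ideal.mul_mem_left _ _ hϖCmem
    have h4 : uC ∈ maximalIdeal C := by
      have : uC = (uC + ϖC ^ (k + 1) * c) - ϖC ^ (k + 1) * c := by ring
      rw [this]
      exact Ideal.sub_mem _ hmem h3
    exact (mem_maximalIdeal _).mp h4 huC
  have hne : ϖC ^ eC * (uC + ϖC ^ (k + 1) * c) ≠ 0 :=
    mul_ne_zero (pow_ne_zero _ hϖC.ne_zero) hv.ne_zero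
  have heB : 1 ≤ eB := by
    by_contra h
    have h0 : eB = 0 := by omega
    rw [h0, pow_zero, one_mul] at h2
    have h5 : w ∈ maximalIdeal C := by
      rw [h2]
      apply Ideal.mul_mem_right
      obtain ⟨e', rfl⟩ : ∃ e', eC = e' + 1 := ⟨eC - 1, by omega⟩
      rw [pow_succ]
      exact Ideal.mul_mem_left _ _ hϖCmem
    exact (mem_maximalIdeal _).mp h5 hwu
  have ht0 : t ≠ 0 := by
    intro h0
    apply hne
    rw [← h2, h0, zero_pow (by omega), zero_mul]
  obtain ⟨r, ut, hut⟩ := IsDiscreteValuationRing.eq_unit_mul_pow_irreducible ht0 hϖC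
  have hr : eC = r * eB := by
    have h3 : ϖC ^ (r * eB) * ((ut : C) ^ eB * w) = ϖC ^ eC * (uC + ϖC ^ (k + 1) * c) := by
      rw [← h2, hut, mul_pow, ← pow_mul]
      ring
    exact (pow_eq_of_unit_mul hϖC ((ut.isUnit.pow eB).mul hwu) hv h3).symm
  refine ⟨r, hr, ?_⟩
  intro b a haN hb aB haB
  by_cases hb0 : b = 0
  · rw [hb0]; exact Ideal.zero_mem _
  obtain ⟨j, ub, hub⟩ := IsDiscreteValuationRing.eq_unit_mul_pow_irreducible hb0 hϖB
  obtain ⟨wb, hwbu, hwb⟩ := hunit (ub : B) ub.isUnit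
  obtain ⟨c', hc'⟩ := hb
  have h4 : Ideal.Quotient.mk J (wb * t ^ j) = Ideal.Quotient.mk J (ϖC ^ a * c') := by
    rw [← hc', hub, RingHom.map_mul η, RingHom.map_pow η, ← ht, hwb, map_mul, map_pow]
  rw [Ideal.Quotient.eq] at h4
  obtain ⟨c'', hc''⟩ := Ideal.mem_span_singleton.mp (hJ h4)
  obtain ⟨k', hk'⟩ : ∃ k', N = a + k' := ⟨N - a, by omega⟩
  have h5 : ϖC ^ (r * j) * (wb * (ut : C) ^ j) = ϖC ^ a * (c' + ϖC ^ k' * c'') := by
    have : wb * t ^ j = ϖC ^ a * c' + ϖC ^ N * c'' := by rw [← hc'']; ring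
    rw [hut, mul_pow, ← pow_mul] at this
    rw [hk', pow_add] at this
    linear_combination this
  have h6 : a ≤ r * j := by
    have h7 : ϖC ^ a ∣ ϖC ^ (r * j) * (wb * (ut : C) ^ j) := ⟨_, h5⟩
    have h8 : ϖC ^ a ∣ ϖC ^ (r * j) :=
      (IsUnit.dvd_mul_right (hwbu.mul (ut.isUnit.pow j))).mp h7
    exact (pow_dvd_pow_iff hϖC.ne_zero hϖC.not_isUnit).mp h8
  have h9 : aB ≤ j := by
    by_contra hlt
    have hlt' : j + 1 ≤ aB := by omega
    have : r * (j + 1) ≤ r * aB := Nat.mul_le_mul_left r hlt'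
    rw [Nat.mul_succ] at this
    omega
  rw [Ideal.mem_span_singleton, hub]
  exact Dvd.dvd.mul_left (pow_dvd_pow ϖB h9) _

end DVR

section DVRInject

open IsLocalRing

variable {R : Type*} [CommRing R] {H : Type*} [CommRing H] [Bialgebra R H]
  [Coalgebra.IsCocomm R H] [Module.Free R H] [Module.Finite R H]
  {B : Type*} [CommRing B] [IsDomain B] [IsDiscreteValuationRing B] [Algebra R B]
  [IsAdicComplete (maximalIdeal B) B]
  {C : Type*} [CommRing C] [IsDomain C] [IsDiscreteValuationRing C] [Algebra R C]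
  [IsAdicComplete (maximalIdeal C) C]

/-- **The injection behind `(P_m)`, for complete discrete valuation rings.**  `B`, `C` complete
discrete valuation rings of mixed characteristic `(0, p)`, `v_C(p) = eC`; `H` finite free
cocommutative bialgebra all of whose `B`-points are killed by `p ^ n` (`n ≥ 1`);
`N > eC (n + 1/(p-1))`.  Then an `R`-algebra map `B → C / 𝔪_C ^ N` induces an injection
`Γ(B) ↪ Γ(C)` on points of `H`. -/
theorem exists_injective_of_dvr {p : ℕ} (hp : p.Prime) (hpB0 : (p : B) ≠ 0)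
    (n : ℕ) (hn : 1 ≤ n) {eC N : ℕ} (heC : Ideal.span {(p : C)} = maximalIdeal C ^ eC)
    (heC1 : 1 ≤ eC) (hN : eC * (n * (p - 1) + 1) < (p - 1) * N)
    (η : B →ₐ[R] C ⧸ maximalIdeal C ^ N)
    (htors : ∀ g : H →ₐ[R] B, toConv g.toLinearMap ^ (p ^ n) = 1) :
    ∃ Φ : (H →ₐ[R] B) → (H →ₐ[R] C), Function.Injective Φ := by
  obtain ⟨ϖB, hϖB⟩ := IsDiscreteValuationRing.exists_irreducible B
  obtain ⟨ϖC, hϖC⟩ := IsDiscreteValuationRing.exists_irreducible C
  have hmB : maximalIdeal B = Ideal.span {ϖB} := hϖB.maximalIdeal_eq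
  have hmC : maximalIdeal C = Ideal.span {ϖC} := hϖC.maximalIdeal_eq
  have hcB : IsAdicComplete (Ideal.span {ϖB}) B := hmB ▸ ‹IsAdicComplete (maximalIdeal B) B›
  have hcC : IsAdicComplete (Ideal.span {ϖC}) C := hmC ▸ ‹IsAdicComplete (maximalIdeal C) C›
  -- `p` in `B`
  obtain ⟨eB, uB, huB⟩ := IsDiscreteValuationRing.eq_unit_mul_pow_irreducible hpB0 hϖB
  have hpB : (p : B) = ϖB ^ eB * (uB : B) := by rw [huB, mul_comm]
  -- `p` in `C`
  have hassoc : Associated (p : C) (ϖC ^ eC) := by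
    rw [← Ideal.span_singleton_eq_span_singleton, heC, hmC, Ideal.span_singleton_pow]
  obtain ⟨uC, huC⟩ := hassoc
  have hpC : (p : C) = ϖC ^ eC * ((uC⁻¹ : Cˣ) : C) := by
    rw [← huC, mul_assoc, Units.mul_inv, mul_one]
  -- arithmetic
  have hP : 1 ≤ p - 1 := by have := hp.two_le; omega
  have hnN : n * eC < N := by
    by_contra hle
    have hle' : N ≤ n * eC := not_lt.mp hle
    have h1 : (p - 1) * N ≤ (p - 1) * (n * eC) := Nat.mul_le_mul_left _ hle'
    have h2 : (p - 1) * (n * eC) ≤ eC * (n * (p - 1) + 1) := by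
      have : eC * (n * (p - 1) + 1) = (p - 1) * (n * eC) + eC := by ring
      omega
    omega
  obtain ⟨aC, haCN⟩ : ∃ aC, N = n * eC + aC := ⟨N - n * eC, by omega⟩
  have haC : eC < (p - 1) * aC := by
    have h1 : eC * (n * (p - 1) + 1) = (p - 1) * (n * eC) + eC := by ring
    have h2 : (p - 1) * N = (p - 1) * (n * eC) + (p - 1) * aC := by rw [haCN]; ring
    omega
  have heCN : eC < N := by
    have : eC ≤ n * eC := Nat.le_mul_of_pos_left eC (by omega)
    omega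
  have hJ1 : maximalIdeal C ^ N = Ideal.span {ϖC ^ N} := by
    rw [hmC, Ideal.span_singleton_pow]
  have hJ2 : maximalIdeal C ^ N ≤ Ideal.span {(p : C) ^ n * ϖC ^ aC} := by
    rw [hJ1, Ideal.span_singleton_le_span_singleton]
    refine ⟨((uC : C)) ^ n, ?_⟩
    rw [hpC, haCN, mul_pow, ← pow_mul, pow_add, mul_comm eC n]
    have : ϖC ^ (n * eC) * ((uC⁻¹ : Cˣ) : C) ^ n * ϖC ^ aC * (uC : C) ^ n =
        ϖC ^ (n * eC) * ϖC ^ aC * ((((uC⁻¹ : Cˣ) : C) * (uC : C)) ^ n) := by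
      rw [mul_pow]; ring
    rw [this, Units.inv_mul, one_pow, mul_one]
  -- the kernel condition
  obtain ⟨r, hr, hker⟩ := dvr_kernel (p := p) hϖB hϖC uB.isUnit hpB (uC⁻¹).isUnit hpC heC1 heCN
    (maximalIdeal C ^ N) hJ1.le (η : B →+* C ⧸ maximalIdeal C ^ N)
  have hr1 : 1 ≤ r := by
    rcases Nat.eq_zero_or_pos r with h | h
    · rw [h, zero_mul] at hr; omega
    · exact h
  -- the exponent `aB = ⌈aC / r⌉`
  set aB := (aC + r - 1) / r with haBdef
  have hdm := Nat.div_add_mod (aC + r - 1) r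
  have hmod := Nat.mod_lt (aC + r - 1) hr1
  have hraB : r * aB < aC + r := by
    rw [haBdef]; omega
  have hraB' : aC ≤ r * aB := by
    rw [haBdef]; omega
  have haB : eB < (p - 1) * aB := by
    have h1 : (p - 1) * aC ≤ (p - 1) * (r * aB) := Nat.mul_le_mul_left _ hraB'
    have h2 : r * eB < r * ((p - 1) * aB) := by
      have : (p - 1) * (r * aB) = r * ((p - 1) * aB) := by ring
      rw [← hr, ← this]
      omega
    exact Nat.lt_of_mul_lt_mul_left h2
  have haCN' : aC ≤ N := by omega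
  obtain ⟨Φ, hΦ, -⟩ := exists_injective_lift (R := R) (H := H) hp
    (mem_nonZeroDivisors_of_ne_zero hϖB.ne_zero) uB.isUnit hpB
    (mem_nonZeroDivisors_of_ne_zero hϖC.ne_zero) (uC⁻¹).isUnit hpC n haB haC
    (maximalIdeal C ^ N) hJ2 η
    (fun b hb => hker b aC haCN' hb aB hraB) htors
  exact ⟨Φ, hΦ⟩

end DVRInject

end Fermat.Agent.TW.PmInject48
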