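/-
Programme TW (S56), brick B5-(H), leaf 7 (helper48): **`B5.Iface.StatementPm`** — Fontaine's
property `(P_m)`, `m > p/(p-1)`, for the field generated over an unramified `K₀` by the coordinates
of the points of a finite flat `p`-torsion commutative group scheme over `ℤ_(p)`.
-/
import Mathlib
import Fermat.Agent.TW.PmModel48
import Fermat.Agent.TW.PmInject48
import Fermat.Agent.TW.PmEmbed48
import Fermat.Agent.IG.VAL.Zl13
import Fermat.Prelude.Thm_IsLocalRing_isAdicComplete_of_module_finite

set_option autoImplicit false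
set_option linter.unusedSectionVars false
set_option linter.style.haveILetI false

open scoped Fermat.Agent.PT.LOC.Interface12
open Fermat.Agent.PT.LOC.Interface12 Fermat.Agent.PT.LOC.Structure14
open Fermat.Agent.TW.B5.Iface Fermat.Agent.TW.PmModel48
open WithConv

namespace Fermat.Agent.TW.PmStatement48

noncomputable section

variable (p : ℕ) [hp : Fact p.Prime]

/-! ### Elements of `K̄` integral over `ℤ_(p)` have norm `≤ 1` -/

section Integral

open Polynomial

theorem v_le_one_of_isIntegral {K : Type*} [Field K] {Γ₀ : Type*}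
    [LinearOrderedCommGroupWithZero Γ₀] (v : Valuation K Γ₀) {R : Type*} [CommRing R] [Algebra R K]
    (hR : ∀ r : R, v (algebraMap R K r) ≤ 1) {x : K} (hx : IsIntegral R x) : v x ≤ 1 := by
  obtain ⟨f, hm, hf⟩ := hx
  by_cases hn : f.natDegree = 0
  · rw [Polynomial.natDegree_eq_zero] at hn
    obtain ⟨c, rfl⟩ := hn
    have hc : c = 1 := by
      have := hm.leadingCoeff
      simpa using this
    subst hc
    simp at hf
  simp only [Polynomial.eval₂_eq_sum_range, Finset.sum_range_succ, hm.coeff_natDegree, map_one,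
    one_mul, add_eq_zero_iff_eq_neg] at hf
  apply_fun v at hf
  simp only [Valuation.map_neg, map_pow] at hf
  contrapose! hf
  refine ne_of_lt (v.map_sum_lt ?_ ?_)
  · simp [hn, (hf.trans' (zero_lt_one)).ne']
  · simp only [Finset.mem_range, map_mul, map_pow]
    intro _ hi
    exact mul_lt_of_le_one_of_lt (hR _) <| pow_lt_pow_right₀ hf hi

theorem norm_algebraMap_zloc_le_one (r : Zloc p) : ‖algebraMap (Zloc p) (Kbar p) r‖ ≤ 1 := by
  have h1 : algebraMap (Zloc p) (Kbar p) r = algebraMap ℚ_[p] (Kbar p) ((r : ℚ) : ℚ_[p]) := by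
    rw [map_ratCast]; rfl
  rw [h1]
  have h2 : ‖algebraMap ℚ_[p] (Kbar p) ((r : ℚ) : ℚ_[p])‖ = ‖((r : ℚ) : ℚ_[p])‖ :=
    PadicAlgCl.norm_extends p _
  rw [h2]
  apply Padic.norm_rat_le_one
  have h : (r : ℚ).den.Coprime p := r.2
  exact fun hd => (Nat.Prime.coprime_iff_not_dvd hp.out).mp h.symm hd

theorem norm_le_one_of_isIntegral_zloc {x : Kbar p} (hx : IsIntegral (Zloc p) x) : ‖x‖ ≤ 1 := by
  have h := v_le_one_of_isIntegral (Valued.v : Valuation (Kbar p) NNReal)
    (R := Zloc p) (fun r => by
      rw [PadicAlgCl.valuation_def]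
      exact_mod_cast norm_algebraMap_zloc_le_one p r) hx
  rw [PadicAlgCl.valuation_def] at h
  exact_mod_cast h

end Integral

/-! ### The field of coordinates of the points is finite over `ℚ_p` -/

section Points

variable (H : Type) [CommRing H] [HopfAlgebra (Zloc p) H] [Module.Finite (Zloc p) H]

/-- The coordinates of the points of `H` in `K̄`. -/
def values : Set (Kbar p) := {y | ∃ (f : Pts (p := p) H) (h : H), y = f h}

instance finite_pts : Finite (H →ₐ[Zloc p] Kbar p) := finite_algHom_of_module_finite _ _ _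

theorem algebraMap_zloc_mem (F : IntermediateField ℚ_[p] (Kbar p)) (r : Zloc p) :
    algebraMap (Zloc p) (Kbar p) r ∈ F := by
  have h1 : algebraMap (Zloc p) (Kbar p) r = algebraMap ℚ_[p] (Kbar p) ((r : ℚ) : ℚ_[p]) := by
    rw [map_ratCast]; rfl
  rw [h1]
  exact F.algebraMap_mem _

theorem finiteDimensional_adjoin_values :
    FiniteDimensional ℚ_[p] (IntermediateField.adjoin ℚ_[p] (values p H)) := by
  classical
  obtain ⟨n, s, hs⟩ := Module.Finite.exists_fin (R := Zloc p) (M := H)
  let V₀ : Set (Kbar p) := Set.range (fun fi : (H →ₐ[Zloc p] Kbar p) × Fin n => fi.1 (s fi.2))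
  have hV₀fin : Finite V₀ := Set.finite_range _
  have hfd : FiniteDimensional ℚ_[p] (IntermediateField.adjoin ℚ_[p] V₀) :=
    IntermediateField.finiteDimensional_adjoin (fun x _ => Algebra.IsIntegral.isIntegral x)
  have hle : IntermediateField.adjoin ℚ_[p] (values p H) ≤ IntermediateField.adjoin ℚ_[p] V₀ := by
    rw [IntermediateField.adjoin_le_iff]
    rintro y ⟨f, h, rfl⟩
    have hmem : h ∈ Submodule.span (Zloc p) (Set.range s) := by rw [hs]; trivial
    show f.ofConv h ∈ IntermediateField.adjoin ℚ_[p] V₀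
    induction hmem using Submodule.span_induction with
    | mem x hx =>
      obtain ⟨i, rfl⟩ := hx
      exact IntermediateField.subset_adjoin _ _ ⟨(f.ofConv, i), rfl⟩
    | zero => rw [map_zero]; exact zero_mem _
    | add x y _ _ hx hy => rw [map_add]; exact add_mem hx hy
    | smul r x _ hx =>
      rw [map_smul, Algebra.smul_def]
      exact mul_mem (algebraMap_zloc_mem p _ r) hx
  exact Module.Finite.of_injective
    (IntermediateField.inclusion hle).toLinearMap (IntermediateField.inclusion hle).injective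

end Points

/-! ### The main theorem -/

section Main

open IsLocalRing Fermat.Agent.TW.ConvRing48

variable (H : Type) [CommRing H] [HopfAlgebra (Zloc p) H] [Module.Finite (Zloc p) H]
  [Module.Flat (Zloc p) H] [Coalgebra.IsCocomm (Zloc p) H]

local instance instAlgZlocInt (E : IntermediateField ℚ_[p] (Kbar p)) [FiniteDimensional ℚ_[p] E] :
    Algebra (Zloc p) (intRing p E) := algZlocInt p E

theorem push_injective {R : Type*} [CommRing R] {B : Type*} [AddCommGroup B] [Module R B]
    [Coalgebra R B] {S S' : Type*} [CommRing S] [Algebra R S] [CommRing S'] [Algebra R S']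
    (φ : S →ₐ[R] S') (hφ : Function.Injective φ) :
    Function.Injective (push (B := B) φ) := by
  intro f g hfg
  apply WithConv.ext
  apply LinearMap.ext
  intro b
  apply hφ
  have := congrArg (fun k : WithConv (B →ₗ[R] S') => k b) hfg
  exact this

/-- The torsion hypothesis on `K̄`-points gives the torsion hypothesis on `𝒪_E`-points. -/
theorem tors_of_tors (htors : ∀ f : Pts (p := p) H, f ^ p = 1)
    (E : IntermediateField ℚ_[p] (Kbar p)) [FiniteDimensional ℚ_[p] E] :
    ∀ g : H →ₐ[Zloc p] intRing p E, toConv g.toLinearMap ^ (p ^ 1) = 1 := by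
  intro g
  have h1 := htors (toConv ((incl p E).comp g))
  have h2 : toConv (toConv ((incl p E).comp g) ^ p).ofConv.toLinearMap =
      toConv (toConv ((incl p E).comp g)).ofConv.toLinearMap ^ p :=
    AlgHom.toLinearMap_convPow _ p
  rw [h1] at h2
  have h3 : toConv (1 : Pts (p := p) H).ofConv.toLinearMap = 1 := AlgHom.toLinearMap_convOne
  rw [h3] at h2
  have h4 : toConv (toConv ((incl p E).comp g)).ofConv.toLinearMap =
      push (B := H) (incl p E) (toConv g.toLinearMap) := rfl
  rw [h4, ← map_pow] at h2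
  apply push_injective (incl p E) (incl_injective p E)
  rw [pow_one, ← h2, map_one]

/-- Values of points lie in `𝒪_E` as soon as they lie in `E`. -/
theorem values_mem_range_incl (E : IntermediateField ℚ_[p] (Kbar p)) [FiniteDimensional ℚ_[p] E]
    (hE : ∀ (g : H →ₐ[Zloc p] Kbar p) (h : H), g h ∈ E) (g : H →ₐ[Zloc p] Kbar p) (h : H) :
    g h ∈ (incl p E).range := by
  have hint : IsIntegral (Zloc p) (g h) := (Algebra.IsIntegral.isIntegral h).map g
  have hn : ‖g h‖ ≤ 1 := norm_le_one_of_isIntegral_zloc p hint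
  exact ⟨⟨⟨g h, hE g h⟩, (mem_intRing_iff_norm p E ⟨g h, hE g h⟩).mpr hn⟩, rfl⟩

/-- `K₀ = Frac 𝒪_{K₀}`: every element of `K₀` is an integer divided by a power of `p`. -/
theorem exists_pow_mul_mem_intSubring (K₀ : IntermediateField ℚ_[p] (Kbar p)) {x : Kbar p}
    (hx : x ∈ K₀) : ∃ k : ℕ, (p : Kbar p) ^ k * x ∈ intSubring p K₀ := by
  have hp1 : (1 : ℝ) < p := by exact_mod_cast hp.out.one_lt
  have hnp : ‖(p : Kbar p)‖ = (p : ℝ)⁻¹ := by
    have h1 : ((p : ℕ) : Kbar p) = algebraMap ℚ_[p] (Kbar p) (p : ℚ_[p]) := by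
      rw [map_natCast]
    rw [h1, PadicAlgCl.norm_extends]
    exact Padic.norm_p
  obtain ⟨k, hk⟩ := pow_unbounded_of_one_lt ‖x‖ hp1
  refine ⟨k, ⟨K₀.mul_mem (pow_mem (natCast_mem K₀ p) k) hx, ?_⟩⟩
  rw [norm_mul, norm_pow, hnp, inv_pow]
  have hpos : (0 : ℝ) < (p : ℝ) ^ k := pow_pos (by linarith) k
  rw [inv_mul_le_iff₀ hpos, mul_one]
  exact hk.le

/-- **`(P_m)` for the field generated by the points**, general form: `L` finite over `ℚ_p`, generated
over `K₀` by the coordinates of the points and arbitrary extra elements `T` which lie in the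
fraction field of the image of every test ring. -/
theorem fontainePm_of_gen (htors : ∀ f : Pts (p := p) H, f ^ p = 1)
    (K₀ L : IntermediateField ℚ_[p] (Kbar p)) [FiniteDimensional ℚ_[p] K₀]
    [FiniteDimensional ℚ_[p] L]
    (hval : ∀ (g : H →ₐ[Zloc p] Kbar p) (h : H), g h ∈ L)
    (C : Type) [CommRing C] [IsDomain C] [IsDiscreteValuationRing C]
    [Algebra (intSubring p K₀) C] [Module.Finite (intSubring p K₀) C]
    [NoZeroSMulDivisors (intSubring p K₀) C] (N e : ℕ)
    (heC : Ideal.span {(p : C)} = maximalIdeal C ^ e) (hN : p * e < (p - 1) * N)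
    (η : intSubring p L →+* C ⧸ maximalIdeal C ^ N)
    (hη : ∀ (a : intSubring p K₀) (ha : (a : Kbar p) ∈ intSubring p L),
        η ⟨a, ha⟩ = Ideal.Quotient.mk _ (algebraMap (intSubring p K₀) C a))
    (j : C →ₐ[intSubring p K₀] Kbar p)
    (hgen : ∀ F : Subfield (Kbar p), (∀ c : C, j c ∈ F) →
      (∀ (g : H →ₐ[Zloc p] Kbar p) (h : H), g h ∈ F) → ∀ x ∈ L, x ∈ F) :
    ∃ ι : intSubring p L →+* C,
      ∀ (a : intSubring p K₀) (ha : (a : Kbar p) ∈ intSubring p L),
        ι ⟨a, ha⟩ = algebraMap (intSubring p K₀) C a := by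
  classical
  -- `ℤ_(p) → 𝒪_{K₀}` (subring model) and the algebra structures on `C`
  let ρA : Zloc p →+* intSubring p K₀ := (ofInt p K₀).comp (zlocToInt p K₀)
  have hρA : ∀ r : Zloc p, ((ρA r : intSubring p K₀) : Kbar p) = ((r : ℚ) : Kbar p) :=
    fun r => coe_zlocToInt p K₀ r
  letI algRC : Algebra (Zloc p) C := ((algebraMap (intSubring p K₀) C).comp ρA).toAlgebra
  letI algA'C : Algebra (intRing p K₀) C :=
    ((algebraMap (intSubring p K₀) C).comp (ofInt p K₀)).toAlgebra
  have hAinj : Function.Injective (algebraMap (intSubring p K₀) C) :=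
    FaithfulSMul.algebraMap_injective _ _
  have hA'inj : Function.Injective (algebraMap (intRing p K₀) C) :=
    hAinj.comp (ofInt_injective p K₀)
  -- finiteness, locality, completeness of `C`
  haveI : Module.Finite (intRing p K₀) C := by
    letI : Algebra (intRing p K₀) (intSubring p K₀) := (ofInt p K₀).toAlgebra
    haveI : IsScalarTower (intRing p K₀) (intSubring p K₀) C :=
      IsScalarTower.of_algebraMap_eq (fun _ => rfl)
    haveI : Module.Finite (intRing p K₀) (intSubring p K₀) :=
      Module.Finite.of_surjective (Algebra.linearMap (intRing p K₀) (intSubring p K₀))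
        (ofInt_surjective p K₀)
    exact Module.Finite.trans (intSubring p K₀) C
  haveI : IsLocalHom (algebraMap (intRing p K₀) C) :=
    RingHom.IsIntegral.isLocalHom (algebraMap_isIntegral_iff.mpr inferInstance) hA'inj
  haveI : IsAdicComplete (maximalIdeal C) C :=
    IsLocalRing.isAdicComplete_of_module_finite (𝒪 := intRing p K₀)
  haveI : Module.Free (Zloc p) H := Module.free_of_flat_of_isLocalRing
  -- `p` is not a unit of `C`, so `e ≥ 1`
  have hpC : (p : C) ∈ maximalIdeal C := by
    rw [mem_maximalIdeal, mem_nonunits_iff]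
    intro hu
    have h1 : IsUnit (algebraMap (intRing p K₀) C ((p : ℕ) : intRing p K₀)) := by
      rw [map_natCast]; exact hu
    have h2 : IsUnit ((p : ℕ) : intRing p K₀) := isUnit_of_map_unit _ _ h1
    have h3 : ((p : ℕ) : intRing p K₀) ∈ maximalIdeal (intRing p K₀) := by
      rw [← Fermat.Agent.PT.LOC.StructureTower27.maxId_eq_maximalIdeal]
      exact Fermat.Agent.PT.LOC.StructureTower27.natCast_mem_maxId p K₀
    exact (mem_maximalIdeal _).mp h3 h2
  have he1 : 1 ≤ e := by
    by_contra h0
    have h0' : e = 0 := by omega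
    rw [h0', pow_zero, Ideal.one_eq_top, Ideal.span_singleton_eq_top] at heC
    exact (mem_maximalIdeal _).mp hpC heC
  have hN' : e * (1 * (p - 1) + 1) < (p - 1) * N := by
    have : 1 * (p - 1) + 1 = p := by have := hp.out.one_le; omega
    rw [this, mul_comm]; exact hN
  -- the test map as a `ℤ_(p)`-algebra map on `𝒪_L` (abstract model)
  let η' : intRing p L →ₐ[Zloc p] C ⧸ maximalIdeal C ^ N :=
    { toRingHom := η.comp (ofInt p L)
      commutes' := fun r => by
        have ha : ((ρA r : intSubring p K₀) : Kbar p) ∈ intSubring p L := by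
          have := (ofInt p L (zlocToInt p L r)).2
          rw [coe_ofInt, coe_zlocToInt, ← hρA] at this
          exact this
        have h1 : ofInt p L (algebraMap (Zloc p) (intRing p L) r) = ⟨(ρA r : Kbar p), ha⟩ := by
          apply Subtype.ext
          show ((ofInt p L (zlocToInt p L r) : intSubring p L) : Kbar p) = (ρA r : Kbar p)
          rw [coe_ofInt, coe_zlocToInt, hρA]
        show η (ofInt p L (algebraMap (Zloc p) (intRing p L) r)) = _
        rw [h1, hη (ρA r) ha]
        rfl }
  have hpB0 : ((p : ℕ) : intRing p L) ≠ 0 := by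
    intro h0
    have h1 : (((p : ℕ) : intRing p L) : L) = 0 := by rw [h0]; rfl
    have h2 : ((p : ℕ) : L) = 0 := by simpa using h1
    have : CharZero L := charZero_of_injective_algebraMap (algebraMap ℚ_[p] L).injective
    exact (Nat.cast_ne_zero.mpr hp.out.ne_zero) h2
  obtain ⟨Φ, hΦ⟩ := Fermat.Agent.TW.PmInject48.exists_injective_of_dvr (R := Zloc p) (H := H)
    (B := intRing p L) (C := C) hp.out hpB0 1 le_rfl heC he1 hN' η' (tors_of_tors p H htors L)
  -- the embedding `j` as a `ℤ_(p)`-algebra map; it is injective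
  have hjA : ∀ a : intSubring p K₀, j (algebraMap (intSubring p K₀) C a) = (a : Kbar p) :=
    fun a => j.commutes a
  let jR : C →ₐ[Zloc p] Kbar p :=
    { toRingHom := j.toRingHom
      commutes' := fun r => by
        show j (algebraMap (intSubring p K₀) C (ρA r)) = algebraMap (Zloc p) (Kbar p) r
        rw [hjA, hρA]
        rfl }
  have hjinj : Function.Injective j := by
    have hint : Algebra.IsIntegral (intSubring p K₀) C := inferInstance
    rw [injective_iff_map_eq_zero]
    intro c hc
    by_contra hc0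
    have hker : RingHom.ker j.toRingHom ≠ ⊥ := fun h => hc0 (by
      have : c ∈ RingHom.ker j.toRingHom := hc
      rw [h] at this
      exact this)
    have h1 := Ideal.comap_ne_bot_of_integral_mem (R := intSubring p K₀) hc0
      (show c ∈ RingHom.ker j.toRingHom from hc) (Algebra.IsIntegral.isIntegral c)
    apply h1
    rw [eq_bot_iff]
    intro a ha
    have h2 : j (algebraMap (intSubring p K₀) C a) = 0 := ha
    rw [hjA] at h2
    rw [Ideal.mem_bot]
    exact Subtype.ext h2
  have hjRinj : Function.Injective jR := hjinj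
  -- integrality of `𝒪_L` over `j(C)`
  let ψ : ℤ_[p] →+* C := (algebraMap (intRing p K₀) C).comp (algebraMap ℤ_[p] (intRing p K₀))
  have hψ : ∀ z : ℤ_[p], j (ψ z) = algebraMap ℚ_[p] (Kbar p) (z : ℚ_[p]) := by
    intro z
    show j (algebraMap (intSubring p K₀) C (ofInt p K₀ (algebraMap ℤ_[p] (intRing p K₀) z))) = _
    rw [hjA]
    rfl
  have hint : ∀ b : intRing p L, IsIntegral (jR : C →+* Kbar p).range (incl p L b) := by
    intro b
    obtain ⟨P, hPm, hP⟩ : IsIntegral ℤ_[p] (b : L) := b.2
    refine ⟨P.map ((jR : C →+* Kbar p).rangeRestrict.comp ψ), hPm.map _, ?_⟩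
    rw [Polynomial.eval₂_map]
    have h1 : (algebraMap (jR : C →+* Kbar p).range (Kbar p)).comp
        ((jR : C →+* Kbar p).rangeRestrict.comp ψ) =
        (algebraMap L (Kbar p)).comp (algebraMap ℤ_[p] L) := by
      apply RingHom.ext
      intro z
      show j (ψ z) = _
      rw [hψ]
      rfl
    have h2 : incl p L b = algebraMap L (Kbar p) (b : L) := rfl
    rw [h1, h2, ← Polynomial.hom_eval₂, hP, map_zero]
  -- generation
  have hgen' : ∀ F : Subfield (Kbar p), (∀ c : C, jR c ∈ F) →
      (∀ (g : H →ₐ[Zloc p] Kbar p) (h : H), g h ∈ F) → ∀ b : intRing p L, incl p L b ∈ F :=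
    fun F h1 h2 b => hgen F h1 h2 _ (b : L).2
  obtain ⟨ι, hι⟩ := Fermat.Agent.TW.PmEmbed48.exists_algHom_of_injective (R := Zloc p) (H := H)
    (incl p L) (incl_injective p L) jR hjRinj (values_mem_range_incl p H L hval) Φ hΦ hint hgen'
  refine ⟨(ι : intRing p L →+* C).comp (toInt p L), ?_⟩
  intro a ha
  apply hjinj
  show jR (ι (toInt p L ⟨a, ha⟩)) = j (algebraMap (intSubring p K₀) C a)
  rw [hι, hjA]
  rfl

/-- A subfield of `K̄` containing the image of an `𝒪_{K₀}`-algebra contains `K₀`. -/
theorem mem_subfield_of_mem_K₀ (K₀ : IntermediateField ℚ_[p] (Kbar p)) {C : Type} [CommRing C]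
    [Algebra (intSubring p K₀) C] (j : C →ₐ[intSubring p K₀] Kbar p) (F : Subfield (Kbar p))
    (hF : ∀ c : C, j c ∈ F) {x : Kbar p} (hx : x ∈ K₀) : x ∈ F := by
  obtain ⟨k, hk⟩ := exists_pow_mul_mem_intSubring p K₀ hx
  have h1 : (p : Kbar p) ^ k * x ∈ F := by
    have := hF (algebraMap (intSubring p K₀) C ⟨_, hk⟩)
    rw [j.commutes] at this
    exact this
  have hp0 : (p : Kbar p) ^ k ≠ 0 := pow_ne_zero _ (Nat.cast_ne_zero.mpr hp.out.ne_zero)
  have h2 : x = ((p : Kbar p) ^ k)⁻¹ * ((p : Kbar p) ^ k * x) := by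
    field_simp
  rw [h2]
  exact F.mul_mem (F.inv_mem (F.pow_mem (natCast_mem F p) k)) h1

/-- **`B5.Iface.StatementPm`.** -/
theorem statementPm : StatementPm p := by
  intro _ H _ _ _ _ _ htors K₀ L hK₀ _ hL C _ _ _ _ _ _ N e heC hN η hη
  haveI : FiniteDimensional ℚ_[p] K₀ := hK₀
  have hV : FiniteDimensional ℚ_[p] (IntermediateField.adjoin ℚ_[p] (values p H)) :=
    finiteDimensional_adjoin_values p H
  have hL' : L = K₀ ⊔ IntermediateField.adjoin ℚ_[p] (values p H) := hL
  haveI : FiniteDimensional ℚ_[p] L := by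
    rw [hL']
    exact IntermediateField.finiteDimensional_sup _ _
  have hval : ∀ (g : H →ₐ[Zloc p] Kbar p) (h : H), g h ∈ L := by
    intro g h
    rw [hL']
    exact (le_sup_right : _ ≤ K₀ ⊔ IntermediateField.adjoin ℚ_[p] (values p H))
      (IntermediateField.subset_adjoin _ _ ⟨toConv g, h, rfl⟩)
  haveI : Algebra.IsAlgebraic (intSubring p K₀) C := Algebra.IsAlgebraic.of_finite _ _
  let j : C →ₐ[intSubring p K₀] Kbar p := IsAlgClosed.lift
  refine fontainePm_of_gen p H htors K₀ L hval C N e heC hN η hη j ?_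
  intro F hF1 hF2 x hx
  let F' : IntermediateField ℚ_[p] (Kbar p) := Subfield.toIntermediateField F (fun q =>
    mem_subfield_of_mem_K₀ p K₀ j F hF1 (K₀.algebraMap_mem q))
  have hle : L ≤ F' := by
    rw [hL']
    refine sup_le (fun y hy => mem_subfield_of_mem_K₀ p K₀ j F hF1 hy) ?_
    rw [IntermediateField.adjoin_le_iff]
    rintro y ⟨f, h, rfl⟩
    exact hF2 f.ofConv h
  exact hle hx

end Main

end

end Fermat.Agent.TW.PmStatement48
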