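/-
Programme TW (S56), brick B5, glue (H) → (K) (helper48): transfer of Fontaine's property `(P_m)`
from the `K̄`-model of `B5/Iface` (`FontainePm p K₀ L`, fields = intermediate fields of
`K̄ = PadicAlgCl p`, integers cut out by the norm) to the abstract model of `PT/LOC`
(`Ram8.KIface.PmAbs p K L`, fields = types with a `ℚ_[p]`-algebra structure, integers =
`integralClosure ℤ_[p]`).

* `toSub iK : intRing p K ≃+* intSubring p iK.fieldRange` for an embedding `iK : K →ₐ[ℚ_[p]] K̄`;
* `pmAbs_of_fontainePm` : `FontainePm p iK.fieldRange iL.fieldRange → PmAbs p K L`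
  for compatible embeddings `iK`, `iL`;
* `pmAbs_of_fontainePm_intermediate` : the same for `K₀ L : IntermediateField ℚ_[p] K̄` and any
  algebra structure `Algebra ↥K₀ ↥L` compatible with the inclusions into `K̄`.
-/
import Mathlib
import Fermat.Agent.TW.B5.Iface
import Fermat.Agent.TW.Ram8.KIface

set_option autoImplicit false
set_option linter.unusedSectionVars false
set_option linter.style.haveILetI false

open IsLocalRing IsDiscreteValuationRing
open scoped Fermat.Agent.PT.LOC.Interface12 Fermat.Agent.PT.LOC.StructureTower27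
open Fermat.Agent.PT.LOC.Interface12 Fermat.Agent.PT.LOC.Structure14
open Fermat.Agent.TW.B5.Iface Fermat.Agent.TW.Ram8.KIface

namespace Fermat.Agent.TW.PmAbs48

noncomputable section

variable (p : ℕ) [hp : Fact p.Prime]

section Model

variable (K : Type) [Field K] [Algebra ℚ_[p] K] (iK : K →ₐ[ℚ_[p]] Kbar p)

/-- The norm of `K̄` pulled back along an embedding is the spectral norm. -/
theorem norm_eq_spectralNorm (x : K) : ‖iK x‖ = spectralNorm ℚ_[p] K x := by
  letI : Algebra K (Kbar p) := iK.toRingHom.toAlgebra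
  haveI : IsScalarTower ℚ_[p] K (Kbar p) :=
    IsScalarTower.of_algebraMap_eq (fun r => (iK.commutes r).symm)
  rw [← PadicAlgCl.spectralNorm_eq]
  exact (spectralNorm.eq_of_tower (K := ℚ_[p]) (L := Kbar p) x).symm

variable [FiniteDimensional ℚ_[p] K]

theorem mem_intRing_iff_norm (x : K) : x ∈ intRing p K ↔ ‖iK x‖ ≤ 1 := by
  rw [mem_intRing_iff, norm_eq_spectralNorm]

/-- `𝒪_K → 𝒪_{iK(K)}` (abstract model → `K̄`-model). -/
def toSub : intRing p K →+* intSubring p iK.fieldRange where
  toFun x := ⟨iK x, ⟨⟨x, rfl⟩, (mem_intRing_iff_norm p K iK x).mp x.2⟩⟩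
  map_one' := Subtype.ext (map_one iK)
  map_mul' x y := Subtype.ext (map_mul iK (x : K) (y : K))
  map_zero' := Subtype.ext (map_zero iK)
  map_add' x y := Subtype.ext (map_add iK (x : K) (y : K))

@[simp] theorem coe_toSub (x : intRing p K) :
    ((toSub p K iK x : intSubring p iK.fieldRange) : Kbar p) = iK x := rfl

theorem toSub_injective : Function.Injective (toSub p K iK) := by
  intro x y h
  apply Subtype.ext
  apply iK.injective
  exact congrArg (fun z : intSubring p iK.fieldRange => (z : Kbar p)) h

theorem toSub_surjective : Function.Surjective (toSub p K iK) := by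
  rintro ⟨y, ⟨x, rfl⟩, hy⟩
  exact ⟨⟨x, (mem_intRing_iff_norm p K iK x).mpr hy⟩, rfl⟩

/-- `𝒪_K ≃ 𝒪_{iK(K)}`. -/
def subEquiv : intRing p K ≃+* intSubring p iK.fieldRange :=
  RingEquiv.ofBijective (toSub p K iK) ⟨toSub_injective p K iK, toSub_surjective p K iK⟩

@[simp] theorem coe_subEquiv (x : intRing p K) :
    ((subEquiv p K iK x : intSubring p iK.fieldRange) : Kbar p) = iK x := rfl

theorem iK_subEquiv_symm (y : intSubring p iK.fieldRange) :
    iK (((subEquiv p K iK).symm y : intRing p K) : K) = (y : Kbar p) := by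
  have h := coe_subEquiv p K iK ((subEquiv p K iK).symm y)
  rw [RingEquiv.apply_symm_apply] at h
  exact h.symm

end Model

section Transfer

variable (K L : Type) [Field K] [Algebra ℚ_[p] K] [FiniteDimensional ℚ_[p] K]
  [Field L] [Algebra ℚ_[p] L] [FiniteDimensional ℚ_[p] L] [Algebra K L] [IsScalarTower ℚ_[p] K L]

/-- **Transfer.**  `(P_m)` in the `K̄`-model of `B5/Iface` for the images of `K` and `L` under
compatible embeddings into `K̄` gives `(P_m)` in the abstract model of `PT/LOC`. -/
theorem pmAbs_of_fontainePm (iK : K →ₐ[ℚ_[p]] Kbar p) (iL : L →ₐ[ℚ_[p]] Kbar p)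
    (hcomp : ∀ x : K, iL (algebraMap K L x) = iK x)
    (h : FontainePm p iK.fieldRange iL.fieldRange) : PmAbs p K L := by
  intro C _ _ _ _ _ hinj N hN hη
  obtain ⟨η⟩ := hη
  set eK := subEquiv p K iK with heK
  set eL := subEquiv p L iL with heL
  letI algAC : Algebra (intSubring p iK.fieldRange) C :=
    ((algebraMap (intRing p K) C).comp (eK.symm : _ →+* intRing p K)).toAlgebra
  have halg : ∀ a : intSubring p iK.fieldRange,
      algebraMap (intSubring p iK.fieldRange) C a = algebraMap (intRing p K) C (eK.symm a) :=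
    fun _ => rfl
  have hAinj : Function.Injective (algebraMap (intSubring p iK.fieldRange) C) :=
    hinj.comp eK.symm.injective
  haveI : Module.Finite (intSubring p iK.fieldRange) C := by
    letI : Algebra (intSubring p iK.fieldRange) (intRing p K) :=
      (eK.symm : _ →+* intRing p K).toAlgebra
    haveI : IsScalarTower (intSubring p iK.fieldRange) (intRing p K) C :=
      IsScalarTower.of_algebraMap_eq (fun _ => rfl)
    haveI : Module.Finite (intSubring p iK.fieldRange) (intRing p K) :=
      Module.Finite.of_surjective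
        (Algebra.linearMap (intSubring p iK.fieldRange) (intRing p K)) eK.symm.surjective
    exact Module.Finite.trans (intRing p K) C
  haveI : NoZeroSMulDivisors (intSubring p iK.fieldRange) C := ⟨fun {c x} hcx => by
    rw [Algebra.smul_def] at hcx
    rcases mul_eq_zero.mp hcx with h0 | h0
    · exact Or.inl (hAinj (by rw [h0, map_zero]))
    · exact Or.inr h0⟩
  -- the valuation of `p`
  have hpC0 : (p : C) ≠ 0 := by
    have h1 : (p : C) = algebraMap (intRing p K) C ((p : ℕ) : intRing p K) := by
      rw [map_natCast]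
    rw [h1]
    intro h0
    have h2 : ((p : ℕ) : intRing p K) = 0 := hinj (by rw [h0, map_zero])
    have h3 : ((p : ℕ) : K) = 0 := by
      have := congrArg (fun x : intRing p K => (x : K)) h2
      simpa using this
    have h4 : ((p : ℕ) : Kbar p) = 0 := by
      have := congrArg iK h3
      simpa using this
    exact (Nat.cast_ne_zero.mpr hp.out.ne_zero) h4
  obtain ⟨ϖ, hϖ⟩ := exists_irreducible C
  obtain ⟨e, u, hu⟩ := eq_unit_mul_pow_irreducible hpC0 hϖ
  have hval : addVal C (p : C) = e := by rw [hu, addVal_def' u hϖ e]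
  have heC : Ideal.span {(p : C)} = IsLocalRing.maximalIdeal C ^ e := by
    rw [hϖ.maximalIdeal_eq, Ideal.span_singleton_pow, hu]
    exact Ideal.span_singleton_mul_left_unit u.isUnit _
  have hN' : p * e < (p - 1) * N := by
    rw [hval] at hN
    exact_mod_cast hN
  -- compatibility of the two models on `𝒪_K → 𝒪_L`
  have hKL : ∀ (a : intSubring p iK.fieldRange) (ha : (a : Kbar p) ∈ intSubring p iL.fieldRange),
      eL.symm ⟨(a : Kbar p), ha⟩ = algebraMap (intRing p K) (intRing p L) (eK.symm a) := by
    intro a ha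
    apply eL.injective
    rw [RingEquiv.apply_symm_apply]
    apply Subtype.ext
    rw [heL, coe_subEquiv]
    change (a : Kbar p) = iL (algebraMap K L ((eK.symm a : intRing p K) : K))
    rw [hcomp, heK, iK_subEquiv_symm]
  obtain ⟨ι, hι⟩ := h C N e heC hN'
    ((η : intRing p L →+* C ⧸ IsLocalRing.maximalIdeal C ^ N).comp
      (eL.symm : _ →+* intRing p L)) (by
    intro a ha
    rw [RingHom.comp_apply]
    change η (eL.symm ⟨(a : Kbar p), ha⟩) = _
    rw [hKL a ha, halg]
    exact (η.commutes (eK.symm a)).trans rfl)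
  refine ⟨{ toRingHom := ι.comp (eL : intRing p L →+* _), commutes' := fun a => ?_ }⟩
  have hmem : ((eK a : intSubring p iK.fieldRange) : Kbar p) ∈ intSubring p iL.fieldRange := by
    have h1 : ((eK a : intSubring p iK.fieldRange) : Kbar p)
        = ((eL (algebraMap (intRing p K) (intRing p L) a) : intSubring p iL.fieldRange) :
          Kbar p) := by
      rw [heK, heL, coe_subEquiv, coe_subEquiv]
      exact (hcomp _).symm
    rw [h1]
    exact (eL (algebraMap (intRing p K) (intRing p L) a)).2
  have h2 : eL (algebraMap (intRing p K) (intRing p L) a)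
      = ⟨((eK a : intSubring p iK.fieldRange) : Kbar p), hmem⟩ := by
    apply Subtype.ext
    change ((eL (algebraMap (intRing p K) (intRing p L) a) : intSubring p iL.fieldRange) :
      Kbar p) = ((eK a : intSubring p iK.fieldRange) : Kbar p)
    rw [heK, heL, coe_subEquiv, coe_subEquiv]
    exact hcomp _
  show ι (eL (algebraMap (intRing p K) (intRing p L) a)) = _
  rw [h2, hι (eK a) hmem, halg, RingEquiv.symm_apply_apply]

end Transfer

section Intermediate

variable (K₀ L : IntermediateField ℚ_[p] (Kbar p)) [FiniteDimensional ℚ_[p] K₀]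
  [FiniteDimensional ℚ_[p] L] [Algebra ↥K₀ ↥L] [IsScalarTower ℚ_[p] ↥K₀ ↥L]

/-- **Transfer, intermediate-field form.**  Any algebra structure `Algebra ↥K₀ ↥L` compatible with
the inclusions into `K̄` will do. -/
theorem pmAbs_of_fontainePm_intermediate
    (hcoe : ∀ x : K₀, ((algebraMap ↥K₀ ↥L x : L) : Kbar p) = (x : Kbar p))
    (h : FontainePm p K₀ L) : PmAbs p ↥K₀ ↥L := by
  refine pmAbs_of_fontainePm p ↥K₀ ↥L K₀.val L.val hcoe ?_
  rw [IntermediateField.fieldRange_val, IntermediateField.fieldRange_val]
  exact h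

end Intermediate

end

end Fermat.Agent.TW.PmAbs48
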