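/-
Programme TW (S56), group theory for brick G2, part D2 (helper24).

Under `AdIrr24.Hyp ρ` (no stable line for `G` nor for its subgroups of index `2`), every normal
subgroup `N` of `G` with abelian quotient (`commutator G ≤ N`) contains an element `n` such that
`ρ n` has nonzero discriminant, i.e. two distinct eigenvalues.

Used with `N` = the subgroup fixing `ℚ(ζ_{p^n})`: it produces the element `σ₀` of the Taylor–Wiles
argument without any classification of subgroups of `GL₂`.
-/
import Fermat.Agent.TW.AdIrr24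

set_option autoImplicit false

namespace Fermat.Agent.TW.Discr24

open Matrix Fermat.Agent.TW.AdIrr24
open scoped commutatorElement

variable {K : Type*} [Field K]

/-- The traceless part of a `2 × 2` matrix (when `2 ≠ 0`). -/
def tl (M : Matrix (Fin 2) (Fin 2) K) : Matrix (Fin 2) (Fin 2) K :=
  M - (M.trace / 2) • (1 : Matrix (Fin 2) (Fin 2) K)

theorem tl_def (M : Matrix (Fin 2) (Fin 2) K) :
    tl M = M - (M.trace / 2) • (1 : Matrix (Fin 2) (Fin 2) K) := rfl

theorem eq_add_tl (M : Matrix (Fin 2) (Fin 2) K) :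
    M = (M.trace / 2) • (1 : Matrix (Fin 2) (Fin 2) K) + tl M := by
  rw [tl_def]
  abel

theorem tl_trace (h2 : (2 : K) ≠ 0) (M : Matrix (Fin 2) (Fin 2) K) : (tl M).trace = 0 := by
  rw [tl_def, trace_sub, trace_smul, trace_one]
  simp
  field_simp
  ring

theorem four_mul_tl_det (h2 : (2 : K) ≠ 0) (M : Matrix (Fin 2) (Fin 2) K) :
    4 * (tl M).det = -M.discr := by
  rw [discr_fin_two, tl_def, det_fin_two, det_fin_two, trace_fin_two]
  simp
  field_simp
  ring

theorem tl_smul (c : K) (M : Matrix (Fin 2) (Fin 2) K) : tl (c • M) = c • tl M := by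
  rw [tl_def, tl_def, trace_smul, smul_sub, smul_smul]
  congr 2
  simp
  ring

theorem tl_smul_one_add (c : K) (h2 : (2 : K) ≠ 0) (X : Matrix (Fin 2) (Fin 2) K)
    (hX : X.trace = 0) : tl (c • (1 : Matrix (Fin 2) (Fin 2) K) + X) = X := by
  rw [tl_def, trace_add, trace_smul, trace_one, hX]
  simp
  have : c * 2 / 2 = c := by field_simp
  rw [this]
  abel

theorem trace_smul_one_add (c : K) (X : Matrix (Fin 2) (Fin 2) K)
    (hX : X.trace = 0) : (c • (1 : Matrix (Fin 2) (Fin 2) K) + X).trace = 2 * c := by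
  rw [trace_add, trace_smul, trace_one, hX]
  simp
  ring

/-- Two nilpotent traceless matrices orthogonal for the trace form are proportional. -/
theorem exists_smul_of_nilpotent_orthogonal (A B : Matrix (Fin 2) (Fin 2) K)
    (hA : A.trace = 0) (hB : B.trace = 0) (hA0 : A ≠ 0) (hAd : A.det = 0) (hBd : B.det = 0)
    (ht : (A * B).trace = 0) : ∃ t : K, B = t • A := by
  have hA' := traceless_eq A hA
  have hB' := traceless_eq B hB
  set a := A 0 0
  set b := A 0 1
  set c := A 1 0
  set a' := B 0 0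
  set b' := B 0 1
  set c' := B 1 0
  rw [hA'] at hAd
  rw [hB'] at hBd
  rw [hA', hB'] at ht
  simp [det_fin_two] at hAd hBd
  simp [trace_fin_two] at ht
  have key : ∀ t : K, a' = t * a → b' = t * b → c' = t * c → B = t • A := by
    intro t h1 h2' h3
    rw [hA', hB']
    ext i j
    fin_cases i <;> fin_cases j <;> simp [h1, h2', h3]
  by_cases hb : b = 0
  · by_cases hc : c = 0
    · exfalso
      apply hA0
      have ha : a = 0 := by
        have : a * a = 0 := by
          rw [hb] at hAd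
          linear_combination -hAd
        exact mul_self_eq_zero.mp this
      rw [hA', ha, hb, hc]
      ext i j
      fin_cases i <;> fin_cases j <;> simp
    · have h1 : c * a' = a * c' := by
        have : (c * a' - a * c') * (c * a' - a * c') = 0 := by
          linear_combination (-(c * c)) * hBd + (-(c' * c')) * hAd + (-(c * c')) * ht
        linear_combination mul_self_eq_zero.mp this
      have h2' : c * (c * b' - b * c') = 0 := by
        linear_combination c * ht - 2 * a * h1 + 2 * c' * hAd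
      have h3 : c * b' = b * c' := by
        have := (mul_eq_zero.mp h2').resolve_left hc
        linear_combination this
      refine ⟨c' / c, key _ ?_ ?_ ?_⟩
      · field_simp
        linear_combination h1
      · field_simp
        linear_combination h3
      · field_simp
  · have h1 : b * a' = a * b' := by
      have : (b * a' - a * b') * (b * a' - a * b') = 0 := by
        linear_combination (-(b * b)) * hBd + (-(b' * b')) * hAd + (-(b * b')) * ht
      linear_combination mul_self_eq_zero.mp this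
    have h2' : b * (b * c' - c * b') = 0 := by
      linear_combination b * ht - 2 * a * h1 + 2 * b' * hAd
    have h3 : b * c' = c * b' := by
      have := (mul_eq_zero.mp h2').resolve_left hb
      linear_combination this
    refine ⟨b' / b, key _ ?_ ?_ ?_⟩
    · field_simp
      linear_combination h1
    · field_simp
    · field_simp
      linear_combination h3

/-- Discriminant of a product of two "scalar + nilpotent" matrices. -/
theorem discr_mul_of_nilpotent (l₀ l₁ : K) (X₀ X₁ : Matrix (Fin 2) (Fin 2) K)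
    (h₀ : X₀.trace = 0) (h₁ : X₁.trace = 0) (d₀ : X₀.det = 0) (d₁ : X₁.det = 0) :
    ((l₀ • (1 : Matrix (Fin 2) (Fin 2) K) + X₀) * (l₁ • (1 : Matrix (Fin 2) (Fin 2) K) + X₁)).discr
      = (X₀ * X₁).trace * (4 * l₀ * l₁ + (X₀ * X₁).trace) := by
  rw [traceless_eq X₀ h₀] at d₀ ⊢
  rw [traceless_eq X₁ h₁] at d₁ ⊢
  simp [det_fin_two] at d₀ d₁
  simp [discr_fin_two, det_fin_two, trace_fin_two, Matrix.mul_apply, Fin.sum_univ_two]
  linear_combination (-4 * (l₁ ^ 2 + (-(X₁ 0 0 * X₁ 0 0) - X₁ 0 1 * X₁ 1 0))) * d₀ + (-4 * l₀ ^ 2) * d₁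

variable {G : Type*} [Group G] {ρ : G →* GL (Fin 2) K}

theorem tl_cj (g : G) (M : Matrix (Fin 2) (Fin 2) K) : tl (cj ρ g M) = cj ρ g (tl M) := by
  rw [tl_def, tl_def, cj_trace, cj_sub, cj_smul]
  congr 2
  simp [cj_def]

theorem rho_conj (g n : G) :
    (ρ (g * n * g⁻¹) : Matrix (Fin 2) (Fin 2) K) = cj ρ g (ρ n : Matrix (Fin 2) (Fin 2) K) := by
  rw [cj_def, map_mul, map_mul, map_inv, Units.val_mul, Units.val_mul]

/-- **An element with distinct eigenvalues in every normal subgroup with abelian quotient.** -/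
theorem exists_discr_ne_zero (hyp : Hyp ρ) (N : Subgroup G) [hNn : N.Normal]
    (hN : commutator G ≤ N) :
    ∃ n ∈ N, (ρ n : Matrix (Fin 2) (Fin 2) K).discr ≠ 0 := by
  by_contra hcon
  push Not at hcon
  have h2 := hyp.two_ne
  have h4 : (4 : K) ≠ 0 := by
    have : (4 : K) = 2 * 2 := by norm_num
    rw [this]
    exact mul_ne_zero h2 h2
  -- traceless parts of elements of `N` are nilpotent
  have hnil : ∀ n ∈ N, (tl (ρ n : Matrix (Fin 2) (Fin 2) K)).det = 0 := by
    intro n hn
    have := four_mul_tl_det h2 (ρ n : Matrix (Fin 2) (Fin 2) K)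
    rw [hcon n hn, neg_zero] at this
    exact (mul_eq_zero.mp this).resolve_left h4
  -- Step 1: some element of `N` is not scalar
  have step1 : ∃ n₀ ∈ N, tl (ρ n₀ : Matrix (Fin 2) (Fin 2) K) ≠ 0 := by
    by_contra hsc
    push Not at hsc
    by_cases hall : ∀ g : G, tl (ρ g : Matrix (Fin 2) (Fin 2) K) = 0
    · -- all scalar: every line is stable
      apply hyp.habs
      refine ⟨![1, 0], ?_, fun g _ => ?_⟩
      · intro h
        have := congrFun h 0
        simp at this
      · refine ⟨(ρ g : Matrix (Fin 2) (Fin 2) K).trace / 2, ?_⟩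
        have h1 := eq_add_tl (ρ g : Matrix (Fin 2) (Fin 2) K)
        rw [hall g, add_zero] at h1
        conv_lhs => rw [h1]
        rw [smul_mulVec, one_mulVec]
    · push Not at hall
      obtain ⟨g₁, hg₁⟩ := hall
      apply noStableLineAd hyp _ hg₁ (tl_trace h2 _)
      intro g
      -- `g g₁ g⁻¹ = [g, g₁] g₁` with `[g, g₁] ∈ N` scalar
      have hcomm : ⁅g, g₁⁆ ∈ N := hN (Subgroup.commutator_mem_commutator (Subgroup.mem_top g)
        (Subgroup.mem_top g₁))
      have hsc' := hsc _ hcomm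
      have h1 := eq_add_tl (ρ ⁅g, g₁⁆ : Matrix (Fin 2) (Fin 2) K)
      rw [hsc', add_zero] at h1
      refine ⟨(ρ ⁅g, g₁⁆ : Matrix (Fin 2) (Fin 2) K).trace / 2, ?_⟩
      have h3 : g * g₁ * g⁻¹ = ⁅g, g₁⁆ * g₁ := by
        rw [commutatorElement_def]
        group
      have h5 : cj ρ g (tl (ρ g₁ : Matrix (Fin 2) (Fin 2) K))
          = ((ρ ⁅g, g₁⁆ : Matrix (Fin 2) (Fin 2) K).trace / 2) • tl (ρ g₁ : Matrix (Fin 2) (Fin 2) K) := by
        rw [← tl_cj, ← rho_conj, h3, map_mul, Units.val_mul]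
        conv_lhs => rw [h1]
        rw [smul_mul_assoc, one_mul, tl_smul]
      exact h5
  obtain ⟨n₀, hn₀, hX₀⟩ := step1
  -- Step 2
  by_cases hline : ∀ n ∈ N, ∃ c : K, tl (ρ n : Matrix (Fin 2) (Fin 2) K)
      = c • tl (ρ n₀ : Matrix (Fin 2) (Fin 2) K)
  · apply noStableLineAd hyp _ hX₀ (tl_trace h2 _)
    intro g
    obtain ⟨c, hc⟩ := hline (g * n₀ * g⁻¹) (hNn.conj_mem n₀ hn₀ g)
    refine ⟨c, ?_⟩
    rw [rho_conj, tl_cj] at hc
    exact hc
  · push Not at hline
    obtain ⟨n₁, hn₁, hX₁⟩ := hline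
    set X₀ := tl (ρ n₀ : Matrix (Fin 2) (Fin 2) K) with hX₀def
    set X₁ := tl (ρ n₁ : Matrix (Fin 2) (Fin 2) K) with hX₁def
    set l₀ := (ρ n₀ : Matrix (Fin 2) (Fin 2) K).trace / 2 with hl₀
    set l₁ := (ρ n₁ : Matrix (Fin 2) (Fin 2) K).trace / 2 with hl₁
    have e₀ : (ρ n₀ : Matrix (Fin 2) (Fin 2) K) = l₀ • (1 : Matrix (Fin 2) (Fin 2) K) + X₀ :=
      eq_add_tl _
    have e₁ : (ρ n₁ : Matrix (Fin 2) (Fin 2) K) = l₁ • (1 : Matrix (Fin 2) (Fin 2) K) + X₁ :=
      eq_add_tl _
    have t₀ : X₀.trace = 0 := tl_trace h2 _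
    have t₁ : X₁.trace = 0 := tl_trace h2 _
    have d₀ : X₀.det = 0 := hnil n₀ hn₀
    have d₁ : X₁.det = 0 := hnil n₁ hn₁
    have sq₀ : X₀ * X₀ = 0 := by
      rw [mul_self_of_trace_zero X₀ t₀, d₀, neg_zero, zero_smul]
    -- `det (ρ n) = l²`
    have detl : ∀ (l : K) (X : Matrix (Fin 2) (Fin 2) K), X.trace = 0 → X.det = 0 →
        (l • (1 : Matrix (Fin 2) (Fin 2) K) + X).det = l * l := by
      intro l X hX hXd
      rw [traceless_eq X hX] at hXd ⊢
      simp [det_fin_two] at hXd ⊢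
      linear_combination hXd
    have hl₀0 : l₀ ≠ 0 := by
      intro h0
      have := detl l₀ X₀ t₀ d₀
      rw [← e₀, h0, mul_zero] at this
      exact (Matrix.GeneralLinearGroup.det_ne_zero (ρ n₀)) this
    have hl₁0 : l₁ ≠ 0 := by
      intro h0
      have := detl l₁ X₁ t₁ d₁
      rw [← e₁, h0, mul_zero] at this
      exact (Matrix.GeneralLinearGroup.det_ne_zero (ρ n₁)) this
    set t := (X₀ * X₁).trace with ht
    have ht0 : t ≠ 0 := by
      intro h0
      obtain ⟨c, hc⟩ := exists_smul_of_nilpotent_orthogonal X₀ X₁ t₀ t₁ hX₀ d₀ d₁ h0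
      exact hX₁ c hc
    -- discriminant of `n₀ n₁`
    have D1 := hcon (n₀ * n₁) (N.mul_mem hn₀ hn₁)
    rw [map_mul, Units.val_mul, e₀, e₁, discr_mul_of_nilpotent l₀ l₁ X₀ X₁ t₀ t₁ d₀ d₁, ← ht] at D1
    have r1 : 4 * l₀ * l₁ + t = 0 := (mul_eq_zero.mp D1).resolve_left ht0
    -- discriminant of `n₀ n₀ n₁`
    have e₀₀ : (ρ n₀ : Matrix (Fin 2) (Fin 2) K) * (ρ n₀ : Matrix (Fin 2) (Fin 2) K)
        = (l₀ * l₀) • (1 : Matrix (Fin 2) (Fin 2) K) + (2 * l₀) • X₀ := by
      rw [e₀, add_mul, mul_add, mul_add, sq₀, add_zero, smul_mul_smul_comm, one_mul, smul_mul_assoc,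
        one_mul, mul_smul_comm, mul_one, two_mul, add_smul]
      abel
    have D2 := hcon (n₀ * n₀ * n₁) (N.mul_mem (N.mul_mem hn₀ hn₀) hn₁)
    have t₀' : ((2 * l₀) • X₀).trace = 0 := by rw [trace_smul, t₀, smul_zero]
    have d₀' : ((2 * l₀) • X₀).det = 0 := by
      rw [det_smul, d₀, mul_zero]
    rw [map_mul, map_mul, Units.val_mul, Units.val_mul, e₀₀, e₁,
      discr_mul_of_nilpotent (l₀ * l₀) l₁ _ X₁ t₀' t₁ d₀' d₁, smul_mul_assoc, trace_smul, ← ht,
      smul_eq_mul] at D2
    have r2 : 2 * l₀ * l₁ + t = 0 := by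
      have : (4 * l₀ * l₀ * t) * (2 * l₀ * l₁ + t) = 0 := by linear_combination D2
      refine (mul_eq_zero.mp this).resolve_left ?_
      exact mul_ne_zero (mul_ne_zero (mul_ne_zero h4 hl₀0) hl₀0) ht0
    have : 2 * (l₀ * l₁) = 0 := by linear_combination r1 - r2
    rcases mul_eq_zero.mp this with h | h
    · exact h2 h
    · rcases mul_eq_zero.mp h with h | h
      · exact hl₀0 h
      · exact hl₁0 h

end Fermat.Agent.TW.Discr24
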