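/-
Programme TW (S56), group theory for brick G2, part D2' (helper24): the selection lemma.

`G` a group (in the application a finite Galois group `Gal(L/ℚ)`), `ρ : G →* GL (Fin 2) K`,
`ε : G →* K` a character (in the application `ε = det ρ` = cyclotomic character mod `p`),
`M = ad⁰(ε)` = traceless matrices with the action `act ρ ε g X = ε g • ρ g X (ρ g)⁻¹`.

* `IsCocycle`, `IsCoboundary`: plain-function 1-cocycles with values in `M`.
* `selection`: if `C ⊴ G` has abelian quotient, `ε = 1` on `C`, and the cocycle `ψ` does not vanish on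
  `C ∩ ker ρ`, then there is `σ ∈ C` such that `ρ σ` has distinct eigenvalues (`discr ≠ 0`) and
  `ψ σ` pairs nontrivially with the traceless part of `ρ σ`; hence (`not_coboundary_at`) `ψ σ` is not
  of the form `σ X - X`: the class of `ψ` is nonzero in `H¹` of the procyclic group generated by `σ`.
* `isCoboundary_of_quotient`, `ker_lift_le_center`, `hyp_quotient`: inflation step: a cocycle vanishing
  on `𝒦 = C ∩ ker ρ` comes from `G ⧸ 𝒦`, on which `ρ` has central kernel.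
-/
import Fermat.Agent.TW.Discr24

set_option autoImplicit false

namespace Fermat.Agent.TW.Select24

open Matrix Fermat.Agent.TW.AdIrr24 Fermat.Agent.TW.Discr24
open scoped commutatorElement

variable {K : Type*} [Field K] {G : Type*} [Group G]

/-- The twisted adjoint action `X ↦ ε g • ρ g X (ρ g)⁻¹`. -/
def act (ρ : G →* GL (Fin 2) K) (ε : G →* K) (g : G) (X : Matrix (Fin 2) (Fin 2) K) :
    Matrix (Fin 2) (Fin 2) K :=
  ε g • cj ρ g X

section act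

variable (ρ : G →* GL (Fin 2) K) (ε : G →* K)

theorem act_def (g : G) (X : Matrix (Fin 2) (Fin 2) K) : act ρ ε g X = ε g • cj ρ g X := rfl

theorem act_one (X : Matrix (Fin 2) (Fin 2) K) : act ρ ε 1 X = X := by
  rw [act_def, map_one, one_smul, cj_one]

theorem act_mul (g h : G) (X : Matrix (Fin 2) (Fin 2) K) :
    act ρ ε (g * h) X = act ρ ε g (act ρ ε h X) := by
  rw [act_def, act_def, act_def, cj_smul, cj_mul, smul_smul, map_mul]

theorem act_add (g : G) (X Y : Matrix (Fin 2) (Fin 2) K) :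
    act ρ ε g (X + Y) = act ρ ε g X + act ρ ε g Y := by
  rw [act_def, act_def, act_def, cj_add, smul_add]

theorem act_sub (g : G) (X Y : Matrix (Fin 2) (Fin 2) K) :
    act ρ ε g (X - Y) = act ρ ε g X - act ρ ε g Y := by
  rw [act_def, act_def, act_def, cj_sub, smul_sub]

theorem act_zero (g : G) : act ρ ε g (0 : Matrix (Fin 2) (Fin 2) K) = 0 := by
  rw [act_def, cj_zero, smul_zero]

theorem act_trace (g : G) (X : Matrix (Fin 2) (Fin 2) K) :
    (act ρ ε g X).trace = ε g * X.trace := by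
  rw [act_def, trace_smul, cj_trace, smul_eq_mul]

theorem eps_ne_zero (g : G) : ε g ≠ 0 := by
  intro h
  have : ε g * ε g⁻¹ = 1 := by rw [← map_mul, mul_inv_cancel, map_one]
  rw [h, zero_mul] at this
  exact zero_ne_one this

/-- If `ρ τ = 1` and `ε τ = 1` then `τ` acts trivially. -/
theorem act_of_trivial {τ : G} (h1 : ρ τ = 1) (h2 : ε τ = 1) (X : Matrix (Fin 2) (Fin 2) K) :
    act ρ ε τ X = X := by
  rw [act_def, h2, one_smul, cj_def, h1]
  simp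

/-- The twisted action with `ε = det ρ` in adjugate form: `det(g) g X g⁻¹ = g X adj(g)`. -/
theorem det_smul_cj (g : G) (X : Matrix (Fin 2) (Fin 2) K) :
    (ρ g : Matrix (Fin 2) (Fin 2) K).det • cj ρ g X
      = (ρ g : Matrix (Fin 2) (Fin 2) K) * X * (ρ g : Matrix (Fin 2) (Fin 2) K).adjugate := by
  have h : (ρ g : Matrix (Fin 2) (Fin 2) K).adjugate
      = (ρ g : Matrix (Fin 2) (Fin 2) K).det • ((ρ g)⁻¹ : GL (Fin 2) K).val := by
    have h1 : ((ρ g)⁻¹ : GL (Fin 2) K).val * ((ρ g : Matrix (Fin 2) (Fin 2) K)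
        * (ρ g : Matrix (Fin 2) (Fin 2) K).adjugate)
        = ((ρ g)⁻¹ : GL (Fin 2) K).val * ((ρ g : Matrix (Fin 2) (Fin 2) K).det
          • (1 : Matrix (Fin 2) (Fin 2) K)) := by rw [mul_adjugate]
    rw [← mul_assoc, Units.inv_mul, one_mul, mul_smul_comm, mul_one] at h1
    exact h1
  rw [h, cj_def, mul_smul_comm]

end act

/-- A (trace-zero) 1-cocycle with values in `ad⁰(ε)`, as a plain function. -/
structure IsCocycle (ρ : G →* GL (Fin 2) K) (ε : G →* K)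
    (ψ : G → Matrix (Fin 2) (Fin 2) K) : Prop where
  map_mul : ∀ g h : G, ψ (g * h) = ψ g + act ρ ε g (ψ h)
  trace_eq_zero : ∀ g : G, (ψ g).trace = 0

/-- A 1-coboundary with values in `ad⁰(ε)`. -/
def IsCoboundary (ρ : G →* GL (Fin 2) K) (ε : G →* K)
    (ψ : G → Matrix (Fin 2) (Fin 2) K) : Prop :=
  ∃ X : Matrix (Fin 2) (Fin 2) K, X.trace = 0 ∧ ∀ g : G, ψ g = act ρ ε g X - X

namespace IsCocycle

variable {ρ : G →* GL (Fin 2) K} {ε : G →* K} {ψ : G → Matrix (Fin 2) (Fin 2) K}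

theorem map_one (h : IsCocycle ρ ε ψ) : ψ 1 = 0 := by
  have := h.map_mul 1 1
  rw [mul_one, act_one] at this
  exact left_eq_add.mp this

/-- Cocycle value on a conjugate of an element acting trivially. -/
theorem map_conj (h : IsCocycle ρ ε ψ) {τ : G} (h1 : ρ τ = 1) (h2 : ε τ = 1) (g : G) :
    ψ (g * τ * g⁻¹) = act ρ ε g (ψ τ) := by
  have e1 : ψ (g * τ * g⁻¹) = ψ g + act ρ ε g (ψ τ + ψ g⁻¹) := by
    rw [mul_assoc, h.map_mul g, h.map_mul τ, act_of_trivial ρ ε h1 h2]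
  have e2 : ψ g + act ρ ε g (ψ g⁻¹) = 0 := by
    rw [← h.map_mul, mul_inv_cancel, h.map_one]
  rw [e1, act_add]
  calc ψ g + (act ρ ε g (ψ τ) + act ρ ε g (ψ g⁻¹))
      = act ρ ε g (ψ τ) + (ψ g + act ρ ε g (ψ g⁻¹)) := by abel
    _ = act ρ ε g (ψ τ) := by rw [e2, add_zero]

/-- Left translation by an element acting trivially. -/
theorem map_trivial_mul (h : IsCocycle ρ ε ψ) {τ : G} (h1 : ρ τ = 1) (h2 : ε τ = 1) (σ : G) :
    ψ (τ * σ) = ψ τ + ψ σ := by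
  rw [h.map_mul, act_of_trivial ρ ε h1 h2]

/-- Right translation by an element on which `ψ` vanishes. -/
theorem map_mul_of_eq_zero (h : IsCocycle ρ ε ψ) {τ : G} (hτ : ψ τ = 0) (g : G) :
    ψ (g * τ) = ψ g := by
  rw [h.map_mul, hτ, act_zero, add_zero]

end IsCocycle

variable {ρ : G →* GL (Fin 2) K}

/-- `tl (ρ σ)` commutes with `ρ σ`, hence pairs trivially with `σ X - X`. -/
theorem trace_cj_sub_mul_tl (σ : G) (X : Matrix (Fin 2) (Fin 2) K) :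
    ((cj ρ σ X - X) * tl (ρ σ : Matrix (Fin 2) (Fin 2) K)).trace = 0 := by
  have hcomm : ((ρ σ)⁻¹ : GL (Fin 2) K).val * tl (ρ σ : Matrix (Fin 2) (Fin 2) K)
      * (ρ σ : Matrix (Fin 2) (Fin 2) K) = tl (ρ σ : Matrix (Fin 2) (Fin 2) K) := by
    rw [tl_def, mul_sub, sub_mul, Units.inv_mul, mul_smul_comm, mul_one, smul_mul_assoc,
      Units.inv_mul, one_mul]
  rw [sub_mul, trace_sub, cj_def, mul_assoc, mul_assoc, trace_mul_comm, mul_assoc, mul_assoc,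
    ← mul_assoc _ _ (ρ σ : Matrix (Fin 2) (Fin 2) K), hcomm, trace_mul_comm, sub_self]

/-- If `ε σ = 1` and `ψ σ` pairs nontrivially with the traceless part of `ρ σ`, then `ψ σ` is not of the
form `σ X - X`. -/
theorem not_coboundary_at (ε : G →* K) (ψ : G → Matrix (Fin 2) (Fin 2) K) (σ : G) (hε : ε σ = 1)
    (h : (ψ σ * tl (ρ σ : Matrix (Fin 2) (Fin 2) K)).trace ≠ 0) (X : Matrix (Fin 2) (Fin 2) K) :
    ψ σ ≠ act ρ ε σ X - X := by
  intro hX
  apply h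
  rw [hX, act_def, hε, one_smul]
  exact trace_cj_sub_mul_tl σ X

/-- **Selection lemma.**  `C` normal with abelian quotient, `ε = 1` on `C`, `ψ` a cocycle not
vanishing on `C ∩ ker ρ`.  Then some `σ ∈ C` has `discr (ρ σ) ≠ 0` and `tr (ψ σ · tl (ρ σ)) ≠ 0`. -/
theorem selection (hyp : Hyp ρ) (ε : G →* K) (C : Subgroup G) [hCn : C.Normal]
    (hC : commutator G ≤ C) (hεC : ∀ g ∈ C, ε g = 1)
    (ψ : G → Matrix (Fin 2) (Fin 2) K) (hψ : IsCocycle ρ ε ψ)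
    (hres : ∃ τ ∈ C, ρ τ = 1 ∧ ψ τ ≠ 0) :
    ∃ σ ∈ C, (ρ σ : Matrix (Fin 2) (Fin 2) K).discr ≠ 0 ∧
      (ψ σ * tl (ρ σ : Matrix (Fin 2) (Fin 2) K)).trace ≠ 0 := by
  obtain ⟨σ₀, hσ₀C, hσ₀⟩ := exists_discr_ne_zero hyp C hC
  obtain ⟨τ₀, hτ₀C, hτ₀ρ, hτ₀ψ⟩ := hres
  by_cases h0 : (ψ σ₀ * tl (ρ σ₀ : Matrix (Fin 2) (Fin 2) K)).trace ≠ 0
  · exact ⟨σ₀, hσ₀C, hσ₀, h0⟩
  · push Not at h0
    have h2 := hyp.two_ne
    have h4 : (4 : K) ≠ 0 := by
      have : (4 : K) = 2 * 2 := by norm_num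
      rw [this]
      exact mul_ne_zero h2 h2
    -- the traceless part of `ρ σ₀` is nonzero
    have hH0 : tl (ρ σ₀ : Matrix (Fin 2) (Fin 2) K) ≠ 0 := by
      intro h
      have := four_mul_tl_det h2 (ρ σ₀ : Matrix (Fin 2) (Fin 2) K)
      rw [h, det_zero, mul_zero] at this
      exact hσ₀ (neg_eq_zero.mp this.symm)
    obtain ⟨g, hg⟩ := exists_trace_ne_zero hyp (ψ τ₀) (tl (ρ σ₀ : Matrix (Fin 2) (Fin 2) K)) hτ₀ψ hH0
      (hψ.trace_eq_zero τ₀) (tl_trace h2 _)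
    -- `τ = g τ₀ g⁻¹`
    have hτC : g * τ₀ * g⁻¹ ∈ C := hCn.conj_mem τ₀ hτ₀C g
    have hτρ : ρ (g * τ₀ * g⁻¹) = 1 := by
      rw [map_mul, map_mul, hτ₀ρ, mul_one, ← map_mul, mul_inv_cancel, map_one]
    have hτε : ε (g * τ₀ * g⁻¹) = 1 := hεC _ hτC
    have hτψ : ψ (g * τ₀ * g⁻¹) = ε g • cj ρ g (ψ τ₀) :=
      hψ.map_conj hτ₀ρ (hεC _ hτ₀C) g
    refine ⟨g * τ₀ * g⁻¹ * σ₀, C.mul_mem hτC hσ₀C, ?_, ?_⟩
    · rw [map_mul, hτρ, one_mul]
      exact hσ₀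
    · rw [map_mul ρ, hτρ, one_mul, hψ.map_trivial_mul hτρ hτε, add_mul, trace_add, h0, add_zero,
        hτψ, smul_mul_assoc, trace_smul, smul_eq_mul]
      exact mul_ne_zero (eps_ne_zero ε g) hg

/-! ### Inflation -/

section quotient

variable (ρ) (ε : G →* K) (𝒦 : Subgroup G) [h𝒦 : 𝒦.Normal] (h1 : 𝒦 ≤ ρ.ker) (h2 : 𝒦 ≤ ε.ker)

/-- A cocycle vanishing on a normal subgroup `𝒦 ≤ ker ρ ∩ ker ε` is a coboundary as soon as all
cocycles of `G ⧸ 𝒦` are. -/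
theorem isCoboundary_of_quotient (ψ : G → Matrix (Fin 2) (Fin 2) K) (hψ : IsCocycle ρ ε ψ)
    (hψ𝒦 : ∀ τ ∈ 𝒦, ψ τ = 0)
    (hD3 : ∀ ψ' : G ⧸ 𝒦 → Matrix (Fin 2) (Fin 2) K,
      IsCocycle (QuotientGroup.lift 𝒦 ρ h1) (QuotientGroup.lift 𝒦 ε h2) ψ' →
      IsCoboundary (QuotientGroup.lift 𝒦 ρ h1) (QuotientGroup.lift 𝒦 ε h2) ψ') :
    IsCoboundary ρ ε ψ := by
  have hcompat : ∀ a b : G, QuotientGroup.leftRel 𝒦 a b → ψ a = ψ b := by
    intro a b hab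
    rw [QuotientGroup.leftRel_apply] at hab
    have : b = a * (a⁻¹ * b) := by group
    rw [this, hψ.map_mul_of_eq_zero (hψ𝒦 _ hab)]
  set ψ' : G ⧸ 𝒦 → Matrix (Fin 2) (Fin 2) K := fun x => Quotient.liftOn' x ψ hcompat with hψ'
  have hψ'mk : ∀ g : G, ψ' (g : G ⧸ 𝒦) = ψ g := fun g => rfl
  have hact : ∀ (g : G) (X : Matrix (Fin 2) (Fin 2) K),
      act (QuotientGroup.lift 𝒦 ρ h1) (QuotientGroup.lift 𝒦 ε h2) (g : G ⧸ 𝒦) X = act ρ ε g X := by
    intro g X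
    rw [act_def, act_def, cj_def, cj_def, QuotientGroup.lift_mk, QuotientGroup.lift_mk]
  have hcoc : IsCocycle (QuotientGroup.lift 𝒦 ρ h1) (QuotientGroup.lift 𝒦 ε h2) ψ' := by
    constructor
    · intro x y
      obtain ⟨a, rfl⟩ := QuotientGroup.mk_surjective x
      obtain ⟨b, rfl⟩ := QuotientGroup.mk_surjective y
      rw [← QuotientGroup.mk_mul, hψ'mk, hψ'mk, hψ'mk, hact]
      exact hψ.map_mul a b
    · intro x
      obtain ⟨a, rfl⟩ := QuotientGroup.mk_surjective x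
      rw [hψ'mk]
      exact hψ.trace_eq_zero a
  obtain ⟨X, hXtr, hX⟩ := hD3 ψ' hcoc
  refine ⟨X, hXtr, fun g => ?_⟩
  rw [← hψ'mk, hX, hact]

/-- Irreducibility hypotheses pass to the quotient. -/
theorem hyp_quotient (hyp : Hyp ρ) : Hyp (QuotientGroup.lift 𝒦 ρ h1) := by
  refine ⟨hyp.two_ne, hyp.sq, ?_, ?_⟩
  · rintro ⟨v, hv, hv'⟩
    apply hyp.habs
    refine ⟨v, hv, fun g _ => ?_⟩
    obtain ⟨c, hc⟩ := hv' (g : G ⧸ 𝒦) (Set.mem_univ _)
    rw [QuotientGroup.lift_mk] at hc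
    exact ⟨c, hc⟩
  · intro H hH
    rintro ⟨v, hv, hv'⟩
    apply hyp.hTW (H.comap (QuotientGroup.mk' 𝒦))
    · rw [Subgroup.index_comap_of_surjective H (QuotientGroup.mk'_surjective 𝒦)]
      exact hH
    · refine ⟨v, hv, fun g hg => ?_⟩
      obtain ⟨c, hc⟩ := hv' (g : G ⧸ 𝒦) hg
      rw [QuotientGroup.lift_mk] at hc
      exact ⟨c, hc⟩

end quotient

/-- On `G ⧸ (C ⊓ ker ρ)` with `G ⧸ C` abelian, the kernel of `ρ` is central. -/
theorem ker_lift_le_center (ρ : G →* GL (Fin 2) K) (C : Subgroup G) [C.Normal]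
    (hC : commutator G ≤ C) :
    (QuotientGroup.lift (C ⊓ ρ.ker) ρ inf_le_right).ker ≤ Subgroup.center (G ⧸ (C ⊓ ρ.ker)) := by
  intro x hx
  obtain ⟨a, rfl⟩ := QuotientGroup.mk_surjective x
  rw [MonoidHom.mem_ker, QuotientGroup.lift_mk] at hx
  rw [Subgroup.mem_center_iff]
  intro y
  obtain ⟨b, rfl⟩ := QuotientGroup.mk_surjective y
  rw [← QuotientGroup.mk_mul, ← QuotientGroup.mk_mul, QuotientGroup.eq]
  have e : (b * a)⁻¹ * (a * b) = ⁅a⁻¹, b⁻¹⁆ := by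
    rw [commutatorElement_def]
    group
  rw [e]
  refine ⟨hC (Subgroup.commutator_mem_commutator (Subgroup.mem_top _) (Subgroup.mem_top _)), ?_⟩
  change ⁅a⁻¹, b⁻¹⁆ ∈ ρ.ker
  rw [MonoidHom.mem_ker, commutatorElement_def, map_mul, map_mul, map_mul, map_inv, map_inv, map_inv,
    map_inv, hx]
  simp

/-- `C ⊓ ker ρ ≤ ker ε` when `ε = 1` on `C`. -/
theorem inf_ker_le_ker (ρ : G →* GL (Fin 2) K) (ε : G →* K) (C : Subgroup G)
    (hεC : ∀ g ∈ C, ε g = 1) : C ⊓ ρ.ker ≤ ε.ker :=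
  fun g hg => MonoidHom.mem_ker.mpr (hεC g (Subgroup.mem_inf.mp hg).1)

/-- **Selection lemma, final form**: a cocycle which is not a coboundary, given that all cocycles on
the quotient `G ⧸ (C ⊓ ker ρ)` (on which `ker ρ` is central, `ker_lift_le_center`) are coboundaries. -/
theorem selection_of_not_coboundary (hyp : Hyp ρ) (ε : G →* K) (C : Subgroup G) [hCn : C.Normal]
    (hC : commutator G ≤ C) (hεC : ∀ g ∈ C, ε g = 1)
    (ψ : G → Matrix (Fin 2) (Fin 2) K) (hψ : IsCocycle ρ ε ψ) (hncb : ¬ IsCoboundary ρ ε ψ)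
    (hD3 : ∀ ψ' : G ⧸ (C ⊓ ρ.ker) → Matrix (Fin 2) (Fin 2) K,
      IsCocycle (QuotientGroup.lift (C ⊓ ρ.ker) ρ inf_le_right)
        (QuotientGroup.lift (C ⊓ ρ.ker) ε (inf_ker_le_ker ρ ε C hεC)) ψ' →
      IsCoboundary (QuotientGroup.lift (C ⊓ ρ.ker) ρ inf_le_right)
        (QuotientGroup.lift (C ⊓ ρ.ker) ε (inf_ker_le_ker ρ ε C hεC)) ψ') :
    ∃ σ ∈ C, (ρ σ : Matrix (Fin 2) (Fin 2) K).discr ≠ 0 ∧
      (ψ σ * tl (ρ σ : Matrix (Fin 2) (Fin 2) K)).trace ≠ 0 := by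
  apply selection hyp ε C hC hεC ψ hψ
  by_contra hcon
  push Not at hcon
  apply hncb
  refine isCoboundary_of_quotient ρ ε (C ⊓ ρ.ker) inf_le_right (inf_ker_le_ker ρ ε C hεC) ψ hψ ?_ hD3
  intro τ hτ
  exact hcon τ (Subgroup.mem_inf.mp hτ).1 (MonoidHom.mem_ker.mp (Subgroup.mem_inf.mp hτ).2)

/-- **`(ad⁰ ⊗ det)^G = 0`**, adjugate form (`det(g) g X g⁻¹ = g X adj(g)`). -/
theorem eq_zero_of_adjugate_invariant (hyp : Hyp ρ) (X : Matrix (Fin 2) (Fin 2) K)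
    (htr : X.trace = 0)
    (h : ∀ g : G, (ρ g : Matrix (Fin 2) (Fin 2) K) * X * (ρ g : Matrix (Fin 2) (Fin 2) K).adjugate
      = X) : X = 0 := by
  refine eq_zero_of_twisted_invariant hyp (fun g => (ρ g : Matrix (Fin 2) (Fin 2) K).det) X htr ?_
  intro g
  have := det_smul_cj ρ g X
  rw [cj_def] at this
  rw [this]
  exact h g


end Fermat.Agent.TW.Select24
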