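/-
Programme TW (S56), group theory for brick G2 (helper24): base-change wrappers.

`ρ : G →* GL (Fin 2) k` over a (small) field `k`, `K/k` an extension in which every element is a
square (e.g. an algebraic closure), irreducibility hypotheses `AdIrr24.Hyp (bc K ρ)` over `K`.
All conclusions of `AdIrr24`, `Discr24`, `Select24` are restated over `k`.
-/
import Fermat.Agent.TW.Select24

set_option autoImplicit false

namespace Fermat.Agent.TW.AdIrrBC24

open Matrix Fermat.Agent.TW.AdIrr24 Fermat.Agent.TW.Discr24 Fermat.Agent.TW.Select24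

variable {k : Type*} [Field k] (K : Type*) [Field K] [Algebra k K] {G : Type*} [Group G]

/-- Base change of a matrix representation. -/
def bc (ρ : G →* GL (Fin 2) k) : G →* GL (Fin 2) K :=
  (Matrix.GeneralLinearGroup.map (algebraMap k K)).comp ρ

/-- Base change of a matrix. -/
def mbc (X : Matrix (Fin 2) (Fin 2) k) : Matrix (Fin 2) (Fin 2) K :=
  (algebraMap k K).mapMatrix X

/-- Base change of a character. -/
def cbc (ε : G →* k) : G →* K := ((algebraMap k K) : k →* K).comp ε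

section basics

variable {K}

theorem mbc_apply (X : Matrix (Fin 2) (Fin 2) k) (i j : Fin 2) :
    mbc K X i j = algebraMap k K (X i j) := rfl

theorem cbc_apply (ε : G →* k) (g : G) : cbc K ε g = algebraMap k K (ε g) := rfl

theorem mbc_mul (X Y : Matrix (Fin 2) (Fin 2) k) : mbc K (X * Y) = mbc K X * mbc K Y :=
  map_mul _ X Y

theorem mbc_add (X Y : Matrix (Fin 2) (Fin 2) k) : mbc K (X + Y) = mbc K X + mbc K Y :=
  map_add _ X Y

theorem mbc_sub (X Y : Matrix (Fin 2) (Fin 2) k) : mbc K (X - Y) = mbc K X - mbc K Y :=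
  map_sub _ X Y

theorem mbc_zero : mbc K (0 : Matrix (Fin 2) (Fin 2) k) = 0 := map_zero _

theorem mbc_one : mbc K (1 : Matrix (Fin 2) (Fin 2) k) = 1 := map_one _

theorem mbc_smul (c : k) (X : Matrix (Fin 2) (Fin 2) k) :
    mbc K (c • X) = algebraMap k K c • mbc K X := by
  ext i j
  simp [mbc_apply]

theorem mbc_injective : Function.Injective (mbc K : Matrix (Fin 2) (Fin 2) k → _) := by
  intro X Y h
  ext i j
  have := congrFun (congrFun h i) j
  rw [mbc_apply, mbc_apply] at this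
  exact (algebraMap k K).injective this

theorem mbc_eq_zero_iff (X : Matrix (Fin 2) (Fin 2) k) : mbc K X = 0 ↔ X = 0 := by
  rw [← mbc_zero (k := k) (K := K)]
  exact mbc_injective.eq_iff

theorem mbc_trace (X : Matrix (Fin 2) (Fin 2) k) : (mbc K X).trace = algebraMap k K X.trace := by
  rw [trace_fin_two, trace_fin_two, mbc_apply, mbc_apply, map_add]

theorem mbc_det (X : Matrix (Fin 2) (Fin 2) k) : (mbc K X).det = algebraMap k K X.det := by
  rw [det_fin_two, det_fin_two]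
  simp only [mbc_apply, map_sub, map_mul]

theorem mbc_discr (X : Matrix (Fin 2) (Fin 2) k) : (mbc K X).discr = algebraMap k K X.discr := by
  rw [discr_fin_two, discr_fin_two, mbc_trace, mbc_det]
  simp only [map_sub, map_mul, map_pow, map_ofNat]

theorem mbc_tl (X : Matrix (Fin 2) (Fin 2) k) : tl (mbc K X) = mbc K (tl X) := by
  rw [tl_def, tl_def, mbc_sub, mbc_smul, mbc_one, mbc_trace, map_div₀, map_ofNat]

theorem bc_val (ρ : G →* GL (Fin 2) k) (g : G) :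
    (bc K ρ g : Matrix (Fin 2) (Fin 2) K) = mbc K (ρ g : Matrix (Fin 2) (Fin 2) k) := by
  ext i j
  rw [mbc_apply]
  exact Matrix.GeneralLinearGroup.map_apply _ i j (ρ g)

theorem bc_inv_val (ρ : G →* GL (Fin 2) k) (g : G) :
    ((bc K ρ g)⁻¹ : GL (Fin 2) K).val = mbc K ((ρ g)⁻¹ : GL (Fin 2) k).val := by
  rw [← map_inv, bc_val, map_inv]

theorem cj_bc (ρ : G →* GL (Fin 2) k) (g : G) (X : Matrix (Fin 2) (Fin 2) k) :
    cj (bc K ρ) g (mbc K X) = mbc K (cj ρ g X) := by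
  rw [cj_def, cj_def, bc_val, bc_inv_val, mbc_mul, mbc_mul]

theorem act_bc (ρ : G →* GL (Fin 2) k) (ε : G →* k) (g : G) (X : Matrix (Fin 2) (Fin 2) k) :
    act (bc K ρ) (cbc K ε) g (mbc K X) = mbc K (act ρ ε g X) := by
  rw [act_def, act_def, cj_bc, mbc_smul, cbc_apply]

theorem isCocycle_bc {ρ : G →* GL (Fin 2) k} {ε : G →* k} {ψ : G → Matrix (Fin 2) (Fin 2) k}
    (h : IsCocycle ρ ε ψ) : IsCocycle (bc K ρ) (cbc K ε) (fun g => mbc K (ψ g)) := by
  constructor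
  · intro g h'
    rw [act_bc, ← mbc_add, h.map_mul]
  · intro g
    rw [mbc_trace, h.trace_eq_zero, map_zero]

end basics

variable {K} {ρ : G →* GL (Fin 2) k}

/-- No stable line in `ad⁰` over `k`. -/
theorem noStableLineAd_bc (hyp : Hyp (bc K ρ)) (X : Matrix (Fin 2) (Fin 2) k) (hX : X ≠ 0)
    (htr : X.trace = 0) :
    ¬ ∀ g : G, ∃ c : k, (ρ g : Matrix (Fin 2) (Fin 2) k) * X * ((ρ g)⁻¹ : GL (Fin 2) k) = c • X := by
  intro h
  apply noStableLineAd hyp (mbc K X) (by rwa [Ne, mbc_eq_zero_iff]) (by rw [mbc_trace, htr, map_zero])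
  intro g
  obtain ⟨c, hc⟩ := h g
  refine ⟨algebraMap k K c, ?_⟩
  have := cj_bc (K := K) ρ g X
  rw [cj_def, cj_def, hc, mbc_smul] at this
  exact this

/-- `ad⁰` is irreducible over `k` (bilinear form). -/
theorem exists_trace_ne_zero_bc (hyp : Hyp (bc K ρ)) (X Y : Matrix (Fin 2) (Fin 2) k) (hX : X ≠ 0)
    (hY : Y ≠ 0) (hXtr : X.trace = 0) (hYtr : Y.trace = 0) :
    ∃ g : G, ((ρ g : Matrix (Fin 2) (Fin 2) k) * X * ((ρ g)⁻¹ : GL (Fin 2) k) * Y).trace ≠ 0 := by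
  obtain ⟨g, hg⟩ := exists_trace_ne_zero hyp (mbc K X) (mbc K Y) (by rwa [Ne, mbc_eq_zero_iff])
    (by rwa [Ne, mbc_eq_zero_iff]) (by rw [mbc_trace, hXtr, map_zero])
    (by rw [mbc_trace, hYtr, map_zero])
  refine ⟨g, fun h0 => hg ?_⟩
  have := cj_bc (K := K) ρ g X
  rw [cj_def, cj_def] at this
  rw [this, ← mbc_mul, mbc_trace, h0, map_zero]

/-- `(ad⁰ ⊗ χ)^G = 0` over `k`. -/
theorem eq_zero_of_twisted_invariant_bc (hyp : Hyp (bc K ρ)) (χ : G → k)
    (X : Matrix (Fin 2) (Fin 2) k) (htr : X.trace = 0)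
    (h : ∀ g : G, χ g • ((ρ g : Matrix (Fin 2) (Fin 2) k) * X * ((ρ g)⁻¹ : GL (Fin 2) k)) = X) :
    X = 0 := by
  rw [← mbc_eq_zero_iff (K := K)]
  refine eq_zero_of_twisted_invariant hyp (fun g => algebraMap k K (χ g)) (mbc K X)
    (by rw [mbc_trace, htr, map_zero]) ?_
  intro g
  have := cj_bc (K := K) ρ g X
  rw [cj_def, cj_def] at this
  rw [this, ← mbc_smul, h g]

/-- `(ad⁰ ⊗ det)^G = 0` over `k`, adjugate form. -/
theorem eq_zero_of_adjugate_invariant_bc (hyp : Hyp (bc K ρ)) (X : Matrix (Fin 2) (Fin 2) k)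
    (htr : X.trace = 0)
    (h : ∀ g : G, (ρ g : Matrix (Fin 2) (Fin 2) k) * X * (ρ g : Matrix (Fin 2) (Fin 2) k).adjugate
      = X) : X = 0 := by
  refine eq_zero_of_twisted_invariant_bc hyp (fun g => (ρ g : Matrix (Fin 2) (Fin 2) k).det) X htr ?_
  intro g
  have := det_smul_cj ρ g X
  rw [cj_def] at this
  rw [this]
  exact h g

/-- An element with distinct eigenvalues in every normal subgroup with abelian quotient. -/
theorem exists_discr_ne_zero_bc (hyp : Hyp (bc K ρ)) (N : Subgroup G) [N.Normal]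
    (hN : commutator G ≤ N) :
    ∃ n ∈ N, (ρ n : Matrix (Fin 2) (Fin 2) k).discr ≠ 0 := by
  obtain ⟨n, hn, h⟩ := exists_discr_ne_zero hyp N hN
  refine ⟨n, hn, fun h0 => h ?_⟩
  rw [bc_val, mbc_discr, h0, map_zero]

/-- Selection lemma over `k`. -/
theorem selection_bc (hyp : Hyp (bc K ρ)) (ε : G →* k) (C : Subgroup G) [C.Normal]
    (hC : commutator G ≤ C) (hεC : ∀ g ∈ C, ε g = 1)
    (ψ : G → Matrix (Fin 2) (Fin 2) k) (hψ : IsCocycle ρ ε ψ)
    (hres : ∃ τ ∈ C, ρ τ = 1 ∧ ψ τ ≠ 0) :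
    ∃ σ ∈ C, (ρ σ : Matrix (Fin 2) (Fin 2) k).discr ≠ 0 ∧
      (ψ σ * tl (ρ σ : Matrix (Fin 2) (Fin 2) k)).trace ≠ 0 := by
  obtain ⟨τ, hτC, hτρ, hτψ⟩ := hres
  obtain ⟨σ, hσC, h1, h2⟩ := selection hyp (cbc K ε) C hC
    (fun g hg => by rw [cbc_apply, hεC g hg, map_one]) (fun g => mbc K (ψ g)) (isCocycle_bc hψ)
    ⟨τ, hτC, by rw [bc, MonoidHom.comp_apply, hτρ, map_one], by
      rwa [Ne, mbc_eq_zero_iff]⟩
  refine ⟨σ, hσC, fun h0 => h1 ?_, fun h0 => h2 ?_⟩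
  · rw [bc_val, mbc_discr, h0, map_zero]
  · rw [bc_val, mbc_tl, ← mbc_mul, mbc_trace, h0, map_zero]

/-- Selection lemma over `k`, final form (see `Select24.selection_of_not_coboundary`). -/
theorem selection_of_not_coboundary_bc (hyp : Hyp (bc K ρ)) (ε : G →* k) (C : Subgroup G)
    [C.Normal] (hC : commutator G ≤ C) (hεC : ∀ g ∈ C, ε g = 1)
    (ψ : G → Matrix (Fin 2) (Fin 2) k) (hψ : IsCocycle ρ ε ψ) (hncb : ¬ IsCoboundary ρ ε ψ)
    (hD3 : ∀ ψ' : G ⧸ (C ⊓ ρ.ker) → Matrix (Fin 2) (Fin 2) k,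
      IsCocycle (QuotientGroup.lift (C ⊓ ρ.ker) ρ inf_le_right)
        (QuotientGroup.lift (C ⊓ ρ.ker) ε (inf_ker_le_ker ρ ε C hεC)) ψ' →
      IsCoboundary (QuotientGroup.lift (C ⊓ ρ.ker) ρ inf_le_right)
        (QuotientGroup.lift (C ⊓ ρ.ker) ε (inf_ker_le_ker ρ ε C hεC)) ψ') :
    ∃ σ ∈ C, (ρ σ : Matrix (Fin 2) (Fin 2) k).discr ≠ 0 ∧
      (ψ σ * tl (ρ σ : Matrix (Fin 2) (Fin 2) k)).trace ≠ 0 := by
  apply selection_bc hyp ε C hC hεC ψ hψ
  by_contra hcon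
  push Not at hcon
  apply hncb
  refine isCoboundary_of_quotient ρ ε (C ⊓ ρ.ker) inf_le_right (inf_ker_le_ker ρ ε C hεC) ψ hψ ?_ hD3
  intro τ hτ
  exact hcon τ (Subgroup.mem_inf.mp hτ).1 (MonoidHom.mem_ker.mp (Subgroup.mem_inf.mp hτ).2)

/-- Irreducibility hypotheses over `K` pass to the quotient by a normal subgroup of `ker ρ`. -/
theorem hyp_bc_quotient (hyp : Hyp (bc K ρ)) (𝒦 : Subgroup G) [𝒦.Normal] (h1 : 𝒦 ≤ ρ.ker) :
    Hyp (bc K (QuotientGroup.lift 𝒦 ρ h1)) := by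
  have h1' : 𝒦 ≤ (bc K ρ).ker := by
    intro g hg
    rw [MonoidHom.mem_ker, bc, MonoidHom.comp_apply, MonoidHom.mem_ker.mp (h1 hg), map_one]
  have := hyp_quotient (bc K ρ) 𝒦 h1' hyp
  have e : bc K (QuotientGroup.lift 𝒦 ρ h1) = QuotientGroup.lift 𝒦 (bc K ρ) h1' := by
    refine MonoidHom.ext fun x => ?_
    obtain ⟨a, rfl⟩ := QuotientGroup.mk_surjective x
    rw [QuotientGroup.lift_mk, bc, MonoidHom.comp_apply, QuotientGroup.lift_mk, bc,
      MonoidHom.comp_apply]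
  rw [e]
  exact this

end Fermat.Agent.TW.AdIrrBC24
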