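/-
Programme TW (S56), group theory for brick G2 (helper24): "GT-final" in the shape consumed by
helper59 (report 364): adjugate-twisted cocycles `ψ (g h) = ψ g + ρ g · ψ h · adj (ρ g)`.

* `AdjVanishing ρ` : the statement of brick D3 for a group `Γ` and `ρ : Γ →* GL (Fin 2) k`
  (every adjugate-twisted traceless cocycle is a coboundary);
* `exists_good` : `∃ s ∈ C, discr (ρ s) ≠ 0`;
* `exists_sel`  : a cocycle that is not a coboundary is not a coboundary at some `s ∈ C` with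
  `discr (ρ s) ≠ 0`, given `AdjVanishing` for the quotient `G ⧸ (C ⊓ ker ρ)`
  (finite, `ker` central: `finite_quotient`, `Select24.ker_lift_le_center`);
* `hyp_of_forall` : `AdIrr24.Hyp (bc K ρ)` from "no stable line over `K`" in `∀ ∃` form.
-/
import Fermat.Agent.TW.AdIrrBC24

set_option autoImplicit false

namespace Fermat.Agent.TW.Final24

open Matrix Fermat.Agent.TW.AdIrr24 Fermat.Agent.TW.Discr24 Fermat.Agent.TW.Select24
  Fermat.Agent.TW.AdIrrBC24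

variable {k : Type*} [Field k] {G : Type*} [Group G]

/-- The determinant character of `ρ`. -/
def detChar (ρ : G →* GL (Fin 2) k) : G →* k :=
  (Matrix.detMonoidHom).comp ((Units.coeHom _).comp ρ)

theorem detChar_apply (ρ : G →* GL (Fin 2) k) (g : G) :
    detChar ρ g = (ρ g : Matrix (Fin 2) (Fin 2) k).det := rfl

theorem act_detChar (ρ : G →* GL (Fin 2) k) (g : G) (X : Matrix (Fin 2) (Fin 2) k) :
    act ρ (detChar ρ) g X
      = (ρ g : Matrix (Fin 2) (Fin 2) k) * X * (ρ g : Matrix (Fin 2) (Fin 2) k).adjugate := by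
  rw [act_def, detChar_apply, det_smul_cj]

/-- Brick D3 for `(Γ, ρ)`: every traceless cocycle for the action `X ↦ ρ g · X · adj (ρ g)` is a
coboundary. -/
def AdjVanishing {Γ : Type*} [Group Γ] (ρ : Γ →* GL (Fin 2) k) : Prop :=
  ∀ ψ : Γ → Matrix (Fin 2) (Fin 2) k, (∀ g, (ψ g).trace = 0) →
    (∀ g h, ψ (g * h) = ψ g + (ρ g : Matrix (Fin 2) (Fin 2) k) * ψ h
      * (ρ g : Matrix (Fin 2) (Fin 2) k).adjugate) →
    ∃ X : Matrix (Fin 2) (Fin 2) k, X.trace = 0 ∧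
      ∀ g, ψ g = (ρ g : Matrix (Fin 2) (Fin 2) k) * X * (ρ g : Matrix (Fin 2) (Fin 2) k).adjugate - X

theorem isCocycle_iff (ρ : G →* GL (Fin 2) k) (ψ : G → Matrix (Fin 2) (Fin 2) k) :
    IsCocycle ρ (detChar ρ) ψ ↔ (∀ g, (ψ g).trace = 0) ∧
      ∀ g h, ψ (g * h) = ψ g + (ρ g : Matrix (Fin 2) (Fin 2) k) * ψ h
        * (ρ g : Matrix (Fin 2) (Fin 2) k).adjugate := by
  constructor
  · intro h
    refine ⟨h.trace_eq_zero, fun g h' => ?_⟩
    rw [h.map_mul, act_detChar]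
  · rintro ⟨h1, h2⟩
    refine ⟨fun g h' => ?_, h1⟩
    rw [h2, act_detChar]

theorem isCoboundary_iff (ρ : G →* GL (Fin 2) k) (ψ : G → Matrix (Fin 2) (Fin 2) k) :
    IsCoboundary ρ (detChar ρ) ψ ↔ ∃ X : Matrix (Fin 2) (Fin 2) k, X.trace = 0 ∧
      ∀ g, ψ g = (ρ g : Matrix (Fin 2) (Fin 2) k) * X * (ρ g : Matrix (Fin 2) (Fin 2) k).adjugate - X := by
  constructor
  · rintro ⟨X, hX, h⟩
    refine ⟨X, hX, fun g => ?_⟩
    rw [h g, act_detChar]
  · rintro ⟨X, hX, h⟩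
    refine ⟨X, hX, fun g => ?_⟩
    rw [h g, act_detChar]

/-- `AdjVanishing` in terms of `IsCocycle`/`IsCoboundary`. -/
theorem adjVanishing_iff {Γ : Type*} [Group Γ] (ρ : Γ →* GL (Fin 2) k) :
    AdjVanishing ρ ↔ ∀ ψ, IsCocycle ρ (detChar ρ) ψ → IsCoboundary ρ (detChar ρ) ψ := by
  constructor
  · intro h ψ hψ
    rw [isCocycle_iff] at hψ
    rw [isCoboundary_iff]
    exact h ψ hψ.1 hψ.2
  · intro h ψ h1 h2
    rw [← isCoboundary_iff]
    exact h ψ ((isCocycle_iff ρ ψ).mpr ⟨h1, h2⟩)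

/-- The quotient `G ⧸ (C ⊓ ker ρ)` is finite when `C` has finite index and `k` is finite. -/
theorem finite_quotient [Finite k] (ρ : G →* GL (Fin 2) k) (C : Subgroup G) [C.FiniteIndex] :
    Finite (G ⧸ (C ⊓ ρ.ker)) := by
  have : ρ.ker.FiniteIndex := inferInstance
  have : (C ⊓ ρ.ker).FiniteIndex := inferInstance
  exact Subgroup.finite_quotient_of_finiteIndex

section main

variable (K : Type*) [Field K] [Algebra k K] {ρ : G →* GL (Fin 2) k}

/-- **D2** over `k`. -/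
theorem exists_good (hyp : Hyp (bc K ρ)) (C : Subgroup G) [C.Normal] (hC : commutator G ≤ C) :
    ∃ s ∈ C, (ρ s : Matrix (Fin 2) (Fin 2) k).discr ≠ 0 :=
  exists_discr_ne_zero_bc hyp C hC

/-- **GT-final.** -/
theorem exists_sel (hyp : Hyp (bc K ρ)) (C : Subgroup G) [C.Normal] (hC : commutator G ≤ C)
    (hdetC : ∀ g ∈ C, (ρ g : Matrix (Fin 2) (Fin 2) k).det = 1)
    (ψ : G → Matrix (Fin 2) (Fin 2) k) (htr : ∀ g, (ψ g).trace = 0)
    (hcoc : ∀ g h, ψ (g * h) = ψ g + (ρ g : Matrix (Fin 2) (Fin 2) k) * ψ h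
      * (ρ g : Matrix (Fin 2) (Fin 2) k).adjugate)
    (hncob : ¬ ∃ X : Matrix (Fin 2) (Fin 2) k, X.trace = 0 ∧
      ∀ g, ψ g = (ρ g : Matrix (Fin 2) (Fin 2) k) * X * (ρ g : Matrix (Fin 2) (Fin 2) k).adjugate - X)
    (hD3 : AdjVanishing (QuotientGroup.lift (C ⊓ ρ.ker) ρ inf_le_right)) :
    ∃ s ∈ C, (ρ s : Matrix (Fin 2) (Fin 2) k).discr ≠ 0 ∧
      ¬ ∃ X : Matrix (Fin 2) (Fin 2) k, X.trace = 0 ∧
        ψ s = (ρ s : Matrix (Fin 2) (Fin 2) k) * X * (ρ s : Matrix (Fin 2) (Fin 2) k).adjugate - X := by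
  have hεC : ∀ g ∈ C, detChar ρ g = 1 := fun g hg => by rw [detChar_apply, hdetC g hg]
  have hψ : IsCocycle ρ (detChar ρ) ψ := (isCocycle_iff ρ ψ).mpr ⟨htr, hcoc⟩
  have hncb : ¬ IsCoboundary ρ (detChar ρ) ψ := by rwa [isCoboundary_iff]
  -- the determinant character of the quotient representation
  have hε' : QuotientGroup.lift (C ⊓ ρ.ker) (detChar ρ) (inf_ker_le_ker ρ (detChar ρ) C hεC)
      = detChar (QuotientGroup.lift (C ⊓ ρ.ker) ρ inf_le_right) := by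
    refine MonoidHom.ext fun x => ?_
    obtain ⟨a, rfl⟩ := QuotientGroup.mk_surjective x
    rw [QuotientGroup.lift_mk, detChar_apply, detChar_apply, QuotientGroup.lift_mk]
  obtain ⟨s, hsC, hs1, hs2⟩ := selection_of_not_coboundary_bc hyp (detChar ρ) C hC hεC ψ hψ hncb
    (by
      rw [hε']
      exact (adjVanishing_iff _).mp hD3)
  refine ⟨s, hsC, hs1, ?_⟩
  rintro ⟨X, -, hX⟩
  refine not_coboundary_at (detChar ρ) ψ s (hεC s hsC) hs2 X ?_
  rw [hX, act_detChar]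

end main

/-- `Hyp (bc K ρ)` from the `∀ ∃` form of "no stable line over `K`" (for `G` and for its subgroups of
index `2`), `K` algebraically closed of characteristic `≠ 2`. -/
theorem hyp_of_forall (K : Type*) [Field K] [Algebra k K] [IsAlgClosed K] (h2 : (2 : k) ≠ 0)
    (ρ : G →* GL (Fin 2) k)
    (habs : ∀ v : Fin 2 → K, v ≠ 0 → ∃ g : G, ∀ a : K,
      ((ρ g : Matrix (Fin 2) (Fin 2) k).map (algebraMap k K)) *ᵥ v ≠ a • v)
    (hTW : ∀ H : Subgroup G, H.index = 2 → ∀ v : Fin 2 → K, v ≠ 0 → ∃ g ∈ H, ∀ a : K,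
      ((ρ g : Matrix (Fin 2) (Fin 2) k).map (algebraMap k K)) *ᵥ v ≠ a • v) :
    Hyp (bc K ρ) := by
  refine ⟨?_, ?_, ?_, ?_⟩
  · have : (2 : K) = algebraMap k K 2 := by rw [map_ofNat]
    rw [this]
    exact fun h => h2 ((algebraMap k K).injective (by rw [h, map_zero]))
  · intro a
    obtain ⟨z, hz⟩ := IsAlgClosed.exists_pow_nat_eq a (n := 2) (by norm_num)
    exact ⟨z, by rw [← hz, pow_two]⟩
  · rintro ⟨v, hv, hv'⟩
    obtain ⟨g, hg⟩ := habs v hv
    obtain ⟨c, hc⟩ := hv' g (Set.mem_univ _)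
    rw [bc_val] at hc
    exact hg c hc
  · intro H hH
    rintro ⟨v, hv, hv'⟩
    obtain ⟨g, hgH, hg⟩ := hTW H hH v hv
    obtain ⟨c, hc⟩ := hv' g hgH
    rw [bc_val] at hc
    exact hg c hc

end Fermat.Agent.TW.Final24
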