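/-
Programme TW (S56), brick G2-6 part A (helper24): matrix model of `ρbar` and the group-theoretic
hypotheses of `Final24` from the standing hypotheses of S56.

* `chiN N : Γ →* (ZMod N)ˣ` : the mod-`N` cyclotomic character; `Cn p n := ker (chiN (p^(n+1)))`
  = the elements fixing `μ_{p^(n+1)}` (`mem_Cn_iff`): normal, finite index, `commutator Γ ≤ Cn p n`.
* `rhoM ρbar b : Γ →* GL (Fin 2) k` : the matrix of `ρbar` in a basis `b`.
* `hyp_rhoM` : `AdIrr24.Hyp (bc (AlgebraicClosure k) (rhoM ρbar b))` from `habs`, `hTW`, `p ≠ 2`.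
* `det_rhoM_of_mem_Cn`, `det_rhoM_eq_cycloExp` : `det ρbar` is the mod-`p` cyclotomic character.
* `good_iff_discr_ne_zero` : "distinct eigenvalues in `k`" ⇔ `discr ≠ 0` (given `hsplit`).
* `exists_good_mem_Cn` : SEL0(n).
-/
import Fermat.Agent.TW.Final24
import Fermat.Prelude.Def_GaloisRep_Residual
import Fermat.Prelude.Def_GaloisRep_Adic
import Fermat.Prelude.Def_GaloisRep_LocalConditions
import Fermat.Prelude.Def_ExtCitation_KummerBridge

set_option autoImplicit false

open Polynomial Matrix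
open Fermat.Agent.TW.AdIrr24 Fermat.Agent.TW.AdIrrBC24

namespace Fermat.Agent.TW.SelAd24a

local notation "Γ" => (AlgebraicClosure ℚ ≃ₐ[ℚ] AlgebraicClosure ℚ)

/-! ### Cyclotomic characters and the subgroups `Cn` -/

section Cyclo

variable (N : ℕ) [NeZero N]

/-- The mod-`N` cyclotomic character of `G_ℚ`. -/
noncomputable def chiN : Γ →* (ZMod N)ˣ :=
  MonoidHom.mk'
    (fun σ => modularCyclotomicCharacter (AlgebraicClosure ℚ)
      (IsAlgClosed.card_rootsOfUnity_eq (AlgebraicClosure ℚ) N)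
      (σ : AlgebraicClosure ℚ ≃+* AlgebraicClosure ℚ))
    (fun a b => by rw [← map_mul]; congr 1)

theorem chiN_spec (σ : Γ) (ζ : AlgebraicClosure ℚ) (hζ : ζ ^ N = 1) :
    σ ζ = ζ ^ ((chiN N σ : ZMod N)).val := by
  have hζ0 : ζ ≠ 0 := by
    rintro rfl
    rw [zero_pow (NeZero.ne N)] at hζ
    exact zero_ne_one hζ
  set t : (AlgebraicClosure ℚ)ˣ := Units.mk0 ζ hζ0 with ht
  have htmem : t ∈ rootsOfUnity N (AlgebraicClosure ℚ) := by
    rw [mem_rootsOfUnity]
    ext
    simpa [ht] using hζ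
  have := modularCyclotomicCharacter.spec (AlgebraicClosure ℚ)
    (IsAlgClosed.card_rootsOfUnity_eq (AlgebraicClosure ℚ) N)
    (σ : AlgebraicClosure ℚ ≃+* AlgebraicClosure ℚ) htmem
  exact this

theorem chiN_eq_one_iff (hN : 1 < N) (σ : Γ) :
    chiN N σ = 1 ↔ ∀ ζ : AlgebraicClosure ℚ, ζ ^ N = 1 → σ ζ = ζ := by
  have : Fact (1 < N) := ⟨hN⟩
  constructor
  · intro h ζ hζ
    rw [chiN_spec N σ ζ hζ, h, Units.val_one, ZMod.val_one, pow_one]
  · intro h
    have := modularCyclotomicCharacter.unique (AlgebraicClosure ℚ)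
      (IsAlgClosed.card_rootsOfUnity_eq (AlgebraicClosure ℚ) N)
      (σ : AlgebraicClosure ℚ ≃+* AlgebraicClosure ℚ) (c := 1) (by
        intro t ht
        rw [ZMod.val_one, pow_one]
        have h1 : ((t : AlgebraicClosure ℚ)) ^ N = 1 := by
          have := (mem_rootsOfUnity _ _).mp ht
          rw [← Units.val_pow_eq_pow_val, this, Units.val_one]
        exact h _ h1)
    ext
    exact this.symm

end Cyclo

variable (p : ℕ) [Fact p.Prime]

instance neZero_pow (n : ℕ) : NeZero (p ^ (n + 1)) :=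
  ⟨pow_ne_zero _ (Fact.out : p.Prime).ne_zero⟩

/-- The subgroup of `G_ℚ` fixing the `p^(n+1)`-th roots of unity. -/
noncomputable def Cn (n : ℕ) : Subgroup Γ := (chiN (p ^ (n + 1))).ker

instance Cn_normal (n : ℕ) : (Cn p n).Normal := MonoidHom.normal_ker _

instance Cn_finiteIndex (n : ℕ) : (Cn p n).FiniteIndex := Subgroup.finiteIndex_ker _

theorem one_lt_pow_succ (n : ℕ) : 1 < p ^ (n + 1) :=
  Nat.one_lt_pow (Nat.succ_ne_zero n) (Fact.out : p.Prime).one_lt

theorem mem_Cn_iff (n : ℕ) (σ : Γ) :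
    σ ∈ Cn p n ↔ ∀ ζ : AlgebraicClosure ℚ, ζ ^ p ^ (n + 1) = 1 → σ ζ = ζ := by
  rw [Cn, MonoidHom.mem_ker]
  exact chiN_eq_one_iff (p ^ (n + 1)) (one_lt_pow_succ p n) σ

theorem commutator_le_Cn (n : ℕ) : commutator Γ ≤ Cn p n :=
  Abelianization.commutator_subset_ker _

/-- Elements of `Cn p n` fix the `p`-th roots of unity. -/
theorem fix_mu_p_of_mem_Cn {n : ℕ} {σ : Γ} (h : σ ∈ Cn p n) (μ : AlgebraicClosure ℚ)
    (hμ : μ ^ p = 1) : σ μ = μ := by
  refine (mem_Cn_iff p n σ).mp h μ ?_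
  rw [pow_succ', pow_mul, hμ, one_pow]

/-! ### The matrix model -/

section Model

variable {k : Type} [Field k] (ρbar : ResidualGaloisRep k) (b : Module.Basis (Fin 2) k ρbar.V)

/-- The matrix of `ρbar` in the basis `b`. -/
noncomputable def rhoM : Γ →* GL (Fin 2) k :=
  (Units.map (LinearMap.toMatrixAlgEquiv b : Module.End k ρbar.V →* Matrix (Fin 2) (Fin 2) k)).comp
    ρbar.ρ.toHomUnits

theorem rhoM_val (σ : Γ) :
    (rhoM ρbar b σ : Matrix (Fin 2) (Fin 2) k) = LinearMap.toMatrix b b (ρbar.ρ σ) := rfl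

theorem det_rhoM (σ : Γ) :
    (rhoM ρbar b σ : Matrix (Fin 2) (Fin 2) k).det = LinearMap.det (ρbar.ρ σ) := by
  rw [rhoM_val, LinearMap.det_toMatrix]

theorem charpoly_rhoM (σ : Γ) :
    (rhoM ρbar b σ : Matrix (Fin 2) (Fin 2) k).charpoly = LinearMap.charpoly (ρbar.ρ σ) := by
  rw [rhoM_val, LinearMap.charpoly_toMatrix]

/-- A basis of `ρbar.V`. -/
noncomputable def stdBasis : Module.Basis (Fin 2) k ρbar.V :=
  Module.finBasisOfFinrankEq k ρbar.V ρbar.finrank_eq

/-- "`ρbar σ` has distinct eigenvalues in `k`." -/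
def Good (σ : Γ) : Prop :=
  ∃ α β : k, α ≠ β ∧ LinearMap.charpoly (ρbar.ρ σ) = (X - C α) * (X - C β)

theorem discr_of_charpoly {σ : Γ} {α β : k}
    (h : LinearMap.charpoly (ρbar.ρ σ) = (X - C α) * (X - C β)) :
    (rhoM ρbar b σ : Matrix (Fin 2) (Fin 2) k).discr = (α - β) ^ 2 := by
  rw [← charpoly_rhoM ρbar b, charpoly_fin_two] at h
  have h0 := congrArg (fun q => q.coeff 0) h
  have h1 := congrArg (fun q => q.coeff 1) h
  have e : (X - C α) * (X - C β) = X ^ 2 - C (α + β) * X + C (α * β) := by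
    rw [C_add, C_mul]; ring
  rw [e] at h0 h1
  simp only [coeff_add, coeff_sub, coeff_X_pow, coeff_C_mul, coeff_X_zero,
    coeff_X_one, coeff_C] at h0 h1
  norm_num at h0 h1
  rw [discr_fin_two, h0]
  have h1' : (rhoM ρbar b σ : Matrix (Fin 2) (Fin 2) k).trace = α + β := by
    linear_combination -h1
  rw [h1']
  ring

theorem good_iff_discr_ne_zero
    (hsplit : ∀ σ : Γ, ∃ α β : k, LinearMap.charpoly (ρbar.ρ σ) = (X - C α) * (X - C β)) (σ : Γ) :
    Good ρbar σ ↔ (rhoM ρbar b σ : Matrix (Fin 2) (Fin 2) k).discr ≠ 0 := by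
  constructor
  · rintro ⟨α, β, hne, h⟩
    rw [discr_of_charpoly ρbar b h]
    exact pow_ne_zero 2 (sub_ne_zero.mpr hne)
  · intro h
    obtain ⟨α, β, hαβ⟩ := hsplit σ
    refine ⟨α, β, ?_, hαβ⟩
    rintro rfl
    apply h
    rw [discr_of_charpoly ρbar b hαβ, sub_self]
    ring

end Model

/-! ### The hypotheses of `Final24` -/

section Hyp

variable {k : Type} [Field k] (ρbar : ResidualGaloisRep k) (b : Module.Basis (Fin 2) k ρbar.V)

/-- A nonzero vector `v ∈ K²` all of whose images under `ρbar σ`, `σ ∈ S`, are multiples of `v` gives a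
stable line of `ρbar.baseChange K`. -/
theorem exists_stable_of_eigen (K : Type) [Field K] [Algebra k K] (S : Set Γ) (v : Fin 2 → K)
    (hv : v ≠ 0)
    (h : ∀ σ ∈ S, ∃ a : K,
      ((rhoM ρbar b σ : Matrix (Fin 2) (Fin 2) k).map (algebraMap k K)) *ᵥ v = a • v) :
    ∃ W : Submodule K (ρbar.baseChange K).V,
      (∀ σ ∈ S, ∀ x ∈ W, (ρbar.baseChange K).ρ σ x ∈ W) ∧ W ≠ ⊥ ∧ W ≠ ⊤ := by
  set B : Module.Basis (Fin 2) K (TensorProduct k K ρbar.V) := Algebra.TensorProduct.basis K b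
    with hB
  set w : TensorProduct k K ρbar.V := B.equivFun.symm v with hw
  have hw0 : w ≠ 0 := by
    intro h0
    apply hv
    have := congrArg B.equivFun h0
    rwa [hw, LinearEquiv.apply_symm_apply, map_zero] at this
  have hrepr : ⇑(B.repr w) = v := by
    have : B.equivFun w = v := by rw [hw, LinearEquiv.apply_symm_apply]
    exact this
  refine ⟨K ∙ w, ?_, ?_, ?_⟩
  · intro σ hσ x hx
    obtain ⟨c, rfl⟩ := Submodule.mem_span_singleton.mp hx
    obtain ⟨a, ha⟩ := h σ hσ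
    have hfw : ((ρbar.ρ σ).baseChange K) w = a • w := by
      apply B.repr.injective
      apply DFunLike.coe_injective
      have h1 := LinearMap.toMatrix_mulVec_repr B B ((ρbar.ρ σ).baseChange K) w
      rw [hB, LinearMap.toMatrix_baseChange, ← hB, hrepr] at h1
      rw [← h1, ← rhoM_val, ha, map_smul]
      ext i
      simp [hrepr]
    change ((ρbar.ρ σ).baseChange K) (c • w) ∈ K ∙ w
    rw [map_smul, hfw, smul_smul]
    exact Submodule.smul_mem _ _ (Submodule.mem_span_singleton_self w)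
  · intro hbot
    apply hw0
    have : w ∈ (K ∙ w) := Submodule.mem_span_singleton_self w
    rw [hbot] at this
    exact (Submodule.mem_bot K).mp this
  · intro htop
    have h1 : Module.finrank K ↥(K ∙ w) = 1 := finrank_span_singleton hw0
    have h2 : Module.finrank K ↥(⊤ : Submodule K (TensorProduct k K ρbar.V)) = 2 := by
      rw [finrank_top, Module.finrank_baseChange, ρbar.finrank_eq]
    have htop' : (K ∙ w) = (⊤ : Submodule K (TensorProduct k K ρbar.V)) := htop
    rw [htop'] at h1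
    omega

/-- The hypotheses of the group-theoretic package for the matrix model. -/
theorem hyp_rhoM (h2 : (2 : k) ≠ 0) (habs : ρbar.IsAbsolutelyIrreducible)
    (hTW : ∀ (K : Type) [Field K] [Algebra k K] (G : Subgroup Γ), G.index = 2 →
      ∀ V : Submodule K (ρbar.baseChange K).V,
        (∀ σ ∈ G, ∀ x ∈ V, (ρbar.baseChange K).ρ σ x ∈ V) → V = ⊥ ∨ V = ⊤) :
    Hyp (bc (AlgebraicClosure k) (rhoM ρbar b)) := by
  refine Final24.hyp_of_forall (AlgebraicClosure k) h2 (rhoM ρbar b) ?_ ?_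
  · intro v hv
    by_contra hcon
    push Not at hcon
    obtain ⟨W, hW, hbot, htop⟩ := exists_stable_of_eigen ρbar b (AlgebraicClosure k) Set.univ v hv
      (fun σ _ => hcon σ)
    rcases habs W (fun σ x hx => hW σ (Set.mem_univ σ) x hx) with h | h
    · exact hbot h
    · exact htop h
  · intro H hH v hv
    by_contra hcon
    push Not at hcon
    obtain ⟨W, hW, hbot, htop⟩ := exists_stable_of_eigen ρbar b (AlgebraicClosure k) (H : Set Γ) v hv
      (fun σ hσ => hcon σ hσ)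
    rcases hTW (AlgebraicClosure k) H hH W hW with h | h
    · exact hbot h
    · exact htop h

variable (hdet : (GaloisRepAdic.ofResidualGaloisRep ρbar).DetIsCyclotomic p)
include hdet

/-- `det ρbar = 1` on `Cn p n`. -/
theorem det_rhoM_of_mem_Cn {n : ℕ} {σ : Γ} (hσ : σ ∈ Cn p n) :
    (rhoM ρbar b σ : Matrix (Fin 2) (Fin 2) k).det = 1 := by
  rw [det_rhoM]
  obtain ⟨hp, h⟩ := hdet
  have hpk : (p : k) = 0 := by
    have : (p : k) ∈ IsLocalRing.maximalIdeal k := hp
    rwa [IsLocalRing.maximalIdeal_eq_bot, Ideal.mem_bot] at this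
  have := h 1 σ 1 (fun μ hμ => by
    rw [pow_one] at hμ
    rw [pow_one]
    exact fix_mu_p_of_mem_Cn p hσ μ hμ)
  rw [pow_one, hpk, Ideal.span_singleton_eq_bot.mpr rfl, Ideal.mem_bot, Nat.cast_one,
    sub_eq_zero] at this
  exact this

/-- `det ρbar` is the mod-`p` cyclotomic character. -/
theorem det_rhoM_eq_cycloExp (σ : Γ) :
    (rhoM ρbar b σ : Matrix (Fin 2) (Fin 2) k).det = ((ExtCitation.cycloExp p σ : ℕ) : k) := by
  rw [det_rhoM]
  obtain ⟨hp, h⟩ := hdet
  have hpk : (p : k) = 0 := by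
    have : (p : k) ∈ IsLocalRing.maximalIdeal k := hp
    rwa [IsLocalRing.maximalIdeal_eq_bot, Ideal.mem_bot] at this
  have : NeZero p := ⟨(Fact.out : p.Prime).ne_zero⟩
  have := h 1 σ (ExtCitation.cycloExp p σ) (fun μ hμ => by
    rw [pow_one] at hμ
    have hμ0 : μ ≠ 0 := by
      rintro rfl
      rw [zero_pow (NeZero.ne p)] at hμ
      exact zero_ne_one hμ
    set t : (AlgebraicClosure ℚ)ˣ := Units.mk0 μ hμ0 with ht
    have htmem : t ∈ rootsOfUnity p (AlgebraicClosure ℚ) := by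
      rw [mem_rootsOfUnity]
      ext
      simpa [ht] using hμ
    exact modularCyclotomicCharacter.spec (AlgebraicClosure ℚ)
      (ExtCitation.card_rootsOfUnity_eq_self p)
      (σ : AlgebraicClosure ℚ ≃+* AlgebraicClosure ℚ) htmem)
  rw [pow_one, hpk, Ideal.span_singleton_eq_bot.mpr rfl, Ideal.mem_bot, sub_eq_zero] at this
  exact this

end Hyp

/-- **SEL0(n)**: some element fixing `μ_{p^(n+1)}` has distinct eigenvalues in `k`. -/
theorem exists_good_mem_Cn {k : Type} [Field k] (ρbar : ResidualGaloisRep k) (h2 : (2 : k) ≠ 0)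
    (habs : ρbar.IsAbsolutelyIrreducible)
    (hTW : ∀ (K : Type) [Field K] [Algebra k K] (G : Subgroup Γ), G.index = 2 →
      ∀ V : Submodule K (ρbar.baseChange K).V,
        (∀ σ ∈ G, ∀ x ∈ V, (ρbar.baseChange K).ρ σ x ∈ V) → V = ⊥ ∨ V = ⊤)
    (hsplit : ∀ σ : Γ, ∃ α β : k, LinearMap.charpoly (ρbar.ρ σ) = (X - C α) * (X - C β))
    (n : ℕ) : ∃ σ ∈ Cn p n, Good ρbar σ := by
  obtain ⟨σ, hσ, hd⟩ := Final24.exists_good (AlgebraicClosure k)
    (hyp_rhoM ρbar (stdBasis ρbar) h2 habs hTW) (Cn p n) (commutator_le_Cn p n)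
  exact ⟨σ, hσ, (good_iff_discr_ne_zero ρbar (stdBasis ρbar) hsplit σ).mpr hd⟩

end Fermat.Agent.TW.SelAd24a
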