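/-
Programme TW (S56), sub-programme C, brick C1-(COUNT) (helper66 + helper67): INTERFACE.

(COUNT) is the pairing-free half of the middle exactness of Poitou–Tate:

  `∑_{q ∈ S} dim H¹(ℚ_q, M) ≤ dim im(λ_M) + dim im(λ_{M^∨(1)})`,   `λ_N : H¹(G_S, N) → ∏_{q ∈ S} H¹(ℚ_q, N)`.

It is cut into two halves along the following `Prop`:

* `CountZ S M` (helper66, file `TW/CountZ66.lean`): the same inequality in the `ℤ`-linear level model of
  `PT/PRO` (`Resolved4.Hlev1`, bases `levelS S`, `levelLoc q`), in multiplicative form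
  `#∏_q H¹(ℚ_q, M) · #Ш¹(M) · #Ш¹(A) ≤ #H¹(G_S, M) · #H¹(G_S, A)`, `A = M^∨(1)`;
* `Count S M` (helper67, transport as in `PT/PRO/Transport29`): the statement in the vocabulary of
  `GWIface97` (`H1g`, `H1l`, `ShaBridge13.locH1`).
-/
import Mathlib
import Fermat.Agent.TW.GWIface97
import Fermat.Agent.TW.GWAsm22.Lite
import Fermat.Agent.PT.GLUE.LocS2_29
import Fermat.Agent.PT.PRO.LevelEquiv29

set_option autoImplicit false

open ExtCitation
open Fermat.Agent.PT Fermat.Agent.PT.PRO Fermat.Agent.PT.GLUE Fermat.Agent.PT.GLUE.Objects21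
open Fermat.Agent.PT.PRO.HyperLevel25 Fermat.Agent.PT.PRO.Resolved4
open Fermat.Agent.PT.PRO.HyperRes25 Fermat.Agent.PT.PRO.PairingRes1
open Fermat.Agent.PT.PRO.IntRep20 Fermat.Agent.PT.PRO.LevelEquiv29
open Fermat.Agent.PT.BR Fermat.Agent.TW.GWIface97 Fermat.Agent.PT.GLUE.LocS2_29

namespace Fermat.Agent.TW.CountIface66

local notation "Γ" => (AlgebraicClosure ℚ ≃ₐ[ℚ] AlgebraicClosure ℚ)

variable {p : ℕ} [Fact p.Prime]

/-- The locally trivial classes of `H¹_lev(Γ; N)` (`ℤ`-linear level model of `PT/PRO`). -/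
def ShaZ (S : Finset Nat.Primes) (N : Rep.{0} (ZMod p) Γ)
    (hN : IsDiscrete (levelS S).sets (intRep N)) : Type :=
  {h : Hlev1 (basis (levelS S)) (intRep N) hN //
    ∀ q : ↥S, resH1 (isLevelHom_loc S ((q : Nat.Primes) : ℕ)) (basis (levelS S))
      (basis (levelLoc ((q : Nat.Primes) : ℕ))) hN
      (IsLevelHom.isDiscrete (isLevelHom_loc S ((q : Nat.Primes) : ℕ)) hN) LinearMap.id
      (fun _ _ => rfl) h = 0}

/-- The product of the local groups `H¹_lev(Γ_q; N)`, `q ∈ S`. -/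
def LocZ (S : Finset Nat.Primes) (N : Rep.{0} (ZMod p) Γ)
    (hN : IsDiscrete (levelS S).sets (intRep N)) : Type :=
  ∀ q : ↥S, Hlev1 (basis (levelLoc ((q : Nat.Primes) : ℕ)))
    ((intRep N).comp (localGaloisToGlobal ((q : Nat.Primes) : ℕ)))
    (IsLevelHom.isDiscrete (isLevelHom_loc S ((q : Nat.Primes) : ℕ)) hN)

/-- **(COUNT), `ℤ`-linear level model, multiplicative form.** -/
def CountZ (S : Finset Nat.Primes) (M : Rep.{0} (ZMod p) Γ) : Prop :=
  ∀ (hM : IsDiscrete (levelS S).sets (intRep M))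
    (hA : IsDiscrete (levelS S).sets (intRep (M.dualTwist (cycloChar p)))),
    Finite (LocZ S M hM) ∧
      Nat.card (LocZ S M hM) * Nat.card (ShaZ S M hM) *
          Nat.card (ShaZ S (M.dualTwist (cycloChar p)) hA) ≤
        Nat.card (Hlev1 (basis (levelS S)) (intRep M) hM) *
          Nat.card (Hlev1 (basis (levelS S)) (intRep (M.dualTwist (cycloChar p))) hA)

/-- **(COUNT)** in the vocabulary of `GWIface97`, kernel form (helper22's
`GWAsm22.Lite.MiddleCountKerAt`), with the finiteness of the local groups: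
`∑_q h¹(ℚ_q, M) + dim Ш¹(M) + dim Ш¹(M^∨(1)) ≤ h¹(G_S, M) + h¹(G_S, M^∨(1))`. -/
def CountKer (S : Finset Nat.Primes) (M : Rep.{0} (ZMod p) Γ) : Prop :=
  (∀ q : ↥S, Module.Finite (ZMod p) (H1l q.1 M)) ∧
    GWAsm22.Lite.MiddleCountKerAt S (dual M) M

/-- **(COUNT)** in the vocabulary of `GWIface97`, range form (helper22's
`GWAsm22.Lite.MiddleCountAt`, the third field of `MiddleExactLite`), with the finiteness of the
local groups (the hypothesis `hfin` of `GWAsm22.Lite.middleExact_of_lite`). -/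
def Count (S : Finset Nat.Primes) (M : Rep.{0} (ZMod p) Γ) : Prop :=
  (∀ q : ↥S, Module.Finite (ZMod p) (H1l q.1 M)) ∧
    GWAsm22.Lite.MiddleCountAt S (dual M) M

/-- Kernel form ⟹ range form (rank–nullity, `GWAsm22.Lite.middleCountAt_of_ker`). -/
theorem count_of_countKer (S : Finset Nat.Primes) (M : Rep.{0} (ZMod p) Γ)
    (hfin : Module.Finite (ZMod p) (H1g S M)) (hfinA : Module.Finite (ZMod p) (H1g S (dual M)))
    (h : CountKer S M) : Count S M :=
  ⟨h.1, GWAsm22.Lite.middleCountAt_of_ker S (dual M) M hfin hfinA h.2⟩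

end Fermat.Agent.TW.CountIface66
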