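/-
Programme TW (S56), sub-programme C, brick C1-(COUNT), helper66: the ABSTRACT counting argument
(Mathlib only).

Setting (all additive commutative groups):

  `HM --cE--> HE --dS--> X --a--> Y`,   `Ψ : X → Z` surjective,   `λM : HM → L`,   `cL : L → Z` injective,

with `cE` surjective, `ker a ⊆ range dS`, `Ψ ∘ dS ∘ cE = cL ∘ λM`, and a pairing
`α : Y → Hom(HA, 𝔽_p)` (injective) such that `α (a x)` kills a subgroup `KA ≤ HA`; `HM`, `HA` finite,
`HA` killed by `p`.  Then `L` is finite and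

  `#L · #ker λM · #KA ≤ #HM · #HA`.

(In the application: `HM = H¹(G_S, M)`, `L = ∏_q H¹(ℚ_q, M)`, `HE = ℍ¹(K(P; E_S))`, `X = ℍ¹(K(P; I_S))`,
`Y = ℍ¹(K(P; C_S))`, `Z = ∏_q ℍ¹(K(P; ℚ̄_q^×))`, `HA = H¹(G_S, M^∨(1))`, `KA = Ш¹(M^∨(1))`.)
-/
import Mathlib

set_option autoImplicit false

namespace Fermat.Agent.TW.CountAbs66

open Function

section Dual

variable (p : ℕ) [Fact p.Prime] {H : Type*} [AddCommGroup H]

/-- `#Hom(H, ℤ/p) = #H` for a finite abelian group `H` killed by `p`. -/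
theorem card_hom_zmod [Finite H] (hH : ∀ x : H, p • x = 0) :
    Nat.card (H →+ ZMod p) = Nat.card H := by
  let _ : Module (ZMod p) H := AddCommGroup.zmodModule (n := p) hH
  have : Module.Finite (ZMod p) H := Module.Finite.of_finite
  have e : Module.Dual (ZMod p) H ≃ₗ[ZMod p] H :=
    LinearEquiv.ofFinrankEq _ _ Subspace.dual_finrank_eq
  have e' : (H →+ ZMod p) ≃ Module.Dual (ZMod p) H :=
    { toFun := fun f => f.toZModLinearMap p
      invFun := fun g => g.toAddMonoidHom
      left_inv := fun f => rfl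
      right_inv := fun g => rfl }
  exact (Nat.card_congr e').trans (Nat.card_congr e.toEquiv)

theorem finite_hom_zmod [Finite H] : Finite (H →+ ZMod p) :=
  Finite.of_injective (fun f : H →+ ZMod p => (f : H → ZMod p)) DFunLike.coe_injective

/-- A subgroup `R` of `Y` paired injectively into `Hom(H, 𝔽_p)` and killing `K ≤ H` satisfies
`#R · #K ≤ #H`. -/
theorem card_mul_card_le {Y : Type*} [AddCommGroup Y] [Finite H] (hH : ∀ x : H, p • x = 0)
    (α : Y →+ (H →+ ZMod p)) (hα : Injective α) (R : AddSubgroup Y) (K : AddSubgroup H)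
    (hRK : ∀ y ∈ R, ∀ h ∈ K, α y h = 0) :
    Finite R ∧ Nat.card R * Nat.card K ≤ Nat.card H := by
  have hle : ∀ y : R, K ≤ (α (y : Y)).ker := fun y h hh => hRK y y.2 h hh
  let lam : R → ((H ⧸ K) →+ ZMod p) := fun y => QuotientAddGroup.lift K (α (y : Y)) (hle y)
  have hlam : Injective lam := by
    intro y y' hyy'
    apply Subtype.ext
    apply hα
    ext h
    have := DFunLike.congr_fun hyy' (QuotientAddGroup.mk h)
    simpa [lam] using this
  have hfinQ : Finite ((H ⧸ K) →+ ZMod p) := finite_hom_zmod p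
  have hfinR : Finite R := Finite.of_injective lam hlam
  refine ⟨hfinR, ?_⟩
  have h1 : Nat.card R ≤ Nat.card ((H ⧸ K) →+ ZMod p) := Nat.card_le_card_of_injective lam hlam
  have hHK : ∀ x : H ⧸ K, p • x = 0 := by
    intro x
    obtain ⟨h, rfl⟩ := QuotientAddGroup.mk_surjective x
    rw [← QuotientAddGroup.mk_nsmul, hH, QuotientAddGroup.mk_zero]
  rw [card_hom_zmod p hHK] at h1
  have h2 : Nat.card H = Nat.card (H ⧸ K) * Nat.card K := AddSubgroup.card_eq_card_quotient_mul_card_addSubgroup K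
  rw [h2]
  exact Nat.mul_le_mul_right _ h1

end Dual

section Quot

variable {X Y Z : Type*} [AddCommGroup X] [AddCommGroup Y] [AddCommGroup Z]

/-- If `Ψ : X → Z` is onto and `Ψ (ker a) ⊆ B`, then `#Z ≤ #B · #range a`. -/
theorem card_le_of_surjective (a : X →+ Y) (Ψ : X →+ Z) (hΨ : Surjective Ψ) (B : AddSubgroup Z)
    (hB : ∀ x, a x = 0 → Ψ x ∈ B) [Finite B] [Finite a.range] :
    Finite Z ∧ Nat.card Z ≤ Nat.card B * Nat.card a.range := by
  -- the surjection `range a → Z ⧸ B`
  have hker : a.ker ≤ ((QuotientAddGroup.mk' B).comp Ψ).ker := by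
    intro x hx
    rw [AddMonoidHom.mem_ker] at hx ⊢
    rw [AddMonoidHom.comp_apply, QuotientAddGroup.mk'_apply, QuotientAddGroup.eq_zero_iff]
    exact hB x hx
  let f : a.range → Z ⧸ B := fun y =>
    QuotientAddGroup.mk' B (Ψ (Classical.choose y.2))
  have hf : Surjective f := by
    intro z
    obtain ⟨z, rfl⟩ := QuotientAddGroup.mk_surjective z
    obtain ⟨x, rfl⟩ := hΨ z
    refine ⟨⟨a x, x, rfl⟩, ?_⟩
    have hc : a (Classical.choose (⟨x, rfl⟩ : ∃ x', a x' = a x)) = a x :=
      Classical.choose_spec (⟨x, rfl⟩ : ∃ x', a x' = a x)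
    have hmem : Classical.choose (⟨x, rfl⟩ : ∃ x', a x' = a x) - x ∈ a.ker := by
      rw [AddMonoidHom.mem_ker, map_sub, hc, sub_self]
    have := hker hmem
    rw [AddMonoidHom.mem_ker, map_sub, sub_eq_zero] at this
    exact this
  have hfinQ : Finite (Z ⧸ B) := Finite.of_surjective f hf
  have e : Z ≃ (Z ⧸ B) × B := AddSubgroup.addGroupEquivQuotientProdAddSubgroup
  have hfinZ : Finite Z := Finite.of_equiv _ e.symm
  refine ⟨hfinZ, ?_⟩
  have h1 : Nat.card (Z ⧸ B) ≤ Nat.card a.range := Nat.card_le_card_of_surjective f hf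
  have h2 : Nat.card Z = Nat.card (Z ⧸ B) * Nat.card B :=
    AddSubgroup.card_eq_card_quotient_mul_card_addSubgroup B
  rw [h2, mul_comm]
  exact Nat.mul_le_mul_left _ h1

end Quot

section Main

variable (p : ℕ) [Fact p.Prime]
variable {HM L HE X Y Z HA : Type*} [AddCommGroup HM] [AddCommGroup L] [AddCommGroup HE]
  [AddCommGroup X] [AddCommGroup Y] [AddCommGroup Z] [AddCommGroup HA]

/-- **The abstract (COUNT).** -/
theorem count_abs [Finite HM] [Finite HA] (hHA : ∀ x : HA, p • x = 0)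
    (lamM : HM →+ L) (cE : HM →+ HE) (hcE : Surjective cE)
    (dS : HE →+ X) (a : X →+ Y) (hexact : ∀ x, a x = 0 → ∃ e, dS e = x)
    (Ψ : X →+ Z) (hΨ : Surjective Ψ) (cL : L →+ Z) (hcL : Injective cL)
    (hcompat : ∀ m, Ψ (dS (cE m)) = cL (lamM m))
    (α : Y →+ (HA →+ ZMod p)) (hα : Injective α) (KA : AddSubgroup HA)
    (hKA : ∀ x : X, ∀ h ∈ KA, α (a x) h = 0) :
    Finite L ∧ Nat.card L * Nat.card lamM.ker * Nat.card KA ≤ Nat.card HM * Nat.card HA := by
  -- `#range a · #KA ≤ #HA`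
  obtain ⟨hfinR, hR⟩ := card_mul_card_le p hHA α hα a.range KA (by
    rintro _ ⟨x, rfl⟩ h hh
    exact hKA x h hh)
  -- `B = cL (range λM)`
  let B : AddSubgroup Z := (lamM.range).map cL
  have hfinB : Finite B := by
    have hr : Finite lamM.range :=
      Finite.of_surjective lamM.rangeRestrict lamM.rangeRestrict_surjective
    exact Set.Finite.image _ (Set.toFinite _)
  have hBmem : ∀ x, a x = 0 → Ψ x ∈ B := by
    intro x hx
    obtain ⟨e, rfl⟩ := hexact x hx
    obtain ⟨m, rfl⟩ := hcE e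
    rw [hcompat]
    exact ⟨lamM m, ⟨m, rfl⟩, rfl⟩
  obtain ⟨hfinZ, hZ⟩ := card_le_of_surjective a Ψ hΨ B hBmem
  have hfinL : Finite L := Finite.of_injective cL hcL
  refine ⟨hfinL, ?_⟩
  have hLZ : Nat.card L ≤ Nat.card Z := Nat.card_le_card_of_injective cL hcL
  -- `#B = #range λM`
  have hBcard : Nat.card B = Nat.card lamM.range := by
    have e : lamM.range ≃ B :=
      Equiv.ofBijective (fun y => (⟨cL y, ⟨y, y.2, rfl⟩⟩ : B))
        ⟨fun y y' h => Subtype.ext (hcL (congrArg Subtype.val h)), fun z => by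
          obtain ⟨z, y, hy, rfl⟩ := z
          exact ⟨⟨y, hy⟩, rfl⟩⟩
    exact (Nat.card_congr e).symm
  -- `#range λM · #ker λM = #HM`
  have hrk : Nat.card lamM.range * Nat.card lamM.ker = Nat.card HM := by
    have h1 : Nat.card HM = Nat.card (HM ⧸ lamM.ker) * Nat.card lamM.ker :=
      AddSubgroup.card_eq_card_quotient_mul_card_addSubgroup _
    have h2 : Nat.card (HM ⧸ lamM.ker) = Nat.card lamM.range :=
      Nat.card_congr (QuotientAddGroup.quotientKerEquivRange lamM).toEquiv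
    rw [h1, h2]
  calc Nat.card L * Nat.card lamM.ker * Nat.card KA
      ≤ (Nat.card B * Nat.card a.range) * Nat.card lamM.ker * Nat.card KA := by
        gcongr
        exact hLZ.trans hZ
    _ = (Nat.card lamM.range * Nat.card lamM.ker) * (Nat.card a.range * Nat.card KA) := by
        rw [hBcard]; ring
    _ ≤ Nat.card HM * Nat.card HA := by
        rw [hrk]
        exact Nat.mul_le_mul_left _ hR

end Main

end Fermat.Agent.TW.CountAbs66
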