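/-
Programme TW (S56), sub-programme C, brick C1-(COUNT), helper66: the GENERIC form of (COUNT), in the
vocabulary of `PT/PRO` (`MainWrap20`, `StarS55_7`, `KerIsoMain7`), generic in the ring `k`
(`hk : IntSurj k`; to be instantiated at `k = ℤ` on the S55 objects in `TW/CountZ66.lean`).

Data: a raw resolution `R` of `M' = Module.Dual (ZMod p) M` (`= M^∨(1)` via `hA`), coefficient modules
`0 → E → I → C → 0`, `I → I_q → W_q` over local groups `G_q → G`, `μ_p`-data on `E` and `W_q`.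

Inputs: the global duality package for `K(P; C)`, (P2), (S1), (S2), (LG), (RK) of `MainWrap20`, and the
surjectivity of `ℍ¹(K(P; I)) → ∏_q ℍ¹(K(P; I_q))`.

Output: `∏_q H¹(G_q; M)` is finite and

  `#∏_q H¹(G_q; M) · #Ш¹(M) · #Ш¹(M') ≤ #H¹(G; M) · #H¹(G; M')`.

Proof: `CountAbs66.count_abs` applied to
`H¹(G; M) ≅ ℍ¹(K(P; E)) → ℍ¹(K(P; I)) → ℍ¹(K(P; C))` (exact in the middle, `HyperLevel25`),
`Ψ : ℍ¹(K(P; I)) ↠ ∏_q ℍ¹(K(P|_{G_q}; W_q)) ≅ ∏_q H¹(G_q; M)` and the square of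
`KerIsoMain7.compare1_natural`.
-/
import Mathlib
import Fermat.Agent.PT.PRO.KerIsoMain7
import Fermat.Agent.PT.PRO.StarBlock25
import Fermat.Agent.PT.PRO.MainWrap20
import Fermat.Agent.TW.CountAbs66

set_option autoImplicit false
set_option linter.unusedSectionVars false

namespace Fermat.Agent.TW.CountGen66

open Function
open Fermat.Agent.PT.PRO
open Fermat.Agent.PT.PRO.HyperLevel25 Fermat.Agent.PT.PRO.HyperCompare25
open Fermat.Agent.PT.PRO.HyperRes25 Fermat.Agent.PT.PRO.IndRes20 Fermat.Agent.PT.PRO.Resolved4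
open Fermat.Agent.PT.PRO.Setup20 Fermat.Agent.PT.PRO.Objects20 Fermat.Agent.PT.PRO.KerIso7
open Fermat.Agent.PT.PRO.PairingRes1 Fermat.Agent.PT.PRO.ExtPairing4
open Fermat.Agent.PT.PRO.ExtPairingB4 Fermat.Agent.PT.PRO.InvP4 Fermat.Agent.PT.PRO.PairP4

/-! ### Functoriality: change of group after change of coefficients -/

section Functoriality

variable {k G G' : Type*} [CommRing k] [Group G] [Group G']
variable {𝒰 : Set (Subgroup G)} {𝒰' : Set (Subgroup G')}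
variable {A0 A1 B0 B1 Y0' Y1' : Type*}
  [AddCommGroup A0] [Module k A0] [AddCommGroup A1] [Module k A1]
  [AddCommGroup B0] [Module k B0] [AddCommGroup B1] [Module k B1]
  [AddCommGroup Y0'] [Module k Y0'] [AddCommGroup Y1'] [Module k Y1']
variable {f : G' →* G} {A : Cx k 𝒰 A0 A1} {B : Cx k 𝒰 B0 B1} {Y' : Cx k 𝒰' Y0' Y1'}

/-- `ppℍ¹(a) ∘ mapℍ¹(φ) = ppℍ¹(c)` as soon as `c = a ∘ φ` termwise. -/
theorem ppℍ1_mapℍ1 (φ : Cx.Hom A B) (a : PHom f B Y') (c : PHom f A Y')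
    (h0 : ∀ y, c.φ0 y = a.φ0 (φ.φ0 y)) (h1 : ∀ y, c.φ1 y = a.φ1 (φ.φ1 y))
    (hf : IsLevelHom f 𝒰' 𝒰) (h𝒰 : IsLevelBasis 𝒰) (h𝒰' : IsLevelBasis 𝒰') (x : A.ℍ1 h𝒰) :
    a.ppℍ1 hf h𝒰 h𝒰' (φ.mapℍ1 h𝒰 x) = c.ppℍ1 hf h𝒰 h𝒰' x := by
  obtain ⟨z, rfl⟩ := (A.tot h𝒰).π1_surjective x
  show (Y'.tot h𝒰').π1 _ = (Y'.tot h𝒰').π1 _
  congr 1
  apply Subtype.ext; apply Subtype.ext
  show a.map1 (φ.map1 z.1.1) = c.map1 z.1.1
  rw [PHom.map1_apply, PHom.map1_apply, Cx.Hom.map1_apply]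
  refine Prod.ext ?_ (h1 _).symm
  funext g
  exact (h0 _).symm

end Functoriality

/-! ### The generic count -/

section Generic

variable {k : Type} [CommRing k] (hk : IntSurj k)
variable {p : ℕ} [Fact p.Prime] {G : Type} [Group G] {𝒰 : Set (Subgroup G)}
variable {M : Type} [AddCommGroup M] [Module (ZMod p) M] [Module k M]
  [FiniteDimensional (ZMod p) M] [Module k (Module.Dual (ZMod p) M)]
variable {P0 P1 : Type} [AddCommGroup P0] [Module k P0] [AddCommGroup P1] [Module k P1]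
  [Module.Finite k P0] [Module.Finite k P1] [Module.Projective k P0] [Module.Projective k P1]
variable {E I C : Type} [AddCommGroup E] [Module k E] [AddCommGroup I] [Module k I]
  [AddCommGroup C] [Module k C]
variable {Q : Type} [Finite Q] {Gq : Q → Type} [∀ q, Group (Gq q)] {𝒰q : ∀ q, Set (Subgroup (Gq q))}
variable {Iq W : Q → Type} [∀ q, AddCommGroup (Iq q)] [∀ q, Module k (Iq q)]
  [∀ q, AddCommGroup (W q)] [∀ q, Module k (W q)]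

variable (R : Res k G P1 P0 (Module.Dual (ZMod p) M)) (h0 : IsDiscrete 𝒰 R.ρ0)
  (h𝒰 : IsLevelBasis 𝒰) (h𝒰q : ∀ q, IsLevelBasis (𝒰q q))
  (r : ∀ q, Gq q →* G) (hr : ∀ q, IsLevelHom (r q) (𝒰q q) 𝒰)
  (ρM : Representation (ZMod p) G M) (hM : IsDiscrete 𝒰 ρM) (χ : G →* (ZMod p)ˣ)
  (hA : ∀ g a, R.ρM g a = (χ g : ZMod p) • (a ∘ₗ ρM g⁻¹))
  (hAd : IsDiscrete 𝒰 R.ρM) (hAq : ∀ q, IsDiscrete (𝒰q q) (R.ρM.comp (r q)))
  {ρE : Representation k G E} (hE : IsDiscrete 𝒰 ρE)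
  {ρI : Representation k G I} (hI : IsDiscrete 𝒰 ρI)
  {ρC : Representation k G C} (hC : IsDiscrete 𝒰 ρC)
  {ρIq : ∀ q, Representation k G (Iq q)} (hIq : ∀ q, IsDiscrete 𝒰 (ρIq q))
  {ρW : ∀ q, Representation k (Gq q) (W q)} (hW : ∀ q, IsDiscrete (𝒰q q) (ρW q))
  (d : E →ₗ[k] I) (hd : ∀ g x, d (ρE g x) = ρI g (d x))
  (t : I →ₗ[k] C) (ht : ∀ g x, t (ρI g x) = ρC g (t x))
  (hdinj : Injective d) (htsurj : Surjective t) (hex : Function.Exact d t)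
  (inc : ∀ q, Iq q →ₗ[k] I) (hinc : ∀ q g x, inc q (ρIq q g x) = ρI g (inc q x))
  (prj : ∀ q, I →ₗ[k] Iq q) (hprj : ∀ q g x, prj q (ρI g x) = ρIq q g (prj q x))
  (ev : ∀ q, Iq q →ₗ[k] W q) (hev : ∀ q g x, ev q (ρIq q (r q g) x) = ρW q g (ev q x))
  (D : MuData χ ρE) (D' : ∀ q, MuData (χ.comp (r q)) (ρW q))
  (hDD' : ∀ q a, ev q (prj q (d (D.j a))) = (D' q).j a)
  (hdivE : ∀ x : E, ∃ y : E, (p : k) • y = x)
  (hdivW : ∀ q (x : W q), ∃ y : W q, (p : k) • y = x)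

/-- The composite coefficient map `E → I → I_q → W_q` over `r q`. -/
def locCoef (q : Q) : E →ₗ[k] W q := (ev q).comp ((prj q).comp d)

include hd hprj hev in
theorem locCoef_ρ (q : Q) (g : Gq q) (x : E) :
    locCoef d prj ev q (ρE (r q g) x) = ρW q g (locCoef d prj ev q x) := by
  show ev q (prj q (d (ρE (r q g) x))) = ρW q g (ev q (prj q (d x)))
  rw [hd, hprj, hev]

/-- The locally trivial classes of `H¹(G; M)`. -/
def ShaM (x : Hp1 h𝒰 (intRep hk ρM) (isDiscrete_intRep hk hM)) : Prop :=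
  ∀ q, (KerIsoMain7.resPlain hk h𝒰 (h𝒰q q) ρM hM (r q) (hr q)).mapH1 x = 0

/-- The locally trivial classes of `H¹(G; M')`. -/
def ShaA (h : Hlev1 h𝒰 R.ρM hAd) : Prop :=
  ∀ q, resH1 (hr q) h𝒰 (h𝒰q q) hAd (hAq q) LinearMap.id (fun _ _ => rfl) h = 0

include hA hd hprj hev hdinj htsurj hex hDD' hdivE hdivW hE in
set_option maxHeartbeats 3200000 in
/-- **(COUNT), generic form.** -/
theorem count_generic (hpA : ∀ m : Module.Dual (ZMod p) M, p • m = 0)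
    [Finite (Hlev1 h𝒰 R.ρM hAd)]
    [Finite (Hp1 h𝒰 (intRep hk ρM) (isDiscrete_intRep hk hM))]
    (hdual : InvFund18.AlphaPackage R h0 h𝒰 ρC hC p hpA)
    (hP2 : ∀ x : Hlev2 h𝒰 ρI hI,
      (∀ q, (lvlHom h𝒰 hI (hIq q) (prj q) (hprj q)).mapH2 x = 0) → x = 0)
    (hS1 : ∀ q, MainWrap20.S1At R h0 h𝒰 (h𝒰q q) (r q) (hr q) (hIq q) (hW q) (ev q) (hev q))
    (hS2 : ∀ q, Injective (resH2 (hr q) h𝒰 (h𝒰q q) (hIq q) (hW q) (ev q) (hev q)))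
    (hLG : ∀ q (w : Hlev2 h𝒰 (ρIq q) (hIq q)), p • w = 0 →
      (lvlHom h𝒰 hI hC t ht).mapH2 ((lvlHom h𝒰 (hIq q) hI (inc q) (hinc q)).mapH2 w) = 0 → w = 0)
    (hRK : ∀ q, MainWrap20.RKAt (R.comap (r q)) (comap_disc0 R h0 (r q) (hr q)) (h𝒰q q) (ρW q)
      (hW q))
    (hprodsurj : Surjective (fun (x : (KX R h0 h𝒰 ρI hI).ℍ1 h𝒰) (q : Q) =>
      (KXmap R h0 h𝒰 hI (hIq q) (prj q) (hprj q)).mapℍ1 h𝒰 x)) :
    Finite (∀ q, Hp1 (h𝒰q q) (intRep hk (ρM.comp (r q)))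
        (isDiscrete_intRep hk (IsLevelHom.isDiscrete (hr q) hM))) ∧
      Nat.card (∀ q, Hp1 (h𝒰q q) (intRep hk (ρM.comp (r q)))
          (isDiscrete_intRep hk (IsLevelHom.isDiscrete (hr q) hM))) *
        Nat.card {x : Hp1 h𝒰 (intRep hk ρM) (isDiscrete_intRep hk hM) //
          ShaM hk h𝒰 h𝒰q r hr ρM hM x} *
        Nat.card {h : Hlev1 h𝒰 R.ρM hAd // ShaA R h𝒰 h𝒰q r hr hAd hAq h} ≤
      Nat.card (Hp1 h𝒰 (intRep hk ρM) (isDiscrete_intRep hk hM)) *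
        Nat.card (Hlev1 h𝒰 R.ρM hAd) := by
  classical
  obtain ⟨τ, hτ, hαinj, -, hαiff⟩ := id hdual
  -- the maps
  let lamM : Hp1 h𝒰 (intRep hk ρM) (isDiscrete_intRep hk hM) →+
      (∀ q, Hp1 (h𝒰q q) (intRep hk (ρM.comp (r q)))
        (isDiscrete_intRep hk (IsLevelHom.isDiscrete (hr q) hM))) :=
    AddMonoidHom.pi fun q =>
      (KerIsoMain7.resPlain hk h𝒰 (h𝒰q q) ρM hM (r q) (hr q)).mapH1.toAddMonoidHom
  let cE : Hp1 h𝒰 (intRep hk ρM) (isDiscrete_intRep hk hM) →+ (KX R h0 h𝒰 ρE hE).ℍ1 h𝒰 :=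
    (compare1 hk h𝒰 (toResolved R h0) ρM hM χ hA hE D).toAddMonoidHom
  have hcE : Surjective cE :=
    (compare1_bijective hk h𝒰 (toResolved R h0) ρM hM χ hA hE D hdivE).2
  let dS : (KX R h0 h𝒰 ρE hE).ℍ1 h𝒰 →+ (KX R h0 h𝒰 ρI hI).ℍ1 h𝒰 :=
    ((KXmap R h0 h𝒰 hE hI d hd).mapℍ1 h𝒰).toAddMonoidHom
  let a : (KX R h0 h𝒰 ρI hI).ℍ1 h𝒰 →+ (KX R h0 h𝒰 ρC hC).ℍ1 h𝒰 :=
    ((KXmap R h0 h𝒰 hI hC t ht).mapℍ1 h𝒰).toAddMonoidHom
  have hexact : ∀ x, a x = 0 → ∃ e, dS e = x := by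
    intro x hx
    have hse := StarBlock25.coefHom_shortExact (toResolved R h0) h𝒰 hE hI hC d hd t ht
      hdinj htsurj hex
    exact (Cx.Hom.exact_mapℍ1_mapℍ1 hse h𝒰 x).1 hx
  let Ψ : (KX R h0 h𝒰 ρI hI).ℍ1 h𝒰 →+
      (∀ q, (KX (R.comap (r q)) (comap_disc0 R h0 (r q) (hr q)) (h𝒰q q) (ρW q) (hW q)).ℍ1
        (h𝒰q q)) :=
    AddMonoidHom.pi fun q =>
      ((KXPHom R h0 h𝒰 (h𝒰q q) (r q) (hr q) (hIq q) (hW q) (ev q) (hev q)).ppℍ1 (hr q) h𝒰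
        (h𝒰q q)).toAddMonoidHom.comp
        ((KXmap R h0 h𝒰 hI (hIq q) (prj q) (hprj q)).mapℍ1 h𝒰).toAddMonoidHom
  have hΨ : Surjective Ψ := by
    intro z
    choose y hy using fun q => hS1 q (z q)
    obtain ⟨x, hx⟩ := hprodsurj y
    refine ⟨x, funext fun q => ?_⟩
    show (KXPHom R h0 h𝒰 (h𝒰q q) (r q) (hr q) (hIq q) (hW q) (ev q) (hev q)).ppℍ1 (hr q) h𝒰
      (h𝒰q q) ((KXmap R h0 h𝒰 hI (hIq q) (prj q) (hprj q)).mapℍ1 h𝒰 x) = z q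
    have hxq : (KXmap R h0 h𝒰 hI (hIq q) (prj q) (hprj q)).mapℍ1 h𝒰 x = y q := congrFun hx q
    rw [hxq]
    exact hy q
  let cL : (∀ q, Hp1 (h𝒰q q) (intRep hk (ρM.comp (r q)))
        (isDiscrete_intRep hk (IsLevelHom.isDiscrete (hr q) hM))) →+
      (∀ q, (KX (R.comap (r q)) (comap_disc0 R h0 (r q) (hr q)) (h𝒰q q) (ρW q) (hW q)).ℍ1
        (h𝒰q q)) :=
    { toFun := fun l q => compare1 hk (h𝒰q q)
        (toResolved (R.comap (r q)) (comap_disc0 R h0 (r q) (hr q))) (ρM.comp (r q))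
        (IsLevelHom.isDiscrete (hr q) hM) (χ.comp (r q)) (KerIsoMain7.hA_comap R ρM χ hA (r q))
        (hW q) (D' q) (l q)
      map_zero' := funext fun q => map_zero _
      map_add' := fun l l' => funext fun q => map_add _ _ _ }
  have hcL : Injective cL := by
    intro l l' hll'
    funext q
    exact (compare1_bijective hk (h𝒰q q)
      (toResolved (R.comap (r q)) (comap_disc0 R h0 (r q) (hr q))) (ρM.comp (r q))
      (IsLevelHom.isDiscrete (hr q) hM) (χ.comp (r q)) (KerIsoMain7.hA_comap R ρM χ hA (r q))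
      (hW q) (D' q) (hdivW q)).1 (congrFun hll' q)
  have hcompat : ∀ m, Ψ (dS (cE m)) = cL (lamM m) := by
    intro m
    funext q
    show (KXPHom R h0 h𝒰 (h𝒰q q) (r q) (hr q) (hIq q) (hW q) (ev q) (hev q)).ppℍ1 (hr q) h𝒰
        (h𝒰q q) ((KXmap R h0 h𝒰 hI (hIq q) (prj q) (hprj q)).mapℍ1 h𝒰
          ((KXmap R h0 h𝒰 hE hI d hd).mapℍ1 h𝒰
            (compare1 hk h𝒰 (toResolved R h0) ρM hM χ hA hE D m))) =
      compare1 hk (h𝒰q q) (toResolved (R.comap (r q)) (comap_disc0 R h0 (r q) (hr q)))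
        (ρM.comp (r q)) (IsLevelHom.isDiscrete (hr q) hM) (χ.comp (r q))
        (KerIsoMain7.hA_comap R ρM χ hA (r q)) (hW q) (D' q)
        ((KerIsoMain7.resPlain hk h𝒰 (h𝒰q q) ρM hM (r q) (hr q)).mapH1 m)
    rw [KerIsoMain7.compare1_natural hk R h0 h𝒰 (h𝒰q q) ρM hM χ hA hE D (r q) (hr q) (hW q)
      (D' q) (locCoef d prj ev q) (locCoef_ρ r d hd prj hprj ev hev q) (hDD' q) m]
    rw [ppℍ1_mapℍ1 (KXmap R h0 h𝒰 hI (hIq q) (prj q) (hprj q))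
      (KXPHom R h0 h𝒰 (h𝒰q q) (r q) (hr q) (hIq q) (hW q) (ev q) (hev q))
      (KXPHom R h0 h𝒰 (h𝒰q q) (r q) (hr q) hI (hW q) ((ev q).comp (prj q))
        (fun g x => by
          show ev q (prj q (ρI (r q g) x)) = ρW q g (ev q (prj q x))
          rw [hprj, hev]))
      (fun _ => rfl) (fun _ => rfl) (hr q) h𝒰 (h𝒰q q)]
    exact ppℍ1_mapℍ1 (KXmap R h0 h𝒰 hE hI d hd)
      (KXPHom R h0 h𝒰 (h𝒰q q) (r q) (hr q) hI (hW q) ((ev q).comp (prj q)) _)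
      (KXPHom R h0 h𝒰 (h𝒰q q) (r q) (hr q) hE (hW q) (locCoef d prj ev q)
        (locCoef_ρ r d hd prj hprj ev hev q))
      (fun _ => rfl) (fun _ => rfl) (hr q) h𝒰 (h𝒰q q) _
  -- the pairing
  have hHA : ∀ x : Hlev1 h𝒰 R.ρM hAd, p • x = 0 :=
    DualityAdapter29.nsmul_Hlev1_eq_zero h𝒰 R.ρM hAd p hpA
  let α : (KX R h0 h𝒰 ρC hC).ℍ1 h𝒰 →+ (Hlev1 h𝒰 R.ρM hAd →+ ZMod p) :=
    alphaP (evP R h0 h𝒰 ρC hC) h𝒰 hC hpA τ
  let l : Hlev1 h𝒰 R.ρM hAd →+ (∀ q, Hlev1 (h𝒰q q) (R.ρM.comp (r q)) (hAq q)) :=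
    AddMonoidHom.pi fun q =>
      (resH1 (hr q) h𝒰 (h𝒰q q) hAd (hAq q) LinearMap.id (fun _ _ => rfl)).toAddMonoidHom
  have hl : ∀ h, h ∈ l.ker ↔ ShaA R h𝒰 h𝒰q r hr hAd hAq h := fun h =>
    ⟨fun e q => congrFun (AddMonoidHom.mem_ker.1 e) q, fun e => AddMonoidHom.mem_ker.2 (funext e)⟩
  have hKA : ∀ x : (KX R h0 h𝒰 ρI hI).ℍ1 h𝒰, ∀ h ∈ l.ker, α (a x) h = 0 := by
    intro x h hh
    rw [hl h] at hh
    refine (hαiff _ h).2 ?_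
    exact (HK20.forall_resH1_eq_zero_iff (toResolved R h0) h𝒰 h𝒰q r hr hI hC hIq hW t ht inc hinc
      prj hprj ev hev p hpA hP2 hS1 hS2 hLG hRK h).1 hh x
  have hlam : ∀ x, x ∈ lamM.ker ↔ ShaM hk h𝒰 h𝒰q r hr ρM hM x := fun x =>
    ⟨fun e q => congrFun (AddMonoidHom.mem_ker.1 e) q, fun e => AddMonoidHom.mem_ker.2 (funext e)⟩
  obtain ⟨hfin, hcard⟩ := CountAbs66.count_abs p hHA lamM cE hcE dS a hexact Ψ hΨ cL hcL hcompat
    α hαinj l.ker hKA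
  refine ⟨hfin, ?_⟩
  have e1 : {x : Hp1 h𝒰 (intRep hk ρM) (isDiscrete_intRep hk hM) //
      ShaM hk h𝒰 h𝒰q r hr ρM hM x} ≃ ↥lamM.ker :=
    Equiv.subtypeEquivRight fun x => (hlam x).symm
  have e2 : {h : Hlev1 h𝒰 R.ρM hAd // ShaA R h𝒰 h𝒰q r hr hAd hAq h} ≃ ↥l.ker :=
    Equiv.subtypeEquivRight fun h => (hl h).symm
  rw [Nat.card_congr e1, Nat.card_congr e2]
  exact hcard

end Generic

end Fermat.Agent.TW.CountGen66
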