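/-
Programme TW (S56), sub-programme C, brick C1-(COUNT), helper66: `countZ : CountIface66.CountZ S M`,
the instantiation of `CountGen66.count_generic` at the S55 objects of `PT/GLUE/Objects21`
(`k = ℤ`, `G = Γ`, `𝒰 = levelS S`, `Q = ↥S`, `G_q = Γ_q`, `E/I/C = ES/IS/CS S`, `I_q = ISq S q`,
`W_q = unitsLoc q`, `R = HpAt29.freeRes (intRep (M.dualTwist (cycloChar p)))`), exactly as in
`PT/PRO/MainFinal4.main` and `PT/PRO/StarS55_7.starAt_S55`.
-/
import Mathlib
import Fermat.Agent.TW.CountIface66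
import Fermat.Agent.TW.CountGen66
import Fermat.Agent.PT.PRO.FinH1S55_9
import Fermat.Agent.PT.PRO.ProdDict10
import Fermat.Agent.PT.PRO.GlobalHypP8
import Fermat.Agent.PT.PRO.InvFund18
import Fermat.Agent.PT.PRO.StarS55_7
import Fermat.Agent.PT.GLUE.LocS2_29
import Fermat.Agent.PT.GLUE.LocalHypR11
import Fermat.Agent.PT.GLUE.LocalGlobalInst27
import Fermat.Agent.PT.GLUE.FundLevel2
import Fermat.Agent.PT.GLUE.GexNormFinal15
import Fermat.Agent.PT.GLOB.FundClassExists6
import Fermat.Agent.PT.GLOB.LocalInjMain14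
import Fermat.Agent.PT.GLUE.LocHyperFinal13

set_option autoImplicit false

open CategoryTheory Module groupCohomology ExtCitation
open Fermat.Agent.PT Fermat.Agent.PT.PRO Fermat.Agent.PT.GLUE Fermat.Agent.PT.GLUE.Objects21
open Fermat.Agent.PT.PRO.HyperLevel25 Fermat.Agent.PT.PRO.Resolved4
open Fermat.Agent.PT.PRO.HyperRes25 Fermat.Agent.PT.PRO.PairingRes1
open Fermat.Agent.PT.PRO.IntRep20 Fermat.Agent.PT.PRO.LevelEquiv29
open Fermat.Agent.PT.PRO.ProdDict10 Fermat.Agent.PT.GLUE.LocS2_29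
open Fermat.Agent.PT.GLUE.LevelTheta21
open Fermat.Agent.PT.PRO.IndRes20 Fermat.Agent.PT.PRO.Setup20 Fermat.Agent.PT.PRO.Objects20
open Fermat.Agent.PT.PRO.KerIso7 Fermat.Agent.PT.PRO.KerIsoGal7 Fermat.Agent.PT.PRO.StarS55_7

namespace Fermat.Agent.TW.CountZ66

local notation "Γ" => (AlgebraicClosure ℚ ≃ₐ[ℚ] AlgebraicClosure ℚ)

variable {p : ℕ} [Fact p.Prime]

/-- **(COUNT)** in the `ℤ`-linear level model of `PT/PRO`. -/
theorem countZ (hp2 : p ≠ 2) (S : Finset Nat.Primes) (hpS : pPrime p ∈ S)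
    (M : Rep.{0} (ZMod p) Γ) [FiniteDimensional (ZMod p) M]
    (hsm : ∀ m : M, ∃ F : IntermediateField ℚ (AlgebraicClosure ℚ), FiniteDimensional ℚ F ∧
      ∀ s ∈ F.fixingSubgroup, M.ρ s m = m)
    (hMur : ∀ q : Nat.Primes, q ∉ S → ∀ A : ValuationSubring (AlgebraicClosure ℚ),
      A.LiesOverPrime (q : ℕ) → ∀ g ∈ A.inertiaSubgroupIn ℚ, M.ρ g = 1) :
    CountIface66.CountZ S M := by
  classical
  intro hM hA
  have hp : p.Prime := Fact.out
  have hpS' : ∃ q ∈ S, (q : ℕ) = p := ⟨pPrime p, hpS, rfl⟩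
  have hfdA : FiniteDimensional (ZMod p) (M.dualTwist (cycloChar p)) :=
    inferInstanceAs (FiniteDimensional (ZMod p) (Module.Dual (ZMod p) M))
  have hfinA : Finite (M.dualTwist (cycloChar p)) := Module.finite_of_finite (ZMod p)
  -- global inputs
  have hL1 := GLOB.LocalInjMain14.localInjectivity p S
  have hGCF := GLOB.FundClassExists6.fundClassExists p S
  have hfund := GLUE.FundLevel2.fundFixed_CS p hp2 hpS hGCF
  have hgex := GLUE.GexNormFinal15.gexNormLevel (S := S) hp hp2 hpS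
  -- objects
  have h0 : IsDiscrete (levelS S).sets
      (HpAt29.freeRes (IntRep20.intRep (M.dualTwist (cycloChar p)))).ρ0 :=
    FreeRes29.isDiscrete_freeRep (basis (levelS S)) hA
  have hpA : ∀ m : (M.dualTwist (cycloChar p)), p • m = 0 := fun m => by
    rw [← Nat.cast_smul_eq_nsmul (ZMod p), ZMod.natCast_self, zero_smul]
  have hFinA : Finite (Hlev1 (basis (levelS S)) (intRep (M.dualTwist (cycloChar p))) hA) :=
    FinH1S55_9.finite_Hlev1_dualTwist S hpS M hsm hMur (basis (levelS S)) hA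
  have hFinA' : Finite (Hlev1 (basis (levelS S))
      (HpAt29.freeRes (IntRep20.intRep (M.dualTwist (cycloChar p)))).ρM hA) := hFinA
  have hFinM : Finite (Hlev1 (basis (levelS S)) (intRep M) hM) :=
    FinH1S55_9.finite_Hlev1_self S hpS M hsm hMur (basis (levelS S)) hM
  have hFinM' : Finite (HyperCompare25.Hp1 (basis (levelS S)) (KerIso7.intRep intSurj_int M.ρ)
      (isDiscrete_intRep intSurj_int hM)) := hFinM
  -- duality package
  have hdual : InvFund18.AlphaPackage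
      (HpAt29.freeRes (IntRep20.intRep (M.dualTwist (cycloChar p)))) h0 (basis (levelS S))
      (CS S).ρ (isDiscrete_CS S) p hpA :=
    InvFund18.alphaPackage_of_isFundClass _ (CS S).ρ (basis (levelS S)) h0 hpA (isDiscrete_CS S)
      (GlobalHypP8.trivFam_sub _ _) (GlobalHypP8.trivFam_normal _ _)
      (GlobalHypP8.trivFam_cofinal _ (basis (levelS S)) h0) (GlobalHypP8.trivFam_triv0 _ _)
      hfund (GlobalHypP8.gexNorm_trivFam _ hgex)
  -- the generic count
  have key := CountGen66.count_generic intSurj_int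
    (HpAt29.freeRes (IntRep20.intRep (M.dualTwist (cycloChar p)))) h0 (basis (levelS S))
    (fun q : ↥S => basis (levelLoc ((q : Nat.Primes) : ℕ)))
    (fun q : ↥S => localGaloisToGlobal ((q : Nat.Primes) : ℕ))
    (fun q : ↥S => isLevelHom_loc S ((q : Nat.Primes) : ℕ))
    M.ρ hM (cycloChar p) (KerIsoMain7.hA_freeRes M (cycloChar p))
    hA (fun q : ↥S => IsLevelHom.isDiscrete (isLevelHom_loc S ((q : Nat.Primes) : ℕ)) hA)
    (isDiscrete_ES S) (isDiscrete_IS' S) (isDiscrete_CS S) (isDiscrete_ISq' S)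
    (fun q : ↥S => isDiscrete_unitsLoc ((q : Nat.Primes) : ℕ))
    (diag S) (diag_ρ S) (toCS S) (toCS_ρ S)
    (Fermat.Agent.PT.GLUE.Objects21.diag_injective S ⟨pPrime p, hpS⟩) (toCS_surjective S)
    (exact_diag_toCS S)
    (inclq S) (inclq_ρ S) (ISproj S) (ISproj_ρ S)
    (fun q : ↥S => evq S ((q : Nat.Primes) : ℕ)) (fun q : ↥S => evq_ρ S ((q : Nat.Primes) : ℕ))
    (muES p S hpS) (fun q : ↥S => muLoc p ((q : Nat.Primes) : ℕ))
    (evq_ISproj_diag_muES p S hpS)
    (Fermat.Agent.PT.GLUE.ESDivisible27.exists_zsmul_eq (Fact.out) hpS)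
    (fun q : ↥S => exists_zsmul_eq_unitsLoc p ((q : Nat.Primes) : ℕ))
    hpA hdual
    (Hlev2_IS_eq_zero_of_forall S)
    (fun q : ↥S => Fermat.Agent.PT.GLUE.LocHyperFinal13.s1At S _ _ _ _ _ _ _ h0)
    (fun q : ↥S => LocS2_29.resH2_injective S ((q : Nat.Primes) : ℕ))
    (GLUE.LocalGlobalInst27.hLG_inclq S p hp hp2 hpS' hL1 (basis (levelS S)) (isDiscrete_ISq' S)
      (isDiscrete_IS' S) (isDiscrete_CS S))
    (fun q : ↥S => fun x hx =>
      GLUE.LocalHypR11.pair11_right_kernel_local ((q : Nat.Primes) : ℕ) _ p hpA x hx)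
    (prod_ℍ1_K_IS S (toResolved (HpAt29.freeRes (IntRep20.intRep (M.dualTwist (cycloChar p)))) h0)).2
  exact key

end Fermat.Agent.TW.CountZ66
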