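/-
Programme TW (S56), sub-programme C, brick C1-(COUNT), helper66: TRANSPORT of (COUNT) from the
`ℤ`-linear level model (`CountIface66.CountZ`, proved in `CountZ66.countZ`) to the vocabulary of
`GWIface97` (`CountIface66.CountKer`, `CountIface66.Count`), mirroring `PT/PRO/Transport29`.

* `count_abstract` : cardinalities `→` `𝔽_p`-dimensions (pure linear algebra);
* `conclK_of_card` : the transport for arbitrary level bases (`LevelEquiv29.h1IntEquiv`,
  `LevelEquiv29.ppH1_eq_zero_iff`);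
* `countKer_of_countZ` : the arithmetic case (`BasisCompare13`);
* **`count`** `(hp2) (S) (hpS) (M) (hM : IsGood S M) : CountIface66.Count S M`, and its corollaries
  `middleCountAt : GWAsm22.Lite.MiddleCountAt S (dual M) M`, `finite_H1l`.
-/
import Mathlib
import Fermat.Agent.TW.CountIface66
import Fermat.Agent.TW.CountZ66
import Fermat.Agent.PT.PRO.Transport29
import Fermat.Agent.PT.PRO.FinH1S55_9
import Fermat.Agent.PT.GLUE.BasisCompare13

set_option autoImplicit false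
set_option linter.unusedSectionVars false

namespace Fermat.Agent.TW.CountTransport66

open Function
open Fermat.Agent.PT.PRO Fermat.Agent.PT.PRO.HyperLevel25 Fermat.Agent.PT.PRO.Resolved4
open Fermat.Agent.PT.PRO.IntRep20 Fermat.Agent.PT.PRO.LevelEquiv29
open Fermat.Agent.PT.PRO.Transport29

/-! ### Abstract counting -/

section Abstract

variable {p : ℕ} [Fact p.Prime]

theorem natCard_eq_pow (V : Type*) [AddCommGroup V] [Module (ZMod p) V] [Finite V] :
    Nat.card V = p ^ Module.finrank (ZMod p) V := by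
  have h := Module.natCard_eq_pow_finrank (K := ZMod p) (V := V)
  rwa [Nat.card_zmod] at h

variable {ι : Type*} [Fintype ι]
variable {H1 H2 Q1 Q2 : Type*} [AddCommGroup H1] [Module (ZMod p) H1] [AddCommGroup H2]
  [Module (ZMod p) H2] [AddCommMonoid Q1] [Module (ZMod p) Q1] [AddCommMonoid Q2]
  [Module (ZMod p) Q2]
variable {L : ι → Type*} [∀ q, AddCommGroup (L q)] [∀ q, Module (ZMod p) (L q)]

/-- From cardinalities to dimensions. -/
theorem count_abstract (loc1 : H1 →ₗ[ZMod p] Q1) (loc2 : H2 →ₗ[ZMod p] Q2)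
    {H1' H2' : Type*} (e1 : H1 ≃ H1') (e2 : H2 ≃ H2') (P1 : H1' → Prop) (P2 : H2' → Prop)
    (h1 : ∀ h, loc1 h = 0 ↔ P1 (e1 h)) (h2 : ∀ x, loc2 x = 0 ↔ P2 (e2 x))
    {L' : ι → Type*} [∀ q, Nonempty (L' q)] (eL : ∀ q, L q ≃ L' q)
    [Finite H1'] [Finite H2'] (hfinL : Finite (∀ q, L' q))
    (hcard : Nat.card (∀ q, L' q) * Nat.card {h // P1 h} * Nat.card {x // P2 x} ≤
      Nat.card H1' * Nat.card H2') :
    Module.Finite (ZMod p) H1 ∧ Module.Finite (ZMod p) H2 ∧
      (∀ q, Module.Finite (ZMod p) (L q)) ∧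
      (∑ q, Module.finrank (ZMod p) (L q)) + Module.finrank (ZMod p) ↥(LinearMap.ker loc1) +
          Module.finrank (ZMod p) ↥(LinearMap.ker loc2) ≤
        Module.finrank (ZMod p) H1 + Module.finrank (ZMod p) H2 := by
  classical
  have hp : 1 < p := (Fact.out : p.Prime).one_lt
  have : Finite H1 := Finite.of_equiv _ e1.symm
  have : Finite H2 := Finite.of_equiv _ e2.symm
  have hL' : ∀ q, Finite (L' q) := fun q =>
    Finite.of_surjective (fun f : ∀ q, L' q => f q) (fun x =>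
      ⟨Function.update (fun q => Classical.arbitrary (L' q)) q x, Function.update_self _ _ _⟩)
  have hL : ∀ q, Finite (L q) := fun q => by
    have := hL' q
    exact Finite.of_equiv _ (eL q).symm
  let E1 : ↥(LinearMap.ker loc1) ≃ {h // P1 h} :=
    e1.subtypeEquiv (fun h => by rw [LinearMap.mem_ker]; exact h1 h)
  let E2 : ↥(LinearMap.ker loc2) ≃ {x // P2 x} :=
    e2.subtypeEquiv (fun x => by rw [LinearMap.mem_ker]; exact h2 x)
  refine ⟨Module.Finite.of_finite, Module.Finite.of_finite, fun q => Module.Finite.of_finite, ?_⟩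
  have c1 : Nat.card (∀ q, L' q) = p ^ ∑ q, Module.finrank (ZMod p) (L q) := by
    rw [Nat.card_pi, ← Finset.prod_pow_eq_pow_sum]
    refine Finset.prod_congr rfl fun q _ => ?_
    rw [← Nat.card_congr (eL q)]
    exact natCard_eq_pow (L q)
  have c2 : Nat.card {h // P1 h} = p ^ Module.finrank (ZMod p) ↥(LinearMap.ker loc1) := by
    rw [← Nat.card_congr E1]
    exact natCard_eq_pow _
  have c3 : Nat.card {x // P2 x} = p ^ Module.finrank (ZMod p) ↥(LinearMap.ker loc2) := by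
    rw [← Nat.card_congr E2]
    exact natCard_eq_pow _
  have c4 : Nat.card H1' = p ^ Module.finrank (ZMod p) H1 := by
    rw [← Nat.card_congr e1]
    exact natCard_eq_pow H1
  have c5 : Nat.card H2' = p ^ Module.finrank (ZMod p) H2 := by
    rw [← Nat.card_congr e2]
    exact natCard_eq_pow H2
  rw [c1, c2, c3, c4, c5, ← pow_add, ← pow_add, ← pow_add] at hcard
  exact (Nat.pow_le_pow_iff_right hp).1 hcard

end Abstract

/-! ### Generic bases -/

section Generic

variable {p : ℕ} [Fact p.Prime] {G : Type} [Group G] {ι : Type} [Fintype ι] {Gq : ι → Type}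
  [∀ q, Group (Gq q)]
variable (r : ∀ q, Gq q →* G) (𝓑 : LevelCoh28.LevelBasis G)
  (𝓑q : ∀ q, LevelCoh28.LevelBasis (Gq q))
variable (hf : ∀ q, LevelCohRes28.IsLevelHom (r q) (𝓑q q).sets 𝓑.sets)

/-- The conclusion, for arbitrary level bases. -/
def ConclK (A M : Rep.{0} (ZMod p) G) : Prop :=
  Module.Finite (ZMod p) (LevelCoh28.H1 𝓑 M) ∧ Module.Finite (ZMod p) (LevelCoh28.H1 𝓑 A) ∧
    (∀ q, Module.Finite (ZMod p) (LevelCoh28.H1 (𝓑q q) (Rep.res (r q) M))) ∧
    (∑ q, Module.finrank (ZMod p) (LevelCoh28.H1 (𝓑q q) (Rep.res (r q) M))) +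
        Module.finrank (ZMod p) ↥(LinearMap.ker (loc1 r 𝓑 𝓑q hf M)) +
        Module.finrank (ZMod p) ↥(LinearMap.ker (loc1 r 𝓑 𝓑q hf A)) ≤
      Module.finrank (ZMod p) (LevelCoh28.H1 𝓑 M) + Module.finrank (ZMod p) (LevelCoh28.H1 𝓑 A)

/-- The conclusion only depends on the bases up to equality. -/
theorem ConclK.congr {𝓑 𝓑' : LevelCoh28.LevelBasis G} (e : 𝓑 = 𝓑')
    {𝓑q 𝓑q' : ∀ q, LevelCoh28.LevelBasis (Gq q)} (eq : 𝓑q = 𝓑q')
    (hf : ∀ q, LevelCohRes28.IsLevelHom (r q) (𝓑q q).sets 𝓑.sets)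
    (hf' : ∀ q, LevelCohRes28.IsLevelHom (r q) (𝓑q' q).sets 𝓑'.sets)
    (A M : Rep.{0} (ZMod p) G) (h : ConclK r 𝓑 𝓑q hf A M) : ConclK r 𝓑' 𝓑q' hf' A M := by
  subst e
  subst eq
  exact h

/-- **Transport, generic bases.** -/
theorem conclK_of_card (A M : Rep.{0} (ZMod p) G)
    (h𝒰 : IsLevelBasis 𝓑.sets) (h𝒰q : ∀ q, IsLevelBasis (𝓑q q).sets)
    (hr : ∀ q, HyperRes25.IsLevelHom (r q) (𝓑q q).sets 𝓑.sets)
    (hA : IsDiscrete 𝓑.sets (intRep A))
    (hAq : ∀ q, IsDiscrete (𝓑q q).sets ((intRep A).comp (r q)))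
    (hM : IsDiscrete 𝓑.sets (intRep M))
    (hMq : ∀ q, IsDiscrete (𝓑q q).sets ((intRep M).comp (r q)))
    [Finite (Hlev1 h𝒰 (intRep M) hM)] [Finite (Hlev1 h𝒰 (intRep A) hA)]
    (hfinL : Finite (∀ q, Hlev1 (h𝒰q q) ((intRep M).comp (r q)) (hMq q)))
    (hcard : Nat.card (∀ q, Hlev1 (h𝒰q q) ((intRep M).comp (r q)) (hMq q)) *
        Nat.card {h : Hlev1 h𝒰 (intRep M) hM // ∀ q, PairingRes1.resH1 (hr q) h𝒰 (h𝒰q q) hM
          (hMq q) LinearMap.id (fun _ _ => rfl) h = 0} *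
        Nat.card {h : Hlev1 h𝒰 (intRep A) hA // ∀ q, PairingRes1.resH1 (hr q) h𝒰 (h𝒰q q) hA
          (hAq q) LinearMap.id (fun _ _ => rfl) h = 0} ≤
      Nat.card (Hlev1 h𝒰 (intRep M) hM) * Nat.card (Hlev1 h𝒰 (intRep A) hA)) :
    ConclK r 𝓑 𝓑q hf A M := by
  have h1 : ∀ (N : Rep.{0} (ZMod p) G) (hN : IsDiscrete 𝓑.sets (intRep N))
      (hNq : ∀ q, IsDiscrete (𝓑q q).sets ((intRep N).comp (r q))) (x : LevelCoh28.H1 𝓑 N),
      loc1 r 𝓑 𝓑q hf N x = 0 ↔
      ∀ q, PairingRes1.resH1 (hr q) h𝒰 (h𝒰q q) hN (hNq q) LinearMap.id (fun _ _ => rfl)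
        ((h1IntEquiv 𝓑 N hN).toEquiv x) = 0 := by
    intro N hN hNq x
    rw [loc1_eq_zero_iff]
    refine forall_congr' fun q => ?_
    exact ppH1_eq_zero_iff (r q) (B := Rep.res (r q) N) hN (hNq q) LinearMap.id
      (fun _ _ => rfl) (hf q) LinearMap.id (fun _ _ => rfl) (fun _ => rfl) x
  exact count_abstract (H1 := LevelCoh28.H1 𝓑 M) (H2 := LevelCoh28.H1 𝓑 A)
    (Q1 := ∀ q, LevelCoh28.H1 (𝓑q q) (Rep.res (r q) M))
    (Q2 := ∀ q, LevelCoh28.H1 (𝓑q q) (Rep.res (r q) A))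
    (L := fun q => LevelCoh28.H1 (𝓑q q) (Rep.res (r q) M))
    (loc1 r 𝓑 𝓑q hf M) (loc1 r 𝓑 𝓑q hf A)
    (h1IntEquiv 𝓑 M hM).toEquiv (h1IntEquiv 𝓑 A hA).toEquiv
    (fun h : Hlev1 h𝒰 (intRep M) hM => ∀ q, PairingRes1.resH1 (hr q) h𝒰 (h𝒰q q) hM (hMq q)
      LinearMap.id (fun _ _ => rfl) h = 0)
    (fun h : Hlev1 h𝒰 (intRep A) hA => ∀ q, PairingRes1.resH1 (hr q) h𝒰 (h𝒰q q) hA (hAq q)
      LinearMap.id (fun _ _ => rfl) h = 0)
    (h1 M hM hMq) (h1 A hA hAq)
    (L' := fun q => Hlev1 (h𝒰q q) ((intRep M).comp (r q)) (hMq q))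
    (fun q => (h1IntEquiv (𝓑q q) (Rep.res (r q) M) (hMq q)).toEquiv) hfinL hcard

end Generic

/-! ### The arithmetic case -/

section Arith

open Fermat.Agent.PT.BR Fermat.Agent.PT.BR.LevelBridge13 Fermat.Agent.PT.GLUE
open Fermat.Agent.PT.GLUE.Objects21 Fermat.Agent.PT.GLUE.LocS2_29 ExtCitation
open Fermat.Agent.TW.GWIface97 Fermat.Agent.TW.CountIface66

local notation "Γ" => (AlgebraicClosure ℚ ≃ₐ[ℚ] AlgebraicClosure ℚ)

variable {p : ℕ} [Fact p.Prime] (S : Finset Nat.Primes)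

/-- The conclusion in the arithmetic case, general second module `A` (see `GWIface97.ShaCountAt`
for why `A` is kept general). -/
def CountKerAt (A M : Rep.{0} (ZMod p) Γ) : Prop :=
  Module.Finite (ZMod p) (H1g S M) ∧ Module.Finite (ZMod p) (H1g S A) ∧
    (∀ q : ↥S, Module.Finite (ZMod p) (H1l q.1 M)) ∧ GWAsm22.Lite.MiddleCountKerAt S A M

/-- **Transport, arithmetic case, general `A`.** -/
theorem countKerAt_of_card (M A : Rep.{0} (ZMod p) Γ)
    (hM : IsDiscrete (levelS S).sets (intRep M)) (hA : IsDiscrete (levelS S).sets (intRep A))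
    [Finite (Hlev1 (basis (levelS S)) (intRep M) hM)]
    [Finite (Hlev1 (basis (levelS S)) (intRep A) hA)]
    (hfinL : Finite (LocZ S M hM))
    (hcard : Nat.card (LocZ S M hM) * Nat.card (ShaZ S M hM) * Nat.card (ShaZ S A hA) ≤
      Nat.card (Hlev1 (basis (levelS S)) (intRep M) hM) *
        Nat.card (Hlev1 (basis (levelS S)) (intRep A) hA)) :
    CountKerAt S A M := by
  have key : ConclK (p := p) (fun q : ↥S => primeLocalToGlobal q.1) (levelS S)
      (fun q : ↥S => (levelLoc ((q : Nat.Primes) : ℕ) :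
        LevelCoh28.LevelBasis (primeLocalGaloisGroup q.1)))
      (fun q => isLevelHom_iff.2 (isLevelHom_loc S ((q : Nat.Primes) : ℕ))) A M :=
    conclK_of_card (fun q : ↥S => primeLocalToGlobal q.1) (levelS S)
      (fun q : ↥S => (levelLoc ((q : Nat.Primes) : ℕ) :
        LevelCoh28.LevelBasis (primeLocalGaloisGroup q.1)))
      (fun q => isLevelHom_iff.2 (isLevelHom_loc S ((q : Nat.Primes) : ℕ))) A M
      (basis (levelS S)) (fun q : ↥S => basis (levelLoc ((q : Nat.Primes) : ℕ)))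
      (fun q : ↥S => isLevelHom_loc S ((q : Nat.Primes) : ℕ)) hA
      (fun q : ↥S => HyperRes25.IsLevelHom.isDiscrete (isLevelHom_loc S ((q : Nat.Primes) : ℕ)) hA) hM
      (fun q : ↥S => HyperRes25.IsLevelHom.isDiscrete (isLevelHom_loc S ((q : Nat.Primes) : ℕ)) hM)
      hfinL hcard
  have e1 : levelS S = globalBasis S := (BasisCompare13.globalBasis_eq S).symm
  have e2 : (fun q : ↥S => (levelLoc ((q : Nat.Primes) : ℕ) :
      LevelCoh28.LevelBasis (primeLocalGaloisGroup q.1))) =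
      fun q : ↥S => pullBasis (primeLocalToGlobal q.1) :=
    funext fun q => (BasisCompare13.pullBasis_prime_eq q.1).symm
  exact ConclK.congr (fun q : ↥S => primeLocalToGlobal q.1) e1 e2 _
    (fun q : ↥S => ShaBridge13.isLevelHom_pull S (primeLocalToGlobal q.1)) A M key

/-- **Transport**: `CountZ S M` gives the kernel form of (COUNT) (with all finiteness statements). -/
theorem countKerAt_of_countZ (M : Rep.{0} (ZMod p) Γ)
    (hM : IsDiscrete (levelS S).sets (intRep M))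
    (hA : IsDiscrete (levelS S).sets (intRep (M.dualTwist (cycloChar p))))
    [Finite (Hlev1 (basis (levelS S)) (intRep M) hM)]
    [Finite (Hlev1 (basis (levelS S)) (intRep (M.dualTwist (cycloChar p))) hA)]
    (h : CountZ S M) : CountKerAt S (dual M) M := by
  obtain ⟨hfin, hcard⟩ := h hM hA
  exact countKerAt_of_card S M (dual M) hM hA hfin hcard

variable {S}

/-- All finiteness statements and the kernel form of (COUNT) for a good module. -/
theorem countKerAt (hp2 : p ≠ 2) (hpS : pPrime p ∈ S) (M : Rep.{0} (ZMod p) Γ)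
    (hM : IsGood S M) : CountKerAt S (dual M) M := by
  have := hM.fin
  have hMd := FinH1S55_9.isDiscrete_intRep_self S hpS M hM.smooth hM.unram
  have hAd := FinH1S55_9.isDiscrete_intRep_dualTwist S hpS M hM.smooth hM.unram
  have := FinH1S55_9.finite_Hlev1_self S hpS M hM.smooth hM.unram (basis (levelS S)) hMd
  have := FinH1S55_9.finite_Hlev1_dualTwist S hpS M hM.smooth hM.unram (basis (levelS S)) hAd
  exact countKerAt_of_countZ S M hMd hAd (CountZ66.countZ hp2 S hpS M hM.smooth hM.unram)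

/-- **(COUNT), kernel form**, for a good module. -/
theorem countKer (hp2 : p ≠ 2) (hpS : pPrime p ∈ S) (M : Rep.{0} (ZMod p) Γ)
    (hM : IsGood S M) : CountKer S M :=
  ⟨(countKerAt hp2 hpS M hM).2.2.1, (countKerAt hp2 hpS M hM).2.2.2⟩

/-- **(COUNT)** for a good module: `∑_{q ∈ S} h¹(ℚ_q, M) ≤ rk λ_M + rk λ_{M^∨(1)}`, and the local
groups `H¹(ℚ_q, M)`, `q ∈ S`, are finite. -/
theorem count (hp2 : p ≠ 2) (hpS : pPrime p ∈ S) (M : Rep.{0} (ZMod p) Γ)
    (hM : IsGood S M) : Count S M :=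
  count_of_countKer S M (countKerAt hp2 hpS M hM).1 (countKerAt hp2 hpS M hM).2.1
    (countKer hp2 hpS M hM)

/-- The `hcount` consumed by the middle exactness (`GWAsm22.Lite.MiddleExactLite`). -/
theorem middleCountAt (hp2 : p ≠ 2) (hpS : pPrime p ∈ S) (M : Rep.{0} (ZMod p) Γ)
    (hM : IsGood S M) : GWAsm22.Lite.MiddleCountAt S (dual M) M :=
  (count hp2 hpS M hM).2

/-- The `hfin` consumed by `GWAsm22.Lite.middleExact_of_lite`. -/
theorem finite_H1l (hp2 : p ≠ 2) (hpS : pPrime p ∈ S) (M : Rep.{0} (ZMod p) Γ)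
    (hM : IsGood S M) (q : ↥S) : Module.Finite (ZMod p) (H1l q.1 M) :=
  (count hp2 hpS M hM).1 q

end Arith

end Fermat.Agent.TW.CountTransport66
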