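/-
Programme TW (S56), sub-programme C (Greenberg–Wiles), brick C0 (helper97): the ABSTRACT linear
algebra behind the Greenberg–Wiles formula.  Mathlib only.

Setting: a field `F`, a finite index type `ι`, finite-dimensional spaces `X`, `Y`, `B i`, `B' i`,
localisation maps `lam i : X → B i`, `lam' i : Y → B' i`, local pairings `T i : B i × B' i → F` with
trivial RIGHT kernel, and the exactness hypothesis

  `(∀ y, ∑ i, T i (b i) (lam' i y) = 0)  ↔  ∃ x, ∀ i, lam i x = b i`      (`hex`).

For local conditions `L i ≤ B i` with annihilators `perp (T i) (L i) ≤ B' i`: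

  `dim Sel(L) + dim ker λ' + ∑ dim B i = dim X + ∑ dim L i + dim Sel'(L^⊥)`   (`finrank_sel_add`).
-/
import Mathlib

set_option autoImplicit false

open Module

namespace Fermat.Agent.TW.GWAbs97

variable {F : Type*} [Field F]

section Annihilator

variable {V W : Type*} [AddCommGroup V] [Module F V] [AddCommGroup W] [Module F W]

/-- The right annihilator of `U ≤ V` under a pairing `P : V × W → F`. -/
def rperp (P : V →ₗ[F] W →ₗ[F] F) (U : Submodule F V) : Submodule F W where
  carrier := {w | ∀ u ∈ U, P u w = 0}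
  add_mem' {a b} ha hb u hu := by rw [map_add, ha u hu, hb u hu, add_zero]
  zero_mem' u _ := by rw [map_zero]
  smul_mem' c a ha u hu := by rw [map_smul, ha u hu, smul_zero]

/-- The left annihilator of `R ≤ W`. -/
def lperp (P : V →ₗ[F] W →ₗ[F] F) (R : Submodule F W) : Submodule F V where
  carrier := {v | ∀ r ∈ R, P v r = 0}
  add_mem' {a b} ha hb r hr := by rw [map_add, LinearMap.add_apply, ha r hr, hb r hr, add_zero]
  zero_mem' r _ := by rw [map_zero, LinearMap.zero_apply]
  smul_mem' c a ha r hr := by rw [map_smul, LinearMap.smul_apply, ha r hr, smul_zero]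

theorem mem_rperp {P : V →ₗ[F] W →ₗ[F] F} {U : Submodule F V} {w : W} :
    w ∈ rperp P U ↔ ∀ u ∈ U, P u w = 0 := Iff.rfl

theorem mem_lperp {P : V →ₗ[F] W →ₗ[F] F} {R : Submodule F W} {v : V} :
    v ∈ lperp P R ↔ ∀ r ∈ R, P v r = 0 := Iff.rfl

variable [FiniteDimensional F V] [FiniteDimensional F W]

/-- The restricted pairing `U × R → F`. -/
def restr (P : V →ₗ[F] W →ₗ[F] F) (U : Submodule F V) (R : Submodule F W) :
    U →ₗ[F] Dual F R :=
  (LinearMap.lcomp F F R.subtype) ∘ₗ P ∘ₗ U.subtype

omit [FiniteDimensional F V] [FiniteDimensional F W] in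
theorem restr_apply (P : V →ₗ[F] W →ₗ[F] F) (U : Submodule F V) (R : Submodule F W) (u : U)
    (r : R) : restr P U R u r = P u r := rfl

/-- **Key count**: `dim (U ∩ ^⊥R) + dim R = dim U + dim (R ∩ U^⊥)`. -/
theorem finrank_inf_lperp_add (P : V →ₗ[F] W →ₗ[F] F) (U : Submodule F V) (R : Submodule F W) :
    finrank F ↥(U ⊓ lperp P R) + finrank F R = finrank F U + finrank F ↥(R ⊓ rperp P U) := by
  classical
  -- Φ : U → Dual R, kernel = U ∩ ^⊥R ; Φᵗ : R → Dual U, kernel = R ∩ U^⊥ ; rank Φ = rank Φᵗ
  set Φ : U →ₗ[F] Dual F R := restr P U R with hΦ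
  set Ψ : R →ₗ[F] Dual F U := Φ.flip with hΨ
  have hkerΦ : finrank F (LinearMap.ker Φ) = finrank F ↥(U ⊓ lperp P R) := by
    refine LinearEquiv.finrank_eq (LinearEquiv.ofBijective
      ((U.subtype.restrict (p := LinearMap.ker Φ) (q := U ⊓ lperp P R) ?_)) ⟨?_, ?_⟩)
    · intro u hu
      refine ⟨u.2, fun r hr => ?_⟩
      have := LinearMap.congr_fun (LinearMap.mem_ker.1 hu) ⟨r, hr⟩
      exact this
    · intro a b hab
      have := congrArg Subtype.val hab
      exact Subtype.ext (Subtype.ext this)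
    · rintro ⟨v, hvU, hvR⟩
      refine ⟨⟨⟨v, hvU⟩, ?_⟩, rfl⟩
      rw [LinearMap.mem_ker]
      ext r
      exact hvR r.1 r.2
  have hkerΨ : finrank F (LinearMap.ker Ψ) = finrank F ↥(R ⊓ rperp P U) := by
    refine LinearEquiv.finrank_eq (LinearEquiv.ofBijective
      ((R.subtype.restrict (p := LinearMap.ker Ψ) (q := R ⊓ rperp P U) ?_)) ⟨?_, ?_⟩)
    · intro r hr
      refine ⟨r.2, fun u hu => ?_⟩
      have := LinearMap.congr_fun (LinearMap.mem_ker.1 hr) ⟨u, hu⟩
      exact this
    · intro a b hab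
      have := congrArg Subtype.val hab
      exact Subtype.ext (Subtype.ext this)
    · rintro ⟨w, hwR, hwU⟩
      refine ⟨⟨⟨w, hwR⟩, ?_⟩, rfl⟩
      rw [LinearMap.mem_ker]
      ext u
      exact hwU u.1 u.2
  have hrank : finrank F (LinearMap.range Φ) = finrank F (LinearMap.range Ψ) := by
    -- range Ψ has the dimension of R minus ker Ψ; ker Ψ = dual annihilator-type argument
    have h1 := LinearMap.finrank_range_add_finrank_ker Φ
    have h2 := LinearMap.finrank_range_add_finrank_ker Ψ
    -- ker Ψ = (range Φ).dualCoannihilator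
    have hk : LinearMap.ker Ψ = (LinearMap.range Φ).dualCoannihilator := by
      ext r
      rw [LinearMap.mem_ker, Submodule.mem_dualCoannihilator]
      constructor
      · rintro h _ ⟨u, rfl⟩
        exact LinearMap.congr_fun h u
      · intro h
        ext u
        exact h _ ⟨u, rfl⟩
    have h3 := Subspace.finrank_add_finrank_dualCoannihilator_eq (LinearMap.range Φ)
    rw [← hk] at h3
    omega
  have h1 := LinearMap.finrank_range_add_finrank_ker Φ
  have h2 := LinearMap.finrank_range_add_finrank_ker Ψ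
  omega

/-- If `P` has trivial right kernel on `R`, then `dim ^⊥R + dim R = dim V`. -/
theorem finrank_lperp_add (P : V →ₗ[F] W →ₗ[F] F) (R : Submodule F W)
    (hright : ∀ r ∈ R, (∀ v, P v r = 0) → r = 0) :
    finrank F ↥(lperp P R) + finrank F R = finrank F V := by
  have h := finrank_inf_lperp_add P ⊤ R
  have h1 : finrank F ↥((⊤ : Submodule F V) ⊓ lperp P R) = finrank F ↥(lperp P R) := by
    rw [top_inf_eq]
  have h2 : R ⊓ rperp P ⊤ = ⊥ := by
    rw [eq_bot_iff]
    rintro r ⟨hr, hr'⟩
    exact (Submodule.mem_bot F).2 (hright r hr fun v => hr' v Submodule.mem_top)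
  rw [h1, h2, finrank_bot, add_zero, finrank_top] at h
  exact h

end Annihilator

section RankNullity

variable {V W : Type*} [AddCommGroup V] [Module F V] [AddCommGroup W] [Module F W]

/-- Rank–nullity, in the form used by the assembly. -/
theorem finrank_eq_ker_add_range [FiniteDimensional F V] (f : V →ₗ[F] W) :
    finrank F V = finrank F (LinearMap.ker f) + finrank F (LinearMap.range f) := by
  have := LinearMap.finrank_range_add_finrank_ker f
  omega

/-- A vector space is finite-dimensional if the kernel and the range of a linear map are. -/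
theorem finite_of_ker_range (f : V →ₗ[F] W) [Module.Finite F (LinearMap.ker f)]
    [Module.Finite F (LinearMap.range f)] : Module.Finite F V := by
  obtain ⟨g, hg⟩ := LinearMap.exists_leftInverse_of_injective (LinearMap.ker f).subtype
    (by rw [Submodule.ker_subtype])
  have hinj : Function.Injective (g.prod f.rangeRestrict) := by
    rw [← LinearMap.ker_eq_bot, eq_bot_iff]
    intro x hx
    have hx' : g x = 0 ∧ f.rangeRestrict x = 0 := by
      have := LinearMap.mem_ker.1 hx
      rw [LinearMap.prod_apply] at this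
      exact Prod.mk_eq_zero.1 this
    have hx2 : f x = 0 := congrArg Subtype.val hx'.2
    have h3 := LinearMap.congr_fun hg ⟨x, hx2⟩
    rw [LinearMap.comp_apply, Submodule.subtype_apply, hx'.1] at h3
    have h4 : (0 : V) = x := congrArg Subtype.val h3
    exact (Submodule.mem_bot F).2 h4.symm
  exact Module.Finite.of_injective _ hinj

/-- Finiteness of the source of a map into a finite product of finite-dimensional spaces with
finite-dimensional kernel. -/
theorem finite_of_ker_pi {ι : Type*} [Finite ι] {B : ι → Type*} [∀ i, AddCommGroup (B i)]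
    [∀ i, Module F (B i)] [∀ i, Module.Finite F (B i)] (lam : ∀ i, V →ₗ[F] B i)
    (h : Module.Finite F (LinearMap.ker (LinearMap.pi lam))) : Module.Finite F V := by
  haveI := h
  haveI : Module.Finite F (∀ i, B i) := Module.Finite.pi
  exact finite_of_ker_range (LinearMap.pi lam)

end RankNullity

section Main

variable {ι : Type*} [Fintype ι] [DecidableEq ι]
variable {X Y : Type*} [AddCommGroup X] [Module F X] [AddCommGroup Y] [Module F Y]
  [FiniteDimensional F X] [FiniteDimensional F Y]
variable {B B' : ι → Type*} [∀ i, AddCommGroup (B i)] [∀ i, Module F (B i)]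
  [∀ i, AddCommGroup (B' i)] [∀ i, Module F (B' i)]
  [∀ i, FiniteDimensional F (B i)] [∀ i, FiniteDimensional F (B' i)]

/-- The annihilator of `L ≤ B i` in `B' i`. -/
abbrev perp {i : ι} (T : B i →ₗ[F] B' i →ₗ[F] F) (L : Submodule F (B i)) : Submodule F (B' i) :=
  rperp T L

/-- The abstract Selmer group. -/
def sel (lam : ∀ i, X →ₗ[F] B i) (L : ∀ i, Submodule F (B i)) : Submodule F X :=
  ⨅ i, (L i).comap (lam i)

omit [Fintype ι] [DecidableEq ι] [FiniteDimensional F X] [∀ i, FiniteDimensional F (B i)] in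
theorem mem_sel {lam : ∀ i, X →ₗ[F] B i} {L : ∀ i, Submodule F (B i)} {x : X} :
    x ∈ sel lam L ↔ ∀ i, lam i x ∈ L i := by
  simp [sel, Submodule.mem_iInf]

/-- The sum pairing on the products. -/
def sumPair (T : ∀ i, B i →ₗ[F] B' i →ₗ[F] F) : (∀ i, B i) →ₗ[F] (∀ i, B' i) →ₗ[F] F :=
  ∑ i, ((T i).compl₂ (LinearMap.proj i)) ∘ₗ (LinearMap.proj i)

omit [DecidableEq ι] [∀ i, FiniteDimensional F (B i)] [∀ i, FiniteDimensional F (B' i)] in
theorem sumPair_apply (T : ∀ i, B i →ₗ[F] B' i →ₗ[F] F) (b : ∀ i, B i) (b' : ∀ i, B' i) :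
    sumPair T b b' = ∑ i, T i (b i) (b' i) := by
  simp [sumPair, LinearMap.sum_apply]

omit [∀ i, FiniteDimensional F (B i)] [∀ i, FiniteDimensional F (B' i)] in
/-- The annihilator of a product of subspaces is the product of the annihilators. -/
theorem rperp_pi (T : ∀ i, B i →ₗ[F] B' i →ₗ[F] F) (L : ∀ i, Submodule F (B i)) :
    rperp (sumPair T) (Submodule.pi Set.univ L) = Submodule.pi Set.univ fun i => perp (T i) (L i) := by
  ext b'
  rw [mem_rperp, Submodule.mem_pi]
  constructor
  · intro h i _ u hu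
    have := h (Pi.single i u) (by
      rw [Submodule.mem_pi]
      intro j _
      by_cases hj : j = i
      · subst hj; simpa using hu
      · simp [Pi.single_eq_of_ne hj])
    rw [sumPair_apply] at this
    rw [Finset.sum_eq_single i] at this
    · simpa using this
    · intro j _ hj
      simp [Pi.single_eq_of_ne hj]
    · intro hi
      exact absurd (Finset.mem_univ i) hi
  · intro h u hu
    rw [sumPair_apply]
    refine Finset.sum_eq_zero fun i _ => ?_
    exact h i (Set.mem_univ i) (u i) ((Submodule.mem_pi.1 hu) i (Set.mem_univ i))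

omit [DecidableEq ι] in
theorem finrank_pi_submodule (L : ∀ i, Submodule F (B i)) :
    finrank F ↥(Submodule.pi Set.univ L) = ∑ i, finrank F (L i) := by
  classical
  have e : ↥(Submodule.pi Set.univ L) ≃ₗ[F] ∀ i, L i :=
    { toFun := fun x i => ⟨x.1 i, (Submodule.mem_pi.1 x.2) i (Set.mem_univ i)⟩
      map_add' := fun _ _ => rfl
      map_smul' := fun _ _ => rfl
      invFun := fun y => ⟨fun i => (y i).1, Submodule.mem_pi.2 fun i _ => (y i).2⟩
      left_inv := fun _ => rfl
      right_inv := fun _ => rfl }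
  rw [e.finrank_eq, Module.finrank_pi_fintype]

/-- `dim Sel(L) = dim ker λ + dim (range λ ∩ ∏ L i)`. -/
theorem finrank_sel (lam : ∀ i, X →ₗ[F] B i) (L : ∀ i, Submodule F (B i)) :
    finrank F ↥(sel lam L) =
      finrank F (LinearMap.ker (LinearMap.pi lam)) +
        finrank F ↥(LinearMap.range (LinearMap.pi lam) ⊓ Submodule.pi Set.univ L) := by
  classical
  set Λ : X →ₗ[F] ∀ i, B i := LinearMap.pi lam with hΛ
  have hsel : sel lam L = (Submodule.pi Set.univ L).comap Λ := by
    ext x
    rw [mem_sel, Submodule.mem_comap, Submodule.mem_pi]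
    exact ⟨fun h i _ => h i, fun h i => h i (Set.mem_univ i)⟩
  -- restrict Λ to the Selmer group
  set Λs : ↥(sel lam L) →ₗ[F] ∀ i, B i := Λ ∘ₗ (sel lam L).subtype with hΛs
  have hrange : LinearMap.range Λs = LinearMap.range Λ ⊓ Submodule.pi Set.univ L := by
    ext b
    constructor
    · rintro ⟨x, rfl⟩
      refine ⟨⟨x.1, rfl⟩, ?_⟩
      exact (SetLike.ext_iff.1 hsel (x : X)).1 x.2
    · rintro ⟨⟨x, rfl⟩, hb⟩
      exact ⟨⟨x, by rw [hsel]; exact hb⟩, rfl⟩
  have hker : finrank F (LinearMap.ker Λs) = finrank F (LinearMap.ker Λ) := by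
    refine LinearEquiv.finrank_eq (LinearEquiv.ofBijective
      (((sel lam L).subtype.restrict (p := LinearMap.ker Λs) (q := LinearMap.ker Λ) ?_)) ⟨?_, ?_⟩)
    · intro x hx
      exact LinearMap.mem_ker.1 hx
    · intro a b hab
      have := congrArg Subtype.val hab
      exact Subtype.ext (Subtype.ext this)
    · rintro ⟨x, hx⟩
      have hx' : Λ x = 0 := LinearMap.mem_ker.1 hx
      refine ⟨⟨⟨x, ?_⟩, ?_⟩, rfl⟩
      · rw [hsel, Submodule.mem_comap, hx']
        exact Submodule.zero_mem _
      · rw [LinearMap.mem_ker]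
        exact hx'
  have := LinearMap.finrank_range_add_finrank_ker Λs
  rw [hrange, hker] at this
  omega

omit [DecidableEq ι] [FiniteDimensional F X] [FiniteDimensional F Y]
  [∀ i, FiniteDimensional F (B i)] [∀ i, FiniteDimensional F (B' i)] in
/-- Exactness in the middle: `range λ` is the left annihilator of `range λ'`. -/
theorem range_pi_eq_lperp (lam : ∀ i, X →ₗ[F] B i) (lam' : ∀ i, Y →ₗ[F] B' i)
    (T : ∀ i, B i →ₗ[F] B' i →ₗ[F] F)
    (hex : ∀ b : ∀ i, B i,
      (∀ y : Y, ∑ i, T i (b i) (lam' i y) = 0) ↔ ∃ x : X, ∀ i, lam i x = b i) :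
    LinearMap.range (LinearMap.pi lam) =
      lperp (sumPair T) (LinearMap.range (LinearMap.pi lam')) := by
  ext b
  rw [mem_lperp]
  constructor
  · rintro ⟨x, rfl⟩ _ ⟨y, rfl⟩
    rw [sumPair_apply]
    exact (hex _).2 ⟨x, fun i => rfl⟩ y
  · intro h
    obtain ⟨x, hx⟩ := (hex b).1 fun y => by
      have := h (LinearMap.pi lam' y) ⟨y, rfl⟩
      rwa [sumPair_apply] at this
    exact ⟨x, funext hx⟩

omit [FiniteDimensional F X] [FiniteDimensional F Y]
  [∀ i, FiniteDimensional F (B i)] [∀ i, FiniteDimensional F (B' i)] in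
/-- Right nondegeneracy of the sum pairing. -/
theorem sumPair_right (T : ∀ i, B i →ₗ[F] B' i →ₗ[F] F)
    (hright : ∀ i (y : B' i), (∀ x, T i x y = 0) → y = 0) (r : ∀ i, B' i)
    (h : ∀ v, sumPair T v r = 0) : r = 0 := by
  funext i
  refine hright i (r i) fun x => ?_
  have := h (Pi.single i x)
  rw [sumPair_apply, Finset.sum_eq_single i] at this
  · simpa using this
  · intro j _ hj
    simp [Pi.single_eq_of_ne hj]
  · intro hi
    exact absurd (Finset.mem_univ i) hi

omit [FiniteDimensional F X] [FiniteDimensional F Y] in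
/-- `dim range λ + dim range λ' = ∑ dim B i`. -/
theorem finrank_range_add (lam : ∀ i, X →ₗ[F] B i) (lam' : ∀ i, Y →ₗ[F] B' i)
    (T : ∀ i, B i →ₗ[F] B' i →ₗ[F] F)
    (hright : ∀ i (y : B' i), (∀ x, T i x y = 0) → y = 0)
    (hex : ∀ b : ∀ i, B i,
      (∀ y : Y, ∑ i, T i (b i) (lam' i y) = 0) ↔ ∃ x : X, ∀ i, lam i x = b i) :
    finrank F (LinearMap.range (LinearMap.pi lam)) +
      finrank F (LinearMap.range (LinearMap.pi lam')) = ∑ i, finrank F (B i) := by
  classical
  rw [range_pi_eq_lperp lam lam' T hex,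
    finrank_lperp_add (sumPair T) (LinearMap.range (LinearMap.pi lam'))
      (fun r _ h => sumPair_right T hright r h)]
  exact Module.finrank_pi_fintype F

/-- **The abstract Greenberg–Wiles formula.** -/
theorem finrank_sel_add (lam : ∀ i, X →ₗ[F] B i) (lam' : ∀ i, Y →ₗ[F] B' i)
    (T : ∀ i, B i →ₗ[F] B' i →ₗ[F] F)
    (hright : ∀ i (y : B' i), (∀ x, T i x y = 0) → y = 0)
    (hex : ∀ b : ∀ i, B i,
      (∀ y : Y, ∑ i, T i (b i) (lam' i y) = 0) ↔ ∃ x : X, ∀ i, lam i x = b i)
    (L : ∀ i, Submodule F (B i)) :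
    finrank F ↥(sel lam L) + finrank F (LinearMap.ker (LinearMap.pi lam')) +
        ∑ i, finrank F (B i) =
      finrank F X + ∑ i, finrank F (L i) +
        finrank F ↥(sel lam' fun i => perp (T i) (L i)) := by
  classical
  set Λ : X →ₗ[F] ∀ i, B i := LinearMap.pi lam with hΛ
  set Λ' : Y →ₗ[F] ∀ i, B' i := LinearMap.pi lam' with hΛ'
  set P := sumPair T with hP
  set R' : Submodule F (∀ i, B' i) := LinearMap.range Λ' with hR'
  set AL : Submodule F (∀ i, B i) := Submodule.pi Set.univ L with hAL
  have hrange : LinearMap.range Λ = lperp P R' := range_pi_eq_lperp lam lam' T hex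
  have hrightP : ∀ r ∈ R', (∀ v, P v r = 0) → r = 0 := fun r _ h => sumPair_right T hright r h
  have e1 := finrank_sel lam L
  have e2 := finrank_sel lam' fun i => perp (T i) (L i)
  have e3 := finrank_inf_lperp_add P AL R'
  have e4 := finrank_lperp_add P R' hrightP
  have e5 : rperp P AL = Submodule.pi Set.univ fun i => perp (T i) (L i) := rperp_pi T L
  have e6 := LinearMap.finrank_range_add_finrank_ker Λ
  have e7 := LinearMap.finrank_range_add_finrank_ker Λ'
  have e8 : finrank F ↥AL = ∑ i, finrank F (L i) := finrank_pi_submodule L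
  have e9 : finrank F (∀ i, B i) = ∑ i, finrank F (B i) := Module.finrank_pi_fintype F
  rw [← hΛ, hrange, inf_comm, ← hAL] at e1
  rw [← hΛ', ← hR', ← e5] at e2
  rw [hrange] at e6
  omega

end Main

end Fermat.Agent.TW.GWAbs97
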