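/-
Programme TW (S56), sub-programme C (Greenberg–Wiles), brick C0 (helper97): the abstract linear
algebra of `GWAbs97`, RESTATED over `ZMod p` with the instance shapes of the level-cohomology
library (`[AddCommGroup V] [Module (ZMod p) V]`, scalars through `ZMod.commRing`), so that the
statements apply to `LevelCoh28.H1/H2` without any expensive instance unification
(instantiating the `[Field F]`-generic statements of `GWAbs97` at `F := ZMod p` directly on the
concrete cohomology groups makes `isDefEq` time out).  Mathlib + `GWAbs97` only.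
-/
import Mathlib
import Fermat.Agent.TW.GWAbs97

set_option autoImplicit false

open Module

namespace Fermat.Agent.TW.GWAbsZ97

variable {p : ℕ} [Fact p.Prime]

section RankNullity

variable {V W : Type*} [AddCommGroup V] [Module (ZMod p) V] [AddCommMonoid W] [Module (ZMod p) W]

/-- Rank–nullity. -/
theorem finrank_eq_ker_add_range [Module.Finite (ZMod p) V] (f : V →ₗ[ZMod p] W) :
    finrank (ZMod p) V =
      finrank (ZMod p) (LinearMap.ker f) + finrank (ZMod p) (LinearMap.range f) := by
  let _ : AddCommGroup W := Module.addCommMonoidToAddCommGroup (ZMod p)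
  exact GWAbs97.finrank_eq_ker_add_range (F := ZMod p) f

/-- Finiteness from kernel and range. -/
theorem finite_of_ker_range (f : V →ₗ[ZMod p] W) (h1 : Module.Finite (ZMod p) (LinearMap.ker f))
    (h2 : Module.Finite (ZMod p) (LinearMap.range f)) : Module.Finite (ZMod p) V := by
  let _ : AddCommGroup W := Module.addCommMonoidToAddCommGroup (ZMod p)
  exact GWAbs97.finite_of_ker_range (F := ZMod p) f

/-- Finiteness from the kernel, for a finite-dimensional target. -/
theorem finite_of_ker_of_finite (f : V →ₗ[ZMod p] W) (hW : Module.Finite (ZMod p) W)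
    (h1 : Module.Finite (ZMod p) (LinearMap.ker f)) : Module.Finite (ZMod p) V := by
  let _ : AddCommGroup W := Module.addCommMonoidToAddCommGroup (ZMod p)
  have h2 : Module.Finite (ZMod p) (LinearMap.range f) := inferInstance
  exact GWAbs97.finite_of_ker_range (F := ZMod p) f

end RankNullity

section Main

variable {ι : Type*} [Fintype ι]
variable {X Y : Type*} [AddCommGroup X] [Module (ZMod p) X] [AddCommGroup Y] [Module (ZMod p) Y]
variable {B B' : ι → Type*} [∀ i, AddCommGroup (B i)] [∀ i, Module (ZMod p) (B i)]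
  [∀ i, AddCommGroup (B' i)] [∀ i, Module (ZMod p) (B' i)]

/-- Finiteness of the source of a map into a finite product with finite-dimensional kernel. -/
theorem finite_of_ker_pi [∀ i, Module.Finite (ZMod p) (B i)] (lam : ∀ i, X →ₗ[ZMod p] B i)
    (h : Module.Finite (ZMod p) (LinearMap.ker (LinearMap.pi lam))) : Module.Finite (ZMod p) X :=
  GWAbs97.finite_of_ker_pi (F := ZMod p) lam h

/-- The annihilator of `L ≤ B i` in `B' i`. -/
def perp {i : ι} (T : B i →ₗ[ZMod p] B' i →ₗ[ZMod p] ZMod p) (L : Submodule (ZMod p) (B i)) :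
    Submodule (ZMod p) (B' i) where
  carrier := {y | ∀ x ∈ L, T x y = 0}
  add_mem' {a b} ha hb x hx := by rw [map_add, ha x hx, hb x hx, add_zero]
  zero_mem' x _ := by rw [map_zero]
  smul_mem' c a ha x hx := by rw [map_smul, ha x hx, smul_zero]

/-- The abstract Selmer group. -/
def sel (lam : ∀ i, X →ₗ[ZMod p] B i) (L : ∀ i, Submodule (ZMod p) (B i)) :
    Submodule (ZMod p) X :=
  ⨅ i, (L i).comap (lam i)

/-- `dim range λ + dim range λ' = ∑ dim B i`. -/
theorem finrank_range_add [∀ i, Module.Finite (ZMod p) (B i)]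
    [∀ i, Module.Finite (ZMod p) (B' i)]
    (lam : ∀ i, X →ₗ[ZMod p] B i) (lam' : ∀ i, Y →ₗ[ZMod p] B' i)
    (T : ∀ i, B i →ₗ[ZMod p] B' i →ₗ[ZMod p] ZMod p)
    (hright : ∀ i (y : B' i), (∀ x, T i x y = 0) → y = 0)
    (hex : ∀ b : ∀ i, B i,
      (∀ y : Y, ∑ i, T i (b i) (lam' i y) = 0) ↔ ∃ x : X, ∀ i, lam i x = b i) :
    finrank (ZMod p) (LinearMap.range (LinearMap.pi lam)) +
      finrank (ZMod p) (LinearMap.range (LinearMap.pi lam')) = ∑ i, finrank (ZMod p) (B i) := by
  classical
  exact GWAbs97.finrank_range_add (F := ZMod p) lam lam' T hright hex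

/-- **The abstract Greenberg–Wiles formula.** -/
theorem finrank_sel_add [Module.Finite (ZMod p) X] [Module.Finite (ZMod p) Y]
    [∀ i, Module.Finite (ZMod p) (B i)] [∀ i, Module.Finite (ZMod p) (B' i)]
    (lam : ∀ i, X →ₗ[ZMod p] B i) (lam' : ∀ i, Y →ₗ[ZMod p] B' i)
    (T : ∀ i, B i →ₗ[ZMod p] B' i →ₗ[ZMod p] ZMod p)
    (hright : ∀ i (y : B' i), (∀ x, T i x y = 0) → y = 0)
    (hex : ∀ b : ∀ i, B i,
      (∀ y : Y, ∑ i, T i (b i) (lam' i y) = 0) ↔ ∃ x : X, ∀ i, lam i x = b i)
    (L : ∀ i, Submodule (ZMod p) (B i)) :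
    finrank (ZMod p) ↥(sel lam L) + finrank (ZMod p) (LinearMap.ker (LinearMap.pi lam')) +
        ∑ i, finrank (ZMod p) (B i) =
      finrank (ZMod p) X + ∑ i, finrank (ZMod p) (L i) +
        finrank (ZMod p) ↥(sel lam' fun i => perp (T i) (L i)) := by
  classical
  exact GWAbs97.finrank_sel_add (F := ZMod p) lam lam' T hright hex L

end Main

end Fermat.Agent.TW.GWAbsZ97
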