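/-
Programme TW (S56), sub-programme C (Greenberg–Wiles), brick C5 (helper97):
the S55 count `dim Ш¹_S(M^∨(1)) = dim Ш²_S(M)` in the level-cohomology shape `ShaCount S M`
of `TW/GWIface97.lean`.  It is `PT/PRO/MainFinal4.main` with the three inputs plugged in exactly as
in `Fermat/Agent/S55.lean`.
-/
import Fermat.Agent.TW.GWIface97
import Fermat.Agent.PT.PRO.MainFinal4
import Fermat.Agent.PT.GLOB.LocalInjMain14
import Fermat.Agent.PT.GLUE.LocHyperFinal13

set_option autoImplicit false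

open ExtCitation
open Fermat.Agent.PT.PRO Fermat.Agent.PT.BR Fermat.Agent.PT.BR.LevelBridge13

namespace Fermat.Agent.TW.GWSha97

open Fermat.Agent.TW.GWIface97

local notation "Γ" => (AlgebraicClosure ℚ ≃ₐ[ℚ] AlgebraicClosure ℚ)

variable {p : ℕ} [Fact p.Prime]

/-- **(C5)** the S55 count, in the shape consumed by the Greenberg–Wiles assembly. -/
theorem shaCount (hp2 : p ≠ 2) (S : Finset Nat.Primes) (hpS : pPrime p ∈ S)
    (M : Rep.{0} (ZMod p) Γ) (hM : IsGood S M) : ShaCount S M := by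
  classical
  haveI := hM.fin
  haveI : FiniteDimensional (ZMod p) (M.dualTwist (cycloChar p)) :=
    inferInstanceAs (FiniteDimensional (ZMod p) (Module.Dual (ZMod p) M))
  haveI : Finite (M.dualTwist (cycloChar p)) := Module.finite_of_finite (ZMod p)
  obtain ⟨h1, h2, h⟩ := Fermat.Agent.PT.PRO.MainFinal4.main hp2 S hpS M hM.smooth hM.unram
    (M.dualTwist (cycloChar p)) rfl
    (Fermat.Agent.PT.GLOB.LocalInjMain14.localInjectivity p S)
    (fun h0 q => Fermat.Agent.PT.GLUE.LocHyperFinal13.s1At S _ _ _ _ _ _ _ h0)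
    (fun h0 q => Fermat.Agent.PT.GLUE.LocHyperFinal13.s2hAt S _ _ _ _ _ _ _ h0)
  exact ⟨h1, h2, h⟩

end Fermat.Agent.TW.GWSha97
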