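/-
Programme TW (S56), sub-programme C (Greenberg–Wiles), brick C0 (helper97): ASSEMBLY, part 1
(stability of `IsGood`, transport of the invariants along equivariant linear equivalences).

`gwPackageW : p ≠ 2 → GWBricks p → GWPackageW p`: the weak Greenberg–Wiles package from the bricks

* `middle` (C1)  middle exactness of Poitou–Tate for an intrinsic `perp`,
* `tail`   (C2)  the tail of the nine-term sequence (`TailEq`),
* `tate`   (C3)  Tate's global Euler characteristic for large `S` (`TateStatement`),
* `localEuler` (C4) local duality numerics + local Euler characteristic,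
* `finH1g` finiteness of `H¹(G_S, M)`,
* the S55 count (C5, `GWSha97.shaCount`, proved).
-/
import Mathlib
import Fermat.Agent.TW.GWIface2_97
import Fermat.Agent.TW.GWAbs97
import Fermat.Agent.TW.GWSha97

set_option autoImplicit false
set_option maxHeartbeats 400000

open ExtCitation Module
open Fermat.Agent.PT.PRO Fermat.Agent.PT.BR Fermat.Agent.PT.BR.LevelBridge13

namespace Fermat.Agent.TW.GWTransport97

open Fermat.Agent.TW.GWIface97 Fermat.Agent.TW.GWIface2_97

local notation "Γ" => (AlgebraicClosure ℚ ≃ₐ[ℚ] AlgebraicClosure ℚ)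

variable {p : ℕ} [Fact p.Prime]

/-! ### Stability of `IsGood` -/

theorem IsGood.mono {S S' : Finset Nat.Primes} (h : S ⊆ S') {M : Rep.{0} (ZMod p) Γ}
    (hM : IsGood S M) : IsGood S' M :=
  ⟨hM.fin, hM.smooth, fun q hq => hM.unram q (fun hqS => hq (h hqS))⟩

theorem IsGood.dual {S : Finset Nat.Primes} (hpS : pPrime p ∈ S) {M : Rep.{0} (ZMod p) Γ}
    (hM : IsGood S M) : IsGood S (dual M) := by
  haveI := hM.fin
  exact ⟨DualTwist7.finiteDimensional_dualTwist M, DualTwist7.smooth_dualTwist M hM.smooth,
    DualTwist7.unram_dualTwist M hpS hM.unram⟩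

/-! ### Transport along an equivariant linear equivalence -/

section Transport

variable {M N : Rep.{0} (ZMod p) Γ} (e : M ≃ₗ[ZMod p] N)
  (he : ∀ g m, e (M.ρ g m) = N.ρ g (e m))

include he

theorem symm_equivariant (g : Γ) (n : N) : e.symm (N.ρ g n) = M.ρ g (e.symm n) := by
  apply e.injective
  rw [he, e.apply_symm_apply, e.apply_symm_apply]

/-- Invariants of a subgroup-like family of operators correspond. -/
theorem finrank_invariants_congr {G : Type} [Group G] (r : G →* Γ) :
    finrank (ZMod p) (Rep.res r M).ρ.invariants = finrank (ZMod p) (Rep.res r N).ρ.invariants := by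
  refine LinearEquiv.finrank_eq (LinearEquiv.ofBijective
    ((e.toLinearMap.restrict (p := (Rep.res r M).ρ.invariants)
      (q := (Rep.res r N).ρ.invariants) ?_)) ⟨?_, ?_⟩)
  · intro m hm g
    have := hm g
    show N.ρ (r g) (e m) = e m
    rw [← he]
    exact congrArg e this
  · intro a b hab
    have := congrArg Subtype.val hab
    exact Subtype.ext (e.injective this)
  · rintro ⟨n, hn⟩
    refine ⟨⟨e.symm n, fun g => ?_⟩, Subtype.ext (e.apply_symm_apply n)⟩
    show M.ρ (r g) (e.symm n) = e.symm n
    rw [← symm_equivariant e he]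
    exact congrArg e.symm (hn g)

theorem h0g_congr : h0g M = h0g N := by
  refine LinearEquiv.finrank_eq (LinearEquiv.ofBijective
    ((e.toLinearMap.restrict (p := M.ρ.invariants) (q := N.ρ.invariants) ?_)) ⟨?_, ?_⟩)
  · intro m hm g
    show N.ρ g (e m) = e m
    rw [← he]
    exact congrArg e (hm g)
  · intro a b hab
    have := congrArg Subtype.val hab
    exact Subtype.ext (e.injective this)
  · rintro ⟨n, hn⟩
    refine ⟨⟨e.symm n, fun g => ?_⟩, Subtype.ext (e.apply_symm_apply n)⟩
    show M.ρ g (e.symm n) = e.symm n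
    rw [← symm_equivariant e he]
    exact congrArg e.symm (hn g)

theorem h0l_congr (q : Nat.Primes) : h0l q M = h0l q N :=
  finrank_invariants_congr e he (primeLocalToGlobal q)

/-- The induced equivalence on `H¹(G_S, -)`. -/
noncomputable def H1gEquiv (S : Finset Nat.Primes) : H1g S M ≃ₗ[ZMod p] H1g S N :=
  LinearEquiv.ofLinear
    (LevelCoh28.mapH1 (𝓑 := globalBasis S) e.toLinearMap he)
    (LevelCoh28.mapH1 (𝓑 := globalBasis S) e.symm.toLinearMap (symm_equivariant e he))
    (by
      apply LinearMap.ext
      intro x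
      obtain ⟨c, rfl⟩ := LevelCoh28.H1mk_surjective _ _ x
      simp only [LinearMap.comp_apply, LevelCoh28.mapH1_mk, LinearMap.id_apply]
      congr 1
      apply Subtype.ext
      funext g
      exact e.apply_symm_apply _)
    (by
      apply LinearMap.ext
      intro x
      obtain ⟨c, rfl⟩ := LevelCoh28.H1mk_surjective _ _ x
      simp only [LinearMap.comp_apply, LevelCoh28.mapH1_mk, LinearMap.id_apply]
      congr 1
      apply Subtype.ext
      funext g
      exact e.symm_apply_apply _)

theorem res1_H1gEquiv (S : Finset Nat.Primes) (q : Nat.Primes) (x : H1g S M) :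
    res1 S q N (H1gEquiv e he S x) =
      LevelCoh28.mapH1 (𝓑 := pullBasis (primeLocalToGlobal q))
        (A := Rep.res (primeLocalToGlobal q) M) (B := Rep.res (primeLocalToGlobal q) N)
        e.toLinearMap (fun g m => he (primeLocalToGlobal q g) m) (res1 S q M x) := by
  obtain ⟨c, rfl⟩ := LevelCoh28.H1mk_surjective _ _ x
  rfl

theorem res1_H1gEquiv_eq_zero_iff (S : Finset Nat.Primes) (q : Nat.Primes) (x : H1g S M) :
    res1 S q N (H1gEquiv e he S x) = 0 ↔ res1 S q M x = 0 := by
  constructor
  · intro h
    have h2 := res1_H1gEquiv e.symm (symm_equivariant e he) S q (H1gEquiv e he S x)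
    have h3 : H1gEquiv e.symm (symm_equivariant e he) S (H1gEquiv e he S x) = x :=
      (H1gEquiv e he S).symm_apply_apply x
    rw [h3, h, map_zero] at h2
    exact h2
  · intro h
    rw [res1_H1gEquiv, h, map_zero]

/-- `dim Ш¹` is invariant under equivariant equivalences. -/
theorem finrank_ker_locH1_congr (S : Finset Nat.Primes) :
    finrank (ZMod p) (LinearMap.ker (ShaBridge13.locH1 S M)) =
      finrank (ZMod p) (LinearMap.ker (ShaBridge13.locH1 S N)) := by
  have hmap : (LinearMap.ker (ShaBridge13.locH1 S M)).map (H1gEquiv e he S).toLinearMap =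
      LinearMap.ker (ShaBridge13.locH1 S N) := by
    ext y
    rw [Submodule.mem_map, ShaBridge13.mem_ker_locH1_iff]
    constructor
    · rintro ⟨x, hx, rfl⟩ q
      exact (res1_H1gEquiv_eq_zero_iff e he S q.1 x).2
        ((ShaBridge13.mem_ker_locH1_iff S M x).1 hx q)
    · intro hy
      refine ⟨(H1gEquiv e he S).symm y, ?_, (H1gEquiv e he S).apply_symm_apply y⟩
      rw [ShaBridge13.mem_ker_locH1_iff]
      intro q
      refine (res1_H1gEquiv_eq_zero_iff e he S q.1 _).1 ?_
      rw [LinearEquiv.apply_symm_apply]
      exact hy q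
  rw [← hmap]
  exact LinearEquiv.finrank_eq ((H1gEquiv e he S).submoduleMap _)

end Transport

end Fermat.Agent.TW.GWTransport97
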