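/-
Programme TW (S56), sub-programme C (Greenberg–Wiles), brick C0 (helper97): ASSEMBLY.

`gwPackageW : p ≠ 2 → GWBricks p → GWPackageW p`: the weak Greenberg–Wiles package from the bricks

* `middle` (C1)  middle exactness of Poitou–Tate for an intrinsic `perp`,
* `tail`   (C2)  the tail of the nine-term sequence (`TailEq`),
* `tate`   (C3)  Tate's global Euler characteristic for large `S` (`TateStatement`),
* `localEuler` (C4) local duality numerics + local Euler characteristic,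
* `finH1g` finiteness of `H¹(G_S, M)`,
* the S55 count (C5, `GWSha97.shaCount`, proved).

ELABORATION NOTE: the abstract lemmas of `GWAbsZ97` are always applied as `have h := …` WITHOUT
expected type and with all type arguments explicit; propagating the expected type through
`ShaBridge13.locH1` makes `isDefEq` time out.
-/
import Mathlib
import Fermat.Agent.TW.GWTransport97
import Fermat.Agent.TW.GWAbsZ97

set_option autoImplicit false
set_option maxHeartbeats 400000

open ExtCitation Module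
open Fermat.Agent.PT.PRO Fermat.Agent.PT.BR Fermat.Agent.PT.BR.LevelBridge13

namespace Fermat.Agent.TW.GWAsm97

open Fermat.Agent.TW.GWIface97 Fermat.Agent.TW.GWIface2_97 Fermat.Agent.TW.GWTransport97

local notation "Γ" => (AlgebraicClosure ℚ ≃ₐ[ℚ] AlgebraicClosure ℚ)

variable {p : ℕ} [Fact p.Prime]

/-! ### Dimension bookkeeping -/

section Core

variable (S : Finset Nat.Primes) (M A : Rep.{0} (ZMod p) Γ)

theorem finrank_H1g_eq [Module.Finite (ZMod p) (H1g S M)] :
    finrank (ZMod p) (H1g S M) =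
      finrank (ZMod p) (LinearMap.ker (ShaBridge13.locH1 S M)) +
        finrank (ZMod p) (LinearMap.range (ShaBridge13.locH1 S M)) := by
  have h := GWAbsZ97.finrank_eq_ker_add_range (V := H1g S M) (W := ∀ q : ↥S, H1l q.1 M)
    (ShaBridge13.locH1 S M)
  exact h

theorem finrank_H2g_eq [Module.Finite (ZMod p) (H2g S M)] :
    finrank (ZMod p) (H2g S M) =
      finrank (ZMod p) (LinearMap.ker (ShaBridge13.locH2 S M)) +
        finrank (ZMod p) (LinearMap.range (ShaBridge13.locH2 S M)) := by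
  have h := GWAbsZ97.finrank_eq_ker_add_range (V := H2g S M) (W := ∀ q : ↥S, H2l q.1 M)
    (ShaBridge13.locH2 S M)
  exact h

/-- `H²(G_S, M)` is finite as soon as `Ш²` and the local `H²` are. -/
theorem finite_H2g (h1 : Module.Finite (ZMod p) (LinearMap.ker (ShaBridge13.locH2 S M)))
    (h2 : ∀ q : ↥S, Module.Finite (ZMod p) (H2l q.1 M)) : Module.Finite (ZMod p) (H2g S M) := by
  have h3 : Module.Finite (ZMod p) (∀ q : ↥S, H2l q.1 M) := Module.Finite.pi
  have h := GWAbsZ97.finite_of_ker_of_finite (V := H2g S M) (W := ∀ q : ↥S, H2l q.1 M)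
    (ShaBridge13.locH2 S M) h3 h1
  exact h

/-- The sum of the local Euler characteristic corrections is `dim M` (`p ∈ S`). -/
theorem sum_ite_eq_finrank (hpS : pPrime p ∈ S) (d : ℕ) :
    (∑ q : ↥S, if ((q : Nat.Primes) : ℕ) = p then d else 0) = d := by
  classical
  rw [Finset.sum_eq_single (⟨pPrime p, hpS⟩ : ↥S)]
  · exact if_pos rfl
  · intro q _ hq
    refine if_neg fun h => hq ?_
    exact Subtype.ext (Subtype.ext h)
  · intro h
    exact absurd (Finset.mem_univ _) h

/-- `dim range λ_M + dim range λ_A = ∑ dim H¹(ℚ_q, M)`. -/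
theorem finrank_range_locH1_add
    [∀ q : ↥S, Module.Finite (ZMod p) (H1l q.1 M)] [∀ q : ↥S, Module.Finite (ZMod p) (H1l q.1 A)]
    (T : ∀ q : ↥S, H1l q.1 M →ₗ[ZMod p] H1l q.1 A →ₗ[ZMod p] ZMod p)
    (hright : ∀ (q : ↥S) (y : H1l q.1 A), (∀ x, T q x y = 0) → y = 0)
    (hex : ∀ b : ∀ q : ↥S, H1l q.1 M,
      (∀ y : H1g S A, ∑ q : ↥S, T q (b q) (res1 S q.1 A y) = 0) ↔
        ∃ x : H1g S M, ∀ q : ↥S, res1 S q.1 M x = b q) :
    finrank (ZMod p) (LinearMap.range (ShaBridge13.locH1 S M)) +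
      finrank (ZMod p) (LinearMap.range (ShaBridge13.locH1 S A)) =
        ∑ q : ↥S, finrank (ZMod p) (H1l q.1 M) := by
  have h := GWAbsZ97.finrank_range_add (ι := ↥S) (X := H1g S M) (Y := H1g S A)
    (B := fun q : ↥S => H1l q.1 M) (B' := fun q : ↥S => H1l q.1 A)
    (fun q : ↥S => res1 S q.1 M) (fun q : ↥S => res1 S q.1 A) T hright hex
  exact h

/-- The abstract Greenberg–Wiles formula for the level cohomology groups. -/
theorem finrank_Sel_add
    [Module.Finite (ZMod p) (H1g S M)] [Module.Finite (ZMod p) (H1g S A)]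
    [∀ q : ↥S, Module.Finite (ZMod p) (H1l q.1 M)] [∀ q : ↥S, Module.Finite (ZMod p) (H1l q.1 A)]
    (T : ∀ q : ↥S, H1l q.1 M →ₗ[ZMod p] H1l q.1 A →ₗ[ZMod p] ZMod p)
    (hright : ∀ (q : ↥S) (y : H1l q.1 A), (∀ x, T q x y = 0) → y = 0)
    (hex : ∀ b : ∀ q : ↥S, H1l q.1 M,
      (∀ y : H1g S A, ∑ q : ↥S, T q (b q) (res1 S q.1 A y) = 0) ↔
        ∃ x : H1g S M, ∀ q : ↥S, res1 S q.1 M x = b q)
    (L : ∀ q : ↥S, Submodule (ZMod p) (H1l q.1 M)) :
    finrank (ZMod p) (Sel S M L) + finrank (ZMod p) (LinearMap.ker (ShaBridge13.locH1 S A)) +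
        ∑ q : ↥S, finrank (ZMod p) (H1l q.1 M) =
      finrank (ZMod p) (H1g S M) + ∑ q : ↥S, finrank (ZMod p) (L q) +
        finrank (ZMod p) (Sel S A fun q => GWAbsZ97.perp (p := p) (ι := ↥S) (i := q)
          (B := fun q : ↥S => H1l q.1 M) (B' := fun q : ↥S => H1l q.1 A) (T q) (L q)) := by
  have h := GWAbsZ97.finrank_sel_add (ι := ↥S) (X := H1g S M) (Y := H1g S A)
    (B := fun q : ↥S => H1l q.1 M) (B' := fun q : ↥S => H1l q.1 A)
    (fun q : ↥S => res1 S q.1 M) (fun q : ↥S => res1 S q.1 A) T hright hex L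
  exact h

/-- **The Greenberg–Wiles inequality from the bricks**, for a general pair `(M, A)`. -/
theorem gwIneq_core (hpS : pPrime p ∈ S)
    [Module.Finite (ZMod p) (H1g S M)] [Module.Finite (ZMod p) (H1g S A)]
    [Module.Finite (ZMod p) (H2g S M)]
    [∀ q : ↥S, Module.Finite (ZMod p) (H1l q.1 M)] [∀ q : ↥S, Module.Finite (ZMod p) (H1l q.1 A)]
    (T : ∀ q : ↥S, H1l q.1 M →ₗ[ZMod p] H1l q.1 A →ₗ[ZMod p] ZMod p)
    (hright : ∀ (q : ↥S) (y : H1l q.1 A), (∀ x, T q x y = 0) → y = 0)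
    (hex : ∀ b : ∀ q : ↥S, H1l q.1 M,
      (∀ y : H1g S A, ∑ q : ↥S, T q (b q) (res1 S q.1 A y) = 0) ↔
        ∃ x : H1g S M, ∀ q : ↥S, res1 S q.1 M x = b q)
    (hsha : finrank (ZMod p) (LinearMap.ker (ShaBridge13.locH1 S A)) =
      finrank (ZMod p) (LinearMap.ker (ShaBridge13.locH2 S M)))
    (a0 : ℕ)
    (htail : finrank (ZMod p) (LinearMap.range (ShaBridge13.locH2 S M)) + a0 ≤
      ∑ q : ↥S, finrank (ZMod p) (H2l q.1 M))
    (heul : GlobalEulerLe S M)
    (hloc : ∀ q : ↥S, finrank (ZMod p) (H1l q.1 M) = h0l q.1 M + finrank (ZMod p) (H2l q.1 M) +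
      (if ((q : Nat.Primes) : ℕ) = p then finrank (ZMod p) M else 0))
    (P : ∀ q : ↥S, Submodule (ZMod p) (H1l q.1 M) → Submodule (ZMod p) (H1l q.1 A))
    (hP : ∀ (q : ↥S) (L : Submodule (ZMod p) (H1l q.1 M)),
      GWAbsZ97.perp (p := p) (ι := ↥S) (i := q)
        (B := fun q : ↥S => H1l q.1 M) (B' := fun q : ↥S => H1l q.1 A) (T q) L = P q L)
    (L : ∀ q : ↥S, Submodule (ZMod p) (H1l q.1 M)) :
    finrank (ZMod p) (Sel S M L) + a0 + (∑ q : ↥S, h0l q.1 M) + h0c M ≤
      finrank (ZMod p) (Sel S A fun q => P q (L q)) + h0g M +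
        ∑ q : ↥S, finrank (ZMod p) (L q) := by
  have e1 := finrank_Sel_add S M A T hright hex L
  have e0 : (fun q : ↥S => GWAbsZ97.perp (p := p) (ι := ↥S) (i := q)
      (B := fun q : ↥S => H1l q.1 M) (B' := fun q : ↥S => H1l q.1 A) (T q) (L q)) =
      fun q : ↥S => P q (L q) := funext fun q => hP q (L q)
  rw [e0] at e1
  have e4 := finrank_H2g_eq S M
  have e5 : (∑ q : ↥S, finrank (ZMod p) (H1l q.1 M)) =
      (∑ q : ↥S, h0l q.1 M) + (∑ q : ↥S, finrank (ZMod p) (H2l q.1 M)) +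
        finrank (ZMod p) M := by
    rw [Finset.sum_congr rfl fun q _ => hloc q, Finset.sum_add_distrib, Finset.sum_add_distrib,
      sum_ite_eq_finrank S hpS]
  unfold GlobalEulerLe at heul
  omega

end Core

/-! ### The bricks -/

/-- The inputs of the assembly (bricks C1 – C4 of sub-programme C + finiteness of `H¹(G_S, M)`). -/
structure GWBricks (p : ℕ) [Fact p.Prime] where
  /-- local orthogonal complement (intrinsic) -/
  perp : ∀ (q : Nat.Primes) (M : Rep.{0} (ZMod p) Γ),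
    Submodule (ZMod p) (H1l q M) → Submodule (ZMod p) (H1l q (dual M))
  perp_top : ∀ (q : Nat.Primes) (M : Rep.{0} (ZMod p) Γ) (S : Finset Nat.Primes),
    IsGood S M → perp q M ⊤ = ⊥
  perp_anti : ∀ (q : Nat.Primes) (M : Rep.{0} (ZMod p) Γ) (L L' : Submodule (ZMod p) (H1l q M)),
    L ≤ L' → perp q M L' ≤ perp q M L
  /-- (C1) -/
  middle : ∀ (S : Finset Nat.Primes) (M : Rep.{0} (ZMod p) Γ), pPrime p ∈ S → IsGood S M →
    MiddleExact perp S M
  /-- (C2) -/
  tail : ∀ (S : Finset Nat.Primes) (M : Rep.{0} (ZMod p) Γ), pPrime p ∈ S → IsGood S M →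
    TailEq S M
  /-- (C4) -/
  localEuler : ∀ (q : Nat.Primes) (S : Finset Nat.Primes) (M : Rep.{0} (ZMod p) Γ),
    IsGood S M → LocalEuler q M
  /-- finiteness of `H¹(G_S, M)` -/
  finH1g : ∀ (S : Finset Nat.Primes) (M : Rep.{0} (ZMod p) Γ), pPrime p ∈ S → IsGood S M →
    Module.Finite (ZMod p) (H1g S M)
  /-- (C3) -/
  tate : TateStatement p

section Assembly

variable (hp2 : p ≠ 2) (B : GWBricks p) (S : Finset Nat.Primes) (M : Rep.{0} (ZMod p) Γ)
  (hpS : pPrime p ∈ S) (hM : IsGood S M)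

include hp2 B hpS hM

theorem finite_H2g_of_bricks : Module.Finite (ZMod p) (H2g S M) :=
  finite_H2g S M (GWSha97.shaCount hp2 S hpS M hM).2.1 (fun q => (B.localEuler q.1 S M hM).2.1)

/-- **(FIN)** -/
theorem globalFin : GlobalFin S M :=
  ⟨B.finH1g S M hpS hM, finite_H2g_of_bricks hp2 B S M hpS hM⟩

/-- the sum of the local `h¹` -/
theorem sum_finrank_H1l :
    (∑ q : ↥S, finrank (ZMod p) (H1l q.1 M)) =
      (∑ q : ↥S, h0l q.1 M) + (∑ q : ↥S, finrank (ZMod p) (H2l q.1 M)) +
        finrank (ZMod p) M := by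
  rw [Finset.sum_congr rfl fun q _ => (B.localEuler q.1 S M hM).2.2.2, Finset.sum_add_distrib,
    Finset.sum_add_distrib, sum_ite_eq_finrank S hpS]

/-- **(TAIL)** -/
theorem globalTail : GlobalTail S M := by
  haveI := finite_H2g_of_bricks hp2 B S M hpS hM
  have e1 := finrank_H2g_eq S M
  have e2 : TailEq S M := B.tail S M hpS hM
  have e3 : (∑ q : ↥S, finrank (ZMod p) (H2l q.1 M)) = ∑ q : ↥S, h0l q.1 (dual M) :=
    Finset.sum_congr rfl fun q _ => (B.localEuler q.1 S M hM).2.2.1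
  unfold TailEq at e2
  unfold GlobalTail
  omega

/-- **(SYM)** -/
theorem globalSym : GlobalSym S M := by
  haveI := hM.fin
  have hA : IsGood S (dual M) := IsGood.dual hpS hM
  -- finiteness
  haveI := B.finH1g S M hpS hM
  haveI := B.finH1g S (dual M) hpS hA
  haveI := finite_H2g_of_bricks hp2 B S M hpS hM
  haveI := finite_H2g_of_bricks hp2 B S (dual M) hpS hA
  haveI : ∀ q : ↥S, Module.Finite (ZMod p) (H1l q.1 M) := fun q => (B.localEuler q.1 S M hM).1
  haveI : ∀ q : ↥S, Module.Finite (ZMod p) (H1l q.1 (dual M)) :=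
    fun q => (B.localEuler q.1 S (dual M) hA).1
  -- rank–nullity
  have f1 := finrank_H1g_eq S M
  have f2 := finrank_H1g_eq S (dual M)
  have f3 := finrank_H2g_eq S M
  have f4 := finrank_H2g_eq S (dual M)
  -- middle exactness
  obtain ⟨T, -, hex⟩ := B.middle S M hpS hM
  have f5 := finrank_range_locH1_add S M (dual M) (fun q => (T q).pair) (fun q => (T q).right) hex
  -- S55 for `M` and for its dual
  have f6 := (GWSha97.shaCount hp2 S hpS M hM).2.2
  have f7 := (GWSha97.shaCount hp2 S hpS (dual M) hA).2.2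
  have f7' := finrank_ker_locH1_congr (DualTwist7.ddualEquiv (cycloChar p) M)
    (DualTwist7.ddualEquiv_ρ (cycloChar p) M) S
  -- tails
  have f8 : TailEq S M := B.tail S M hpS hM
  have f9 : TailEq S (dual M) := B.tail S (dual M) hpS hA
  have f9' := h0g_congr (DualTwist7.ddualEquiv (cycloChar p) M)
    (DualTwist7.ddualEquiv_ρ (cycloChar p) M)
  -- local terms
  have f10 := sum_finrank_H1l hp2 B S M hpS hM
  have f11 : (∑ q : ↥S, finrank (ZMod p) (H2l q.1 (dual M))) = ∑ q : ↥S, h0l q.1 M :=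
    Finset.sum_congr rfl fun q _ => by
      rw [(B.localEuler q.1 S (dual M) hA).2.2.1]
      exact (h0l_congr (DualTwist7.ddualEquiv (cycloChar p) M)
        (DualTwist7.ddualEquiv_ρ (cycloChar p) M) q.1).symm
  unfold TailEq at f8 f9
  unfold GlobalSym
  unfold dual at *
  omega

end Assembly

section Package

variable (hp2 : p ≠ 2) (B : GWBricks p)

include hp2 B

/-- The Greenberg–Wiles inequality for `(S, M, L)` from the bricks and Tate's inequality. -/
theorem gwIneq_of_bricks (S : Finset Nat.Primes) (M : Rep.{0} (ZMod p) Γ)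
    (hpS : pPrime p ∈ S) (hM : IsGood S M) (heul : GlobalEulerLe S M)
    (L : ∀ q : ↥S, Submodule (ZMod p) (H1l q.1 M)) : GWIneq B.perp S M L := by
  haveI := hM.fin
  have hA : IsGood S (dual M) := IsGood.dual hpS hM
  haveI := B.finH1g S M hpS hM
  haveI := B.finH1g S (dual M) hpS hA
  haveI := finite_H2g_of_bricks hp2 B S M hpS hM
  haveI : ∀ q : ↥S, Module.Finite (ZMod p) (H1l q.1 M) := fun q => (B.localEuler q.1 S M hM).1
  haveI : ∀ q : ↥S, Module.Finite (ZMod p) (H1l q.1 (dual M)) :=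
    fun q => (B.localEuler q.1 S (dual M) hA).1
  obtain ⟨T, hperp, hex⟩ := B.middle S M hpS hM
  exact gwIneq_core S M (dual M) hpS (fun q => (T q).pair) (fun q => (T q).right) hex
    (GWSha97.shaCount hp2 S hpS M hM).2.2 (h0g (dual M)) (B.tail S M hpS hM).tailBound heul
    (fun q => (B.localEuler q.1 S M hM).2.2.2) (fun q => B.perp q.1 M)
    (fun q L => by rw [← hperp q L]; rfl) L

/-- **The weak Greenberg–Wiles package from the bricks.** -/
noncomputable def gwPackageW : GWPackageW p where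
  perp := B.perp
  perp_top := B.perp_top
  perp_anti := B.perp_anti
  finite_H1l q M S hM := (B.localEuler q S M hM).1
  finrank_H1l q M S hM hq := by
    have h := B.localEuler q S M hM
    rw [h.2.2.2, if_neg hq, add_zero, h.2.2.1]
  finrank_H1l_p M S hM := by
    have h := B.localEuler (pPrime p) S M hM
    rw [h.2.2.2, h.2.2.1]
    exact congrArg _ (if_pos rfl)
  finite_H1g := B.finH1g
  main S M hpS hM := by
    obtain ⟨S₀, hS₀⟩ := B.tate hp2 (fun S M hpS hM => globalFin hp2 B S M hpS hM)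
      (fun S M hpS hM => globalSym hp2 B S M hpS hM)
      (fun S M hpS hM => globalTail hp2 B S M hpS hM) S M hpS hM
    exact ⟨S₀, fun S' hS hS0 L =>
      gwIneq_of_bricks hp2 B S' M (hS hpS) (IsGood.mono hS hM) (hS₀ S' hS hS0) L⟩

omit hp2 B in
/-- The final statement of sub-programme C from the bricks. -/
theorem gwStatementW_of_bricks (B : p ≠ 2 → GWBricks p) : GWStatementW p :=
  fun hp2 => ⟨gwPackageW hp2 (B hp2)⟩

end Package

end Fermat.Agent.TW.GWAsm97
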