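/-
Programme TW (S56), sub-programme C (Greenberg–Wiles), helper97:
finiteness of the global `H¹(G_S, M)` (field `finH1g` of `GWAsm97.GWBricks`) for good `M`,
transported from `PT/PRO/FinH1S55_9.finite_Hlev1_self` along `LevelEquiv29.h1IntEquiv`.
-/
import Fermat.Agent.TW.GWIface97
import Fermat.Agent.PT.PRO.FinH1S55_9
import Fermat.Agent.PT.PRO.LevelEquiv29
import Fermat.Agent.PT.GLUE.BasisCompare13

set_option autoImplicit false
set_option maxHeartbeats 400000

open ExtCitation
open Fermat.Agent.PT.PRO Fermat.Agent.PT.BR Fermat.Agent.PT.BR.LevelBridge13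
open Fermat.Agent.PT.GLUE.Objects21

namespace Fermat.Agent.TW.GWFinH1_97

open Fermat.Agent.TW.GWIface97

local notation "Γ" => (AlgebraicClosure ℚ ≃ₐ[ℚ] AlgebraicClosure ℚ)

variable {p : ℕ} [Fact p.Prime]

/-- `H¹(G_S, M)` is a finite set for good `M`. -/
theorem finite_H1g_set (S : Finset Nat.Primes) (hpS : pPrime p ∈ S)
    (M : Rep.{0} (ZMod p) Γ) (hM : IsGood S M) : Finite (H1g S M) := by
  haveI := hM.fin
  have hA : HyperLevel25.IsDiscrete (levelS S).sets (IntRep20.intRep M) :=
    FinH1S55_9.isDiscrete_intRep_self S hpS M hM.smooth hM.unram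
  haveI := FinH1S55_9.finite_Hlev1_self S hpS M hM.smooth hM.unram
    (LevelEquiv29.basis (levelS S)) hA
  have e := LevelEquiv29.h1IntEquiv (levelS S) M hA
  have hfin : Finite (LevelCoh28.H1 (levelS S) M) := Finite.of_equiv _ e.symm.toEquiv
  have hb : globalBasis S = levelS S := Fermat.Agent.PT.GLUE.BasisCompare13.globalBasis_eq S
  unfold H1g
  rw [hb]
  exact hfin

/-- **field `finH1g` of `GWBricks`**: `H¹(G_S, M)` is finite-dimensional for good `M`. -/
theorem finite_H1g (S : Finset Nat.Primes) (hpS : pPrime p ∈ S)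
    (M : Rep.{0} (ZMod p) Γ) (hM : IsGood S M) : Module.Finite (ZMod p) (H1g S M) := by
  haveI := finite_H1g_set S hpS M hM
  exact Module.Finite.of_finite

end Fermat.Agent.TW.GWFinH1_97
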