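/-
Programme TW (S56), brick C2 (tail of the Poitou–Tate sequence), part T6a, helper25.

`GWTail25A`: the TAIL COUNT as ONE conditional theorem on abstract two-term complexes
(`HyperLevel25.Cx`), twin of Layers A/B of `PT/PRO/StarBlock25`.

Setting (as in `StarBlock25`): `0 → K_E → K_I → K_C → 0` termwise short exact over `(G, 𝒰)`,
`N → K_E⁰` with `Φ = incl2 : H²(G; N) → ℍ²(G; K_E)` SURJECTIVE (divisible case); for a family of
places `q`: groups `G_q → G`, complexes `K_{I,q}` over `G` with `ℍ²(K_I) → ∏_q ℍ²(K_{I,q})`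
BIJECTIVE, morphisms `sh_q : K_{I,q} → K_{E,q}` over `G_q → G` BIJECTIVE on `ℍ²`
(hyper-Shapiro ∘ inflation), `N_q → K_{E,q}⁰` with `H²(G_q; N_q) → ℍ²(G_q; K_{E,q})` BIJECTIVE and
`ν_q : N → N_q` compatible with all this.  Then

  `#range (H²(G; N) → ∏_q H²(G_q; N_q)) · #range (ℍ²(K_I) → ℍ²(K_C)) = #∏_q H²(G_q; N_q)`

(`card_range_loc_mul_card_range`), because `ℍ²(K_E) → ℍ²(K_I) → ℍ²(K_C)` is exact
(`HyperLevel25.Cx.Hom.exact_mapℍ2_mapℍ2`).  No finiteness hypothesis (`Nat.card`).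
-/
import Mathlib
import Fermat.Agent.PT.PRO.StarBlock25

set_option autoImplicit false

namespace Fermat.Agent.TW.GWTail25A

open Function Fermat.Agent.PT.PRO.HyperLevel25 Fermat.Agent.PT.PRO.HyperCompare25
  Fermat.Agent.PT.PRO.HyperRes25 Fermat.Agent.PT.PRO.StarBlock25

/-! ### Two counting lemmas for additive maps -/

section Count

variable {A B : Type*} [AddCommGroup A] [AddCommGroup B]

/-- `#ker f · #range f = #A` for a homomorphism of additive groups (no finiteness needed). -/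
theorem card_ker_mul_card_range (f : A →+ B) :
    Nat.card {a : A // f a = 0} * Nat.card (Set.range f) = Nat.card A := by
  have h1 := f.ker.card_mul_index
  rw [AddSubgroup.index_ker] at h1
  exact h1

/-- Transport of the cardinality of a subset along an injective map. -/
theorem card_image_eq {X Y : Type*} (Θ : X → Y) (hΘ : Injective Θ) (s : Set X) (t : Set Y)
    (h : ∀ y, y ∈ t ↔ ∃ x ∈ s, Θ x = y) : Nat.card t = Nat.card s := by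
  have : t = Θ '' s := Set.ext fun y => (h y).trans Iff.rfl
  rw [this]
  exact Nat.card_image_of_injective hΘ s

end Count

/-! ### The abstract tail count -/

section Abstract

variable {k G : Type*} [CommRing k] [Group G] {𝒰 : Set (Subgroup G)}
variable {E0 E1 I0 I1 C0 C1 N : Type*}
  [AddCommGroup E0] [Module k E0] [AddCommGroup E1] [Module k E1]
  [AddCommGroup I0] [Module k I0] [AddCommGroup I1] [Module k I1]
  [AddCommGroup C0] [Module k C0] [AddCommGroup C1] [Module k C1]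
  [AddCommGroup N] [Module k N]
variable {KE : Cx k 𝒰 E0 E1} {KI : Cx k 𝒰 I0 I1} {KC : Cx k 𝒰 C0 C1}
variable {φ : Cx.Hom KE KI} {ψ : Cx.Hom KI KC} (hse : Cx.Hom.ShortExact φ ψ)
  (h𝒰 : IsLevelBasis 𝒰)
variable {ρN : Representation k G N} (hN : IsDiscrete 𝒰 ρN) (ι0 : N →ₗ[k] E0)
  (hι : ∀ g n, ι0 (ρN g n) = KE.ρ0 g (ι0 n)) (hfι : ∀ n, KE.f (ι0 n) = 0)

variable {Q : Type*} {Gq : Q → Type*} [∀ q, Group (Gq q)] {𝒰q : ∀ q, Set (Subgroup (Gq q))}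
variable {r : ∀ q, Gq q →* G} (hr : ∀ q, IsLevelHom (r q) (𝒰q q) 𝒰)
  (h𝒰q : ∀ q, IsLevelBasis (𝒰q q))
variable {J0 J1 L0 L1 Nq : Q → Type*}
  [∀ q, AddCommGroup (J0 q)] [∀ q, Module k (J0 q)]
  [∀ q, AddCommGroup (J1 q)] [∀ q, Module k (J1 q)]
  [∀ q, AddCommGroup (L0 q)] [∀ q, Module k (L0 q)]
  [∀ q, AddCommGroup (L1 q)] [∀ q, Module k (L1 q)]
  [∀ q, AddCommGroup (Nq q)] [∀ q, Module k (Nq q)]
variable {KIq : ∀ q, Cx k 𝒰 (J0 q) (J1 q)} {KEq : ∀ q, Cx k (𝒰q q) (L0 q) (L1 q)}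
variable (prj : ∀ q, Cx.Hom KI (KIq q)) (sh : ∀ q, PHom (r q) (KIq q) (KEq q))
variable {ρNq : ∀ q, Representation k (Gq q) (Nq q)} (hNq : ∀ q, IsDiscrete (𝒰q q) (ρNq q))
  (ι0q : ∀ q, Nq q →ₗ[k] L0 q) (hιq : ∀ q g n, ι0q q (ρNq q g n) = (KEq q).ρ0 g (ι0q q n))
  (hfιq : ∀ q n, (KEq q).f (ι0q q n) = 0)
variable (ν : ∀ q, N →ₗ[k] Nq q) (hν : ∀ q g n, ν q (ρN (r q g) n) = ρNq q g (ν q n))

/-- The total localisation `H²(G; N) → ∏_q H²(G_q; N_q)`. -/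
def loc (h : Hp2 h𝒰 ρN hN) (q : Q) : Hp2 (h𝒰q q) (ρNq q) (hNq q) :=
  resN h𝒰 hN hr h𝒰q hNq ν hν q h

include hse hfιq hιq in
/-- **The abstract tail count.** -/
theorem card_range_loc_mul_card_range
    (hΦ : Surjective (incl2 KE h𝒰 hN ι0 hι hfι))
    (hprj : Bijective (fun (w : KI.ℍ2 h𝒰) (q : Q) => (prj q).mapℍ2 h𝒰 w))
    (hsh : ∀ q, Bijective ((sh q).ppℍ2 (hr q) h𝒰 (h𝒰q q)))
    (hincl : ∀ q, Bijective (incl2 (KEq q) (h𝒰q q) (hNq q) (ι0q q) (hιq q) (hfιq q)))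
    (hνι : ∀ q n, ι0q q (ν q n) = (sh q).φ0 ((prj q).φ0 (φ.φ0 (ι0 n)))) :
    Nat.card (Set.range (loc h𝒰 hN hr h𝒰q hNq ν hν)) * Nat.card (Set.range (ψ.mapℍ2 h𝒰)) =
      Nat.card (∀ q, Hp2 (h𝒰q q) (ρNq q) (hNq q)) := by
  classical
  -- the bijection `Θ : ℍ²(K_I) → ∏_q H²(G_q; N_q)`
  let e : ∀ q, Hp2 (h𝒰q q) (ρNq q) (hNq q) ≃ (KEq q).ℍ2 (h𝒰q q) :=
    fun q => Equiv.ofBijective _ (hincl q)
  let Θ : KI.ℍ2 h𝒰 → ∀ q, Hp2 (h𝒰q q) (ρNq q) (hNq q) :=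
    fun w q => (e q).symm ((sh q).ppℍ2 (hr q) h𝒰 (h𝒰q q) ((prj q).mapℍ2 h𝒰 w))
  have hΘ : Bijective Θ := by
    have h2 : Bijective (fun (v : ∀ q, (KIq q).ℍ2 h𝒰) (q : Q) =>
        (e q).symm ((sh q).ppℍ2 (hr q) h𝒰 (h𝒰q q) (v q))) := by
      constructor
      · intro v v' hvv
        funext q
        have := congrFun hvv q
        exact (hsh q).1 ((e q).symm.injective this)
      · intro y
        choose v hv using fun q => (hsh q).2 (e q (y q))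
        refine ⟨v, funext fun q => ?_⟩
        show (e q).symm ((sh q).ppℍ2 (hr q) h𝒰 (h𝒰q q) (v q)) = y q
        rw [hv q, Equiv.symm_apply_apply]
    exact h2.comp hprj
  -- `Θ ∘ φ_* ∘ Φ = loc`
  have hloc : ∀ h : Hp2 h𝒰 ρN hN,
      Θ (φ.mapℍ2 h𝒰 (incl2 KE h𝒰 hN ι0 hι hfι h)) = loc h𝒰 hN hr h𝒰q hNq ν hν h := by
    intro h
    funext q
    show (e q).symm _ = _
    rw [Equiv.symm_apply_eq]
    exact (incl2_resN φ h𝒰 hN ι0 hι hfι hr h𝒰q prj sh hNq ι0q hιq hfιq ν hν hνι q h).symm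
  -- range of `loc` = image of `ker ψ_*` under `Θ`
  have hex := Cx.Hom.exact_mapℍ2_mapℍ2 hse h𝒰
  have hrange : Nat.card (Set.range (loc h𝒰 hN hr h𝒰q hNq ν hν)) =
      Nat.card {w : KI.ℍ2 h𝒰 // ψ.mapℍ2 h𝒰 w = 0} := by
    refine card_image_eq Θ hΘ.1 {w | ψ.mapℍ2 h𝒰 w = 0} _ (fun y => ?_)
    constructor
    · rintro ⟨h, rfl⟩
      refine ⟨φ.mapℍ2 h𝒰 (incl2 KE h𝒰 hN ι0 hι hfι h), ?_, hloc h⟩
      exact (hex _).2 ⟨_, rfl⟩
    · rintro ⟨w, hw, rfl⟩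
      obtain ⟨x, rfl⟩ := (hex w).1 hw
      obtain ⟨h, rfl⟩ := hΦ x
      exact ⟨h, (hloc h).symm⟩
  rw [hrange]
  have h3 := card_ker_mul_card_range (ψ.mapℍ2 h𝒰).toAddMonoidHom
  rw [Nat.card_eq_of_bijective Θ hΘ] at h3
  exact h3

end Abstract

end Fermat.Agent.TW.GWTail25A
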