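/-
Programme TW (S56), brick C2 (tail of the Poitou–Tate sequence), part T6b, helper25.

`GWTail25B`: the tail count of `GWTail25A` for the complexes `K(P; X)` of a RAW resolution
`R : IndRes20.Res k G P1 P0 (Module.Dual (ZMod p) M)`, with the kernel data discharged from
`μ_p`-data exactly as in `PT/PRO/StarS55_7.starAt_of_muData` (`k`-generic, `hk : IntSurj k`), in the
vocabulary of `MainWrap20` / `Objects20` (`KX`, `KXmap`, `KXPHom`, `PairingRes1.resH2`).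

* `S2bAt` : the BIJECTIVE form of `MainWrap20.S2hAt` (`Λ² = (KXPHom … ε hε).ppℍ2` bijective);
* `card_tail_of_muData` :
  `#range (H²_lev(G; M) → ∏_q H²_lev(G_q; M)) · #range (ℍ²(K(P; I)) → ℍ²(K(P; C))) =
     #∏_q H²_lev(G_q; M)`
  from `0 → E → I → C → 0` exact, `I = ∏ I_q`, `μ_p`-data on `E` and on the `W_q`, `E` and `W_q`
  `p`-divisible, and `(S2b)`.
-/
import Mathlib
import Fermat.Agent.PT.PRO.StarS55_7
import Fermat.Agent.TW.GWTail25A

set_option autoImplicit false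
set_option linter.unusedSectionVars false

namespace Fermat.Agent.TW.GWTail25B

open Function
open Fermat.Agent.PT.PRO
open Fermat.Agent.PT.PRO.HyperLevel25 Fermat.Agent.PT.PRO.HyperCompare25
open Fermat.Agent.PT.PRO.HyperRes25 Fermat.Agent.PT.PRO.IndRes20 Fermat.Agent.PT.PRO.Resolved4
open Fermat.Agent.PT.PRO.Setup20 Fermat.Agent.PT.PRO.Objects20 Fermat.Agent.PT.PRO.KerIso7
open Fermat.Agent.PT.PRO.PairingRes1

/-! ### The bijective form of `(S2h)` -/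

section Wrapper

variable {k G G' : Type} [CommRing k] [Group G] [Group G']
  {𝒰 : Set (Subgroup G)} {𝒰' : Set (Subgroup G')}
variable {P1 P0 A X W : Type} [AddCommGroup P1] [Module k P1] [AddCommGroup P0]
  [Module k P0] [AddCommGroup A] [Module k A] [AddCommGroup X] [Module k X]
  [AddCommGroup W] [Module k W]
variable (R : Res k G P1 P0 A) (h0 : IsDiscrete 𝒰 R.ρ0) [Module.Finite k P0] [Module.Finite k P1]
  (h𝒰 : IsLevelBasis 𝒰) (h𝒰' : IsLevelBasis 𝒰')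
  (f : G' →* G) (hf : IsLevelHom f 𝒰' 𝒰)
  {ρX : Representation k G X} (hX : IsDiscrete 𝒰 ρX)
  {ρW : Representation k G' W} (hW : IsDiscrete 𝒰' ρW)

/-- **(S2b)**: `Λ² : ℍ²(G; K(P; X)) → ℍ²(G'; K(P|_{G'}; W))` is BIJECTIVE. -/
def S2bAt (ε : X →ₗ[k] W) (hε : ∀ g x, ε (ρX (f g) x) = ρW g (ε x)) : Prop :=
  Bijective ((KXPHom R h0 h𝒰 h𝒰' f hf hX hW ε hε).ppℍ2 hf h𝒰 h𝒰')

variable {R h0 h𝒰 h𝒰' f hf hX hW}

theorem S2bAt.s2hAt {ε : X →ₗ[k] W} {hε : ∀ g x, ε (ρX (f g) x) = ρW g (ε x)}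
    (h : S2bAt R h0 h𝒰 h𝒰' f hf hX hW ε hε) : MainWrap20.S2hAt R h0 h𝒰 h𝒰' f hf hX hW ε hε :=
  h.1

theorem s2bAt_of_surjective {ε : X →ₗ[k] W} {hε : ∀ g x, ε (ρX (f g) x) = ρW g (ε x)}
    (h : MainWrap20.S2hAt R h0 h𝒰 h𝒰' f hf hX hW ε hε)
    (hs : Surjective ((KXPHom R h0 h𝒰 h𝒰' f hf hX hW ε hε).ppℍ2 hf h𝒰 h𝒰')) :
    S2bAt R h0 h𝒰 h𝒰' f hf hX hW ε hε :=
  ⟨h, hs⟩

end Wrapper

/-! ### The tail count from `μ_p`-data -/

section Generic

variable {k : Type} [CommRing k] (hk : IntSurj k)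
variable {p : ℕ} [Fact p.Prime] {G : Type} [Group G] {𝒰 : Set (Subgroup G)}
variable {M : Type} [AddCommGroup M] [Module (ZMod p) M] [Module k M]
  [FiniteDimensional (ZMod p) M] [Module k (Module.Dual (ZMod p) M)]
variable {P0 P1 : Type} [AddCommGroup P0] [Module k P0] [AddCommGroup P1] [Module k P1]
  [Module.Finite k P0] [Module.Finite k P1] [Module.Projective k P0] [Module.Projective k P1]
variable {E I C : Type} [AddCommGroup E] [Module k E] [AddCommGroup I] [Module k I]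
  [AddCommGroup C] [Module k C]
variable {Q : Type} [Finite Q] {Gq : Q → Type} [∀ q, Group (Gq q)] {𝒰q : ∀ q, Set (Subgroup (Gq q))}
variable {Iq W : Q → Type} [∀ q, AddCommGroup (Iq q)] [∀ q, Module k (Iq q)]
  [∀ q, AddCommGroup (W q)] [∀ q, Module k (W q)]

variable (R : Res k G P1 P0 (Module.Dual (ZMod p) M)) (h0 : IsDiscrete 𝒰 R.ρ0)
  (h𝒰 : IsLevelBasis 𝒰) (h𝒰q : ∀ q, IsLevelBasis (𝒰q q))
  (r : ∀ q, Gq q →* G) (hr : ∀ q, IsLevelHom (r q) (𝒰q q) 𝒰)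
  (ρM : Representation (ZMod p) G M) (hM : IsDiscrete 𝒰 ρM) (χ : G →* (ZMod p)ˣ)
  (hA : ∀ g a, R.ρM g a = (χ g : ZMod p) • (a ∘ₗ ρM g⁻¹))
  {ρE : Representation k G E} (hE : IsDiscrete 𝒰 ρE)
  {ρI : Representation k G I} (hI : IsDiscrete 𝒰 ρI)
  {ρC : Representation k G C} (hC : IsDiscrete 𝒰 ρC)
  {ρIq : ∀ q, Representation k G (Iq q)} (hIq : ∀ q, IsDiscrete 𝒰 (ρIq q))
  {ρW : ∀ q, Representation k (Gq q) (W q)} (hW : ∀ q, IsDiscrete (𝒰q q) (ρW q))
  (d : E →ₗ[k] I) (hd : ∀ g x, d (ρE g x) = ρI g (d x))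
  (t : I →ₗ[k] C) (ht : ∀ g x, t (ρI g x) = ρC g (t x))
  (hdinj : Injective d) (htsurj : Surjective t) (hex : Function.Exact d t)
  (prj : ∀ q, I →ₗ[k] Iq q) (hprj : ∀ q g x, prj q (ρI g x) = ρIq q g (prj q x))
  (hprod : Bijective (fun (x : I) (q : Q) => prj q x))
  (ev : ∀ q, Iq q →ₗ[k] W q) (hev : ∀ q g x, ev q (ρIq q (r q g) x) = ρW q g (ev q x))
  (D : MuData χ ρE) (D' : ∀ q, MuData (χ.comp (r q)) (ρW q))
  (hDD' : ∀ q a, ev q (prj q (d (D.j a))) = (D' q).j a)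
  (hdivE : ∀ x : E, ∃ y : E, (p : k) • y = x)
  (hdivW : ∀ q (x : W q), ∃ y : W q, (p : k) • y = x)

include hA hE hd hprj hdinj htsurj hex hprod hDD' hdivE hdivW in
/-- **The tail count from `μ_p`-data** (`k`-generic). -/
theorem card_tail_of_muData
    (hS2b : ∀ q, S2bAt R h0 h𝒰 (h𝒰q q) (r q) (hr q) (hIq q) (hW q) (ev q) (hev q)) :
    Nat.card (Set.range (fun (h : Hlev2 h𝒰 (intRep hk ρM) (isDiscrete_intRep hk hM)) (q : Q) =>
        resH2 (hr q) h𝒰 (h𝒰q q) (isDiscrete_intRep hk hM)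
          (isDiscrete_intRep hk (IsLevelHom.isDiscrete (hr q) hM)) LinearMap.id
          (fun _ _ => rfl) h)) *
      Nat.card (Set.range ((KXmap R h0 h𝒰 hI hC t ht).mapℍ2 h𝒰)) =
    Nat.card (∀ q, Hlev2 (h𝒰q q) (intRep hk (ρM.comp (r q)))
      (isDiscrete_intRep hk (IsLevelHom.isDiscrete (hr q) hM))) := by
  have key := GWTail25A.card_range_loc_mul_card_range
    (StarBlock25.coefHom_shortExact (toResolved R h0) h𝒰 hE hI hC d hd t ht hdinj htsurj hex)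
    h𝒰 (isDiscrete_intRep hk hM) (kapRes hk D.j R.π)
    (kapRes_equivariant hk ρM χ R.ρM hA ρE D.j D.equiv R.ρ0 R.π R.π_comm)
    (lcomp_kapRes hk D.j R.π R.ι (toResolved R h0).π_ι)
    hr h𝒰q
    (fun q => HK20.coefHom (toResolved R h0) h𝒰 hI (hIq q) (prj q) (hprj q))
    (fun q => KPHom (hr q) h𝒰 (h𝒰q q) (hIq q) (hW q) (toResolved R h0) (ev q) (hev q))
    (fun q => isDiscrete_intRep hk (IsLevelHom.isDiscrete (hr q) hM))
    (fun q => kapRes hk (D' q).j R.π)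
    (fun q => kapRes_equivariant hk (ρM.comp (r q)) (χ.comp (r q)) (R.comap (r q)).ρM
      (KerIsoMain7.hA_comap R ρM χ hA (r q)) (ρW q) (D' q).j (D' q).equiv (R.comap (r q)).ρ0 R.π
      (R.comap (r q)).π_comm)
    (fun q => lcomp_kapRes hk (D' q).j R.π R.ι (toResolved R h0).π_ι)
    (fun q => LinearMap.id) (fun q g n => rfl)
    (bijective_incl2 ((toResolved R h0).K h𝒰 ρE hE) h𝒰 (isDiscrete_intRep hk hM)
      (kapRes hk D.j R.π)
      (kapRes_equivariant hk ρM χ R.ρM hA ρE D.j D.equiv R.ρ0 R.π R.π_comm)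
      (lcomp_kapRes hk D.j R.π R.ι (toResolved R h0).π_ι)
      (kapRes_injective hk D.j D.inj R.π R.π_surj)
      (fun b hb => exists_kapRes_eq hk D.j D.inj D.surj R.π R.π_surj R.ι
        (toResolved R h0).exact b hb)
      (lcomp_surjective_of_div R.ι R.ι_inj R.π (toResolved R h0).exact hdivE)).2
    (ProdInst10.prod_ℍ2_of_compRight
      (fun q => HK20.coefHom (toResolved R h0) h𝒰 hI (hIq q) (prj q) (hprj q)) h𝒰 prj hprod
      (fun _ _ => rfl) (fun _ _ => rfl))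
    hS2b
    (fun q => compare2_bijective hk (h𝒰q q)
      (toResolved (R.comap (r q)) (comap_disc0 R h0 (r q) (hr q))) (ρM.comp (r q))
      (IsLevelHom.isDiscrete (hr q) hM) (χ.comp (r q)) (KerIsoMain7.hA_comap R ρM χ hA (r q))
      (hW q) (D' q) (hdivW q))
    (fun q n => LinearMap.ext fun x => by
      show kapRes hk (D' q).j R.π (LinearMap.id n) x = _
      rw [LinearMap.id_apply, kapRes_apply]
      show _ = ev q (prj q (d (kapRes hk D.j R.π n x)))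
      rw [kapRes_apply, hDD'])
  exact key

end Generic

end Fermat.Agent.TW.GWTail25B
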