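/-
Programme TW (S56), brick C2 (tail of the Poitou–Tate sequence), part T6c (transport), helper25.

`GWTail25C`: transport of the tail count from the `ℤ`-linear level model `Resolved4.Hlev2`
(in which `GWTail25B.card_tail_of_muData` lives at `k = ℤ`) to the `ZMod p`-linear model
`LevelCoh28.H2` of `ShaBridge13.locH2` / `GWIface97.H2l`: twin of `PT/PRO/Transport29`, for the
RANGE of the total localisation instead of its kernel.

* `TailConcl r 𝓑 𝓑q hf M n` : (all local `H²` finite) → `finrank range(loc2) + n = ∑_q finrank H²_q`;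
* `tailConcl_of_card` : from `#range(loc_ℤ) · p^n = #∏_q Hlev2_q`;
* `tailConcl_arith` : the same at the bases of `LevelBridge13` (`ShaBridge13.locH2`).
-/
import Mathlib
import Fermat.Agent.PT.PRO.Transport29

set_option autoImplicit false
set_option maxHeartbeats 400000

namespace Fermat.Agent.TW.GWTail25C

open Function
open Fermat.Agent.PT.PRO Fermat.Agent.PT.PRO.HyperLevel25 Fermat.Agent.PT.PRO.Resolved4
open Fermat.Agent.PT.PRO.IntRep20 Fermat.Agent.PT.PRO.LevelEquiv29
open Fermat.Agent.PT.PRO.Transport29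

/-! ### Abstract counting -/

section Abstract

variable {p : ℕ} [Fact p.Prime]

/-- Transport of the range of a map into a product along bijections. -/
theorem card_range_congr {H H' ι : Type*} {Hq Hq' : ι → Type*} (loc : H → ∀ q, Hq q)
    (loc' : H' → ∀ q, Hq' q) (e : H ≃ H') (eq : ∀ q, Hq q ≃ Hq' q)
    (hcomm : ∀ h q, eq q (loc h q) = loc' (e h) q) :
    Nat.card (Set.range loc) = Nat.card (Set.range loc') := by
  let E : (∀ q, Hq q) ≃ (∀ q, Hq' q) := Equiv.piCongrRight eq
  have : Set.range loc' = E '' Set.range loc := by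
    ext y
    constructor
    · rintro ⟨h', rfl⟩
      refine ⟨loc (e.symm h'), ⟨_, rfl⟩, ?_⟩
      funext q
      show eq q (loc (e.symm h') q) = _
      rw [hcomm, Equiv.apply_symm_apply]
    · rintro ⟨_, ⟨h, rfl⟩, rfl⟩
      refine ⟨e h, ?_⟩
      funext q
      exact (hcomm h q).symm
  rw [this]
  exact (Nat.card_image_of_injective E.injective _).symm

/-- `#V = p ^ dim V` for a finite module over `ZMod p` which is only known to be an
`AddCommMonoid` (the instance path of `Pi.module` on products of quotient modules). -/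
theorem natCard_eq_pow_finrank' {V : Type*} [AddCommMonoid V] [Module (ZMod p) V]
    [Module.Finite (ZMod p) V] : Nat.card V = p ^ Module.finrank (ZMod p) V := by
  let _ : AddCommGroup V := Module.addCommMonoidToAddCommGroup (ZMod p)
  have := Module.natCard_eq_pow_finrank (K := ZMod p) (V := V)
  rw [Nat.card_zmod] at this
  exact this

/-- The range of a linear map into a finite `ZMod p`-module is finite (monoid instance path). -/
theorem finite_range' {H Q : Type*} [AddCommMonoid H] [Module (ZMod p) H] [AddCommMonoid Q]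
    [Module (ZMod p) Q] [Module.Finite (ZMod p) Q] (loc : H →ₗ[ZMod p] Q) :
    Module.Finite (ZMod p) (LinearMap.range loc) := by
  let _ : AddCommGroup Q := Module.addCommMonoidToAddCommGroup (ZMod p)
  have : IsNoetherian (ZMod p) Q := isNoetherian_of_isNoetherianRing_of_finite (ZMod p) Q
  exact Module.Finite.iff_fg.2 (IsNoetherian.noetherian _)

/-- The dimension count from the cardinality count.  (All instances on the monoid path, so that
the lemma applies SYNTACTICALLY to `LinearMap.pi` of maps between quotient modules.) -/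
theorem finrank_range_add_eq {ι : Type*} [Fintype ι] {H : Type*} {Hq : ι → Type*}
    [AddCommMonoid H] [Module (ZMod p) H] [∀ q, AddCommMonoid (Hq q)]
    [∀ q, Module (ZMod p) (Hq q)] [∀ q, Module.Finite (ZMod p) (Hq q)]
    (loc : H →ₗ[ZMod p] ∀ q, Hq q) (n : ℕ)
    (h : Nat.card (Set.range loc) * p ^ n = Nat.card (∀ q, Hq q)) :
    Module.finrank (ZMod p) (LinearMap.range loc) + n =
      ∑ q, Module.finrank (ZMod p) (Hq q) := by
  have hp : 2 ≤ p := (Fact.out : p.Prime).two_le
  have : Module.Finite (ZMod p) (LinearMap.range loc) := finite_range' loc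
  have h1 : Nat.card (Set.range loc) = p ^ Module.finrank (ZMod p) (LinearMap.range loc) :=
    natCard_eq_pow_finrank' (V := LinearMap.range loc)
  have h2 : Nat.card (∀ q, Hq q) = p ^ ∑ q, Module.finrank (ZMod p) (Hq q) := by
    rw [Nat.card_pi, ← Finset.prod_pow_eq_pow_sum]
    exact Finset.prod_congr rfl fun q _ => natCard_eq_pow_finrank'
  rw [h1, h2, ← pow_add] at h
  exact Nat.pow_right_injective hp h

end Abstract

/-! ### Generic bases -/

section Generic

variable {p : ℕ} [Fact p.Prime] {G : Type} [Group G] {ι : Type} [Fintype ι] {Gq : ι → Type}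
  [∀ q, Group (Gq q)]
variable (r : ∀ q, Gq q →* G) (𝓑 : LevelCoh28.LevelBasis G)
  (𝓑q : ∀ q, LevelCoh28.LevelBasis (Gq q))
variable (hf : ∀ q, LevelCohRes28.IsLevelHom (r q) (𝓑q q).sets 𝓑.sets)

/-- The conclusion, for arbitrary level bases. -/
def TailConcl (M : Rep.{0} (ZMod p) G) (n : ℕ) : Prop :=
  (∀ q, Module.Finite (ZMod p) (LevelCoh28.H2 (𝓑q q) (Rep.res (r q) M))) →
    Module.finrank (ZMod p) (LinearMap.range (loc2 r 𝓑 𝓑q hf M)) + n =
      ∑ q, Module.finrank (ZMod p) (LevelCoh28.H2 (𝓑q q) (Rep.res (r q) M))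

/-- The conclusion only depends on the bases up to equality. -/
theorem TailConcl.congr {𝓑 𝓑' : LevelCoh28.LevelBasis G} (e : 𝓑 = 𝓑')
    {𝓑q 𝓑q' : ∀ q, LevelCoh28.LevelBasis (Gq q)} (eq : 𝓑q = 𝓑q')
    (hf : ∀ q, LevelCohRes28.IsLevelHom (r q) (𝓑q q).sets 𝓑.sets)
    (hf' : ∀ q, LevelCohRes28.IsLevelHom (r q) (𝓑q' q).sets 𝓑'.sets)
    (M : Rep.{0} (ZMod p) G) (n : ℕ) (h : TailConcl r 𝓑 𝓑q hf M n) :
    TailConcl r 𝓑' 𝓑q' hf' M n := by
  subst e
  subst eq
  exact h

/-- **Transport, generic bases.** -/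
theorem tailConcl_of_card (M : Rep.{0} (ZMod p) G)
    (h𝒰 : IsLevelBasis 𝓑.sets) (h𝒰q : ∀ q, IsLevelBasis (𝓑q q).sets)
    (hr : ∀ q, HyperRes25.IsLevelHom (r q) (𝓑q q).sets 𝓑.sets)
    (hM : IsDiscrete 𝓑.sets (intRep M))
    (hMq : ∀ q, IsDiscrete (𝓑q q).sets ((intRep M).comp (r q))) (n : ℕ)
    (hcard : Nat.card (Set.range (fun (h : Hlev2 h𝒰 (intRep M) hM) (q : ι) =>
        PairingRes1.resH2 (hr q) h𝒰 (h𝒰q q) hM (hMq q) LinearMap.id (fun _ _ => rfl) h)) * p ^ n =
      Nat.card (∀ q, Hlev2 (h𝒰q q) ((intRep M).comp (r q)) (hMq q))) :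
    TailConcl r 𝓑 𝓑q hf M n := by
  intro hfin
  refine finrank_range_add_eq (H := LevelCoh28.H2 𝓑 M)
    (Hq := fun q => LevelCoh28.H2 (𝓑q q) (Rep.res (r q) M)) (loc2 r 𝓑 𝓑q hf M) n ?_
  have e1 : Nat.card (Set.range (loc2 r 𝓑 𝓑q hf M)) =
      Nat.card (Set.range (fun (h : Hlev2 h𝒰 (intRep M) hM) (q : ι) =>
        PairingRes1.resH2 (hr q) h𝒰 (h𝒰q q) hM (hMq q) LinearMap.id (fun _ _ => rfl) h)) := by
    refine card_range_congr (Hq := fun q => LevelCoh28.H2 (𝓑q q) (Rep.res (r q) M))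
      (Hq' := fun q => Hlev2 (h𝒰q q) ((intRep M).comp (r q)) (hMq q))
      (fun x q => loc2 r 𝓑 𝓑q hf M x q) _ (h2IntEquiv 𝓑 M hM).toEquiv
      (fun q => (h2IntEquiv (𝓑q q) (Rep.res (r q) M) (hMq q)).toEquiv) (fun x q => ?_)
    exact h2IntEquiv_ppH2 (r q) (B := Rep.res (r q) M) hM (hMq q) LinearMap.id
      (fun _ _ => rfl) (hf q) LinearMap.id (fun _ _ => rfl) (fun _ => rfl) x
  have e2 : Nat.card (∀ q, LevelCoh28.H2 (𝓑q q) (Rep.res (r q) M)) =
      Nat.card (∀ q, Hlev2 (h𝒰q q) ((intRep M).comp (r q)) (hMq q)) :=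
    Nat.card_congr (Equiv.piCongrRight fun q =>
      (h2IntEquiv (𝓑q q) (Rep.res (r q) M) (hMq q)).toEquiv)
  show Nat.card (Set.range (loc2 r 𝓑 𝓑q hf M)) * p ^ n = _
  rw [e1, e2]
  exact hcard

end Generic

/-! ### The arithmetic case -/

section Arith

open Fermat.Agent.PT.BR Fermat.Agent.PT.BR.LevelBridge13 Fermat.Agent.PT.GLUE
open Fermat.Agent.PT.GLUE.Objects21 ExtCitation

local notation "Γ" => (AlgebraicClosure ℚ ≃ₐ[ℚ] AlgebraicClosure ℚ)

variable {p : ℕ} [Fact p.Prime] (S : Finset Nat.Primes)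

/-- **Transport at the bases of `LevelBridge13`**: from the count at `𝒰 = (levelS S).sets`,
`𝒰q q = (levelLoc q).sets`, `r q = localGaloisToGlobal q` to the dimension statement for
`ShaBridge13.locH2 S M` and the local groups `LevelCoh28.H2 (pullBasis (primeLocalToGlobal q))`. -/
theorem tailConcl_arith (M : Rep.{0} (ZMod p) Γ)
    (h𝒰 : IsLevelBasis (levelS S).sets)
    (h𝒰q : ∀ q : ↥S, IsLevelBasis (levelLoc ((q : Nat.Primes) : ℕ)).sets)
    (hr : ∀ q : ↥S, HyperRes25.IsLevelHom (localGaloisToGlobal ((q : Nat.Primes) : ℕ))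
      (levelLoc ((q : Nat.Primes) : ℕ)).sets (levelS S).sets)
    (hM : IsDiscrete (levelS S).sets (intRep M))
    (hMq : ∀ q : ↥S, IsDiscrete (levelLoc ((q : Nat.Primes) : ℕ)).sets
      ((intRep M).comp (localGaloisToGlobal ((q : Nat.Primes) : ℕ)))) (n : ℕ)
    (hcard : Nat.card (Set.range (fun (h : Hlev2 h𝒰 (intRep M) hM) (q : ↥S) =>
        PairingRes1.resH2 (hr q) h𝒰 (h𝒰q q) hM (hMq q) LinearMap.id (fun _ _ => rfl) h)) * p ^ n =
      Nat.card (∀ q : ↥S, Hlev2 (h𝒰q q)
        ((intRep M).comp (localGaloisToGlobal ((q : Nat.Primes) : ℕ))) (hMq q)))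
    (hfin : ∀ q : ↥S, Module.Finite (ZMod p) (LevelCoh28.H2 (pullBasis (primeLocalToGlobal q.1))
      (Rep.res (primeLocalToGlobal q.1) M))) :
    Module.finrank (ZMod p) (LinearMap.range (ShaBridge13.locH2 S M)) + n =
      ∑ q : ↥S, Module.finrank (ZMod p) (LevelCoh28.H2 (pullBasis (primeLocalToGlobal q.1))
        (Rep.res (primeLocalToGlobal q.1) M)) := by
  have key : TailConcl (p := p) (fun q : ↥S => primeLocalToGlobal q.1) (levelS S)
      (fun q : ↥S => (levelLoc ((q : Nat.Primes) : ℕ) :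
        LevelCoh28.LevelBasis (primeLocalGaloisGroup q.1)))
      (fun q => isLevelHom_iff.2 (hr q)) M n :=
    tailConcl_of_card (fun q : ↥S => primeLocalToGlobal q.1) (levelS S)
      (fun q : ↥S => (levelLoc ((q : Nat.Primes) : ℕ) :
        LevelCoh28.LevelBasis (primeLocalGaloisGroup q.1)))
      (fun q => isLevelHom_iff.2 (hr q)) M h𝒰 h𝒰q hr hM hMq n hcard
  have e1 : levelS S = globalBasis S := (BasisCompare13.globalBasis_eq S).symm
  have e2 : (fun q : ↥S => (levelLoc ((q : Nat.Primes) : ℕ) :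
      LevelCoh28.LevelBasis (primeLocalGaloisGroup q.1))) =
      fun q : ↥S => pullBasis (primeLocalToGlobal q.1) :=
    funext fun q => (BasisCompare13.pullBasis_prime_eq q.1).symm
  have key' := TailConcl.congr (fun q : ↥S => primeLocalToGlobal q.1) e1 e2 _
    (fun q : ↥S => ShaBridge13.isLevelHom_pull S (primeLocalToGlobal q.1)) M n key
  exact key' hfin

end Arith

end Fermat.Agent.TW.GWTail25C
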