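/-
Programme TW (S56), brick C2 (tail of the Poitou–Tate sequence), part T6c/T6d, helper25.

`GWTail25D`: the tail count at the S55 objects and the CONDITIONAL form of `GWIface2_97.TailEq`.

* `card_tail_S55` : `GWTail25B.card_tail_of_muData` at `k = ℤ`, `G = Γ`, `𝒰 = levelS S`, `Q = ↥S`,
  `G_q = Γ_q`, `E/I/C = ES/IS/CS S`, `I_q = ISq S q`, `W_q = unitsLoc q`,
  `R = HpAt29.freeRes (intRep (M^∨(1)))`, `N = intRep M` (verbatim the instantiation of
  `StarS55_7.starAt_S55`), from `(S2b)` alone;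
* `tailEq_of_inputs` : `TailEq S M` from the two inputs
    (S2b)  `Λ²_q : ℍ²(Γ; K(P; I_{S,q})) → ℍ²(Γ_q; K(P; ℚ̄_qˣ))` bijective for all `q ∈ S`,
    (TC)   `#range (ℍ²(K(P; I_S)) → ℍ²(K(P; C_S))) = p ^ h⁰(G_ℚ, M^∨(1))`,
  and finiteness of the local `H²(ℚ_q, M)` (part of `LocalEuler`).
-/
import Mathlib
import Fermat.Agent.PT.PRO.MainFinal4
import Fermat.Agent.TW.GWIface2_97
import Fermat.Agent.TW.GWTail25B
import Fermat.Agent.TW.GWTail25C

set_option autoImplicit false
set_option linter.unusedSectionVars false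

namespace Fermat.Agent.TW.GWTail25D

open Function CategoryTheory Module groupCohomology ExtCitation
open Fermat.Agent.PT Fermat.Agent.PT.PRO Fermat.Agent.PT.GLUE Fermat.Agent.PT.GLUE.Objects21
open Fermat.Agent.PT.PRO.HyperLevel25 Fermat.Agent.PT.PRO.Resolved4
open Fermat.Agent.PT.PRO.HyperRes25 Fermat.Agent.PT.PRO.PairingRes1
open Fermat.Agent.PT.PRO.IntRep20 Fermat.Agent.PT.PRO.LevelEquiv29
open Fermat.Agent.PT.PRO.ProdDict10 Fermat.Agent.PT.GLUE.LocS2_29
open Fermat.Agent.PT.PRO.IndRes20 Fermat.Agent.PT.PRO.Setup20 Fermat.Agent.PT.PRO.Objects20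
open Fermat.Agent.PT.PRO.KerIso7 Fermat.Agent.PT.PRO.KerIsoGal7
open Fermat.Agent.TW.GWIface97 Fermat.Agent.TW.GWIface2_97

local notation "Γ" => (AlgebraicClosure ℚ ≃ₐ[ℚ] AlgebraicClosure ℚ)

variable (p : ℕ) [Fact p.Prime] (S : Finset Nat.Primes) (hpS : pPrime p ∈ S)
  (M : Rep.{0} (ZMod p) Γ) [FiniteDimensional (ZMod p) M]

section Count

variable [Finite (M.dualTwist (cycloChar p))]

include hpS in
/-- **The tail count at the S55 objects**, from `(S2b)` alone. -/
theorem card_tail_S55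
    (h0 : IsDiscrete (levelS S).sets
      (HpAt29.freeRes (IntRep20.intRep (M.dualTwist (cycloChar p)))).ρ0)
    (hM : IsDiscrete (levelS S).sets (IntRep20.intRep M))
    (hS2b : ∀ q : ↥S, GWTail25B.S2bAt
      (HpAt29.freeRes (IntRep20.intRep (M.dualTwist (cycloChar p)))) h0 (basis (levelS S))
      (basis (levelLoc ((q : Nat.Primes) : ℕ))) (localGaloisToGlobal ((q : Nat.Primes) : ℕ))
      (isLevelHom_loc S ((q : Nat.Primes) : ℕ)) (isDiscrete_ISq' S q)
      (isDiscrete_unitsLoc ((q : Nat.Primes) : ℕ)) (evq S ((q : Nat.Primes) : ℕ))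
      (evq_ρ S ((q : Nat.Primes) : ℕ))) :
    Nat.card (Set.range (fun (h : Hlev2 (basis (levelS S)) (IntRep20.intRep M) hM) (q : ↥S) =>
        resH2 (isLevelHom_loc S ((q : Nat.Primes) : ℕ)) (basis (levelS S))
          (basis (levelLoc ((q : Nat.Primes) : ℕ))) hM
          (IsLevelHom.isDiscrete (isLevelHom_loc S ((q : Nat.Primes) : ℕ)) hM) LinearMap.id
          (fun _ _ => rfl) h)) *
      Nat.card (Set.range ((KXmap (HpAt29.freeRes (IntRep20.intRep (M.dualTwist (cycloChar p))))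
        h0 (basis (levelS S)) (isDiscrete_IS' S) (isDiscrete_CS S) (toCS S) (toCS_ρ S)).mapℍ2
          (basis (levelS S)))) =
    Nat.card (∀ q : ↥S, Hlev2 (basis (levelLoc ((q : Nat.Primes) : ℕ)))
      ((IntRep20.intRep M).comp (localGaloisToGlobal ((q : Nat.Primes) : ℕ)))
      (IsLevelHom.isDiscrete (isLevelHom_loc S ((q : Nat.Primes) : ℕ)) hM)) :=
  GWTail25B.card_tail_of_muData intSurj_int
    (HpAt29.freeRes (IntRep20.intRep (M.dualTwist (cycloChar p)))) h0 (basis (levelS S))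
    (fun q : ↥S => basis (levelLoc ((q : Nat.Primes) : ℕ)))
    (fun q : ↥S => localGaloisToGlobal ((q : Nat.Primes) : ℕ))
    (fun q : ↥S => isLevelHom_loc S ((q : Nat.Primes) : ℕ))
    M.ρ hM (cycloChar p) (KerIsoMain7.hA_freeRes M (cycloChar p))
    (isDiscrete_ES S) (isDiscrete_IS' S) (isDiscrete_CS S) (isDiscrete_ISq' S)
    (fun q : ↥S => isDiscrete_unitsLoc ((q : Nat.Primes) : ℕ))
    (diag S) (diag_ρ S) (toCS S) (toCS_ρ S)
    (Fermat.Agent.PT.GLUE.Objects21.diag_injective S ⟨pPrime p, hpS⟩) (toCS_surjective S)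
    (StarS55_7.exact_diag_toCS S)
    (ISproj S) (ISproj_ρ S) (ISproj_bijective S)
    (fun q : ↥S => evq S ((q : Nat.Primes) : ℕ)) (fun q : ↥S => evq_ρ S ((q : Nat.Primes) : ℕ))
    (muES p S hpS) (fun q : ↥S => muLoc p ((q : Nat.Primes) : ℕ))
    (StarS55_7.evq_ISproj_diag_muES p S hpS)
    (Fermat.Agent.PT.GLUE.ESDivisible27.exists_zsmul_eq (Fact.out) hpS)
    (fun q : ↥S => exists_zsmul_eq_unitsLoc p ((q : Nat.Primes) : ℕ))
    hS2b

end Count

/-! ### The conditional form of `TailEq` -/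

variable {p}

/-- **`TailEq S M` from `(S2b)` and the count `(TC)` of the image in `ℍ²(K(P; C_S))`.**

Both inputs are quantified over the discreteness proofs `h0` so that the consumer does not have to
reproduce them. -/
theorem tailEq_of_inputs {S : Finset Nat.Primes} (hpS : pPrime p ∈ S) {M : Rep.{0} (ZMod p) Γ}
    (hM : IsGood S M)
    (hfin : ∀ q : ↥S, Module.Finite (ZMod p) (H2l q.1 M))
    (A : Rep.{0} (ZMod p) Γ) (hAM : A = M.dualTwist (cycloChar p)) [Finite A]
    (hS2b : ∀ (h0 : IsDiscrete (levelS S).sets (HpAt29.freeRes (IntRep20.intRep A)).ρ0) (q : ↥S),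
      GWTail25B.S2bAt
      (HpAt29.freeRes (IntRep20.intRep A)) h0 (basis (levelS S))
      (basis (levelLoc ((q : Nat.Primes) : ℕ))) (localGaloisToGlobal ((q : Nat.Primes) : ℕ))
      (isLevelHom_loc S ((q : Nat.Primes) : ℕ)) (isDiscrete_ISq' S q)
      (isDiscrete_unitsLoc ((q : Nat.Primes) : ℕ)) (evq S ((q : Nat.Primes) : ℕ))
      (evq_ρ S ((q : Nat.Primes) : ℕ)))
    (hTC : ∀ (h0 : IsDiscrete (levelS S).sets (HpAt29.freeRes (IntRep20.intRep A)).ρ0),
      Nat.card (Set.range ((KXmap (HpAt29.freeRes (IntRep20.intRep A))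
        h0 (basis (levelS S)) (isDiscrete_IS' S) (isDiscrete_CS S) (toCS S) (toCS_ρ S)).mapℍ2
          (basis (levelS S)))) = p ^ h0g (dual M)) :
    TailEq S M := by
  classical
  subst hAM
  have : FiniteDimensional (ZMod p) M := hM.fin
  have hA : IsDiscrete (levelS S).sets (intRep (M.dualTwist (cycloChar p))) :=
    FinH1S55_9.isDiscrete_intRep_dualTwist S hpS M hM.smooth hM.unram
  have hMd : IsDiscrete (levelS S).sets (intRep M) :=
    FinH1S55_9.isDiscrete_intRep_self S hpS M hM.smooth hM.unram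
  have h0 : IsDiscrete (levelS S).sets
      (HpAt29.freeRes (IntRep20.intRep (M.dualTwist (cycloChar p)))).ρ0 :=
    FreeRes29.isDiscrete_freeRep (basis (levelS S)) hA
  have hcard := card_tail_S55 p S hpS M h0 hMd (hS2b h0)
  rw [hTC h0] at hcard
  exact GWTail25C.tailConcl_arith S M (basis (levelS S))
    (fun q : ↥S => basis (levelLoc ((q : Nat.Primes) : ℕ)))
    (fun q : ↥S => isLevelHom_loc S ((q : Nat.Primes) : ℕ)) hMd
    (fun q : ↥S => IsLevelHom.isDiscrete (isLevelHom_loc S ((q : Nat.Primes) : ℕ)) hMd)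
    (h0g (dual M)) hcard hfin

/-- **`TailEq S M` from `(S2b)`, `(TC)` and `LocalEuler`**, inputs in the `∀ A [Finite A]` shape of
`MainFinal4.s55_of_inputs` (so that the consumer never has to build the `Finite` instance of
`M^∨(1)`). -/
theorem tailEq_of_inputs' {S : Finset Nat.Primes} (hpS : pPrime p ∈ S) {M : Rep.{0} (ZMod p) Γ}
    (hM : IsGood S M) (hloc : ∀ q ∈ S, LocalEuler q M)
    (hS2b : ∀ (A : Rep.{0} (ZMod p) Γ) [Finite A]
      (h0 : IsDiscrete (levelS S).sets (HpAt29.freeRes (IntRep20.intRep A)).ρ0) (q : ↥S),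
      GWTail25B.S2bAt
      (HpAt29.freeRes (IntRep20.intRep A)) h0 (basis (levelS S))
      (basis (levelLoc ((q : Nat.Primes) : ℕ))) (localGaloisToGlobal ((q : Nat.Primes) : ℕ))
      (isLevelHom_loc S ((q : Nat.Primes) : ℕ)) (isDiscrete_ISq' S q)
      (isDiscrete_unitsLoc ((q : Nat.Primes) : ℕ)) (evq S ((q : Nat.Primes) : ℕ))
      (evq_ρ S ((q : Nat.Primes) : ℕ)))
    (hTC : ∀ (A : Rep.{0} (ZMod p) Γ) [Finite A], A = M.dualTwist (cycloChar p) →
      ∀ (h0 : IsDiscrete (levelS S).sets (HpAt29.freeRes (IntRep20.intRep A)).ρ0),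
      Nat.card (Set.range ((KXmap (HpAt29.freeRes (IntRep20.intRep A))
        h0 (basis (levelS S)) (isDiscrete_IS' S) (isDiscrete_CS S) (toCS S) (toCS_ρ S)).mapℍ2
          (basis (levelS S)))) = p ^ h0g (dual M)) :
    TailEq S M := by
  have : FiniteDimensional (ZMod p) M := hM.fin
  have : FiniteDimensional (ZMod p) (M.dualTwist (cycloChar p)) :=
    inferInstanceAs (FiniteDimensional (ZMod p) (Module.Dual (ZMod p) M))
  have : Finite (M.dualTwist (cycloChar p)) := Module.finite_of_finite (ZMod p)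
  exact tailEq_of_inputs hpS hM (fun q => (hloc q.1 q.2).2.1) (M.dualTwist (cycloChar p)) rfl
    (hS2b (M.dualTwist (cycloChar p))) (hTC (M.dualTwist (cycloChar p)) rfl)

end Fermat.Agent.TW.GWTail25D
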