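/-
Programme TW (S56), sub-programme C (Greenberg–Wiles), brick C2 (tail of Poitou–Tate), helper44.

`P20Datum44`: the `(2,0)` pairing `ℍ²(Y⁰ → Y¹) × H⁰(A) → H²(X)` ("Ext²(A, X) × A^G → H²(X)") at the
raw cochain level, for an abstract pairing datum `Pairing20.Datum` (twin of `PT/PRO/Pairing20` for
the `(1,1)` pairing).

For a hyper-2-cocycle `(c₂, c₁)` (`d² c₂ = 0`, `f ∘ c₂ = d¹ c₁`) and a *lifted invariant* `(m̃, z)`
(`m̃ ∈ F₀`, `z : G → F₁`, `ι ∘ z = d⁰ m̃`; then `π m̃` is an invariant of `A`) put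
`pair20Fun (c₂, c₁) (m̃, z) (g, h) = ev₀ (c₂ (g, h)) (g h • m̃) - ev₁ (c₁ g) (g • z h)`.
It is a 2-cocycle of `X`; it changes by the coboundary of an explicit 1-cochain when `(c₂, c₁)`
changes by a hyper-coboundary `D¹ (b₀, y₁) = (d¹ b₀, f ∘ b₀ - d⁰ y₁)` and when the lift `m̃`
changes by `ι w₀`.
-/
import Mathlib
import Fermat.Agent.PT.PRO.HyperLevel25
import Fermat.Agent.PT.PRO.Pairing20
import Fermat.Agent.PT.PRO.ExtPairing4
import Fermat.Agent.PT.PRO.GlobalDuality20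

set_option autoImplicit false

namespace Fermat.Agent.TW.P20Datum44

open Fermat.Agent.PT.PRO.HyperLevel25 Fermat.Agent.PT.PRO.Pairing20
  Fermat.Agent.PT.PRO.ExtPairing4 Fermat.Agent.PT.PRO.GlobalDuality20

variable {k : Type*} [CommRing k] {G : Type*} [Group G]
variable {Y0 Y1 F0 F1 A X : Type*}
  [AddCommGroup Y0] [Module k Y0] [AddCommGroup Y1] [Module k Y1]
  [AddCommGroup F0] [Module k F0] [AddCommGroup F1] [Module k F1]
  [AddCommGroup A] [Module k A] [AddCommGroup X] [Module k X]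

variable (D : Datum k G Y0 Y1 F0 F1 A X)

/-- `(c₂, c₁)` is a hyper-2-cocycle of `f : Y⁰ → Y¹`. -/
def IsHyper2 (c2 : G × G → Y0) (c1 : G → Y1) : Prop :=
  dTwo D.ρY0 c2 = 0 ∧ ∀ q, D.f (c2 q) = dOne D.ρY1 c1 q

/-- `(m̃, z)` is a lifted invariant: `ι ∘ z = d⁰ m̃`. -/
def IsLift0 (mt : F0) (z : G → F1) : Prop := ∀ g, D.ι (z g) = dZero D.ρF0 mt g

/-- The first component of the hyper-coboundary `D¹ (b₀, y₁)`. -/
def bdryC2 (b0 : G → Y0) : G × G → Y0 := dOne D.ρY0 b0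

/-- The second component of the hyper-coboundary `D¹ (b₀, y₁)`. -/
def bdryC1 (b0 : G → Y0) (y1 : Y1) : G → Y1 := fun a => D.f (b0 a) - dZero D.ρY1 y1 a

/-- The `(2,0)` pairing on cochains. -/
def pair20Fun (c2 : G × G → Y0) (c1 : G → Y1) (mt : F0) (z : G → F1) : G × G → X :=
  fun q => D.ev0 (c2 q) (D.ρF0 (q.1 * q.2) mt) - D.ev1 (c1 q.1) (D.ρF1 q.1 (z q.2))

@[simp] lemma pair20Fun_apply (c2 : G × G → Y0) (c1 : G → Y1) (mt : F0) (z : G → F1) (g h : G) :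
    pair20Fun D c2 c1 mt z (g, h) =
      D.ev0 (c2 (g, h)) (D.ρF0 (g * h) mt) - D.ev1 (c1 g) (D.ρF1 g (z h)) := rfl

lemma pair20Fun_eq (c2 : G × G → Y0) (c1 : G → Y1) (mt : F0) (z : G → F1) :
    pair20Fun D c2 c1 mt z = (fun q : G × G => D.ev0 (c2 q) (D.ρF0 (q.1 * q.2) mt)) -
      (fun q : G × G => D.ev1 (c1 q.1) (D.ρF1 q.1 (z q.2))) := rfl

/-- `ev₀ y (g • ι x) = ev₁ (f y) (g • x)`. -/
lemma ev0_ρ_ι (y : Y0) (g : G) (x : F1) :
    D.ev0 y (D.ρF0 g (D.ι x)) = D.ev1 (D.f y) (D.ρF1 g x) := by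
  rw [← D.ι_comm, D.ev_compat]

variable {D}

/-- For a lifted invariant, `z` is a 1-cocycle of `F₁`. -/
lemma IsLift0.dOne_eq_zero {mt : F0} {z : G → F1} (hz : IsLift0 D mt z) (g h : G) :
    dOne D.ρF1 z (g, h) = 0 := by
  apply D.ι_inj
  have h1 := congrFun (comp_dOne D.ρF1 D.ρF0 D.ι D.ι_comm z) (g, h)
  have h2 : (⇑D.ι ∘ z) = dZero D.ρF0 mt := funext hz
  rw [Function.comp_apply] at h1
  rw [h1, h2, dOne_dZero, map_zero]
  rfl

/-- For a lifted invariant, `π m̃` is `G`-invariant. -/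
lemma IsLift0.invariant {mt : F0} {z : G → F1} (hz : IsLift0 D mt z) (g : G) :
    D.ρA g (D.π mt) = D.π mt := by
  have h1 : D.π (dZero D.ρF0 mt g) = 0 := by rw [← hz g]; exact (D.exact _).2 ⟨_, rfl⟩
  rw [dZero_apply, map_sub, D.π_comm, sub_eq_zero] at h1
  exact h1

/-- Every invariant of `A` has a lifted invariant above it. -/
lemma exists_isLift0 {a : A} (ha : ∀ g, D.ρA g a = a) :
    ∃ (mt : F0) (z : G → F1), IsLift0 D mt z ∧ D.π mt = a := by
  obtain ⟨mt, rfl⟩ := D.π_surj a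
  have hker : ∀ g, ∃ x, D.ι x = dZero D.ρF0 mt g := fun g =>
    (D.exact _).1 (by rw [dZero_apply, map_sub, D.π_comm, ha g, sub_self])
  choose z hz using hker
  exact ⟨mt, z, hz, rfl⟩

/-- **The `(2,0)` cochain of a hyper-2-cocycle and a lifted invariant is a 2-cocycle.** -/
theorem dTwo_pair20Fun {c2 : G × G → Y0} {c1 : G → Y1} (hc : IsHyper2 D c2 c1) {mt : F0}
    {z : G → F1} (hz : IsLift0 D mt z) : dTwo D.ρX (pair20Fun D c2 c1 mt z) = 0 := by
  funext ⟨g, h, j⟩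
  have h2 := congrFun hc.1 (g, h, j)
  rw [pair20Fun_eq, map_sub, Pi.sub_apply, leib20 D.ev0 D.ev0_comm, leib11 D.ev1 D.ev1_comm, h2,
    hz.dOne_eq_zero, ← hz, ev0_ρ_ι, hc.2]
  simp

/-- Hyper-coboundaries are hyper-2-cocycles. -/
lemma isHyper2_bdry (b0 : G → Y0) (y1 : Y1) : IsHyper2 D (bdryC2 D b0) (bdryC1 D b0 y1) := by
  refine ⟨dTwo_dOne _ _, fun q => ?_⟩
  have h1 := congrFun (comp_dOne D.ρY0 D.ρY1 D.f D.f_comm b0) q
  rw [Function.comp_apply] at h1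
  have h2 : bdryC1 D b0 y1 = (⇑D.f ∘ b0) - dZero D.ρY1 y1 := rfl
  rw [bdryC2, h1, h2, map_sub, dOne_dZero, sub_zero]

/-- **Change of the lift by `ι w₀`** changes the pairing by `d (a ↦ ev₁ (c₁ a) (a • w₀))`. -/
theorem pair20Fun_change_lift {c2 : G × G → Y0} {c1 : G → Y1} (hc : IsHyper2 D c2 c1) (mt : F0)
    (z : G → F1) (w0 : F1) :
    pair20Fun D c2 c1 (mt + D.ι w0) (fun a => z a + dZero D.ρF1 w0 a) - pair20Fun D c2 c1 mt z =
      dOne D.ρX (fun a => D.ev1 (c1 a) (D.ρF1 a w0)) := by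
  funext ⟨g, h⟩
  rw [leib10 D.ev1 D.ev1_comm, ← hc.2, ← ev0_ρ_ι]
  simp only [pair20Fun, Pi.sub_apply, map_add]
  abel

/-- The lift `(m̃ + ι w₀, z + d⁰ w₀)`. -/
lemma IsLift0.change {mt : F0} {z : G → F1} (hz : IsLift0 D mt z) (w0 : F1) :
    IsLift0 D (mt + D.ι w0) (fun a => z a + dZero D.ρF1 w0 a) := by
  intro g
  rw [map_add, hz g, dZero_apply, dZero_apply, dZero_apply, map_sub, D.ι_comm, map_add]
  abel

/-- **The pairing of a hyper-coboundary** `D¹ (b₀, y₁)` is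
`d (a ↦ ev₀ (b₀ a) (a • m̃) + ev₁ y₁ (z a))`. -/
theorem pair20Fun_bdry_left (b0 : G → Y0) (y1 : Y1) {mt : F0} {z : G → F1}
    (hz : IsLift0 D mt z) :
    pair20Fun D (bdryC2 D b0) (bdryC1 D b0 y1) mt z =
      dOne D.ρX (fun a => D.ev0 (b0 a) (D.ρF0 a mt) + D.ev1 y1 (z a)) := by
  funext ⟨g, h⟩
  have e1 : (fun a => D.ev0 (b0 a) (D.ρF0 a mt) + D.ev1 y1 (z a)) =
      (fun a => D.ev0 (b0 a) (D.ρF0 a mt)) + (fun a => D.ev1 y1 (z a)) := rfl
  rw [e1, map_add, Pi.add_apply, leib10 D.ev0 D.ev0_comm, leib01 D.ev1 D.ev1_comm,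
    hz.dOne_eq_zero, ← hz, ev0_ρ_ι]
  simp only [pair20Fun, bdryC2, bdryC1, map_sub, LinearMap.sub_apply, map_zero]
  abel

/-! ### Additivity -/

lemma pair20Fun_add_left (c2 c2' : G × G → Y0) (c1 c1' : G → Y1) (mt : F0) (z : G → F1) :
    pair20Fun D (c2 + c2') (c1 + c1') mt z =
      pair20Fun D c2 c1 mt z + pair20Fun D c2' c1' mt z := by
  funext q
  simp only [pair20Fun, Pi.add_apply, map_add, LinearMap.add_apply]
  abel

lemma pair20Fun_sub_left (c2 c2' : G × G → Y0) (c1 c1' : G → Y1) (mt : F0) (z : G → F1) :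
    pair20Fun D (c2 - c2') (c1 - c1') mt z =
      pair20Fun D c2 c1 mt z - pair20Fun D c2' c1' mt z := by
  funext q
  simp only [pair20Fun, Pi.sub_apply, map_sub, LinearMap.sub_apply]
  abel

lemma pair20Fun_smul_left (r : k) (c2 : G × G → Y0) (c1 : G → Y1) (mt : F0) (z : G → F1) :
    pair20Fun D (r • c2) (r • c1) mt z = r • pair20Fun D c2 c1 mt z := by
  funext q
  simp only [pair20Fun, Pi.smul_apply, map_smul, LinearMap.smul_apply, smul_sub]

lemma pair20Fun_add_right (c2 : G × G → Y0) (c1 : G → Y1) (mt mt' : F0) (z z' : G → F1) :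
    pair20Fun D c2 c1 (mt + mt') (z + z') =
      pair20Fun D c2 c1 mt z + pair20Fun D c2 c1 mt' z' := by
  funext q
  simp only [pair20Fun, Pi.add_apply, map_add]
  abel

lemma pair20Fun_smul_right (r : k) (c2 : G × G → Y0) (c1 : G → Y1) (mt : F0) (z : G → F1) :
    pair20Fun D c2 c1 (r • mt) (r • z) = r • pair20Fun D c2 c1 mt z := by
  funext q
  simp only [pair20Fun, Pi.smul_apply, map_smul, smul_sub]

lemma IsHyper2.add {c2 c2' : G × G → Y0} {c1 c1' : G → Y1} (h : IsHyper2 D c2 c1)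
    (h' : IsHyper2 D c2' c1') : IsHyper2 D (c2 + c2') (c1 + c1') := by
  refine ⟨by rw [map_add, h.1, h'.1, add_zero], fun q => ?_⟩
  rw [Pi.add_apply, map_add, map_add, Pi.add_apply, h.2, h'.2]

lemma IsHyper2.sub {c2 c2' : G × G → Y0} {c1 c1' : G → Y1} (h : IsHyper2 D c2 c1)
    (h' : IsHyper2 D c2' c1') : IsHyper2 D (c2 - c2') (c1 - c1') := by
  refine ⟨by rw [map_sub, h.1, h'.1, sub_zero], fun q => ?_⟩
  rw [Pi.sub_apply, map_sub, map_sub, Pi.sub_apply, h.2, h'.2]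

lemma IsHyper2.smul (r : k) {c2 : G × G → Y0} {c1 : G → Y1} (h : IsHyper2 D c2 c1) :
    IsHyper2 D (r • c2) (r • c1) := by
  refine ⟨by rw [map_smul, h.1, smul_zero], fun q => ?_⟩
  rw [Pi.smul_apply, map_smul, map_smul, Pi.smul_apply, h.2]

lemma IsLift0.add {mt mt' : F0} {z z' : G → F1} (h : IsLift0 D mt z) (h' : IsLift0 D mt' z') :
    IsLift0 D (mt + mt') (z + z') := by
  intro g
  rw [Pi.add_apply, map_add, map_add, Pi.add_apply, h g, h' g]

lemma IsLift0.smul (r : k) {mt : F0} {z : G → F1} (h : IsLift0 D mt z) :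
    IsLift0 D (r • mt) (r • z) := by
  intro g
  rw [Pi.smul_apply, map_smul, map_smul, Pi.smul_apply, h g]

/-- Two lifts of the same invariant differ by `ι w₀`. -/
lemma IsLift0.exists_eq_change {mt mt' : F0} {z z' : G → F1} (h : IsLift0 D mt z)
    (h' : IsLift0 D mt' z') (hπ : D.π mt' = D.π mt) :
    ∃ w0 : F1, mt' = mt + D.ι w0 ∧ z' = fun a => z a + dZero D.ρF1 w0 a := by
  obtain ⟨w0, hw0⟩ := (D.exact (mt' - mt)).1 (by rw [map_sub, hπ, sub_self])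
  refine ⟨w0, by rw [hw0]; abel, funext fun a => D.ι_inj ?_⟩
  rw [h' a, map_add, h a, dZero_apply, dZero_apply, dZero_apply, map_sub, D.ι_comm, hw0,
    map_sub]
  abel

/-! ### Levels -/

/-- `(c₂, c₁)` is a hyper-2-cocycle of level `V`. -/
def IsHyper2At (D : Datum k G Y0 Y1 F0 F1 A X) (V : Subgroup G) (c2 : G × G → Y0)
    (c1 : G → Y1) : Prop :=
  IsHyper2 D c2 c1 ∧ IsLevelAt₂ D.ρY0 V c2 ∧ IsLevelAt₁ D.ρY1 V c1

/-- `(m̃, z)` is a lifted invariant of level `V`. -/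
def IsLift0At (D : Datum k G Y0 Y1 F0 F1 A X) (V : Subgroup G) (mt : F0) (z : G → F1) : Prop :=
  IsLift0 D mt z ∧ FixedBy D.ρF0 V mt ∧ IsLevelAt₁ D.ρF1 V z

/-- For a lifted invariant `(m̃, z)` with `m̃` fixed by the normal subgroup `V`, `z` is of level
`V`. -/
lemma isLevelAt₁_of_isLift0 {V : Subgroup G} (hV : V.Normal) {mt : F0} {z : G → F1}
    (hz : IsLift0 D mt z) (hm : FixedBy D.ρF0 V mt) : IsLevelAt₁ D.ρF1 V z := by
  have hconj : ∀ (t g : G), t ∈ V → g⁻¹ * t * g ∈ V := fun t g ht => by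
    have := hV.conj_mem t ht g⁻¹
    simpa using this
  refine ⟨fun g s hs => D.ι_inj ?_, fun g s hs => D.ι_inj ?_⟩
  · rw [hz, hz, dZero_apply, dZero_apply, map_mul, Module.End.mul_apply, hm s hs]
  · rw [D.ι_comm, hz, dZero_apply, map_sub, hm s hs, ← Module.End.mul_apply, ← map_mul]
    have e1 : s * g = g * (g⁻¹ * s * g) := by group
    rw [e1, map_mul, Module.End.mul_apply, hm _ (hconj s g hs)]

/-- The pairing of level-`V` data is a level-`V` 2-cochain (`V` normal). -/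
lemma isLevelAt₂_pair20Fun {V : Subgroup G} (hV : V.Normal) {c2 : G × G → Y0} {c1 : G → Y1}
    (hc : IsHyper2At D V c2 c1) {mt : F0} {z : G → F1} (hz : IsLift0At D V mt z) :
    IsLevelAt₂ D.ρX V (pair20Fun D c2 c1 mt z) := by
  obtain ⟨-, hc2, hc1⟩ := hc
  obtain ⟨-, hm, hzV⟩ := hz
  have hconj : ∀ (t g : G), t ∈ V → g⁻¹ * t * g ∈ V := fun t g ht => by
    have := hV.conj_mem t ht g⁻¹
    simpa using this
  refine ⟨fun g g' s s' hs hs' => ?_, fun q t ht => ?_⟩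
  · simp only [pair20Fun_apply]
    have e : g * s * (g' * s') = g * g' * ((g'⁻¹ * s * g') * s') := by group
    rw [hc2.1 g g' s s' hs hs', hc1.1 g s hs, hzV.1 g' s' hs', e, map_mul (D.ρF0),
      Module.End.mul_apply, hm _ (V.mul_mem (hconj s g' hs) hs'), map_mul (D.ρF1),
      Module.End.mul_apply, hzV.2 g' s hs]
  · obtain ⟨g, h⟩ := q
    simp only [pair20Fun_apply, map_sub]
    rw [← D.ev0_comm, ← D.ev1_comm, hc2.2 (g, h) t ht, hc1.2 g t ht]
    congr 2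
    · have h1 : t * (g * h) = g * h * ((g * h)⁻¹ * t * (g * h)) := by group
      rw [← Module.End.mul_apply, ← map_mul, h1, map_mul, Module.End.mul_apply,
        hm _ (hconj t (g * h) ht)]
    · have h1 : t * g = g * (g⁻¹ * t * g) := by group
      rw [← Module.End.mul_apply, ← map_mul, h1, map_mul, Module.End.mul_apply,
        hzV.2 h _ (hconj t g ht)]

end Fermat.Agent.TW.P20Datum44
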