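/-
Programme TW (S56), brick C2 (tail of Poitou–Tate), helper44.

`P20Colim44`: transport of the FINITE-LEVEL `(2,0)` statements about the pairing datum over the
finite group `G ⧸ V` (cochains on `G ⧸ V` with values in `V`-invariants) to level-`V` raw cochains
on `G` (twin of `PT/PRO/HyperColim18` for the `(1,1)` pairing).

* `FinTNl20 D̄`, `FinTNr20 D̄` (finite-group forms, no levels), `TNl20At D V`, `TNr20At D V`;
* the dictionary for `HyperColim18.descend`, and `tnl20At_of_descend`, `tnr20At_of_descend`.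
-/
import Mathlib
import Fermat.Agent.PT.PRO.HyperColim18
import Fermat.Agent.TW.P20Datum44

set_option autoImplicit false

namespace Fermat.Agent.TW.P20Colim44

open Fermat.Agent.PT.PRO.HyperLevel25 Fermat.Agent.PT.PRO.Pairing20
  Fermat.Agent.PT.PRO.GlobalDuality20 Fermat.Agent.PT.PRO.HyperColim18
  Fermat.Agent.TW.P20Datum44

variable {k : Type*} [CommRing k] {G : Type*} [Group G]

variable {Y0 Y1 F0 F1 A X : Type*}
  [AddCommGroup Y0] [Module k Y0] [AddCommGroup Y1] [Module k Y1]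
  [AddCommGroup F0] [Module k F0] [AddCommGroup F1] [Module k F1]
  [AddCommGroup A] [Module k A] [AddCommGroup X] [Module k X]

/-! ### The statements -/

/-- `(2,0)` hyper Tate–Nakayama over a (finite) group `Q`, left kernel. -/
def FinTNl20 {Q : Type*} [Group Q] (D : Datum k Q Y0 Y1 F0 F1 A X) : Prop :=
  ∀ (c2 : Q × Q → Y0) (c1 : Q → Y1), IsHyper2 D c2 c1 →
    (∀ mt z, IsLift0 D mt z → ∃ u, pair20Fun D c2 c1 mt z = dOne D.ρX u) →
    ∃ (b0 : Q → Y0) (y1 : Y1), c2 = bdryC2 D b0 ∧ c1 = bdryC1 D b0 y1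

/-- `(2,0)` hyper Tate–Nakayama over a (finite) group `Q`, right kernel = norms. -/
def FinTNr20 {Q : Type*} [Group Q] (D : Datum k Q Y0 Y1 F0 F1 A X) : Prop :=
  ∀ (mt : F0) (z : Q → F1), IsLift0 D mt z →
    (∀ c2 c1, IsHyper2 D c2 c1 → ∃ u, pair20Fun D c2 c1 mt z = dOne D.ρX u) →
    ∃ a : A, D.π mt = ∑ᶠ q : Q, D.ρA q a

/-- Left kernel at level `V`. -/
def TNl20At (D : Datum k G Y0 Y1 F0 F1 A X) (V : Subgroup G) : Prop :=
  ∀ (c2 : G × G → Y0) (c1 : G → Y1), IsHyper2At D V c2 c1 →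
    (∀ mt z, IsLift0At D V mt z →
      ∃ u, IsLevelAt₁ D.ρX V u ∧ pair20Fun D c2 c1 mt z = dOne D.ρX u) →
    ∃ (b0 : G → Y0) (y1 : Y1), IsLevelAt₁ D.ρY0 V b0 ∧ FixedBy D.ρY1 V y1 ∧
      c2 = bdryC2 D b0 ∧ c1 = bdryC1 D b0 y1

/-- Right kernel at level `V`. -/
def TNr20At (D : Datum k G Y0 Y1 F0 F1 A X) (V : Subgroup G) : Prop :=
  ∀ (mt : F0) (z : G → F1), IsLift0At D V mt z →
    (∀ c2 c1, IsHyper2At D V c2 c1 →
      ∃ u, IsLevelAt₁ D.ρX V u ∧ pair20Fun D c2 c1 mt z = dOne D.ρX u) →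
    ∃ a : A, FixedBy D.ρA V a ∧ D.π mt = nrm D.ρA V a

/-! ### Inflation of 3-cochains and `d²` -/

section Fixed

variable {Y : Type*} [AddCommGroup Y] [Module k Y]

lemma infl₂_dTwo_apply (V : Subgroup G) [V.Normal] (ρ : Representation k G Y)
    (c : (G ⧸ V) × (G ⧸ V) → fixedSub V ρ) (g h j : G) :
    ((dTwo (fixedRep V ρ) c ((g : G ⧸ V), (h : G ⧸ V), (j : G ⧸ V)) : fixedSub V ρ) : Y) =
      dTwo ρ (infl₂ c) (g, h, j) := by
  simp only [dTwo_apply, Submodule.coe_add, Submodule.coe_sub, fixedRep_mk, infl₂_apply,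
    QuotientGroup.mk_mul]

lemma dTwo_fixedRep_eq_zero_iff (V : Subgroup G) [V.Normal] (ρ : Representation k G Y)
    (c : (G ⧸ V) × (G ⧸ V) → fixedSub V ρ) :
    dTwo (fixedRep V ρ) c = 0 ↔ dTwo ρ (infl₂ c) = 0 := by
  constructor
  · intro h
    funext ⟨g, h', j⟩
    rw [← infl₂_dTwo_apply, h]
    rfl
  · intro h
    funext ⟨q, q', q''⟩
    induction q using QuotientGroup.induction_on with
    | H g =>
      induction q' using QuotientGroup.induction_on with
      | H g' =>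
        induction q'' using QuotientGroup.induction_on with
        | H g'' =>
          apply Subtype.ext
          rw [infl₂_dTwo_apply, h]
          rfl

end Fixed

/-! ### The dictionary for the descended datum -/

section Dictionary

variable (D : Datum k G Y0 Y1 F0 F1 A X) (V : Subgroup G) [V.Normal]
  (hπ : ∀ a, FixedBy D.ρA V a → ∃ x, FixedBy D.ρF0 V x ∧ D.π x = a)

/-- The `(2,0)` pairing of the descended datum inflates to the pairing of inflated cochains. -/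
lemma infl₂_pair20Fun (c2 : (G ⧸ V) × (G ⧸ V) → fixedSub V D.ρY0)
    (c1 : G ⧸ V → fixedSub V D.ρY1) (mt : fixedSub V D.ρF0) (z : G ⧸ V → fixedSub V D.ρF1) :
    infl₂ (pair20Fun (descend D V hπ) c2 c1 mt z) =
      pair20Fun D (infl₂ c2) (infl₁ c1) (mt : F0) (infl₁ z) := by
  funext ⟨g, h⟩
  rfl

lemma infl₂_bdryC2 (b0 : G ⧸ V → fixedSub V D.ρY0) :
    infl₂ (bdryC2 (descend D V hπ) b0) = bdryC2 D (infl₁ b0) :=
  infl₂_dOne V D.ρY0 b0

lemma infl₁_bdryC1 (b0 : G ⧸ V → fixedSub V D.ρY0) (y1 : fixedSub V D.ρY1) :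
    infl₁ (bdryC1 (descend D V hπ) b0 y1) = bdryC1 D (infl₁ b0) (y1 : Y1) := by
  funext g
  rfl

/-- Hyper-2-cocycles of the descended datum are the level-`V` hyper-2-cocycles. -/
lemma isHyper2_descend_iff (c2 : (G ⧸ V) × (G ⧸ V) → fixedSub V D.ρY0)
    (c1 : G ⧸ V → fixedSub V D.ρY1) :
    IsHyper2 (descend D V hπ) c2 c1 ↔ IsHyper2 D (infl₂ c2) (infl₁ c1) := by
  constructor
  · rintro ⟨h1, h2⟩
    refine ⟨(dTwo_fixedRep_eq_zero_iff V D.ρY0 c2).1 h1, fun q => ?_⟩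
    obtain ⟨g, h⟩ := q
    have h3 := congrArg Subtype.val (h2 ((g : G ⧸ V), (h : G ⧸ V)))
    have h4 := congrFun (infl₂_dOne V D.ρY1 c1) (g, h)
    rw [← h4]
    exact h3
  · rintro ⟨h1, h2⟩
    refine ⟨(dTwo_fixedRep_eq_zero_iff V D.ρY0 c2).2 h1, fun q => ?_⟩
    obtain ⟨q, q'⟩ := q
    induction q using QuotientGroup.induction_on with
    | H g =>
      induction q' using QuotientGroup.induction_on with
      | H g' =>
        have h3 := h2 (g, g')
        have h4 := congrFun (infl₂_dOne V D.ρY1 c1) (g, g')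
        rw [← h4] at h3
        exact Subtype.ext h3

/-- Lifted invariants of the descended datum are the level-`V` lifted invariants. -/
lemma isLift0_descend_iff (mt : fixedSub V D.ρF0) (z : G ⧸ V → fixedSub V D.ρF1) :
    IsLift0 (descend D V hπ) mt z ↔ IsLift0 D (mt : F0) (infl₁ z) := by
  constructor
  · intro h g
    have h1 := congrArg Subtype.val (h (g : G ⧸ V))
    have h2 := congrFun (infl₁_dZero V D.ρF0 mt) g
    rw [← h2]
    exact h1
  · intro h q
    induction q using QuotientGroup.induction_on with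
    | H g =>
      have h1 := h g
      have h2 := congrFun (infl₁_dZero V D.ρF0 mt) g
      rw [← h2] at h1
      exact Subtype.ext h1

end Dictionary

/-! ### Transport -/

section Transport

variable (D : Datum k G Y0 Y1 F0 F1 A X) (V : Subgroup G) [V.Normal]
  (hπ : ∀ a, FixedBy D.ρA V a → ∃ x, FixedBy D.ρF0 V x ∧ D.π x = a)

/-- **Transport of the left-kernel statement** from `G ⧸ V` to level `V`. -/
theorem tnl20At_of_descend (h : FinTNl20 (descend D V hπ)) : TNl20At D V := by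
  intro c2 c1 hc hpair
  obtain ⟨hcoc, hc2, hc1⟩ := hc
  have hcoc' : IsHyper2 (descend D V hπ) (desc₂ c2 hc2) (desc₁ c1 hc1) := by
    rw [isHyper2_descend_iff, infl₂_desc₂, infl₁_desc₁]
    exact hcoc
  obtain ⟨b0, y1, h2, h1⟩ := h (desc₂ c2 hc2) (desc₁ c1 hc1) hcoc' (fun mt z hz => by
    rw [isLift0_descend_iff] at hz
    obtain ⟨u, hu, hpu⟩ := hpair (mt : F0) (infl₁ z) ⟨hz, mt.2, isLevelAt₁_infl₁ z⟩
    refine ⟨desc₁ u hu, infl₂_injective ?_⟩
    have h3 : infl₂ (dOne (fixedRep V D.ρX) (desc₁ u hu)) = dOne D.ρX u := by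
      rw [infl₂_dOne, infl₁_desc₁]
    have h4 : infl₂ (dOne (descend D V hπ).ρX (desc₁ u hu)) = dOne D.ρX u := h3
    rw [h4, infl₂_pair20Fun, infl₂_desc₂, infl₁_desc₁]
    exact hpu)
  refine ⟨infl₁ b0, (y1 : Y1), isLevelAt₁_infl₁ b0, y1.2, ?_, ?_⟩
  · rw [← infl₂_bdryC2 D V hπ, ← h2, infl₂_desc₂]
  · rw [← infl₁_bdryC1 D V hπ, ← h1, infl₁_desc₁]

/-- **Transport of the right-kernel statement** from `G ⧸ V` to level `V`. -/
theorem tnr20At_of_descend (h : FinTNr20 (descend D V hπ)) : TNr20At D V := by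
  intro mt z hz hpair
  obtain ⟨hlift, hm, hzV⟩ := hz
  have hlift' : IsLift0 (descend D V hπ) (toFixed mt hm) (desc₁ z hzV) := by
    rw [isLift0_descend_iff, infl₁_desc₁]
    exact hlift
  obtain ⟨a, ha⟩ := h (toFixed mt hm) (desc₁ z hzV) hlift' (fun c2 c1 hc => by
    rw [isHyper2_descend_iff] at hc
    obtain ⟨u, hu, hpu⟩ := hpair (infl₂ c2) (infl₁ c1)
      ⟨hc, isLevelAt₂_infl₂ c2, isLevelAt₁_infl₁ c1⟩
    refine ⟨desc₁ u hu, infl₂_injective ?_⟩
    have h3 : infl₂ (dOne (fixedRep V D.ρX) (desc₁ u hu)) = dOne D.ρX u := by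
      rw [infl₂_dOne, infl₁_desc₁]
    have h4 : infl₂ (dOne (descend D V hπ).ρX (desc₁ u hu)) = dOne D.ρX u := h3
    rw [h4, infl₂_pair20Fun, infl₁_desc₁]
    exact hpu)
  refine ⟨(a : A), a.2, ?_⟩
  have h3 : fixedMap V D.ρF0 D.ρA D.π D.π_comm (toFixed mt hm) =
      ∑ᶠ q : G ⧸ V, fixedRep V D.ρA q a := ha
  have h4 := congrArg Subtype.val h3
  rw [coe_finsum_fixedRep] at h4
  exact h4

end Transport

end Fermat.Agent.TW.P20Colim44
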