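/-
Programme TW (S56), brick C2 (tail of Poitou–Tate), helper44.

`P20Limit44`: the LIMIT ARGUMENT for the duality `Ext²_G(A, X) × H⁰(G, A) → H²(G, X)`, at the
cochain level (twin of `PT/PRO/GlobalDuality20b` for the `(1,1)` pairing), for an abstract
pairing datum `D` and a basis `𝒰` of open subgroups.

* `HypL20` : finite-level left-kernel statement `TNl20At` on a cofinal family `ℱ` of normal
  members of `𝒰`, `p`-primary injectivity of inflation in degree 2 (`INJ2pAt`) and "`p` kills the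
  level-`V` hyper-2-cocycle classes at level `V`" (`Hp20At`).  Output `left_kernel20`: a level
  hyper-2-cocycle pairing to a level coboundary with every lifted invariant is a level
  hyper-coboundary.  (NO reciprocity/universal-norm input is needed, unlike the `(1,1)` case.)
* `HypR20` : the same with `TNr20At`, plus (NZ) "norms from deep levels vanish on `A`" (which holds
  when `p A = 0` and `p^∞` divides the order of `G`).  Output `right_kernel20`: a lifted invariant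
  pairing to a level coboundary with every level hyper-2-cocycle lifts `0`.
-/
import Mathlib
import Fermat.Agent.PT.PRO.HyperColimP18
import Fermat.Agent.TW.P20Colim44

set_option autoImplicit false

namespace Fermat.Agent.TW.P20Limit44

open Fermat.Agent.PT.PRO.HyperLevel25 Fermat.Agent.PT.PRO.Pairing20
  Fermat.Agent.PT.PRO.GlobalDuality20 Fermat.Agent.PT.PRO.HyperColim18
  Fermat.Agent.PT.PRO.HyperColimP18
  Fermat.Agent.TW.P20Datum44 Fermat.Agent.TW.P20Colim44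

variable {k : Type*} [CommRing k] {G : Type*} [Group G]

/-! ### Level-2 cochains with values in a discrete module -/

section Level

variable {𝒰 : Set (Subgroup G)}

/-- A level function on `G × G` takes finitely many values: twin of
`IsLevelBasis.exists_normal_of_isLevel₁`. -/
lemma exists_normal_of_isLevel₂ (h𝒰 : IsLevelBasis 𝒰) {X : Type*} {f : G × G → X}
    (hf : IsLevel₂ 𝒰 f) (P : X → Subgroup G → Prop)
    (hP : ∀ x, ∃ U ∈ 𝒰, P x U) (hmono : ∀ x U V, V ≤ U → P x U → P x V) :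
    ∃ W ∈ 𝒰, W.Normal ∧ (∀ g g' s s', s ∈ W → s' ∈ W → f (g * s, g' * s') = f (g, g')) ∧
      ∀ q, P (f q) W := by
  obtain ⟨U, hU, hfU⟩ := hf
  have := h𝒰.finiteIndex U hU
  have : Finite (G ⧸ U) := Subgroup.finite_quotient_of_finiteIndex
  choose V hV𝒰 hVP using hP
  obtain ⟨W₀, hW₀, hW₀le⟩ := h𝒰.exists_le_of_finite
    (fun q : (G ⧸ U) × (G ⧸ U) => V (f (q.1.out, q.2.out))) (fun q => hV𝒰 _)
  obtain ⟨W₁, hW₁, hW₁le⟩ := h𝒰.inf W₀ hW₀ U hU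
  obtain ⟨W, hW, hWle, hWn⟩ := h𝒰.normal W₁ hW₁
  have hmem : ∀ g : G, ((QuotientGroup.mk (s := U) g).out)⁻¹ * g ∈ U := by
    intro g
    rw [← QuotientGroup.eq]
    exact QuotientGroup.out_eq' _
  have hrep : ∀ g g' : G, f (g, g') =
      f ((QuotientGroup.mk (s := U) g).out, (QuotientGroup.mk (s := U) g').out) := by
    intro g g'
    have := hfU (QuotientGroup.mk (s := U) g).out (QuotientGroup.mk (s := U) g').out _ _
      (hmem g) (hmem g')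
    rw [mul_inv_cancel_left, mul_inv_cancel_left] at this
    exact this
  refine ⟨W, hW, hWn, fun g g' s s' hs hs' =>
    hfU g g' s s' ((hWle.trans hW₁le) hs).2 ((hWle.trans hW₁le) hs').2, fun q => ?_⟩
  obtain ⟨g, g'⟩ := q
  rw [hrep g g']
  exact hmono _ _ _ ((hWle.trans hW₁le).trans (inf_le_left.trans
    (hW₀le ((QuotientGroup.mk (s := U) g), (QuotientGroup.mk (s := U) g'))))) (hVP _)

variable {Y : Type*} [AddCommGroup Y] [Module k Y]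

lemma exists_normal_fixing₂ (h𝒰 : IsLevelBasis 𝒰) {ρ : Representation k G Y}
    (hρ : IsDiscrete 𝒰 ρ) {c : G × G → Y} (hc : IsLevel₂ 𝒰 c) :
    ∃ W ∈ 𝒰, W.Normal ∧ (∀ g g' s s', s ∈ W → s' ∈ W → c (g * s, g' * s') = c (g, g')) ∧
      ∀ q s, s ∈ W → ρ s (c q) = c q := by
  obtain ⟨W, hW, hWn, h1, h2⟩ := exists_normal_of_isLevel₂ h𝒰 hc
    (fun y U => ∀ s ∈ U, ρ s y = y) hρ (fun y U V hVU h s hs => h s (hVU hs))
  exact ⟨W, hW, hWn, h1, fun q s hs => h2 q s hs⟩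

/-- A level 1-cochain with values in a discrete module is of level `V` for some `V ∈ ℱ` below any
given member of `𝒰`. -/
lemma exists_levelAt₁ (h𝒰 : IsLevelBasis 𝒰) {ℱ : Set (Subgroup G)}
    (hcof : ∀ U ∈ 𝒰, ∃ V ∈ ℱ, V ≤ U) {ρ : Representation k G Y} (hρ : IsDiscrete 𝒰 ρ)
    {c : G → Y} (hc : IsLevel₁ 𝒰 c) (U : Subgroup G) (hU : U ∈ 𝒰) :
    ∃ V ∈ ℱ, V ≤ U ∧ IsLevelAt₁ ρ V c := by
  obtain ⟨W, hW, -, h1, h2⟩ := h𝒰.exists_normal_fixing hρ hc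
  obtain ⟨W', hW', hle⟩ := h𝒰.inf W hW U hU
  obtain ⟨V, hV, hVle⟩ := hcof W' hW'
  exact ⟨V, hV, hVle.trans (hle.trans inf_le_right),
    ⟨fun g s hs => h1 g s ((hVle.trans (hle.trans inf_le_left)) hs),
     fun g s hs => h2 g s ((hVle.trans (hle.trans inf_le_left)) hs)⟩⟩

/-- The same for 2-cochains. -/
lemma exists_levelAt₂ (h𝒰 : IsLevelBasis 𝒰) {ℱ : Set (Subgroup G)}
    (hcof : ∀ U ∈ 𝒰, ∃ V ∈ ℱ, V ≤ U) {ρ : Representation k G Y} (hρ : IsDiscrete 𝒰 ρ)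
    {c : G × G → Y} (hc : IsLevel₂ 𝒰 c) (U : Subgroup G) (hU : U ∈ 𝒰) :
    ∃ V ∈ ℱ, V ≤ U ∧ IsLevelAt₂ ρ V c := by
  obtain ⟨W, hW, -, h1, h2⟩ := exists_normal_fixing₂ h𝒰 hρ hc
  obtain ⟨W', hW', hle⟩ := h𝒰.inf W hW U hU
  obtain ⟨V, hV, hVle⟩ := hcof W' hW'
  exact ⟨V, hV, hVle.trans (hle.trans inf_le_right),
    ⟨fun g g' s s' hs hs' => h1 g g' s s' ((hVle.trans (hle.trans inf_le_left)) hs)
      ((hVle.trans (hle.trans inf_le_left)) hs'),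
     fun q s hs => h2 q s ((hVle.trans (hle.trans inf_le_left)) hs)⟩⟩

end Level

variable {Y0 Y1 F0 F1 A X : Type*}
  [AddCommGroup Y0] [Module k Y0] [AddCommGroup Y1] [Module k Y1]
  [AddCommGroup F0] [Module k F0] [AddCommGroup F1] [Module k F1]
  [AddCommGroup A] [Module k A] [AddCommGroup X] [Module k X]

variable (D : Datum k G Y0 Y1 F0 F1 A X)

/-- `p` kills the level-`V` hyper-2-cocycle classes, at level `V`. -/
def Hp20At (V : Subgroup G) (p : ℕ) : Prop :=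
  ∀ (c2 : G × G → Y0) (c1 : G → Y1), IsHyper2At D V c2 c1 →
    ∃ (b0 : G → Y0) (y1 : Y1), IsLevelAt₁ D.ρY0 V b0 ∧ FixedBy D.ρY1 V y1 ∧
      (p : k) • c2 = bdryC2 D b0 ∧ (p : k) • c1 = bdryC1 D b0 y1

/-- The finite-level hypotheses of the limit argument for the LEFT kernel. -/
structure HypL20 (𝒰 : Set (Subgroup G)) (ℱ : Set (Subgroup G)) (p : ℕ) : Prop where
  sub : ℱ ⊆ 𝒰
  normal : ∀ V ∈ ℱ, V.Normal
  cofinal : ∀ U ∈ 𝒰, ∃ V ∈ ℱ, V ≤ U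
  TNl : ∀ V ∈ ℱ, TNl20At D V
  INJ2p : ∀ V ∈ ℱ, INJ2pAt D.ρX 𝒰 V p
  HpAt : ∀ V ∈ ℱ, Hp20At D V p

/-- The finite-level hypotheses of the limit argument for the RIGHT kernel. -/
structure HypR20 (𝒰 : Set (Subgroup G)) (ℱ : Set (Subgroup G)) (p : ℕ) : Prop where
  sub : ℱ ⊆ 𝒰
  normal : ∀ V ∈ ℱ, V.Normal
  cofinal : ∀ U ∈ 𝒰, ∃ V ∈ ℱ, V ≤ U
  TNr : ∀ V ∈ ℱ, TNr20At D V
  INJ2p : ∀ V ∈ ℱ, INJ2pAt D.ρX 𝒰 V p
  HpAt : ∀ V ∈ ℱ, Hp20At D V p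
  /-- norms from deep levels vanish on `A` -/
  NZ : ∀ U ∈ ℱ, ∃ V ∈ ℱ, V ≤ U ∧ ∀ a, FixedBy D.ρA V a → nrm D.ρA V a = 0

variable {D} {𝒰 ℱ : Set (Subgroup G)} {p : ℕ}

/-- `p` times the `(2,0)` pairing of level-`V` data is a level-`V` coboundary. -/
lemma smul_pair20Fun {V : Subgroup G} (hVn : V.Normal) (hHp : Hp20At D V p) {c2 : G × G → Y0}
    {c1 : G → Y1} (hc : IsHyper2At D V c2 c1) {mt : F0} {z : G → F1} (hz : IsLift0At D V mt z) :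
    ∃ u, IsLevelAt₁ D.ρX V u ∧ (p : k) • pair20Fun D c2 c1 mt z = dOne D.ρX u := by
  obtain ⟨b0, y1, hb0, hy1, h2, h1⟩ := hHp c2 c1 hc
  obtain ⟨hlift, hm, hzV⟩ := hz
  have hconj : ∀ (t g : G), t ∈ V → g⁻¹ * t * g ∈ V := fun t g ht => by
    have := hVn.conj_mem t ht g⁻¹
    simpa using this
  refine ⟨fun a => D.ev0 (b0 a) (D.ρF0 a mt) + D.ev1 y1 (z a), ⟨fun g s hs => ?_, fun g s hs => ?_⟩,
    ?_⟩
  · show D.ev0 (b0 (g * s)) (D.ρF0 (g * s) mt) + D.ev1 y1 (z (g * s)) =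
      D.ev0 (b0 g) (D.ρF0 g mt) + D.ev1 y1 (z g)
    rw [hb0.1 g s hs, hzV.1 g s hs, map_mul, Module.End.mul_apply, hm s hs]
  · show D.ρX s (D.ev0 (b0 g) (D.ρF0 g mt) + D.ev1 y1 (z g)) =
      D.ev0 (b0 g) (D.ρF0 g mt) + D.ev1 y1 (z g)
    rw [map_add, ← D.ev0_comm, ← D.ev1_comm, hb0.2 g s hs, hy1 s hs, hzV.2 g s hs]
    congr 2
    have e1 : s * g = g * (g⁻¹ * s * g) := by group
    rw [← Module.End.mul_apply, ← map_mul, e1, map_mul, Module.End.mul_apply,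
      hm _ (hconj s g hs)]
  · rw [← pair20Fun_smul_left, h2, h1, pair20Fun_bdry_left b0 y1 hlift]

/-- **Left kernel.**  A level hyper-2-cocycle which pairs to a level coboundary with every lifted
invariant is a level hyper-coboundary. -/
theorem left_kernel20 (h𝒰 : IsLevelBasis 𝒰) (H : HypL20 D 𝒰 ℱ p) (hY0 : IsDiscrete 𝒰 D.ρY0)
    (hY1 : IsDiscrete 𝒰 D.ρY1) {c2 : G × G → Y0} {c1 : G → Y1} (hc : IsHyper2 D c2 c1)
    (hc2 : IsLevel₂ 𝒰 c2) (hc1 : IsLevel₁ 𝒰 c1)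
    (hpair : ∀ mt z, IsLift0 D mt z →
      ∃ u, IsLevel₁ 𝒰 u ∧ pair20Fun D c2 c1 mt z = dOne D.ρX u) :
    ∃ (b0 : G → Y0) (y1 : Y1), IsLevel₁ 𝒰 b0 ∧ c2 = bdryC2 D b0 ∧ c1 = bdryC1 D b0 y1 := by
  obtain ⟨U₀, hU₀⟩ := h𝒰.nonempty
  obtain ⟨V₁, hV₁, -, hc1V₁⟩ := exists_levelAt₁ h𝒰 H.cofinal hY1 hc1 U₀ hU₀
  obtain ⟨V, hV, hVle, hc2V⟩ := exists_levelAt₂ h𝒰 H.cofinal hY0 hc2 V₁ (H.sub hV₁)
  have hVn := H.normal V hV
  have hcV : IsHyper2At D V c2 c1 := ⟨hc, hc2V, hc1V₁.mono hVle⟩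
  obtain ⟨b0, y1, hb0, -, h2, h1⟩ := H.TNl V hV c2 c1 hcV (fun mt z hz => by
    obtain ⟨u, hu, hpu⟩ := hpair mt z hz.1
    exact H.INJ2p V hV _ (isLevelAt₂_pair20Fun hVn hcV hz)
      (smul_pair20Fun hVn (H.HpAt V hV) hcV hz) ⟨u, hu, hpu⟩)
  exact ⟨b0, y1, hb0.isLevel₁ (H.sub hV), h2, h1⟩

/-- **Right kernel.**  A lifted invariant which pairs to a level coboundary with every level
hyper-2-cocycle lifts `0`. -/
theorem right_kernel20 (_h𝒰 : IsLevelBasis 𝒰) (H : HypR20 D 𝒰 ℱ p) (hF0 : IsDiscrete 𝒰 D.ρF0)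
    {mt : F0} {z : G → F1} (hz : IsLift0 D mt z)
    (hpair : ∀ c2 c1, IsHyper2 D c2 c1 → IsLevel₂ 𝒰 c2 → IsLevel₁ 𝒰 c1 →
      ∃ u, IsLevel₁ 𝒰 u ∧ pair20Fun D c2 c1 mt z = dOne D.ρX u) :
    D.π mt = 0 := by
  obtain ⟨U₀, hU₀, hmU₀⟩ := hF0 mt
  obtain ⟨U, hU, hUle⟩ := H.cofinal U₀ hU₀
  obtain ⟨V, hV, hVle, hNZ⟩ := H.NZ U hU
  have hVn := H.normal V hV
  have hmV : FixedBy D.ρF0 V mt := fun s hs => hmU₀ s (hUle (hVle hs))
  have hzV : IsLift0At D V mt z := ⟨hz, hmV, isLevelAt₁_of_isLift0 hVn hz hmV⟩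
  obtain ⟨a, ha, hπ⟩ := H.TNr V hV mt z hzV (fun c2 c1 hc => by
    obtain ⟨u, hu, hpu⟩ := hpair c2 c1 hc.1 (hc.2.1.isLevel₂ (H.sub hV))
      (hc.2.2.isLevel₁ (H.sub hV))
    exact H.INJ2p V hV _ (isLevelAt₂_pair20Fun hVn hc hzV)
      (smul_pair20Fun hVn (H.HpAt V hV) hc hzV) ⟨u, hu, hpu⟩)
  rw [hπ, hNZ a ha]

end Fermat.Agent.TW.P20Limit44
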