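/-
Programme TW (S56), brick C2 (tail of Poitou–Tate), helper44.

`P20Pair44`: the packaged `(2,0)` pairing

  `pair20 : ℍ²(Y) × H⁰(G, M) → H²(G, C)`

between the level hypercohomology of a two-term complex `Y = [Y⁰ → Y¹]` (think `K(P; C)`, i.e.
`Ext²_G(M, C)`) and the invariants of `M = P₀ / P₁`, built on the cochain formula
`ExtPairing4.Pairing.p20` (twin of Part 5 of `PT/PRO/ExtPairing4` and of `ExtPairingB4`):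
independence of the lift, bilinearity, the kernel statements under the finite-level hypotheses
`P20Limit44.HypL20` / `HypR20`, and naturality.
-/
import Mathlib
import Fermat.Agent.PT.PRO.ExtPairingB4
import Fermat.Agent.TW.P20Limit44

set_option autoImplicit false

namespace Fermat.Agent.TW.P20Pair44

open Function Fermat.Agent.PT.PRO.HyperLevel25 Fermat.Agent.PT.PRO.Resolved4
  Fermat.Agent.PT.PRO.ExtPairing4 Fermat.Agent.PT.PRO.ExtPairingB4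
  Fermat.Agent.TW.P20Datum44 Fermat.Agent.TW.P20Limit44

variable {k G : Type*} [CommRing k] [Group G] {𝒰 : Set (Subgroup G)}
variable {Y0 Y1 P1 P0 M C : Type*}
  [AddCommGroup Y0] [Module k Y0] [AddCommGroup Y1] [Module k Y1]
  [AddCommGroup P1] [Module k P1] [AddCommGroup P0] [Module k P0]
  [AddCommGroup M] [Module k M] [AddCommGroup C] [Module k C]

/-! ### Lifted invariants -/

/-- A lift `m̃ ∈ P₀` of an invariant of `M`, together with `z = ι⁻¹ (d⁰ m̃)`. -/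
structure Lift0 (P : Resolved k 𝒰 P1 P0 M) where
  mt : P0
  z : G → P1
  hz : ∀ g, P.ι (z g) = dZero P.ρ0 mt g

namespace Lift0

variable {P : Resolved k 𝒰 P1 P0 M}

/-- `L` lifts `m`. -/
def Lifts (L : Lift0 P) (m : M) : Prop := P.π L.mt = m

lemma isLevel₁_z (L : Lift0 P) : IsLevel₁ 𝒰 L.z := by
  obtain ⟨U, hU, h⟩ := isLevel₁_dZero P.disc0 L.mt
  refine ⟨U, hU, fun g s hs => P.ι_inj ?_⟩
  rw [L.hz, L.hz]
  exact h g s hs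

/-- Every invariant has a lift. -/
theorem exists_lift {m : M} (hm : ∀ g, P.ρM g m = m) : ∃ L : Lift0 P, L.Lifts m := by
  obtain ⟨mt, rfl⟩ := P.π_surj m
  have hker : ∀ g, ∃ x, P.ι x = dZero P.ρ0 mt g := fun g =>
    (P.exact _).1 (by rw [dZero_apply, map_sub, P.π_comm, hm g, sub_self])
  choose z hz using hker
  exact ⟨⟨mt, z, hz⟩, rfl⟩

/-- Sum of lifts. -/
def add (L L' : Lift0 P) : Lift0 P where
  mt := L.mt + L'.mt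
  z := L.z + L'.z
  hz g := by simp only [Pi.add_apply, map_add, L.hz, L'.hz]

lemma Lifts.add {L L' : Lift0 P} {m m' : M} (h : L.Lifts m) (h' : L'.Lifts m') :
    (L.add L').Lifts (m + m') := by
  show P.π (L.mt + L'.mt) = m + m'
  rw [map_add, h, h']

/-- Scalar multiple of a lift. -/
def smul (r : k) (L : Lift0 P) : Lift0 P where
  mt := r • L.mt
  z := r • L.z
  hz g := by simp only [Pi.smul_apply, map_smul, L.hz]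

lemma Lifts.smul (r : k) {L : Lift0 P} {m : M} (h : L.Lifts m) : (L.smul r).Lifts (r • m) := by
  show P.π (r • L.mt) = r • m
  rw [map_smul, h]

end Lift0

/-! ### Raw hyper-2-cocycles -/

/-- Raw hyper-2-cocycle data `(c₂, c₁)` of a two-term complex. -/
structure HZ2 (Y : Cx k 𝒰 Y0 Y1) where
  c2 : G × G → Y0
  c1 : G → Y1
  lev2 : IsLevel₂ 𝒰 c2
  lev1 : IsLevel₁ 𝒰 c1
  hc2 : ∀ g h j, dTwo Y.ρ0 c2 (g, h, j) = 0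
  hc1 : ∀ g h, Y.f (c2 (g, h)) = dOne Y.ρ1 c1 (g, h)

namespace HZ2

variable {Y : Cx k 𝒰 Y0 Y1} (h𝒰 : IsLevelBasis 𝒰)

/-- The hyper-2-cocycle of `HyperLevel25` attached to raw data. -/
def toZ2 (ξ : HZ2 Y) : (Y.tot h𝒰).Z2 :=
  ⟨⟨(ξ.c2, ξ.c1), ⟨ξ.lev2, ξ.lev1⟩⟩,
    (Y.mem_Z2_iff h𝒰 _).2 ⟨funext fun q => ξ.hc2 q.1 q.2.1 q.2.2, funext fun q => ξ.hc1 q.1 q.2⟩⟩

/-- The class in `ℍ²`. -/
def cls (ξ : HZ2 Y) : Y.ℍ2 h𝒰 := (Y.tot h𝒰).π2 (ξ.toZ2 h𝒰)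

/-- Raw data of a hyper-2-cocycle of `HyperLevel25`. -/
def ofZ2 (z : (Y.tot h𝒰).Z2) : HZ2 Y where
  c2 := z.1.1.1
  c1 := z.1.1.2
  lev2 := z.1.2.1
  lev1 := z.1.2.2
  hc2 g h j := congrFun ((Y.mem_Z2_iff h𝒰 z.1).1 z.2).1 (g, h, j)
  hc1 g h := congrFun ((Y.mem_Z2_iff h𝒰 z.1).1 z.2).2 (g, h)

lemma toZ2_ofZ2 (z : (Y.tot h𝒰).Z2) : (ofZ2 h𝒰 z).toZ2 h𝒰 = z := rfl

lemma cls_ofZ2 (z : (Y.tot h𝒰).Z2) : (ofZ2 h𝒰 z).cls h𝒰 = (Y.tot h𝒰).π2 z := rfl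

lemma cls_surjective (w : Y.ℍ2 h𝒰) : ∃ ξ : HZ2 Y, ξ.cls h𝒰 = w := by
  obtain ⟨z, rfl⟩ := (Y.tot h𝒰).π2_surjective w
  exact ⟨ofZ2 h𝒰 z, rfl⟩

/-- A raw hyper-2-cocycle is a hyper-2-cocycle of the associated datum. -/
lemma isHyper2 {P : Resolved k 𝒰 P1 P0 M} {ρC : Representation k G C} (B : Pairing Y P ρC)
    (ξ : HZ2 Y) : IsHyper2 (toDatum B) ξ.c2 ξ.c1 :=
  ⟨funext fun q => ξ.hc2 q.1 q.2.1 q.2.2, fun q => ξ.hc1 q.1 q.2⟩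

/-- The class vanishes iff the raw data is a level hyper-coboundary. -/
lemma cls_eq_zero_iff (ξ : HZ2 Y) :
    ξ.cls h𝒰 = 0 ↔ ∃ (b0 : G → Y0) (y1 : Y1), IsLevel₁ 𝒰 b0 ∧ ξ.c2 = dOne Y.ρ0 b0 ∧
      ξ.c1 = ⇑Y.f ∘ b0 - dZero Y.ρ1 y1 := by
  unfold cls
  rw [Cpx.π2_eq_zero_iff]
  constructor
  · rintro ⟨x, hx⟩
    have h1 : Y.D1 x.1 = (ξ.c2, ξ.c1) := congrArg Subtype.val hx
    rw [Cx.D1_apply] at h1
    exact ⟨x.1.1, x.1.2, x.2, (congrArg Prod.fst h1).symm, (congrArg Prod.snd h1).symm⟩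
  · rintro ⟨b0, y1, hb0, h2, h1⟩
    refine ⟨⟨(b0, y1), hb0⟩, Subtype.ext ?_⟩
    show Y.D1 (b0, y1) = (ξ.c2, ξ.c1)
    rw [Cx.D1_apply, h2, h1]

end HZ2

variable {Y : Cx k 𝒰 Y0 Y1} {P : Resolved k 𝒰 P1 P0 M} {ρC : Representation k G C}
variable (B : Pairing Y P ρC) (h𝒰 : IsLevelBasis 𝒰) (hC : IsDiscrete 𝒰 ρC)

lemma toDatum_pair20Fun (c2 : G × G → Y0) (c1 : G → Y1) (mt : P0) (z : G → P1) :
    pair20Fun (toDatum B) c2 c1 mt z = B.p20 c2 c1 mt z := rfl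

lemma Lift0.isLift0 (L : Lift0 P) : IsLift0 (toDatum B) L.mt L.z := L.hz

include h𝒰 in
/-- The raw `(2,0)` cochain of a hyper-2-cocycle and a lift is a level 2-cochain. -/
lemma isLevel₂_p20 (ξ : HZ2 Y) (L : Lift0 P) : IsLevel₂ 𝒰 (B.p20 ξ.c2 ξ.c1 L.mt L.z) :=
  isLevel₂_sub' h𝒰 (isLevel₂_cup20 h𝒰 P.disc0 (fun y p => B.β0 y p) ξ.lev2 L.mt)
    (isLevel₂_cup11 h𝒰 P.disc1 (fun y p => B.β1 y p) ξ.lev1 L.isLevel₁_z)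

/-- The class of the `(2,0)` cochain. -/
def cls20 (ξ : HZ2 Y) (L : Lift0 P) : Hlev2 h𝒰 ρC hC :=
  cl2 h𝒰 ρC hC (B.p20 ξ.c2 ξ.c1 L.mt L.z) (isLevel₂_p20 B h𝒰 ξ L)
    (B.dTwo_p20 ξ.hc2 ξ.hc1 L.hz)

/-- Independence of the lift. -/
theorem cls20_indep (ξ : HZ2 Y) (L L' : Lift0 P) (hLL' : P.π L'.mt = P.π L.mt) :
    cls20 B h𝒰 hC ξ L' = cls20 B h𝒰 hC ξ L := by
  obtain ⟨w0, hm, hz⟩ := IsLift0.exists_eq_change (D := toDatum B) (L.isLift0 B) (L'.isLift0 B)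
    hLL'
  unfold cls20
  rw [cl2_eq_iff]
  refine ⟨fun a => B.β1 (ξ.c1 a) (P.ρ1 a w0),
    isLevel₁_cup10 h𝒰 P.disc1 (fun y p => B.β1 y p) ξ.lev1 w0, ?_⟩
  have h1 := B.p20_change_lift ξ.hc1 L.mt L.z w0
  have hm' : L'.mt = L.mt + P.ι w0 := hm
  have hz' : L'.z = fun a => L.z a + dZero P.ρ1 w0 a := hz
  rw [hm', hz']
  exact h1.symm

/-! ### Bilinearity on cocycles -/

lemma cls20_add_left {ξ ξ' ξ'' : HZ2 Y} (h2 : ξ''.c2 = ξ.c2 + ξ'.c2) (h1 : ξ''.c1 = ξ.c1 + ξ'.c1)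
    (L : Lift0 P) : cls20 B h𝒰 hC ξ'' L = cls20 B h𝒰 hC ξ L + cls20 B h𝒰 hC ξ' L := by
  unfold cls20
  rw [← cl2_add]
  · apply cl2_congr
    funext q
    simp only [Pairing.p20, h2, h1, Pi.add_apply, map_add, LinearMap.add_apply]
    abel
  · exact h𝒰.isLevel₂_add (isLevel₂_p20 B h𝒰 ξ L) (isLevel₂_p20 B h𝒰 ξ' L)
  · rw [map_add, B.dTwo_p20 ξ.hc2 ξ.hc1 L.hz, B.dTwo_p20 ξ'.hc2 ξ'.hc1 L.hz, add_zero]

lemma cls20_smul_left (r : k) {ξ ξ'' : HZ2 Y} (h2 : ξ''.c2 = r • ξ.c2) (h1 : ξ''.c1 = r • ξ.c1)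
    (L : Lift0 P) : cls20 B h𝒰 hC ξ'' L = r • cls20 B h𝒰 hC ξ L := by
  unfold cls20
  rw [← cl2_smul]
  · apply cl2_congr
    funext q
    simp only [Pairing.p20, h2, h1, Pi.smul_apply, map_smul, LinearMap.smul_apply, smul_sub]
  · exact (isLevel₂_p20 B h𝒰 ξ L).comp (r • ·)
  · rw [map_smul, B.dTwo_p20 ξ.hc2 ξ.hc1 L.hz, smul_zero]

lemma cls20_add_right (ξ : HZ2 Y) (L L' : Lift0 P) :
    cls20 B h𝒰 hC ξ (L.add L') = cls20 B h𝒰 hC ξ L + cls20 B h𝒰 hC ξ L' := by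
  unfold cls20
  rw [← cl2_add]
  · apply cl2_congr
    funext q
    simp only [Pairing.p20, Lift0.add, Pi.add_apply, map_add]
    abel
  · exact h𝒰.isLevel₂_add (isLevel₂_p20 B h𝒰 ξ L) (isLevel₂_p20 B h𝒰 ξ L')
  · rw [map_add, B.dTwo_p20 ξ.hc2 ξ.hc1 L.hz, B.dTwo_p20 ξ.hc2 ξ.hc1 L'.hz, add_zero]

lemma cls20_smul_right (r : k) (ξ : HZ2 Y) (L : Lift0 P) :
    cls20 B h𝒰 hC ξ (L.smul r) = r • cls20 B h𝒰 hC ξ L := by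
  unfold cls20
  rw [← cl2_smul]
  · apply cl2_congr
    funext q
    simp only [Pairing.p20, Lift0.smul, Pi.smul_apply, map_smul, smul_sub]
  · exact (isLevel₂_p20 B h𝒰 ξ L).comp (r • ·)
  · rw [map_smul, B.dTwo_p20 ξ.hc2 ξ.hc1 L.hz, smul_zero]

/-- Vanishing of level hyper-coboundaries `D¹ (b₀, y₁)`. -/
lemma cls20_bdry_left {ξ : HZ2 Y} (b0 : G → Y0) (y1 : Y1) (hb0 : IsLevel₁ 𝒰 b0)
    (h2 : ξ.c2 = dOne Y.ρ0 b0) (h1 : ξ.c1 = fun a => Y.f (b0 a) - dZero Y.ρ1 y1 a)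
    (L : Lift0 P) : cls20 B h𝒰 hC ξ L = 0 := by
  unfold cls20
  rw [cl2_eq_zero_iff]
  refine ⟨fun a => B.β0 (b0 a) (P.ρ0 a L.mt) + B.β1 y1 (L.z a),
    h𝒰.isLevel₁_add (isLevel₁_cup10 h𝒰 P.disc0 (fun y p => B.β0 y p) hb0 L.mt)
      (L.isLevel₁_z.comp (B.β1 y1)), ?_⟩
  rw [h2, h1]
  exact (B.p20_bdry_left b0 y1 L.hz).symm

/-! ### The pairing on cohomology -/

/-- The underlying element of a level 0-cocycle (= invariant) of `M`. -/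
abbrev el0 (x : (lvl0 h𝒰 P.ρM P.discM).Z1) : M := (x : M)

lemma el0_invariant (x : (lvl0 h𝒰 P.ρM P.discM).Z1) (g : G) : P.ρM g (el0 h𝒰 x) = el0 h𝒰 x :=
  (mem_lvl0_Z1_iff h𝒰 P.ρM P.discM x.1).1 x.2 g

/-- The pairing on cocycles, via a chosen lift. -/
noncomputable def pair20Z (ξ : HZ2 Y) (x : (lvl0 h𝒰 P.ρM P.discM).Z1) : Hlev2 h𝒰 ρC hC :=
  cls20 B h𝒰 hC ξ (Classical.choose (Lift0.exists_lift (P := P) (el0_invariant h𝒰 x)))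

lemma pair20Z_eq (ξ : HZ2 Y) (x : (lvl0 h𝒰 P.ρM P.discM).Z1) (L : Lift0 P)
    (hL : L.Lifts (el0 h𝒰 x)) : pair20Z B h𝒰 hC ξ x = cls20 B h𝒰 hC ξ L := by
  unfold pair20Z
  apply cls20_indep
  have h1 : P.π (Classical.choose (Lift0.exists_lift (P := P) (el0_invariant h𝒰 x))).mt =
      el0 h𝒰 x := Classical.choose_spec (Lift0.exists_lift (P := P) (el0_invariant h𝒰 x))
  have h2 : P.π L.mt = el0 h𝒰 x := hL
  rw [h1, h2]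

/-- The pairing as a bilinear map on cocycles. -/
noncomputable def pair20ZZ :
    (Y.tot h𝒰).Z2 →ₗ[k] (lvl0 h𝒰 P.ρM P.discM).Z1 →ₗ[k] Hlev2 h𝒰 ρC hC :=
  LinearMap.mk₂ k (fun z x => pair20Z B h𝒰 hC (HZ2.ofZ2 h𝒰 z) x)
    (fun z z' x => by
      obtain ⟨L, hL⟩ := Lift0.exists_lift (P := P) (el0_invariant h𝒰 x)
      rw [pair20Z_eq B h𝒰 hC _ x L hL, pair20Z_eq B h𝒰 hC _ x L hL,
        pair20Z_eq B h𝒰 hC _ x L hL]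
      exact cls20_add_left B h𝒰 hC rfl rfl L)
    (fun r z x => by
      obtain ⟨L, hL⟩ := Lift0.exists_lift (P := P) (el0_invariant h𝒰 x)
      rw [pair20Z_eq B h𝒰 hC _ x L hL, pair20Z_eq B h𝒰 hC _ x L hL]
      exact cls20_smul_left B h𝒰 hC r rfl rfl L)
    (fun z x x' => by
      obtain ⟨L, hL⟩ := Lift0.exists_lift (P := P) (el0_invariant h𝒰 x)
      obtain ⟨L', hL'⟩ := Lift0.exists_lift (P := P) (el0_invariant h𝒰 x')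
      rw [pair20Z_eq B h𝒰 hC _ x L hL, pair20Z_eq B h𝒰 hC _ x' L' hL',
        pair20Z_eq B h𝒰 hC _ (x + x') (L.add L') (hL.add hL')]
      exact cls20_add_right B h𝒰 hC _ L L')
    (fun r z x => by
      obtain ⟨L, hL⟩ := Lift0.exists_lift (P := P) (el0_invariant h𝒰 x)
      rw [pair20Z_eq B h𝒰 hC _ x L hL, pair20Z_eq B h𝒰 hC _ (r • x) (L.smul r) (hL.smul r)]
      exact cls20_smul_right B h𝒰 hC r _ L)

lemma pair20ZZ_apply (z : (Y.tot h𝒰).Z2) (x : (lvl0 h𝒰 P.ρM P.discM).Z1) (L : Lift0 P)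
    (hL : L.Lifts (el0 h𝒰 x)) :
    pair20ZZ B h𝒰 hC z x = cls20 B h𝒰 hC (HZ2.ofZ2 h𝒰 z) L :=
  pair20Z_eq B h𝒰 hC _ x L hL

lemma pair20ZZ_bdry_left (z : (Y.tot h𝒰).Z2) (hz : z ∈ (Y.tot h𝒰).B2) :
    pair20ZZ B h𝒰 hC z = 0 := by
  obtain ⟨x0, hx0⟩ := ((Y.tot h𝒰).mem_B2_iff z).1 hz
  ext x
  obtain ⟨L, hL⟩ := Lift0.exists_lift (P := P) (el0_invariant h𝒰 x)
  rw [pair20ZZ_apply B h𝒰 hC z x L hL, LinearMap.zero_apply]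
  have h1 : (z : K2lev k h𝒰 Y0 Y1).1 = Y.D1 x0.1 := by
    rw [← hx0]; rfl
  rw [Cx.D1_apply] at h1
  exact cls20_bdry_left B h𝒰 hC x0.1.1 x0.1.2 x0.2 (congrArg Prod.fst h1) (congrArg Prod.snd h1) L

lemma pair20ZZ_bdry_right (z : (Y.tot h𝒰).Z2) (x : (lvl0 h𝒰 P.ρM P.discM).Z1)
    (hx : x ∈ (lvl0 h𝒰 P.ρM P.discM).B1) : pair20ZZ B h𝒰 hC z x = 0 := by
  obtain ⟨y, hy⟩ := ((lvl0 h𝒰 P.ρM P.discM).mem_B1_iff x).1 hx
  have h0 : x = 0 := by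
    apply Subtype.ext
    rw [← hy]
    rfl
  rw [h0, map_zero]

/-- **The `(2,0)` pairing** `ℍ²(Y) × H⁰(G, M) → H²(G, C)`. -/
noncomputable def pair20 :
    Y.ℍ2 h𝒰 →ₗ[k] Hlev0 h𝒰 P.ρM P.discM →ₗ[k] Hlev2 h𝒰 ρC hC :=
  liftH2H1 (Y.tot h𝒰) (lvl0 h𝒰 P.ρM P.discM) (pair20ZZ B h𝒰 hC)
    (pair20ZZ_bdry_left B h𝒰 hC) (pair20ZZ_bdry_right B h𝒰 hC)

/-- The defining property: the pairing of classes is the class of the raw cochain, for ANY lift. -/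
theorem pair20_mk (ξ : HZ2 Y) (x : (lvl0 h𝒰 P.ρM P.discM).Z1) (L : Lift0 P)
    (hL : L.Lifts (el0 h𝒰 x)) :
    pair20 B h𝒰 hC (ξ.cls h𝒰) ((lvl0 h𝒰 P.ρM P.discM).π1 x) = cls20 B h𝒰 hC ξ L :=
  pair20ZZ_apply B h𝒰 hC _ x L hL

/-- The class of an invariant in `H⁰`. -/
def cl0 (m : M) (hm : ∀ g, P.ρM g m = m) : Hlev0 h𝒰 P.ρM P.discM :=
  (lvl0 h𝒰 P.ρM P.discM).π1 (mkZ0 h𝒰 P.ρM P.discM m hm)

lemma cl0_surjective (w : Hlev0 h𝒰 P.ρM P.discM) :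
    ∃ (m : M) (hm : ∀ g, P.ρM g m = m), cl0 (P := P) h𝒰 m hm = w := by
  obtain ⟨x, rfl⟩ := (lvl0 h𝒰 P.ρM P.discM).π1_surjective w
  exact ⟨el0 h𝒰 x, el0_invariant h𝒰 x, rfl⟩

lemma cl0_eq_zero_iff (m : M) (hm : ∀ g, P.ρM g m = m) : cl0 (P := P) h𝒰 m hm = 0 ↔ m = 0 := by
  have h := π1_lvl0_eq_iff h𝒰 P.ρM P.discM (mkZ0 h𝒰 P.ρM P.discM m hm) 0
  rw [map_zero] at h
  exact h

/-- Variant for raw invariants. -/
theorem pair20_cl0 (ξ : HZ2 Y) (m : M) (hm : ∀ g, P.ρM g m = m) (L : Lift0 P) (hL : L.Lifts m) :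
    pair20 B h𝒰 hC (ξ.cls h𝒰) (cl0 (P := P) h𝒰 m hm) = cls20 B h𝒰 hC ξ L :=
  pair20_mk B h𝒰 hC ξ _ L hL

/-- The pairing of two classes vanishes iff the raw cochain is a level coboundary. -/
theorem pair20_eq_zero_iff (ξ : HZ2 Y) (m : M) (hm : ∀ g, P.ρM g m = m) (L : Lift0 P)
    (hL : L.Lifts m) :
    pair20 B h𝒰 hC (ξ.cls h𝒰) (cl0 (P := P) h𝒰 m hm) = 0 ↔
      ∃ u : G → C, IsLevel₁ 𝒰 u ∧ dOne ρC u = B.p20 ξ.c2 ξ.c1 L.mt L.z := by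
  rw [pair20_cl0 B h𝒰 hC ξ m hm L hL]
  exact cl2_eq_zero_iff _ _

/-! ### Kernels -/

/-- **Left kernel.**  Under the finite-level hypotheses `HypL20`, a class of `ℍ²(Y)` pairing to zero
with all of `H⁰(M)` is zero. -/
theorem pair20_left_kernel {ℱ : Set (Subgroup G)} {p : ℕ}
    (H : HypL20 (toDatum B) 𝒰 ℱ p) (ξ : Y.ℍ2 h𝒰) (h : ∀ x, pair20 B h𝒰 hC ξ x = 0) : ξ = 0 := by
  obtain ⟨ξ', rfl⟩ := HZ2.cls_surjective h𝒰 ξ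
  obtain ⟨b0, y1, hb0, h2, h1⟩ := left_kernel20 (D := toDatum B) h𝒰 H Y.disc0 Y.disc1
    (ξ'.isHyper2 B) ξ'.lev2 ξ'.lev1 (fun mt z hz => by
      have hm : ∀ g, P.ρM g (P.π mt) = P.π mt := fun g => IsLift0.invariant (D := toDatum B) hz g
      let L : Lift0 P := ⟨mt, z, hz⟩
      obtain ⟨u, hu, hdu⟩ := (pair20_eq_zero_iff B h𝒰 hC ξ' (P.π mt) hm L rfl).1 (h _)
      exact ⟨u, hu, hdu.symm⟩)
  rw [HZ2.cls_eq_zero_iff]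
  exact ⟨b0, y1, hb0, h2, h1⟩

/-- **Right kernel.**  Under `HypR20`, a class of `H⁰(M)` pairing to zero with all of `ℍ²(Y)` is
zero. -/
theorem pair20_right_kernel {ℱ : Set (Subgroup G)} {p : ℕ}
    (H : HypR20 (toDatum B) 𝒰 ℱ p) (x : Hlev0 h𝒰 P.ρM P.discM)
    (h : ∀ ξ, pair20 B h𝒰 hC ξ x = 0) : x = 0 := by
  obtain ⟨m, hm, rfl⟩ := cl0_surjective (P := P) h𝒰 x
  obtain ⟨L, hL⟩ := Lift0.exists_lift (P := P) hm
  have h0 := right_kernel20 (D := toDatum B) h𝒰 H P.disc0 (L.isLift0 B) (fun c2 c1 hc hl2 hl1 => by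
    let ξ' : HZ2 Y := ⟨c2, c1, hl2, hl1, fun g h j => congrFun hc.1 (g, h, j),
      fun g h => hc.2 (g, h)⟩
    obtain ⟨u, hu, hdu⟩ := (pair20_eq_zero_iff B h𝒰 hC ξ' m hm L hL).1 (h _)
    exact ⟨u, hu, hdu.symm⟩)
  rw [cl0_eq_zero_iff]
  have h1 : P.π L.mt = m := hL
  rw [← h1]
  exact h0

end Fermat.Agent.TW.P20Pair44
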