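/-
Programme TW (S56), sub-programme C, brick C2 (tail of Poitou–Tate), owner helper44.

`P20Count44`: the `(2,0)` pairing with values in the `p`-torsion of `H²_lev(C)`, the duality map
`β = τ ∘ pair20 : ℍ²(Y) →+ Hom(H⁰(M), ℤ/p)` for an injective `τ : H²_lev(C)[p] →+ ℤ/p`, and the
COUNTING consequences of the kernel statements (twin of `PT/PRO/PairP4`):

* `card_ℍ2_le` : trivial left kernel  ⟹ `ℍ²(Y)` finite, `#ℍ²(Y) ≤ #H⁰(M)`, `p ℍ²(Y) = 0`;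
* `card_Hlev0_le_of_right_kernel_on` : if only `0 ∈ H⁰(M)` pairs to zero with a finite subgroup
  `J ≤ ℍ²(Y)` then `#H⁰(M) ≤ #J`;
* `card_ℍ2_eq` : both kernels trivial ⟹ `#ℍ²(Y) = #H⁰(M)`.
-/
import Mathlib
import Fermat.Agent.PT.PRO.PairP4
import Fermat.Agent.TW.P20Pair44

set_option autoImplicit false

namespace Fermat.Agent.TW.P20Count44

open Function Fermat.Agent.PT.PRO.HyperLevel25 Fermat.Agent.PT.PRO.Resolved4
  Fermat.Agent.PT.PRO.ExtPairing4 Fermat.Agent.PT.PRO.ExtPairingB4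
  Fermat.Agent.PT.PRO.PerfectPairing29 Fermat.Agent.PT.PRO.InvP4
  Fermat.Agent.PT.PRO.PairP4 Fermat.Agent.TW.P20Pair44

/-! ### Abstract counting -/

section Abstract

variable {E H T : Type*} [AddCommGroup E] [AddCommGroup H] [AddCommGroup T]
variable {p : ℕ} [Fact p.Prime]

/-- If the left kernel is trivial and `H` is finite and killed by `p`, then `E` is finite, killed by
`p`, and `#E ≤ #H`. -/
theorem card_le_of_left_kernel [Finite H] (B : E →+ H →+ T) (τ : T →+ ZMod p)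
    (hτ : InjOnTorsion τ) (hH : ∀ x : H, p • x = 0) (hl : ∀ e, (∀ x, B e x = 0) → e = 0) :
    Finite E ∧ Nat.card E ≤ Nat.card H ∧ ∀ e : E, p • e = 0 := by
  have hinj := injective_of_left_kernel B τ hτ hH hl
  have : Finite (H →+ ZMod p) := finite_addMonoidHom_zmod
  refine ⟨Finite.of_injective _ hinj, ?_, fun e => hinj ?_⟩
  · rw [← card_addMonoidHom_zmod (p := p) hH]
    exact Nat.card_le_card_of_injective _ hinj
  · rw [map_nsmul, map_zero]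
    ext x
    rw [AddMonoidHom.smul_apply, AddMonoidHom.zero_apply, nsmul_eq_mul, ZMod.natCast_self,
      zero_mul]

/-- If only `0 ∈ H` pairs to zero with a finite subgroup `J ≤ E` killed by `p`, then
`#H ≤ #J`. -/
theorem card_le_of_right_kernel_on (B : E →+ H →+ T) (τ : T →+ ZMod p)
    (hτ : InjOnTorsion τ) (hH : ∀ x : H, p • x = 0) (J : AddSubgroup E) [Finite J]
    (hJ : ∀ e ∈ J, p • e = 0) (hr : ∀ x, (∀ e ∈ J, B e x = 0) → x = 0) :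
    Finite H ∧ Nat.card H ≤ Nat.card J := by
  let Φ : H →+ (J →+ ZMod p) := toDualFlip (B.comp J.subtype) τ
  have hΦ : Injective Φ := by
    rw [injective_iff_map_eq_zero]
    intro x hx
    refine hr x fun e he => hτ _ ?_ ?_
    · rw [← map_nsmul, hH, map_zero]
    · exact DFunLike.congr_fun hx ⟨e, he⟩
  have : Finite (J →+ ZMod p) := finite_addMonoidHom_zmod
  have hJ' : ∀ x : J, p • x = 0 := fun x => Subtype.ext (hJ x.1 x.2)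
  refine ⟨Finite.of_injective _ hΦ, ?_⟩
  rw [← card_addMonoidHom_zmod (p := p) hJ']
  exact Nat.card_le_card_of_injective _ hΦ

end Abstract

variable {k G : Type*} [CommRing k] [Group G] {𝒰 : Set (Subgroup G)}
variable {Y0 Y1 P1 P0 M C : Type*}
  [AddCommGroup Y0] [Module k Y0] [AddCommGroup Y1] [Module k Y1]
  [AddCommGroup P1] [Module k P1] [AddCommGroup P0] [Module k P0]
  [AddCommGroup M] [Module k M] [AddCommGroup C] [Module k C]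

/-- `n M = 0 ⇒ n H⁰_lev(M) = 0`. -/
theorem nsmul_Hlev0_eq_zero (h𝒰 : IsLevelBasis 𝒰) (ρ : Representation k G M)
    (hρ : IsDiscrete 𝒰 ρ) (n : ℕ) (hM : ∀ m : M, n • m = 0) (x : Hlev0 h𝒰 ρ hρ) : n • x = 0 := by
  obtain ⟨z, rfl⟩ := (lvl0 h𝒰 ρ hρ).π1_surjective x
  rw [← map_nsmul]
  have : n • z = 0 := by
    apply Subtype.ext
    exact hM _
  rw [this, map_zero]

variable {Y : Cx k 𝒰 Y0 Y1} {P : Resolved k 𝒰 P1 P0 M} {ρC : Representation k G C}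
variable (B : Pairing Y P ρC) (h𝒰 : IsLevelBasis 𝒰) (hC : IsDiscrete 𝒰 ρC)
variable {p : ℕ}

/-- The pairing `pair20` with values in the `p`-torsion of `H²_lev(C)` (`p M = 0`). -/
noncomputable def pair20P (hpM : ∀ m : M, p • m = 0) :
    Y.ℍ2 h𝒰 →+ Hlev0 h𝒰 P.ρM P.discM →+ pTor p (Hlev2 h𝒰 ρC hC) :=
  corestrictP p (ofLinear (pair20 B h𝒰 hC)) (nsmul_Hlev0_eq_zero h𝒰 P.ρM P.discM p hpM)

@[simp] lemma coe_pair20P (hpM : ∀ m : M, p • m = 0) (ξ : Y.ℍ2 h𝒰)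
    (x : Hlev0 h𝒰 P.ρM P.discM) :
    ((pair20P B h𝒰 hC hpM ξ x : pTor p (Hlev2 h𝒰 ρC hC)) : Hlev2 h𝒰 ρC hC) =
      pair20 B h𝒰 hC ξ x := rfl

lemma pair20P_eq_zero_iff (hpM : ∀ m : M, p • m = 0) (ξ : Y.ℍ2 h𝒰)
    (x : Hlev0 h𝒰 P.ρM P.discM) :
    pair20P B h𝒰 hC hpM ξ x = 0 ↔ pair20 B h𝒰 hC ξ x = 0 := by
  rw [Subtype.ext_iff, coe_pair20P, AddSubgroup.coe_zero]

variable [Fact p.Prime]

/-- The duality map `β : ℍ²(Y) →+ Hom(H⁰_lev(M), ℤ/p)`, `ξ ↦ τ ∘ pair20P ξ`. -/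
noncomputable def beta20 (hpM : ∀ m : M, p • m = 0)
    (τ : pTor p (Hlev2 h𝒰 ρC hC) →+ ZMod p) :
    Y.ℍ2 h𝒰 →+ (Hlev0 h𝒰 P.ρM P.discM →+ ZMod p) :=
  toDual (pair20P B h𝒰 hC hpM) τ

@[simp] theorem beta20_apply (hpM : ∀ m : M, p • m = 0)
    (τ : pTor p (Hlev2 h𝒰 ρC hC) →+ ZMod p) (ξ : Y.ℍ2 h𝒰) (x : Hlev0 h𝒰 P.ρM P.discM) :
    beta20 B h𝒰 hC hpM τ ξ x = τ (pair20P B h𝒰 hC hpM ξ x) := rfl

/-- With `τ` injective, `β ξ x = 0` iff the pairing of the classes vanishes. -/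
theorem beta20_eq_zero_iff (hpM : ∀ m : M, p • m = 0)
    (τ : pTor p (Hlev2 h𝒰 ρC hC) →+ ZMod p) (hτ : Injective τ) (ξ : Y.ℍ2 h𝒰)
    (x : Hlev0 h𝒰 P.ρM P.discM) :
    beta20 B h𝒰 hC hpM τ ξ x = 0 ↔ pair20 B h𝒰 hC ξ x = 0 := by
  rw [beta20_apply, ← pair20P_eq_zero_iff B h𝒰 hC hpM]
  constructor
  · intro h
    exact hτ (by rw [h, map_zero])
  · intro h
    rw [h, map_zero]

/-- **Trivial left kernel ⟹ `ℍ²(Y)` is finite, killed by `p`, of cardinality `≤ #H⁰(M)`.**  (Only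
the existence of an injective `τ` on `H²_lev(C)[p]` is used.) -/
theorem card_ℍ2_le [Finite (Hlev0 h𝒰 P.ρM P.discM)] (hpM : ∀ m : M, p • m = 0)
    (τ : pTor p (Hlev2 h𝒰 ρC hC) →+ ZMod p) (hτ : Injective τ)
    (hl : ∀ ξ : Y.ℍ2 h𝒰, (∀ x, pair20 B h𝒰 hC ξ x = 0) → ξ = 0) :
    Finite (Y.ℍ2 h𝒰) ∧ Nat.card (Y.ℍ2 h𝒰) ≤ Nat.card (Hlev0 h𝒰 P.ρM P.discM) ∧
      ∀ ξ : Y.ℍ2 h𝒰, p • ξ = 0 :=
  card_le_of_left_kernel (pair20P B h𝒰 hC hpM) τ (injOnTorsion_of_injective τ hτ)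
    (nsmul_Hlev0_eq_zero h𝒰 P.ρM P.discM p hpM)
    (fun ξ h => hl ξ fun x => (pair20P_eq_zero_iff B h𝒰 hC hpM ξ x).1 (h x))

/-- **If only `0 ∈ H⁰(M)` pairs to zero with the finite subgroup `J ≤ ℍ²(Y)` (killed by `p`), then
`#H⁰(M) ≤ #J`.** -/
theorem card_Hlev0_le_of_right_kernel_on (hpM : ∀ m : M, p • m = 0)
    (τ : pTor p (Hlev2 h𝒰 ρC hC) →+ ZMod p) (hτ : Injective τ)
    (J : AddSubgroup (Y.ℍ2 h𝒰)) [Finite J] (hJ : ∀ ξ ∈ J, p • ξ = 0)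
    (hr : ∀ x : Hlev0 h𝒰 P.ρM P.discM, (∀ ξ ∈ J, pair20 B h𝒰 hC ξ x = 0) → x = 0) :
    Finite (Hlev0 h𝒰 P.ρM P.discM) ∧ Nat.card (Hlev0 h𝒰 P.ρM P.discM) ≤ Nat.card J :=
  card_le_of_right_kernel_on (pair20P B h𝒰 hC hpM) τ (injOnTorsion_of_injective τ hτ)
    (nsmul_Hlev0_eq_zero h𝒰 P.ρM P.discM p hpM) J hJ
    (fun x h => hr x fun ξ hξ => (pair20P_eq_zero_iff B h𝒰 hC hpM ξ x).1 (h ξ hξ))

/-- **Both kernels trivial ⟹ `#ℍ²(Y) = #H⁰(M)`.** -/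
theorem card_ℍ2_eq [Finite (Hlev0 h𝒰 P.ρM P.discM)] (hpM : ∀ m : M, p • m = 0)
    (τ : pTor p (Hlev2 h𝒰 ρC hC) →+ ZMod p) (hτ : Injective τ)
    (hl : ∀ ξ : Y.ℍ2 h𝒰, (∀ x, pair20 B h𝒰 hC ξ x = 0) → ξ = 0)
    (hr : ∀ x : Hlev0 h𝒰 P.ρM P.discM, (∀ ξ, pair20 B h𝒰 hC ξ x = 0) → x = 0) :
    Finite (Y.ℍ2 h𝒰) ∧ Nat.card (Y.ℍ2 h𝒰) = Nat.card (Hlev0 h𝒰 P.ρM P.discM) := by
  obtain ⟨hfin, hle, hp⟩ := card_ℍ2_le B h𝒰 hC hpM τ hτ hl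
  have : Finite (⊤ : AddSubgroup (Y.ℍ2 h𝒰)) := Finite.of_injective _ Subtype.val_injective
  obtain ⟨-, hge⟩ := card_Hlev0_le_of_right_kernel_on B h𝒰 hC hpM τ hτ ⊤ (fun ξ _ => hp ξ)
    (fun x h => hr x fun ξ => h ξ trivial)
  refine ⟨hfin, le_antisymm hle ?_⟩
  have h1 : Nat.card (⊤ : AddSubgroup (Y.ℍ2 h𝒰)) = Nat.card (Y.ℍ2 h𝒰) :=
    Nat.card_congr AddSubgroup.topEquiv.toEquiv
  rwa [h1] at hge

end Fermat.Agent.TW.P20Count44
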