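/-
Programme TW (S56), brick C2 (tail of Poitou–Tate), helper44.

`P20Ind44`: **finite-level hyper Tate–Nakayama in degrees `(2,0)`**, raw cochain form, for a FINITE
group `G` and a resolution `0 → P₁ → P₀ → M → 0` of a module killed by `p` (twin of
`PT/PRO/IndTN20` + `IndResTransport20` for the `(1,1)` pairing):

* `TNl20Prop D` : a hyper-2-cocycle pairing to a coboundary with every lifted invariant is a
  hyper-coboundary (`Ext²(M, C) → Ĥ⁰(M)^∨` injective);
* `TNr20Prop D` : a lifted invariant pairing to a coboundary with every hyper-2-cocycle lifts a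
  NORM (`Ĥ⁰(M) → Ext²(M, C)^∨` injective);
* inputs `TN11lProp ρ ρC p`, `TN11rProp ρ ρC p`: the `(1,1)` Tate–Nakayama duality
  `H¹(G, Hom(P, C)) × H¹(G, P) → H²(G, C)` (both kernels, `p`-primary, raw cochains) for the
  single `ℤ`-free module `P = P₁' = Fun(G, P₀) ×_{P₀} P₁`;
* `TNl20`, `TNr20` : the conclusion for an arbitrary resolution.
-/
import Mathlib
import Fermat.Agent.PT.PRO.IndTN20
import Fermat.Agent.TW.P20Datum44
import Fermat.Agent.TW.P20Acyclic44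

set_option autoImplicit false
set_option linter.unusedSectionVars false

namespace Fermat.Agent.TW.P20Ind44

open Fermat.Agent.PT.PRO.HyperLevel25 Fermat.Agent.PT.PRO.Pairing20 Fermat.Agent.PT.PRO.IndRes20
  Fermat.Agent.PT.PRO.IndResTransport20 Fermat.Agent.PT.PRO.IndTN20
  Fermat.Agent.TW.P20Datum44 Fermat.Agent.TW.P20Acyclic44

variable {k : Type*} [CommRing k] {G : Type*} [Group G] [Fintype G] [DecidableEq G]

/-! ### The statements -/

/-- Left kernel of the `(2,0)` pairing is trivial (finite group, all cochains). -/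
def TNl20Prop {Y0 Y1 F0 F1 A X : Type*}
    [AddCommGroup Y0] [Module k Y0] [AddCommGroup Y1] [Module k Y1]
    [AddCommGroup F0] [Module k F0] [AddCommGroup F1] [Module k F1]
    [AddCommGroup A] [Module k A] [AddCommGroup X] [Module k X]
    (D : Datum k G Y0 Y1 F0 F1 A X) : Prop :=
  ∀ (c2 : G × G → Y0) (c1 : G → Y1), IsHyper2 D c2 c1 →
    (∀ mt z, IsLift0 D mt z → ∃ u, pair20Fun D c2 c1 mt z = dOne D.ρX u) →
    ∃ (b0 : G → Y0) (y1 : Y1), c2 = bdryC2 D b0 ∧ c1 = bdryC1 D b0 y1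

/-- Right kernel of the `(2,0)` pairing = norms (finite group, all cochains). -/
def TNr20Prop {Y0 Y1 F0 F1 A X : Type*}
    [AddCommGroup Y0] [Module k Y0] [AddCommGroup Y1] [Module k Y1]
    [AddCommGroup F0] [Module k F0] [AddCommGroup F1] [Module k F1]
    [AddCommGroup A] [Module k A] [AddCommGroup X] [Module k X]
    (D : Datum k G Y0 Y1 F0 F1 A X) : Prop :=
  ∀ (mt : F0) (z : G → F1), IsLift0 D mt z →
    (∀ c2 c1, IsHyper2 D c2 c1 → ∃ u, pair20Fun D c2 c1 mt z = dOne D.ρX u) →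
    ∃ a : A, D.π mt = ∑ g : G, D.ρA g a

section TN

variable {P1 P0 M C : Type*} [AddCommGroup P1] [Module k P1] [AddCommGroup P0] [Module k P0]
  [AddCommGroup M] [Module k M] [AddCommGroup C] [Module k C]

/-- `(1,1)` Tate–Nakayama, left kernel, for the module `(P, ρ)`: a 1-cocycle of `Hom(P, C)`,
killed by `p` in cohomology, whose cup product with every 1-cocycle of `P` is a coboundary, is a
coboundary. -/
def TN11lProp (ρ : Representation k G P1) (ρC : Representation k G C) (p : ℕ) : Prop :=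
  ∀ ξ : G → (P1 →ₗ[k] C), dOne (Representation.linHom ρ ρC) ξ = 0 →
    (∃ y' : P1 →ₗ[k] C, (p : k) • ξ = dZero (Representation.linHom ρ ρC) y') →
    (∀ x : G → P1, dOne ρ x = 0 →
      ∃ u : G → C, (fun q : G × G => ξ q.1 (ρ q.1 (x q.2))) = dOne ρC u) →
    ∃ y : P1 →ₗ[k] C, ξ = dZero (Representation.linHom ρ ρC) y

/-- `(1,1)` Tate–Nakayama, right kernel, for the module `(P, ρ)`. -/
def TN11rProp (ρ : Representation k G P1) (ρC : Representation k G C) (p : ℕ) : Prop :=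
  ∀ x : G → P1, dOne ρ x = 0 → (∃ w' : P1, (p : k) • x = dZero ρ w') →
    (∀ ξ : G → (P1 →ₗ[k] C), dOne (Representation.linHom ρ ρC) ξ = 0 →
      ∃ u : G → C, (fun q : G × G => ξ q.1 (ρ q.1 (x q.2))) = dOne ρC u) →
    ∃ w : P1, x = dZero ρ w

variable (R : Res k G P1 P0 M) (ρC : Representation k G C) (p : ℕ)

/-- The pairing of `(0, ξ)` is minus the cup product. -/
lemma pair20Fun_zero_left (ξ : G → (P1 →ₗ[k] C)) (mt : P0) (z : G → P1) :
    pair20Fun (R.datum ρC) 0 ξ mt z = - fun q : G × G => ξ q.1 (R.ρ1 q.1 (z q.2)) := by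
  funext ⟨g, h⟩
  simp only [pair20Fun_apply, Pi.zero_apply, map_zero, LinearMap.zero_apply, zero_sub,
    Pi.neg_apply, Res.datum_ev1, Res.datum_ρF1]

/-- **Left kernel for a resolution with `H¹(G, P₀) = 0`, `H¹(G, Hom(P₀, C)) = 0`,
`H²(G, Hom(P₀, C)) = 0`.** -/
theorem TNl20_of_acyclic (hpM : ∀ m : M, (p : k) • m = 0)
    (hA1 : ∀ x : G → P0, dOne R.ρ0 x = 0 → ∃ w : P0, x = dZero R.ρ0 w)
    (hA4 : ∀ c : G → (P0 →ₗ[k] C), dOne (Representation.linHom R.ρ0 ρC) c = 0 →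
      ∃ y₀ : P0 →ₗ[k] C, c = dZero (Representation.linHom R.ρ0 ρC) y₀)
    (hA5 : ∀ c : G × G → (P0 →ₗ[k] C), dTwo (Representation.linHom R.ρ0 ρC) c = 0 →
      ∃ b : G → (P0 →ₗ[k] C), c = dOne (Representation.linHom R.ρ0 ρC) b)
    (hTN : TN11lProp R.ρ1 ρC p) : TNl20Prop (R.datum ρC) := by
  intro c2 c1 hc hpair
  set D := R.datum ρC with hD
  obtain ⟨b0, hb0⟩ := hA5 c2 hc.1
  -- subtract the hyper-coboundary of `(b0, 0)`
  set ξ : G → (P1 →ₗ[k] C) := c1 - bdryC1 D b0 0 with hξ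
  have hc' : IsHyper2 D (c2 - bdryC2 D b0) ξ := hc.sub (isHyper2_bdry b0 0)
  have hc20 : c2 - bdryC2 D b0 = 0 := sub_eq_zero.2 hb0
  rw [hc20] at hc'
  -- `ξ` is a 1-cocycle
  have hξ1 : dOne (Representation.linHom R.ρ1 ρC) ξ = 0 := by
    funext q
    have := hc'.2 q
    rw [Pi.zero_apply, map_zero] at this
    exact this.symm
  -- `p ξ` is a coboundary
  have hpξ : ∃ y' : P1 →ₗ[k] C, (p : k) • ξ = dZero (Representation.linHom R.ρ1 ρC) y' := by
    obtain ⟨h, h1, h2⟩ := Fermat.Agent.PT.PRO.HomCx29.exists_homotopy R.ι R.ι_inj (p : k)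
      (fun x => (R.exact _).1 (by rw [map_smul, hpM]))
    have he := Fermat.Agent.PT.PRO.HomCx29.homotopy_equivariant (ρ0 := R.ρ0) (ρ1 := R.ρ1) R.ι R.ι_comm R.ι_inj
      (p : k) h h1
    -- `b' g = ξ g ∘ h` is a 1-cocycle of `Hom(P₀, C)`
    have hb' : dOne (Representation.linHom R.ρ0 ρC) (fun g => ξ g ∘ₗ h) = 0 := by
      have h3 := comp_dOne (Representation.linHom R.ρ1 ρC) (Representation.linHom R.ρ0 ρC)
        (LinearMap.lcomp k C h) (fun g φ => (linHom_precomp ρC R.ρ1 R.ρ0 h he g φ).symm) ξ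
      have h4 : (⇑(LinearMap.lcomp k C h) ∘ ξ) = fun g => ξ g ∘ₗ h := rfl
      rw [← h4, ← h3, hξ1]
      funext q
      simp
    obtain ⟨y₀, hy₀⟩ := hA4 _ hb'
    refine ⟨y₀ ∘ₗ R.ι, ?_⟩
    funext g
    have h5 := congrFun hy₀ g
    refine LinearMap.ext fun x => ?_
    have h6 := LinearMap.congr_fun h5 (R.ι x)
    simp only [LinearMap.comp_apply, h2, map_smul] at h6
    rw [Pi.smul_apply, LinearMap.smul_apply, h6]
    have h7 := linHom_precomp ρC R.ρ0 R.ρ1 R.ι R.ι_comm g y₀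
    simp only [dZero_apply, LinearMap.sub_apply, LinearMap.comp_apply, h7]
  -- the cup products of `ξ` with 1-cocycles of `P₁` are coboundaries
  have hcup : ∀ x : G → P1, dOne R.ρ1 x = 0 →
      ∃ u : G → C, (fun q : G × G => ξ q.1 (R.ρ1 q.1 (x q.2))) = dOne ρC u := by
    intro x hx
    have hιx : dOne R.ρ0 (⇑R.ι ∘ x) = 0 := by
      rw [← comp_dOne R.ρ1 R.ρ0 R.ι R.ι_comm, hx]
      funext q
      simp
    obtain ⟨mt, hmt⟩ := hA1 _ hιx
    have hz : IsLift0 D mt x := fun g => congrFun hmt g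
    obtain ⟨u, hu⟩ := hpair mt x hz
    have h1 := pair20Fun_bdry_left (D := D) b0 0 hz
    have h2 := pair20Fun_sub_left (D := D) c2 (bdryC2 D b0) c1 (bdryC1 D b0 0) mt x
    rw [hc20, ← hξ, pair20Fun_zero_left, hu, h1, ← map_sub] at h2
    refine ⟨- (u - fun a => D.ev0 (b0 a) (D.ρF0 a mt) + D.ev1 0 (x a)), ?_⟩
    rw [map_neg]
    exact neg_eq_iff_eq_neg.mp h2
  obtain ⟨y, hy⟩ := hTN ξ hξ1 hpξ hcup
  refine ⟨b0, -y, hb0, ?_⟩
  have h1 : c1 = ξ + bdryC1 D b0 0 := by rw [hξ]; abel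
  rw [h1, hy]
  funext a
  simp only [bdryC1, Pi.add_apply, dZero_apply, map_zero, sub_zero, map_neg, sub_neg_eq_add]
  have hρ : D.ρY1 = Representation.linHom R.ρ1 ρC := rfl
  rw [hρ]
  abel

/-- **Right kernel for a resolution with `H¹(G, P₀) = 0`, `Ĥ⁰(G, P₀) = 0`.** -/
theorem TNr20_of_acyclic (hpM : ∀ m : M, (p : k) • m = 0)
    (hA0 : ∀ x : P0, (∀ g, R.ρ0 g x = x) → ∃ e : P0, x = ∑ g : G, R.ρ0 g e)
    (hTN : TN11rProp R.ρ1 ρC p) : TNr20Prop (R.datum ρC) := by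
  intro mt z hz hpair
  set D := R.datum ρC with hD
  have hz1 : dOne R.ρ1 z = 0 := funext fun q => hz.dOne_eq_zero q.1 q.2
  -- `p z` is a coboundary
  have hpz : ∃ w' : P1, (p : k) • z = dZero R.ρ1 w' := by
    obtain ⟨w', hw'⟩ := (R.exact ((p : k) • mt)).1 (by rw [map_smul, hpM])
    refine ⟨w', funext fun g => R.ι_inj ?_⟩
    have h1 : R.ι (z g) = dZero R.ρ0 mt g := hz g
    rw [Pi.smul_apply, map_smul, h1, dZero_apply, dZero_apply, map_sub, R.ι_comm, hw', map_smul,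
      smul_sub]
  -- cup products with all 1-cocycles of `Hom(P₁, C)`
  have hcup : ∀ ξ : G → (P1 →ₗ[k] C), dOne (Representation.linHom R.ρ1 ρC) ξ = 0 →
      ∃ u : G → C, (fun q : G × G => ξ q.1 (R.ρ1 q.1 (z q.2))) = dOne ρC u := by
    intro ξ hξ
    have hc : IsHyper2 D 0 ξ := by
      refine ⟨map_zero _, fun q => ?_⟩
      rw [Pi.zero_apply, map_zero]
      exact (congrFun hξ q).symm
    obtain ⟨u, hu⟩ := hpair 0 ξ hc
    rw [pair20Fun_zero_left] at hu
    refine ⟨-u, ?_⟩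
    rw [map_neg]
    exact neg_eq_iff_eq_neg.mp hu
  obtain ⟨w, hw⟩ := hTN z hz1 hpz hcup
  -- `m̃ - ι w` is invariant, hence a norm
  have hinv : ∀ g, R.ρ0 g (mt - R.ι w) = mt - R.ι w := by
    intro g
    have h1 : R.ι (z g) = dZero R.ρ0 mt g := hz g
    rw [hw, dZero_apply, dZero_apply, map_sub, R.ι_comm] at h1
    rw [map_sub, sub_eq_sub_iff_add_eq_add]
    rw [sub_eq_sub_iff_add_eq_add] at h1
    rw [← h1, add_comm]
  obtain ⟨e, he⟩ := hA0 _ hinv
  refine ⟨R.π e, ?_⟩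
  have h1 : R.π mt = R.π (mt - R.ι w) := by
    rw [map_sub, (R.exact _).2 ⟨w, rfl⟩, sub_zero]
  show R.π mt = ∑ g : G, R.ρM g (R.π e)
  rw [h1, he, map_sum]
  exact Finset.sum_congr rfl fun g _ => R.π_comm g e

end TN

/-! ### The induced resolution -/

section Ind

variable {P1 P0 M C : Type*} [AddCommGroup P1] [Module k P1] [AddCommGroup P0] [Module k P0]
  [AddCommGroup M] [Module k M] [AddCommGroup C] [Module k C]
variable (R : Res k G P1 P0 M) (ρC : Representation k G C) (p : ℕ)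

/-- Left kernel for the induced resolution. -/
theorem TNl20_ind (hpM : ∀ m : M, (p : k) • m = 0) (hTN : TN11lProp (indρ1 R) ρC p) :
    TNl20Prop ((ind R).datum ρC) :=
  TNl20_of_acyclic (ind R) ρC p hpM (fun x hx => fun_H1 R.ρ0 x hx)
    (fun c hc => homFun_H1 R.ρ0 ρC c hc) (fun c hc => homFun_H2 R.ρ0 ρC c hc) hTN

/-- Right kernel for the induced resolution. -/
theorem TNr20_ind (hpM : ∀ m : M, (p : k) • m = 0) (hTN : TN11rProp (indρ1 R) ρC p) :
    TNr20Prop ((ind R).datum ρC) :=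
  TNr20_of_acyclic (ind R) ρC p hpM
    (fun x hx => ⟨dl k 1 (x 1), fun_H0 R.ρ0 x hx⟩) hTN

/-! ### Transport between a resolution and its induced resolution -/

/-- The pull-back of `c₂` to the induced resolution. -/
def pullC2 (c2 : G × G → (P0 →ₗ[k] C)) : G × G → ((G → P0) →ₗ[k] C) :=
  fun q => c2 q ∘ₗ aug (k := k) P0

/-- The pull-back of `c₁` to the induced resolution. -/
def pullC1 (c1 : G → (P1 →ₗ[k] C)) : G → (↥(indP1 R) →ₗ[k] C) := fun g => c1 g ∘ₗ proj1 R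

lemma dTwo_pullC2 (c2 : G × G → (P0 →ₗ[k] C)) :
    dTwo ((ind R).datum ρC).ρY0 (pullC2 c2) =
      fun q => dTwo (R.datum ρC).ρY0 c2 q ∘ₗ aug (k := k) P0 := by
  have h := comp_dTwo (R.datum ρC).ρY0 ((ind R).datum ρC).ρY0
    (LinearMap.lcomp k C (aug (k := k) P0))
    (fun g φ => (linHom_precomp ρC R.ρ0 (ind R).ρ0 (aug (k := k) P0) (aug_comm R) g φ).symm) c2
  exact h.symm

lemma dOne_pullC1 (c1 : G → (P1 →ₗ[k] C)) :
    dOne ((ind R).datum ρC).ρY1 (pullC1 R c1) =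
      fun q => dOne (R.datum ρC).ρY1 c1 q ∘ₗ proj1 R := by
  have h := comp_dOne (R.datum ρC).ρY1 ((ind R).datum ρC).ρY1
    (LinearMap.lcomp k C (proj1 R))
    (fun g φ => (linHom_precomp ρC R.ρ1 (ind R).ρ1 (proj1 R) (proj1_comm R) g φ).symm) c1
  exact h.symm

lemma dOne_pullC0 (b0 : G → (P0 →ₗ[k] C)) :
    dOne ((ind R).datum ρC).ρY0 (fun g => b0 g ∘ₗ aug (k := k) P0) =
      fun q => dOne (R.datum ρC).ρY0 b0 q ∘ₗ aug (k := k) P0 := by
  have h := comp_dOne (R.datum ρC).ρY0 ((ind R).datum ρC).ρY0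
    (LinearMap.lcomp k C (aug (k := k) P0))
    (fun g φ => (linHom_precomp ρC R.ρ0 (ind R).ρ0 (aug (k := k) P0) (aug_comm R) g φ).symm) b0
  exact h.symm

lemma dZero_pullY1 (y1 : P1 →ₗ[k] C) :
    dZero ((ind R).datum ρC).ρY1 (y1 ∘ₗ proj1 R) =
      fun g => dZero (R.datum ρC).ρY1 y1 g ∘ₗ proj1 R := by
  have h := comp_dZero (R.datum ρC).ρY1 ((ind R).datum ρC).ρY1
    (LinearMap.lcomp k C (proj1 R))
    (fun g φ => (linHom_precomp ρC R.ρ1 (ind R).ρ1 (proj1 R) (proj1_comm R) g φ).symm) y1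
  exact h.symm

lemma isHyper2_pull {c2 : G × G → (P0 →ₗ[k] C)} {c1 : G → (P1 →ₗ[k] C)}
    (h : IsHyper2 (R.datum ρC) c2 c1) :
    IsHyper2 ((ind R).datum ρC) (pullC2 c2) (pullC1 R c1) := by
  refine ⟨?_, fun q => ?_⟩
  · rw [dTwo_pullC2, h.1]
    funext q
    simp
  · rw [dOne_pullC1]
    have h2 := h.2 q
    simp only [Res.datum_f] at h2 ⊢
    ext w
    have h3 := LinearMap.congr_fun h2 (proj1 R w)
    simp only [LinearMap.comp_apply] at h3
    simp only [pullC2, LinearMap.comp_apply]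
    rw [aug_ι_ind, h3]

/-- Compatibility of the pairings. -/
lemma pair20Fun_pull (c2 : G × G → (P0 →ₗ[k] C)) (c1 : G → (P1 →ₗ[k] C)) (mt' : G → P0)
    (z' : G → ↥(indP1 R)) :
    pair20Fun ((ind R).datum ρC) (pullC2 c2) (pullC1 R c1) mt' z' =
      pair20Fun (R.datum ρC) c2 c1 (aug (k := k) P0 mt') (⇑(proj1 R) ∘ z') := by
  funext ⟨g, h⟩
  simp only [pair20Fun_apply, Res.datum_ev0, Res.datum_ev1, Res.datum_ρF0, Res.datum_ρF1, pullC2,
    pullC1, LinearMap.comp_apply, Function.comp_apply]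
  rw [aug_comm, proj1_comm]

lemma isLift0_push {mt' : G → P0} {z' : G → ↥(indP1 R)}
    (h : IsLift0 ((ind R).datum ρC) mt' z') :
    IsLift0 (R.datum ρC) (aug (k := k) P0 mt') (⇑(proj1 R) ∘ z') := by
  intro g
  have h1 : (ind R).ι (z' g) = dZero (ind R).ρ0 mt' g := h g
  have h2 := congrFun (comp_dZero (ind R).ρ0 R.ρ0 (aug (k := k) P0) (aug_comm R) mt') g
  show R.ι (proj1 R (z' g)) = dZero R.ρ0 (aug (k := k) P0 mt') g
  rw [← aug_ι_ind, h1, ← h2]
  rfl

lemma exists_lift0_ind {mt : P0} {z : G → P1} (h : IsLift0 (R.datum ρC) mt z) :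
    ∃ (mt' : G → P0) (z' : G → ↥(indP1 R)), IsLift0 ((ind R).datum ρC) mt' z' ∧
      aug (k := k) P0 mt' = mt ∧ ⇑(proj1 R) ∘ z' = z := by
  have hz : ∀ g, R.ι (z g) = dZero R.ρ0 mt g := h
  let mt' : G → P0 := sec (k := k) (G := G) P0 mt
  have hmt' : aug (k := k) P0 mt' = mt := aug_sec mt
  have h2 := comp_dZero (ind R).ρ0 R.ρ0 (aug (k := k) P0) (aug_comm R) mt'
  refine ⟨mt', fun g => ⟨(dZero (ind R).ρ0 mt' g, z g), ?_⟩, ?_, hmt', ?_⟩
  · rw [mem_indP1]
    show aug (k := k) P0 (dZero (ind R).ρ0 mt' g) = R.ι (z g)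
    have := congrFun h2 g
    simp only [Function.comp_apply] at this
    rw [this, hmt', hz]
  · intro g
    rfl
  · funext g
    rfl

/-- Every hyper-2-cocycle of the induced resolution is a pull-back up to a hyper-coboundary. -/
theorem exists_pull2 {c2' : G × G → ((G → P0) →ₗ[k] C)} {c1' : G → (↥(indP1 R) →ₗ[k] C)}
    (h : IsHyper2 ((ind R).datum ρC) c2' c1') :
    ∃ (c2 : G × G → (P0 →ₗ[k] C)) (c1 : G → (P1 →ₗ[k] C)) (b0 : G → ((G → P0) →ₗ[k] C)),
      IsHyper2 (R.datum ρC) c2 c1 ∧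
      c2' = pullC2 c2 + bdryC2 ((ind R).datum ρC) b0 ∧
      c1' = pullC1 R c1 + bdryC1 ((ind R).datum ρC) b0 0 := by
  set D' := (ind R).datum ρC with hD'
  set b0 : G → ((G → P0) →ₗ[k] C) := fun g => c1' g ∘ₗ kerEmb R with hb0
  set c2'' : G × G → ((G → P0) →ₗ[k] C) := c2' - bdryC2 D' b0 with hc2''
  set c1'' : G → (↥(indP1 R) →ₗ[k] C) := c1' - bdryC1 D' b0 0 with hc1''
  have hcoc : IsHyper2 D' c2'' c1'' := h.sub (isHyper2_bdry b0 0)
  -- `c1''` kills `kerEmb`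
  have k2 : ∀ g φ, c1'' g (kerEmb R φ) = 0 := by
    intro g φ
    simp only [hc1'', hb0, bdryC1, hD', Pi.sub_apply, LinearMap.sub_apply, Res.datum_f,
      LinearMap.comp_apply, dZero_apply, map_zero, sub_zero]
    rw [kerEmb_ι_kerEmb, sub_self]
  have k4 : ∀ g, c1'' g = (c1'' g ∘ₗ lift1 R) ∘ₗ proj1 R := fun g => eq_comp_proj1 R (k2 g)
  have k3 : ∀ g w, proj1 R w = 0 → c1'' g w = 0 := by
    intro g w hw
    rw [k4 g, LinearMap.comp_apply, hw, map_zero]
  -- `c2''` factors through the augmentation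
  have k5 : ∀ q φ, c2'' q φ = c2'' q (sec (k := k) (G := G) P0 (aug (k := k) P0 φ)) := by
    intro q φ
    obtain ⟨g, j⟩ := q
    have h1 := LinearMap.congr_fun (hcoc.2 (g, j)) (kerEmb R φ)
    simp only [hD', Res.datum_f, Res.datum_ρY1, LinearMap.comp_apply, LinearMap.sub_apply,
      LinearMap.add_apply, dOne_apply] at h1
    rw [k2, k2, k3 _ _ (by rw [proj1_comm, proj1_kerEmb, map_zero]), map_zero, ι_kerEmb,
      map_sub] at h1
    simpa [sub_eq_zero] using h1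
  set c2 : G × G → (P0 →ₗ[k] C) := fun q => c2'' q ∘ₗ sec (k := k) (G := G) P0 with hc2
  set c1 : G → (P1 →ₗ[k] C) := fun g => c1'' g ∘ₗ lift1 R with hc1
  have hp2 : pullC2 c2 = c2'' := by
    funext q
    refine LinearMap.ext fun φ => ?_
    simp only [pullC2, hc2, LinearMap.comp_apply]
    exact (k5 q φ).symm
  have hp1 : pullC1 R c1 = c1'' := funext fun g => (k4 g).symm
  refine ⟨c2, c1, b0, ⟨?_, fun q => ?_⟩, ?_, ?_⟩
  · -- dTwo c2 = 0
    have h1 := dTwo_pullC2 R ρC c2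
    rw [hp2] at h1
    have h2 : dTwo D'.ρY0 c2'' = 0 := hcoc.1
    funext q
    ext x
    obtain ⟨φ, rfl⟩ := aug_surjective (k := k) (G := G) x
    have h3 := congrFun h1 q
    rw [h2] at h3
    have h4 := LinearMap.congr_fun h3 φ
    simp only [Pi.zero_apply, LinearMap.zero_apply, LinearMap.comp_apply] at h4
    simpa using h4.symm
  · -- f (c2 q) = dOne c1 q
    ext x
    have h1 := LinearMap.congr_fun (hcoc.2 q) (lift1 R x)
    rw [← hp2, ← hp1, dOne_pullC1] at h1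
    simp only [hD', Res.datum_f, LinearMap.comp_apply, pullC2, aug_ι_ind, proj1_lift1] at h1
    simpa using h1
  · rw [hp2, hc2'']; abel
  · rw [hp1, hc1'']; abel

/-! ### The reductions -/

/-- **Right kernel**: it suffices to treat the induced resolution. -/
theorem TNr20_of_ind (h : TNr20Prop ((ind R).datum ρC)) : TNr20Prop (R.datum ρC) := by
  intro mt z hz hpair
  obtain ⟨mt', z', hl, hm, hzz⟩ := exists_lift0_ind R ρC hz
  obtain ⟨a, ha⟩ := h mt' z' hl (fun c2' c1' hc' => by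
    obtain ⟨c2, c1, b0, hc, h2, h1⟩ := exists_pull2 R ρC hc'
    obtain ⟨u, hu⟩ := hpair c2 c1 hc
    refine ⟨u + fun a => ((ind R).datum ρC).ev0 (b0 a) (((ind R).datum ρC).ρF0 a mt') +
      ((ind R).datum ρC).ev1 0 (z' a), ?_⟩
    rw [h2, h1, pair20Fun_add_left, pair20Fun_pull, hm, hzz, hu, pair20Fun_bdry_left b0 0 hl,
      map_add]
    rfl)
  refine ⟨a, ?_⟩
  have ha' : R.π (aug (k := k) P0 mt') = ∑ g : G, R.ρM g a := ha
  rw [← hm]
  exact ha'

/-- **Left kernel**: it suffices to treat the induced resolution. -/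
theorem TNl20_of_ind (h : TNl20Prop ((ind R).datum ρC)) : TNl20Prop (R.datum ρC) := by
  intro c2 c1 hc hpair
  set D' := (ind R).datum ρC with hD'
  obtain ⟨b0', y1', h2, h1⟩ := h (pullC2 c2) (pullC1 R c1) (isHyper2_pull R ρC hc)
    (fun mt' z' hl => by
      obtain ⟨u, hu⟩ := hpair _ _ (isLift0_push R ρC hl)
      exact ⟨u, by rw [pair20Fun_pull, hu]; rfl⟩)
  -- normalise `(b0', y1')` by the hyper-coboundary `D⁰ (y1' ∘ kerEmb)`
  set y₀ : (G → P0) →ₗ[k] C := y1' ∘ₗ kerEmb R with hy₀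
  set b0'' : G → ((G → P0) →ₗ[k] C) := b0' - dZero D'.ρY0 y₀ with hb0''
  set y1'' : ↥(indP1 R) →ₗ[k] C := y1' - D'.f y₀ with hy1''
  have e2 : bdryC2 D' b0'' = bdryC2 D' b0' := by
    simp only [bdryC2, hb0'', map_sub, dOne_dZero, sub_zero]
  have e1 : bdryC1 D' b0'' y1'' = bdryC1 D' b0' y1' := by
    funext a
    simp only [bdryC1, hb0'', hy1'', Pi.sub_apply, map_sub, dZero_apply, D'.f_comm]
    abel
  rw [← e2] at h2
  rw [← e1] at h1
  -- `y1''` kills `kerEmb`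
  have r1 : ∀ φ, y1'' (kerEmb R φ) = 0 := by
    intro φ
    simp only [hy1'', hy₀, hD', LinearMap.sub_apply, Res.datum_f, LinearMap.comp_apply]
    rw [kerEmb_ι_kerEmb, sub_self]
  have r1' : y1'' = (y1'' ∘ₗ lift1 R) ∘ₗ proj1 R := eq_comp_proj1 R r1
  set y1 : P1 →ₗ[k] C := y1'' ∘ₗ lift1 R with hy1
  -- `b0''` factors through the augmentation
  have r2 : ∀ g φ, b0'' g φ = b0'' g (sec (k := k) (G := G) P0 (aug (k := k) P0 φ)) := by
    intro g φ
    have h3 := LinearMap.congr_fun (congrFun h1 g) (kerEmb R φ)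
    simp only [pullC1, bdryC1, hD', Res.datum_f, Res.datum_ρY1, LinearMap.comp_apply,
      LinearMap.sub_apply, dZero_apply, proj1_kerEmb, map_zero] at h3
    rw [r1, r1' , LinearMap.comp_apply, proj1_comm, proj1_kerEmb, map_zero, map_zero, map_zero,
      sub_zero, sub_zero, ι_kerEmb, map_sub] at h3
    exact (sub_eq_zero.1 h3.symm)
  set b0 : G → (P0 →ₗ[k] C) := fun g => b0'' g ∘ₗ sec (k := k) (G := G) P0 with hb0
  have r2' : b0'' = fun g => b0 g ∘ₗ aug (k := k) P0 :=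
    funext fun g => LinearMap.ext fun φ => r2 g φ
  refine ⟨b0, y1, ?_, ?_⟩
  · -- c2 = dOne b0
    funext q
    ext x
    obtain ⟨φ, rfl⟩ := aug_surjective (k := k) (G := G) x
    have h3 := LinearMap.congr_fun (congrFun h2 q) φ
    rw [r2'] at h3
    simp only [bdryC2] at h3
    rw [dOne_pullC0] at h3
    simpa [pullC2, bdryC2] using h3
  · -- c1 = f ∘ b0 - dZero y1
    funext g
    ext x
    have h3 := LinearMap.congr_fun (congrFun h1 g) (lift1 R x)
    rw [r1', r2'] at h3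
    simp only [bdryC1] at h3
    rw [dZero_pullY1] at h3
    simp only [pullC1, hD', Res.datum_f, LinearMap.comp_apply, LinearMap.sub_apply, aug_ι_ind,
      proj1_lift1] at h3
    simpa [bdryC1] using h3

/-- **Hyper Tate–Nakayama `(2,0)`, right kernel**, for any resolution `0 → P₁ → P₀ → M → 0` of a
module killed by `p` over a finite group, from the `(1,1)` statement for
`P₁' = Fun(G, P₀) ×_{P₀} P₁`. -/
theorem TNr20 (hpM : ∀ m : M, (p : k) • m = 0) (hTN : TN11rProp (indρ1 R) ρC p) :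
    TNr20Prop (R.datum ρC) :=
  TNr20_of_ind R ρC (TNr20_ind R ρC p hpM hTN)

/-- **Hyper Tate–Nakayama `(2,0)`, left kernel.** -/
theorem TNl20 (hpM : ∀ m : M, (p : k) • m = 0) (hTN : TN11lProp (indρ1 R) ρC p) :
    TNl20Prop (R.datum ρC) :=
  TNl20_of_ind R ρC (TNl20_ind R ρC p hpM hTN)

end Ind

end Fermat.Agent.TW.P20Ind44
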