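/-
Programme TW (S56), sub-programme C, brick C2 (tail of Poitou–Tate), owner helper44.

**Raw cochain forms of (TN11)** consumed by `P20Ind44.TNl20 / TNr20`:

* `tn11l_raw : P20Ind44.TN11lProp ρ ρC p`, `tn11r_raw : P20Ind44.TN11rProp ρ ρC p` for a finite
  group `G`, `ρ` a representation on a finite free `ℤ`-module `P` (ANY `Module ℤ P` instance), `ρC`
  a representation with a class `u ∈ H²(G, C)` with `Interface8.IsFundClass p (Rep.of ρC) u`.

Twin of `PT/FG/TN02Final3.tn02r_raw / tn02l_raw`.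
-/
import Mathlib
import Fermat.Agent.PT.FG.TN02Final3
import Fermat.Agent.TW.P20Ind44

set_option autoImplicit false

open CategoryTheory groupCohomology

namespace Fermat.Agent.TW.P20TN11Raw44

open Fermat.Agent.PT.FG.Interface8 Fermat.Agent.PT.FG.TNDual1 Fermat.Agent.PT.FG.TN02_3
open Fermat.Agent.PT.FG.TN02Final3
open Fermat.Agent.PT.PRO.HyperLevel25 Fermat.Agent.TW.P20Ind44

section Gen

variable {k : Type} [CommRing k] {G : Type} [Group G]
  {P : Type} [AddCommGroup P] [Module k P] (ρ : Representation k G P)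

lemma mem_cocycles₁_of_dOne {x : G → P} (hx : dOne ρ x = 0) :
    x ∈ cocycles₁ (Rep.of ρ) := by
  rw [mem_cocycles₁_def]
  intro g h
  have := congrFun hx (g, h)
  rw [dOne_apply, Pi.zero_apply] at this
  exact this

lemma dOne_of_mem_cocycles₁ (x : cocycles₁ (Rep.of ρ)) : dOne ρ (x : G → P) = 0 := by
  funext ⟨g, h⟩
  have := (mem_cocycles₁_def (A := Rep.of ρ) x).1 x.2 g h
  rw [dOne_apply, Pi.zero_apply]
  exact this

lemma mem_coboundaries₁_iff (x : G → P) :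
    x ∈ coboundaries₁ (Rep.of ρ) ↔ ∃ w : P, x = dZero ρ w := by
  constructor
  · rintro ⟨t, ht⟩
    exact ⟨t, ht.symm⟩
  · rintro ⟨t, ht⟩
    exact ⟨t, ht.symm⟩

end Gen

section Raw

variable {G : Type} [Group G]
  {P C : Type} [AddCommGroup P] [Module ℤ P] [AddCommGroup C] [Module ℤ C]
  (ρ : Representation ℤ G P) (ρC : Representation ℤ G C)

lemma mem_cocycles₁_hom {k : Type} [CommRing k] {P C : Type} [AddCommGroup P] [Module k P]
    [AddCommGroup C] [Module k C] (ρ : Representation k G P) (ρC : Representation k G C)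
    {ξ : G → (P →ₗ[k] C)} (hξ : dOne (Representation.linHom ρ ρC) ξ = 0) :
    ξ ∈ cocycles₁ ((Rep.ihom (Rep.of ρ)).obj (Rep.of ρC)) :=
  mem_cocycles₁_of_dOne (Representation.linHom ρ ρC) hξ

lemma dOne_of_mem_cocycles₁_hom {k : Type} [CommRing k] {P C : Type} [AddCommGroup P] [Module k P]
    [AddCommGroup C] [Module k C] (ρ : Representation k G P) (ρC : Representation k G C)
    (f : cocycles₁ ((Rep.ihom (Rep.of ρ)).obj (Rep.of ρC))) :
    dOne (Representation.linHom ρ ρC) (f : G → (P →ₗ[k] C)) = 0 :=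
  dOne_of_mem_cocycles₁ (Representation.linHom ρ ρC) f

lemma mem_coboundaries₁_hom_iff {k : Type} [CommRing k] {P C : Type} [AddCommGroup P] [Module k P]
    [AddCommGroup C] [Module k C] (ρ : Representation k G P) (ρC : Representation k G C)
    (ξ : G → (P →ₗ[k] C)) :
    ξ ∈ coboundaries₁ ((Rep.ihom (Rep.of ρ)).obj (Rep.of ρC)) ↔
      ∃ y : P →ₗ[k] C, ξ = dZero (Representation.linHom ρ ρC) y :=
  mem_coboundaries₁_iff (Representation.linHom ρ ρC) ξ

lemma natCast_smul_hom {k : Type} [CommRing k] {P C : Type} [AddCommGroup P] [Module k P]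
    [AddCommGroup C] [Module k C] (p : ℕ) (ξ : P →ₗ[k] C) : (p : k) • ξ = p • ξ :=
  Nat.cast_smul_eq_nsmul k p ξ

variable [Finite G] (p : ℕ) [Fact p.Prime]

/-- **Raw TN11, left kernel.** -/
theorem tn11l_raw (hfree : Module.Free ℤ P) (hfin : Module.Finite ℤ P)
    (u : H2 (Rep.of ρC)) (hu : IsFundClass p (Rep.of ρC) u) : TN11lProp ρ ρC p := by
  intro ξ hξ ⟨y', hy'⟩ hpair
  obtain ⟨B, hB, hBl, -⟩ := Fermat.Agent.PT.FG.TNOneOneFinal1.tn11 G p (Rep.of ρC) u hu (Rep.of ρ)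
    (free_int_congr _ _ hfree) (finite_int_congr _ _ hfin)
  let f : cocycles₁ ((Rep.ihom (Rep.of ρ)).obj (Rep.of ρC)) := ⟨ξ, mem_cocycles₁_hom ρ ρC hξ⟩
  have hf0 : H1π ((Rep.ihom (Rep.of ρ)).obj (Rep.of ρC)) f = 0 := by
    refine hBl _ ⟨1, ?_⟩ fun η => ?_
    · rw [pow_one, ← map_nsmul, H1π_eq_zero_iff]
      refine (mem_coboundaries₁_hom_iff ρ ρC _).2 ⟨y', ?_⟩
      rw [← hy']
      funext g
      exact (natCast_smul_hom p (ξ g)).symm
    · induction η using H1_induction_on with | @h x =>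
      obtain ⟨u', hu'⟩ := hpair x (dOne_of_mem_cocycles₁ ρ x)
      have hmem : (fun q : G × G => ξ q.1 (ρ q.1 ((x : G → P) q.2))) ∈ cocycles₂ (Rep.of ρC) :=
        coboundaries₂_le_cocycles₂ (Rep.of ρC) ((mem_coboundaries₂_iff ρC _).2 ⟨u', hu'⟩)
      rw [hB f x ⟨_, hmem⟩ rfl, H2π_eq_zero_iff]
      exact (mem_coboundaries₂_iff ρC _).2 ⟨u', hu'⟩
  rw [H1π_eq_zero_iff] at hf0
  exact (mem_coboundaries₁_hom_iff ρ ρC _).1 hf0

/-- **Raw TN11, right kernel.** -/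
theorem tn11r_raw (hfree : Module.Free ℤ P) (hfin : Module.Finite ℤ P)
    (u : H2 (Rep.of ρC)) (hu : IsFundClass p (Rep.of ρC) u) : TN11rProp ρ ρC p := by
  intro x hx ⟨w', hw'⟩ hpair
  obtain ⟨B, hB, -, hBr⟩ := Fermat.Agent.PT.FG.TNOneOneFinal1.tn11 G p (Rep.of ρC) u hu (Rep.of ρ)
    (free_int_congr _ _ hfree) (finite_int_congr _ _ hfin)
  let x' : cocycles₁ (Rep.of ρ) := ⟨x, mem_cocycles₁_of_dOne ρ hx⟩
  have hx0 : H1π (Rep.of ρ) x' = 0 := by
    refine hBr _ ⟨1, ?_⟩ fun η => ?_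
    · rw [pow_one, ← map_nsmul, H1π_eq_zero_iff]
      refine (mem_coboundaries₁_iff ρ _).2 ⟨w', ?_⟩
      rw [← hw']
      funext g
      exact (@Nat.cast_smul_eq_nsmul ℤ P _ _ ‹Module ℤ P› p (x g)).symm
    · induction η using H1_induction_on with | @h f =>
      obtain ⟨u', hu'⟩ := hpair f (dOne_of_mem_cocycles₁_hom ρ ρC f)
      have hmem : cup11 (Rep.of ρ) (Rep.of ρC) f x' ∈ cocycles₂ (Rep.of ρC) :=
        coboundaries₂_le_cocycles₂ (Rep.of ρC) ((mem_coboundaries₂_iff ρC _).2 ⟨u', hu'⟩)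
      rw [hB f x' ⟨_, hmem⟩ rfl, H2π_eq_zero_iff]
      exact (mem_coboundaries₂_iff ρC _).2 ⟨u', hu'⟩
  rw [H1π_eq_zero_iff] at hx0
  exact (mem_coboundaries₁_iff ρ _).1 hx0

end Raw

end Fermat.Agent.TW.P20TN11Raw44
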