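/-
Programme TW (S56), sub-programme C, brick C2 (tail of Poitou–Tate), owner helper44.

`P20Fund44`: **`P20Limit44.HypL20 / HypR20` for `K(P; C) = R.datum ρC` from fundamental classes at
the finite levels** (twin of `PT/PRO/DescendRes18` + `PT/PRO/HypPFund18` for the `(2,0)` pairing).

* `DatumIso.finTNl20`, `DatumIso.finTNr20` : transport of the finite statements along
  `DescendRes18.DatumIso`;
* `tnl20At_datum_of_TN11`, `tnr20At_datum_of_TN11` : the level-`V` statements for `K(P; C)` from the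
  raw `(1,1)` Tate–Nakayama statements over `G ⧸ V` for `P₁' = Fun(G/V, P₀) ×_{P₀} P₁`;
* `hp20At_datum` : `p` kills the level-`V` hyper-2-classes (`p M = 0`);
* `hypL20_datum`, `hypR20_datum` : assembly;
* `k = ℤ`: `hypL20Datum_of_isFundClass`, `hypR20Datum_of_isFundClass`.
-/
import Mathlib
import Fermat.Agent.PT.PRO.HypPFund18
import Fermat.Agent.TW.P20Limit44
import Fermat.Agent.TW.P20Ind44
import Fermat.Agent.TW.P20TN11Raw44

set_option autoImplicit false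

namespace Fermat.Agent.TW.P20Fund44

open Fermat.Agent.PT.PRO.HyperLevel25 Fermat.Agent.PT.PRO.Pairing20
  Fermat.Agent.PT.PRO.GlobalDuality20
  Fermat.Agent.PT.PRO.HyperColim18 Fermat.Agent.PT.PRO.HyperColimP18
  Fermat.Agent.PT.PRO.IndRes20 Fermat.Agent.PT.PRO.DescendRes18 Fermat.Agent.PT.PRO.FundRaw18
  Fermat.Agent.TW.P20Datum44 Fermat.Agent.TW.P20Colim44 Fermat.Agent.TW.P20Limit44
  Fermat.Agent.TW.P20Ind44

/-! ### Transport along an isomorphism of data -/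

section Iso

variable {k : Type*} [CommRing k] {Q : Type*} [Group Q]

variable {Y0 Y1 F0 F1 A X : Type*}
  [AddCommGroup Y0] [Module k Y0] [AddCommGroup Y1] [Module k Y1]
  [AddCommGroup F0] [Module k F0] [AddCommGroup F1] [Module k F1]
  [AddCommGroup A] [Module k A] [AddCommGroup X] [Module k X]
variable {Y0' Y1' F0' F1' A' X' : Type*}
  [AddCommGroup Y0'] [Module k Y0'] [AddCommGroup Y1'] [Module k Y1']
  [AddCommGroup F0'] [Module k F0'] [AddCommGroup F1'] [Module k F1']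
  [AddCommGroup A'] [Module k A'] [AddCommGroup X'] [Module k X']

variable {D : Datum k Q Y0 Y1 F0 F1 A X} {D' : Datum k Q Y0' Y1' F0' F1' A' X'}
  (e : DatumIso D D')

lemma isHyper2_map {c2 : Q × Q → Y0} {c1 : Q → Y1} (h : IsHyper2 D c2 c1) :
    IsHyper2 D' (⇑e.eY0 ∘ c2) (⇑e.eY1 ∘ c1) := by
  refine ⟨?_, fun q => ?_⟩
  · have h1 : ⇑e.eY0 ∘ dTwo D.ρY0 c2 = dTwo D'.ρY0 (⇑e.eY0 ∘ c2) :=
      comp_dTwo D.ρY0 D'.ρY0 e.eY0.toLinearMap e.ρY0_comm c2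
    rw [← h1, h.1]
    funext q
    simp
  · have h1 : ⇑e.eY1 ∘ dOne D.ρY1 c1 = dOne D'.ρY1 (⇑e.eY1 ∘ c1) :=
      comp_dOne D.ρY1 D'.ρY1 e.eY1.toLinearMap e.ρY1_comm c1
    rw [← h1, Function.comp_apply, Function.comp_apply, ← e.f_comm, h.2 q]

lemma isHyper2_symm {c2' : Q × Q → Y0'} {c1' : Q → Y1'} (h : IsHyper2 D' c2' c1') :
    IsHyper2 D (⇑e.eY0.symm ∘ c2') (⇑e.eY1.symm ∘ c1') := by
  have h20 : ⇑e.eY0 ∘ ⇑e.eY0.symm ∘ c2' = c2' := by funext g; simp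
  have h10 : ⇑e.eY1 ∘ ⇑e.eY1.symm ∘ c1' = c1' := by funext g; simp
  refine ⟨?_, fun q => ?_⟩
  · funext q
    apply e.eY0.injective
    have h1 : ⇑e.eY0 ∘ dTwo D.ρY0 (⇑e.eY0.symm ∘ c2') = dTwo D'.ρY0 (⇑e.eY0 ∘ ⇑e.eY0.symm ∘ c2') :=
      comp_dTwo D.ρY0 D'.ρY0 e.eY0.toLinearMap e.ρY0_comm _
    rw [h20, h.1] at h1
    have h3 := congrFun h1 q
    rw [Function.comp_apply] at h3
    rw [h3]
    simp
  · apply e.eY1.injective
    have h1 : ⇑e.eY1 ∘ dOne D.ρY1 (⇑e.eY1.symm ∘ c1') = dOne D'.ρY1 (⇑e.eY1 ∘ ⇑e.eY1.symm ∘ c1') :=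
      comp_dOne D.ρY1 D'.ρY1 e.eY1.toLinearMap e.ρY1_comm _
    rw [h10] at h1
    have h3 := congrFun h1 q
    rw [Function.comp_apply] at h3
    rw [h3, e.f_comm, Function.comp_apply, LinearEquiv.apply_symm_apply]
    exact h.2 q

lemma isLift0_map {mt : F0} {z : Q → F1} (h : IsLift0 D mt z) :
    IsLift0 D' (e.eF0 mt) (⇑e.eF1 ∘ z) := by
  intro g
  rw [Function.comp_apply, ← e.ι_comm, h g, dZero_apply, dZero_apply, map_sub, e.ρF0_comm]

lemma isLift0_symm {mt' : F0'} {z' : Q → F1'} (h : IsLift0 D' mt' z') :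
    IsLift0 D (e.eF0.symm mt') (⇑e.eF1.symm ∘ z') := by
  intro g
  apply e.eF0.injective
  rw [e.ι_comm, Function.comp_apply, LinearEquiv.apply_symm_apply, h g, dZero_apply, dZero_apply,
    map_sub, e.ρF0_comm, LinearEquiv.apply_symm_apply]

lemma pair20Fun_map (c2 : Q × Q → Y0) (c1 : Q → Y1) (mt : F0) (z : Q → F1) :
    pair20Fun D' (⇑e.eY0 ∘ c2) (⇑e.eY1 ∘ c1) (e.eF0 mt) (⇑e.eF1 ∘ z) =
      ⇑e.eX ∘ pair20Fun D c2 c1 mt z := by
  funext ⟨g, h⟩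
  simp only [pair20Fun_apply, Function.comp_apply, map_sub, e.ev0_comm, e.ev1_comm,
    e.ρF0_comm, e.ρF1_comm]

/-- `FinTNl20` transports along an isomorphism of data. -/
theorem _root_.Fermat.Agent.PT.PRO.DescendRes18.DatumIso.finTNl20 (e : DatumIso D D')
    (h : FinTNl20 D') : FinTNl20 D := by
  intro c2 c1 hc hpair
  obtain ⟨b0', y1', h2, h1⟩ := h (⇑e.eY0 ∘ c2) (⇑e.eY1 ∘ c1) (isHyper2_map e hc)
    (fun mt' z' hz' => by
      obtain ⟨u, hu⟩ := hpair _ _ (isLift0_symm e hz')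
      refine ⟨⇑e.eX ∘ u, ?_⟩
      have h3 := pair20Fun_map e c2 c1 (e.eF0.symm mt') (⇑e.eF1.symm ∘ z')
      have h4 : ⇑e.eF1 ∘ ⇑e.eF1.symm ∘ z' = z' := by funext g; simp
      rw [LinearEquiv.apply_symm_apply, h4, hu] at h3
      rw [h3]
      exact comp_dOne D.ρX D'.ρX e.eX.toLinearMap e.ρX_comm u)
  refine ⟨⇑e.eY0.symm ∘ b0', e.eY1.symm y1', ?_, ?_⟩
  · funext q
    apply e.eY0.injective
    have h3 := congrFun h2 q
    rw [Function.comp_apply] at h3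
    have h4 : ⇑e.eY0 ∘ dOne D.ρY0 (⇑e.eY0.symm ∘ b0') = dOne D'.ρY0 (⇑e.eY0 ∘ ⇑e.eY0.symm ∘ b0') :=
      comp_dOne D.ρY0 D'.ρY0 e.eY0.toLinearMap e.ρY0_comm _
    have h5 : ⇑e.eY0 ∘ ⇑e.eY0.symm ∘ b0' = b0' := by funext g; simp
    rw [h5] at h4
    have h6 := congrFun h4 q
    rw [Function.comp_apply] at h6
    rw [h3]
    exact h6.symm
  · funext a
    apply e.eY1.injective
    have h3 := congrFun h1 a
    rw [Function.comp_apply] at h3
    rw [h3]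
    show D'.f (b0' a) - dZero D'.ρY1 y1' a =
      e.eY1 (D.f ((⇑e.eY0.symm ∘ b0') a) - dZero D.ρY1 (e.eY1.symm y1') a)
    rw [map_sub, e.f_comm, Function.comp_apply, LinearEquiv.apply_symm_apply, dZero_apply,
      dZero_apply, map_sub, e.ρY1_comm, LinearEquiv.apply_symm_apply]

/-- `FinTNr20` transports along an isomorphism of data. -/
theorem _root_.Fermat.Agent.PT.PRO.DescendRes18.DatumIso.finTNr20 (e : DatumIso D D')
    (h : FinTNr20 D') : FinTNr20 D := by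
  intro mt z hz hpair
  obtain ⟨a', ha'⟩ := h (e.eF0 mt) (⇑e.eF1 ∘ z) (isLift0_map e hz) (fun c2' c1' hc' => by
    obtain ⟨u, hu⟩ := hpair _ _ (isHyper2_symm e hc')
    refine ⟨⇑e.eX ∘ u, ?_⟩
    have h3 := pair20Fun_map e (⇑e.eY0.symm ∘ c2') (⇑e.eY1.symm ∘ c1') mt z
    have h4 : ⇑e.eY0 ∘ ⇑e.eY0.symm ∘ c2' = c2' := by funext g; simp
    have h5 : ⇑e.eY1 ∘ ⇑e.eY1.symm ∘ c1' = c1' := by funext g; simp
    rw [h4, h5, hu] at h3
    rw [h3]
    exact comp_dOne D.ρX D'.ρX e.eX.toLinearMap e.ρX_comm u)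
  refine ⟨e.eA.symm a', ?_⟩
  apply e.eA.injective
  rw [e.π_comm, ha']
  have h3 := AddMonoidHom.map_finsum_of_injective e.eA.toLinearMap.toAddMonoidHom
    e.eA.injective (fun q : Q => D.ρA q (e.eA.symm a'))
  simp only [LinearMap.toAddMonoidHom_coe, LinearEquiv.coe_coe] at h3
  rw [h3]
  refine finsum_congr (fun q => ?_)
  rw [e.ρA_comm, LinearEquiv.apply_symm_apply]

end Iso

/-! ### The level statements for `K(P; C)` -/

section Quot

variable {k : Type*} [CommRing k] {G : Type*} [Group G] {P1 P0 M C : Type*}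
  [AddCommGroup P1] [Module k P1] [AddCommGroup P0] [Module k P0] [AddCommGroup M] [Module k M]
  [AddCommGroup C] [Module k C]

variable (R : Res k G P1 P0 M) (ρC : Representation k G C) (V : Subgroup G) [V.Normal]
  (h0 : ∀ s ∈ V, ∀ x, R.ρ0 s x = x)

/-- `TNl20At` at `V` for `K(P; C)` from `FinTNl20` of `K(P; C^V)` over `G ⧸ V`. -/
theorem tnl20At_datum (h : FinTNl20 ((resQuot R V h0).datum (fixedRep V ρC))) :
    TNl20At (R.datum ρC) V :=
  tnl20At_of_descend (R.datum ρC) V (hπ_datum R ρC V h0) ((descendIso R ρC V h0).finTNl20 h)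

/-- `TNr20At` at `V` for `K(P; C)` from `FinTNr20` of `K(P; C^V)` over `G ⧸ V`. -/
theorem tnr20At_datum (h : FinTNr20 ((resQuot R V h0).datum (fixedRep V ρC))) :
    TNr20At (R.datum ρC) V :=
  tnr20At_of_descend (R.datum ρC) V (hπ_datum R ρC V h0) ((descendIso R ρC V h0).finTNr20 h)

omit [V.Normal] in
lemma finTNl20_of_TNl20Prop {Q : Type*} [Group Q] [Fintype Q] [DecidableEq Q]
    {Y0 Y1 F0 F1 A X : Type*}
    [AddCommGroup Y0] [Module k Y0] [AddCommGroup Y1] [Module k Y1]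
    [AddCommGroup F0] [Module k F0] [AddCommGroup F1] [Module k F1]
    [AddCommGroup A] [Module k A] [AddCommGroup X] [Module k X]
    {D : Datum k Q Y0 Y1 F0 F1 A X} (h : TNl20Prop D) : FinTNl20 D := h

omit [V.Normal] in
lemma finTNr20_of_TNr20Prop {Q : Type*} [Group Q] [Fintype Q] [DecidableEq Q]
    {Y0 Y1 F0 F1 A X : Type*}
    [AddCommGroup Y0] [Module k Y0] [AddCommGroup Y1] [Module k Y1]
    [AddCommGroup F0] [Module k F0] [AddCommGroup F1] [Module k F1]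
    [AddCommGroup A] [Module k A] [AddCommGroup X] [Module k X]
    {D : Datum k Q Y0 Y1 F0 F1 A X} (h : TNr20Prop D) : FinTNr20 D := by
  intro mt z hz hpair
  obtain ⟨a, ha⟩ := h mt z hz hpair
  exact ⟨a, by rw [ha, finsum_eq_sum_of_fintype]⟩

/-- **`TNl20At` at level `V` from the raw `(1,1)` Tate–Nakayama statement** for the induced module
`P₁'` of the quotient resolution over the finite group `G ⧸ V`. -/
theorem tnl20At_datum_of_TN11 [Fintype (G ⧸ V)] [DecidableEq (G ⧸ V)] (p : ℕ)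
    (hpM : ∀ m : M, (p : k) • m = 0)
    (hTN : TN11lProp (indρ1 (resQuot R V h0)) (fixedRep V ρC) p) :
    TNl20At (R.datum ρC) V :=
  tnl20At_datum R ρC V h0
    (finTNl20_of_TNl20Prop (TNl20 (resQuot R V h0) (fixedRep V ρC) p hpM hTN))

/-- **`TNr20At` at level `V` from the raw `(1,1)` Tate–Nakayama statement.** -/
theorem tnr20At_datum_of_TN11 [Fintype (G ⧸ V)] [DecidableEq (G ⧸ V)] (p : ℕ)
    (hpM : ∀ m : M, (p : k) • m = 0)
    (hTN : TN11rProp (indρ1 (resQuot R V h0)) (fixedRep V ρC) p) :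
    TNr20At (R.datum ρC) V :=
  tnr20At_datum R ρC V h0
    (finTNr20_of_TNr20Prop (TNr20 (resQuot R V h0) (fixedRep V ρC) p hpM hTN))

end Quot

/-! ### `p` kills the hyper-2-classes of `K(P; C)` -/

section Hp

variable {k : Type*} [CommRing k] {G : Type*} [Group G] {P1 P0 M C : Type*}
  [AddCommGroup P1] [Module k P1] [AddCommGroup P0] [Module k P0] [AddCommGroup M] [Module k M]
  [AddCommGroup C] [Module k C]

/-- The core computation: for a hyper-2-cocycle `(c₂, c₁)` of `K(P; C)` and `h : P₀ → P₁`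
equivariant with `ι h = a`, `h ι = a`: `a • (c₂, c₁) = D¹ (c₁ ∘ h, 0)`. -/
theorem smul_eq_of_homotopy20 (R : Res k G P1 P0 M) (ρC : Representation k G C) (a : k)
    (h : P0 →ₗ[k] P1) (h1 : ∀ x, R.ι (h x) = a • x) (h2 : ∀ z, h (R.ι z) = a • z)
    {c2 : G × G → (P0 →ₗ[k] C)} {c1 : G → (P1 →ₗ[k] C)} (hc : IsHyper2 (R.datum ρC) c2 c1) :
    a • c2 = bdryC2 (R.datum ρC) (fun g => c1 g ∘ₗ h) ∧
      a • c1 = bdryC1 (R.datum ρC) (fun g => c1 g ∘ₗ h) 0 := by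
  have he : ∀ g x, h (R.ρ0 g x) = R.ρ1 g (h x) :=
    Fermat.Agent.PT.PRO.HomCx29.homotopy_equivariant R.ι R.ι_comm R.ι_inj a h h1
  refine ⟨?_, ?_⟩
  · funext ⟨g, g'⟩
    have hq := hc.2 (g, g')
    apply LinearMap.ext
    intro x
    have hx := LinearMap.congr_fun hq (h x)
    simp only [Res.datum_f, LinearMap.comp_apply, h1, map_smul, dOne_apply, LinearMap.sub_apply,
      LinearMap.add_apply, Res.datum_ρY1] at hx
    simp only [Pi.smul_apply, LinearMap.smul_apply, bdryC2, dOne_apply, Res.datum_ρY0,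
      LinearMap.sub_apply, LinearMap.add_apply, LinearMap.comp_apply, he]
    exact hx
  · funext g
    apply LinearMap.ext
    intro z
    simp only [bdryC1, Res.datum_f, LinearMap.comp_apply, h2, map_smul, Pi.smul_apply,
      LinearMap.smul_apply, map_zero, Pi.zero_apply, sub_zero]

/-- **`Hp20At` for `K(P; C)`**, `p M = 0`. -/
theorem hp20At_datum (R : Res k G P1 P0 M) (ρC : Representation k G C) (p : ℕ)
    (hp : ∀ m : M, (p : k) • m = 0) (V : Subgroup G) : Hp20At (R.datum ρC) V p := by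
  intro c2 c1 hc
  obtain ⟨h, h1, h2⟩ := Fermat.Agent.PT.PRO.HomCx29.exists_homotopy R.ι R.ι_inj (p : k)
    (Fermat.Agent.PT.PRO.HpAt29.smul_mem_range_ι R (p : k) hp)
  have he := Fermat.Agent.PT.PRO.HomCx29.homotopy_equivariant R.ι R.ι_comm R.ι_inj (p : k) h h1
  obtain ⟨e1, e2⟩ := smul_eq_of_homotopy20 R ρC (p : k) h h1 h2 hc.1
  refine ⟨fun g => c1 g ∘ₗ h, 0, ⟨fun g s hs => ?_, fun g =>
    Fermat.Agent.PT.PRO.HpAt29.fixedBy_comp_homotopy R ρC h he (hc.2.2.2 g)⟩, fun s _ => map_zero _,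
    e1, e2⟩
  show c1 (g * s) ∘ₗ h = c1 g ∘ₗ h
  rw [hc.2.2.1 g s hs]

end Hp

/-! ### Assembly -/

section Assembly

variable {k : Type*} [CommRing k] {G : Type*} [Group G] {P1 P0 M C : Type*}
  [AddCommGroup P1] [Module k P1] [AddCommGroup P0] [Module k P0] [AddCommGroup M] [Module k M]
  [AddCommGroup C] [Module k C]

/-- `HypL20 (R.datum ρC) 𝒰 ℱ p`, as a statement about `R`, `ρC` (base modules only; see the
header of `HypPFund18` for the `ℤ`-module diamond). -/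
def HypL20Datum (R : Res k G P1 P0 M) (ρC : Representation k G C) (𝒰 ℱ : Set (Subgroup G))
    (p : ℕ) : Prop :=
  HypL20 (R.datum ρC) 𝒰 ℱ p

/-- `HypR20 (R.datum ρC) 𝒰 ℱ p`, as a statement about `R`, `ρC`. -/
def HypR20Datum (R : Res k G P1 P0 M) (ρC : Representation k G C) (𝒰 ℱ : Set (Subgroup G))
    (p : ℕ) : Prop :=
  HypR20 (R.datum ρC) 𝒰 ℱ p

/-- `TNl20At (R.datum ρC) V`, as a statement about `R`, `ρC`. -/
def TNl20AtDatum (R : Res k G P1 P0 M) (ρC : Representation k G C) (V : Subgroup G) : Prop :=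
  TNl20At (R.datum ρC) V

/-- `TNr20At (R.datum ρC) V`, as a statement about `R`, `ρC`. -/
def TNr20AtDatum (R : Res k G P1 P0 M) (ρC : Representation k G C) (V : Subgroup G) : Prop :=
  TNr20At (R.datum ρC) V

lemma HypL20Datum.hypL20 {R : Res k G P1 P0 M} {ρC : Representation k G C}
    {𝒰 ℱ : Set (Subgroup G)} {p : ℕ} (h : HypL20Datum R ρC 𝒰 ℱ p) :
    HypL20 (R.datum ρC) 𝒰 ℱ p := h

lemma HypR20Datum.hypR20 {R : Res k G P1 P0 M} {ρC : Representation k G C}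
    {𝒰 ℱ : Set (Subgroup G)} {p : ℕ} (h : HypR20Datum R ρC 𝒰 ℱ p) :
    HypR20 (R.datum ρC) 𝒰 ℱ p := h

/-- Norms from deep levels vanish on `M`: every `U ∈ ℱ` contains `V ∈ ℱ` with `N_V = 0` on
`M^V`. -/
def NormZero (ρM : Representation k G M) (ℱ : Set (Subgroup G)) : Prop :=
  ∀ U ∈ ℱ, ∃ V ∈ ℱ, V ≤ U ∧ ∀ a, FixedBy ρM V a → nrm ρM V a = 0

/-- **`HypL20` for `K(P; C)`** from the level statements. -/
theorem hypL20Datum_of_at (R : Res k G P1 P0 M) (ρC : Representation k G C)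
    {𝒰 ℱ : Set (Subgroup G)} {p : ℕ} (h𝒰 : IsLevelBasis 𝒰) (hp : p.Prime)
    (hpM : ∀ m : M, (p : k) • m = 0) (hC : IsDiscrete 𝒰 ρC)
    (hsub : ℱ ⊆ 𝒰) (hnormal : ∀ V ∈ ℱ, V.Normal) (hcof : ∀ U ∈ 𝒰, ∃ V ∈ ℱ, V ≤ U)
    (hTNl : ∀ V ∈ ℱ, TNl20AtDatum R ρC V)
    (hH1 : ∀ V ∈ ℱ, ∀ V' ∈ 𝒰, ∀ _ : V'.Normal, V' ≤ V →
      H1NoPTorsion (fixedRep V' ρC) (V.map (QuotientGroup.mk' V')) p) :
    HypL20Datum R ρC 𝒰 ℱ p where
  sub := hsub
  normal := hnormal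
  cofinal := hcof
  TNl := hTNl
  INJ2p := fun V hV => by
    have := hnormal V hV
    exact inj2pAt_of_noPTorsion h𝒰 ρC hC V (hsub hV) hp (hH1 V hV)
  HpAt := fun V _ => hp20At_datum R ρC p hpM V

/-- **`HypR20` for `K(P; C)`** from the level statements. -/
theorem hypR20Datum_of_at (R : Res k G P1 P0 M) (ρC : Representation k G C)
    {𝒰 ℱ : Set (Subgroup G)} {p : ℕ} (h𝒰 : IsLevelBasis 𝒰) (hp : p.Prime)
    (hpM : ∀ m : M, (p : k) • m = 0) (hC : IsDiscrete 𝒰 ρC)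
    (hsub : ℱ ⊆ 𝒰) (hnormal : ∀ V ∈ ℱ, V.Normal) (hcof : ∀ U ∈ 𝒰, ∃ V ∈ ℱ, V ≤ U)
    (hTNr : ∀ V ∈ ℱ, TNr20AtDatum R ρC V)
    (hH1 : ∀ V ∈ ℱ, ∀ V' ∈ 𝒰, ∀ _ : V'.Normal, V' ≤ V →
      H1NoPTorsion (fixedRep V' ρC) (V.map (QuotientGroup.mk' V')) p)
    (hNZ : NormZero R.ρM ℱ) :
    HypR20Datum R ρC 𝒰 ℱ p where
  sub := hsub
  normal := hnormal
  cofinal := hcof
  TNr := hTNr
  INJ2p := fun V hV => by
    have := hnormal V hV
    exact inj2pAt_of_noPTorsion h𝒰 ρC hC V (hsub hV) hp (hH1 V hV)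
  HpAt := fun V _ => hp20At_datum R ρC p hpM V
  NZ := hNZ

end Assembly

/-! ### `k = ℤ`: the level statements from fundamental classes -/

section Int

open Fermat.Agent.PT.FG.Interface8 Fermat.Agent.PT.PRO.HypPFund18
open CategoryTheory groupCohomology

variable {G : Type} [Group G] {P1 P0 M C : Type} [AddCommGroup P1] [Module ℤ P1]
  [AddCommGroup P0] [Module ℤ P0] [AddCommGroup M] [Module ℤ M] [AddCommGroup C] [Module ℤ C]
  [Module.Free ℤ P0] [Module.Finite ℤ P0] [Module.Free ℤ P1] [Module.Finite ℤ P1]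

/-- **`TNl20At` at level `V`** for `K(P; C)` from a fundamental class on `(G ⧸ V, C^V)`. -/
theorem tnl20AtDatum_of_isFundClass (R : Res ℤ G P1 P0 M) (ρC : Representation ℤ G C)
    (V : Subgroup G) [V.Normal] [V.FiniteIndex] (h0 : ∀ s ∈ V, ∀ x, R.ρ0 s x = x) {p : ℕ}
    [Fact p.Prime] (hpM : ∀ m : M, p • m = 0) (u : H2 (fixedObj V ρC))
    (hu : IsFundClass p (fixedObj V ρC) u) : TNl20AtDatum R ρC V := by
  classical
  have : Fintype (G ⧸ V) := Fintype.ofFinite _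
  obtain ⟨hfree, hfin⟩ := free_finite_indP1 (resQuot R V h0)
  exact tnl20At_datum_of_TN11 R ρC V h0 p
    (fun m => (Nat.cast_smul_eq_nsmul ℤ p m).trans (hpM m))
    (@Fermat.Agent.TW.P20TN11Raw44.tn11l_raw (G ⧸ V) _ ↥(indP1 (resQuot R V h0))
      ↥(fixedSub V ρC) _ (Submodule.module _) _ (Submodule.module _)
      (indρ1 (resQuot R V h0)) (fixedRep V ρC) _ p _ hfree hfin u hu)

/-- **`TNr20At` at level `V`** for `K(P; C)` from a fundamental class on `(G ⧸ V, C^V)`. -/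
theorem tnr20AtDatum_of_isFundClass (R : Res ℤ G P1 P0 M) (ρC : Representation ℤ G C)
    (V : Subgroup G) [V.Normal] [V.FiniteIndex] (h0 : ∀ s ∈ V, ∀ x, R.ρ0 s x = x) {p : ℕ}
    [Fact p.Prime] (hpM : ∀ m : M, p • m = 0) (u : H2 (fixedObj V ρC))
    (hu : IsFundClass p (fixedObj V ρC) u) : TNr20AtDatum R ρC V := by
  classical
  have : Fintype (G ⧸ V) := Fintype.ofFinite _
  obtain ⟨hfree, hfin⟩ := free_finite_indP1 (resQuot R V h0)
  exact tnr20At_datum_of_TN11 R ρC V h0 p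
    (fun m => (Nat.cast_smul_eq_nsmul ℤ p m).trans (hpM m))
    (@Fermat.Agent.TW.P20TN11Raw44.tn11r_raw (G ⧸ V) _ ↥(indP1 (resQuot R V h0))
      ↥(fixedSub V ρC) _ (Submodule.module _) _ (Submodule.module _)
      (indρ1 (resQuot R V h0)) (fixedRep V ρC) _ p _ hfree hfin u hu)

/-- **`HypL20` for `K(P; C)` from fundamental classes at the finite levels.** -/
theorem hypL20Datum_of_isFundClass (R : Res ℤ G P1 P0 M) (ρC : Representation ℤ G C)
    {𝒰 ℱ : Set (Subgroup G)} {p : ℕ} [Fact p.Prime] (h𝒰 : IsLevelBasis 𝒰)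
    (hpM : ∀ m : M, p • m = 0) (hC : IsDiscrete 𝒰 ρC)
    (hsub : ℱ ⊆ 𝒰) (hnormal : ∀ V ∈ ℱ, V.Normal) (hcof : ∀ U ∈ 𝒰, ∃ V ∈ ℱ, V ≤ U)
    (h0 : ∀ V ∈ ℱ, ∀ s ∈ V, ∀ x, R.ρ0 s x = x)
    (hfund : ∀ V ∈ 𝒰, ∀ hn : V.Normal, haveI := hn;
      ∃ u : H2 (fixedObj V ρC), IsFundClass p (fixedObj V ρC) u) :
    HypL20Datum R ρC 𝒰 ℱ p :=
  hypL20Datum_of_at R ρC h𝒰 Fact.out (fun m => (Nat.cast_smul_eq_nsmul ℤ p m).trans (hpM m)) hC
    hsub hnormal hcof
    (fun V hV => by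
      have := hnormal V hV
      have := h𝒰.finiteIndex V (hsub hV)
      obtain ⟨u, hu⟩ := hfund V (hsub hV) (hnormal V hV)
      exact tnl20AtDatum_of_isFundClass R ρC V (h0 V hV) hpM u hu)
    (fun V _ => hH1_of_h1 ρC h𝒰 (fun V' hV' hn => by
      obtain ⟨u, hu⟩ := hfund V' hV' hn
      exact hu.h1) V)

/-- **`HypR20` for `K(P; C)` from fundamental classes at the finite levels** and the vanishing of
deep norms on `M`. -/
theorem hypR20Datum_of_isFundClass (R : Res ℤ G P1 P0 M) (ρC : Representation ℤ G C)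
    {𝒰 ℱ : Set (Subgroup G)} {p : ℕ} [Fact p.Prime] (h𝒰 : IsLevelBasis 𝒰)
    (hpM : ∀ m : M, p • m = 0) (hC : IsDiscrete 𝒰 ρC)
    (hsub : ℱ ⊆ 𝒰) (hnormal : ∀ V ∈ ℱ, V.Normal) (hcof : ∀ U ∈ 𝒰, ∃ V ∈ ℱ, V ≤ U)
    (h0 : ∀ V ∈ ℱ, ∀ s ∈ V, ∀ x, R.ρ0 s x = x)
    (hfund : ∀ V ∈ 𝒰, ∀ hn : V.Normal, haveI := hn;
      ∃ u : H2 (fixedObj V ρC), IsFundClass p (fixedObj V ρC) u)
    (hNZ : NormZero R.ρM ℱ) :
    HypR20Datum R ρC 𝒰 ℱ p :=
  hypR20Datum_of_at R ρC h𝒰 Fact.out (fun m => (Nat.cast_smul_eq_nsmul ℤ p m).trans (hpM m)) hC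
    hsub hnormal hcof
    (fun V hV => by
      have := hnormal V hV
      have := h𝒰.finiteIndex V (hsub hV)
      obtain ⟨u, hu⟩ := hfund V (hsub hV) (hnormal V hV)
      exact tnr20AtDatum_of_isFundClass R ρC V (h0 V hV) hpM u hu)
    (fun V _ => hH1_of_h1 ρC h𝒰 (fun V' hV' hn => by
      obtain ⟨u, hu⟩ := hfund V' hV' hn
      exact hu.h1) V)
    hNZ

end Int

end Fermat.Agent.TW.P20Fund44
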