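/-
Programme TW (S56), sub-programme C, brick C2 (tail of Poitou–Tate), owner helper44.

`P20Nat44`: **naturality of the `(2,0)` pairing** `pair20 : ℍ²(Y) × H⁰(M) → H²(C)` of `P20Pair44`
(twins of `ExtPairingB4.pair11_natural` and `PairingRes1.pair11_res`):

* `pair20_natural` : for a morphism of pairing data `F : PairingHom B B'` over the same group,
  `⟨a_* ξ, m'⟩_{B'} = γ_* ⟨ξ, b m'⟩_B`;
* `pair20_res` : for a morphism of pairing data `F : PairingPHom f B B'` over `f : G' →* G`,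
  `⟨a_* ξ, b m⟩_{B'} = res_γ ⟨ξ, m⟩_B`;
* the instances `pair20_coefHom` (coefficient map `α : X → X'`, same resolved module) and
  `pair20_res_eval` (`K(P; C) → K(P|_{G'}; C')`).
-/
import Mathlib
import Fermat.Agent.PT.PRO.PairingRes1
import Fermat.Agent.PT.PRO.HK20
import Fermat.Agent.TW.P20Pair44

set_option autoImplicit false

namespace Fermat.Agent.TW.P20Nat44

open Function Fermat.Agent.PT.PRO.HyperLevel25 Fermat.Agent.PT.PRO.HyperRes25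
  Fermat.Agent.PT.PRO.Resolved4
  Fermat.Agent.PT.PRO.ExtPairing4 Fermat.Agent.PT.PRO.ExtPairingB4
  Fermat.Agent.PT.PRO.PairingRes1
  Fermat.Agent.TW.P20Pair44

/-! ## Same group -/

section Same

variable {k G : Type*} [CommRing k] [Group G] {𝒰 : Set (Subgroup G)}
variable {Y0 Y1 P1 P0 M C : Type*}
  [AddCommGroup Y0] [Module k Y0] [AddCommGroup Y1] [Module k Y1]
  [AddCommGroup P1] [Module k P1] [AddCommGroup P0] [Module k P0]
  [AddCommGroup M] [Module k M] [AddCommGroup C] [Module k C]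
variable {Y0' Y1' P1' P0' M' C' : Type*}
  [AddCommGroup Y0'] [Module k Y0'] [AddCommGroup Y1'] [Module k Y1']
  [AddCommGroup P1'] [Module k P1'] [AddCommGroup P0'] [Module k P0']
  [AddCommGroup M'] [Module k M'] [AddCommGroup C'] [Module k C']
variable {Y : Cx k 𝒰 Y0 Y1} {P : Resolved k 𝒰 P1 P0 M} {ρC : Representation k G C}
variable {Y' : Cx k 𝒰 Y0' Y1'} {P' : Resolved k 𝒰 P1' P0' M'} {ρC' : Representation k G C'}
variable (h𝒰 : IsLevelBasis 𝒰)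

/-- Push a raw hyper-2-cocycle along a morphism of two-term complexes. -/
def hz2Map (a : Cx.Hom Y Y') (ξ : HZ2 Y) : HZ2 Y' where
  c2 := ⇑a.φ0 ∘ ξ.c2
  c1 := ⇑a.φ1 ∘ ξ.c1
  lev2 := ξ.lev2.comp _
  lev1 := ξ.lev1.comp _
  hc2 g h j := by
    have h1 := congrFun (comp_dTwo Y.ρ0 Y'.ρ0 a.φ0 a.comm0 ξ.c2) (g, h, j)
    rw [← h1, Function.comp_apply, ξ.hc2, map_zero]
  hc1 g h := by
    have h1 := congrFun (comp_dOne Y.ρ1 Y'.ρ1 a.φ1 a.comm1 ξ.c1) (g, h)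
    rw [Function.comp_apply, ← a.commf, ξ.hc1, ← h1, Function.comp_apply]

lemma cls_hz2Map (a : Cx.Hom Y Y') (ξ : HZ2 Y) :
    (hz2Map a ξ).cls h𝒰 = a.mapℍ2 h𝒰 (ξ.cls h𝒰) := rfl

/-- Push a lifted invariant along a morphism of resolved modules. -/
def lift0Map (b : Resolved.Hom P' P) (L : Lift0 P') : Lift0 P where
  mt := b.φ0 L.mt
  z := ⇑b.φ1 ∘ L.z
  hz g := by
    rw [Function.comp_apply, ← b.commι, L.hz, dZero_apply, dZero_apply, map_sub, b.comm0]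

lemma lifts_lift0Map (b : Resolved.Hom P' P) {L : Lift0 P'} {m' : M'} (hL : L.Lifts m') :
    (lift0Map b L).Lifts (b.φM m') := by
  show P.π (b.φ0 L.mt) = b.φM m'
  rw [← b.commπ, hL]

variable {B : Pairing Y P ρC} {B' : Pairing Y' P' ρC'}
variable (hC : IsDiscrete 𝒰 ρC) (hC' : IsDiscrete 𝒰 ρC')

/-- Raw naturality of the `(2,0)` cochain. -/
lemma p20_natural (F : PairingHom B B') (ξ : HZ2 Y) (L : Lift0 P') :
    B'.p20 (hz2Map F.a ξ).c2 (hz2Map F.a ξ).c1 L.mt L.z =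
      ⇑F.γ ∘ B.p20 ξ.c2 ξ.c1 (lift0Map F.b L).mt (lift0Map F.b L).z := by
  funext q
  simp only [Pairing.p20, hz2Map, lift0Map, Function.comp_apply, map_sub, F.h0, F.h1,
    F.b.comm0, F.b.comm1]

/-- **Naturality of the `(2,0)` pairing** (same group). -/
theorem pair20_natural (F : PairingHom B B') (ξ : Y.ℍ2 h𝒰) (m' : M')
    (hm' : ∀ g, P'.ρM g m' = m') :
    pair20 B' h𝒰 hC' (F.a.mapℍ2 h𝒰 ξ) (cl0 (P := P') h𝒰 m' hm') =
      (lvlHom h𝒰 hC hC' F.γ F.hγ).mapH2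
        (pair20 B h𝒰 hC ξ (cl0 (P := P) h𝒰 (F.b.φM m')
          (fun g => by rw [← F.b.commM, hm']))) := by
  obtain ⟨ξ', rfl⟩ := HZ2.cls_surjective h𝒰 ξ
  obtain ⟨L, hL⟩ := Lift0.exists_lift (P := P') hm'
  rw [← cls_hz2Map, pair20_cl0 B' h𝒰 hC' (hz2Map F.a ξ') m' hm' L hL,
    pair20_cl0 B h𝒰 hC ξ' _ _ (lift0Map F.b L) (lifts_lift0Map F.b hL)]
  unfold cls20 cl2
  rw [Cpx.Hom.mapH2_π2]
  congr 1
  apply Subtype.ext
  apply Subtype.ext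
  exact p20_natural F ξ' L

end Same

/-! ## Change of group -/

section Res

variable {k G G' : Type*} [CommRing k] [Group G] [Group G']
variable {𝒰 : Set (Subgroup G)} {𝒰' : Set (Subgroup G')}
variable {Y0 Y1 P1 P0 M C : Type*}
  [AddCommGroup Y0] [Module k Y0] [AddCommGroup Y1] [Module k Y1]
  [AddCommGroup P1] [Module k P1] [AddCommGroup P0] [Module k P0]
  [AddCommGroup M] [Module k M] [AddCommGroup C] [Module k C]
variable {Y0' Y1' P1' P0' M' C' : Type*}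
  [AddCommGroup Y0'] [Module k Y0'] [AddCommGroup Y1'] [Module k Y1']
  [AddCommGroup P1'] [Module k P1'] [AddCommGroup P0'] [Module k P0']
  [AddCommGroup M'] [Module k M'] [AddCommGroup C'] [Module k C']
variable {f : G' →* G} {Y : Cx k 𝒰 Y0 Y1} {P : Resolved k 𝒰 P1 P0 M} {ρC : Representation k G C}
variable {Y' : Cx k 𝒰' Y0' Y1'} {P' : Resolved k 𝒰' P1' P0' M'} {ρC' : Representation k G' C'}

/-- Push a raw hyper-2-cocycle along a morphism of two-term complexes over `f`. -/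
def hz2Res (hf : IsLevelHom f 𝒰' 𝒰) (a : PHom f Y Y') (ξ : HZ2 Y) : HZ2 Y' where
  c2 := ⇑a.φ0 ∘ ξ.c2 ∘ Prod.map ⇑f ⇑f
  c1 := ⇑a.φ1 ∘ ξ.c1 ∘ ⇑f
  lev2 := (hf.isLevel₂ ξ.lev2).comp _
  lev1 := (hf.isLevel₁ ξ.lev1).comp _
  hc2 g h j := by
    have h1 := congrFun (dTwo_precomp Y.ρ0 Y'.ρ0 a.φ0 a.comm0 ξ.c2) (g, h, j)
    rw [h1, Function.comp_apply, Function.comp_apply, Prod.map_apply, Prod.map_apply, ξ.hc2,
      map_zero]
  hc1 g h := by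
    have h1 := congrFun (dOne_precomp Y.ρ1 Y'.ρ1 a.φ1 a.comm1 ξ.c1) (g, h)
    rw [h1, Function.comp_apply, Function.comp_apply, Function.comp_apply, Function.comp_apply,
      Prod.map_apply, ← a.commf, ξ.hc1]

lemma cls_hz2Res (hf : IsLevelHom f 𝒰' 𝒰) (h𝒰 : IsLevelBasis 𝒰) (h𝒰' : IsLevelBasis 𝒰')
    (a : PHom f Y Y') (ξ : HZ2 Y) :
    (hz2Res hf a ξ).cls h𝒰' = a.ppℍ2 hf h𝒰 h𝒰' (ξ.cls h𝒰) := rfl

/-- Push a lifted invariant along a morphism of resolved modules over `f`. -/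
def lift0Res (b : ResolvedPHom f P P') (L : Lift0 P) : Lift0 P' where
  mt := b.φ0 L.mt
  z := ⇑b.φ1 ∘ L.z ∘ ⇑f
  hz g := by
    rw [Function.comp_apply, Function.comp_apply, ← b.commι, L.hz, dZero_apply, dZero_apply,
      map_sub, b.comm0]

lemma lifts_lift0Res (b : ResolvedPHom f P P') {L : Lift0 P} {m : M} (hL : L.Lifts m) :
    (lift0Res b L).Lifts (b.φM m) := by
  show P'.π (b.φ0 L.mt) = b.φM m
  rw [← b.commπ, hL]

variable {B : Pairing Y P ρC} {B' : Pairing Y' P' ρC'}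

/-- Raw naturality of the `(2,0)` cochain for a change of group. -/
lemma p20_res (hf : IsLevelHom f 𝒰' 𝒰) (F : PairingPHom f B B') (ξ : HZ2 Y) (L : Lift0 P) :
    B'.p20 (hz2Res hf F.a ξ).c2 (hz2Res hf F.a ξ).c1 (lift0Res F.b L).mt (lift0Res F.b L).z =
      ⇑F.γ ∘ B.p20 ξ.c2 ξ.c1 L.mt L.z ∘ Prod.map ⇑f ⇑f := by
  funext ⟨g, h⟩
  show B'.β0 (F.a.φ0 (ξ.c2 (f g, f h))) (P'.ρ0 (g * h) (F.b.φ0 L.mt))
      - B'.β1 (F.a.φ1 (ξ.c1 (f g))) (P'.ρ1 g (F.b.φ1 (L.z (f h))))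
    = F.γ (B.β0 (ξ.c2 (f g, f h)) (P.ρ0 (f g * f h) L.mt)
      - B.β1 (ξ.c1 (f g)) (P.ρ1 (f g) (L.z (f h))))
  rw [map_sub, ← F.h0, ← F.h1, F.b.comm1, ← map_mul, F.b.comm0]

variable (hf : IsLevelHom f 𝒰' 𝒰) (h𝒰 : IsLevelBasis 𝒰) (h𝒰' : IsLevelBasis 𝒰')
  (hC : IsDiscrete 𝒰 ρC) (hC' : IsDiscrete 𝒰' ρC')

/-- **Naturality of the `(2,0)` pairing for a change of group.** -/
theorem pair20_res (F : PairingPHom f B B') (ξ : Y.ℍ2 h𝒰) (m : M) (hm : ∀ g, P.ρM g m = m) :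
    pair20 B' h𝒰' hC' (F.a.ppℍ2 hf h𝒰 h𝒰' ξ)
        (cl0 (P := P') h𝒰' (F.b.φM m) (fun g => by rw [← F.b.commM, hm])) =
      resH2 hf h𝒰 h𝒰' hC hC' F.γ F.hγ (pair20 B h𝒰 hC ξ (cl0 (P := P) h𝒰 m hm)) := by
  obtain ⟨ξ', rfl⟩ := HZ2.cls_surjective h𝒰 ξ
  obtain ⟨L, hL⟩ := Lift0.exists_lift (P := P) hm
  rw [← cls_hz2Res hf h𝒰 h𝒰', pair20_cl0 B h𝒰 hC ξ' m hm L hL,
    pair20_cl0 B' h𝒰' hC' (hz2Res hf F.a ξ') _ _ (lift0Res F.b L) (lifts_lift0Res F.b hL)]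
  unfold cls20 cl2 resH2
  rw [Cpx.Hom.mapH2_π2]
  congr 1
  apply Subtype.ext
  apply Subtype.ext
  exact p20_res hf F ξ' L

end Res

end Fermat.Agent.TW.P20Nat44
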