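/-
Programme TW (S56), sub-programme C, brick C2 (tail of Poitou–Tate), owner helper44.

`P20Obj44`: the `(2,0)` pairing on helper20's common objects `KX R h0 h𝒰 ρX hX = K(P; X)` of a raw
resolution `R : IndRes20.Res k G P1 P0 M` (twin of the `(1,1)` statements of `Objects20`,
`PairingResObj1`, `MainWrap20`, `MainGeneric20`):

* `LK20At`, `RK20At` : trivial left / right kernel of `pair20 : ℍ²(K(P; X)) × H⁰(M) → H²_lev(X)`;
  `lk20At_of_hypL20Datum`, `rk20At_of_hypR20Datum`;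
* `pair20_KXmap` (coefficient map), `pair20_KXPHom` (change of group);
* `hlev0Equiv` : `H⁰_lev = ` invariants, `card_Hlev0_comap`;
* `card_range_mapℍ2_eq` : **the image of `ℍ²(K(P; I)) → ℍ²(K(P; C))` has `#H⁰(G, M)` elements**,
  from (LK) for `C`, (LG), surjectivity of the hyper-Shapiro map on `ℍ²` and (RK) for the local
  datum at ONE place;
* `ppℍ2_surjective_of_card` : inflation on `ℍ²` is bijective as soon as
  `#ℍ²(target) ≤ #ℍ²(source)`.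
-/
import Mathlib
import Fermat.Agent.PT.PRO.PairingResObj1
import Fermat.Agent.PT.PRO.InfCompose13
import Fermat.Agent.TW.P20Count44
import Fermat.Agent.TW.P20Nat44
import Fermat.Agent.TW.P20Fund44

set_option autoImplicit false

namespace Fermat.Agent.TW.P20Obj44

open Function Fermat.Agent.PT.PRO.HyperLevel25 Fermat.Agent.PT.PRO.HyperRes25
  Fermat.Agent.PT.PRO.Resolved4 Fermat.Agent.PT.PRO.ExtPairing4 Fermat.Agent.PT.PRO.ExtPairingB4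
  Fermat.Agent.PT.PRO.IndRes20 Fermat.Agent.PT.PRO.Setup20 Fermat.Agent.PT.PRO.Objects20
  Fermat.Agent.PT.PRO.PairingRes1 Fermat.Agent.PT.PRO.PairingResObj1
  Fermat.Agent.PT.PRO.InvP4
  Fermat.Agent.TW.P20Pair44 Fermat.Agent.TW.P20Nat44 Fermat.Agent.TW.P20Count44
  Fermat.Agent.TW.P20Limit44 Fermat.Agent.TW.P20Fund44

/-! ### `H⁰_lev` is the module of invariants -/

section H0

variable {k G G' : Type*} [CommRing k] [Group G] [Group G']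
  {𝒰 : Set (Subgroup G)} {𝒰' : Set (Subgroup G')}
variable {Y : Type*} [AddCommGroup Y] [Module k Y]

/-- `H⁰_lev(G; Y)` is the set of invariants (whatever the level basis). -/
noncomputable def hlev0Equiv (h𝒰 : IsLevelBasis 𝒰) (ρ : Representation k G Y)
    (hρ : IsDiscrete 𝒰 ρ) : Hlev0 h𝒰 ρ hρ ≃ {y : Y // ∀ g, ρ g y = y} :=
  Equiv.symm <| Equiv.ofBijective
    (fun y => (lvl0 h𝒰 ρ hρ).π1 (mkZ0 h𝒰 ρ hρ y.1 y.2))
    ⟨fun y y' h => Subtype.ext ((π1_lvl0_eq_iff h𝒰 ρ hρ _ _).1 h), fun w => by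
      obtain ⟨z, rfl⟩ := (lvl0 h𝒰 ρ hρ).π1_surjective w
      exact ⟨⟨(z : Y), (mem_lvl0_Z1_iff h𝒰 ρ hρ z.1).1 z.2⟩, rfl⟩⟩

/-- `#H⁰_lev` does not depend on the level basis. -/
theorem card_Hlev0_eq {𝒱 : Set (Subgroup G)} (h𝒰 : IsLevelBasis 𝒰) (h𝒱 : IsLevelBasis 𝒱)
    (ρ : Representation k G Y) (hρ : IsDiscrete 𝒰 ρ) (hρ' : IsDiscrete 𝒱 ρ) :
    Nat.card (Hlev0 h𝒰 ρ hρ) = Nat.card (Hlev0 h𝒱 ρ hρ') :=
  Nat.card_congr ((hlev0Equiv h𝒰 ρ hρ).trans (hlev0Equiv h𝒱 ρ hρ').symm)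

theorem finite_Hlev0 [Finite Y] (h𝒰 : IsLevelBasis 𝒰) (ρ : Representation k G Y)
    (hρ : IsDiscrete 𝒰 ρ) : Finite (Hlev0 h𝒰 ρ hρ) :=
  Finite.of_equiv _ (hlev0Equiv h𝒰 ρ hρ).symm

end H0

/-! ### Kernels and naturality on the common objects -/

section KX

variable {k G G' : Type*} [CommRing k] [Group G] [Group G']
  {𝒰 : Set (Subgroup G)} {𝒰' : Set (Subgroup G')}
variable {P1 P0 M X X' W : Type*} [AddCommGroup P1] [Module k P1] [AddCommGroup P0] [Module k P0]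
  [AddCommGroup M] [Module k M] [AddCommGroup X] [Module k X] [AddCommGroup X'] [Module k X']
  [AddCommGroup W] [Module k W]

variable (R : Res k G P1 P0 M) (h0 : IsDiscrete 𝒰 R.ρ0) [Module.Finite k P0] [Module.Finite k P1]
  (h𝒰 : IsLevelBasis 𝒰)

/-- **(LK20)**: the left kernel of `pair20 : ℍ²(K(P; X)) × H⁰(M) → H²_lev(X)` is trivial. -/
def LK20At (ρX : Representation k G X) (hX : IsDiscrete 𝒰 ρX) : Prop :=
  ∀ ξ : (KX R h0 h𝒰 ρX hX).ℍ2 h𝒰,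
    (∀ x, pair20 (evP R h0 h𝒰 ρX hX) h𝒰 hX ξ x = 0) → ξ = 0

/-- **(RK20)**: the right kernel of `pair20` is trivial. -/
def RK20At (ρX : Representation k G X) (hX : IsDiscrete 𝒰 ρX) : Prop :=
  ∀ x : Hlev0 h𝒰 (toResolved R h0).ρM (toResolved R h0).discM,
    (∀ ξ, pair20 (evP R h0 h𝒰 ρX hX) h𝒰 hX ξ x = 0) → x = 0

variable {R h0 h𝒰}

theorem lk20At_of_hypL20Datum {ρX : Representation k G X} {hX : IsDiscrete 𝒰 ρX}
    {ℱ : Set (Subgroup G)} {p : ℕ} (H : HypL20Datum R ρX 𝒰 ℱ p) : LK20At R h0 h𝒰 ρX hX := by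
  have H' : HypL20 (toDatum (evP R h0 h𝒰 ρX hX)) 𝒰 ℱ p := H.hypL20
  exact fun ξ h => pair20_left_kernel _ h𝒰 hX H' ξ h

theorem rk20At_of_hypR20Datum {ρX : Representation k G X} {hX : IsDiscrete 𝒰 ρX}
    {ℱ : Set (Subgroup G)} {p : ℕ} (H : HypR20Datum R ρX 𝒰 ℱ p) : RK20At R h0 h𝒰 ρX hX := by
  have H' : HypR20 (toDatum (evP R h0 h𝒰 ρX hX)) 𝒰 ℱ p := H.hypR20
  exact fun x h => pair20_right_kernel _ h𝒰 hX H' x h

variable (R h0 h𝒰)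

variable {ρX : Representation k G X} (hX : IsDiscrete 𝒰 ρX)
  {ρX' : Representation k G X'} (hX' : IsDiscrete 𝒰 ρX')

/-- **Naturality of `pair20` in the coefficients.** -/
theorem pair20_KXmap (α : X →ₗ[k] X') (hα : ∀ g x, α (ρX g x) = ρX' g (α x))
    (ξ : (KX R h0 h𝒰 ρX hX).ℍ2 h𝒰)
    (x : Hlev0 h𝒰 (toResolved R h0).ρM (toResolved R h0).discM) :
    pair20 (evP R h0 h𝒰 ρX' hX') h𝒰 hX' ((KXmap R h0 h𝒰 hX hX' α hα).mapℍ2 h𝒰 ξ) x =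
      (lvlHom h𝒰 hX hX' α hα).mapH2 (pair20 (evP R h0 h𝒰 ρX hX) h𝒰 hX ξ x) := by
  obtain ⟨m, hm, rfl⟩ := cl0_surjective (P := toResolved R h0) h𝒰 x
  exact pair20_natural h𝒰 hX hX' (pairHom R h0 h𝒰 hX hX' α hα) ξ m hm

variable (h𝒰' : IsLevelBasis 𝒰') (f : G' →* G) (hf : IsLevelHom f 𝒰' 𝒰)
  {ρW : Representation k G' W} (hW : IsDiscrete 𝒰' ρW)

/-- **Naturality of `pair20` for a change of group** on the common objects:
`⟨Λ² ξ, res m⟩ = resX ⟨ξ, m⟩` for `Λ² = (KXPHom ..).ppℍ2`. -/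
theorem pair20_KXPHom (ε : X →ₗ[k] W) (hε : ∀ g x, ε (ρX (f g) x) = ρW g (ε x))
    (ξ : (KX R h0 h𝒰 ρX hX).ℍ2 h𝒰) (m : M) (hm : ∀ g, R.ρM g m = m) :
    pair20 (evP (R.comap f) (comap_disc0 R h0 f hf) h𝒰' ρW hW) h𝒰' hW
        ((KXPHom R h0 h𝒰 h𝒰' f hf hX hW ε hε).ppℍ2 hf h𝒰 h𝒰' ξ)
        (cl0 (P := toResolved (R.comap f) (comap_disc0 R h0 f hf)) h𝒰' m (fun g => hm (f g))) =
      resX h𝒰 h𝒰' f hf hX hW ε hε
        (pair20 (evP R h0 h𝒰 ρX hX) h𝒰 hX ξ (cl0 (P := toResolved R h0) h𝒰 m hm)) :=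
  pair20_res hf h𝒰 h𝒰' hX hW (evalPairingPHom hf h𝒰 h𝒰' hX hW (toResolved R h0) ε hε) ξ m hm

end KX

/-! ### The image of `ℍ²(K(P; I)) → ℍ²(K(P; C))` -/

section Range

variable {k G G' : Type} [CommRing k] [Group G] [Group G']
  {𝒰 : Set (Subgroup G)} {𝒰' : Set (Subgroup G')}
variable {P1 P0 A I C Iq W : Type} [AddCommGroup P1] [Module k P1] [AddCommGroup P0] [Module k P0]
  [AddCommGroup A] [Module k A] [AddCommGroup I] [Module k I] [AddCommGroup C] [Module k C]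
  [AddCommGroup Iq] [Module k Iq] [AddCommGroup W] [Module k W]

variable (R : Res k G P1 P0 A) (h0 : IsDiscrete 𝒰 R.ρ0) [Module.Finite k P0] [Module.Finite k P1]
  (h𝒰 : IsLevelBasis 𝒰) (h𝒰' : IsLevelBasis 𝒰') (r : G' →* G) (hr : IsLevelHom r 𝒰' 𝒰)
  {ρI : Representation k G I} (hI : IsDiscrete 𝒰 ρI)
  {ρC : Representation k G C} (hC : IsDiscrete 𝒰 ρC)
  {ρIq : Representation k G Iq} (hIq : IsDiscrete 𝒰 ρIq)
  {ρW : Representation k G' W} (hW : IsDiscrete 𝒰' ρW)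
  (t : I →ₗ[k] C) (ht : ∀ g x, t (ρI g x) = ρC g (t x))
  (inc : Iq →ₗ[k] I) (hinc : ∀ g x, inc (ρIq g x) = ρI g (inc x))
  (ev : Iq →ₗ[k] W) (hev : ∀ g x, ev (ρIq (r g) x) = ρW g (ev x))

/-- **The image of `ψ_* : ℍ²(K(P; I)) → ℍ²(K(P; C))` has exactly `#H⁰(G, A)` elements.**
Inputs: an injective `τ` on `H²_lev(C)[p]`, (LK20) for `C`, and at ONE place: (LG), surjectivity of
the change-of-group map on `ℍ²` and (RK20) for the local datum. -/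
theorem card_range_mapℍ2_eq (p : ℕ) [Fact p.Prime] (hpA : ∀ m : A, p • m = 0)
    [Finite (Hlev0 h𝒰 (toResolved R h0).ρM (toResolved R h0).discM)]
    (τ : pTor p (Hlev2 h𝒰 ρC hC) →+ ZMod p) (hτ : Injective τ)
    (hLK : LK20At R h0 h𝒰 ρC hC)
    (hLG : ∀ w : Hlev2 h𝒰 ρIq hIq, p • w = 0 →
      (lvlHom h𝒰 hI hC t ht).mapH2 ((lvlHom h𝒰 hIq hI inc hinc).mapH2 w) = 0 → w = 0)
    (hSh : Surjective ((KXPHom R h0 h𝒰 h𝒰' r hr hIq hW ev hev).ppℍ2 hr h𝒰 h𝒰'))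
    (hRK : RK20At (R.comap r) (comap_disc0 R h0 r hr) h𝒰' ρW hW) :
    Finite (LinearMap.range ((KXmap R h0 h𝒰 hI hC t ht).mapℍ2 h𝒰)) ∧
    Nat.card (LinearMap.range ((KXmap R h0 h𝒰 hI hC t ht).mapℍ2 h𝒰)) =
      Nat.card (Hlev0 h𝒰 (toResolved R h0).ρM (toResolved R h0).discM) := by
  obtain ⟨hfin, hle, hp⟩ := card_ℍ2_le (evP R h0 h𝒰 ρC hC) h𝒰 hC hpA τ hτ hLK
  set J : AddSubgroup ((KX R h0 h𝒰 ρC hC).ℍ2 h𝒰) :=
    (LinearMap.range ((KXmap R h0 h𝒰 hI hC t ht).mapℍ2 h𝒰)).toAddSubgroup with hJdef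
  have hJfin : Finite J := Finite.of_injective _ Subtype.val_injective
  have hJle : Nat.card J ≤ Nat.card (Hlev0 h𝒰 (toResolved R h0).ρM (toResolved R h0).discM) :=
    (Nat.card_le_card_of_injective _ Subtype.val_injective).trans hle
  obtain ⟨-, hge⟩ := card_Hlev0_le_of_right_kernel_on (evP R h0 h𝒰 ρC hC) h𝒰 hC hpA τ hτ J
    (fun ξ _ => hp ξ) (fun x hx => by
      obtain ⟨m, hm, rfl⟩ := cl0_surjective (P := toResolved R h0) h𝒰 x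
      -- the pairing with every class coming from `I_q` vanishes
      have h1 : ∀ ξq : (KX R h0 h𝒰 ρIq hIq).ℍ2 h𝒰,
          pair20 (evP R h0 h𝒰 ρIq hIq) h𝒰 hIq ξq (cl0 (P := toResolved R h0) h𝒰 m hm) = 0 := by
        intro ξq
        apply hLG
        · rw [← map_nsmul, nsmul_Hlev0_eq_zero h𝒰 _ _ p hpA, map_zero]
        · rw [← pair20_KXmap R h0 h𝒰 hIq hI inc hinc, ← pair20_KXmap R h0 h𝒰 hI hC t ht]
          exact hx _ ⟨_, rfl⟩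
      -- hence the local pairing with the restriction of `m` vanishes identically
      have h2 : cl0 (P := toResolved (R.comap r) (comap_disc0 R h0 r hr)) h𝒰' m
          (fun g => hm (r g)) = 0 := by
        apply hRK
        intro η
        obtain ⟨ξq, rfl⟩ := hSh η
        rw [pair20_KXPHom R h0 h𝒰 hIq h𝒰' r hr hW ev hev ξq m hm, h1 ξq, map_zero]
      have h3 : m = 0 :=
        (cl0_eq_zero_iff (P := toResolved (R.comap r) (comap_disc0 R h0 r hr)) h𝒰' m _).1 h2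
      exact (cl0_eq_zero_iff (P := toResolved R h0) h𝒰 m hm).2 h3)
  exact ⟨hJfin, le_antisymm hJle hge⟩

end Range

/-! ### Inflation on `ℍ²` by counting -/

section Inf

open Fermat.Agent.PT.PRO.InfLevel13 Fermat.Agent.PT.PRO.InfLevelMap13
  Fermat.Agent.PT.PRO.InfCompose13

variable {k G H : Type*} [CommRing k] [Group G] [Group H]
variable {𝒰G : Set (Subgroup G)} {𝒰 𝒰' : Set (Subgroup H)} {N : Subgroup H}
variable {Y0 Y1 Z0 Z1 Z0' Z1' : Type*}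
  [AddCommGroup Y0] [Module k Y0] [AddCommGroup Y1] [Module k Y1]
  [AddCommGroup Z0] [Module k Z0] [AddCommGroup Z1] [Module k Z1]
  [AddCommGroup Z0'] [Module k Z0'] [AddCommGroup Z1'] [Module k Z1']
variable {f : H →* G} {Y : Cx k 𝒰G Y0 Y1} {Z : Cx k 𝒰 Z0 Z1} {Z' : Cx k 𝒰' Z0' Z1'}
  {ι0 : Z0' →ₗ[k] Z0} {ι1 : Z1' →ₗ[k] Z1}
variable (a : PHom f Y Z) (b : PHom f Y Z')
  (h0 : ∀ y, a.φ0 y = ι0 (b.φ0 y)) (h1 : ∀ y, a.φ1 y = ι1 (b.φ1 y))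
  (hfa : IsLevelHom f 𝒰 𝒰G) (hfb : IsLevelHom f 𝒰' 𝒰G)
  (h𝒰G : IsLevelBasis 𝒰G) (h𝒰 : IsLevelBasis 𝒰) (h𝒰' : IsLevelBasis 𝒰')
  (hd : IsInfData 𝒰 𝒰' N) (hι : IsInvInclCx N Z' Z ι0 ι1)

include h0 h1 hd hι in
/-- If `b.ppℍ2` is surjective and `#ℍ²(Z) ≤ #ℍ²(Z')` (finite), then `a.ppℍ2 = inf ∘ b.ppℍ2` is
surjective. -/
theorem ppℍ2_surjective_of_card [N.Normal] (h90 : H90 𝒰 N Z.ρ0)
    (hb : Surjective (b.ppℍ2 hfb h𝒰G h𝒰')) [Finite (Z.ℍ2 h𝒰)]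
    (hcard : Nat.card (Z.ℍ2 h𝒰) ≤ Nat.card (Z'.ℍ2 h𝒰')) :
    Surjective (a.ppℍ2 hfa h𝒰G h𝒰) := by
  have hbij : Bijective (infℍ2 hd hι h𝒰 h𝒰') :=
    (infℍ2_injective hd hι h𝒰 h𝒰' h90).bijective_of_nat_card_le hcard
  intro z
  obtain ⟨z', rfl⟩ := hbij.2 z
  obtain ⟨x, rfl⟩ := hb z'
  exact ⟨x, ppℍ2_eq_inf a b h0 h1 hfa hfb h𝒰G h𝒰 h𝒰' hd hι x⟩

end Inf

end Fermat.Agent.TW.P20Obj44
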