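/-
Programme TW (S56), brick C2 (tail of the Poitou–Tate sequence), part T6e, helper25.

`GWTail25E`: conversions between the outputs of helper44's `(2,0)` track (`P20*44`) and the inputs
of `GWTail25D.tailEq_of_inputs`.

* `card_Hlev0_eq_pow_h0g` : `#H⁰_lev(Γ; A) = p ^ h⁰(G_ℚ, A)` for the canonical resolution
  `HpAt29.freeRes (intRep A)` (whatever the level basis);
* `finite_H2l_of_finite_ℍ2` : the local `H²(ℚ_q, M)` is finite as soon as the hyper-cohomology group
  `ℍ²(Γ_q; K(P; ℚ̄_qˣ))` is finite (`compare2` is bijective);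
* `tailEq_of_P20` : `TailEq S M` from
    (H1) surjectivity of `Λ²_q` + finiteness of its target, for `q ∈ S`,
    (H2) `#range (ℍ²(K(P; I_S)) → ℍ²(K(P; C_S))) = #H⁰_lev(Γ; M^∨(1))`.
-/
import Mathlib
import Fermat.Agent.TW.GWTail25D
import Fermat.Agent.TW.P20Obj44
import Fermat.Agent.PT.GLUE.LocHyperFinal13

set_option autoImplicit false
set_option maxHeartbeats 400000
set_option linter.unusedSectionVars false

namespace Fermat.Agent.TW.GWTail25E

open Function CategoryTheory Module groupCohomology ExtCitation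
open Fermat.Agent.PT Fermat.Agent.PT.PRO Fermat.Agent.PT.GLUE Fermat.Agent.PT.GLUE.Objects21
open Fermat.Agent.PT.PRO.HyperLevel25 Fermat.Agent.PT.PRO.Resolved4
open Fermat.Agent.PT.PRO.HyperRes25 Fermat.Agent.PT.PRO.PairingRes1
open Fermat.Agent.PT.PRO.IntRep20 Fermat.Agent.PT.PRO.LevelEquiv29
open Fermat.Agent.PT.PRO.ProdDict10 Fermat.Agent.PT.GLUE.LocS2_29
open Fermat.Agent.PT.PRO.IndRes20 Fermat.Agent.PT.PRO.Setup20 Fermat.Agent.PT.PRO.Objects20
open Fermat.Agent.PT.PRO.KerIso7 Fermat.Agent.PT.PRO.KerIsoGal7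
open Fermat.Agent.TW.GWIface97 Fermat.Agent.TW.GWIface2_97

local notation "Γ" => (AlgebraicClosure ℚ ≃ₐ[ℚ] AlgebraicClosure ℚ)

variable {p : ℕ} [Fact p.Prime]

/-! ### `#H⁰_lev = p ^ h⁰` -/

/-- `#H⁰_lev(G, 𝒰; A) = p ^ dim A^G` for `A : Rep (ZMod p) G` finite, whatever the level basis. -/
theorem card_Hlev0_intRep {G : Type} [Group G] {𝒰 : Set (Subgroup G)} (h𝒰 : IsLevelBasis 𝒰)
    (A : Rep.{0} (ZMod p) G) [Finite A] (hA : IsDiscrete 𝒰 (IntRep20.intRep A)) :
    Nat.card (Hlev0 h𝒰 (IntRep20.intRep A) hA) = p ^ Module.finrank (ZMod p) A.ρ.invariants := by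
  rw [Nat.card_congr (P20Obj44.hlev0Equiv h𝒰 (IntRep20.intRep A) hA)]
  have e : {y : A // ∀ g, IntRep20.intRep A g y = y} ≃ A.ρ.invariants :=
    Equiv.subtypeEquivRight fun y => by
      rw [Representation.mem_invariants]
      rfl
  rw [Nat.card_congr e]
  have : Module.Finite (ZMod p) A.ρ.invariants := Module.Finite.of_finite
  rw [Module.natCard_eq_pow_finrank (K := ZMod p), Nat.card_zmod]

/-! ### Finiteness of the local `H²` -/

section Finite

variable (S : Finset Nat.Primes) (hpS : pPrime p ∈ S) (M : Rep.{0} (ZMod p) Γ)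
  [FiniteDimensional (ZMod p) M] [Finite (M.dualTwist (cycloChar p))]

/-- `H²(ℚ_q, M)` (level model, `ℤ`-coefficients) is finite as soon as the hyper-cohomology group
`ℍ²(Γ_q; K(P|_{Γ_q}; ℚ̄_qˣ))` is (`compare2` is bijective: `ℚ̄_qˣ` is `p`-divisible with
`ℚ̄_qˣ[p] = μ_p`). -/
theorem finite_Hlev2_of_finite_ℍ2 (q : ℕ) [Fact q.Prime]
    (h0 : IsDiscrete (levelS S).sets
      (HpAt29.freeRes (IntRep20.intRep (M.dualTwist (cycloChar p)))).ρ0)
    (hMq : IsDiscrete (levelLoc q).sets (M.ρ.comp (localGaloisToGlobal q)))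
    (hfin : Finite ((KX ((HpAt29.freeRes (IntRep20.intRep (M.dualTwist (cycloChar p)))).comap
        (localGaloisToGlobal q))
      (comap_disc0 (HpAt29.freeRes (IntRep20.intRep (M.dualTwist (cycloChar p)))) h0
        (localGaloisToGlobal q) (isLevelHom_loc S q))
      (basis (levelLoc q)) (unitsLoc q).ρ (isDiscrete_unitsLoc q)).ℍ2 (basis (levelLoc q)))) :
    Finite (Hlev2 (basis (levelLoc q))
      (KerIso7.intRep intSurj_int (M.ρ.comp (localGaloisToGlobal q)))
      (isDiscrete_intRep intSurj_int hMq)) := by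
  have hb := compare2_bijective intSurj_int (basis (levelLoc q))
    (toResolved ((HpAt29.freeRes (IntRep20.intRep (M.dualTwist (cycloChar p)))).comap
        (localGaloisToGlobal q))
      (comap_disc0 (HpAt29.freeRes (IntRep20.intRep (M.dualTwist (cycloChar p)))) h0
        (localGaloisToGlobal q) (isLevelHom_loc S q)))
    (M.ρ.comp (localGaloisToGlobal q)) hMq ((cycloChar p).comp (localGaloisToGlobal q))
    (KerIsoMain7.hA_comap (HpAt29.freeRes (IntRep20.intRep (M.dualTwist (cycloChar p)))) M.ρ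
      (cycloChar p) (KerIsoMain7.hA_freeRes M (cycloChar p)) (localGaloisToGlobal q))
    (isDiscrete_unitsLoc q) (muLoc p q) (exists_zsmul_eq_unitsLoc p q)
  exact Finite.of_injective _ hb.1

open Fermat.Agent.PT.BR Fermat.Agent.PT.BR.LevelBridge13 in
include hpS in
/-- `H²(ℚ_q, M)` is a finite `ZMod p`-module as soon as `ℍ²(Γ_q; K(P|_{Γ_q}; ℚ̄_qˣ))` is finite. -/
theorem finite_H2l_of_finite_ℍ2 (hM : IsGood S M) (q : ↥S)
    (h0 : IsDiscrete (levelS S).sets
      (HpAt29.freeRes (IntRep20.intRep (M.dualTwist (cycloChar p)))).ρ0)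
    (hfin : Finite ((KX ((HpAt29.freeRes (IntRep20.intRep (M.dualTwist (cycloChar p)))).comap
        (localGaloisToGlobal ((q : Nat.Primes) : ℕ)))
      (comap_disc0 (HpAt29.freeRes (IntRep20.intRep (M.dualTwist (cycloChar p)))) h0
        (localGaloisToGlobal ((q : Nat.Primes) : ℕ)) (isLevelHom_loc S ((q : Nat.Primes) : ℕ)))
      (basis (levelLoc ((q : Nat.Primes) : ℕ))) (unitsLoc ((q : Nat.Primes) : ℕ)).ρ
      (isDiscrete_unitsLoc ((q : Nat.Primes) : ℕ))).ℍ2 (basis (levelLoc ((q : Nat.Primes) : ℕ))))) :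
    Module.Finite (ZMod p) (H2l q.1 M) := by
  have hMd : IsDiscrete (levelS S).sets (IntRep20.intRep M) :=
    FinH1S55_9.isDiscrete_intRep_self S hpS M hM.smooth hM.unram
  have hMq : IsDiscrete (levelLoc ((q : Nat.Primes) : ℕ)).sets
      ((IntRep20.intRep M).comp (localGaloisToGlobal ((q : Nat.Primes) : ℕ))) :=
    IsLevelHom.isDiscrete (isLevelHom_loc S ((q : Nat.Primes) : ℕ)) hMd
  have h1 : Finite (Hlev2 (basis (levelLoc ((q : Nat.Primes) : ℕ)))
      ((IntRep20.intRep M).comp (localGaloisToGlobal ((q : Nat.Primes) : ℕ))) hMq) :=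
    finite_Hlev2_of_finite_ℍ2 S M ((q : Nat.Primes) : ℕ) h0 hMq hfin
  have h2 : Finite (LevelCoh28.H2 (levelLoc ((q : Nat.Primes) : ℕ) :
      LevelCoh28.LevelBasis (primeLocalGaloisGroup q.1)) (Rep.res (primeLocalToGlobal q.1) M)) :=
    @Finite.of_equiv _ _ h1 (h2IntEquiv (levelLoc ((q : Nat.Primes) : ℕ) :
      LevelCoh28.LevelBasis (primeLocalGaloisGroup q.1)) (Rep.res (primeLocalToGlobal q.1) M)
      hMq).symm.toEquiv
  have e : pullBasis (primeLocalToGlobal q.1) = (levelLoc ((q : Nat.Primes) : ℕ) :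
      LevelCoh28.LevelBasis (primeLocalGaloisGroup q.1)) := BasisCompare13.pullBasis_prime_eq q.1
  have h3 : Finite (H2l q.1 M) := by
    show Finite (LevelCoh28.H2 (pullBasis (primeLocalToGlobal q.1))
      (Rep.res (primeLocalToGlobal q.1) M))
    rw [e]
    exact h2
  exact Module.Finite.of_finite

end Finite

/-! ### `TailEq` from the outputs of the `(2,0)` track -/

/-- **`TailEq S M` from (H1) and (H2)**, both quantified over all finite discrete `A` (they will be
applied to `A = M^∨(1)` only):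

* (H1) for `q ∈ S`, `ℍ²(Γ_q; K(P|_{Γ_q}; ℚ̄_qˣ))` is finite and
  `Λ²_q : ℍ²(Γ; K(P; I_{S,q})) → ℍ²(Γ_q; K(P|_{Γ_q}; ℚ̄_qˣ))` is surjective;
* (H2) `#range (ℍ²(K(P; I_S)) → ℍ²(K(P; C_S))) = #H⁰_lev(Γ; A)`. -/
theorem tailEq_of_P20 {S : Finset Nat.Primes} (hpS : pPrime p ∈ S) {M : Rep.{0} (ZMod p) Γ}
    (hM : IsGood S M)
    (hH1 : ∀ (A : Rep.{0} (ZMod p) Γ) [Finite A],
      IsDiscrete (levelS S).sets (IntRep20.intRep A) →
      ∀ (h0 : IsDiscrete (levelS S).sets (HpAt29.freeRes (IntRep20.intRep A)).ρ0) (q : ↥S),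
      Finite ((KX ((HpAt29.freeRes (IntRep20.intRep A)).comap
          (localGaloisToGlobal ((q : Nat.Primes) : ℕ)))
        (comap_disc0 (HpAt29.freeRes (IntRep20.intRep A)) h0
          (localGaloisToGlobal ((q : Nat.Primes) : ℕ)) (isLevelHom_loc S ((q : Nat.Primes) : ℕ)))
        (basis (levelLoc ((q : Nat.Primes) : ℕ))) (unitsLoc ((q : Nat.Primes) : ℕ)).ρ
        (isDiscrete_unitsLoc ((q : Nat.Primes) : ℕ))).ℍ2
          (basis (levelLoc ((q : Nat.Primes) : ℕ)))) ∧
      Surjective ((KXPHom (HpAt29.freeRes (IntRep20.intRep A)) h0 (basis (levelS S))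
        (basis (levelLoc ((q : Nat.Primes) : ℕ))) (localGaloisToGlobal ((q : Nat.Primes) : ℕ))
        (isLevelHom_loc S ((q : Nat.Primes) : ℕ)) (isDiscrete_ISq' S q)
        (isDiscrete_unitsLoc ((q : Nat.Primes) : ℕ)) (evq S ((q : Nat.Primes) : ℕ))
        (evq_ρ S ((q : Nat.Primes) : ℕ))).ppℍ2 (isLevelHom_loc S ((q : Nat.Primes) : ℕ))
          (basis (levelS S)) (basis (levelLoc ((q : Nat.Primes) : ℕ)))))
    (hH2 : ∀ (A : Rep.{0} (ZMod p) Γ) [Finite A]
      (hA : IsDiscrete (levelS S).sets (IntRep20.intRep A))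
      (h0 : IsDiscrete (levelS S).sets (HpAt29.freeRes (IntRep20.intRep A)).ρ0),
      Nat.card (LinearMap.range ((KXmap (HpAt29.freeRes (IntRep20.intRep A))
        h0 (basis (levelS S)) (isDiscrete_IS' S) (isDiscrete_CS S) (toCS S) (toCS_ρ S)).mapℍ2
          (basis (levelS S)))) =
      Nat.card (Hlev0 (basis (levelS S)) (IntRep20.intRep A) hA)) :
    TailEq S M := by
  have : FiniteDimensional (ZMod p) M := hM.fin
  have : FiniteDimensional (ZMod p) (M.dualTwist (cycloChar p)) :=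
    inferInstanceAs (FiniteDimensional (ZMod p) (Module.Dual (ZMod p) M))
  have : Finite (M.dualTwist (cycloChar p)) := Module.finite_of_finite (ZMod p)
  have hA : IsDiscrete (levelS S).sets (IntRep20.intRep (M.dualTwist (cycloChar p))) :=
    FinH1S55_9.isDiscrete_intRep_dualTwist S hpS M hM.smooth hM.unram
  have h0' : IsDiscrete (levelS S).sets
      (HpAt29.freeRes (IntRep20.intRep (M.dualTwist (cycloChar p)))).ρ0 :=
    FreeRes29.isDiscrete_freeRep (basis (levelS S)) hA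
  have hfin : ∀ q : ↥S, Module.Finite (ZMod p) (H2l q.1 M) := fun q =>
    finite_H2l_of_finite_ℍ2 S hpS M hM q h0' (hH1 (M.dualTwist (cycloChar p)) hA h0' q).1
  have hS2b : ∀ (h0 : IsDiscrete (levelS S).sets
      (HpAt29.freeRes (IntRep20.intRep (M.dualTwist (cycloChar p)))).ρ0) (q : ↥S),
      GWTail25B.S2bAt
      (HpAt29.freeRes (IntRep20.intRep (M.dualTwist (cycloChar p)))) h0 (basis (levelS S))
      (basis (levelLoc ((q : Nat.Primes) : ℕ))) (localGaloisToGlobal ((q : Nat.Primes) : ℕ))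
      (isLevelHom_loc S ((q : Nat.Primes) : ℕ)) (isDiscrete_ISq' S q)
      (isDiscrete_unitsLoc ((q : Nat.Primes) : ℕ)) (evq S ((q : Nat.Primes) : ℕ))
      (evq_ρ S ((q : Nat.Primes) : ℕ)) := fun h0 q =>
    GWTail25B.s2bAt_of_surjective
      (Fermat.Agent.PT.GLUE.LocHyperFinal13.s2hAt S ((q : Nat.Primes) : ℕ) (basis (levelS S))
        (basis (levelLoc ((q : Nat.Primes) : ℕ))) (isLevelHom_loc S ((q : Nat.Primes) : ℕ))
        (isDiscrete_ISq' S q) (isDiscrete_unitsLoc ((q : Nat.Primes) : ℕ))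
        (HpAt29.freeRes (IntRep20.intRep (M.dualTwist (cycloChar p)))) h0)
      (hH1 (M.dualTwist (cycloChar p)) hA h0 q).2
  have hTC : ∀ (h0 : IsDiscrete (levelS S).sets
      (HpAt29.freeRes (IntRep20.intRep (M.dualTwist (cycloChar p)))).ρ0),
      Nat.card (Set.range ((KXmap (HpAt29.freeRes (IntRep20.intRep (M.dualTwist (cycloChar p))))
        h0 (basis (levelS S)) (isDiscrete_IS' S) (isDiscrete_CS S) (toCS S) (toCS_ρ S)).mapℍ2
          (basis (levelS S)))) = p ^ h0g (dual M) := fun h0 => by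
    have e := hH2 (M.dualTwist (cycloChar p)) hA h0
    have e2 := card_Hlev0_intRep (basis (levelS S)) (M.dualTwist (cycloChar p)) hA
    have e3 := e.trans e2
    exact e3
  exact GWTail25D.tailEq_of_inputs hpS hM hfin (M.dualTwist (cycloChar p)) rfl hS2b hTC

end Fermat.Agent.TW.GWTail25E
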