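/-
Programme TW (S56), sub-programme C, brick C2 (tail of Poitou–Tate), owner helper44.

`P20LocS44`: tools for the INTERMEDIATE local datum `(Γ_q, levelLocS q S, ((ℚ_S)_q)ˣ)`.

* `fundFixed_of_isInvIncl` : fundamental classes at the finite levels pass from `W` to the module
  of `N`-invariants `W' = W^N` on every family of normal subgroups containing `N` (the finite-level
  modules `W'^V` and `W^V` coincide);
* `nrm_eq_zero_of_dvd`, `normZero_trivFam` : the hypothesis `P20Fund44.NormZero` (norms from deep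
  levels vanish on a module killed by `p`) from `DegInf 𝒰 p`: every normal `U ∈ 𝒰` contains a
  normal `V ∈ 𝒰` with `p ∣ [U : V]`.
-/
import Mathlib
import Fermat.Agent.PT.PRO.InfLevel13
import Fermat.Agent.PT.PRO.FundHyp12
import Fermat.Agent.PT.PRO.GlobalHypP8
import Fermat.Agent.PT.FG.FundClassTransferB2
import Fermat.Agent.TW.P20Fund44

set_option autoImplicit false

namespace Fermat.Agent.TW.P20LocS44

open Function Fermat.Agent.PT.PRO.HyperLevel25 Fermat.Agent.PT.PRO.GlobalDuality20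
  Fermat.Agent.PT.PRO.HyperColim18 Fermat.Agent.PT.PRO.FundRaw18 Fermat.Agent.PT.PRO.InfLevel13
  Fermat.Agent.PT.PRO.NormTrans11 Fermat.Agent.PT.PRO.IndRes20 Fermat.Agent.PT.PRO.GlobalHypP8
  Fermat.Agent.PT.PRO.DescendRes18
  Fermat.Agent.TW.P20Fund44

/-! ### Finite levels of the module of `N`-invariants -/

section Inv

variable {k : Type} [CommRing k] {G : Type} [Group G] {W W' : Type} [AddCommGroup W] [Module k W]
  [AddCommGroup W'] [Module k W'] {N : Subgroup G} {ρ' : Representation k G W'}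
  {ρ : Representation k G W} {ι : W' →ₗ[k] W}

/-- `(W^N)^V = W^V` for `N ≤ V`. -/
noncomputable def fixedSubEquiv (hι : IsInvIncl N ρ' ρ ι) (V : Subgroup G) (hNV : N ≤ V) :
    fixedSub V ρ' ≃ₗ[k] fixedSub V ρ :=
  LinearEquiv.ofBijective
    ((ι.comp (fixedSub V ρ').subtype).codRestrict (fixedSub V ρ) (fun x s hs => by
      show ρ s (ι x) = ι x
      rw [← hι.comm, x.2 s hs]))
    ⟨fun x y h => Subtype.ext (hι.inj (congrArg Subtype.val h)), fun w => by
      obtain ⟨a, ha⟩ := hι.surj (w : W) (fun n hn => w.2 n (hNV hn))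
      refine ⟨⟨a, fun s hs => hι.inj ?_⟩, Subtype.ext ha⟩
      rw [hι.comm, ha]
      exact w.2 s hs⟩

lemma coe_fixedSubEquiv (hι : IsInvIncl N ρ' ρ ι) (V : Subgroup G) (hNV : N ≤ V)
    (x : fixedSub V ρ') : ((fixedSubEquiv hι V hNV x : fixedSub V ρ) : W) = ι (x : W') := rfl

/-- The equivalence of `G ⧸ V`-representations `(W^N)^V ≃ W^V`. -/
noncomputable def fixedRepEquiv (hι : IsInvIncl N ρ' ρ ι) (V : Subgroup G) [V.Normal]
    (hNV : N ≤ V) : Representation.Equiv (fixedRep V ρ') (fixedRep V ρ) :=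
  Representation.Equiv.mk (fixedSubEquiv hι V hNV) (by
    intro g'
    induction g' using QuotientGroup.induction_on with
    | H g =>
      ext x
      show ι (ρ' g (x : W')) = ρ g (ι (x : W'))
      exact hι.comm g _)

/-- `W^V ≅ (W^N)^V` as objects of `Rep k (G ⧸ V)`, in the shape consumed by
`FundClassTransferB2.isFundClass_of_equiv` (with `e = refl`). -/
noncomputable def fixedObjIso (hι : IsInvIncl N ρ' ρ ι) (V : Subgroup G) [V.Normal]
    (hNV : N ≤ V) :
    Rep.res (MulEquiv.refl (G ⧸ V)).toMonoidHom (fixedObj V ρ) ≅ fixedObj V ρ' :=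
  Rep.mkIso (fixedRepEquiv hι V hNV).symm

end Inv

section Fund

open Fermat.Agent.PT.FG.Interface8 Fermat.Agent.PT.PRO.FundHyp12
open CategoryTheory groupCohomology

variable {G : Type} [Group G] {W W' : Type} [AddCommGroup W] [Module ℤ W]
  [AddCommGroup W'] [Module ℤ W'] {N : Subgroup G} {ρ' : Representation ℤ G W'}
  {ρ : Representation ℤ G W} {ι : W' →ₗ[ℤ] W}

/-- **Fundamental classes pass to the module of `N`-invariants**, on any family of levels
containing `N`. -/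
theorem fundFixed_of_isInvIncl (hι : IsInvIncl N ρ' ρ ι) {𝒰 𝒰' : Set (Subgroup G)} (p : ℕ)
    [Fact p.Prime] (hsub : 𝒰' ⊆ 𝒰) (hN : ∀ V ∈ 𝒰', N ≤ V) (h : FundFixed ρ 𝒰 p) :
    FundFixed ρ' 𝒰' p := by
  intro V hV hn
  have := hn
  obtain ⟨u, hu⟩ := h V (hsub hV) hn
  exact ⟨_, Fermat.Agent.PT.FG.FundClassTransferB2.isFundClass_of_equiv p
    (MulEquiv.refl (G ⧸ V)) (fixedObj V ρ) (fixedObj V ρ') (fixedObjIso hι V (hN V hV)) u hu⟩

end Fund

/-! ### Norms from deep levels -/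

section Norm

variable {k : Type*} [CommRing k] {G : Type*} [Group G] {Y : Type*} [AddCommGroup Y] [Module k Y]

/-- If `U` acts trivially on `Y`, `p Y = 0` and `p ∣ [U : V]`, then the norm `N_{G/V}` vanishes. -/
theorem nrm_eq_zero_of_dvd (ρ : Representation k G Y) {U V : Subgroup G} (hVU : V ≤ U)
    [V.FiniteIndex] (hU : ∀ s ∈ U, ∀ y, ρ s y = y) (p : ℕ) (hpY : ∀ y : Y, p • y = 0)
    (hdvd : p ∣ V.relIndex U) (e : Y) (he : FixedBy ρ V e) : nrm ρ V e = 0 := by
  classical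
  have : Fintype (↥U ⧸ V.subgroupOf U) := Fintype.ofFinite _
  have h1 : relNrm ρ U V e = 0 := by
    rw [relNrm_eq_sum he (fun r => Quotient.out r) (fun r => QuotientGroup.out_eq' r)]
    have h2 : ∀ r : ↥U ⧸ V.subgroupOf U, ρ ((Quotient.out r : ↥U) : G) e = e :=
      fun r => hU _ (Quotient.out r).2 e
    rw [Finset.sum_congr rfl (fun r _ => h2 r), Finset.sum_const, Finset.card_univ,
      ← Nat.card_eq_fintype_card]
    have h3 : Nat.card (↥U ⧸ V.subgroupOf U) = V.relIndex U := rfl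
    rw [h3]
    obtain ⟨c, hc⟩ := hdvd
    rw [hc, mul_comm, mul_smul, hpY, smul_zero]
  rw [nrm_trans hVU he, h1]
  unfold nrm
  simp

/-- `p^∞` divides the order of `G` along the level basis `𝒰`: every normal `U ∈ 𝒰` contains a
normal `V ∈ 𝒰` with `p ∣ [U : V]`. -/
def DegInf (𝒰 : Set (Subgroup G)) (p : ℕ) : Prop :=
  ∀ U ∈ 𝒰, U.Normal → ∃ V ∈ 𝒰, V.Normal ∧ V ≤ U ∧ p ∣ V.relIndex U

variable {P1 P0 M : Type*} [AddCommGroup P1] [Module k P1] [AddCommGroup P0] [Module k P0]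
  [AddCommGroup M] [Module k M]

/-- **`NormZero` on the canonical family** from `DegInf`. -/
theorem normZero_trivFam (R : Res k G P1 P0 M) {𝒰 : Set (Subgroup G)} (h𝒰 : IsLevelBasis 𝒰)
    {p : ℕ} (hpM : ∀ m : M, p • m = 0) (hdeg : DegInf 𝒰 p) :
    NormZero R.ρM (trivFam R 𝒰) := by
  intro U hU
  obtain ⟨V, hV, hVn, hVU, hdvd⟩ := hdeg U hU.1 hU.2.1
  have hVF : V ∈ trivFam R 𝒰 := trivFam_of_le hU hV hVn hVU
  have := h𝒰.finiteIndex V hV
  exact ⟨V, hVF, hVU, fun a ha =>
    nrm_eq_zero_of_dvd R.ρM hVU (res_trivialM R U hU.2.2) p hpM hdvd a ha⟩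

end Norm

end Fermat.Agent.TW.P20LocS44
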