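/-
Programme TW (S56), sub-programme C, brick C2 (tail of Poitou–Tate), owner helper44.

`P20TailGlob44`: the global datum `(Γ, levelS S, C_S)` for the `(2,0)` pairing at the S55 objects
(`R = HpAt29.freeRes (IntRep20.intRep A)`):

* `lk20At_CS` : (LK20) for the global datum; `exists_inv_CS` : the invariant map;
* `card_Hlev0_intRep : #H⁰_lev(Γ; A) = p ^ dim A^Γ`.
-/
import Mathlib
import Fermat.Agent.PT.PRO.MainFinal4
import Fermat.Agent.TW.P20Obj44
import Fermat.Agent.TW.P20LocS44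

set_option autoImplicit false

open CategoryTheory Module groupCohomology ExtCitation
open Fermat.Agent.PT Fermat.Agent.PT.PRO Fermat.Agent.PT.GLUE Fermat.Agent.PT.GLUE.Objects21
open Fermat.Agent.PT.PRO.HyperLevel25 Fermat.Agent.PT.PRO.Resolved4
open Fermat.Agent.PT.PRO.HyperRes25 Fermat.Agent.PT.PRO.PairingRes1
open Fermat.Agent.PT.PRO.IntRep20 Fermat.Agent.PT.PRO.LevelEquiv29
open Fermat.Agent.PT.PRO.ProdDict10 Fermat.Agent.PT.GLUE.LocS2_29
open Fermat.Agent.PT.GLUE.LevelTheta21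
open Fermat.Agent.PT.PRO.IndRes20 Fermat.Agent.PT.PRO.Setup20 Fermat.Agent.PT.PRO.Objects20
open Fermat.Agent.PT.PRO.InvP4 Fermat.Agent.PT.PRO.GlobalHypP8
open Fermat.Agent.PT.BR.InfLocal13
open Fermat.Agent.TW.P20Obj44 Fermat.Agent.TW.P20Fund44 Fermat.Agent.TW.P20LocS44
open Fermat.Agent.TW.P20Count44 Fermat.Agent.TW.P20Pair44

namespace Fermat.Agent.TW.P20TailGlob44

local notation "Γ" => (AlgebraicClosure ℚ ≃ₐ[ℚ] AlgebraicClosure ℚ)

variable {p : ℕ} [Fact p.Prime]

lemma nsmul_eq_zero_rep (A : Rep.{0} (ZMod p) Γ) (m : A) : p • m = 0 := by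
  rw [← Nat.cast_smul_eq_nsmul (ZMod p), ZMod.natCast_self, zero_smul]

/-! ### The global datum -/

section Global

variable (S : Finset Nat.Primes) (A : Rep.{0} (ZMod p) Γ) [Finite A]
  (h0 : IsDiscrete (levelS S).sets (HpAt29.freeRes (IntRep20.intRep A)).ρ0)

/-- **(LK20) for the global datum** `(Γ, levelS S, C_S)`. -/
theorem lk20At_CS (hp2 : p ≠ 2) (hpS : pPrime p ∈ S) :
    LK20At (HpAt29.freeRes (IntRep20.intRep A)) h0 (basis (levelS S)) (CS S).ρ
      (isDiscrete_CS S) := by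
  have hGCF := GLOB.FundClassExists6.fundClassExists p S
  have hfund := GLUE.FundLevel2.fundFixed_CS p hp2 hpS hGCF
  exact lk20At_of_hypL20Datum
    (hypL20Datum_of_isFundClass _ (CS S).ρ (basis (levelS S)) (nsmul_eq_zero_rep A)
      (isDiscrete_CS S) (trivFam_sub _ _) (trivFam_normal _ _)
      (trivFam_cofinal _ (basis (levelS S)) h0) (trivFam_triv0 _ _) hfund)

/-- The invariant map of the global datum. -/
theorem exists_inv_CS (hp2 : p ≠ 2) (hpS : pPrime p ∈ S) :
    ∃ τ : pTor p (Hlev2 (basis (levelS S)) (CS S).ρ (isDiscrete_CS S)) →+ ZMod p,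
      Function.Injective τ :=
  InvFund18.exists_inv_of_isFundClass (CS S).ρ (basis (levelS S)) (isDiscrete_CS S)
    (GLUE.FundLevel2.fundFixed_CS p hp2 hpS (GLOB.FundClassExists6.fundClassExists p S))

end Global

/-! ### (H2): the image of `ℍ²(K(P; I_S)) → ℍ²(K(P; C_S))` -/

section H2

variable (S : Finset Nat.Primes) (A : Rep.{0} (ZMod p) Γ) [Finite A]

/-- `#H⁰_lev(Γ; A) = p ^ dim A^Γ`. -/
theorem card_Hlev0_intRep {𝒰 : Set (Subgroup Γ)} (h𝒰 : IsLevelBasis 𝒰)
    (hA : IsDiscrete 𝒰 (IntRep20.intRep A)) :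
    Nat.card (Hlev0 h𝒰 (IntRep20.intRep A) hA) =
      p ^ Module.finrank (ZMod p) A.ρ.invariants := by
  rw [Nat.card_congr (hlev0Equiv h𝒰 (IntRep20.intRep A) hA)]
  have e : {y : A // ∀ g, (IntRep20.intRep A) g y = y} ≃ A.ρ.invariants :=
    Equiv.subtypeEquivRight (fun y => by
      rw [Representation.mem_invariants]
      exact Iff.rfl)
  rw [Nat.card_congr e]
  have := Module.natCard_eq_pow_finrank (K := ZMod p) (V := A.ρ.invariants)
  rwa [Nat.card_zmod] at this

end H2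

end Fermat.Agent.TW.P20TailGlob44
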