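/-
Programme TW (S56), sub-programme C, brick C2 (tail of Poitou–Tate), owner helper44.

`P20Tail44`: **the global input (H2) of the tail assembly (helper25's T6) at the S55 objects**
(`GLUE/Objects21`, `R = HpAt29.freeRes (IntRep20.intRep A)`, `A = M^∨(1)`):

* `lk20At_CS` : (LK20) for the global datum `(Γ, levelS S, C_S)`; `exists_inv_CS`;
* `card_Hlev0_intRep : #H⁰(Γ, A) = p ^ dim A^Γ`;
* **(H2)** `card_range_toCS`, `card_range_toCS_eq_pow`, `card_setRange_toCS_eq_pow` :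
  `#im(ℍ²(K(P; I_S)) → ℍ²(K(P; C_S))) = #H⁰(Γ, A) = p ^ h⁰(Γ, A)`.
  Inputs: (LK20) for `C_S`, (LG) `LocalGlobalInst27.hLG_inclq` with (L1)
  `LocalInjMain14.localInjectivity`, hyper-Shapiro `LocHyperFinal13.shPHom_ppℍ2_bijective`, and (RK20)
  for the intermediate local datum at ONE place `q ∈ S` (`P20TailLoc44.rk20At_unitsLocS`).
-/
import Mathlib
import Fermat.Agent.PT.PRO.MainFinal4
import Fermat.Agent.PT.GLOB.LocalInjMain14
import Fermat.Agent.TW.P20TailLoc44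
import Fermat.Agent.TW.P20TailGlob44

set_option autoImplicit false

open CategoryTheory Module groupCohomology ExtCitation
open Fermat.Agent.PT Fermat.Agent.PT.PRO Fermat.Agent.PT.GLUE Fermat.Agent.PT.GLUE.Objects21
open Fermat.Agent.PT.PRO.HyperLevel25 Fermat.Agent.PT.PRO.Resolved4
open Fermat.Agent.PT.PRO.HyperRes25 Fermat.Agent.PT.PRO.PairingRes1
open Fermat.Agent.PT.PRO.IntRep20 Fermat.Agent.PT.PRO.LevelEquiv29
open Fermat.Agent.PT.PRO.ProdDict10 Fermat.Agent.PT.GLUE.LocS2_29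
open Fermat.Agent.PT.GLUE.LevelTheta21
open Fermat.Agent.PT.PRO.IndRes20 Fermat.Agent.PT.PRO.Setup20 Fermat.Agent.PT.PRO.Objects20
open Fermat.Agent.PT.PRO.InvP4 Fermat.Agent.PT.PRO.GlobalHypP8
open Fermat.Agent.PT.GLUE.LocHyper13 Fermat.Agent.PT.BR.InfLocal13
open Fermat.Agent.TW.P20Obj44 Fermat.Agent.TW.P20Fund44 Fermat.Agent.TW.P20LocS44
open Fermat.Agent.TW.P20Count44 Fermat.Agent.TW.P20Pair44 Fermat.Agent.TW.P20TailLoc44 Fermat.Agent.TW.P20TailGlob44

namespace Fermat.Agent.TW.P20Tail44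

local notation "Γ" => (AlgebraicClosure ℚ ≃ₐ[ℚ] AlgebraicClosure ℚ)

variable {p : ℕ} [Fact p.Prime]

/-! ### (H2): the image of `ℍ²(K(P; I_S)) → ℍ²(K(P; C_S))` -/

section H2

variable (S : Finset Nat.Primes) (A : Rep.{0} (ZMod p) Γ) [Finite A]

variable (h0 : IsDiscrete (levelS S).sets (HpAt29.freeRes (IntRep20.intRep A)).ρ0)

/-- **(H2)**: the image of `ψ_* : ℍ²(Γ; K(P; I_S)) → ℍ²(Γ; K(P; C_S))` is finite with
`#H⁰(Γ, A)` elements. -/
theorem card_range_toCS (hp2 : p ≠ 2) (hpS : pPrime p ∈ S) (q : ↥S)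
    (hdeg : LocDegInf p S ((q : Nat.Primes) : ℕ)) :
    Finite (LinearMap.range ((KXmap (HpAt29.freeRes (IntRep20.intRep A)) h0 (basis (levelS S))
      (isDiscrete_IS' S) (isDiscrete_CS S) (toCS S) (toCS_ρ S)).mapℍ2 (basis (levelS S)))) ∧
    Nat.card (LinearMap.range ((KXmap (HpAt29.freeRes (IntRep20.intRep A)) h0 (basis (levelS S))
      (isDiscrete_IS' S) (isDiscrete_CS S) (toCS S) (toCS_ρ S)).mapℍ2 (basis (levelS S)))) =
      Nat.card (Hlev0 (basis (levelS S))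
        (toResolved (HpAt29.freeRes (IntRep20.intRep A)) h0).ρM
        (toResolved (HpAt29.freeRes (IntRep20.intRep A)) h0).discM) := by
  classical
  have hp : p.Prime := Fact.out
  have hpS' : ∃ q ∈ S, (q : ℕ) = p := ⟨pPrime p, hpS, rfl⟩
  have h𝒰qS : IsLevelBasis (levelLocS ((q : Nat.Primes) : ℕ) S).sets :=
    LevelCompare13.isLevelBasis_iff.1 (levelLocS ((q : Nat.Primes) : ℕ) S).isBasis
  have hrS : IsLevelHom (localGaloisToGlobal ((q : Nat.Primes) : ℕ))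
      (levelLocS ((q : Nat.Primes) : ℕ) S).sets (levelS S).sets :=
    LocI13.isLevelHom_levelLocS S ((q : Nat.Primes) : ℕ)
  have hWS : IsDiscrete (levelLocS ((q : Nat.Primes) : ℕ) S).sets
      (unitsLocS S ((q : Nat.Primes) : ℕ)).ρ := isDiscrete_unitsLocS S ((q : Nat.Primes) : ℕ)
  have hτ' := exists_inv_CS (p := p) S hp2 hpS
  have : Finite (Hlev0 (basis (levelS S))
      (toResolved (HpAt29.freeRes (IntRep20.intRep A)) h0).ρM
      (toResolved (HpAt29.freeRes (IntRep20.intRep A)) h0).discM) :=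
    finite_Hlev0 (basis (levelS S)) _ _
  exact card_range_mapℍ2_eq (HpAt29.freeRes (IntRep20.intRep A)) h0 (basis (levelS S)) h𝒰qS
    (localGaloisToGlobal ((q : Nat.Primes) : ℕ)) hrS (isDiscrete_IS' S) (isDiscrete_CS S)
    (isDiscrete_ISq' S q) hWS (toCS S) (toCS_ρ S) (inclq S q) (inclq_ρ S q)
    (evqS S ((q : Nat.Primes) : ℕ)) (evqS_ρ S ((q : Nat.Primes) : ℕ)) p (nsmul_eq_zero_rep A)
    hτ'.choose hτ'.choose_spec (lk20At_CS S A h0 hp2 hpS)
    (GLUE.LocalGlobalInst27.hLG_inclq S p hp hp2 hpS'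
      (GLOB.LocalInjMain14.localInjectivity p S) (basis (levelS S)) (isDiscrete_ISq' S)
      (isDiscrete_IS' S) (isDiscrete_CS S) q)
    (LocHyperFinal13.shPHom_ppℍ2_bijective (localGaloisToGlobal ((q : Nat.Primes) : ℕ))
      (levelS S) (isInvIncl_inclS S ((q : Nat.Primes) : ℕ))
      (Nloc_le_comap S ((q : Nat.Primes) : ℕ))
      (toResolved (HpAt29.freeRes (IntRep20.intRep A)) h0) (basis (levelS S)) h𝒰qS hrS
      (isDiscrete_ISq' S q) hWS (LocI13.induced_levelLocS S ((q : Nat.Primes) : ℕ))).2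
    (rk20At_unitsLocS S ((q : Nat.Primes) : ℕ) (HpAt29.freeRes (IntRep20.intRep A)) h0
      (nsmul_eq_zero_rep A) h𝒰qS hrS hWS hdeg)

/-- **(H2)**, final form: `#im(ψ_*) = p ^ h⁰(Γ, A)`. -/
theorem card_range_toCS_eq_pow (hp2 : p ≠ 2) (hpS : pPrime p ∈ S) (q : ↥S)
    (hdeg : LocDegInf p S ((q : Nat.Primes) : ℕ)) :
    Nat.card (LinearMap.range ((KXmap (HpAt29.freeRes (IntRep20.intRep A)) h0 (basis (levelS S))
      (isDiscrete_IS' S) (isDiscrete_CS S) (toCS S) (toCS_ρ S)).mapℍ2 (basis (levelS S)))) =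
      p ^ Module.finrank (ZMod p) A.ρ.invariants :=
  (card_range_toCS S A h0 hp2 hpS q hdeg).2.trans
    (card_Hlev0_intRep A (basis (levelS S))
      (toResolved (HpAt29.freeRes (IntRep20.intRep A)) h0).discM)

/-- **(H2)** in the shape `(TC)` of `GWTail25D.tailEq_of_inputs`. -/
theorem card_setRange_toCS_eq_pow (hp2 : p ≠ 2) (hpS : pPrime p ∈ S) (q : ↥S)
    (hdeg : LocDegInf p S ((q : Nat.Primes) : ℕ)) :
    Nat.card (Set.range ((KXmap (HpAt29.freeRes (IntRep20.intRep A)) h0 (basis (levelS S))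
      (isDiscrete_IS' S) (isDiscrete_CS S) (toCS S) (toCS_ρ S)).mapℍ2 (basis (levelS S)))) =
      p ^ Module.finrank (ZMod p) A.ρ.invariants :=
  (Nat.card_congr (Equiv.subtypeEquivRight (fun _ => Iff.rfl))).trans
    (card_range_toCS_eq_pow S A h0 hp2 hpS q hdeg)

end H2

end Fermat.Agent.TW.P20Tail44
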