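/-
Programme TW (S56), sub-programme C, brick C2 (tail of Poitou–Tate), owner helper44.

`P20TailH1_44`: **(H1)** `S2h_surjective`, `S2h_bijective` :
`Λ²_q : ℍ²(Γ; K(P; I_{S,q})) → ℍ²(Γ_q; K(P; ℚ̄_qˣ))` is surjective / bijective, by counting
(`P20TailLoc44`): `#ℍ²(Γ_q; K(P; ℚ̄_qˣ)) ≤ #H⁰(Γ_q, M) = #ℍ²(Γ_q; K(P; ((ℚ_S)_q)ˣ))`, inflation is
injective on `ℍ²` and the Shapiro half is bijective (`LocHyperFinal13`).
-/
import Mathlib
import Fermat.Agent.TW.P20TailLoc44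

set_option autoImplicit false

open CategoryTheory Module groupCohomology ExtCitation
open Fermat.Agent.PT Fermat.Agent.PT.PRO Fermat.Agent.PT.GLUE Fermat.Agent.PT.GLUE.Objects21
open Fermat.Agent.PT.PRO.HyperLevel25 Fermat.Agent.PT.PRO.Resolved4
open Fermat.Agent.PT.PRO.HyperRes25 Fermat.Agent.PT.PRO.PairingRes1
open Fermat.Agent.PT.GLUE.LocS2_29
open Fermat.Agent.PT.PRO.IndRes20 Fermat.Agent.PT.PRO.Setup20 Fermat.Agent.PT.PRO.Objects20
open Fermat.Agent.PT.PRO.InvP4 Fermat.Agent.PT.PRO.GlobalHypP8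
open Fermat.Agent.PT.GLUE.LocHyper13 Fermat.Agent.PT.BR.InfLocal13
open Fermat.Agent.TW.P20Obj44 Fermat.Agent.TW.P20Fund44 Fermat.Agent.TW.P20LocS44
open Fermat.Agent.TW.P20Count44 Fermat.Agent.TW.P20Pair44 Fermat.Agent.TW.P20TailLoc44

namespace Fermat.Agent.TW.P20TailH1_44

local notation "Γ" => (AlgebraicClosure ℚ ≃ₐ[ℚ] AlgebraicClosure ℚ)

variable {p : ℕ} [Fact p.Prime]

section Local

variable (S : Finset Nat.Primes) (q : ℕ) [Fact q.Prime]

variable {P1 P0 M : Type} [AddCommGroup P1] [Module ℤ P1] [AddCommGroup P0] [Module ℤ P0]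
  [AddCommGroup M] [Module ℤ M] [Module.Free ℤ P0] [Module.Finite ℤ P0] [Module.Free ℤ P1]
  [Module.Finite ℤ P1]
variable (R : IndRes20.Res ℤ Γ P1 P0 M) (h0 : IsDiscrete (levelS S).sets R.ρ0)
  (hpM : ∀ m : M, p • m = 0)
  (h𝒰q : IsLevelBasis (levelLoc q).sets)
  (hr : IsLevelHom (localGaloisToGlobal q) (levelLoc q).sets (levelS S).sets)
  (hW : IsDiscrete (levelLoc q).sets (unitsLoc q).ρ)

/-! ### (H1): `Λ²_q` is surjective -/

include hpM in
/-- **(H1)**: `Λ²_q : ℍ²(Γ; K(P; I_{S,q})) → ℍ²(Γ_q; K(P|_{Γ_q}; ℚ̄_qˣ))` is surjective (generic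
resolved form). -/
theorem S2h_surjective_resolved [Finite M] (hdeg : LocDegInf p S q)
    (h𝒰 : IsLevelBasis (levelS S).sets) (hX : IsDiscrete (levelS S).sets (ISq S q).ρ) :
    Function.Surjective ((PairingRes1.KPHom hr h𝒰 h𝒰q hX hW (toResolved R h0)
      (LocPlain13.evq S q) (LocPlain13.evq_ρ S q)).ppℍ2 hr h𝒰 h𝒰q) := by
  classical
  have h𝒰qS : IsLevelBasis (levelLocS q S).sets :=
    LevelCompare13.isLevelBasis_iff.1 (levelLocS q S).isBasis
  have hrS : IsLevelHom (localGaloisToGlobal q) (levelLocS q S).sets (levelS S).sets :=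
    LocI13.isLevelHom_levelLocS S q
  have hWS : IsDiscrete (levelLocS q S).sets (unitsLocS S q).ρ := isDiscrete_unitsLocS S q
  have h1 := card_ℍ2_unitsLoc_le S q R h0 hpM h𝒰q hr hW
  have hfin := h1.1
  have hle := h1.2
  have heq := (card_ℍ2_unitsLocS_eq S q R h0 hpM h𝒰qS hrS hWS hdeg).2
  have hH0 := card_Hlev0_eq h𝒰q h𝒰qS (R.comap (localGaloisToGlobal q)).ρM
    (toResolved (R.comap (localGaloisToGlobal q)) (comap_disc0 R h0 _ hr)).discM
    (toResolved (R.comap (localGaloisToGlobal q)) (comap_disc0 R h0 _ hrS)).discM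
  have : Finite (((PairingRes1.comapResolved (localGaloisToGlobal q) hr (toResolved R h0)).K h𝒰q
      (unitsLoc q).ρ hW).ℍ2 h𝒰q) := hfin
  have hcard : Nat.card (((PairingRes1.comapResolved (localGaloisToGlobal q) hr
        (toResolved R h0)).K h𝒰q (unitsLoc q).ρ hW).ℍ2 h𝒰q) ≤
      Nat.card (((PairingRes1.comapResolved (localGaloisToGlobal q) hrS
        (toResolved R h0)).K h𝒰qS (unitsLocS S q).ρ hWS).ℍ2 h𝒰qS) :=
    hle.trans (hH0.le.trans heq.ge)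
  exact ppℍ2_surjective_of_card
    (locPHom (localGaloisToGlobal q) (levelS S) (toResolved R h0) h𝒰 h𝒰q hr hX hW)
    (shPHom (localGaloisToGlobal q) (levelS S) (isInvIncl_inclS S q) (Nloc_le_comap S q)
      (toResolved R h0) h𝒰 h𝒰qS hrS hX hWS)
    (locPHom_φ0 (localGaloisToGlobal q) (levelS S) (isInvIncl_inclS S q) (Nloc_le_comap S q)
      (toResolved R h0) h𝒰 h𝒰q h𝒰qS hr hrS hX hW hWS)
    (locPHom_φ1 (localGaloisToGlobal q) (levelS S) (isInvIncl_inclS S q) (Nloc_le_comap S q)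
      (toResolved R h0) h𝒰 h𝒰q h𝒰qS hr hrS hX hW hWS)
    hr hrS h𝒰 h𝒰q h𝒰qS (isInfData_loc S q)
    (isInvInclCx_loc (localGaloisToGlobal q) (levelS S) (isInvIncl_inclS S q) (toResolved R h0)
      h𝒰q h𝒰qS hr hrS (isInfData_loc S q) hW hWS)
    (h90_loc (localGaloisToGlobal q) (levelS S) (toResolved R h0) h𝒰q hr hrS (isInfData_loc S q)
      hW (h90_unitsLoc S q))
    (LocHyperFinal13.shPHom_ppℍ2_bijective (localGaloisToGlobal q) (levelS S)
      (isInvIncl_inclS S q) (Nloc_le_comap S q) (toResolved R h0) h𝒰 h𝒰qS hrS hX hWS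
      (LocI13.induced_levelLocS S q)).2
    hcard

include hpM in
/-- **(H1)** in the shape dual to `MainWrap20.S2hAt`: `Λ²_q` is surjective. -/
theorem S2h_surjective [Finite M] (hdeg : LocDegInf p S q)
    (h𝒰 : IsLevelBasis (levelS S).sets) (hX : IsDiscrete (levelS S).sets (ISq S q).ρ) :
    Function.Surjective ((KXPHom R h0 h𝒰 h𝒰q (localGaloisToGlobal q) hr hX hW (evq S q)
      (evq_ρ S q)).ppℍ2 hr h𝒰 h𝒰q) :=
  S2h_surjective_resolved S q R h0 hpM h𝒰q hr hW hdeg h𝒰 hX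

include hpM in
/-- **(H1')**: `Λ²_q` is bijective. -/
theorem S2h_bijective [Finite M] (hdeg : LocDegInf p S q)
    (h𝒰 : IsLevelBasis (levelS S).sets) (hX : IsDiscrete (levelS S).sets (ISq S q).ρ) :
    Function.Bijective ((KXPHom R h0 h𝒰 h𝒰q (localGaloisToGlobal q) hr hX hW (evq S q)
      (evq_ρ S q)).ppℍ2 hr h𝒰 h𝒰q) :=
  ⟨LocHyperFinal13.s2hAt S q h𝒰 h𝒰q hr hX hW R h0,
    S2h_surjective S q R h0 hpM h𝒰q hr hW hdeg h𝒰 hX⟩

end Local

end Fermat.Agent.TW.P20TailH1_44
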