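/-
Programme TW (S56), brick C2 (tail of the Poitou–Tate sequence), FINAL WRAPPER, helper25.

`GWTail25F.tailEq` : **`GWIface2_97.TailEq S M` for every good `M`, UNCONDITIONALLY** (`p ≠ 2`,
`p ∈ S`): the field `tail` of `GWAsm97.GWBricks`.

  `dim range (H²(G_S, M) → ⊕_{q ∈ S} H²(ℚ_q, M)) + h⁰(G_ℚ, M^∨(1)) = ∑_{q ∈ S} dim H²(ℚ_q, M)`.

Assembly: `GWTail25E.tailEq_of_P20` (tail count, helper25) with the inputs
* (H1) `P20TailH1_44.S2h_surjective` + `P20TailLoc44.card_ℍ2_unitsLoc_le` (helper44),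
* (H2) `P20Tail44.card_range_toCS` (helper44),
* `NZLoc94.DegInf.locDegInf` (helper94; `p^∞` divides the local degrees of `ℚ_S`).
-/
import Mathlib
import Fermat.Agent.TW.GWTail25E
import Fermat.Agent.TW.P20Tail44
import Fermat.Agent.TW.P20TailH1_44
import Fermat.Agent.TW.NZLoc94.DegInf

set_option autoImplicit false
set_option maxHeartbeats 400000

namespace Fermat.Agent.TW.GWTail25F

open Function CategoryTheory Module groupCohomology ExtCitation
open Fermat.Agent.PT Fermat.Agent.PT.PRO Fermat.Agent.PT.GLUE Fermat.Agent.PT.GLUE.Objects21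
open Fermat.Agent.PT.PRO.HyperLevel25 Fermat.Agent.PT.PRO.Resolved4
open Fermat.Agent.PT.PRO.HyperRes25 Fermat.Agent.PT.PRO.PairingRes1
open Fermat.Agent.PT.PRO.IntRep20 Fermat.Agent.PT.PRO.LevelEquiv29
open Fermat.Agent.PT.PRO.ProdDict10 Fermat.Agent.PT.GLUE.LocS2_29
open Fermat.Agent.PT.PRO.IndRes20 Fermat.Agent.PT.PRO.Setup20 Fermat.Agent.PT.PRO.Objects20
open Fermat.Agent.TW.GWIface97 Fermat.Agent.TW.GWIface2_97

local notation "Γ" => (AlgebraicClosure ℚ ≃ₐ[ℚ] AlgebraicClosure ℚ)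

variable {p : ℕ} [Fact p.Prime]

/-- **(C2) The tail of the Poitou–Tate sequence, as an equality of dimensions.** -/
theorem tailEq (hp2 : p ≠ 2) (S : Finset Nat.Primes) (M : Rep.{0} (ZMod p) Γ)
    (hpS : pPrime p ∈ S) (hM : IsGood S M) : TailEq S M := by
  refine GWTail25E.tailEq_of_P20 hpS hM (fun A _ _ h0 q => ?_) (fun A _ hA h0 => ?_)
  · have h1 := P20TailLoc44.card_ℍ2_unitsLoc_le (p := p) S ((q : Nat.Primes) : ℕ)
      (HpAt29.freeRes (IntRep20.intRep A)) h0 (P20TailGlob44.nsmul_eq_zero_rep A)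
      (basis (levelLoc ((q : Nat.Primes) : ℕ))) (isLevelHom_loc S ((q : Nat.Primes) : ℕ))
      (isDiscrete_unitsLoc ((q : Nat.Primes) : ℕ))
    have h2 := P20TailH1_44.S2h_surjective (p := p) S ((q : Nat.Primes) : ℕ)
      (HpAt29.freeRes (IntRep20.intRep A)) h0 (P20TailGlob44.nsmul_eq_zero_rep A)
      (basis (levelLoc ((q : Nat.Primes) : ℕ))) (isLevelHom_loc S ((q : Nat.Primes) : ℕ))
      (isDiscrete_unitsLoc ((q : Nat.Primes) : ℕ))
      (NZLoc94.DegInf.locDegInf p S hpS ((q : Nat.Primes) : ℕ))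
      (basis (levelS S)) (isDiscrete_ISq' S q)
    exact ⟨h1.1, h2⟩
  · have h := P20Tail44.card_range_toCS S A h0 hp2 hpS ⟨pPrime p, hpS⟩
      (NZLoc94.DegInf.locDegInf p S hpS _)
    exact h.2

/-- The same, in the argument order of the field `GWAsm97.GWBricks.tail`. -/
theorem tail (hp2 : p ≠ 2) : ∀ (S : Finset Nat.Primes) (M : Rep.{0} (ZMod p) Γ),
    pPrime p ∈ S → IsGood S M → TailEq S M :=
  fun S M hpS hM => tailEq hp2 S M hpS hM

end Fermat.Agent.TW.GWTail25F
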