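/-
Programme TW (S56), brick C4 (local duality numerics + local Euler characteristic), helper74.
File `LEulDual74`: ABSTRACT duality numerics for the level cohomology of `PT/PRO/LevelCoh28`.

Setting: a group `G` with a level basis `𝓑`, a field `k`, a level character `ε : G →* kˣ`,
`X^* := X.dualTwist ε`.  Hypotheses, for finite-dimensional discrete modules:
* `PairData 𝓑 ε` : natural perfect pairings `H¹(X) × H¹(X^*) → k`;
* `FinCoh 𝓑` (from `Tate62/ChiAdditive`) : `H¹`, `H²` finite-dimensional;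
* `(a ≡ 0)` : `dim H²(X) = dim H⁰(X^*)`.

Results:
* `finrank_range_eq_of_adjoint` : adjoint maps w.r.t. perfect pairings have the same rank;
* `subBasis`, `resH1`, `resH2` : the induced level basis on a subgroup and restriction maps;
* `mapH2_surjective` : `H²` is RIGHT EXACT (no `H³` needed);
* `chi_eq_add` : the truncated Euler characteristic `χ = h⁰ - h¹ + h²` is ADDITIVE.
-/
import Mathlib
import Fermat.Agent.TW.Tate62.ChiAdditive
import Fermat.Agent.PT.PRO.LevelCohRes28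

set_option autoImplicit false
set_option linter.unusedSectionVars false
set_option linter.style.haveILetI false

universe u

open Module

namespace Fermat.Agent.TW.LEulDual74

open Fermat.Agent.PT.PRO Fermat.Agent.PT.PRO.LevelCoh28
open Fermat.Agent.TW.Tate62.H0LES Fermat.Agent.TW.Tate62.EulerIneq
open Fermat.Agent.TW.Tate62.ChiAdditive

/-! ### Linear algebra: adjoint maps for perfect pairings -/

section LinAlg

variable {k : Type*} [Field k] {X₁ Y₁ X₂ Y₂ : Type*}
  [AddCommGroup X₁] [Module k X₁] [AddCommGroup Y₁] [Module k Y₁]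
  [AddCommGroup X₂] [Module k X₂] [AddCommGroup Y₂] [Module k Y₂]

/-- A bilinear pairing with trivial left kernel embeds the left space in the dual of the right
space. -/
theorem finrank_le_of_left_kernel [FiniteDimensional k Y₂] (B : X₂ →ₗ[k] Y₂ →ₗ[k] k)
    (hl : ∀ x, (∀ y, B x y = 0) → x = 0) :
    FiniteDimensional k X₂ ∧ finrank k X₂ ≤ finrank k Y₂ := by
  have hinj : Function.Injective B := by
    intro x x' h
    rw [← sub_eq_zero]
    apply hl
    intro y
    rw [map_sub, LinearMap.sub_apply, h, sub_self]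
  have hfin : FiniteDimensional k X₂ := FiniteDimensional.of_injective B hinj
  refine ⟨hfin, ?_⟩
  have := LinearMap.finrank_le_finrank_of_injective hinj
  rwa [Subspace.dual_finrank_eq] at this

/-- The two sides of a perfect pairing have the same dimension. -/
theorem finrank_eq_of_perfect [FiniteDimensional k X₂] [FiniteDimensional k Y₂]
    (B : X₂ →ₗ[k] Y₂ →ₗ[k] k) (hl : ∀ x, (∀ y, B x y = 0) → x = 0)
    (hr : ∀ y, (∀ x, B x y = 0) → y = 0) : finrank k X₂ = finrank k Y₂ :=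
  le_antisymm (finrank_le_of_left_kernel B hl).2
    (finrank_le_of_left_kernel B.flip (fun y hy => hr y (fun x => hy x))).2

/-- Adjoint maps with respect to perfect pairings have the same rank. -/
theorem finrank_range_eq_of_adjoint [FiniteDimensional k X₁] [FiniteDimensional k Y₁]
    [FiniteDimensional k X₂] [FiniteDimensional k Y₂]
    (B₁ : X₁ →ₗ[k] Y₁ →ₗ[k] k) (B₂ : X₂ →ₗ[k] Y₂ →ₗ[k] k)
    (hr₁ : ∀ y, (∀ x, B₁ x y = 0) → y = 0)
    (hl₂ : ∀ x, (∀ y, B₂ x y = 0) → x = 0) (hr₂ : ∀ y, (∀ x, B₂ x y = 0) → y = 0)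
    (f : X₁ →ₗ[k] X₂) (g : Y₂ →ₗ[k] Y₁) (hadj : ∀ x y, B₂ (f x) y = B₁ x (g y)) :
    finrank k (LinearMap.range f) = finrank k (LinearMap.range g) := by
  have hdim : finrank k X₂ = finrank k Y₂ := finrank_eq_of_perfect B₂ hl₂ hr₂
  have hΦinj : Function.Injective B₂.flip := by
    intro y y' h
    rw [← sub_eq_zero]
    apply hr₂
    intro x
    have := congrArg (fun φ : X₂ →ₗ[k] k => φ x) h
    simp only [LinearMap.flip_apply] at this
    rw [map_sub, this, sub_self]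
  have hker : LinearMap.ker g = (LinearMap.range f).dualAnnihilator.comap B₂.flip := by
    ext y
    rw [LinearMap.mem_ker, Submodule.mem_comap, Submodule.mem_dualAnnihilator]
    constructor
    · intro hy w hw
      obtain ⟨x, rfl⟩ := hw
      rw [LinearMap.flip_apply, hadj, hy, map_zero]
    · intro hy
      apply hr₁
      intro x
      rw [← hadj]
      exact hy (f x) ⟨x, rfl⟩
  have hsurj : Function.Surjective B₂.flip := by
    have : finrank k Y₂ = finrank k (Dual k X₂) := by rw [Subspace.dual_finrank_eq, hdim]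
    exact (LinearMap.injective_iff_surjective_of_finrank_eq_finrank this).1 hΦinj
  have hker_dim : finrank k (LinearMap.ker g) = finrank k (LinearMap.range f).dualAnnihilator := by
    rw [hker]
    let e : Y₂ ≃ₗ[k] Dual k X₂ := LinearEquiv.ofBijective B₂.flip ⟨hΦinj, hsurj⟩
    have hmap : ((LinearMap.range f).dualAnnihilator.comap B₂.flip).map (e : Y₂ →ₗ[k] Dual k X₂) =
        (LinearMap.range f).dualAnnihilator := by
      ext φ
      simp only [Submodule.mem_map, Submodule.mem_comap]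
      constructor
      · rintro ⟨y, hy, rfl⟩
        exact hy
      · intro hφ
        obtain ⟨y, rfl⟩ := hsurj φ
        exact ⟨y, hφ, rfl⟩
    rw [← LinearEquiv.finrank_map_eq e, hmap]
  have h3 := Subspace.finrank_add_finrank_dualAnnihilator_eq (LinearMap.range f)
  have h4 := LinearMap.finrank_range_add_finrank_ker g
  omega

end LinAlg

variable {k G : Type u} [Field k] [Group G]

/-! ### The induced level basis on a subgroup, restriction maps -/

section SubBasis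

variable (𝓑 : LevelBasis G) (V : Subgroup G)

/-- The traces on `V` of the members of `𝓑`. -/
def subSets : Set (Subgroup V) := (fun W : Subgroup G => W.subgroupOf V) '' 𝓑.sets

theorem isLevelBasis_subSets : IsLevelBasis (subSets 𝓑 V) where
  nonempty := 𝓑.isBasis.nonempty.image _
  directed := by
    rintro _ ⟨U, hU, rfl⟩ _ ⟨W, hW, rfl⟩
    obtain ⟨Z, hZ, hle⟩ := 𝓑.isBasis.directed U hU W hW
    exact ⟨_, ⟨Z, hZ, rfl⟩, le_inf (Subgroup.comap_mono (hle.trans inf_le_left))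
      (Subgroup.comap_mono (hle.trans inf_le_right))⟩
  normalCore := by
    rintro _ ⟨U, hU, rfl⟩
    obtain ⟨W, hW, hle, hn⟩ := 𝓑.isBasis.normalCore U hU
    exact ⟨_, ⟨W, hW, rfl⟩, Subgroup.comap_mono hle, hn.comap V.subtype⟩
  finiteIndex := by
    rintro _ ⟨U, hU, rfl⟩
    have := 𝓑.isBasis.finiteIndex U hU
    refine ⟨?_⟩
    show (U.comap V.subtype).index ≠ 0
    rw [Subgroup.index_comap]
    exact fun h0 => this.index_ne_zero (Subgroup.index_eq_zero_of_relIndex_eq_zero h0)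

/-- The level basis induced on a subgroup. -/
def subBasis : LevelBasis V := ⟨subSets 𝓑 V, isLevelBasis_subSets 𝓑 V⟩

theorem isLevelHom_subtype : LevelCohRes28.IsLevelHom V.subtype (subBasis 𝓑 V).sets 𝓑.sets :=
  fun U hU => ⟨U.subgroupOf V, ⟨U, hU, rfl⟩, le_rfl⟩

theorem subBasis_induced : ∀ W ∈ (subBasis 𝓑 V).sets, ∃ U ∈ 𝓑.sets, U.comap V.subtype ≤ W := by
  rintro _ ⟨U, hU, rfl⟩
  exact ⟨U, hU, le_rfl⟩

variable (N : Rep.{u} k G)

/-- Restriction `H¹(G, N) → H¹(V, N)`. -/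
noncomputable def resH1 : H1 𝓑 N →ₗ[k] H1 (subBasis 𝓑 V) (Rep.res V.subtype N) :=
  LevelCohRes28.ppH1 (𝓑G := subBasis 𝓑 V) (𝓑H := 𝓑) V.subtype
    (LinearMap.id : N →ₗ[k] Rep.res V.subtype N) (fun _ _ => rfl) (isLevelHom_subtype 𝓑 V)

/-- Restriction `H²(G, N) → H²(V, N)`. -/
noncomputable def resH2 : H2 𝓑 N →ₗ[k] H2 (subBasis 𝓑 V) (Rep.res V.subtype N) :=
  LevelCohRes28.ppH2 (𝓑G := subBasis 𝓑 V) (𝓑H := 𝓑) V.subtype
    (LinearMap.id : N →ₗ[k] Rep.res V.subtype N) (fun _ _ => rfl) (isLevelHom_subtype 𝓑 V)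

end SubBasis

/-! ### Natural perfect pairings -/

/-- Natural perfect pairings `H¹(X) × H¹(X^*) → k` on finite-dimensional discrete modules
(naturality is only required for surjective equivariant maps with finite-dimensional discrete
source). -/
structure PairData (𝓑 : LevelBasis G) (ε : G →* kˣ) where
  /-- the pairing -/
  pair : ∀ X : Rep.{u} k G, H1 𝓑 X →ₗ[k] H1 𝓑 (X.dualTwist ε) →ₗ[k] k
  left : ∀ X : Rep.{u} k G, FiniteDimensional k X → IsDiscrete 𝓑.sets X →
    ∀ x, (∀ y, pair X x y = 0) → x = 0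
  right : ∀ X : Rep.{u} k G, FiniteDimensional k X → IsDiscrete 𝓑.sets X →
    ∀ y, (∀ x, pair X x y = 0) → y = 0
  natural : ∀ (X Y : Rep.{u} k G) (φ : X →ₗ[k] Y) (hφ : ∀ g a, φ (X.ρ g a) = Y.ρ g (φ a)),
    FiniteDimensional k X → IsDiscrete 𝓑.sets X →
    Function.Surjective φ → ∀ (x : H1 𝓑 X) (y : H1 𝓑 (Y.dualTwist ε)),
    pair Y (mapH1 φ hφ x) y =
      pair X x (mapH1 (dualTwistMap φ ε) (dualTwistMap_equivariant φ hφ ε) y)

section Additive

variable {𝓑 : LevelBasis G} {ε : G →* kˣ}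

/-- The hypothesis `a ≡ 0`: `dim H²(X) = dim H⁰(X^*)` for finite-dimensional discrete `X`. -/
def H2Dual (𝓑 : LevelBasis G) (ε : G →* kˣ) : Prop :=
  ∀ X : Rep.{u} k G, FiniteDimensional k X → IsDiscrete 𝓑.sets X →
    finrank k (H2 𝓑 X) = finrank k (H0 (X.dualTwist ε))

variable (P : PairData 𝓑 ε) (hε : IsLevelChar 𝓑.sets ε) (hFIN : FinCoh (k := k) 𝓑)
  (hdual : H2Dual (k := k) 𝓑 ε)
  {A B C : Rep.{u} k G}
  (φ : A →ₗ[k] B) (hφ : ∀ g a, φ (A.ρ g a) = B.ρ g (φ a))
  (ψ : B →ₗ[k] C) (hψ : ∀ g b, ψ (B.ρ g b) = C.ρ g (ψ b))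
  (hinj : Function.Injective φ) (hsurj : Function.Surjective ψ)
  (hex : ∀ b, ψ b = 0 ↔ ∃ a, φ a = b)

include P hε hFIN hdual hφ hψ hinj hsurj hex in
/-- The rank of `H²(B) → H²(C)` is `dim H²(C)` (dimension count with the two truncated long
exact sequences and the natural perfect pairings). -/
theorem finrank_range_mapH2 [FiniteDimensional k B] (hB : IsDiscrete 𝓑.sets B) :
    finrank k (LinearMap.range (mapH2 (𝓑 := 𝓑) ψ hψ)) = finrank k (H2 𝓑 C) := by
  haveI hAfd : FiniteDimensional k A := FiniteDimensional.of_injective φ hinj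
  haveI hCfd : FiniteDimensional k C := FiniteDimensional.of_surjective ψ hsurj
  have hA : IsDiscrete 𝓑.sets A := isDiscrete_of_injective φ hφ hinj hB
  have hC : IsDiscrete 𝓑.sets C := isDiscrete_of_surjective ψ hψ hsurj hB
  have hA' := isDiscrete_dualTwist 𝓑.isBasis hε hA
  have hB' := isDiscrete_dualTwist 𝓑.isBasis hε hB
  have hC' := isDiscrete_dualTwist 𝓑.isBasis hε hC
  haveI hAd : FiniteDimensional k (A.dualTwist ε) :=
    inferInstanceAs (FiniteDimensional k (Module.Dual k A))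
  haveI hBd : FiniteDimensional k (B.dualTwist ε) :=
    inferInstanceAs (FiniteDimensional k (Module.Dual k B))
  haveI hCd : FiniteDimensional k (C.dualTwist ε) :=
    inferInstanceAs (FiniteDimensional k (Module.Dual k C))
  obtain ⟨_, _⟩ := hFIN A hAfd hA
  obtain ⟨_, _⟩ := hFIN B inferInstance hB
  obtain ⟨_, _⟩ := hFIN C hCfd hC
  obtain ⟨_, _⟩ := hFIN _ hAd hA'
  obtain ⟨_, _⟩ := hFIN _ hBd hB'
  obtain ⟨_, _⟩ := hFIN _ hCd hC'
  -- the sequence `0 → A → B → C → 0`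
  have e5 := finrank_eq_of_exact (mapH1 (𝓑 := 𝓑) ψ hψ) (delta φ hφ ψ hψ hinj hsurj hex hB)
    (ker_delta φ hφ ψ hψ hinj hsurj hex hB)
  have e6 := finrank_eq_of_exact (delta φ hφ ψ hψ hinj hsurj hex hB) (mapH2 (𝓑 := 𝓑) φ hφ)
    (ker_mapH2 φ hφ ψ hψ hinj hsurj hex hB)
  have e7 := finrank_eq_of_exact (mapH2 (𝓑 := 𝓑) φ hφ) (mapH2 (𝓑 := 𝓑) ψ hψ)
    (ker_mapH2' φ hφ ψ hψ hinj hsurj hex hB)
  -- the dual sequence `0 → C^* → B^* → A^* → 0`
  have hψ' := dualTwistMap_equivariant ψ hψ ε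
  have hφ' := dualTwistMap_equivariant φ hφ ε
  have hinj' := dualTwistMap_injective ψ ε hsurj
  have hsurj' := dualTwistMap_surjective φ ε hinj
  have hex' := dualTwistMap_exact φ ψ hex ε
  have d0 := finrank_eq_of_injective (mapH0 (dualTwistMap ψ ε) hψ')
    (mapH0_injective (dualTwistMap ψ ε) hψ' hinj')
  have d1 := finrank_eq_of_exact (mapH0 (dualTwistMap ψ ε) hψ') (mapH0 (dualTwistMap φ ε) hφ')
    (ker_mapH0 (dualTwistMap ψ ε) hψ' (dualTwistMap φ ε) hφ' hinj' hex')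
  have d2 := finrank_eq_of_exact (mapH0 (dualTwistMap φ ε) hφ')
    (delta0 𝓑 (dualTwistMap ψ ε) hψ' (dualTwistMap φ ε) hφ' hinj' hsurj' hex' hB')
    (ker_delta0 𝓑 (dualTwistMap ψ ε) hψ' (dualTwistMap φ ε) hφ' hinj' hsurj' hex' hB')
  have d3 := finrank_eq_of_exact
    (delta0 𝓑 (dualTwistMap ψ ε) hψ' (dualTwistMap φ ε) hφ' hinj' hsurj' hex' hB')
    (mapH1 (𝓑 := 𝓑) (dualTwistMap ψ ε) hψ')
    (ker_mapH1_left 𝓑 (dualTwistMap ψ ε) hψ' (dualTwistMap φ ε) hφ' hinj' hsurj' hex' hB')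
  -- duality
  have hadj := finrank_range_eq_of_adjoint (P.pair B) (P.pair C)
    (P.right B inferInstance hB) (P.left C hCfd hC) (P.right C hCfd hC)
    (mapH1 (𝓑 := 𝓑) ψ hψ) (mapH1 (𝓑 := 𝓑) (dualTwistMap ψ ε) hψ')
    (fun x y => P.natural B C ψ hψ inferInstance hB hsurj x y)
  have hCC := finrank_eq_of_perfect (P.pair C) (P.left C hCfd hC) (P.right C hCfd hC)
  have aA := hdual A hAfd hA
  have aB := hdual B inferInstance hB
  have aC := hdual C hCfd hC
  omega

include P hε hFIN hdual hφ hψ hinj hsurj hex in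
/-- **`H²` is right exact** on finite-dimensional discrete modules. -/
theorem mapH2_surjective [FiniteDimensional k B] (hB : IsDiscrete 𝓑.sets B) :
    Function.Surjective (mapH2 (𝓑 := 𝓑) ψ hψ) := by
  haveI hCfd : FiniteDimensional k C := FiniteDimensional.of_surjective ψ hsurj
  have hC : IsDiscrete 𝓑.sets C := isDiscrete_of_surjective ψ hψ hsurj hB
  obtain ⟨_, _⟩ := hFIN C hCfd hC
  rw [← LinearMap.range_eq_top]
  exact Submodule.eq_top_of_finrank_eq
    (finrank_range_mapH2 P hε hFIN hdual φ hφ ψ hψ hinj hsurj hex hB)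

include P hε hFIN hdual hφ hψ hinj hsurj hex in
/-- **Additivity of the truncated Euler characteristic.** -/
theorem chi_eq_add [FiniteDimensional k B] (hB : IsDiscrete 𝓑.sets B) :
    chi 𝓑 B = chi 𝓑 A + chi 𝓑 C := by
  haveI hAfd : FiniteDimensional k A := FiniteDimensional.of_injective φ hinj
  haveI hCfd : FiniteDimensional k C := FiniteDimensional.of_surjective ψ hsurj
  have hA : IsDiscrete 𝓑.sets A := isDiscrete_of_injective φ hφ hinj hB
  have hC : IsDiscrete 𝓑.sets C := isDiscrete_of_surjective ψ hψ hsurj hB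
  obtain ⟨_, _⟩ := hFIN A hAfd hA
  obtain ⟨_, _⟩ := hFIN B inferInstance hB
  obtain ⟨_, _⟩ := hFIN C hCfd hC
  have e0 := finrank_eq_of_injective (mapH0 φ hφ) (mapH0_injective φ hφ hinj)
  have e1 := finrank_eq_of_exact (mapH0 φ hφ) (mapH0 ψ hψ) (ker_mapH0 φ hφ ψ hψ hinj hex)
  have e2 := finrank_eq_of_exact (mapH0 ψ hψ) (delta0 𝓑 φ hφ ψ hψ hinj hsurj hex hB)
    (ker_delta0 𝓑 φ hφ ψ hψ hinj hsurj hex hB)
  have e3 := finrank_eq_of_exact (delta0 𝓑 φ hφ ψ hψ hinj hsurj hex hB) (mapH1 (𝓑 := 𝓑) φ hφ)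
    (ker_mapH1_left 𝓑 φ hφ ψ hψ hinj hsurj hex hB)
  have e4 := finrank_eq_of_exact (mapH1 (𝓑 := 𝓑) φ hφ) (mapH1 (𝓑 := 𝓑) ψ hψ)
    (ker_mapH1 φ hφ ψ hψ hinj hsurj hex hB)
  have e5 := finrank_eq_of_exact (mapH1 (𝓑 := 𝓑) ψ hψ) (delta φ hφ ψ hψ hinj hsurj hex hB)
    (ker_delta φ hφ ψ hψ hinj hsurj hex hB)
  have e6 := finrank_eq_of_exact (delta φ hφ ψ hψ hinj hsurj hex hB) (mapH2 (𝓑 := 𝓑) φ hφ)
    (ker_mapH2 φ hφ ψ hψ hinj hsurj hex hB)
  have e7 := finrank_eq_of_exact (mapH2 (𝓑 := 𝓑) φ hφ) (mapH2 (𝓑 := 𝓑) ψ hψ)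
    (ker_mapH2' φ hφ ψ hψ hinj hsurj hex hB)
  have e8 := finrank_range_mapH2 P hε hFIN hdual φ hφ ψ hψ hinj hsurj hex hB
  unfold chi
  omega

end Additive

end Fermat.Agent.TW.LEulDual74
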