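/-
Programme TW (S56), brick C4 (local Euler characteristic): THE CLOSED THEOREM.

`localEuler q S M hM : GWIface97.LocalEuler q M` for every prime `q` and every good `M`
(= the field `localEuler` of `GWAsm97.GWBricks`), with no hypotheses:

* LD1 `GWLocPair1.PairData.pairData` (helper1): natural perfect pairings on `H¹`;
* BASE `LEulBaseEvery10.baseEverywhere` (helper10, helper49, helper23): the base formula;
* LD2 / LD3 / ADD / ART / FIN through `LEulAsmLoc64.localEuler_of` (helper64, helper74).
-/
import Mathlib
import Fermat.Agent.TW.LEulBaseEvery10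
import Fermat.Agent.TW.GWLocPair1.PairData

set_option autoImplicit false

open ExtCitation

namespace Fermat.Agent.TW.LEulFinal64

open Fermat.Agent.PT.PRO Fermat.Agent.PT.PRO.LevelCoh28 Fermat.Agent.PT.BR.LevelBridge13
open Fermat.Agent.TW.LEulDual74 Fermat.Agent.TW.LEulAsm64 Fermat.Agent.TW.LEulAsmLoc64
open Fermat.Agent.TW.GWIface97

local notation "Γ" => (AlgebraicClosure ℚ ≃ₐ[ℚ] AlgebraicClosure ℚ)

variable {p : ℕ} [Fact p.Prime]

/-- LD1 for the local Galois group at `q`, unconditionally. -/
noncomputable def pairData (q : Nat.Primes) :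
    PairData (pullBasis (primeLocalToGlobal q)) (epsLoc p q) :=
  Fermat.Agent.TW.GWLocPair1.PairData.pairData q
    (finH1 (Fermat.Agent.TW.LEulBaseEvery10.baseEverywhere (p := p) q))

/-- **C4: the local Euler characteristic formula** (with local Tate duality `h² = h⁰` of the dual),
for every prime `q` and every good module. -/
theorem localEuler (q : Nat.Primes) (S : Finset Nat.Primes) (M : Rep.{0} (ZMod p) Γ)
    (hM : IsGood S M) : LocalEuler q M :=
  localEuler_of q (pairData q) (Fermat.Agent.TW.LEulBaseEvery10.baseEverywhere q) S M hM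

end Fermat.Agent.TW.LEulFinal64
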