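/-
Programme TW (S56), brick C3-(iii)f (helper68): permutation representations in the function model
`X → k`, `(g • u) x = u (g⁻¹ • x)`: functoriality in the `G`-set, disjoint unions, character
(= number of fixed points).
Pure Mathlib.
-/
import Mathlib

set_option autoImplicit false
set_option linter.style.haveILetI false
set_option linter.unusedSectionVars false

namespace Fermat.Agent.TW.PermRep68

open Representation

section defs

variable (k : Type*) [CommRing k] (G : Type*) [Group G] (X : Type*) [MulAction G X]

/-- The permutation representation on functions: `(g • u) x = u (g⁻¹ • x)`. -/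
def permRep : Representation k G (X → k) where
  toFun g := LinearMap.funLeft k k (fun x => g⁻¹ • x)
  map_one' := by ext u x; simp
  map_mul' g h := by ext u x; simp [mul_smul]

@[simp]
theorem permRep_apply (g : G) (u : X → k) (x : X) : permRep k G X g u x = u (g⁻¹ • x) := rfl

variable {X} {Y : Type*} [MulAction G Y]

/-- Equivariant bijections of `G`-sets induce isomorphisms of permutation representations. -/
def permRepCongr (e : X ≃ Y) (he : ∀ (g : G) (x : X), e (g • x) = g • e x) :
    (permRep k G X).Equiv (permRep k G Y) :=
  Representation.Equiv.mk (LinearEquiv.funCongrLeft k k e.symm) (by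
    intro g
    ext u y
    simp only [LinearMap.coe_comp, LinearEquiv.coe_coe, Function.comp_apply,
      LinearEquiv.funCongrLeft_apply, LinearMap.funLeft_apply, permRep_apply]
    congr 1
    apply e.injective
    rw [he, e.apply_symm_apply, e.apply_symm_apply])

variable (X Y)

/-- The permutation representation of a disjoint union is the product. -/
noncomputable def permRepSum :
    (permRep k G (X ⊕ Y)).Equiv ((permRep k G X).prod (permRep k G Y)) :=
  Representation.Equiv.mk (LinearEquiv.sumArrowLequivProdArrow X Y k k) (by
    intro g
    ext u
    · rfl
    · rfl)

end defs

section character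

variable (k : Type*) [Field k] (G : Type*) [Group G] (X : Type*) [MulAction G X] [Fintype X]

open Classical in
/-- The character of a permutation representation counts fixed points. -/
theorem character_permRep (g : G) :
    (permRep k G X).character g = (Nat.card (MulAction.fixedBy X g) : k) := by
  unfold Representation.character
  rw [LinearMap.trace_eq_matrix_trace k (Pi.basisFun k X), Matrix.trace]
  have hdiag : ∀ i : X, Matrix.diag (LinearMap.toMatrix (Pi.basisFun k X) (Pi.basisFun k X)
      (permRep k G X g)) i = if g • i = i then 1 else 0 := by
    intro i
    rw [Matrix.diag_apply, LinearMap.toMatrix_apply, Pi.basisFun_repr, Pi.basisFun_apply,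
      permRep_apply, Pi.single_apply]
    have : g⁻¹ • i = i ↔ g • i = i := by
      constructor
      · intro h; rw [← h, smul_inv_smul]; exact h.symm
      · intro h; rw [← h, inv_smul_smul]; exact h.symm
    simp only [this]
  simp_rw [hdiag]
  rw [Finset.sum_boole]
  congr 1
  rw [Nat.card_eq_fintype_card, Fintype.card_subtype]
  rfl

end character

end Fermat.Agent.TW.PermRep68
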