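/-
Programme TW (S56), brick C3-(iii)k (helper68): identification of induced modules.
* `funRep ρ X`: the diagonal action of `G` on `X → M`, `(g • w) x = ρ g (w (g⁻¹ • x))`;
* `tensorFunEquiv`: `M ⊗ k[X] ≅ Fun(X, M)` (diagonal action);
* `funCoindEquiv`: `Fun(G ⧸ C, M) ≅ coind_C^G (Res_C M)` (Mathlib's `Representation.coind`);
* `funTopEquiv`: `Fun(G ⧸ ⊤, M) ≅ M`.
Pure Mathlib + PermRep68.
-/
import Fermat.Agent.TW.PermRep68

set_option autoImplicit false
set_option linter.style.haveILetI false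
set_option linter.unusedSectionVars false

namespace Fermat.Agent.TW.CoindEquiv68

open Representation Fermat.Agent.TW.PermRep68 TensorProduct

variable {k : Type*} [CommRing k] {G : Type*} [Group G] {M : Type*} [AddCommGroup M] [Module k M]

section funRep

variable (ρ : Representation k G M) (X : Type*) [MulAction G X]

/-- The diagonal action on `X → M`: `(g • w) x = ρ g (w (g⁻¹ • x))`. -/
def funRep : Representation k G (X → M) where
  toFun g := (ρ g).compLeft X ∘ₗ LinearMap.funLeft k M (fun x => g⁻¹ • x)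
  map_one' := by ext w x; simp
  map_mul' g h := by ext w x; simp [mul_smul]

@[simp]
theorem funRep_apply (g : G) (w : X → M) (x : X) : funRep ρ X g w x = ρ g (w (g⁻¹ • x)) := rfl

/-- `M ⊗ k[X] ≅ Fun(X, M)`. -/
noncomputable def tensorFunEquiv [Fintype X] [DecidableEq X] :
    (ρ.tprod (permRep k G X)).Equiv (funRep ρ X) :=
  Representation.Equiv.mk (TensorProduct.piScalarRight k k M X) (by
    intro g
    apply TensorProduct.ext'
    intro m u
    funext x
    simp only [LinearMap.coe_comp, LinearEquiv.coe_coe, Function.comp_apply,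
      TensorProduct.piScalarRight_apply, funRep_apply]
    rw [Representation.tprod_apply, TensorProduct.map_tmul, TensorProduct.piScalarRightHom_tmul,
      TensorProduct.piScalarRightHom_tmul]
    simp only [permRep_apply, map_smul])

end funRep

section coind

variable (ρ : Representation k G M) (C : Subgroup G)

/-- The map `Fun(G ⧸ C, M) → coind_C^G M`, `w ↦ (h ↦ ρ h (w (h⁻¹ C)))`. -/
def toCoind : (G ⧸ C → M) →ₗ[k] ↥(coindV C.subtype (ρ.comp C.subtype)) where
  toFun w := ⟨fun h => ρ h (w ((h⁻¹ : G) : G ⧸ C)), by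
    intro c h
    change ρ ((c : G) * h) (w ((((c : G) * h)⁻¹ : G) : G ⧸ C)) =
      ρ (c : G) (ρ h (w ((h⁻¹ : G) : G ⧸ C)))
    have : ((((c : G) * h)⁻¹ : G) : G ⧸ C) = ((h⁻¹ : G) : G ⧸ C) := by
      rw [QuotientGroup.eq]
      simp
    rw [this, map_mul]
    rfl⟩
  map_add' w w' := by
    apply Subtype.ext
    funext h
    simp
  map_smul' a w := by
    apply Subtype.ext
    funext h
    simp

theorem toCoind_apply (w : G ⧸ C → M) (h : G) :
    (toCoind ρ C w : G → M) h = ρ h (w ((h⁻¹ : G) : G ⧸ C)) := rfl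

theorem toCoind_bijective : Function.Bijective (toCoind ρ C) := by
  constructor
  · rw [← LinearMap.ker_eq_bot, LinearMap.ker_eq_bot']
    intro w hw
    funext q
    induction q using QuotientGroup.induction_on with
    | H x =>
      have h1 := congrFun (congrArg Subtype.val hw) x⁻¹
      rw [toCoind_apply, inv_inv] at h1
      have h2 := congrArg (ρ x) h1
      rw [ZeroMemClass.coe_zero, Pi.zero_apply, map_zero, ← Module.End.mul_apply, ← map_mul,
        mul_inv_cancel, map_one, Module.End.one_apply] at h2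
      exact h2
  · intro F
    have hF := F.2
    refine ⟨fun q => Quotient.liftOn' q (fun x => ρ x ((F : G → M) x⁻¹)) ?_, ?_⟩
    · intro a b hab
      rw [QuotientGroup.leftRel_apply] at hab
      -- b = a * c with c ∈ C
      have hb : b⁻¹ = (⟨(a⁻¹ * b)⁻¹, C.inv_mem hab⟩ : C) * a⁻¹ := by
        simp
      have h1 : (F : G → M) b⁻¹ = ρ (a⁻¹ * b)⁻¹ ((F : G → M) a⁻¹) := by
        rw [hb]
        exact hF ⟨(a⁻¹ * b)⁻¹, C.inv_mem hab⟩ a⁻¹
      change ρ a ((F : G → M) a⁻¹) = ρ b ((F : G → M) b⁻¹)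
      rw [h1, ← Module.End.mul_apply, ← map_mul]
      congr 2
      group
    · apply Subtype.ext
      funext h
      rw [toCoind_apply]
      change ρ h (ρ h⁻¹ ((F : G → M) (h⁻¹)⁻¹)) = _
      rw [inv_inv, ← Module.End.mul_apply, ← map_mul, mul_inv_cancel, map_one,
        Module.End.one_apply]

/-- `Fun(G ⧸ C, M) ≅ coind_C^G (Res_C M)`. -/
noncomputable def funCoindEquiv :
    (funRep ρ (G ⧸ C)).Equiv (coind C.subtype (ρ.comp C.subtype)) :=
  IntertwiningMap.ofBijective ⟨toCoind ρ C, fun g => by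
    ext w h
    change ρ h (ρ g (w (g⁻¹ • ((h⁻¹ : G) : G ⧸ C)))) = ρ (h * g) (w (((h * g)⁻¹ : G) : G ⧸ C))
    rw [map_mul, mul_inv_rev]
    rfl⟩ (toCoind_bijective ρ C)

/-- `M ⊗ k[G ⧸ C] ≅ coind_C^G (Res_C M)`. -/
noncomputable def tensorCoindEquiv [Finite G] :
    (ρ.tprod (permRep k G (G ⧸ C))).Equiv (coind C.subtype (ρ.comp C.subtype)) :=
  haveI : Fintype (G ⧸ C) := Fintype.ofFinite _
  haveI : DecidableEq (G ⧸ C) := Classical.decEq _
  (tensorFunEquiv ρ (G ⧸ C)).trans (funCoindEquiv ρ C)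

end coind

section top

variable (ρ : Representation k G M)

/-- `Fun(G ⧸ ⊤, M) ≅ M`. -/
noncomputable def funTopEquiv : (funRep ρ (G ⧸ (⊤ : Subgroup G))).Equiv ρ :=
  haveI : Unique (G ⧸ (⊤ : Subgroup G)) :=
    { default := ((1 : G) : G ⧸ (⊤ : Subgroup G))
      uniq := fun _ => QuotientGroup.subsingleton_quotient_top.elim _ _ }
  Representation.Equiv.mk (LinearEquiv.funUnique (G ⧸ (⊤ : Subgroup G)) k M) (by
    intro g
    apply LinearMap.ext
    intro w
    simp only [LinearMap.coe_comp, LinearEquiv.coe_coe, Function.comp_apply,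
      LinearEquiv.funUnique_apply, Function.eval, funRep_apply]
    congr 2
    exact (QuotientGroup.subsingleton_quotient_top (G := G)).elim _ _)

/-- `M ⊗ k[G ⧸ ⊤] ≅ M`. -/
noncomputable def tensorTopEquiv :
    (ρ.tprod (permRep k G (G ⧸ (⊤ : Subgroup G)))).Equiv ρ :=
  haveI : Unique (G ⧸ (⊤ : Subgroup G)) :=
    { default := ((1 : G) : G ⧸ (⊤ : Subgroup G))
      uniq := fun _ => QuotientGroup.subsingleton_quotient_top.elim _ _ }
  haveI : Fintype (G ⧸ (⊤ : Subgroup G)) := Fintype.ofFinite _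
  haveI : DecidableEq (G ⧸ (⊤ : Subgroup G)) := Classical.decEq _
  (tensorFunEquiv ρ (G ⧸ (⊤ : Subgroup G))).trans (funTopEquiv ρ)

end top

end Fermat.Agent.TW.CoindEquiv68
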