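/-
Programme TW (S56), brick C3-(iii)b (helper68): additive functions on finite-dimensional
`ZMod p`-representations of a group `G` (all carriers in `Type`), and their formal consequences
(vanishing on zero modules, invariance under isomorphism, additivity on products, on
sub/quotient pairs, on kernel/range pairs; stability under tensoring with a fixed representation).
Pure Mathlib.
-/
import Mathlib

set_option autoImplicit false
set_option linter.style.haveILetI false
set_option linter.unusedSectionVars false

namespace Fermat.Agent.TW.AddFun68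

open Representation

/-- Integer valued "functions" on `ZMod p`-representations of `G` with carrier in `Type`. -/
abbrev RepFun (p : ℕ) (G : Type) [Group G] : Type 1 :=
  ∀ (V : Type) [AddCommGroup V] [Module (ZMod p) V], Representation (ZMod p) G V → ℤ

/-- `f` is additive on short exact sequences of finite-dimensional `ZMod p`-representations
of `G` (all carriers in `Type`). -/
def IsAdditiveFun (p : ℕ) [Fact p.Prime] (G : Type) [Group G] (f : RepFun p G) : Prop :=
  ∀ (V' V V'' : Type) [AddCommGroup V'] [Module (ZMod p) V'] [AddCommGroup V]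
    [Module (ZMod p) V] [AddCommGroup V''] [Module (ZMod p) V'']
    [Module.Finite (ZMod p) V'] [Module.Finite (ZMod p) V] [Module.Finite (ZMod p) V'']
    (ρ' : Representation (ZMod p) G V') (ρ : Representation (ZMod p) G V)
    (ρ'' : Representation (ZMod p) G V'')
    (i : ρ'.IntertwiningMap ρ) (q : ρ.IntertwiningMap ρ''),
    Function.Injective i → Function.Surjective q →
    LinearMap.range i.toLinearMap = LinearMap.ker q.toLinearMap →
    f V ρ = f V' ρ' + f V'' ρ''

variable {p : ℕ} [Fact p.Prime] {G : Type} [Group G] {f : RepFun p G}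

section basic

variable {V W : Type} [AddCommGroup V] [Module (ZMod p) V] [AddCommGroup W] [Module (ZMod p) W]
  [Module.Finite (ZMod p) V] [Module.Finite (ZMod p) W]

/-- An additive function vanishes on zero modules. -/
theorem IsAdditiveFun.map_of_subsingleton (hf : IsAdditiveFun p G f) [Subsingleton V]
    (ρ : Representation (ZMod p) G V) : f V ρ = 0 := by
  have h := hf V V V ρ ρ ρ (IntertwiningMap.id ρ) 0 (fun _ _ h => h)
    (fun y => ⟨y, Subsingleton.elim _ _⟩) (by
      ext x
      constructor
      · intro _
        exact LinearMap.mem_ker.mpr (Subsingleton.elim (α := V) _ _)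
      · intro _
        exact ⟨x, rfl⟩)
  linarith

/-- An additive function is invariant under isomorphism. -/
theorem IsAdditiveFun.map_equiv (hf : IsAdditiveFun p G f)
    {ρ : Representation (ZMod p) G V} {σ : Representation (ZMod p) G W} (e : ρ.Equiv σ) :
    f V ρ = f W σ := by
  have h := hf V W PUnit ρ σ (Representation.trivial (ZMod p) G PUnit) e.toIntertwiningMap 0
    e.toLinearEquiv.injective (fun y => ⟨0, Subsingleton.elim _ _⟩) (by
      ext x
      constructor
      · intro _
        exact LinearMap.mem_ker.mpr (Subsingleton.elim (α := PUnit) _ _)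
      · intro _
        exact ⟨e.symm x, e.apply_symm_apply x⟩)
  rw [h, hf.map_of_subsingleton (V := PUnit), add_zero]

/-- An additive function is additive on products. -/
theorem IsAdditiveFun.map_prod (hf : IsAdditiveFun p G f)
    (ρ : Representation (ZMod p) G V) (σ : Representation (ZMod p) G W) :
    f (V × W) (ρ.prod σ) = f V ρ + f W σ := by
  refine hf V (V × W) W ρ (ρ.prod σ) σ (IntertwiningMap.inl _ ρ σ) (IntertwiningMap.snd _ ρ σ)
    ?_ ?_ ?_
  · intro x y h
    have := congrArg Prod.fst h
    simpa [IntertwiningMap.inl, IntertwiningMap.prod] using this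
  · exact IntertwiningMap.snd_surjective ρ σ
  · ext x
    simp only [LinearMap.mem_range, LinearMap.mem_ker]
    constructor
    · rintro ⟨y, rfl⟩
      rfl
    · intro hx
      refine ⟨x.1, ?_⟩
      ext
      · rfl
      · exact hx.symm

/-- Additivity for a stable subspace and its quotient. -/
theorem IsAdditiveFun.map_sub_quotient (hf : IsAdditiveFun p G f)
    (ρ : Representation (ZMod p) G V) (S : Submodule (ZMod p) V)
    (hS : ∀ g, S ≤ S.comap (ρ g)) :
    f V ρ = f S (ρ.subrepresentation S hS) + f (V ⧸ S) (ρ.quotient S hS) := by
  refine hf S V (V ⧸ S) (ρ.subrepresentation S hS) ρ (ρ.quotient S hS)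
    ⟨S.subtype, fun g => by ext; rfl⟩ ⟨S.mkQ, fun g => by ext; rfl⟩ ?_ ?_ ?_
  · exact S.injective_subtype
  · exact S.mkQ_surjective
  · change LinearMap.range S.subtype = LinearMap.ker S.mkQ
    rw [Submodule.range_subtype, Submodule.ker_mkQ]

omit [Module.Finite (ZMod p) W] in
/-- Additivity for the kernel and the range of an intertwining map. -/
theorem IsAdditiveFun.map_ker_range (hf : IsAdditiveFun p G f)
    {ρ : Representation (ZMod p) G V} {σ : Representation (ZMod p) G W}
    (φ : ρ.IntertwiningMap σ) :
    f V ρ = f (LinearMap.ker φ.toLinearMap) (ρ.subrepresentation (LinearMap.ker φ.toLinearMap)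
        (fun g x hx => by
          simp only [Submodule.mem_comap, LinearMap.mem_ker] at hx ⊢
          have h1 : φ.toLinearMap (ρ g x) = σ g (φ.toLinearMap x) := φ.isIntertwining ρ σ g x
          rw [h1, hx, map_zero]))
      + f (LinearMap.range φ.toLinearMap) (σ.subrepresentation (LinearMap.range φ.toLinearMap)
        (fun g x hx => by
          obtain ⟨y, rfl⟩ := hx
          exact ⟨ρ g y, φ.isIntertwining ρ σ g y⟩)) := by
  refine hf _ V _ _ ρ _ ⟨(LinearMap.ker φ.toLinearMap).subtype, fun g => by ext; rfl⟩
    ⟨φ.toLinearMap.rangeRestrict, fun g => by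
      ext x
      exact φ.isIntertwining ρ σ g x⟩ ?_ ?_ ?_
  · exact (LinearMap.ker φ.toLinearMap).injective_subtype
  · exact LinearMap.surjective_rangeRestrict _
  · change LinearMap.range (LinearMap.ker φ.toLinearMap).subtype =
      LinearMap.ker φ.toLinearMap.rangeRestrict
    rw [Submodule.range_subtype, LinearMap.ker_rangeRestrict]

end basic

section tensor

variable {M : Type} [AddCommGroup M] [Module (ZMod p) M] [Module.Finite (ZMod p) M]

/-- The function `N ↦ f (M ⊗ N)`. -/
noncomputable def tensorFun (f : RepFun p G) (ρM : Representation (ZMod p) G M) : RepFun p G :=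
  fun N _ _ σ => f (TensorProduct (ZMod p) M N) (ρM.tprod σ)

/-- If `f` is additive, so is `N ↦ f (M ⊗ N)`. -/
theorem IsAdditiveFun.tensorFun (hf : IsAdditiveFun p G f) (ρM : Representation (ZMod p) G M) :
    IsAdditiveFun p G (tensorFun f ρM) := by
  intro V' V V'' _ _ _ _ _ _ _ _ _ ρ' ρ ρ'' i q hi hq hex
  refine hf _ _ _ _ _ _ (IntertwiningMap.lTensor ρM i) (IntertwiningMap.lTensor ρM q) ?_ ?_ ?_
  · exact Module.Flat.lTensor_preserves_injective_linearMap (M := M) i.toLinearMap hi
  · exact LinearMap.lTensor_surjective M (g := q.toLinearMap) hq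
  · have hex' : Function.Exact i.toLinearMap q.toLinearMap := by
      rw [LinearMap.exact_iff]; exact hex.symm
    have := lTensor_exact M hex' hq
    rw [LinearMap.exact_iff] at this
    exact this.symm

end tensor

end Fermat.Agent.TW.AddFun68
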