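/-
Programme TW (S56), brick C3-(iii)c (helper68): the nilpotent filtration lemma.
If `N` is an equivariant endomorphism of a finite-dimensional `ZMod p`-representation `U` with
`N ^ q = 0` and `dim U = q * dim ker N`, then every additive function satisfies
`f U = q * f (ker N)`.
Pure Mathlib + AddFun68.
-/
import Fermat.Agent.TW.AddFun68

set_option autoImplicit false
set_option linter.style.haveILetI false
set_option linter.unusedSectionVars false

namespace Fermat.Agent.TW.Filtration68

open Representation Fermat.Agent.TW.AddFun68 Module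

section linalg

variable {k U : Type*} [Field k] [AddCommGroup U] [Module k U] (N : Module.End k U)

/-- The kernel filtration `K i = ker (N ^ i)`. -/
def K (i : ℕ) : Submodule k U := LinearMap.ker (N ^ i)

theorem mem_K {i : ℕ} {x : U} : x ∈ K N i ↔ (N ^ i) x = 0 := LinearMap.mem_ker

theorem K_zero : K N 0 = ⊥ := by
  ext x
  simp [mem_K]

theorem K_le_succ (i : ℕ) : K N i ≤ K N (i + 1) := by
  intro x hx
  rw [mem_K] at hx ⊢
  rw [pow_succ', Module.End.mul_apply, hx, map_zero]

theorem pow_mem_K_one {i : ℕ} {x : U} (hx : x ∈ K N (i + 1)) : (N ^ i) x ∈ K N 1 := by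
  rw [mem_K] at hx ⊢
  rw [pow_one, ← Module.End.mul_apply, ← pow_succ']
  exact hx

/-- `N ^ i` as a map `ker N ^ (i+1) → ker N`. -/
def step (i : ℕ) : ↥(K N (i + 1)) →ₗ[k] ↥(K N 1) :=
  (N ^ i).restrict fun _ hx => pow_mem_K_one N hx

theorem step_apply (i : ℕ) (x : ↥(K N (i + 1))) : ((step N i x : ↥(K N 1)) : U) = (N ^ i) x := rfl

theorem ker_step (i : ℕ) :
    LinearMap.ker (step N i) = (K N i).comap (K N (i + 1)).subtype := by
  ext x
  simp only [LinearMap.mem_ker, Submodule.mem_comap, Submodule.subtype_apply, mem_K]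
  rw [← Subtype.coe_inj, step_apply, ZeroMemClass.coe_zero]

variable [FiniteDimensional k U]

theorem finrank_K_succ (i : ℕ) :
    finrank k ↥(K N (i + 1)) = finrank k ↥(K N i) + finrank k ↥(LinearMap.range (step N i)) := by
  have h := LinearMap.finrank_range_add_finrank_ker (step N i)
  rw [ker_step] at h
  have h2 : finrank k ↥((K N i).comap (K N (i + 1)).subtype) = finrank k ↥(K N i) :=
    (Submodule.comapSubtypeEquivOfLe (K_le_succ N i)).finrank_eq
  omega

theorem finrank_K_succ_le (i : ℕ) :
    finrank k ↥(K N (i + 1)) ≤ finrank k ↥(K N i) + finrank k ↥(K N 1) := by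
  rw [finrank_K_succ]
  exact Nat.add_le_add_left (Submodule.finrank_le _) _

theorem finrank_K_le (i : ℕ) : finrank k ↥(K N i) ≤ i * finrank k ↥(K N 1) := by
  induction i with
  | zero => simp [K_zero]
  | succ i ih =>
    have := finrank_K_succ_le N i
    rw [Nat.succ_mul]
    omega

theorem finrank_K_add_le (i j : ℕ) :
    finrank k ↥(K N (i + j)) ≤ finrank k ↥(K N i) + j * finrank k ↥(K N 1) := by
  induction j with
  | zero => simp
  | succ j ih =>
    have := finrank_K_succ_le N (i + j)
    rw [Nat.succ_mul, ← add_assoc]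
    omega

theorem step_surjective (q : ℕ) (hq : N ^ q = 0)
    (hdim : finrank k U = q * finrank k ↥(K N 1)) (i : ℕ) (hi : i < q) :
    Function.Surjective (step N i) := by
  rw [← LinearMap.range_eq_top]
  apply Submodule.eq_top_of_finrank_eq
  have hKq : K N q = ⊤ := by
    ext x
    simp [mem_K, hq]
  have hrq : finrank k ↥(K N q) = q * finrank k ↥(K N 1) := by
    rw [hKq, finrank_top, hdim]
  obtain ⟨j, rfl⟩ : ∃ j, q = (i + 1) + j := ⟨q - (i + 1), by omega⟩
  have h1 := finrank_K_add_le N (i + 1) j
  have h2 := finrank_K_le N i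
  have h3 := finrank_K_succ N i
  have h4 : finrank k ↥(LinearMap.range (step N i)) ≤ finrank k ↥(K N 1) := Submodule.finrank_le _
  rw [hrq] at h1
  have h5 : (i + 1 + j) * finrank k ↥(K N 1) =
      i * finrank k ↥(K N 1) + finrank k ↥(K N 1) + j * finrank k ↥(K N 1) := by ring
  omega

end linalg

section additive

variable {p : ℕ} [Fact p.Prime] {G : Type} [Group G] {f : RepFun p G}
variable {U : Type} [AddCommGroup U] [Module (ZMod p) U] [Module.Finite (ZMod p) U]
  (ρ : Representation (ZMod p) G U) (N : ρ.IntertwiningMap ρ)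

omit [Module.Finite (ZMod p) U] in
theorem K_stable (i : ℕ) (g : G) :
    K N.toLinearMap i ≤ (K N.toLinearMap i).comap (ρ g) := by
  intro x hx
  rw [Submodule.mem_comap, mem_K] at *
  have hcomm : ∀ (n : ℕ) (y : U), (N.toLinearMap ^ n) (ρ g y) = ρ g ((N.toLinearMap ^ n) y) := by
    intro n
    induction n with
    | zero => intro y; simp
    | succ n ih =>
      intro y
      rw [pow_succ, Module.End.mul_apply, Module.End.mul_apply]
      have h1 : N.toLinearMap (ρ g y) = ρ g (N.toLinearMap y) := N.isIntertwining ρ ρ g y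
      rw [h1, ih]
  rw [hcomm, hx, map_zero]

/-- The representation on `ker N ^ i`. -/
noncomputable def Krep (i : ℕ) : Representation (ZMod p) G ↥(K N.toLinearMap i) :=
  ρ.subrepresentation (K N.toLinearMap i) (K_stable ρ N i)

/-- **Nilpotent filtration lemma.** -/
theorem map_eq_mul_of_nilpotent (hf : IsAdditiveFun p G f) (q : ℕ) (hq : N.toLinearMap ^ q = 0)
    (hdim : finrank (ZMod p) U = q * finrank (ZMod p) ↥(K N.toLinearMap 1)) :
    f U ρ = q * f _ (Krep ρ N 1) := by
  have hstep : ∀ i, i < q → f _ (Krep ρ N (i + 1)) = f _ (Krep ρ N i) + f _ (Krep ρ N 1) := by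
    intro i hi
    refine hf _ _ _ (Krep ρ N i) (Krep ρ N (i + 1)) (Krep ρ N 1)
      ⟨Submodule.inclusion (K_le_succ N.toLinearMap i), fun g => by ext; rfl⟩
      ⟨step N.toLinearMap i, fun g => ?_⟩ ?_ ?_ ?_
    · ext x
      simp only [LinearMap.coe_comp, Function.comp_apply]
      change (N.toLinearMap ^ i) (ρ g x) = ρ g ((N.toLinearMap ^ i) x)
      have hcomm : ∀ (n : ℕ) (y : U),
          (N.toLinearMap ^ n) (ρ g y) = ρ g ((N.toLinearMap ^ n) y) := by
        intro n
        induction n with
        | zero => intro y; simp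
        | succ n ih =>
          intro y
          rw [pow_succ, Module.End.mul_apply, Module.End.mul_apply]
          have h1 : N.toLinearMap (ρ g y) = ρ g (N.toLinearMap y) := N.isIntertwining ρ ρ g y
          rw [h1, ih]
      exact hcomm i x
    · exact Submodule.inclusion_injective (K_le_succ N.toLinearMap i)
    · exact step_surjective N.toLinearMap q hq hdim i hi
    · change LinearMap.range (Submodule.inclusion (K_le_succ N.toLinearMap i)) =
        LinearMap.ker (step N.toLinearMap i)
      rw [ker_step, Submodule.range_inclusion]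
  have hall : ∀ i, i ≤ q → f _ (Krep ρ N i) = i * f _ (Krep ρ N 1) := by
    intro i
    induction i with
    | zero =>
      intro _
      have : Subsingleton ↥(K N.toLinearMap 0) := by
        rw [K_zero]; infer_instance
      rw [hf.map_of_subsingleton]; simp
    | succ i ih =>
      intro hi
      rw [hstep i (by omega), ih (by omega)]
      push_cast; ring
  have hKq : K N.toLinearMap q = ⊤ := by
    ext x
    simp [mem_K, hq]
  have htop : f U ρ = f _ (Krep ρ N q) := by
    refine (hf.map_equiv ?_).symm
    refine IntertwiningMap.ofBijective ⟨(K N.toLinearMap q).subtype, fun g => by ext; rfl⟩ ?_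
    refine ⟨Submodule.injective_subtype _, fun x => ⟨⟨x, ?_⟩, rfl⟩⟩
    rw [hKq]; trivial
  rw [htop, hall q le_rfl]

end additive

end Fermat.Agent.TW.Filtration68
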