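/-
Programme TW (S56), brick C3-(iii)j (helper68): the `p`-part transfer.
For `γ ∈ G` and `q = p ^ a` dividing the order of `γ`, every additive function satisfies
`f (𝔽_p[G ⧸ ⟨γ ^ q⟩]) = q * f (𝔽_p[G ⧸ ⟨γ⟩])` (`permVal_zpowers_pow`).
Proof: right translation by `γ` is a unipotent automorphism `τ` of `𝔽_p[G ⧸ ⟨γ ^ q⟩]`
(functions on `G` right-invariant under `⟨γ ^ q⟩`), `(τ - 1) ^ q = 0`, `ker (τ - 1)` is
`𝔽_p[G ⧸ ⟨γ⟩]`; apply the nilpotent filtration lemma.
Pure Mathlib + the `*68` bricks.
-/
import Fermat.Agent.TW.GSetSum68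
import Fermat.Agent.TW.Filtration68

set_option autoImplicit false
set_option linter.style.haveILetI false
set_option linter.unusedSectionVars false

namespace Fermat.Agent.TW.TransferP68

open Representation Module Fermat.Agent.TW.AddFun68 Fermat.Agent.TW.PermRep68
  Fermat.Agent.TW.GSetSum68 Fermat.Agent.TW.Filtration68

variable {G : Type} [Group G]

section invFun

variable (k : Type) [CommRing k]

/-- Functions on `G` which are right-invariant under `H`. -/
def invFun (H : Subgroup G) : Submodule k (G → k) where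
  carrier := {u | ∀ x, ∀ h ∈ H, u (x * h) = u x}
  add_mem' := fun {u v} hu hv x h hh => by
    rw [Pi.add_apply, Pi.add_apply, hu x h hh, hv x h hh]
  zero_mem' := fun _ _ _ => rfl
  smul_mem' := fun c u hu x h hh => by
    rw [Pi.smul_apply, Pi.smul_apply, hu x h hh]

variable {k}

theorem mem_invFun {H : Subgroup G} {u : G → k} :
    u ∈ invFun k H ↔ ∀ x, ∀ h ∈ H, u (x * h) = u x := Iff.rfl

theorem invFun_stable (H : Subgroup G) (g : G) :
    invFun k H ≤ (invFun k H).comap (permRep k G G g) := by
  intro u hu x h hh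
  change u (g⁻¹ • (x * h)) = u (g⁻¹ • x)
  rw [smul_eq_mul, smul_eq_mul, ← mul_assoc]
  exact hu _ h hh

variable (k)

/-- The representation of `G` (by left translation) on right-`H`-invariant functions. -/
noncomputable def invRep (H : Subgroup G) : Representation k G ↥(invFun k H) :=
  (permRep k G G).subrepresentation _ (invFun_stable H)

theorem invRep_apply (H : Subgroup G) (g : G) (u : ↥(invFun k H)) (x : G) :
    (invRep k H g u : G → k) x = (u : G → k) (g⁻¹ * x) := rfl

/-- Pull back along `G → G ⧸ H`. -/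
def pullMap (H : Subgroup G) : (G ⧸ H → k) →ₗ[k] ↥(invFun k H) where
  toFun w := ⟨fun x => w (x : G ⧸ H), fun x h hh => by
    have : ((x * h : G) : G ⧸ H) = (x : G ⧸ H) := by
      rw [QuotientGroup.eq]
      simpa using hh
    exact congrArg w this⟩
  map_add' _ _ := rfl
  map_smul' _ _ := rfl

theorem pullMap_bijective (H : Subgroup G) : Function.Bijective (pullMap k H) := by
  constructor
  · intro w w' h
    funext q
    induction q using QuotientGroup.induction_on with
    | H x => exact congrFun (congrArg Subtype.val h) x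
  · intro u
    refine ⟨fun q => Quotient.liftOn' q (u : G → k) ?_, ?_⟩
    · intro a b hab
      rw [QuotientGroup.leftRel_apply] at hab
      have := u.2 a (a⁻¹ * b) hab
      rw [mul_inv_cancel_left] at this
      exact this.symm
    · apply Subtype.ext
      funext x
      rfl

/-- `𝔽[G ⧸ H]` as right-invariant functions. -/
noncomputable def pullEquiv (H : Subgroup G) : (permRep k G (G ⧸ H)).Equiv (invRep k H) :=
  IntertwiningMap.ofBijective ⟨pullMap k H, fun g => by
    ext w x
    rfl⟩ (pullMap_bijective k H)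

theorem finrank_invFun (F : Type) [Field F] [Finite G] (H : Subgroup G) :
    finrank F ↥(invFun F H) = H.index := by
  haveI : Fintype (G ⧸ H) := Fintype.ofFinite _
  rw [← (LinearEquiv.ofBijective (pullMap F H) (pullMap_bijective F H)).finrank_eq,
    Module.finrank_fintype_fun_eq_card, Subgroup.index_eq_card, Nat.card_eq_fintype_card]

end invFun

section tau

variable (k : Type) [CommRing k]

/-- Right translation by `γ` on right-`H`-invariant functions, when `γ` centralises `H`. -/
def tauMap (H : Subgroup G) (γ : G) (hγ : ∀ h ∈ H, h * γ = γ * h) :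
    ↥(invFun k H) →ₗ[k] ↥(invFun k H) :=
  (LinearMap.funLeft k k (· * γ)).restrict (p := invFun k H) (q := invFun k H) (by
    intro u hu x h hh
    change u (x * h * γ) = u (x * γ)
    rw [mul_assoc, hγ h hh, ← mul_assoc]
    exact hu _ h hh)

theorem tauMap_apply (H : Subgroup G) (γ : G) (hγ : ∀ h ∈ H, h * γ = γ * h)
    (u : ↥(invFun k H)) (x : G) : (tauMap k H γ hγ u : G → k) x = (u : G → k) (x * γ) := rfl

/-- `τ` as an intertwining map. -/
noncomputable def tauI (H : Subgroup G) (γ : G) (hγ : ∀ h ∈ H, h * γ = γ * h) :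
    (invRep k H).IntertwiningMap (invRep k H) :=
  ⟨tauMap k H γ hγ, fun g => by
    ext u x
    change (u : G → k) (g⁻¹ * (x * γ)) = (u : G → k) (g⁻¹ * x * γ)
    rw [mul_assoc]⟩

theorem tauMap_pow (H : Subgroup G) (γ : G) (hγ : ∀ h ∈ H, h * γ = γ * h) (n : ℕ)
    (u : ↥(invFun k H)) (x : G) :
    (((tauMap k H γ hγ) ^ n) u : G → k) x = (u : G → k) (x * γ ^ n) := by
  induction n generalizing x with
  | zero => simp
  | succ n ih =>
    rw [pow_succ', Module.End.mul_apply, tauMap_apply, ih, pow_succ', mul_assoc]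

end tau

section main

variable {p : ℕ} [Fact p.Prime] [Finite G] {f : RepFun p G}

theorem sub_one_pow_eq (U : Type) [AddCommGroup U] [Module (ZMod p) U]
    (τ : Module.End (ZMod p) U) (a : ℕ) : (τ - 1) ^ p ^ a = τ ^ p ^ a - 1 := by
  have h : ((Polynomial.X : Polynomial (ZMod p)) - 1) ^ p ^ a = Polynomial.X ^ p ^ a - 1 := by
    rw [sub_pow_char_pow, one_pow]
  have := congrArg (Polynomial.aeval τ) h
  simpa using this

/-- **The `p`-part transfer.** -/
theorem permVal_zpowers_pow (hf : IsAdditiveFun p G f) (γ : G) (a : ℕ)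
    (hdvd : p ^ a ∣ orderOf γ) :
    permVal f (G ⧸ Subgroup.zpowers (γ ^ p ^ a)) =
      (p ^ a : ℕ) * permVal f (G ⧸ Subgroup.zpowers γ) := by
  haveI : Fintype G := Fintype.ofFinite G
  set q := p ^ a with hq
  have hq0 : q ≠ 0 := pow_ne_zero _ (Fact.out : p.Prime).ne_zero
  set H' := Subgroup.zpowers (γ ^ q) with hH'
  set H := Subgroup.zpowers γ with hH
  -- γ centralises H'
  have hγ : ∀ h ∈ H', h * γ = γ * h := by
    intro h hh
    obtain ⟨n, rfl⟩ := Subgroup.mem_zpowers_iff.mp hh
    have : Commute ((γ ^ q) ^ n) γ := ((Commute.refl γ).pow_left q).zpow_left n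
    exact this.eq
  haveI : Module.Finite (ZMod p) ↥(invFun (ZMod p) H') := Module.Finite.of_finite
  haveI : Module.Finite (ZMod p) ↥(invFun (ZMod p) H) := Module.Finite.of_finite
  let N : (invRep (ZMod p) H').IntertwiningMap (invRep (ZMod p) H') :=
    tauI (ZMod p) H' γ hγ - 1
  have hN : N.toLinearMap = tauMap (ZMod p) H' γ hγ - 1 := rfl
  -- N ^ q = 0
  have hNq : N.toLinearMap ^ q = 0 := by
    rw [hN, hq, sub_one_pow_eq]
    have hone : tauMap (ZMod p) H' γ hγ ^ p ^ a = 1 := by
      ext u x
      rw [tauMap_pow]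
      exact u.2 x _ (Subgroup.mem_zpowers _)
    rw [hone]
    ext u x
    simp
  -- the kernel of N is the space of right-H-invariant functions
  have hker : ∀ u : ↥(invFun (ZMod p) H'), u ∈ K N.toLinearMap 1 ↔
      (u : G → ZMod p) ∈ invFun (ZMod p) H := by
    intro u
    rw [mem_K, pow_one, hN, LinearMap.sub_apply, sub_eq_zero, Module.End.one_apply]
    constructor
    · intro h x y hy
      obtain ⟨n, rfl⟩ := Subgroup.mem_zpowers_iff.mp hy
      have hstep : ∀ z : G, (u : G → ZMod p) (z * γ) = (u : G → ZMod p) z := by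
        intro z
        have := congrFun (congrArg Subtype.val h) z
        rwa [tauMap_apply] at this
      have hnat : ∀ (m : ℕ) (z : G), (u : G → ZMod p) (z * γ ^ m) = (u : G → ZMod p) z := by
        intro m
        induction m with
        | zero => intro z; simp
        | succ m ih => intro z; rw [pow_succ, ← mul_assoc, hstep, ih]
      cases n with
      | ofNat m => simpa using hnat m x
      | negSucc m =>
        have := hnat (m + 1) (x * γ ^ (Int.negSucc m))
        rw [zpow_negSucc, inv_mul_cancel_right] at this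
        rw [zpow_negSucc]
        exact this.symm
    · intro h
      apply Subtype.ext
      funext x
      rw [tauMap_apply]
      exact h x γ (Subgroup.mem_zpowers γ)
  -- index computation
  have hle : H' ≤ H := Subgroup.zpowers_le.mpr (Subgroup.pow_mem _ (Subgroup.mem_zpowers γ) q)
  have hindex : H'.index = q * H.index := by
    have h1 := Subgroup.card_mul_index H'
    have h2 := Subgroup.card_mul_index H
    have hc' : Nat.card ↥H' = orderOf γ / q := by
      rw [hH', Nat.card_zpowers, orderOf_pow_of_dvd hq0 hdvd]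
    have hc : Nat.card ↥H = orderOf γ := Nat.card_zpowers γ
    obtain ⟨m, hm⟩ := hdvd
    have hm0 : 0 < m := by
      rcases Nat.eq_zero_or_pos m with h | h
      · exfalso
        rw [h, mul_zero] at hm
        exact (orderOf_pos γ).ne' hm
      · exact h
    rw [hc', hm, Nat.mul_div_cancel_left m (Nat.pos_of_ne_zero hq0)] at h1
    rw [hc, hm] at h2
    have : m * H'.index = m * (q * H.index) := by
      rw [h1, ← h2]; ring
    exact Nat.eq_of_mul_eq_mul_left hm0 this
  -- the linear equivalence ker N ≃ invFun H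
  let e : ↥(K N.toLinearMap 1) ≃ₗ[ZMod p] ↥(invFun (ZMod p) H) :=
    { toFun := fun u => ⟨(u.1 : G → ZMod p), (hker u.1).mp u.2⟩
      invFun := fun v => ⟨⟨(v : G → ZMod p), fun x h hh => v.2 x h (hle hh)⟩,
        (hker _).mpr v.2⟩
      map_add' := fun _ _ => rfl
      map_smul' := fun _ _ => rfl
      left_inv := fun _ => rfl
      right_inv := fun _ => rfl }
  have hdim : finrank (ZMod p) ↥(invFun (ZMod p) H') =
      q * finrank (ZMod p) ↥(K N.toLinearMap 1) := by
    rw [e.finrank_eq, finrank_invFun, finrank_invFun, hindex]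
  have hmain := map_eq_mul_of_nilpotent (invRep (ZMod p) H') N hf q hNq hdim
  have h1 : permVal f (G ⧸ H') = f _ (invRep (ZMod p) H') :=
    hf.map_equiv (pullEquiv (ZMod p) H')
  have h2 : permVal f (G ⧸ H) = f _ (invRep (ZMod p) H) :=
    hf.map_equiv (pullEquiv (ZMod p) H)
  have h3 : f _ (Krep (invRep (ZMod p) H') N 1) = f _ (invRep (ZMod p) H) := by
    haveI : Module.Finite (ZMod p) ↥(K N.toLinearMap 1) := Module.Finite.of_finite
    refine hf.map_equiv (Representation.Equiv.mk e ?_)
    intro g
    ext u
    rfl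
  rw [h1, hmain, h3, h2]

end main

end Fermat.Agent.TW.TransferP68
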