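/-
Programme TW (S56), brick C3-(iii) (helper68): **Artin induction for additive functions**.
If `f` is an additive function on finite-dimensional `ZMod p`-representations of a finite
group `G` which vanishes on all modules coinduced from cyclic subgroups of order prime to `p`,
then `f = 0` (`eq_zero_of_cyclic_coind`).
Proof: `|G| · 1 = ∑ a_C · 1_C^G` (Artin, `ArtinComb68`), transported to values of
`N ↦ f (V ⊗ N)` on permutation modules (`GSetSum68`), `V ⊗ 𝔽_p[G ⧸ C] ≅ coind_C^G Res V`
(`CoindEquiv68`), and the `p`-part transfer (`TransferP68`) to reduce to prime-to-`p` cyclic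
subgroups.
Pure Mathlib + the `*68` bricks.
-/
import Fermat.Agent.TW.TransferP68
import Fermat.Agent.TW.CoindEquiv68

set_option autoImplicit false
set_option linter.style.haveILetI false
set_option linter.unusedSectionVars false

namespace Fermat.Agent.TW.ArtinInd68

open Representation Fermat.Agent.TW.AddFun68 Fermat.Agent.TW.PermRep68
  Fermat.Agent.TW.GSetSum68 Fermat.Agent.TW.TransferP68 Fermat.Agent.TW.CoindEquiv68
  Fermat.Agent.TW.ArtinComb68

variable {p : ℕ} [Fact p.Prime] {G : Type} [Group G] [Finite G] {f : RepFun p G}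

/-- Every element fixes the unique point of `G ⧸ ⊤`. -/
theorem fixCount_top (g : G) : fixCount (⊤ : Subgroup G) g = 1 := by
  unfold fixCount
  haveI : Subsingleton (G ⧸ (⊤ : Subgroup G)) := QuotientGroup.subsingleton_quotient_top
  rw [Nat.card_eq_one_iff_unique]
  refine ⟨⟨fun a b => Subtype.ext (Subsingleton.elim _ _)⟩,
    ⟨⟨((1 : G) : G ⧸ (⊤ : Subgroup G)), Subsingleton.elim _ _⟩⟩⟩

section values

variable {V : Type} [AddCommGroup V] [Module (ZMod p) V] [Module.Finite (ZMod p) V]
  (ρ : Representation (ZMod p) G V)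

/-- The coinduced module of a finite-dimensional module is finite-dimensional. -/
theorem finite_coindV (C : Subgroup G) {W : Type} [AddCommGroup W] [Module (ZMod p) W]
    [Module.Finite (ZMod p) W] (σ : Representation (ZMod p) C W) :
    Module.Finite (ZMod p) ↥(coindV C.subtype σ) := by
  haveI : Finite W := Module.finite_of_finite (ZMod p)
  exact Module.Finite.of_finite

/-- `f (V ⊗ 𝔽_p[G ⧸ ⊤]) = f V`. -/
theorem permVal_tensorFun_top (hf : IsAdditiveFun p G f) :
    permVal (tensorFun f ρ) (G ⧸ (⊤ : Subgroup G)) = f V ρ := by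
  haveI : Fintype (G ⧸ (⊤ : Subgroup G)) := Fintype.ofFinite _
  exact hf.map_equiv (tensorTopEquiv ρ)

/-- `f (V ⊗ 𝔽_p[G ⧸ C]) = f (coind_C^G Res V)`. -/
theorem permVal_tensorFun_quotient (hf : IsAdditiveFun p G f) (C : Subgroup G) :
    permVal (tensorFun f ρ) (G ⧸ C) =
      f _ (coind C.subtype (ρ.comp C.subtype)) := by
  haveI : Fintype (G ⧸ C) := Fintype.ofFinite _
  haveI := finite_coindV (p := p) C (ρ.comp C.subtype)
  exact hf.map_equiv (tensorCoindEquiv ρ C)

end values

/-- For an additive function vanishing on modules coinduced from prime-to-`p` cyclic subgroups,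
the value on `𝔽_p[G ⧸ C] ⊗ V` vanishes for every cyclic `C`. -/
theorem permVal_eq_zero_of_isCyclic (hf : IsAdditiveFun p G f)
    (hcyc : ∀ C : Subgroup G, IsCyclic C → (Nat.card C).Coprime p →
      ∀ (W : Type) [AddCommGroup W] [Module (ZMod p) W] [Module.Finite (ZMod p) W]
        (σ : Representation (ZMod p) C W), f _ (coind C.subtype σ) = 0)
    {V : Type} [AddCommGroup V] [Module (ZMod p) V] [Module.Finite (ZMod p) V]
    (ρ : Representation (ZMod p) G V) (C : Subgroup G) (hC : IsCyclic C) :
    permVal (tensorFun f ρ) (G ⧸ C) = 0 := by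
  have hp : p.Prime := Fact.out
  obtain ⟨γ, hγ⟩ := hC.exists_generator
  have hCeq : C = Subgroup.zpowers (γ : G) := by
    ext x
    constructor
    · intro hx
      obtain ⟨n, hn⟩ := Subgroup.mem_zpowers_iff.mp (hγ ⟨x, hx⟩)
      refine Subgroup.mem_zpowers_iff.mpr ⟨n, ?_⟩
      have := congrArg (Subtype.val) hn
      simpa using this
    · intro hx
      obtain ⟨n, hn⟩ := Subgroup.mem_zpowers_iff.mp hx
      rw [← hn]
      exact C.zpow_mem γ.2 n
  set g : G := (γ : G) with hg
  set n := orderOf g with hn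
  have hn0 : n ≠ 0 := (orderOf_pos g).ne'
  set a := n.factorization p with ha
  have hdvd : p ^ a ∣ orderOf g := Nat.ordProj_dvd n p
  have hfV := hf.tensorFun ρ
  have htr := permVal_zpowers_pow hfV g a hdvd
  set C' := Subgroup.zpowers (g ^ p ^ a) with hC'
  have hcard : Nat.card C' = n / p ^ a := by
    rw [hC', Nat.card_zpowers, orderOf_pow_of_dvd (pow_ne_zero _ hp.ne_zero) hdvd]
  have hcop : (Nat.card C').Coprime p := by
    rw [hcard]
    exact (Nat.coprime_ordCompl hp hn0).symm
  have hC'cyc : IsCyclic C' := by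
    rw [hC']
    infer_instance
  have h0 : permVal (tensorFun f ρ) (G ⧸ C') = 0 := by
    rw [permVal_tensorFun_quotient ρ hf C']
    exact hcyc C' hC'cyc hcop V (ρ.comp C'.subtype)
  rw [h0] at htr
  have hq : ((p ^ a : ℕ) : ℤ) ≠ 0 := by
    exact_mod_cast pow_ne_zero a hp.ne_zero
  rw [hCeq]
  rcases mul_eq_zero.mp htr.symm with h | h
  · exact absurd h hq
  · exact h

/-- **Artin induction for additive functions.**  An additive function on finite-dimensional
`ZMod p`-representations of the finite group `G` which vanishes on all modules coinduced from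
cyclic subgroups of order prime to `p` vanishes identically. -/
theorem eq_zero_of_cyclic_coind (f : RepFun p G) (hadd : IsAdditiveFun p G f)
    (hcyc : ∀ C : Subgroup G, IsCyclic C → (Nat.card C).Coprime p →
      ∀ (W : Type) [AddCommGroup W] [Module (ZMod p) W] [Module.Finite (ZMod p) W]
        (σ : Representation (ZMod p) C W), f _ (coind C.subtype σ) = 0)
    (V : Type) [AddCommGroup V] [Module (ZMod p) V] [Module.Finite (ZMod p) V]
    (ρ : Representation (ZMod p) G V) : f V ρ = 0 := by
  classical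
  obtain ⟨t, a, ht, hta⟩ := exists_artin_coeffs (G := G)
  have hfV := hadd.tensorFun ρ
  -- the relation `∑ a_C 1_C^G - |G| 1_G^G = 0`
  let c : Option {C // C ∈ t} → Subgroup G := fun j => Option.elim j ⊤ (fun C => C.1)
  let b : Option {C // C ∈ t} → ℤ := fun j => Option.elim j (-(Nat.card G : ℤ)) (fun C => a C.1)
  have hrel : ∀ g : G, ∑ j, b j * (fixCount (c j) g : ℤ) = 0 := by
    intro g
    rw [Fintype.sum_option]
    change -(Nat.card G : ℤ) * (fixCount (⊤ : Subgroup G) g : ℤ) +
      ∑ C : {C // C ∈ t}, a C.1 * (fixCount C.1 g : ℤ) = 0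
    rw [Finset.sum_coe_sort t (fun C => a C * (fixCount C g : ℤ)), hta g, fixCount_top]
    simp
  have hsum := sum_mul_permVal_eq_zero hfV c b hrel
  rw [Fintype.sum_option] at hsum
  change -(Nat.card G : ℤ) * permVal (tensorFun f ρ) (G ⧸ (⊤ : Subgroup G)) +
    ∑ C : {C // C ∈ t}, a C.1 * permVal (tensorFun f ρ) (G ⧸ C.1) = 0 at hsum
  have hz : ∑ C : {C // C ∈ t}, a C.1 * permVal (tensorFun f ρ) (G ⧸ C.1) = 0 := by
    refine Finset.sum_eq_zero fun C _ => ?_
    rw [permVal_eq_zero_of_isCyclic hadd hcyc ρ C.1 (ht C.1 C.2), mul_zero]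
  rw [hz, add_zero, permVal_tensorFun_top ρ hadd] at hsum
  have hG : (Nat.card G : ℤ) ≠ 0 := by
    exact_mod_cast Nat.card_pos.ne'
  rcases mul_eq_zero.mp hsum with h | h
  · exact absurd (neg_eq_zero.mp h) hG
  · exact h

end Fermat.Agent.TW.ArtinInd68
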