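/-
Programme TW (S56), brick C3-R1 (helper68): the twisted dual of a coinduced module is coinduced.

Generic part (Mathlib only): `D` a finite group, `C ≤ D`, `σ : Representation k C W`,
`ω : D →* kˣ`.  With `σ' := σ.dual.twist (ω|_C)` there is a `k`-linear bijection
`dualCoindMap : Dual k (coind_C^D σ) → coind_C^D σ'` with
`Φ (ω g • (f ∘ ρ g⁻¹)) = ρ' g (Φ f)`.
-/
import Mathlib
import Fermat.Prelude.Def_GroupCohomology_Selmer

set_option autoImplicit false
set_option linter.style.haveILetI false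
set_option linter.unusedSectionVars false

namespace Fermat.Agent.TW.DualCoind68

open Representation

section generic

variable {k : Type*} [CommRing k] {D : Type*} [Group D] (C : Subgroup D)
  {W : Type*} [AddCommGroup W] [Module k W] (σ : Representation k C W)

open scoped Classical in
/-- `σ` extended by zero to `D`. -/
noncomputable def sigmaExt (y : D) : W →ₗ[k] W :=
  if h : y ∈ C then σ ⟨y, h⟩ else 0

theorem sigmaExt_of_mem {y : D} (h : y ∈ C) : sigmaExt C σ y = σ ⟨y, h⟩ := by
  unfold sigmaExt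
  rw [dif_pos h]

theorem sigmaExt_of_not_mem {y : D} (h : y ∉ C) : sigmaExt C σ y = 0 := by
  unfold sigmaExt
  rw [dif_neg h]

theorem sigmaExt_mul_left (c : C) (y : D) :
    sigmaExt C σ ((c : D) * y) = σ c ∘ₗ sigmaExt C σ y := by
  by_cases h : y ∈ C
  · have h' : (c : D) * y ∈ C := C.mul_mem c.2 h
    rw [sigmaExt_of_mem C σ h, sigmaExt_of_mem C σ h']
    have : (⟨(c : D) * y, h'⟩ : C) = c * ⟨y, h⟩ := rfl
    rw [this, map_mul]
    rfl
  · have h' : (c : D) * y ∉ C := fun hc => h (by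
      have := C.mul_mem (C.inv_mem c.2) hc
      rwa [inv_mul_cancel_left] at this)
    rw [sigmaExt_of_not_mem C σ h, sigmaExt_of_not_mem C σ h', LinearMap.comp_zero]

theorem sigmaExt_mul_right (y : D) (c : C) :
    sigmaExt C σ (y * (c : D)) = sigmaExt C σ y ∘ₗ σ c := by
  by_cases h : y ∈ C
  · have h' : y * (c : D) ∈ C := C.mul_mem h c.2
    rw [sigmaExt_of_mem C σ h, sigmaExt_of_mem C σ h']
    have : (⟨y * (c : D), h'⟩ : C) = ⟨y, h⟩ * c := rfl
    rw [this, map_mul]
    rfl
  · have h' : y * (c : D) ∉ C := fun hc => h (by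
      have := C.mul_mem hc (C.inv_mem c.2)
      rwa [mul_inv_cancel_right] at this)
    rw [sigmaExt_of_not_mem C σ h, sigmaExt_of_not_mem C σ h', LinearMap.zero_comp]

/-- The element of `coind σ` supported on the coset `C d` with value `w` at `d`. -/
noncomputable def delta (d : D) : W →ₗ[k] ↥(coindV C.subtype σ) where
  toFun w := ⟨fun x => sigmaExt C σ (x * d⁻¹) w, by
    intro c x
    change sigmaExt C σ ((c : D) * x * d⁻¹) w = σ c (sigmaExt C σ (x * d⁻¹) w)
    rw [mul_assoc, sigmaExt_mul_left]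
    rfl⟩
  map_add' w w' := by
    apply Subtype.ext
    funext x
    exact map_add _ _ _
  map_smul' a w := by
    apply Subtype.ext
    funext x
    exact map_smul _ _ _

theorem delta_apply (d : D) (w : W) (x : D) :
    (delta C σ d w : D → W) x = sigmaExt C σ (x * d⁻¹) w := rfl

theorem delta_mul_left (c : C) (d : D) (w : W) :
    delta C σ ((c : D) * d) w = delta C σ d (σ c⁻¹ w) := by
  apply Subtype.ext
  funext x
  rw [delta_apply, delta_apply, mul_inv_rev, ← mul_assoc]
  have : (c : D)⁻¹ = ((c⁻¹ : C) : D) := rfl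
  rw [this, sigmaExt_mul_right]
  rfl

theorem coind_delta (g d : D) (w : W) :
    coind C.subtype σ g (delta C σ d w) = delta C σ (d * g⁻¹) w := by
  apply Subtype.ext
  funext x
  change (delta C σ d w : D → W) (x * g) = _
  rw [delta_apply, delta_apply, mul_inv_rev, inv_inv, mul_assoc]

variable (ω : D →* kˣ)

/-- The representation `σ^* ⊗ ω|_C` of `C` on the dual of `W`. -/
noncomputable def dualTw : Representation k C (Module.Dual k W) :=
  σ.dual.twist (ω.comp C.subtype)

theorem dualTw_apply (c : C) (l : Module.Dual k W) :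
    dualTw C σ ω c l = ((ω c : kˣ) : k) • (l ∘ₗ σ c⁻¹) := rfl

/-- The comparison map `Dual (coind σ) → coind (σ^* ⊗ ω)`. -/
noncomputable def dualCoindMap :
    Module.Dual k ↥(coindV C.subtype σ) →ₗ[k] ↥(coindV C.subtype (dualTw C σ ω)) where
  toFun f := ⟨fun d => ((ω d : kˣ) : k) • (f ∘ₗ delta C σ d), by
    intro c d
    change ((ω ((c : D) * d) : kˣ) : k) • (f ∘ₗ delta C σ ((c : D) * d)) =
      dualTw C σ ω c (((ω d : kˣ) : k) • (f ∘ₗ delta C σ d))
    rw [dualTw_apply, map_mul, Units.val_mul, mul_smul]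
    congr 1
    rw [LinearMap.smul_comp]
    congr 1
    apply LinearMap.ext
    intro w
    change f (delta C σ ((c : D) * d) w) = f (delta C σ d (σ c⁻¹ w))
    rw [delta_mul_left]⟩
  map_add' f f' := by
    apply Subtype.ext
    funext d
    change ((ω d : kˣ) : k) • ((f + f') ∘ₗ delta C σ d) =
      ((ω d : kˣ) : k) • (f ∘ₗ delta C σ d) + ((ω d : kˣ) : k) • (f' ∘ₗ delta C σ d)
    rw [LinearMap.add_comp, smul_add]
  map_smul' a f := by
    apply Subtype.ext
    funext d
    change ((ω d : kˣ) : k) • ((a • f) ∘ₗ delta C σ d) =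
      a • (((ω d : kˣ) : k) • (f ∘ₗ delta C σ d))
    rw [LinearMap.smul_comp, smul_comm]

theorem dualCoindMap_apply (f : Module.Dual k ↥(coindV C.subtype σ)) (d : D) :
    (dualCoindMap C σ ω f : D → Module.Dual k W) d = ((ω d : kˣ) : k) • (f ∘ₗ delta C σ d) :=
  rfl

/-- Equivariance of the comparison map. -/
theorem dualCoindMap_equivariant (g : D) (f : Module.Dual k ↥(coindV C.subtype σ)) :
    dualCoindMap C σ ω (((ω g : kˣ) : k) • (f ∘ₗ coind C.subtype σ g⁻¹)) =
      coind C.subtype (dualTw C σ ω) g (dualCoindMap C σ ω f) := by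
  apply Subtype.ext
  funext d
  change _ = (dualCoindMap C σ ω f : D → Module.Dual k W) (d * g)
  rw [dualCoindMap_apply, dualCoindMap_apply, map_mul, Units.val_mul, mul_smul,
    LinearMap.smul_comp]
  have key : (f ∘ₗ coind C.subtype σ g⁻¹) ∘ₗ delta C σ d = f ∘ₗ delta C σ (d * g) := by
    apply LinearMap.ext
    intro w
    change f (coind C.subtype σ g⁻¹ (delta C σ d w)) = f (delta C σ (d * g) w)
    rw [coind_delta, inv_inv]
  rw [key]

section bijective

variable [Finite D]

/-- Every element of `coind σ` is the sum of its components on a right transversal. -/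
theorem eq_sum_delta {T : Set D} (hT : Subgroup.IsComplement (C : Set D) T) [Fintype T]
    (φ : ↥(coindV C.subtype σ)) :
    φ = ∑ t : T, delta C σ (t : D) ((φ : D → W) (t : D)) := by
  classical
  apply Subtype.ext
  funext x
  rw [Submodule.coe_sum, Finset.sum_apply]
  obtain ⟨t₀, ht₀, huniq⟩ := (Subgroup.isComplement_iff_existsUnique_mul_inv_mem.mp hT) x
  rw [Finset.sum_eq_single t₀]
  · rw [delta_apply, sigmaExt_of_mem C σ ht₀]
    have := φ.2 ⟨x * (t₀ : D)⁻¹, ht₀⟩ (t₀ : D)
    change (φ : D → W) (x * (t₀ : D)⁻¹ * (t₀ : D)) = _ at this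
    rw [inv_mul_cancel_right] at this
    exact this
  · intro t _ hne
    rw [delta_apply, sigmaExt_of_not_mem C σ (fun h => hne (huniq t h))]
    rfl
  · intro h
    exact absurd (Finset.mem_univ _) h

theorem dualCoindMap_injective : Function.Injective (dualCoindMap C σ ω) := by
  classical
  obtain ⟨T, hT, -⟩ := Subgroup.exists_isComplement_right C (1 : D)
  haveI : Fintype T := Fintype.ofFinite T
  rw [injective_iff_map_eq_zero]
  intro f hf
  have h0 : ∀ d : D, f ∘ₗ delta C σ d = 0 := by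
    intro d
    have h1 : (dualCoindMap C σ ω f : D → Module.Dual k W) d = 0 := by
      rw [hf]; rfl
    rw [dualCoindMap_apply] at h1
    have h2 := congrArg (fun z => (((ω d)⁻¹ : kˣ) : k) • z) h1
    simp only [smul_smul, Units.inv_mul, one_smul, smul_zero] at h2
    exact h2
  apply LinearMap.ext
  intro φ
  rw [eq_sum_delta C σ hT φ, map_sum]
  refine Finset.sum_eq_zero fun t _ => ?_
  have := LinearMap.congr_fun (h0 (t : D)) ((φ : D → W) (t : D))
  exact this

theorem dualCoindMap_surjective : Function.Surjective (dualCoindMap C σ ω) := by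
  classical
  obtain ⟨T, hT, -⟩ := Subgroup.exists_isComplement_right C (1 : D)
  haveI : Fintype T := Fintype.ofFinite T
  intro ψ
  -- evaluation at a point
  let ev : D → ↥(coindV C.subtype σ) →ₗ[k] W := fun d =>
    (LinearMap.proj d).comp (coindV C.subtype σ).subtype
  refine ⟨∑ t : T, (((ω (t : D))⁻¹ : kˣ) : k) •
    (((ψ : D → Module.Dual k W) (t : D)) ∘ₗ ev (t : D)), ?_⟩
  apply Subtype.ext
  funext d
  rw [dualCoindMap_apply]
  apply LinearMap.ext
  intro w
  rw [LinearMap.smul_apply, LinearMap.comp_apply, LinearMap.sum_apply]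
  obtain ⟨t₁, ht₁, huniq⟩ := (Subgroup.isComplement_iff_existsUnique_mul_inv_mem.mp hT) d
  -- `c₁ := t₁ d⁻¹ ∈ C`
  have hc₁ : (t₁ : D) * d⁻¹ ∈ C := by
    have := C.inv_mem ht₁
    rwa [mul_inv_rev, inv_inv] at this
  rw [Finset.sum_eq_single t₁]
  · rw [LinearMap.smul_apply, LinearMap.comp_apply]
    change ((ω d : kˣ) : k) • ((((ω (t₁ : D))⁻¹ : kˣ) : k) •
      ((ψ : D → Module.Dual k W) (t₁ : D)) ((delta C σ d w : D → W) (t₁ : D))) = _
    rw [delta_apply, sigmaExt_of_mem C σ hc₁]
    have hψ := ψ.2 ⟨(t₁ : D) * d⁻¹, hc₁⟩ d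
    change (ψ : D → Module.Dual k W) ((t₁ : D) * d⁻¹ * d) =
      dualTw C σ ω ⟨(t₁ : D) * d⁻¹, hc₁⟩ ((ψ : D → Module.Dual k W) d) at hψ
    rw [inv_mul_cancel_right] at hψ
    rw [hψ, dualTw_apply, LinearMap.smul_apply, LinearMap.comp_apply, ← Module.End.mul_apply,
      ← map_mul, inv_mul_cancel, map_one, Module.End.one_apply, smul_smul, smul_smul]
    have hω : ((ω d : kˣ) : k) * (((ω (t₁ : D))⁻¹ : kˣ) : k) *
        ((ω ((⟨(t₁ : D) * d⁻¹, hc₁⟩ : C) : D) : kˣ) : k) = 1 := by
      change ((ω d : kˣ) : k) * (((ω (t₁ : D))⁻¹ : kˣ) : k) * ((ω ((t₁ : D) * d⁻¹) : kˣ) : k) = 1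
      rw [← Units.val_mul, ← Units.val_mul, map_mul, map_inv]
      have : ω d * (ω (t₁ : D))⁻¹ * (ω (t₁ : D) * (ω d)⁻¹) = 1 := by
        rw [mul_assoc, inv_mul_cancel_left, mul_inv_cancel]
      rw [this, Units.val_one]
    rw [hω, one_smul]
  · intro t _ hne
    rw [LinearMap.smul_apply, LinearMap.comp_apply]
    change (((ω (t : D))⁻¹ : kˣ) : k) •
      ((ψ : D → Module.Dual k W) (t : D)) ((delta C σ d w : D → W) (t : D)) = 0
    have hnot : (t : D) * d⁻¹ ∉ C := by
      intro h
      apply hne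
      apply huniq
      have := C.inv_mem h
      rwa [mul_inv_rev, inv_inv] at this
    rw [delta_apply, sigmaExt_of_not_mem C σ hnot, LinearMap.zero_apply, map_zero, smul_zero]
  · intro h
    exact absurd (Finset.mem_univ _) h

theorem dualCoindMap_bijective : Function.Bijective (dualCoindMap C σ ω) :=
  ⟨dualCoindMap_injective C σ ω, dualCoindMap_surjective C σ ω⟩

end bijective

end generic

/-! ### Transport of coinduced modules along an isomorphism of the coefficients -/

section congr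

variable {k : Type*} [CommRing k] {D : Type*} [Group D] (C : Subgroup D)
  {W₁ : Type*} [AddCommGroup W₁] [Module k W₁] {W₂ : Type*} [AddCommGroup W₂] [Module k W₂]
  (σ₁ : Representation k C W₁) (σ₂ : Representation k C W₂)

/-- An isomorphism of the coefficient representations induces an isomorphism of the coinduced
modules. -/
def coindCongr (e : W₁ ≃ₗ[k] W₂) (he : ∀ c w, e (σ₁ c w) = σ₂ c (e w)) :
    ↥(coindV C.subtype σ₁) ≃ₗ[k] ↥(coindV C.subtype σ₂) where
  toFun ψ := ⟨fun d => e ((ψ : D → W₁) d), by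
    intro c d
    change e ((ψ : D → W₁) ((c : D) * d)) = σ₂ c (e ((ψ : D → W₁) d))
    rw [← he]
    exact congrArg e (ψ.2 c d)⟩
  map_add' ψ ψ' := by
    apply Subtype.ext
    funext d
    exact map_add e _ _
  map_smul' a ψ := by
    apply Subtype.ext
    funext d
    exact map_smul e _ _
  invFun ψ := ⟨fun d => e.symm ((ψ : D → W₂) d), by
    intro c d
    change e.symm ((ψ : D → W₂) ((c : D) * d)) = σ₁ c (e.symm ((ψ : D → W₂) d))
    apply e.injective
    rw [he, e.apply_symm_apply, e.apply_symm_apply]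
    exact ψ.2 c d⟩
  left_inv ψ := by
    apply Subtype.ext
    funext d
    exact e.symm_apply_apply _
  right_inv ψ := by
    apply Subtype.ext
    funext d
    exact e.apply_symm_apply _

theorem coindCongr_apply (e : W₁ ≃ₗ[k] W₂) (he : ∀ c w, e (σ₁ c w) = σ₂ c (e w))
    (ψ : ↥(coindV C.subtype σ₁)) (d : D) :
    (coindCongr C σ₁ σ₂ e he ψ : D → W₂) d = e ((ψ : D → W₁) d) := rfl

theorem coindCongr_equivariant (e : W₁ ≃ₗ[k] W₂) (he : ∀ c w, e (σ₁ c w) = σ₂ c (e w))
    (g : D) (ψ : ↥(coindV C.subtype σ₁)) :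
    coindCongr C σ₁ σ₂ e he (coind C.subtype σ₁ g ψ) =
      coind C.subtype σ₂ g (coindCongr C σ₁ σ₂ e he ψ) := rfl

end congr

section general

variable {k : Type*} [CommRing k] {D : Type*} [Group D] [Finite D] (C : Subgroup D)
  {W : Type*} [AddCommGroup W] [Module k W] (σ : Representation k C W) (ω : D →* kˣ)
  {W' : Type*} [AddCommGroup W'] [Module k W'] (σ' : Representation k C W')

/-- The comparison map for any model `(W', σ')` of `σ^* ⊗ ω|_C`. -/
noncomputable def dualCoindMap' (e : W' ≃ₗ[k] Module.Dual k W)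
    (he : ∀ (c : C) (w' : W'), e (σ' c w') = ((ω (c : D) : kˣ) : k) • (e w' ∘ₗ σ c⁻¹)) :
    Module.Dual k ↥(coindV C.subtype σ) →ₗ[k] ↥(coindV C.subtype σ') :=
  ((coindCongr C σ' (dualTw C σ ω) e he).symm : _ →ₗ[k] _) ∘ₗ dualCoindMap C σ ω

theorem dualCoindMap'_equivariant (e : W' ≃ₗ[k] Module.Dual k W)
    (he : ∀ (c : C) (w' : W'), e (σ' c w') = ((ω (c : D) : kˣ) : k) • (e w' ∘ₗ σ c⁻¹))
    (g : D) (f : Module.Dual k ↥(coindV C.subtype σ)) :
    dualCoindMap' C σ ω σ' e he (((ω g : kˣ) : k) • (f ∘ₗ coind C.subtype σ g⁻¹)) =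
      coind C.subtype σ' g (dualCoindMap' C σ ω σ' e he f) := by
  change (coindCongr C σ' (dualTw C σ ω) e he).symm
      (dualCoindMap C σ ω (((ω g : kˣ) : k) • (f ∘ₗ coind C.subtype σ g⁻¹))) =
    coind C.subtype σ' g ((coindCongr C σ' (dualTw C σ ω) e he).symm (dualCoindMap C σ ω f))
  rw [dualCoindMap_equivariant]
  apply Subtype.ext
  funext d
  rfl

theorem dualCoindMap'_bijective (e : W' ≃ₗ[k] Module.Dual k W)
    (he : ∀ (c : C) (w' : W'), e (σ' c w') = ((ω (c : D) : kˣ) : k) • (e w' ∘ₗ σ c⁻¹)) :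
    Function.Bijective (dualCoindMap' C σ ω σ' e he) :=
  (coindCongr C σ' (dualTw C σ ω) e he).symm.bijective.comp (dualCoindMap_bijective C σ ω)

end general

/-! ### The abstract statement in `Rep` form -/

/-- The inflation along `π : Γ →* D` of the module coinduced from `C ≤ D`, as an object of `Rep`:
reducibly `Rep.of ((Representation.coind C.subtype σ).comp π)`. -/
noncomputable abbrev coindInfl {k : Type} [CommRing k] {Γ D : Type} [Group Γ] [Group D]
    (π : Γ →* D) (C : Subgroup D) {W : Type} [AddCommGroup W] [Module k W]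
    (σ : Representation k C W) : Rep.{0} k Γ :=
  Rep.of (MonoidHom.comp (Representation.coind C.subtype σ) π :
    Representation k Γ ↥(Representation.coindV C.subtype σ))

/-- **`(coind_C^D σ)^* ⊗ ω ≅ coind_C^D (σ^* ⊗ ω|_C)`**, inflated along `π : Γ →* D`, with
`χ = ω ∘ π`; explicit `σ' = σ.dual.twist (ω.comp C.subtype)`. -/
theorem dualTwist_coind {p : ℕ} [Fact p.Prime] {Γ D : Type} [Group Γ] [Group D] [Finite D]
    (π : Γ →* D) (χ : Γ →* (ZMod p)ˣ) (ω : D →* (ZMod p)ˣ) (hχ : ∀ g, χ g = ω (π g))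
    (C : Subgroup D) {W : Type} [AddCommGroup W] [Module (ZMod p) W]
    [Module.Finite (ZMod p) W] (σ : Representation (ZMod p) C W) :
    ∃ Φ : ((coindInfl π C σ).dualTwist χ) →ₗ[ZMod p]
        coindInfl π C (σ.dual.twist (ω.comp C.subtype)),
      (∀ g a, Φ (((coindInfl π C σ).dualTwist χ).ρ g a) =
        (coindInfl π C (σ.dual.twist (ω.comp C.subtype))).ρ g (Φ a)) ∧
      Function.Bijective Φ := by
  refine ⟨dualCoindMap C σ ω, ?_, dualCoindMap_bijective C σ ω⟩
  intro g a
  have h := dualCoindMap_equivariant C σ ω (π g) a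
  rw [← hχ, ← map_inv] at h
  exact h

end Fermat.Agent.TW.DualCoind68
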