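/-
Programme TW (S56), brick C3-R1 (helper68): `DualCoind` for `Gal(F/ℚ)`, `F ∋ μ_p`.

For `F/ℚ` finite Galois on whose fixing subgroup the mod `p` cyclotomic character is trivial,
the Tate dual of the inflation of a module coinduced from `C ≤ Gal(F/ℚ)` is (isomorphic to) the
inflation of a module coinduced from `C`.
-/
import Fermat.Agent.TW.Tate62.KZero
import Fermat.Agent.TW.DualCoind68

set_option autoImplicit false
set_option linter.style.haveILetI false
set_option linter.unusedSectionVars false

namespace Fermat.Agent.TW.DualCoindGal68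

open Representation ExtCitation
open Fermat.Agent.TW.Tate62.KZero Fermat.Agent.TW.GWIface97 Fermat.Agent.TW.DualCoind68

local notation "Qbar" => AlgebraicClosure ℚ
local notation "Γ" => (AlgebraicClosure ℚ ≃ₐ[ℚ] AlgebraicClosure ℚ)

variable {p : ℕ} [Fact p.Prime]
variable (F : IntermediateField ℚ Qbar) [FiniteDimensional ℚ F] [IsGalois ℚ F]

/-- The mod `p` cyclotomic character of `Gal(F/ℚ)` when `F ∋ μ_p`. -/
noncomputable def omegaF (hζ : ∀ γ ∈ F.fixingSubgroup, cycloChar p γ = 1) :
    GalF F →* (ZMod p)ˣ :=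
  (resF F).liftOfSurjective (resF_surjective F) ⟨cycloChar p, fun γ hγ => by
    rw [MonoidHom.mem_ker]
    rw [ker_resF] at hγ
    exact hζ γ hγ⟩

theorem omegaF_resF (hζ : ∀ γ ∈ F.fixingSubgroup, cycloChar p γ = 1) (g : Γ) :
    omegaF F hζ (resF F g) = cycloChar p g :=
  MonoidHom.liftOfRightInverse_comp_apply _ _ _ _ g

/-- **The Tate dual of a coinduced module is coinduced.**  This is the body of
`Tate62.KZero.DualCoind F`, under the (necessary) hypothesis `μ_p ⊆ F`. -/
theorem dualCoind (hζ : ∀ γ ∈ F.fixingSubgroup, cycloChar p γ = 1)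
    (C : Subgroup (GalF F)) (W : Type) [AddCommGroup W] [Module (ZMod p) W]
    [Module.Finite (ZMod p) W] (σ : Representation (ZMod p) C W) :
    ∃ (W' : Type) (_ : AddCommGroup W') (_ : Module (ZMod p) W') (_ : Module.Finite (ZMod p) W')
      (σ' : Representation (ZMod p) C W')
      (Φ : dual (infl F (Representation.coind C.subtype σ)) →ₗ[ZMod p]
        infl F (Representation.coind C.subtype σ')),
      (∀ g a, Φ ((dual (infl F (Representation.coind C.subtype σ))).ρ g a) =
        (infl F (Representation.coind C.subtype σ')).ρ g (Φ a)) ∧ Function.Bijective Φ := by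
  refine ⟨Module.Dual (ZMod p) W, inferInstance, inferInstance, inferInstance,
    dualTw C σ (omegaF F hζ), dualCoindMap C σ (omegaF F hζ), ?_,
    dualCoindMap_bijective C σ (omegaF F hζ)⟩
  intro g a
  have h := dualCoindMap_equivariant C σ (omegaF F hζ) (resF F g) a
  rw [omegaF_resF] at h
  rw [← map_inv] at h
  exact h

/-- **Explicit form, robust shape.**  For any character `ω` of `Gal(F/ℚ)` inflating to the
cyclotomic character and ANY model `(W', σ', e)` of `σ^* ⊗ ω|_C`, i.e. `e : W' ≃ₗ W^*` with
`e (σ' c w') = ω c • (e w' ∘ σ c⁻¹)`, the Tate dual of `infl (coind σ)` is `infl (coind σ')`.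

(Instantiate with `W' := Module.Dual (ZMod p) W`, `σ' := σ.dual.twist (ω.comp C.subtype)`,
`e := LinearEquiv.refl _ _`, `he := fun _ _ => rfl`.  Writing `infl F (coind C.subtype σ')`
directly for such a `σ'` makes instance synthesis time out, which is why the statement is generic
in `W'`.) -/
theorem dualCoind_of_equiv (ω : GalF F →* (ZMod p)ˣ)
    (hω : ∀ g : Γ, cycloChar p g = ω (resF F g))
    (C : Subgroup (GalF F)) (W : Type) [AddCommGroup W] [Module (ZMod p) W]
    [Module.Finite (ZMod p) W] (σ : Representation (ZMod p) C W)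
    (W' : Type) [AddCommGroup W'] [Module (ZMod p) W'] (σ' : Representation (ZMod p) C W')
    (e : W' ≃ₗ[ZMod p] Module.Dual (ZMod p) W)
    (he : ∀ (c : C) (w' : W'),
      e (σ' c w') = ((ω (c : GalF F) : (ZMod p)ˣ) : ZMod p) • (e w' ∘ₗ σ c⁻¹)) :
    ∃ Φ : dual (infl F (Representation.coind C.subtype σ)) →ₗ[ZMod p]
        infl F (Representation.coind C.subtype σ'),
      (∀ g a, Φ ((dual (infl F (Representation.coind C.subtype σ))).ρ g a) =
        (infl F (Representation.coind C.subtype σ')).ρ g (Φ a)) ∧ Function.Bijective Φ := by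
  refine ⟨dualCoindMap' C σ ω σ' e he, ?_, dualCoindMap'_bijective C σ ω σ' e he⟩
  intro g a
  have h := dualCoindMap'_equivariant C σ ω σ' e he (resF F g) a
  rw [← hω, ← map_inv] at h
  exact h

/-- The descended character `omegaF` inflates to the cyclotomic character. -/
theorem cycloChar_eq_omegaF (hζ : ∀ γ ∈ F.fixingSubgroup, cycloChar p γ = 1) (g : Γ) :
    cycloChar p g = omegaF F hζ (resF F g) := (omegaF_resF F hζ g).symm

end Fermat.Agent.TW.DualCoindGal68
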