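/-
Programme TW (S56), sub-programme C (Greenberg–Wiles), FINAL ASSEMBLY (helper97).

All eight fields of `GWAsm97.GWBricks p` are filled from the landed bricks:
* `perp`, `perp_top`, `perp_anti` : `C1/LocPair58` (helper58, compile-fixed by helper64);
* `middle`     : `GWAsm22.Lite.middleExact_of_lite` (helper22) applied to the `MiddleExactLite`
                 input `hLite` (C1 = WP5, helper69) and `CountTransport66.finite_H1l` (helper66);
* `tail`       : `GWTail25F.tail` (C2, helper44 + helper25);
* `localEuler` : `LEulFinal64.localEuler` (C4, helper74's team);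
* `finH1g`     : `GWFinH1_97.finite_H1g`;
* `tate`       : `Tate62.Tate.tateStatement` (C3, helper62's team).
Hence `GWStatementW p` (the deliverable of sub-programme C) from the single remaining input
`hLite`.
-/
import Fermat.Agent.TW.GWAsm97
import Fermat.Agent.TW.GWFinH1_97
import Fermat.Agent.TW.GWAsm22.Lite
import Fermat.Agent.TW.C1.LocPair58
import Fermat.Agent.TW.CountTransport66
import Fermat.Agent.TW.GWTail25F
import Fermat.Agent.TW.LEulFinal64
import Fermat.Agent.TW.Tate62.Tate

set_option autoImplicit false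
set_option maxHeartbeats 400000

open ExtCitation
open Fermat.Agent.PT.PRO Fermat.Agent.PT.BR Fermat.Agent.PT.BR.LevelBridge13

namespace Fermat.Agent.TW.GWFinal97

open Fermat.Agent.TW.GWIface97 Fermat.Agent.TW.GWIface2_97 Fermat.Agent.TW.GWAsm97

local notation "Γ" => (AlgebraicClosure ℚ ≃ₐ[ℚ] AlgebraicClosure ℚ)

variable {p : ℕ} [Fact p.Prime]

/-- The bricks of the Greenberg–Wiles package, from the `MiddleExactLite` input of C1. -/
noncomputable def gwBricks (hp2 : p ≠ 2)
    (hLite : ∀ (S : Finset Nat.Primes) (M : Rep.{0} (ZMod p) Γ), pPrime p ∈ S → IsGood S M →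
      Fermat.Agent.TW.GWAsm22.Lite.MiddleExactLite
        (fun q M => Fermat.Agent.TW.C1.LocPair58.perp q M) S M) : GWBricks p where
  perp := fun q M => Fermat.Agent.TW.C1.LocPair58.perp q M
  perp_top := fun q M S hM => Fermat.Agent.TW.C1.LocPair58.perp_top q M S hM
  perp_anti := fun q M L L' h => Fermat.Agent.TW.C1.LocPair58.perp_anti q M L L' h
  middle := fun S M hpS hM =>
    Fermat.Agent.TW.GWAsm22.Lite.middleExact_of_lite S M
      (fun q => Fermat.Agent.TW.CountTransport66.finite_H1l hp2 hpS M hM q) (hLite S M hpS hM)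
  tail := Fermat.Agent.TW.GWTail25F.tail hp2
  localEuler := fun q S M hM => Fermat.Agent.TW.LEulFinal64.localEuler q S M hM
  finH1g := fun S M hpS hM => Fermat.Agent.TW.GWFinH1_97.finite_H1g S hpS M hM
  tate := Fermat.Agent.TW.Tate62.Tate.tateStatement

/-- **The deliverable of sub-programme C** from the single remaining input (C1, `MiddleExactLite`). -/
theorem gwStatementW_of_lite
    (hLite : p ≠ 2 → ∀ (S : Finset Nat.Primes) (M : Rep.{0} (ZMod p) Γ), pPrime p ∈ S →
      IsGood S M → Fermat.Agent.TW.GWAsm22.Lite.MiddleExactLite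
        (fun q M => Fermat.Agent.TW.C1.LocPair58.perp q M) S M) : GWStatementW p :=
  gwStatementW_of_bricks (fun hp2 => gwBricks hp2 (hLite hp2))

end Fermat.Agent.TW.GWFinal97
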