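/-
Programme TW (S56).  ASSEMBLY of the three pillars of `TW/Interface.lean` into the literal statement of S56
(helper57).  `s56_of_bricks : BrickA → BrickD_SO → BrickD_FL → BrickS_SO → BrickS_FL → (S56)`.
-/
import Fermat.Agent.TW.Interface

set_option autoImplicit false
set_option linter.unusedSectionVars false

open Polynomial IsLocalRing

namespace Fermat.Agent.TW.Assembly

open Fermat.Agent.TW.Interface

variable {𝒪 : Type} [CommRing 𝒪] [IsDomain 𝒪] [IsDiscreteValuationRing 𝒪]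
  [IsAdicComplete (maximalIdeal 𝒪) 𝒪] [Finite (ResidueField 𝒪)]

/-- One conjunct of S56 from the three pillars (generic in the condition at `p`). -/
theorem conjunct (p : ℕ)
    (cond : Finset ℕ → Finset ℕ →
      ∀ ⦃A : Type⦄ [CommRing A] [IsLocalRing A] [Algebra 𝒪 A], GaloisRepAdic A → Prop)
    (atp : ∀ ρbar : ResidualGaloisRep (ResidueField 𝒪),
      (GalQ → Module.End (ResidueField 𝒪) ρbar.V) → Prop)
    (hA : BrickA 𝒪) (hD : BrickD 𝒪 p cond atp) (hS : BrickS 𝒪 p cond atp)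
    (ρbar : ResidualGaloisRep (ResidueField 𝒪)) (S Smin : Finset ℕ)
    (h : Hyp 𝒪 p ρbar S Smin) :
    ∃ r : ℕ, ∀ n : ℕ, ∃ qv : Fin r → ℕ, Function.Injective qv ∧
      (∀ i, (qv i).Prime ∧ qv i ∉ S ∧ p ^ (n + 1) ∣ qv i - 1) ∧
      (∀ i, ∀ P : ValuationSubring (AlgebraicClosure ℚ), P.LiesOverPrime (qv i) →
        ∀ φ : AlgebraicClosure ℚ ≃ₐ[ℚ] AlgebraicClosure ℚ, P.IsFrobeniusAt φ (qv i) →
          ∃ α β : ResidueField 𝒪, α ≠ β ∧
            LinearMap.charpoly (ρbar.ρ φ) = (X - C α) * (X - C β)) ∧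
      ∀ DQ : GaloisRep.DeformationRingData 𝒪 ρbar (cond Smin (Smin ∪ Finset.univ.image qv)),
        ∃ γ : MvPowerSeries (Fin r) 𝒪 →ₐ[𝒪] DQ.R, Function.Surjective γ := by
  classical
  by_cases hres : cond Smin Smin (GaloisRepAdic.ofResidualGaloisRep ρbar)
  · obtain ⟨r, hr⟩ := hS ρbar S Smin h hres
    refine ⟨r, fun n => ?_⟩
    obtain ⟨qv, hTW, hcount⟩ := hr n
    refine ⟨qv, hTW.1, hTW.2.1, hTW.2.2, fun DQ => ?_⟩
    obtain ⟨-, huniq, F, hF, hinj⟩ := hD ρbar S Smin h _ Finset.subset_union_left DQ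
    refine hA DQ.R DQ.residue_surjective r (fun s => ?_)
    -- split `s` into surjective and non-surjective maps
    let sj : (DQ.R →ₐ[𝒪] DualNumber (ResidueField 𝒪)) → Prop := fun φ => Function.Surjective ⇑φ
    have hsplit : s.card = (s.filter sj).card +
        (s.filter (fun φ => ¬ sj φ)).card :=
      (Finset.card_filter_add_card_filter_not _).symm
    have hns : (s.filter (fun φ => ¬ sj φ)).card ≤ 1 :=
      Finset.card_le_one.2 fun φ hφ φ' hφ' =>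
        huniq φ φ' (Finset.mem_filter.1 hφ).2 (Finset.mem_filter.1 hφ').2
    have hFinj : Set.InjOn F (s.filter sj) := by
      intro φ hφ φ' hφ' hFF
      have h1 := (Finset.mem_filter.1 (Finset.mem_coe.1 hφ)).2
      have h2 := (Finset.mem_filter.1 (Finset.mem_coe.1 hφ')).2
      exact hinj φ φ' h1 h2 ⟨0, fun σ => by simp [hFF, conj]⟩
    have h1 := hcount ((s.filter sj).image F)
      (fun c hc => by
        obtain ⟨φ, hφ, rfl⟩ := Finset.mem_image.1 hc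
        exact hF φ (Finset.mem_filter.1 hφ).2)
      (fun c hc c' hc' hcoh => by
        obtain ⟨φ, hφ, rfl⟩ := Finset.mem_image.1 hc
        obtain ⟨φ', hφ', rfl⟩ := Finset.mem_image.1 hc'
        rw [hinj φ φ' (Finset.mem_filter.1 hφ).2 (Finset.mem_filter.1 hφ').2 hcoh])
    rw [Finset.card_image_of_injOn hFinj] at h1
    omega
  · refine ⟨0, fun n => ⟨Fin.elim0, fun i => i.elim0, fun i => i.elim0, fun i => i.elim0,
      fun DQ => ?_⟩⟩
    exact absurd (hD ρbar S Smin h _ Finset.subset_union_left DQ).1 hres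

/-- **S56 from the five bricks**, in the literal shape of the frozen statement. -/
theorem s56_of_bricks
    (p : ℕ) [Fact p.Prime] (hp2 : p ≠ 2) (hp𝒪 : (p : 𝒪) ∈ maximalIdeal 𝒪)
    (hA : BrickA 𝒪) (hDso : BrickD_SO 𝒪 p) (hDfl : BrickD_FL 𝒪 p)
    (hSso : BrickS_SO 𝒪 p) (hSfl : BrickS_FL 𝒪 p)
    (ρbar : ResidualGaloisRep (ResidueField 𝒪))
    (habs : ρbar.IsAbsolutelyIrreducible)
    (hdet : (GaloisRepAdic.ofResidualGaloisRep ρbar).DetIsCyclotomic p)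
    (hsplit : ∀ σ : AlgebraicClosure ℚ ≃ₐ[ℚ] AlgebraicClosure ℚ,
      ∃ α β : ResidueField 𝒪, LinearMap.charpoly (ρbar.ρ σ) = (X - C α) * (X - C β))
    (hTW : ∀ (K : Type) [Field K] [Algebra (ResidueField 𝒪) K]
      (G : Subgroup (AlgebraicClosure ℚ ≃ₐ[ℚ] AlgebraicClosure ℚ)), G.index = 2 →
      ∀ V : Submodule K (ρbar.baseChange K).V,
        (∀ σ ∈ G, ∀ x ∈ V, (ρbar.baseChange K).ρ σ x ∈ V) → V = ⊥ ∨ V = ⊤)
    (S Smin : Finset ℕ) (hpSmin : p ∈ Smin) (hSmin : Smin ⊆ S) (hS : ∀ q ∈ S, q.Prime)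
    (hmin : ∀ q : ℕ, q.Prime → q ≠ p → (q ∈ Smin ↔ ¬ ρbar.IsUnramifiedAt q)) :
    (∃ r : ℕ, ∀ n : ℕ, ∃ qv : Fin r → ℕ, Function.Injective qv ∧
      (∀ i, (qv i).Prime ∧ qv i ∉ S ∧ p ^ (n + 1) ∣ qv i - 1) ∧
      (∀ i, ∀ P : ValuationSubring (AlgebraicClosure ℚ), P.LiesOverPrime (qv i) →
        ∀ φ : AlgebraicClosure ℚ ≃ₐ[ℚ] AlgebraicClosure ℚ, P.IsFrobeniusAt φ (qv i) →
          ∃ α β : ResidueField 𝒪, α ≠ β ∧ LinearMap.charpoly (ρbar.ρ φ) = (X - C α) * (X - C β)) ∧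
      ∀ DQ : GaloisRep.DeformationRingData 𝒪 ρbar (fun _A _ _ _ ρ =>
          GaloisRep.strictOrdinaryCondition 𝒪 p (Smin ∪ Finset.univ.image qv) ρ ∧
            ∀ q ∈ Smin, q.Prime → q ≠ p → ρ.IsUnipotentOnInertiaAt q),
        ∃ γ : MvPowerSeries (Fin r) 𝒪 →ₐ[𝒪] DQ.R, Function.Surjective γ) ∧
    (∃ r : ℕ, ∀ n : ℕ, ∃ qv : Fin r → ℕ, Function.Injective qv ∧
      (∀ i, (qv i).Prime ∧ qv i ∉ S ∧ p ^ (n + 1) ∣ qv i - 1) ∧
      (∀ i, ∀ P : ValuationSubring (AlgebraicClosure ℚ), P.LiesOverPrime (qv i) →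
        ∀ φ : AlgebraicClosure ℚ ≃ₐ[ℚ] AlgebraicClosure ℚ, P.IsFrobeniusAt φ (qv i) →
          ∃ α β : ResidueField 𝒪, α ≠ β ∧ LinearMap.charpoly (ρbar.ρ φ) = (X - C α) * (X - C β)) ∧
      ∀ DQ : GaloisRep.DeformationRingData 𝒪 ρbar (fun _A _ _ _ ρ =>
          GaloisRep.flatCondition 𝒪 p (Smin ∪ Finset.univ.image qv) ρ ∧
            ∀ q ∈ Smin, q.Prime → q ≠ p → ρ.IsUnipotentOnInertiaAt q),
        ∃ γ : MvPowerSeries (Fin r) 𝒪 →ₐ[𝒪] DQ.R, Function.Surjective γ) := by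
  have h : Hyp 𝒪 p ρbar S Smin :=
    ⟨hp2, hp𝒪, habs, hdet, hsplit, hTW, hpSmin, hSmin, hS, hmin⟩
  exact ⟨conjunct p _ _ hA hDso hSso ρbar S Smin h, conjunct p _ _ hA hDfl hSfl ρbar S Smin h⟩

end Fermat.Agent.TW.Assembly
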