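/-
Programme TW (S56), PILLAR (S) = the arithmetic.  Shared DEFINITIONS (helper72, programme lead).

Pillar (S) (`Interface.BrickS_SO`, `Interface.BrickS_FL`) talks about *plain cocycles*
`c : G_ℚ → End_k(V)`; the Greenberg–Wiles package of `GWIface97` talks about level cohomology over
`ZMod p` (`H1g S M`, `H1l q M`).  This file fixes the dictionary between the two:

* `ad0F p ρbar hchar : Rep (ZMod p) Γ` : the trace-zero endomorphisms of `ρbar.V` with the conjugation
  action, as an `𝔽_p`-representation (`hchar : (p : k) = 0`);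
* `toAd0 ρbar c σ` : the value `c σ`, or `0` when `c σ` does not have trace zero (total function);
* `toPrimes T : Finset Nat.Primes` : the primes in a `Finset ℕ`;
* `cls p ρbar hchar T c : H1g (toPrimes T) (ad0F …)` : the class of `c` in `H¹(G_T, ad⁰)` (junk value `0`
  when `c` is not a level-`T` cocycle);
* `locCls p ρbar hchar q c : H1l q (ad0F …)` : the class of `c ∘ (Γ_q → Γ)` in `H¹(ℚ_q, ad⁰)` (junk
  value `0` when this is not a level cocycle);
* `dK p k = log_p |k| = [k : 𝔽_p]`;
* `extTop`, `extBot` : extension of a family of local conditions on `S` to `S'` by `⊤`, resp. `⊥`.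

The facts that the junk branches are never taken for Selmer cocycles are in `TW/SBridge72.lean`.
-/
import Fermat.Agent.TW.Interface
import Fermat.Agent.TW.GWIface97

set_option autoImplicit false

open ExtCitation groupCohomology
open Fermat.Agent.PT.PRO Fermat.Agent.PT.BR Fermat.Agent.PT.BR.LevelBridge13
open Fermat.Agent.TW.Interface Fermat.Agent.TW.GWIface97

namespace Fermat.Agent.TW.SDefs72

local notation "Γ" => (AlgebraicClosure ℚ ≃ₐ[ℚ] AlgebraicClosure ℚ)

section Ad0

variable {k : Type} [Field k] (ρbar : ResidualGaloisRep k)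

/-- The carrier of `ad⁰ ρbar`: trace-zero endomorphisms of `ρbar.V`. -/
def Ad0 : Type := ↥(LinearMap.ker (LinearMap.trace k ρbar.V))

noncomputable instance : AddCommGroup (Ad0 ρbar) :=
  inferInstanceAs (AddCommGroup ↥(LinearMap.ker (LinearMap.trace k ρbar.V)))

noncomputable instance : Module k (Ad0 ρbar) :=
  inferInstanceAs (Module k ↥(LinearMap.ker (LinearMap.trace k ρbar.V)))

/-- The underlying endomorphism. -/
def Ad0.val (x : Ad0 ρbar) : Module.End k ρbar.V := Subtype.val x

variable {ρbar} in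
lemma Ad0.val_injective : Function.Injective (Ad0.val ρbar) := Subtype.val_injective

variable {ρbar} in
lemma Ad0.trace_val (x : Ad0 ρbar) : LinearMap.trace k ρbar.V (Ad0.val ρbar x) = 0 :=
  LinearMap.mem_ker.1 x.2

/-- Constructor. -/
def Ad0.mk (X : Module.End k ρbar.V) (h : LinearMap.trace k ρbar.V X = 0) : Ad0 ρbar :=
  ⟨X, LinearMap.mem_ker.2 h⟩

@[simp] lemma Ad0.val_mk (X : Module.End k ρbar.V) (h : LinearMap.trace k ρbar.V X = 0) :
    Ad0.val ρbar (Ad0.mk ρbar X h) = X := rfl

@[simp] lemma Ad0.val_zero : Ad0.val ρbar 0 = 0 := rfl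

@[simp] lemma Ad0.val_add (x y : Ad0 ρbar) :
    Ad0.val ρbar (x + y) = Ad0.val ρbar x + Ad0.val ρbar y := rfl

@[simp] lemma Ad0.val_neg (x : Ad0 ρbar) : Ad0.val ρbar (-x) = -Ad0.val ρbar x := rfl

@[simp] lemma Ad0.val_sub (x y : Ad0 ρbar) :
    Ad0.val ρbar (x - y) = Ad0.val ρbar x - Ad0.val ρbar y := rfl

@[simp] lemma Ad0.val_smul (a : k) (x : Ad0 ρbar) :
    Ad0.val ρbar (a • x) = a • Ad0.val ρbar x := rfl

lemma trace_conj (σ : Γ) (X : Module.End k ρbar.V) :
    LinearMap.trace k ρbar.V (conj ρbar σ X) = LinearMap.trace k ρbar.V X := by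
  unfold conj
  rw [LinearMap.trace_mul_comm, ← mul_assoc, ← map_mul, inv_mul_cancel, map_one, one_mul]

lemma conj_one (X : Module.End k ρbar.V) : conj ρbar 1 X = X := by
  unfold conj
  rw [inv_one, map_one, one_mul, mul_one]

lemma conj_mul (σ τ : Γ) (X : Module.End k ρbar.V) :
    conj ρbar (σ * τ) X = conj ρbar σ (conj ρbar τ X) := by
  unfold conj
  rw [mul_inv_rev, map_mul, map_mul]
  simp only [mul_assoc]

lemma conj_add (σ : Γ) (X Y : Module.End k ρbar.V) :
    conj ρbar σ (X + Y) = conj ρbar σ X + conj ρbar σ Y := by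
  unfold conj
  rw [mul_add, add_mul]

/-- Conjugation by `ρbar σ` as an additive endomorphism of `Ad0`. -/
noncomputable def conjAd0 (σ : Γ) : Ad0 ρbar →+ Ad0 ρbar where
  toFun x := Ad0.mk ρbar (conj ρbar σ (Ad0.val ρbar x))
    (by rw [trace_conj]; exact Ad0.trace_val x)
  map_zero' := by
    apply Ad0.val_injective
    simp [conj]
  map_add' x y := by
    apply Ad0.val_injective
    simp [conj_add]

@[simp] lemma val_conjAd0 (σ : Γ) (x : Ad0 ρbar) :
    Ad0.val ρbar (conjAd0 ρbar σ x) = conj ρbar σ (Ad0.val ρbar x) := rfl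

variable (p : ℕ) [Fact p.Prime] (hchar : (p : k) = 0)

/-- The `ZMod p`-module structure on `Ad0` (`k` has characteristic `p`). -/
@[reducible] noncomputable def ad0Module : Module (ZMod p) (Ad0 ρbar) :=
  AddCommGroup.zmodModule (n := p) (fun x => by
    apply Ad0.val_injective
    have h : Ad0.val ρbar (p • x) = ((p : k)) • Ad0.val ρbar x := by
      rw [← Ad0.val_smul, Nat.cast_smul_eq_nsmul]
    rw [h, hchar, zero_smul]; rfl)

/-- The conjugation representation of `Γ` on `Ad0`, over `ZMod p`. -/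
noncomputable def ad0Repn :
    letI := ad0Module ρbar p hchar
    Representation (ZMod p) Γ (Ad0 ρbar) :=
  letI := ad0Module ρbar p hchar
  { toFun := fun σ => (conjAd0 ρbar σ).toZModLinearMap p
    map_one' := by
      ext x
      apply Ad0.val_injective
      simp [conj_one]
    map_mul' := fun σ τ => by
      ext x
      apply Ad0.val_injective
      simp [conj_mul] }

/-- **`ad⁰ ρbar` as an `𝔽_p`-representation of `Γ`.** -/
noncomputable def ad0F : Rep.{0} (ZMod p) Γ :=
  letI := ad0Module ρbar p hchar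
  Rep.of (ad0Repn ρbar p hchar)

/-- The underlying endomorphism of an element of `ad0F`. -/
def ad0F.val (x : ad0F ρbar p hchar) : Module.End k ρbar.V :=
  Ad0.val ρbar (show Ad0 ρbar from x)

lemma ad0F.val_injective : Function.Injective (ad0F.val ρbar p hchar) :=
  fun _ _ h => Ad0.val_injective h

/-- An element of `Ad0` as an element of (the carrier of) `ad0F`. -/
def ad0F.of (x : Ad0 ρbar) : ad0F ρbar p hchar := x

@[simp] lemma ad0F.val_of (x : Ad0 ρbar) :
    ad0F.val ρbar p hchar (ad0F.of ρbar p hchar x) = Ad0.val ρbar x := rfl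

lemma ad0F.val_ρ (σ : Γ) (x : ad0F ρbar p hchar) :
    ad0F.val ρbar p hchar ((ad0F ρbar p hchar).ρ σ x) = conj ρbar σ (ad0F.val ρbar p hchar x) :=
  rfl

end Ad0

section Classes

variable {k : Type} [Field k] (ρbar : ResidualGaloisRep k) (p : ℕ) [Fact p.Prime]
  (hchar : (p : k) = 0)

open Classical in
/-- The value `c σ` as an element of `ad0F` (`0` if `c σ` does not have trace zero). -/
noncomputable def toAd0 (c : Γ → Module.End k ρbar.V) : Γ → ad0F ρbar p hchar :=
  fun σ => if h : LinearMap.trace k ρbar.V (c σ) = 0 then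
    ad0F.of ρbar p hchar (Ad0.mk ρbar (c σ) h) else 0

lemma val_toAd0 {c : Γ → Module.End k ρbar.V}
    (hc : ∀ σ, LinearMap.trace k ρbar.V (c σ) = 0) (σ : Γ) :
    ad0F.val ρbar p hchar (toAd0 ρbar p hchar c σ) = c σ := by
  unfold toAd0
  rw [dif_pos (hc σ)]
  rfl

/-- The primes contained in a finite set of natural numbers. -/
noncomputable def toPrimes (T : Finset ℕ) : Finset Nat.Primes := by
  classical exact T.subtype Nat.Prime

lemma mem_toPrimes {T : Finset ℕ} {q : Nat.Primes} : q ∈ toPrimes T ↔ (q : ℕ) ∈ T := by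
  classical
  unfold toPrimes
  exact Finset.mem_subtype

/-- A finite set of primes as a finite set of natural numbers. -/
noncomputable def ofPrimes (S₀ : Finset Nat.Primes) : Finset ℕ := by
  classical exact S₀.image (fun q : Nat.Primes => (q : ℕ))

lemma mem_ofPrimes {S₀ : Finset Nat.Primes} {q : Nat.Primes} :
    (q : ℕ) ∈ ofPrimes S₀ ↔ q ∈ S₀ := by
  classical
  unfold ofPrimes
  constructor
  · intro h
    obtain ⟨q', hq', hqq'⟩ := Finset.mem_image.1 h
    rwa [← Subtype.ext hqq']
  · intro h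
    exact Finset.mem_image.2 ⟨q, h, rfl⟩

lemma toPrimes_mono {T T' : Finset ℕ} (h : T ⊆ T') : toPrimes T ⊆ toPrimes T' :=
  fun _ hq => mem_toPrimes.2 (h (mem_toPrimes.1 hq))

lemma subset_toPrimes_union_ofPrimes (T : Finset ℕ) (S₀ : Finset Nat.Primes) :
    S₀ ⊆ toPrimes (T ∪ ofPrimes S₀) :=
  fun _ hq => mem_toPrimes.2 (Finset.mem_union_right _ (mem_ofPrimes.2 hq))

open Classical in
/-- The class of the cocycle `c` in `H¹(G_T, ad⁰)` (level cohomology, fields unramified outside the
primes of `T`).  Junk value `0` if `toAd0 c` is not a level-`T` cocycle. -/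
noncomputable def cls (T : Finset ℕ) (c : Γ → Module.End k ρbar.V) :
    H1g (toPrimes T) (ad0F ρbar p hchar) :=
  if h : toAd0 ρbar p hchar c ∈ LevelCoh28.Z1 (globalBasis (toPrimes T)) (ad0F ρbar p hchar) then
    LevelCoh28.H1mk (globalBasis (toPrimes T)) (ad0F ρbar p hchar) ⟨_, h⟩
  else 0

open Classical in
/-- The class of the restriction of `c` to the local Galois group at `q` in `H¹(ℚ_q, ad⁰)`.
Junk value `0` if the restriction is not a level cocycle. -/
noncomputable def locCls (q : Nat.Primes) (c : Γ → Module.End k ρbar.V) :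
    H1l q (ad0F ρbar p hchar) :=
  if h : (toAd0 ρbar p hchar c ∘ primeLocalToGlobal q) ∈
      LevelCoh28.Z1 (pullBasis (primeLocalToGlobal q))
        (Rep.res (primeLocalToGlobal q) (ad0F ρbar p hchar)) then
    LevelCoh28.H1mk (pullBasis (primeLocalToGlobal q))
      (Rep.res (primeLocalToGlobal q) (ad0F ρbar p hchar)) ⟨_, h⟩
  else 0

end Classes

section Misc

/-- `[k : 𝔽_p]` for a finite field `k` of characteristic `p`, as `log_p |k|`. -/
noncomputable def dK (p : ℕ) (k : Type) : ℕ := Nat.log p (Nat.card k)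

variable {p : ℕ} [Fact p.Prime]

open Classical in
/-- Extend a family of local conditions on `S` to a family on `S'` by `⊤` (no condition) at the
primes of `S'` outside `S`. -/
noncomputable def extTop (S S' : Finset Nat.Primes) (M : Rep.{0} (ZMod p) Γ)
    (L : ∀ v : ↥S, Submodule (ZMod p) (H1l v.1 M)) :
    ∀ v : ↥S', Submodule (ZMod p) (H1l v.1 M) :=
  fun v => if h : v.1 ∈ S then L ⟨v.1, h⟩ else ⊤

open Classical in
/-- Extend a family of local conditions on `S` to a family on `S'` by `⊥` (locally trivial) at the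
primes of `S'` outside `S`. -/
noncomputable def extBot (S S' : Finset Nat.Primes) (M : Rep.{0} (ZMod p) Γ)
    (L : ∀ v : ↥S, Submodule (ZMod p) (H1l v.1 M)) :
    ∀ v : ↥S', Submodule (ZMod p) (H1l v.1 M) :=
  fun v => if h : v.1 ∈ S then L ⟨v.1, h⟩ else ⊥

lemma extTop_of_mem (S S' : Finset Nat.Primes) (M : Rep.{0} (ZMod p) Γ)
    (L : ∀ v : ↥S, Submodule (ZMod p) (H1l v.1 M)) (v : ↥S') (h : v.1 ∈ S) :
    extTop S S' M L v = L ⟨v.1, h⟩ := by
  unfold extTop; rw [dif_pos h]

lemma extTop_of_not_mem (S S' : Finset Nat.Primes) (M : Rep.{0} (ZMod p) Γ)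
    (L : ∀ v : ↥S, Submodule (ZMod p) (H1l v.1 M)) (v : ↥S') (h : v.1 ∉ S) :
    extTop S S' M L v = ⊤ := by
  unfold extTop; rw [dif_neg h]

lemma extBot_of_mem (S S' : Finset Nat.Primes) (M : Rep.{0} (ZMod p) Γ)
    (L : ∀ v : ↥S, Submodule (ZMod p) (H1l v.1 M)) (v : ↥S') (h : v.1 ∈ S) :
    extBot S S' M L v = L ⟨v.1, h⟩ := by
  unfold extBot; rw [dif_pos h]

lemma extBot_of_not_mem (S S' : Finset Nat.Primes) (M : Rep.{0} (ZMod p) Γ)
    (L : ∀ v : ↥S, Submodule (ZMod p) (H1l v.1 M)) (v : ↥S') (h : v.1 ∉ S) :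
    extBot S S' M L v = ⊥ := by
  unfold extBot; rw [dif_neg h]

end Misc

end Fermat.Agent.TW.SDefs72
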