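/-
Programme TW (S56), pillar (S): LOCAL CLASSES of def-cocycles (helper57).
For every prime `q`: the restriction of a def-cocycle `c` to the local Galois group at `q` is a level
cocycle (`locZ`), `SDefs72.locCls c` is its class (no junk branch), and `locCls` is additive, kills
coboundaries, etc.  Shared by the three local bricks `LocSO`, `LocFL`, `LocUnip` of `SIface72`.
-/
import Mathlib
import Fermat.Agent.TW.SDefs72

set_option autoImplicit false
set_option linter.unusedSectionVars false

open ExtCitation groupCohomology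
open Fermat.Agent.PT.PRO Fermat.Agent.PT.BR Fermat.Agent.PT.BR.LevelBridge13
open Fermat.Agent.TW.Interface Fermat.Agent.TW.GWIface97 Fermat.Agent.TW.SDefs72

namespace Fermat.Agent.TW.LocCls57

local notation "Γ" => (AlgebraicClosure ℚ ≃ₐ[ℚ] AlgebraicClosure ℚ)

variable {k : Type} [Field k] (ρbar : ResidualGaloisRep k)

/-! ### Def-cocycles form a `k`-vector space containing the trace-zero coboundaries -/

theorem conj_add (σ : Γ) (X Y : Module.End k ρbar.V) :
    conj ρbar σ (X + Y) = conj ρbar σ X + conj ρbar σ Y := by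
  unfold conj; rw [mul_add, add_mul]

theorem conj_sub (σ : Γ) (X Y : Module.End k ρbar.V) :
    conj ρbar σ (X - Y) = conj ρbar σ X - conj ρbar σ Y := by
  unfold conj; rw [mul_sub, sub_mul]

theorem conj_smul (σ : Γ) (a : k) (X : Module.End k ρbar.V) :
    conj ρbar σ (a • X) = a • conj ρbar σ X := by
  unfold conj; rw [mul_smul_comm, smul_mul_assoc]

theorem conj_zero (σ : Γ) : conj ρbar σ (0 : Module.End k ρbar.V) = 0 := by
  unfold conj; rw [mul_zero, zero_mul]

theorem conj_mul (σ τ : Γ) (X : Module.End k ρbar.V) :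
    conj ρbar (σ * τ) X = conj ρbar σ (conj ρbar τ X) := SDefs72.conj_mul ρbar σ τ X

variable {ρbar}

theorem isDefCocycle_zero : IsDefCocycle ρbar (0 : Γ → Module.End k ρbar.V) where
  map_mul σ τ := by simp [conj_zero]
  trace_eq_zero σ := by simp
  level := ⟨⊥, inferInstance, fun _ _ _ => rfl⟩

theorem isDefCocycle_add {c c' : Γ → Module.End k ρbar.V} (hc : IsDefCocycle ρbar c)
    (hc' : IsDefCocycle ρbar c') : IsDefCocycle ρbar (c + c') where
  map_mul σ τ := by
    simp only [Pi.add_apply]
    rw [hc.map_mul, hc'.map_mul, conj_add]; abel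
  trace_eq_zero σ := by
    simp only [Pi.add_apply]
    rw [map_add, hc.trace_eq_zero, hc'.trace_eq_zero, add_zero]
  level := by
    obtain ⟨F, hF, h⟩ := hc.level
    obtain ⟨F', hF', h'⟩ := hc'.level
    refine ⟨F ⊔ F', IntermediateField.finiteDimensional_sup F F', fun σ τ hτ => ?_⟩
    simp only [Pi.add_apply]
    rw [h σ τ (fun x hx => hτ x (le_sup_left (a := F) hx)),
      h' σ τ (fun x hx => hτ x (le_sup_right (b := F') hx))]

theorem isDefCocycle_smul {c : Γ → Module.End k ρbar.V} (hc : IsDefCocycle ρbar c) (a : k) :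
    IsDefCocycle ρbar (a • c) where
  map_mul σ τ := by
    simp only [Pi.smul_apply]
    rw [hc.map_mul, smul_add, conj_smul]
  trace_eq_zero σ := by
    simp only [Pi.smul_apply]
    rw [map_smul, hc.trace_eq_zero, smul_zero]
  level := by
    obtain ⟨F, hF, h⟩ := hc.level
    refine ⟨F, hF, fun σ τ hτ => ?_⟩
    simp only [Pi.smul_apply]
    rw [h σ τ hτ]

theorem isDefCocycle_neg {c : Γ → Module.End k ρbar.V} (hc : IsDefCocycle ρbar c) :
    IsDefCocycle ρbar (-c) := by
  have := isDefCocycle_smul hc (-1 : k)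
  rwa [neg_one_smul] at this

theorem isDefCocycle_sub {c c' : Γ → Module.End k ρbar.V} (hc : IsDefCocycle ρbar c)
    (hc' : IsDefCocycle ρbar c') : IsDefCocycle ρbar (c - c') := by
  rw [sub_eq_add_neg]
  exact isDefCocycle_add hc (isDefCocycle_neg hc')

variable (ρbar) in
/-- The coboundary of `X`. -/
noncomputable def cob (X : Module.End k ρbar.V) : Γ → Module.End k ρbar.V :=
  fun σ => conj ρbar σ X - X

theorem isDefCocycle_cob (X : Module.End k ρbar.V) (hX : LinearMap.trace k ρbar.V X = 0) :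
    IsDefCocycle ρbar (cob ρbar X) where
  map_mul σ τ := by
    simp only [cob]
    rw [conj_mul, conj_sub]; abel
  trace_eq_zero σ := by
    simp only [cob]
    rw [map_sub, SDefs72.trace_conj, hX, sub_zero]
  level := by
    obtain ⟨F, hF, h⟩ := ρbar.factorsThroughFiniteLevel
    refine ⟨F, hF, fun σ τ hτ => ?_⟩
    simp only [cob]
    rw [conj_mul]
    have hτ' : ∀ x ∈ F, τ⁻¹ x = x := fun x hx => by
      conv_lhs => rw [← hτ x hx]
      change (τ⁻¹ * τ) x = x
      rw [inv_mul_cancel, AlgEquiv.one_apply]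
    have : conj ρbar τ X = X := by
      unfold conj
      rw [h τ hτ, h τ⁻¹ hτ', one_mul, mul_one]
    rw [this]

/-! ### `toAd0` on trace-zero cochains -/

section ToAd0

variable (ρbar) (p : ℕ) [Fact p.Prime] (hchar : (p : k) = 0)

theorem val_add (x y : ad0F ρbar p hchar) :
    ad0F.val ρbar p hchar (x + y) = ad0F.val ρbar p hchar x + ad0F.val ρbar p hchar y := rfl

theorem val_sub (x y : ad0F ρbar p hchar) :
    ad0F.val ρbar p hchar (x - y) = ad0F.val ρbar p hchar x - ad0F.val ρbar p hchar y := rfl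

theorem val_zero : ad0F.val ρbar p hchar 0 = 0 := rfl

theorem toAd0_add {c c' : Γ → Module.End k ρbar.V}
    (hc : ∀ σ, LinearMap.trace k ρbar.V (c σ) = 0)
    (hc' : ∀ σ, LinearMap.trace k ρbar.V (c' σ) = 0) :
    toAd0 ρbar p hchar (c + c') = toAd0 ρbar p hchar c + toAd0 ρbar p hchar c' := by
  funext σ
  apply ad0F.val_injective ρbar p hchar
  have hcc' : ∀ σ, LinearMap.trace k ρbar.V ((c + c') σ) = 0 := fun σ => by
    rw [Pi.add_apply, map_add, hc, hc', add_zero]
  rw [Pi.add_apply, val_add, val_toAd0 ρbar p hchar hcc', val_toAd0 ρbar p hchar hc,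
    val_toAd0 ρbar p hchar hc', Pi.add_apply]

theorem toAd0_zero : toAd0 ρbar p hchar (0 : Γ → Module.End k ρbar.V) = 0 := by
  funext σ
  apply ad0F.val_injective ρbar p hchar
  rw [val_toAd0 ρbar p hchar (c := 0) (fun σ => by simp)]
  rfl

variable (q : Nat.Primes)

/-- The restriction of a def-cocycle to the local group at `q` is a level cocycle. -/
theorem toAd0_comp_mem_Z1 {c : Γ → Module.End k ρbar.V} (hc : IsDefCocycle ρbar c) :
    (toAd0 ρbar p hchar c ∘ primeLocalToGlobal q) ∈
      LevelCoh28.Z1 (pullBasis (primeLocalToGlobal q))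
        (Rep.res (primeLocalToGlobal q) (ad0F ρbar p hchar)) := by
  refine ⟨(mem_cocycles₁_iff _).2 fun g h => ?_, ?_⟩
  · apply ad0F.val_injective ρbar p hchar
    simp only [Function.comp_apply]
    rw [val_add]
    change ad0F.val ρbar p hchar (toAd0 ρbar p hchar c (primeLocalToGlobal q (g * h))) =
      ad0F.val ρbar p hchar ((ad0F ρbar p hchar).ρ (primeLocalToGlobal q g)
        (toAd0 ρbar p hchar c (primeLocalToGlobal q h))) +
      ad0F.val ρbar p hchar (toAd0 ρbar p hchar c (primeLocalToGlobal q g))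
    rw [ad0F.val_ρ, val_toAd0 ρbar p hchar hc.trace_eq_zero,
      val_toAd0 ρbar p hchar hc.trace_eq_zero, val_toAd0 ρbar p hchar hc.trace_eq_zero, map_mul,
      hc.map_mul, add_comm]
  · obtain ⟨F, hF, h⟩ := hc.level
    refine ⟨_, ⟨F, hF, rfl⟩, fun g s hs => ?_⟩
    simp only [Function.comp_apply]
    rw [map_mul]
    have hs' : ∀ x ∈ F, primeLocalToGlobal q s x = x :=
      (IntermediateField.mem_fixingSubgroup_iff _ _).1 hs
    apply ad0F.val_injective ρbar p hchar
    rw [val_toAd0 ρbar p hchar hc.trace_eq_zero, val_toAd0 ρbar p hchar hc.trace_eq_zero,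
      h _ _ hs']

/-- The restriction of a def-cocycle to the local group at `q`, as a level cocycle. -/
noncomputable def locZ {c : Γ → Module.End k ρbar.V} (hc : IsDefCocycle ρbar c) :
    ↥(LevelCoh28.Z1 (pullBasis (primeLocalToGlobal q))
      (Rep.res (primeLocalToGlobal q) (ad0F ρbar p hchar))) :=
  ⟨_, toAd0_comp_mem_Z1 ρbar p hchar q hc⟩

theorem locZ_apply {c : Γ → Module.End k ρbar.V} (hc : IsDefCocycle ρbar c)
    (g : primeLocalGaloisGroup q) :
    ad0F.val ρbar p hchar ((locZ ρbar p hchar q hc : primeLocalGaloisGroup q → _) g) =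
      c (primeLocalToGlobal q g) :=
  val_toAd0 ρbar p hchar hc.trace_eq_zero _

/-- `locCls` of a def-cocycle is the class of `locZ` (no junk). -/
theorem locCls_eq {c : Γ → Module.End k ρbar.V} (hc : IsDefCocycle ρbar c) :
    locCls ρbar p hchar q c = LevelCoh28.H1mk _ _ (locZ ρbar p hchar q hc) := by
  unfold locCls
  rw [dif_pos (toAd0_comp_mem_Z1 ρbar p hchar q hc)]
  rfl

theorem locZ_add {c c' : Γ → Module.End k ρbar.V} (hc : IsDefCocycle ρbar c)
    (hc' : IsDefCocycle ρbar c') :
    locZ ρbar p hchar q (isDefCocycle_add hc hc') =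
      locZ ρbar p hchar q hc + locZ ρbar p hchar q hc' := by
  apply Subtype.ext
  change toAd0 ρbar p hchar (c + c') ∘ _ = (toAd0 ρbar p hchar c ∘ _) + (toAd0 ρbar p hchar c' ∘ _)
  rw [toAd0_add ρbar p hchar hc.trace_eq_zero hc'.trace_eq_zero]
  rfl

theorem locCls_add {c c' : Γ → Module.End k ρbar.V} (hc : IsDefCocycle ρbar c)
    (hc' : IsDefCocycle ρbar c') :
    locCls ρbar p hchar q (c + c') = locCls ρbar p hchar q c + locCls ρbar p hchar q c' := by
  rw [locCls_eq ρbar p hchar q hc, locCls_eq ρbar p hchar q hc',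
    locCls_eq ρbar p hchar q (isDefCocycle_add hc hc'), locZ_add, map_add]

theorem locCls_zero : locCls ρbar p hchar q (0 : Γ → Module.End k ρbar.V) = 0 := by
  have h := locCls_add ρbar p hchar q (isDefCocycle_zero (ρbar := ρbar)) isDefCocycle_zero
  rw [add_zero] at h
  exact left_eq_add.mp h

/-- The class of a trace-zero coboundary is trivial. -/
theorem locCls_cob (X : Module.End k ρbar.V) (hX : LinearMap.trace k ρbar.V X = 0) :
    locCls ρbar p hchar q (cob ρbar X) = 0 := by
  rw [locCls_eq ρbar p hchar q (isDefCocycle_cob X hX), LevelCoh28.H1mk_eq_zero_iff]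
  refine ⟨ad0F.of ρbar p hchar (Ad0.mk ρbar X hX), ?_⟩
  funext g
  apply ad0F.val_injective ρbar p hchar
  rw [locZ_apply]
  rfl

end ToAd0

end Fermat.Agent.TW.LocCls57
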