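/-
Programme TW (S56), PILLAR (S) = the arithmetic.  BRICK STATEMENTS (helper72, programme lead).
VERSION 2 (weak Greenberg–Wiles package `GWIface2_97.GWPackageW`, decision msg 967).

`Interface.BrickS 𝒪 p cond atp` (helper57's consumer contract) is cut into the following Prop-valued
bricks; `TW/SCount72.lean` proves `BrickS` from them.  Vocabulary: `SDefs72` (`ad0F`, `cls`, `locCls`,
`toPrimes`, `ofPrimes`, `dK`), `GWIface97` (`H1g`, `H1l`, `res1`, `Sel`, `dual`, `h0g`, `h0l`,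
`h0c`, `IsGood`) and `GWIface2_97` (`H1ur`, `GWStatementW`).  Throughout `k = ResidueField 𝒪`,
`M = ad0F ρbar p _`, `d = dK p k = [k : 𝔽_p]`.

* `Bridge`   : Selmer cocycles give level-`T` cocycles; `res1 (cls c) = locCls c`; equal classes ⇒
               cohomologous; unramified at `q` ⇒ `locCls q c ∈ H1ur q M`.   (owner helper72)
* `GoodAd0`  : `IsGood (toPrimes Smin) M`.                            (helper9)
* `GlobZero` : `h0g M = 0`   (Schur, `p` odd).                        (helper9)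
* `ArchLe`   : `d ≤ h0c M`   (`det ρbar(c) = -1`).                    (helper9)
* `LocP atp` : ∃ `L_p ≤ H¹(ℚ_p, M)`, `#L_p ≤ #H⁰(ℚ_p, M) · #k`, containing `locCls p c` for all
               def-cocycles `c` with `atp c`.   `atp = SOLocal` (helper45), `atp = FLLocal` (helper47's team)
* `LocUnip`  : for `q ∈ Smin`, `q ≠ p` (so `ρbar` is ramified and unipotent on inertia at `q`):
               ∃ `L_q ≤ H¹(ℚ_q, M)`, `#L_q ≤ #H⁰(ℚ_q, M)`, containing `locCls q c` whenever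
               `tr (c σ ∘ ρbar σ) = 0` on inertia at `q`.             (helper66, uses TAME of helper22)
* `LocUr`    : for `q ∉ Smin`: `dim H1ur q M ≤ h0l q M`.              (helper66)
* `LocTW`    : for a Taylor–Wiles prime `q`: `h0l q (dual M) ≤ d`.    (helper66)
* `GWStatementW p` (in `GWIface2_97`).                                (helper97's team)
* `TWKill`   : for ANY finite base set `T0 ⊇ Smin` and ANY total family `Ld` of local conditions for
               `dual M` there is `r` such that for every `n` there is a Taylor–Wiles family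
               `qv : Fin r → ℕ` of level `n` with
               `Sel (T0 ∪ Q) (dual M) (⊥ at the primes of Q, Ld elsewhere) = ⊥`.   (helper59's team)
-/
import Fermat.Agent.TW.SDefs72
import Fermat.Agent.TW.GWIface2_97

set_option autoImplicit false
set_option linter.unusedSectionVars false

open Polynomial IsLocalRing
open ExtCitation groupCohomology
open Fermat.Agent.PT.PRO Fermat.Agent.PT.BR Fermat.Agent.PT.BR.LevelBridge13
open Fermat.Agent.TW.Interface Fermat.Agent.TW.GWIface97 Fermat.Agent.TW.GWIface2_97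
open Fermat.Agent.TW.SDefs72

namespace Fermat.Agent.TW.SIface72

local notation "Γ" => (AlgebraicClosure ℚ ≃ₐ[ℚ] AlgebraicClosure ℚ)

variable (𝒪 : Type) [CommRing 𝒪] [IsDomain 𝒪] [IsDiscreteValuationRing 𝒪]
  [IsAdicComplete (maximalIdeal 𝒪) 𝒪] [Finite (ResidueField 𝒪)]

variable {𝒪} in
omit [IsAdicComplete (maximalIdeal 𝒪) 𝒪] [Finite (ResidueField 𝒪)] in
/-- The residue field has characteristic `p`. -/
theorem cast_eq_zero_of_mem {p : ℕ} (hp𝒪 : (p : 𝒪) ∈ maximalIdeal 𝒪) :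
    ((p : ℕ) : ResidueField 𝒪) = 0 := by
  have h : residue 𝒪 (p : 𝒪) = 0 := (residue_eq_zero_iff _).2 hp𝒪
  rwa [map_natCast] at h

variable {𝒪} in
/-- The residue field has characteristic `p` (from the standing hypotheses). -/
theorem hchar {p : ℕ} {ρbar : ResidualGaloisRep (ResidueField 𝒪)} {S Smin : Finset ℕ}
    (h : Hyp 𝒪 p ρbar S Smin) : ((p : ℕ) : ResidueField 𝒪) = 0 :=
  cast_eq_zero_of_mem h.hp𝒪

variable (p : ℕ) [Fact p.Prime]

/-- The coefficient module of pillar (S): `ad⁰ ρbar` over `𝔽_p`. -/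
noncomputable abbrev MM (ρbar : ResidualGaloisRep (ResidueField 𝒪))
    (hchar : ((p : ℕ) : ResidueField 𝒪) = 0) : Rep.{0} (ZMod p) Γ :=
  ad0F ρbar p hchar

/-- `c` vanishes on all inertia groups at the primes outside `T`. -/
def UnramOutside {k : Type} [Field k] (ρbar : ResidualGaloisRep k) (T : Finset ℕ)
    (c : Γ → Module.End k ρbar.V) : Prop :=
  ∀ q : ℕ, q.Prime → q ∉ T → ∀ P : ValuationSubring (AlgebraicClosure ℚ),
    P.LiesOverPrime q → ∀ σ ∈ P.inertiaSubgroupIn ℚ, c σ = 0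

/-- **BRIDGE** between plain cocycles and level cohomology. -/
def Bridge : Prop :=
  ∀ (ρbar : ResidualGaloisRep (ResidueField 𝒪)) (S Smin : Finset ℕ) (h : Hyp 𝒪 p ρbar S Smin)
    (T : Finset ℕ), Smin ⊆ T →
    (∀ c : Γ → Module.End (ResidueField 𝒪) ρbar.V, IsDefCocycle ρbar c → UnramOutside ρbar T c →
      toAd0 ρbar p (hchar h) c ∈
        LevelCoh28.Z1 (globalBasis (toPrimes T)) (MM 𝒪 p ρbar (hchar h))) ∧
    (∀ c : Γ → Module.End (ResidueField 𝒪) ρbar.V, IsDefCocycle ρbar c → UnramOutside ρbar T c →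
      ∀ q : Nat.Primes, res1 (toPrimes T) q (MM 𝒪 p ρbar (hchar h))
        (cls ρbar p (hchar h) T c) = locCls ρbar p (hchar h) q c) ∧
    (∀ c c' : Γ → Module.End (ResidueField 𝒪) ρbar.V, IsDefCocycle ρbar c → UnramOutside ρbar T c →
      IsDefCocycle ρbar c' → UnramOutside ρbar T c' →
      cls ρbar p (hchar h) T c = cls ρbar p (hchar h) T c' → Cohomologous ρbar c c') ∧
    (∀ c : Γ → Module.End (ResidueField 𝒪) ρbar.V, IsDefCocycle ρbar c → UnramOutside ρbar T c →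
      cls ρbar p (hchar h) T c = 0 → Cohomologous ρbar 0 c) ∧
    (∀ c : Γ → Module.End (ResidueField 𝒪) ρbar.V, IsDefCocycle ρbar c → UnramOutside ρbar T c →
      ∀ q : Nat.Primes, (q : ℕ) ∉ T →
        locCls ρbar p (hchar h) q c ∈ H1ur q (MM 𝒪 p ρbar (hchar h)))

/-- **GOOD**: `ad⁰ ρbar` is finite-dimensional, smooth and unramified outside `Smin`. -/
def GoodAd0 : Prop :=
  ∀ (ρbar : ResidualGaloisRep (ResidueField 𝒪)) (S Smin : Finset ℕ) (h : Hyp 𝒪 p ρbar S Smin),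
    IsGood (toPrimes Smin) (MM 𝒪 p ρbar (hchar h))

/-- **GLOB**: `H⁰(G_ℚ, ad⁰ ρbar) = 0`. -/
def GlobZero : Prop :=
  ∀ (ρbar : ResidualGaloisRep (ResidueField 𝒪)) (S Smin : Finset ℕ) (h : Hyp 𝒪 p ρbar S Smin),
    h0g (MM 𝒪 p ρbar (hchar h)) = 0

/-- **ARCH**: `dim H⁰(ℝ, ad⁰ ρbar) ≥ [k : 𝔽_p]` (complex conjugation has determinant `-1`). -/
def ArchLe : Prop :=
  ∀ (ρbar : ResidualGaloisRep (ResidueField 𝒪)) (S Smin : Finset ℕ) (h : Hyp 𝒪 p ρbar S Smin),
    dK p (ResidueField 𝒪) ≤ h0c (MM 𝒪 p ρbar (hchar h))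

/-- **LOC-P** (local condition at `p`, generic in `atp`): a subspace of `H¹(ℚ_p, ad⁰)` of size at most
`#H⁰(ℚ_p, ad⁰) · #k` containing the local classes of all def-cocycles satisfying `atp`. -/
def LocP
    (cond : Finset ℕ → Finset ℕ →
      ∀ ⦃A : Type⦄ [CommRing A] [IsLocalRing A] [Algebra 𝒪 A], GaloisRepAdic A → Prop)
    (atp : ∀ ρbar : ResidualGaloisRep (ResidueField 𝒪),
      (Γ → Module.End (ResidueField 𝒪) ρbar.V) → Prop) : Prop :=
  ∀ (ρbar : ResidualGaloisRep (ResidueField 𝒪)) (S Smin : Finset ℕ) (h : Hyp 𝒪 p ρbar S Smin),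
    cond Smin Smin (GaloisRepAdic.ofResidualGaloisRep ρbar) →
    ∃ L : Submodule (ZMod p) (H1l (pPrime p) (MM 𝒪 p ρbar (hchar h))),
      Nat.card L ≤
        Nat.card (Rep.res (primeLocalToGlobal (pPrime p)) (MM 𝒪 p ρbar (hchar h))).ρ.invariants *
          Nat.card (ResidueField 𝒪) ∧
      ∀ c : Γ → Module.End (ResidueField 𝒪) ρbar.V, IsDefCocycle ρbar c → atp ρbar c →
        locCls ρbar p (hchar h) (pPrime p) c ∈ L

/-- LOC-P, strict-ordinary. -/
def LocSO : Prop :=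
  LocP 𝒪 p (fun Smin T => condSO 𝒪 p Smin T) (fun ρbar => SOLocal ρbar p)

/-- LOC-P, flat. -/
def LocFL : Prop :=
  LocP 𝒪 p (fun Smin T => condFL 𝒪 p Smin T) (fun ρbar => FLLocal ρbar p)

/-- **LOC-UNIP** (primes `q ≠ p` of `Smin`: `ρbar` ramified, unipotent on inertia): a subspace of
`H¹(ℚ_q, ad⁰)` of size at most `#H⁰(ℚ_q, ad⁰)` containing the local classes of all def-cocycles
`c` with `tr (c σ ∘ ρbar σ) = 0` on inertia at `q`. -/
def LocUnip : Prop :=
  ∀ (ρbar : ResidualGaloisRep (ResidueField 𝒪)) (S Smin : Finset ℕ) (h : Hyp 𝒪 p ρbar S Smin)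
    (q : Nat.Primes), (q : ℕ) ≠ p → ¬ ρbar.IsUnramifiedAt q →
    (GaloisRepAdic.ofResidualGaloisRep ρbar).IsUnipotentOnInertiaAt q →
    ∃ L : Submodule (ZMod p) (H1l q (MM 𝒪 p ρbar (hchar h))),
      Nat.card L ≤
        Nat.card (Rep.res (primeLocalToGlobal q) (MM 𝒪 p ρbar (hchar h))).ρ.invariants ∧
      ∀ c : Γ → Module.End (ResidueField 𝒪) ρbar.V, IsDefCocycle ρbar c →
        (∀ P : ValuationSubring (AlgebraicClosure ℚ), P.LiesOverPrime q →
          ∀ σ ∈ P.inertiaSubgroupIn ℚ,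
            LinearMap.trace (ResidueField 𝒪) ρbar.V (c σ * ρbar.ρ σ) = 0) →
        locCls ρbar p (hchar h) q c ∈ L

/-- **LOC-UR** (primes `q ∉ Smin`, where `ρbar` is unramified): the unramified classes
`H1ur q M` (classes of level cocycles vanishing on inertia, `GWIface2_97.H1ur`) have dimension at most
`h⁰(ℚ_q, ad⁰)`. -/
def LocUr : Prop :=
  ∀ (ρbar : ResidualGaloisRep (ResidueField 𝒪)) (S Smin : Finset ℕ) (h : Hyp 𝒪 p ρbar S Smin)
    (q : Nat.Primes), (q : ℕ) ∉ Smin →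
    Module.finrank (ZMod p) (H1ur q (MM 𝒪 p ρbar (hchar h))) ≤ h0l q (MM 𝒪 p ρbar (hchar h))

/-- **LOC-TW** (Taylor–Wiles primes): `q ∉ S`, `q ≡ 1 mod p`, Frobenius with distinct eigenvalues in
`k`: `dim H⁰(ℚ_q, ad⁰(1)) ≤ [k : 𝔽_p]`. -/
def LocTW : Prop :=
  ∀ (ρbar : ResidualGaloisRep (ResidueField 𝒪)) (S Smin : Finset ℕ) (h : Hyp 𝒪 p ρbar S Smin)
    (q : Nat.Primes), (q : ℕ) ∉ S → p ∣ (q : ℕ) - 1 →
    (∀ P : ValuationSubring (AlgebraicClosure ℚ), P.LiesOverPrime q →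
      ∀ φ : Γ, P.IsFrobeniusAt φ q →
        ∃ α β : ResidueField 𝒪, α ≠ β ∧ LinearMap.charpoly (ρbar.ρ φ) = (X - C α) * (X - C β)) →
    h0l q (dual (MM 𝒪 p ρbar (hchar h))) ≤ dK p (ResidueField 𝒪)

open Classical in
/-- **G2 = TWKill**: Taylor–Wiles primes killing the dual Selmer group, for an arbitrary finite base set
`T0 ⊇ Smin` and an arbitrary TOTAL family `Ld` of local conditions on `dual M` (it will be applied to
`T0 = Smin ∪ S₀`, `S₀` the auxiliary set of the weak Greenberg–Wiles package, and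
`Ld v = perp v M (L v)`).  At the Taylor–Wiles primes the condition is `⊥`, elsewhere it is `Ld`.
The Taylor–Wiles primes avoid `S` (clause of `IsTWFamily`); they are allowed to lie in `T0 ∖ S`. -/
def TWKill : Prop :=
  ∀ (ρbar : ResidualGaloisRep (ResidueField 𝒪)) (S Smin : Finset ℕ) (h : Hyp 𝒪 p ρbar S Smin)
    (T0 : Finset ℕ), Smin ⊆ T0 →
    ∀ (Ld : ∀ v : Nat.Primes, Submodule (ZMod p) (H1l v (dual (MM 𝒪 p ρbar (hchar h))))),
    ∃ r : ℕ, ∀ n : ℕ, ∃ qv : Fin r → ℕ, IsTWFamily 𝒪 p ρbar S n qv ∧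
      Sel (toPrimes (T0 ∪ Finset.univ.image qv)) (dual (MM 𝒪 p ρbar (hchar h)))
        (fun v => if ((v.1 : Nat.Primes) : ℕ) ∈ Finset.univ.image qv then ⊥ else Ld v.1) = ⊥

end Fermat.Agent.TW.SIface72
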