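import Mathlib
import Fermat.Agent.S53.EvalNilp

/-!
# Programme TW (S56), brick D-surj (helper37)

A complete Noetherian local `𝒪`-algebra `R` with residue field `k = 𝒪/𝔪_𝒪` (finite) which has at
most `|k| ^ r` `𝒪`-algebra homomorphisms to the dual numbers `k[ε]` is a quotient of the power
series ring `𝒪⟦X₁, …, X_r⟧`.

Main statements (all in `Fermat.Agent.TW.TangentSurj37`):

* `liftX x hx : MvPowerSeries (Fin r) 𝒪 →ₐ[𝒪] R` with `X i ↦ x i` for `x i ∈ 𝔪_R`;
* `liftX_surjective` : surjective as soon as `𝔪_R ≤ (x) + 𝔪_𝒪 R`;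
* `exists_surjective_of_card_algHom_dualNumber_le` : the counting criterion;
* `exists_surjective_of_injective_to_module` : the same, from an injection of
  `R →ₐ[𝒪] k[ε]` into a `k`-vector space of dimension `≤ r`.
-/

set_option autoImplicit false
set_option linter.style.haveILetI false
set_option linter.unusedSectionVars false

namespace Fermat.Agent.TW.TangentSurj37

open IsLocalRing MvPowerSeries

noncomputable section

/-! ### 1. The homomorphism `𝒪⟦X⟧ → R` attached to a tuple in the maximal ideal -/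

section Lift

variable {𝒪 : Type} [CommRing 𝒪] {R : Type} [CommRing R] [IsLocalRing R] [Algebra 𝒪 R] {r : ℕ}

/-- The images of the `x i` in `R ⧸ 𝔪 ^ n`. -/
def uMod (x : Fin r → R) (n : ℕ) : Fin r → R ⧸ maximalIdeal R ^ n :=
  fun i => Ideal.Quotient.mk _ (x i)

theorem span_uMod_pow (x : Fin r → R) (hx : ∀ i, x i ∈ maximalIdeal R) (n : ℕ) :
    Ideal.span (Set.range (uMod x n)) ^ n = ⊥ := by
  have h1 : Ideal.span (Set.range (uMod x n)) ≤
      Ideal.map (Ideal.Quotient.mk (maximalIdeal R ^ n)) (maximalIdeal R) := by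
    rw [Ideal.span_le]
    rintro _ ⟨i, rfl⟩
    exact Ideal.mem_map_of_mem _ (hx i)
  have h2 := Ideal.pow_right_mono h1 n
  rw [← Ideal.map_pow, Ideal.map_quotient_self] at h2
  exact le_bot_iff.mp h2

/-- Evaluation at `x` modulo `𝔪 ^ n`. -/
def evalLevel (x : Fin r → R) (hx : ∀ i, x i ∈ maximalIdeal R) (n : ℕ) :
    MvPowerSeries (Fin r) 𝒪 →ₐ[𝒪] R ⧸ maximalIdeal R ^ n :=
  Fermat.Agent.S53.evalNilp (uMod x n) n (span_uMod_pow x hx n)

theorem evalLevel_X (x : Fin r → R) (hx : ∀ i, x i ∈ maximalIdeal R) (n : ℕ) (i : Fin r) :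
    evalLevel (𝒪 := 𝒪) x hx n (X i) = Ideal.Quotient.mk _ (x i) :=
  Fermat.Agent.S53.evalNilp_X _ _ _ i

theorem evalLevel_compat (x : Fin r → R) (hx : ∀ i, x i ∈ maximalIdeal R) {m n : ℕ}
    (hle : m ≤ n) :
    (Ideal.Quotient.factorₐ 𝒪 (Ideal.pow_le_pow_right hle)).comp (evalLevel (𝒪 := 𝒪) x hx n) =
      evalLevel x hx m := by
  apply Fermat.Agent.S53.eq_evalNilp
  intro i
  rw [AlgHom.comp_apply, evalLevel_X]
  rfl

variable [IsAdicComplete (maximalIdeal R) R]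

/-- The `𝒪`-algebra homomorphism `𝒪⟦X₁, …, X_r⟧ → R` with `X i ↦ x i`. -/
def liftX (x : Fin r → R) (hx : ∀ i, x i ∈ maximalIdeal R) : MvPowerSeries (Fin r) 𝒪 →ₐ[𝒪] R :=
  IsAdicComplete.liftAlgHom (maximalIdeal R) (evalLevel x hx)
    (fun hle => evalLevel_compat x hx hle)

theorem mk_liftX (x : Fin r → R) (hx : ∀ i, x i ∈ maximalIdeal R) (n : ℕ)
    (p : MvPowerSeries (Fin r) 𝒪) :
    Ideal.Quotient.mk (maximalIdeal R ^ n) (liftX x hx p) = evalLevel x hx n p := by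
  have h := IsAdicComplete.mkₐ_comp_liftAlgHom (maximalIdeal R) (evalLevel (𝒪 := 𝒪) x hx)
    (fun hle => evalLevel_compat x hx hle) n
  exact DFunLike.congr_fun h p

theorem liftX_X (x : Fin r → R) (hx : ∀ i, x i ∈ maximalIdeal R) (i : Fin r) :
    liftX (𝒪 := 𝒪) x hx (X i) = x i := by
  rw [IsHausdorff.eq_iff_smodEq (I := maximalIdeal R)]
  intro n
  rw [SModEq, smul_eq_mul, Ideal.mul_top]
  exact (mk_liftX x hx n (X i)).trans (evalLevel_X x hx n i)

end Lift

/-! ### 2. Surjectivity -/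

section Surj

variable {𝒪 : Type} [CommRing 𝒪] [IsLocalRing 𝒪] [IsAdicComplete (maximalIdeal 𝒪) 𝒪]
  {R : Type} [CommRing R] [IsLocalRing R] [IsNoetherianRing R] [Algebra 𝒪 R]
  [IsLocalHom (algebraMap 𝒪 R)] [IsAdicComplete (maximalIdeal R) R] {r : ℕ}

omit [IsAdicComplete (maximalIdeal 𝒪) 𝒪] [IsNoetherianRing R]
  [IsAdicComplete (maximalIdeal R) R] in
theorem map_algebraMap_maximalIdeal_le :
    Ideal.map (algebraMap 𝒪 R) (maximalIdeal 𝒪) ≤ maximalIdeal R := by
  rw [Ideal.map_le_iff_le_comap]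
  intro a ha
  rw [Ideal.mem_comap, mem_maximalIdeal, mem_nonunits_iff]
  intro hu
  exact ha (isUnit_of_map_unit (algebraMap 𝒪 R) a hu)

/-- If `𝔪_R ≤ (x) + 𝔪_𝒪 R` then `𝒪 → R ⧸ (x)` is surjective. -/
theorem surjective_mk_comp_algebraMap
    (hres : Function.Surjective (residue R ∘ algebraMap 𝒪 R))
    (x : Fin r → R) (hx : ∀ i, x i ∈ maximalIdeal R)
    (hgen : maximalIdeal R ≤ Ideal.span (Set.range x) ⊔
      Ideal.map (algebraMap 𝒪 R) (maximalIdeal 𝒪)) :
    Function.Surjective ((Ideal.Quotient.mk (Ideal.span (Set.range x))).comp (algebraMap 𝒪 R)) := by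
  set Ix : Ideal R := Ideal.span (Set.range x) with hIx
  have hIxm : Ix ≤ maximalIdeal R := Ideal.span_le.mpr (by rintro _ ⟨i, rfl⟩; exact hx i)
  have hIxne : Ix ≠ ⊤ := fun h => (Ideal.IsMaximal.ne_top (inferInstance : (maximalIdeal R).IsMaximal))
    (top_le_iff.mp (h ▸ hIxm))
  haveI : Nontrivial (R ⧸ Ix) := Ideal.Quotient.nontrivial_iff.mpr hIxne
  haveI : IsLocalRing (R ⧸ Ix) :=
    IsLocalRing.of_surjective' (Ideal.Quotient.mk Ix) Ideal.Quotient.mk_surjective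
  set g : 𝒪 →+* R ⧸ Ix := (Ideal.Quotient.mk Ix).comp (algebraMap 𝒪 R) with hg
  have hmapg : Ideal.map g (maximalIdeal 𝒪) =
      Ideal.map (Ideal.Quotient.mk Ix) (Ideal.map (algebraMap 𝒪 R) (maximalIdeal 𝒪)) := by
    rw [hg, Ideal.map_map]
  have h2 : Ideal.map (Ideal.Quotient.mk Ix) (maximalIdeal R) ≠ ⊤ := by
    intro h
    have h3 := congrArg (Ideal.comap (Ideal.Quotient.mk Ix)) h
    rw [Ideal.comap_map_of_surjective _ Ideal.Quotient.mk_surjective, Ideal.comap_top,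
      ← RingHom.ker_eq_comap_bot, Ideal.mk_ker, sup_eq_left.mpr hIxm] at h3
    exact (Ideal.IsMaximal.ne_top (inferInstance : (maximalIdeal R).IsMaximal)) h3
  have hmapne : Ideal.map g (maximalIdeal 𝒪) ≠ ⊤ := by
    intro htop
    apply h2
    rw [eq_top_iff, ← htop, hmapg]
    exact Ideal.map_mono map_algebraMap_maximalIdeal_le
  haveI : IsHausdorff (Ideal.map g (maximalIdeal 𝒪)) (R ⧸ Ix) :=
    IsHausdorff.of_isLocalRing _ _ hmapne
  apply surjective_of_mk_map_comp_surjective (I := maximalIdeal 𝒪) g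
  intro q
  obtain ⟨q', rfl⟩ := Ideal.Quotient.mk_surjective q
  obtain ⟨y, rfl⟩ := Ideal.Quotient.mk_surjective q'
  obtain ⟨c, hc⟩ := hres (residue R y)
  refine ⟨c, ?_⟩
  have hym : y - algebraMap 𝒪 R c ∈ maximalIdeal R := by
    rw [← residue_eq_zero_iff, map_sub, sub_eq_zero]
    exact hc.symm
  have hmem : Ideal.Quotient.mk Ix (y - algebraMap 𝒪 R c) ∈ Ideal.map g (maximalIdeal 𝒪) := by
    have h4 := Ideal.mem_map_of_mem (Ideal.Quotient.mk Ix) (hgen hym)
    rw [Ideal.map_sup, Ideal.map_quotient_self, bot_sup_eq, ← hmapg] at h4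
    exact h4
  rw [RingHom.comp_apply, eq_comm, ← sub_eq_zero, ← map_sub, Ideal.Quotient.eq_zero_iff_mem]
  have : Ideal.Quotient.mk Ix y - g c = Ideal.Quotient.mk Ix (y - algebraMap 𝒪 R c) := by
    rw [map_sub]; rfl
  rw [this]
  exact hmem

/-- If `𝔪_R ≤ (x) + 𝔪_𝒪 R` then `liftX x` is surjective. -/
theorem liftX_surjective
    (hres : Function.Surjective (residue R ∘ algebraMap 𝒪 R))
    (x : Fin r → R) (hx : ∀ i, x i ∈ maximalIdeal R)
    (hgen : maximalIdeal R ≤ Ideal.span (Set.range x) ⊔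
      Ideal.map (algebraMap 𝒪 R) (maximalIdeal 𝒪)) :
    Function.Surjective (liftX (𝒪 := 𝒪) x hx) := by
  set V : Ideal (MvPowerSeries (Fin r) 𝒪) :=
    Ideal.span (Set.range (X : Fin r → MvPowerSeries (Fin r) 𝒪)) with hV
  set γ : MvPowerSeries (Fin r) 𝒪 →+* R := (liftX (𝒪 := 𝒪) x hx).toRingHom with hγ
  have hmapV : Ideal.map γ V = Ideal.span (Set.range x) := by
    rw [hV, Ideal.map_span]
    congr 1
    ext y
    constructor
    · rintro ⟨_, ⟨i, rfl⟩, rfl⟩
      exact ⟨i, (liftX_X x hx i).symm⟩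
    · rintro ⟨i, rfl⟩
      exact ⟨X i, ⟨i, rfl⟩, liftX_X x hx i⟩
  have hIxm : Ideal.span (Set.range x) ≤ maximalIdeal R :=
    Ideal.span_le.mpr (by rintro _ ⟨i, rfl⟩; exact hx i)
  have hne : Ideal.map γ V ≠ ⊤ := by
    rw [hmapV]
    exact fun h => (Ideal.IsMaximal.ne_top (inferInstance : (maximalIdeal R).IsMaximal))
      (top_le_iff.mp (h ▸ hIxm))
  haveI : IsHausdorff (Ideal.map γ V) R := IsHausdorff.of_isLocalRing _ _ hne
  have hsurj : Function.Surjective γ := by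
    apply surjective_of_mk_map_comp_surjective (I := V) γ
    intro q
    obtain ⟨y, rfl⟩ := Ideal.Quotient.mk_surjective q
    obtain ⟨c, hc⟩ := surjective_mk_comp_algebraMap hres x hx hgen
      (Ideal.Quotient.mk (Ideal.span (Set.range x)) y)
    refine ⟨C c, ?_⟩
    rw [RingHom.comp_apply] at hc ⊢
    rw [Ideal.Quotient.eq] at hc ⊢
    rw [hmapV]
    have hC : γ (C c) = algebraMap 𝒪 R c := by
      rw [hγ]
      exact (liftX (𝒪 := 𝒪) x hx).commutes c
    rw [hC]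
    exact hc
  exact hsurj

end Surj

/-! ### 3. The residue map to `k = 𝒪 ⧸ 𝔪_𝒪` -/

section Resk

variable {𝒪 : Type} [CommRing 𝒪] [IsLocalRing 𝒪]
  {R : Type} [CommRing R] [IsLocalRing R] [Algebra 𝒪 R] [IsLocalHom (algebraMap 𝒪 R)]

theorem exists_sub_mem (hres : Function.Surjective (residue R ∘ algebraMap 𝒪 R)) (y : R) :
    ∃ c : 𝒪, y - algebraMap 𝒪 R c ∈ maximalIdeal R := by
  obtain ⟨c, hc⟩ := hres (residue R y)
  refine ⟨c, ?_⟩
  rw [← residue_eq_zero_iff, map_sub, sub_eq_zero]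
  exact hc.symm

theorem algebraMap_mem_maximalIdeal_iff (c : 𝒪) :
    algebraMap 𝒪 R c ∈ maximalIdeal R ↔ c ∈ maximalIdeal 𝒪 := by
  constructor
  · intro h
    rw [mem_maximalIdeal, mem_nonunits_iff] at h ⊢
    exact fun hu => h (hu.map _)
  · intro h
    exact map_algebraMap_maximalIdeal_le (Ideal.mem_map_of_mem _ h)

/-- The field isomorphism `k ≃ R ⧸ 𝔪_R`. -/
def residueEquiv (hres : Function.Surjective (residue R ∘ algebraMap 𝒪 R)) :
    ResidueField 𝒪 ≃+* ResidueField R :=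
  RingEquiv.ofBijective (ResidueField.map (algebraMap 𝒪 R))
    ⟨(ResidueField.map (algebraMap 𝒪 R)).injective, fun q => by
      obtain ⟨c, hc⟩ := hres q
      exact ⟨residue 𝒪 c, hc⟩⟩

/-- The residue map `R → k` as an `𝒪`-algebra homomorphism. -/
def resk (hres : Function.Surjective (residue R ∘ algebraMap 𝒪 R)) : R →ₐ[𝒪] ResidueField 𝒪 where
  toRingHom := ((residueEquiv hres).symm : ResidueField R →+* ResidueField 𝒪).comp (residue R)
  commutes' c := by
    show (residueEquiv hres).symm (residue R (algebraMap 𝒪 R c)) = _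
    rw [RingEquiv.symm_apply_eq]
    rfl

theorem resk_apply (hres : Function.Surjective (residue R ∘ algebraMap 𝒪 R)) (y : R) :
    resk hres y = (residueEquiv hres).symm (residue R y) := rfl

theorem resk_eq_zero_iff (hres : Function.Surjective (residue R ∘ algebraMap 𝒪 R)) (y : R) :
    resk hres y = 0 ↔ y ∈ maximalIdeal R := by
  rw [resk_apply, map_eq_zero_iff _ (residueEquiv hres).symm.injective, residue_eq_zero_iff]

theorem resk_algebraMap (hres : Function.Surjective (residue R ∘ algebraMap 𝒪 R)) (c : 𝒪) :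
    resk hres (algebraMap 𝒪 R c) = residue 𝒪 c :=
  (resk hres).commutes c

theorem resk_eq_of_sub_mem (hres : Function.Surjective (residue R ∘ algebraMap 𝒪 R)) {y : R}
    {c : 𝒪} (h : y - algebraMap 𝒪 R c ∈ maximalIdeal R) : resk hres y = residue 𝒪 c := by
  have h1 := (resk_eq_zero_iff hres _).mpr h
  rw [map_sub, sub_eq_zero, resk_algebraMap] at h1
  exact h1

/-- Every `𝒪`-algebra homomorphism `R → k` is the residue map. -/
theorem algHom_eq_resk (hres : Function.Surjective (residue R ∘ algebraMap 𝒪 R))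
    (ψ : R →ₐ[𝒪] ResidueField 𝒪) : ψ = resk hres := by
  have hker : ∀ m ∈ maximalIdeal R, ψ m = 0 := by
    intro m hm
    by_contra hne
    have hu : IsUnit (ψ m) := isUnit_iff_ne_zero.mpr hne
    -- `ψ m = residue c` for some unit `c`; then `m - c` is killed ... use locality instead
    obtain ⟨c, hc⟩ := residue_surjective (ψ m)
    have hcu : IsUnit c := by
      by_contra hcn
      have : residue 𝒪 c = 0 := (residue_eq_zero_iff c).mpr hcn
      exact hne (hc ▸ this)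
    have h1 : ψ (m - algebraMap 𝒪 R c) = 0 := by
      rw [map_sub, AlgHom.commutes, ← hc]
      exact sub_self _
    have h2 : IsUnit (m - algebraMap 𝒪 R c) := by
      have h3 : IsUnit (algebraMap 𝒪 R c) := hcu.map _
      by_contra hnu
      have h4 : m - algebraMap 𝒪 R c ∈ maximalIdeal R := hnu
      have h5 : algebraMap 𝒪 R c ∈ maximalIdeal R := by
        have := sub_mem hm h4
        simpa using this
      exact h5 h3
    have h6 := h2.map ψ
    rw [h1] at h6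
    exact not_isUnit_zero h6
  ext y
  obtain ⟨c, hc⟩ := exists_sub_mem hres y
  have h1 := hker _ hc
  rw [map_sub, sub_eq_zero, AlgHom.commutes] at h1
  rw [h1, resk_eq_of_sub_mem hres hc]
  rfl

end Resk

/-! ### 4. Homomorphisms to the dual numbers -/

section Dual

variable {𝒪 : Type} [CommRing 𝒪] [IsLocalRing 𝒪]
  {R : Type} [CommRing R] [IsLocalRing R] [Algebra 𝒪 R] [IsLocalHom (algebraMap 𝒪 R)]
  [alg : Algebra 𝒪 (DualNumber (ResidueField 𝒪))]

/-- The homomorphism `R → k[ε]`, `y ↦ res y + lam y ε`, attached to a derivation-like additive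
functional `lam`. -/
def derHom
    (halg : ∀ c : 𝒪, algebraMap 𝒪 (DualNumber (ResidueField 𝒪)) c =
      TrivSqZeroExt.inl (residue 𝒪 c))
    (res : R →ₐ[𝒪] ResidueField 𝒪) (lam : R →+ ResidueField 𝒪)
    (hmul : ∀ x y, lam (x * y) = res x * lam y + res y * lam x)
    (hconst : ∀ c : 𝒪, lam (algebraMap 𝒪 R c) = 0) :
    R →ₐ[𝒪] DualNumber (ResidueField 𝒪) where
  toFun x := TrivSqZeroExt.inl (res x) + TrivSqZeroExt.inr (lam x)
  map_one' := by
    have h1 : lam 1 = 0 := by simpa using hconst 1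
    rw [h1, map_one]
    simp
  map_mul' x y := by
    apply TrivSqZeroExt.ext
    · simp
    · simp [hmul]
      ring
  map_zero' := by simp
  map_add' x y := by
    simp only [map_add, TrivSqZeroExt.inl_add, TrivSqZeroExt.inr_add]
    abel
  commutes' c := by
    show TrivSqZeroExt.inl (res (algebraMap 𝒪 R c)) + TrivSqZeroExt.inr (lam (algebraMap 𝒪 R c)) = _
    rw [hconst, AlgHom.commutes, halg, ResidueField.algebraMap_eq]
    simp

theorem derHom_apply_snd
    (halg : ∀ c : 𝒪, algebraMap 𝒪 (DualNumber (ResidueField 𝒪)) c =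
      TrivSqZeroExt.inl (residue 𝒪 c))
    (res : R →ₐ[𝒪] ResidueField 𝒪) (lam : R →+ ResidueField 𝒪)
    (hmul : ∀ x y, lam (x * y) = res x * lam y + res y * lam x)
    (hconst : ∀ c : 𝒪, lam (algebraMap 𝒪 R c) = 0) (x : R) :
    (derHom halg res lam hmul hconst x).snd = lam x := by
  show (TrivSqZeroExt.inl (res x) + TrivSqZeroExt.inr (lam x) :
    DualNumber (ResidueField 𝒪)).snd = lam x
  simp

/-- The first projection `k[ε] → k` as an `𝒪`-algebra homomorphism. -/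
def fstAlg
    (halg : ∀ c : 𝒪, algebraMap 𝒪 (DualNumber (ResidueField 𝒪)) c =
      TrivSqZeroExt.inl (residue 𝒪 c)) :
    DualNumber (ResidueField 𝒪) →ₐ[𝒪] ResidueField 𝒪 where
  toRingHom := (TrivSqZeroExt.fstHom (ResidueField 𝒪) (ResidueField 𝒪) (ResidueField 𝒪) :
    DualNumber (ResidueField 𝒪) →+* ResidueField 𝒪)
  commutes' c := by
    show (algebraMap 𝒪 (DualNumber (ResidueField 𝒪)) c).fst = _
    rw [halg, TrivSqZeroExt.fst_inl]
    rfl

theorem fst_apply_eq_resk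
    (halg : ∀ c : 𝒪, algebraMap 𝒪 (DualNumber (ResidueField 𝒪)) c =
      TrivSqZeroExt.inl (residue 𝒪 c))
    (hres : Function.Surjective (residue R ∘ algebraMap 𝒪 R))
    (φ : R →ₐ[𝒪] DualNumber (ResidueField 𝒪)) (y : R) : (φ y).fst = resk hres y := by
  have h := algHom_eq_resk hres ((fstAlg halg).comp φ)
  exact DFunLike.congr_fun h y

theorem snd_apply_mul
    (halg : ∀ c : 𝒪, algebraMap 𝒪 (DualNumber (ResidueField 𝒪)) c =
      TrivSqZeroExt.inl (residue 𝒪 c))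
    (hres : Function.Surjective (residue R ∘ algebraMap 𝒪 R))
    (φ : R →ₐ[𝒪] DualNumber (ResidueField 𝒪)) (y z : R) :
    (φ (y * z)).snd = resk hres y * (φ z).snd + resk hres z * (φ y).snd := by
  rw [map_mul, TrivSqZeroExt.snd_mul, fst_apply_eq_resk halg hres, fst_apply_eq_resk halg hres]
  simp [mul_comm]

theorem snd_apply_algebraMap
    (halg : ∀ c : 𝒪, algebraMap 𝒪 (DualNumber (ResidueField 𝒪)) c =
      TrivSqZeroExt.inl (residue 𝒪 c))
    (φ : R →ₐ[𝒪] DualNumber (ResidueField 𝒪)) (c : 𝒪) :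
    (φ (algebraMap 𝒪 R c)).snd = 0 := by
  rw [AlgHom.commutes, halg, TrivSqZeroExt.snd_inl]

/-- Two homomorphisms `R → k[ε]` whose `ε`-components agree on a generating set of `𝔪_R`
are equal. -/
theorem algHom_ext_of_snd_eq_on
    (halg : ∀ c : 𝒪, algebraMap 𝒪 (DualNumber (ResidueField 𝒪)) c =
      TrivSqZeroExt.inl (residue 𝒪 c))
    (hres : Function.Surjective (residue R ∘ algebraMap 𝒪 R))
    (S : Set R) (hS : Ideal.span S = maximalIdeal R)
    (φ φ' : R →ₐ[𝒪] DualNumber (ResidueField 𝒪)) (h : ∀ s ∈ S, (φ s).snd = (φ' s).snd) :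
    φ = φ' := by
  have hm : ∀ y ∈ maximalIdeal R, (φ y).snd = (φ' y).snd := by
    intro y hy
    rw [← hS] at hy
    refine Submodule.span_induction (p := fun y _ => (φ y).snd = (φ' y).snd) ?_ ?_ ?_ ?_ hy
    · intro s hs
      exact h s hs
    · simp
    · intro a b _ _ ha hb
      rw [map_add, map_add, TrivSqZeroExt.snd_add, TrivSqZeroExt.snd_add, ha, hb]
    · intro a b hb hab
      have hbm : b ∈ maximalIdeal R := hS ▸ hb
      have h0 : resk hres b = 0 := (resk_eq_zero_iff hres b).mpr hbm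
      rw [smul_eq_mul, snd_apply_mul halg hres, snd_apply_mul halg hres, hab, h0]
      simp
  ext y
  · rw [fst_apply_eq_resk halg hres, fst_apply_eq_resk halg hres]
  · obtain ⟨c, hc⟩ := exists_sub_mem hres y
    have h1 := hm _ hc
    rw [map_sub, map_sub, TrivSqZeroExt.snd_sub, TrivSqZeroExt.snd_sub,
      snd_apply_algebraMap halg, snd_apply_algebraMap halg, sub_zero, sub_zero] at h1
    exact h1

/-- There are only finitely many `𝒪`-algebra homomorphisms `R → k[ε]`. -/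
theorem finite_algHom_dualNumber [IsNoetherianRing R] [Finite (ResidueField 𝒪)]
    (halg : ∀ c : 𝒪, algebraMap 𝒪 (DualNumber (ResidueField 𝒪)) c =
      TrivSqZeroExt.inl (residue 𝒪 c))
    (hres : Function.Surjective (residue R ∘ algebraMap 𝒪 R)) :
    Finite (R →ₐ[𝒪] DualNumber (ResidueField 𝒪)) := by
  obtain ⟨S, hS⟩ := (isNoetherianRing_iff_ideal_fg R).mp inferInstance (maximalIdeal R)
  let F : (R →ₐ[𝒪] DualNumber (ResidueField 𝒪)) → ({x // x ∈ S} → ResidueField 𝒪) :=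
    fun φ s => (φ s.1).snd
  refine Finite.of_injective F ?_
  intro φ φ' hF
  refine algHom_ext_of_snd_eq_on halg hres (S : Set R) hS φ φ' ?_
  intro s hs
  exact congrFun hF ⟨s, hs⟩

end Dual

/-! ### 5. The cotangent space `𝔪_R ⧸ (𝔪_R² + 𝔪_𝒪 R)` as a `k`-vector space -/

section Cotangent

variable (𝒪 : Type) [CommRing 𝒪] [IsLocalRing 𝒪]
  (R : Type) [CommRing R] [IsLocalRing R] [Algebra 𝒪 R] [IsLocalHom (algebraMap 𝒪 R)]

/-- `J = 𝔪_R² + 𝔪_𝒪 R`. -/
def tanIdeal : Ideal R :=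
  maximalIdeal R ^ 2 ⊔ Ideal.map (algebraMap 𝒪 R) (maximalIdeal 𝒪)

theorem tanIdeal_le : tanIdeal 𝒪 R ≤ maximalIdeal R :=
  sup_le (Ideal.pow_le_self two_ne_zero) map_algebraMap_maximalIdeal_le

theorem mul_mem_tanIdeal {a b : R} (ha : a ∈ maximalIdeal R) (hb : b ∈ maximalIdeal R) :
    a * b ∈ tanIdeal 𝒪 R := by
  refine (le_sup_left : maximalIdeal R ^ 2 ≤ tanIdeal 𝒪 R) ?_
  rw [pow_two]
  exact Ideal.mul_mem_mul ha hb

theorem algebraMap_mem_tanIdeal {c : 𝒪} (hc : c ∈ maximalIdeal 𝒪) :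
    algebraMap 𝒪 R c ∈ tanIdeal 𝒪 R :=
  (le_sup_right : _ ≤ tanIdeal 𝒪 R) (Ideal.mem_map_of_mem _ hc)

theorem isTorsionBySet_tanQuot :
    Module.IsTorsionBySet 𝒪 (R ⧸ tanIdeal 𝒪 R) (maximalIdeal 𝒪 : Set 𝒪) := by
  intro q a
  obtain ⟨b, rfl⟩ := Ideal.Quotient.mk_surjective q
  have h1 : (a : 𝒪) • (Ideal.Quotient.mk (tanIdeal 𝒪 R) b) =
      Ideal.Quotient.mk (tanIdeal 𝒪 R) (algebraMap 𝒪 R a * b) := by
    rw [← Algebra.smul_def]; rfl
  rw [h1, Ideal.Quotient.eq_zero_iff_mem]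
  exact (tanIdeal 𝒪 R).mul_mem_right _ (algebraMap_mem_tanIdeal 𝒪 R a.2)

/-- The `k`-vector space structure of `R ⧸ J`. -/
@[reducible] def tanModule : Module (ResidueField 𝒪) (R ⧸ tanIdeal 𝒪 R) :=
  ((isTorsionBySet_tanQuot 𝒪 R).module : Module (𝒪 ⧸ maximalIdeal 𝒪) (R ⧸ tanIdeal 𝒪 R))

attribute [local instance] tanModule

theorem residue_smul_mk (c : 𝒪) (b : R) :
    (residue 𝒪 c) • (Ideal.Quotient.mk (tanIdeal 𝒪 R) b) =
      Ideal.Quotient.mk (tanIdeal 𝒪 R) (algebraMap 𝒪 R c * b) := by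
  have h : (residue 𝒪 c) • (Ideal.Quotient.mk (tanIdeal 𝒪 R) b) =
      c • (Ideal.Quotient.mk (tanIdeal 𝒪 R) b) :=
    Module.IsTorsionBySet.mk_smul (isTorsionBySet_tanQuot 𝒪 R) c _
  rw [h, ← Algebra.smul_def]; rfl

/-- The image of `𝔪_R` in `R ⧸ J`, a `k`-subspace. -/
def tanSub : Submodule (ResidueField 𝒪) (R ⧸ tanIdeal 𝒪 R) where
  carrier := {q | ∃ y ∈ maximalIdeal R, Ideal.Quotient.mk (tanIdeal 𝒪 R) y = q}
  add_mem' := by
    rintro _ _ ⟨y, hy, rfl⟩ ⟨z, hz, rfl⟩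
    exact ⟨y + z, add_mem hy hz, map_add _ _ _⟩
  zero_mem' := ⟨0, zero_mem _, map_zero _⟩
  smul_mem' := by
    rintro κ _ ⟨y, hy, rfl⟩
    obtain ⟨c, rfl⟩ := residue_surjective κ
    exact ⟨algebraMap 𝒪 R c * y, Ideal.mul_mem_left _ _ hy, (residue_smul_mk 𝒪 R c y).symm⟩

theorem mk_mem_tanSub {y : R} (hy : y ∈ maximalIdeal R) :
    Ideal.Quotient.mk (tanIdeal 𝒪 R) y ∈ tanSub 𝒪 R :=
  ⟨y, hy, rfl⟩

theorem mk_one_notMem_tanSub : Ideal.Quotient.mk (tanIdeal 𝒪 R) (1 : R) ∉ tanSub 𝒪 R := by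
  rintro ⟨y, hy, hq⟩
  rw [Ideal.Quotient.eq] at hq
  have h1 : (1 : R) ∈ maximalIdeal R := by
    have h2 := sub_mem hy (tanIdeal_le 𝒪 R hq)
    rwa [sub_sub_cancel] at h2
  exact (Ideal.ne_top_iff_one _).mp (Ideal.IsMaximal.ne_top inferInstance) h1

variable {𝒪 R}

theorem mk_mul_eq_smul (hres : Function.Surjective (residue R ∘ algebraMap 𝒪 R))
    (a : R) {y : R} (hy : y ∈ maximalIdeal R) :
    Ideal.Quotient.mk (tanIdeal 𝒪 R) (a * y) =
      resk hres a • Ideal.Quotient.mk (tanIdeal 𝒪 R) y := by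
  obtain ⟨c, hc⟩ := exists_sub_mem hres a
  rw [resk_eq_of_sub_mem hres hc, residue_smul_mk, Ideal.Quotient.eq]
  have : a * y - algebraMap 𝒪 R c * y = (a - algebraMap 𝒪 R c) * y := by ring
  rw [this]
  exact mul_mem_tanIdeal 𝒪 R hc hy

/-- `𝔪_R ⧸ J` is finite dimensional. -/
theorem finiteDimensional_tanSub [IsNoetherianRing R]
    (hres : Function.Surjective (residue R ∘ algebraMap 𝒪 R)) :
    FiniteDimensional (ResidueField 𝒪) (tanSub 𝒪 R) := by
  obtain ⟨S, hS⟩ := (isNoetherianRing_iff_ideal_fg R).mp inferInstance (maximalIdeal R)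
  have hle : tanSub 𝒪 R ≤ Submodule.span (ResidueField 𝒪)
      ((Ideal.Quotient.mk (tanIdeal 𝒪 R)) '' (S : Set R)) := by
    rintro _ ⟨y, hy, rfl⟩
    rw [← hS] at hy
    refine Submodule.span_induction (p := fun y _ => Ideal.Quotient.mk (tanIdeal 𝒪 R) y ∈
      Submodule.span (ResidueField 𝒪) ((Ideal.Quotient.mk (tanIdeal 𝒪 R)) '' (S : Set R)))
      ?_ ?_ ?_ ?_ hy
    · intro s hs
      exact Submodule.subset_span ⟨s, hs, rfl⟩
    · rw [map_zero]; exact Submodule.zero_mem _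
    · intro a b _ _ ha hb
      rw [map_add]; exact Submodule.add_mem _ ha hb
    · intro a b hb hab
      have hbm : b ∈ maximalIdeal R := hS ▸ hb
      rw [smul_eq_mul, mk_mul_eq_smul hres a hbm]
      exact Submodule.smul_mem _ _ hab
  haveI : FiniteDimensional (ResidueField 𝒪) (Submodule.span (ResidueField 𝒪)
      ((Ideal.Quotient.mk (tanIdeal 𝒪 R)) '' (S : Set R))) :=
    FiniteDimensional.span_of_finite _ ((Finset.finite_toSet S).image _)
  exact Submodule.finiteDimensional_of_le hle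

/-- The additive functional `R → k` attached to a `k`-linear functional on `R ⧸ J`. -/
def lamOf (g : (R ⧸ tanIdeal 𝒪 R) →ₗ[ResidueField 𝒪] ResidueField 𝒪) : R →+ ResidueField 𝒪 where
  toFun y := g (Ideal.Quotient.mk (tanIdeal 𝒪 R) y)
  map_zero' := by rw [map_zero, map_zero]
  map_add' a b := by rw [map_add, map_add]

theorem lamOf_apply (g : (R ⧸ tanIdeal 𝒪 R) →ₗ[ResidueField 𝒪] ResidueField 𝒪) (y : R) :
    lamOf g y = g (Ideal.Quotient.mk (tanIdeal 𝒪 R) y) := rfl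

theorem lamOf_algebraMap_mul (g : (R ⧸ tanIdeal 𝒪 R) →ₗ[ResidueField 𝒪] ResidueField 𝒪)
    (c : 𝒪) (b : R) : lamOf g (algebraMap 𝒪 R c * b) = residue 𝒪 c * lamOf g b := by
  rw [lamOf_apply, ← residue_smul_mk, map_smul, smul_eq_mul, lamOf_apply]

theorem lamOf_const (g : (R ⧸ tanIdeal 𝒪 R) →ₗ[ResidueField 𝒪] ResidueField 𝒪)
    (h1 : g (Ideal.Quotient.mk (tanIdeal 𝒪 R) 1) = 0) (c : 𝒪) :
    lamOf g (algebraMap 𝒪 R c) = 0 := by
  have := lamOf_algebraMap_mul g c 1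
  rw [mul_one, lamOf_apply g 1, h1, mul_zero] at this
  exact this

theorem lamOf_mul (hres : Function.Surjective (residue R ∘ algebraMap 𝒪 R))
    (g : (R ⧸ tanIdeal 𝒪 R) →ₗ[ResidueField 𝒪] ResidueField 𝒪)
    (h1 : g (Ideal.Quotient.mk (tanIdeal 𝒪 R) 1) = 0) (y z : R) :
    lamOf g (y * z) = resk hres y * lamOf g z + resk hres z * lamOf g y := by
  obtain ⟨c, hc⟩ := exists_sub_mem hres y
  obtain ⟨c', hc'⟩ := exists_sub_mem hres z
  have hy : resk hres y = residue 𝒪 c := resk_eq_of_sub_mem hres hc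
  have hz : resk hres z = residue 𝒪 c' := resk_eq_of_sub_mem hres hc'
  have e : y * z = (y - algebraMap 𝒪 R c) * (z - algebraMap 𝒪 R c') + algebraMap 𝒪 R c' * y
      + algebraMap 𝒪 R c * z - algebraMap 𝒪 R (c * c') := by
    rw [map_mul]; ring
  have h2 : lamOf g ((y - algebraMap 𝒪 R c) * (z - algebraMap 𝒪 R c')) = 0 := by
    rw [lamOf_apply, Ideal.Quotient.eq_zero_iff_mem.mpr (mul_mem_tanIdeal 𝒪 R hc hc'), map_zero]
  rw [e, map_sub, map_add, map_add, h2, lamOf_algebraMap_mul, lamOf_algebraMap_mul,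
    lamOf_const g h1, hy, hz]
  ring

variable [alg : Algebra 𝒪 (DualNumber (ResidueField 𝒪))]

/-- Every functional on `𝔪_R ⧸ J` comes from a homomorphism `R → k[ε]`. -/
theorem exists_algHom_of_dual
    (halg : ∀ c : 𝒪, algebraMap 𝒪 (DualNumber (ResidueField 𝒪)) c =
      TrivSqZeroExt.inl (residue 𝒪 c))
    (hres : Function.Surjective (residue R ∘ algebraMap 𝒪 R))
    (Λ : Module.Dual (ResidueField 𝒪) (tanSub 𝒪 R)) :
    ∃ φ : R →ₐ[𝒪] DualNumber (ResidueField 𝒪), ∀ (y : R) (hy : y ∈ maximalIdeal R),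
      (φ y).snd = Λ ⟨Ideal.Quotient.mk (tanIdeal 𝒪 R) y, mk_mem_tanSub 𝒪 R hy⟩ := by
  obtain ⟨g, hgΛ, hg1⟩ :=
    LinearMap.exists_extend_of_notMem Λ (mk_one_notMem_tanSub 𝒪 R) (0 : ResidueField 𝒪)
  refine ⟨derHom halg (resk hres) (lamOf g) (lamOf_mul hres g hg1) (lamOf_const g hg1), ?_⟩
  intro y hy
  rw [derHom_apply_snd, lamOf_apply, ← hgΛ]
  rfl

/-- `|k| ^ dim (𝔪_R ⧸ J) ≤ #Hom(R, k[ε])`. -/
theorem pow_finrank_tanSub_le_card [IsNoetherianRing R] [Finite (ResidueField 𝒪)]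
    (halg : ∀ c : 𝒪, algebraMap 𝒪 (DualNumber (ResidueField 𝒪)) c =
      TrivSqZeroExt.inl (residue 𝒪 c))
    (hres : Function.Surjective (residue R ∘ algebraMap 𝒪 R)) :
    Nat.card (ResidueField 𝒪) ^ Module.finrank (ResidueField 𝒪) (tanSub 𝒪 R) ≤
      Nat.card (R →ₐ[𝒪] DualNumber (ResidueField 𝒪)) := by
  haveI := finiteDimensional_tanSub hres
  haveI := finite_algHom_dualNumber (R := R) halg hres
  rw [← Subspace.dual_finrank_eq, ← Module.natCard_eq_pow_finrank]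
  choose F hF using exists_algHom_of_dual (R := R) halg hres
  refine Nat.card_le_card_of_injective F ?_
  intro Λ Λ' h
  ext ⟨_, y, hy, rfl⟩
  rw [← hF Λ y hy, ← hF Λ' y hy, h]

/-- If `R` has at most `|k| ^ r` homomorphisms to `k[ε]`, then `𝔪_R = (x₁, …, x_r) + 𝔪_𝒪 R` for
suitable `x i`. -/
theorem exists_generators_of_card_le [IsNoetherianRing R] [Finite (ResidueField 𝒪)]
    (halg : ∀ c : 𝒪, algebraMap 𝒪 (DualNumber (ResidueField 𝒪)) c =
      TrivSqZeroExt.inl (residue 𝒪 c))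
    (hres : Function.Surjective (residue R ∘ algebraMap 𝒪 R)) (r : ℕ)
    (hcard : Nat.card (R →ₐ[𝒪] DualNumber (ResidueField 𝒪)) ≤ Nat.card (ResidueField 𝒪) ^ r) :
    ∃ x : Fin r → R, (∀ i, x i ∈ maximalIdeal R) ∧
      maximalIdeal R ≤ Ideal.span (Set.range x) ⊔
        Ideal.map (algebraMap 𝒪 R) (maximalIdeal 𝒪) := by
  haveI := finiteDimensional_tanSub hres
  have hk : 1 < Nat.card (ResidueField 𝒪) := Finite.one_lt_card
  have hd : Module.finrank (ResidueField 𝒪) (tanSub 𝒪 R) ≤ r :=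
    (Nat.pow_le_pow_iff_right hk).mp ((pow_finrank_tanSub_le_card halg hres).trans hcard)
  -- a spanning family of size `r`
  let b := Module.finBasis (ResidueField 𝒪) (tanSub 𝒪 R)
  let w : Fin r → tanSub 𝒪 R := fun i =>
    if h : (i : ℕ) < Module.finrank (ResidueField 𝒪) (tanSub 𝒪 R) then b ⟨i, h⟩ else 0
  have hw : ∀ v : tanSub 𝒪 R, v ∈ Submodule.span (ResidueField 𝒪) (Set.range w) := by
    intro v
    have hv : v ∈ Submodule.span (ResidueField 𝒪) (Set.range b) := by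
      rw [b.span_eq]; exact Submodule.mem_top
    refine Submodule.span_mono ?_ hv
    rintro _ ⟨j, rfl⟩
    refine ⟨⟨j, lt_of_lt_of_le j.2 hd⟩, ?_⟩
    simp only [w]
    rw [dif_pos j.2]
  -- lift to `𝔪_R`
  have hlift : ∀ i, ∃ y ∈ maximalIdeal R,
      Ideal.Quotient.mk (tanIdeal 𝒪 R) y = (w i : R ⧸ tanIdeal 𝒪 R) := fun i => (w i).2
  choose x hxm hxw using hlift
  refine ⟨x, hxm, ?_⟩
  -- first modulo `J`
  have hJ : maximalIdeal R ≤ Ideal.span (Set.range x) ⊔ tanIdeal 𝒪 R := by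
    intro y hy
    have hv := hw ⟨Ideal.Quotient.mk (tanIdeal 𝒪 R) y, mk_mem_tanSub 𝒪 R hy⟩
    -- every element of the span of the `w i` is the class of an element of `(x)`
    have key : ∀ v ∈ Submodule.span (ResidueField 𝒪) (Set.range w),
        ∃ z ∈ Ideal.span (Set.range x), Ideal.Quotient.mk (tanIdeal 𝒪 R) z =
          ((v : tanSub 𝒪 R) : R ⧸ tanIdeal 𝒪 R) := by
      intro v hv
      refine Submodule.span_induction (p := fun v _ => ∃ z ∈ Ideal.span (Set.range x),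
        Ideal.Quotient.mk (tanIdeal 𝒪 R) z = ((v : tanSub 𝒪 R) : R ⧸ tanIdeal 𝒪 R)) ?_ ?_ ?_ ?_ hv
      · rintro _ ⟨i, rfl⟩
        exact ⟨x i, Ideal.subset_span ⟨i, rfl⟩, hxw i⟩
      · exact ⟨0, zero_mem _, by simp⟩
      · rintro a b _ _ ⟨z, hz, hza⟩ ⟨z', hz', hzb⟩
        exact ⟨z + z', add_mem hz hz', by rw [map_add, hza, hzb]; rfl⟩
      · rintro κ a _ ⟨z, hz, hza⟩
        obtain ⟨c, rfl⟩ := residue_surjective κ
        refine ⟨algebraMap 𝒪 R c * z, Ideal.mul_mem_left _ _ hz, ?_⟩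
        rw [← residue_smul_mk, hza]
        rfl
    obtain ⟨z, hz, hzy⟩ := key _ hv
    have h1 : y - z ∈ tanIdeal 𝒪 R := by
      rw [← Ideal.Quotient.eq]
      exact hzy.symm
    have : y = z + (y - z) := by ring
    rw [this]
    exact Ideal.add_mem _ (Ideal.mem_sup_left hz) (Ideal.mem_sup_right h1)
  -- Nakayama
  have hN : maximalIdeal R ≤ (Ideal.span (Set.range x) ⊔
      Ideal.map (algebraMap 𝒪 R) (maximalIdeal 𝒪)) ⊔ maximalIdeal R • maximalIdeal R := by
    refine hJ.trans ?_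
    rw [tanIdeal, pow_two, smul_eq_mul]
    rw [sup_assoc, sup_comm (maximalIdeal R * maximalIdeal R), ← sup_assoc]
  exact Submodule.le_of_le_smul_of_le_jacobson_bot (I := maximalIdeal R)
    (IsNoetherian.noetherian _) (IsLocalRing.jacobson_eq_maximalIdeal ⊥ bot_ne_top).ge hN

end Cotangent

/-! ### 6. Main theorems -/

section Main

variable {𝒪 : Type} [CommRing 𝒪] [IsLocalRing 𝒪] [IsAdicComplete (maximalIdeal 𝒪) 𝒪]
  [Finite (ResidueField 𝒪)]
  (R : Type) [CommRing R] [IsLocalRing R] [IsNoetherianRing R]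
  [IsAdicComplete (maximalIdeal R) R] [Algebra 𝒪 R] [IsLocalHom (algebraMap 𝒪 R)]
  [alg : Algebra 𝒪 (DualNumber (ResidueField 𝒪))]

/-- **Counting criterion.** A complete Noetherian local `𝒪`-algebra with residue field `k` and
at most `|k| ^ r` homomorphisms to `k[ε]` is a quotient of `𝒪⟦X₁, …, X_r⟧`. -/
theorem exists_surjective_of_card_algHom_dualNumber_le
    (hres : Function.Surjective (residue R ∘ algebraMap 𝒪 R))
    (halg : ∀ c : 𝒪, algebraMap 𝒪 (DualNumber (ResidueField 𝒪)) c =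
      TrivSqZeroExt.inl (residue 𝒪 c)) (r : ℕ)
    (hcard : Nat.card (R →ₐ[𝒪] DualNumber (ResidueField 𝒪)) ≤ Nat.card (ResidueField 𝒪) ^ r) :
    ∃ γ : MvPowerSeries (Fin r) 𝒪 →ₐ[𝒪] R, Function.Surjective γ := by
  obtain ⟨x, hxm, hgen⟩ := exists_generators_of_card_le halg hres r hcard
  exact ⟨liftX x hxm, liftX_surjective hres x hxm hgen⟩

/-- The same, from an injection of `Hom(R, k[ε])` into a `k`-vector space of dimension `≤ r`. -/
theorem exists_surjective_of_injective_to_module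
    (hres : Function.Surjective (residue R ∘ algebraMap 𝒪 R))
    (halg : ∀ c : 𝒪, algebraMap 𝒪 (DualNumber (ResidueField 𝒪)) c =
      TrivSqZeroExt.inl (residue 𝒪 c)) (r : ℕ)
    {V : Type*} [AddCommGroup V] [Module (ResidueField 𝒪) V]
    [FiniteDimensional (ResidueField 𝒪) V]
    (ι : (R →ₐ[𝒪] DualNumber (ResidueField 𝒪)) → V) (hι : Function.Injective ι)
    (hV : Module.finrank (ResidueField 𝒪) V ≤ r) :
    ∃ γ : MvPowerSeries (Fin r) 𝒪 →ₐ[𝒪] R, Function.Surjective γ := by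
  haveI : Finite V := Module.finite_of_finite (ResidueField 𝒪)
  refine exists_surjective_of_card_algHom_dualNumber_le R hres halg r ?_
  refine (Nat.card_le_card_of_injective ι hι).trans ?_
  rw [Module.natCard_eq_pow_finrank (K := ResidueField 𝒪) (V := V)]
  exact Nat.pow_le_pow_right Nat.card_pos hV

end Main

end

end Fermat.Agent.TW.TangentSurj37
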