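import Mathlib
import Fermat.Agent.TW.Interface
import Fermat.Agent.TW.TangentSurj37

/-!
# Programme TW (S56): pillar (A) of `TW/Interface.lean`, proved from `TangentSurj37` (helper37)
-/

set_option autoImplicit false
set_option linter.style.haveILetI false

namespace Fermat.Agent.TW.BrickA37

open IsLocalRing

/-- **Pillar (A)** of the TW interface. -/
theorem brickA (𝒪 : Type) [CommRing 𝒪] [IsDomain 𝒪] [IsDiscreteValuationRing 𝒪]
    [IsAdicComplete (maximalIdeal 𝒪) 𝒪] [Finite (ResidueField 𝒪)] :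
    Fermat.Agent.TW.Interface.BrickA 𝒪 := by
  intro R _ _ _ _ _ _ hres r hs
  have halg : ∀ c : 𝒪, algebraMap 𝒪 (DualNumber (ResidueField 𝒪)) c =
      TrivSqZeroExt.inl (residue 𝒪 c) := fun _ => rfl
  haveI : Finite (R →ₐ[𝒪] DualNumber (ResidueField 𝒪)) :=
    Fermat.Agent.TW.TangentSurj37.finite_algHom_dualNumber (R := R) halg hres
  refine Fermat.Agent.TW.TangentSurj37.exists_surjective_of_card_algHom_dualNumber_le R hres halg r ?_
  classical
  haveI : Fintype (R →ₐ[𝒪] DualNumber (ResidueField 𝒪)) := Fintype.ofFinite _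
  rw [Nat.card_eq_fintype_card, ← Finset.card_univ]
  exact hs Finset.univ

end Fermat.Agent.TW.BrickA37
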