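import Mathlib

/-!
# Programme TW (S56): the dual numbers `k[ε]` over the residue field as a test ring

For a local ring `𝒪` with residue field `k`, the ring `k[ε] = DualNumber k` with its natural
`𝒪`-algebra structure satisfies all the hypotheses on test rings in
`GaloisRep.DeformationRingData.universal`: local, Noetherian, complete, local structure map,
residue field generated by `𝒪`.

The three `instance`s below are `Prop`-valued (no data, no diamonds); they are needed already to
*state* things like `ResidueField.map (algebraMap 𝒪 k[ε])`.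
-/

set_option autoImplicit false

noncomputable section

namespace Fermat.Agent.TW.DualTest23

open IsLocalRing TrivSqZeroExt

section Field

variable {K : Type} [Field K]

theorem maximalIdeal_sq : maximalIdeal (DualNumber K) ^ 2 = ⊥ := by
  rw [DualNumber.maximalIdeal_eq_span_singleton_eps, Ideal.span_singleton_pow, pow_two,
    DualNumber.eps_mul_eps, Ideal.span_singleton_eq_bot]

instance isArtinianRing : IsArtinianRing (DualNumber K) :=
  (isArtinianRing_iff_isNilpotent_maximalIdeal (DualNumber K)).mpr ⟨2, maximalIdeal_sq⟩

instance isAdicComplete : IsAdicComplete (maximalIdeal (DualNumber K)) (DualNumber K) :=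
  inferInstance

theorem mem_maximalIdeal_iff (x : DualNumber K) : x ∈ maximalIdeal (DualNumber K) ↔ x.fst = 0 := by
  rw [mem_maximalIdeal, mem_nonunits_iff, isUnit_iff_isUnit_fst, isUnit_iff_ne_zero, not_not]

theorem inr_mem_maximalIdeal (b : K) : (inr b : DualNumber K) ∈ maximalIdeal (DualNumber K) := by
  rw [mem_maximalIdeal_iff, fst_inr]

theorem residue_eq_residue_inl_fst (x : DualNumber K) :
    residue (DualNumber K) x = residue (DualNumber K) (inl x.fst) := by
  rw [← sub_eq_zero, ← map_sub, residue_eq_zero_iff, mem_maximalIdeal_iff]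
  simp

end Field

variable {𝒪 : Type} [CommRing 𝒪] [IsLocalRing 𝒪]

theorem algebraMap_apply (a : 𝒪) :
    algebraMap 𝒪 (DualNumber (ResidueField 𝒪)) a = inl (residue 𝒪 a) := rfl

instance isLocalHom_algebraMap : IsLocalHom (algebraMap 𝒪 (DualNumber (ResidueField 𝒪))) := by
  refine ⟨fun a ha => ?_⟩
  rw [algebraMap_apply, isUnit_iff_isUnit_fst, fst_inl, isUnit_iff_ne_zero, ne_eq,
    residue_eq_zero_iff] at ha
  by_contra hna
  exact ha ((mem_maximalIdeal a).mpr hna)

theorem residue_surjective :
    Function.Surjective (residue (DualNumber (ResidueField 𝒪)) ∘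
      algebraMap 𝒪 (DualNumber (ResidueField 𝒪))) := by
  intro z
  obtain ⟨w, rfl⟩ := IsLocalRing.residue_surjective z
  obtain ⟨a, ha⟩ := IsLocalRing.residue_surjective (R := 𝒪) w.fst
  refine ⟨a, ?_⟩
  rw [Function.comp_apply, algebraMap_apply, ha, ← residue_eq_residue_inl_fst]

end Fermat.Agent.TW.DualTest23
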