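/-
Programme TW (S56), pillar (D) = the DICTIONARY (helper57).  Sub-interface: the sub-bricks D1 … D7 from which
`BrickD_SO` and `BrickD_FL` of `TW/Interface.lean` are assembled (`TW/DictAssembly.lean`).

Everything here is (linear) algebra over the dual numbers `A = k[ε] = DualNumber k`, `k = 𝒪/m`.
`V = ρbar.V`.  The model of a lift is `V[ε] = V × V` (`(v, w) = v + ε w`) with
`(a + b ε) • (v, w) = (a v, a w + b v)` and Galois action `liftAct ρbar c σ (v, w) = (ρ v, ρ w + c σ (ρ v))`.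

* `IsLiftOf ρbar ρA c` : `ρA ≅ (V[ε], liftAct c)` `A`-semilinearly and equivariantly.
* D1 `ExistsLift`        : a lift of `ρbar` to `A` (residual ≅ `ρbar`) is `IsLiftOf … c` for some `c`.
* D2 `LiftCocycle`       : then `c` is a cocycle and level-constant.
* D3 `LiftEquivOfCohom`  : cohomologous cocycles give equivalent lifts.
* D4a–e                  : transfer of the five conditions on `ρA` to conditions on `c`.
* D5a–d                  : the conditions are stable under base change along a SURJECTIVE `φ : R → A`; residual.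
* D6so, D6fl             : `ρbar` itself satisfies the condition (with ramification set `Smin`).
* D7 `NonSurjUnique`, D7' `NonSurjExists` : a non-surjective `𝒪`-algebra map `R → A` exists and is unique.
* D9 `TrivialLift`       : its base change is the lift attached to the zero cocycle.
* D10 `ResidualEquiv`    : `ρbar` is the base change of `X.ρ` along a surjective local map `X.R → k`.
-/
import Mathlib
import Fermat.Agent.TW.Interface
import Fermat.Agent.TW.DualTest23

set_option autoImplicit false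

open Polynomial IsLocalRing

namespace Fermat.Agent.TW.DictInterface

open Fermat.Agent.TW.Interface Fermat.Agent.TW.DualTest23

section Lift

variable {k : Type} [Field k]

/-- `ρA` is (isomorphic to) the lift `σ ↦ (1 + ε c σ) ρbar σ` of `ρbar` to `k[ε]`. -/
def IsLiftOf (ρbar : ResidualGaloisRep k) (ρA : GaloisRepAdic (DualNumber k))
    (c : GalQ → Module.End k ρbar.V) : Prop :=
  ∃ e : ρA.V ≃+ ρbar.V × ρbar.V,
    (∀ (a : DualNumber k) (x : ρA.V),
      e (a • x) = (a.fst • (e x).1, a.fst • (e x).2 + a.snd • (e x).1)) ∧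
    ∀ (σ : GalQ) (x : ρA.V), e (ρA.ρ σ x) = liftAct ρbar c σ (e x)

/-- D2. -/
def LiftCocycle : Prop :=
  ∀ (ρbar : ResidualGaloisRep k) (ρA : GaloisRepAdic (DualNumber k))
    (c : GalQ → Module.End k ρbar.V), IsLiftOf ρbar ρA c →
    (∀ σ τ : GalQ, c (σ * τ) = c σ + conj ρbar σ (c τ)) ∧
    ∃ F : IntermediateField ℚ (AlgebraicClosure ℚ), FiniteDimensional ℚ F ∧
      ∀ σ τ : GalQ, (∀ x ∈ F, τ x = x) → c (σ * τ) = c σ

/-- D3. -/
def LiftEquivOfCohom : Prop :=
  ∀ (ρbar : ResidualGaloisRep k) (ρA ρA' : GaloisRepAdic (DualNumber k))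
    (c c' : GalQ → Module.End k ρbar.V), IsLiftOf ρbar ρA c → IsLiftOf ρbar ρA' c' →
    Cohomologous ρbar c c' → ρA.IsEquiv ρA'

/-- D4a: cyclotomic determinant ⇒ trace zero. -/
def LiftTrace : Prop :=
  ∀ (p : ℕ) [Fact p.Prime] (ρbar : ResidualGaloisRep k) (ρA : GaloisRepAdic (DualNumber k))
    (c : GalQ → Module.End k ρbar.V), IsLiftOf ρbar ρA c →
    (GaloisRepAdic.ofResidualGaloisRep ρbar).DetIsCyclotomic p → ρA.DetIsCyclotomic p →
    ∀ σ : GalQ, LinearMap.trace k ρbar.V (c σ) = 0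

/-- D4b: unramified at `q` ⇒ the cocycle vanishes on inertia at `q`. -/
def LiftUnram : Prop :=
  ∀ (ρbar : ResidualGaloisRep k) (ρA : GaloisRepAdic (DualNumber k))
    (c : GalQ → Module.End k ρbar.V), IsLiftOf ρbar ρA c → ∀ q : ℕ, ρA.IsUnramifiedAt q →
    ∀ P : ValuationSubring (AlgebraicClosure ℚ), P.LiesOverPrime q →
      ∀ σ ∈ P.inertiaSubgroupIn ℚ, c σ = 0

/-- D4c: unipotent on inertia at `q` ⇒ `tr (c σ ∘ ρbar σ) = 0` on inertia at `q`. -/
def LiftUnip : Prop :=
  ∀ (ρbar : ResidualGaloisRep k) (ρA : GaloisRepAdic (DualNumber k))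
    (c : GalQ → Module.End k ρbar.V), IsLiftOf ρbar ρA c → ∀ q : ℕ,
    ρA.IsUnipotentOnInertiaAt q →
    ∀ P : ValuationSubring (AlgebraicClosure ℚ), P.LiesOverPrime q →
      ∀ σ ∈ P.inertiaSubgroupIn ℚ, LinearMap.trace k ρbar.V (c σ * ρbar.ρ σ) = 0

/-- D4d: strict ordinary at `p` (with cyclotomic determinant, `p` odd) ⇒ `SOLocal`. -/
def LiftSO : Prop :=
  ∀ (p : ℕ) [Fact p.Prime], p ≠ 2 → ∀ (ρbar : ResidualGaloisRep k)
    (ρA : GaloisRepAdic (DualNumber k)) (c : GalQ → Module.End k ρbar.V), IsLiftOf ρbar ρA c →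
    (GaloisRepAdic.ofResidualGaloisRep ρbar).DetIsCyclotomic p → ρA.DetIsCyclotomic p →
    ρA.IsStrictOrdinaryAt p → SOLocal ρbar p c

/-- D4e: flat at `p` ⇒ `FLLocal`. -/
def LiftFL : Prop :=
  ∀ (p : ℕ) (ρbar : ResidualGaloisRep k) (ρA : GaloisRepAdic (DualNumber k))
    (c : GalQ → Module.End k ρbar.V), IsLiftOf ρbar ρA c → ρA.IsFlatAt p → FLLocal ρbar p c

end Lift

section Ring

variable (𝒪 : Type) [CommRing 𝒪] [IsDomain 𝒪] [IsDiscreteValuationRing 𝒪]
  [IsAdicComplete (maximalIdeal 𝒪) 𝒪] [Finite (ResidueField 𝒪)]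

/-- D1: a lift of `ρbar` to `k[ε]` (in the sense of `DeformationRingData.universal`) is `IsLiftOf`. -/
def ExistsLift : Prop :=
  ∀ (ρbar : ResidualGaloisRep (ResidueField 𝒪))
    (ρA : GaloisRepAdic (DualNumber (ResidueField 𝒪))),
    ρA.residual.IsEquiv (ρbar.baseChangeAlong
      (ResidueField.map (algebraMap 𝒪 (DualNumber (ResidueField 𝒪))))) →
    ∃ c : GalQ → Module.End (ResidueField 𝒪) ρbar.V, IsLiftOf ρbar ρA c

/-- D7 (and D0): `𝒪`-algebra maps `R → k[ε]` are local; a non-surjective one is unique. -/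
def NonSurjUnique : Prop :=
  ∀ (R : Type) [CommRing R] [IsLocalRing R] [Algebra 𝒪 R] [IsLocalHom (algebraMap 𝒪 R)],
    Function.Surjective (residue R ∘ algebraMap 𝒪 R) →
    (∀ φ : R →ₐ[𝒪] DualNumber (ResidueField 𝒪), IsLocalHom (φ : R →+* DualNumber (ResidueField 𝒪))) ∧
    ∀ φ φ' : R →ₐ[𝒪] DualNumber (ResidueField 𝒪),
      ¬ Function.Surjective φ → ¬ Function.Surjective φ' → φ = φ'

variable {𝒪}

/-- The setting of D5/D6: a complete Noetherian local `𝒪`-algebra `R` with a representation `ρ` whose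
residual representation is `ρbar`. -/
structure RingLift (ρbar : ResidualGaloisRep (ResidueField 𝒪)) where
  R : Type
  [instCommRing : CommRing R]
  [instIsLocalRing : IsLocalRing R]
  [instAlgebra : Algebra 𝒪 R]
  [instIsLocalHom : IsLocalHom (algebraMap 𝒪 R)]
  residue_surjective : Function.Surjective (residue R ∘ algebraMap 𝒪 R)
  ρ : GaloisRepAdic R
  residual_isEquiv : ρ.residual.IsEquiv (ρbar.baseChangeAlong (ResidueField.map (algebraMap 𝒪 R)))

attribute [instance] RingLift.instCommRing RingLift.instIsLocalRing RingLift.instAlgebra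
  RingLift.instIsLocalHom

variable (𝒪)

/-- D5d: the residual representation of a base change to `k[ε]` is still `ρbar`. -/
def BaseChangeResidual : Prop :=
  ∀ (ρbar : ResidualGaloisRep (ResidueField 𝒪)) (X : RingLift ρbar)
    (φ : X.R →ₐ[𝒪] DualNumber (ResidueField 𝒪))
    (hφ : IsLocalHom (φ : X.R →+* DualNumber (ResidueField 𝒪))),
    (X.ρ.baseChangeAlong (φ : X.R →+* DualNumber (ResidueField 𝒪)) hφ).residual.IsEquiv
      (ρbar.baseChangeAlong (ResidueField.map (algebraMap 𝒪 (DualNumber (ResidueField 𝒪)))))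

/-- D9: the base change along a NON-surjective map `R → k[ε]` (it factors through `k`) is the trivial
lift, i.e. the lift attached to the zero cocycle. -/
def TrivialLift : Prop :=
  ∀ (ρbar : ResidualGaloisRep (ResidueField 𝒪)) (X : RingLift ρbar)
    (ψ : X.R →ₐ[𝒪] DualNumber (ResidueField 𝒪))
    (hψ : IsLocalHom (ψ : X.R →+* DualNumber (ResidueField 𝒪))), ¬ Function.Surjective ψ →
    IsLiftOf ρbar (X.ρ.baseChangeAlong (ψ : X.R →+* DualNumber (ResidueField 𝒪)) hψ) 0

/-- D7': a non-surjective `𝒪`-algebra map `R → k[ε]` exists (through the residue field). -/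
def NonSurjExists : Prop :=
  ∀ (R : Type) [CommRing R] [IsLocalRing R] [Algebra 𝒪 R] [IsLocalHom (algebraMap 𝒪 R)],
    Function.Surjective (residue R ∘ algebraMap 𝒪 R) →
    ∃ ψ : R →ₐ[𝒪] DualNumber (ResidueField 𝒪), ¬ Function.Surjective ψ

/-- D10: `ρbar` (over `k`) is the base change of `X.ρ` along a surjective local map `X.R → k`
("the residue map").  With D5a–c and invariance under isomorphism this gives D6. -/
def ResidualEquiv : Prop :=
  ∀ (ρbar : ResidualGaloisRep (ResidueField 𝒪)) (X : RingLift ρbar),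
    ∃ (φ₀ : X.R →+* ResidueField 𝒪) (hφ₀ : IsLocalHom φ₀), Function.Surjective φ₀ ∧
      (X.ρ.baseChangeAlong φ₀ hφ₀).IsEquiv (GaloisRepAdic.ofResidualGaloisRep ρbar)

/-- D5a: the three "easy" conditions are stable under base change along any local homomorphism. -/
def BaseChangeEasy : Prop :=
  ∀ (R B : Type) [CommRing R] [IsLocalRing R] [CommRing B] [IsLocalRing B] (φ : R →+* B)
    (hφ : IsLocalHom φ) (ρ : GaloisRepAdic R),
    (∀ p : ℕ, ρ.DetIsCyclotomic p → (ρ.baseChangeAlong φ hφ).DetIsCyclotomic p) ∧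
    (∀ q : ℕ, ρ.IsUnramifiedAt q → (ρ.baseChangeAlong φ hφ).IsUnramifiedAt q) ∧
    (∀ q : ℕ, ρ.IsUnipotentOnInertiaAt q → (ρ.baseChangeAlong φ hφ).IsUnipotentOnInertiaAt q)

/-- D5b: strict ordinarity is stable under base change along a local homomorphism. -/
def BaseChangeSO : Prop :=
  ∀ (R B : Type) [CommRing R] [IsLocalRing R] [CommRing B] [IsLocalRing B] (φ : R →+* B)
    (hφ : IsLocalHom φ) (ρ : GaloisRepAdic R) (p : ℕ),
    ρ.IsStrictOrdinaryAt p → (ρ.baseChangeAlong φ hφ).IsStrictOrdinaryAt p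

/-- D5c: flatness is stable under base change along a SURJECTIVE local homomorphism. -/
def BaseChangeFL : Prop :=
  ∀ (R B : Type) [CommRing R] [IsLocalRing R] [CommRing B] [IsLocalRing B] (φ : R →+* B)
    (hφ : IsLocalHom φ), Function.Surjective φ → ∀ (ρ : GaloisRepAdic R) (p : ℕ),
    ρ.IsFlatAt p → (ρ.baseChangeAlong φ hφ).IsFlatAt p

/-- D6: the conditions descend to `ρbar` itself (viewed over `k`), for the pieces that are not
already hypotheses of S56. -/
def ResidualSO : Prop :=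
  ∀ (ρbar : ResidualGaloisRep (ResidueField 𝒪)) (X : RingLift ρbar) (p : ℕ),
    X.ρ.IsStrictOrdinaryAt p →
    (GaloisRepAdic.ofResidualGaloisRep ρbar).IsStrictOrdinaryAt p

def ResidualFL : Prop :=
  ∀ (ρbar : ResidualGaloisRep (ResidueField 𝒪)) (X : RingLift ρbar) (p : ℕ),
    X.ρ.IsFlatAt p → (GaloisRepAdic.ofResidualGaloisRep ρbar).IsFlatAt p

def ResidualUnip : Prop :=
  ∀ (ρbar : ResidualGaloisRep (ResidueField 𝒪)) (X : RingLift ρbar) (q : ℕ),
    X.ρ.IsUnipotentOnInertiaAt q →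
    (GaloisRepAdic.ofResidualGaloisRep ρbar).IsUnipotentOnInertiaAt q

end Ring

end Fermat.Agent.TW.DictInterface
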