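import Mathlib
import Fermat.Agent.S53.MatrixRes
import Fermat.Agent.TW.DualTest23

/-!
# Programme TW (S56), dictionary part 1: matrix representations over `k[ε]`

A matrix `X` over `k[ε]` is `A + ε D` with `A = fstMat X`, `D = sndMat X`.  A representation
`r : G_ℚ → GL₂(k[ε])` lifting `rbar` is `rbar + ε d` where `d` is an `rbar`-derivation:
`d (σ τ) = rbar σ * d τ + d σ * rbar τ`  (so `c σ = d σ * (rbar σ)⁻¹` is a 1-cocycle for the adjoint
action).  Conjugation by `1 + ε M` changes `d` by the inner derivation `σ ↦ M * rbar σ - rbar σ * M`.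
-/

set_option autoImplicit false
set_option linter.unusedSectionVars false

noncomputable section

namespace Fermat.Agent.TW.DualLift23

open Fermat.Agent.S53 TrivSqZeroExt IsLocalRing

variable {k : Type} [Field k]

/-- The constant part of a matrix over `k[ε]`. -/
def fstMat (X : M2 (DualNumber k)) : M2 k := X.map fst

/-- The `ε`-part of a matrix over `k[ε]`. -/
def sndMat (X : M2 (DualNumber k)) : M2 k := X.map snd

/-- The matrix `A + ε D`. -/
def mkMat (A D : M2 k) : M2 (DualNumber k) := Matrix.of fun i j => inl (A i j) + inr (D i j)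

@[simp] theorem fstMat_apply (X : M2 (DualNumber k)) (i j : Fin 2) : fstMat X i j = (X i j).fst := rfl

@[simp] theorem sndMat_apply (X : M2 (DualNumber k)) (i j : Fin 2) : sndMat X i j = (X i j).snd := rfl

@[simp] theorem mkMat_apply (A D : M2 k) (i j : Fin 2) :
    mkMat A D i j = inl (A i j) + inr (D i j) := rfl

@[simp] theorem fstMat_mkMat (A D : M2 k) : fstMat (mkMat A D) = A := by
  ext i j; simp

@[simp] theorem sndMat_mkMat (A D : M2 k) : sndMat (mkMat A D) = D := by
  ext i j; simp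

theorem mkMat_fstMat_sndMat (X : M2 (DualNumber k)) : mkMat (fstMat X) (sndMat X) = X := by
  ext i j <;> simp

theorem ext_fst_snd {X Y : M2 (DualNumber k)} (h1 : fstMat X = fstMat Y)
    (h2 : sndMat X = sndMat Y) : X = Y := by
  rw [← mkMat_fstMat_sndMat X, ← mkMat_fstMat_sndMat Y, h1, h2]

theorem fstMat_mul (X Y : M2 (DualNumber k)) : fstMat (X * Y) = fstMat X * fstMat Y := by
  ext i j
  simp [Matrix.mul_apply, Fin.sum_univ_two]

theorem sndMat_mul (X Y : M2 (DualNumber k)) :
    sndMat (X * Y) = fstMat X * sndMat Y + sndMat X * fstMat Y := by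
  ext i j
  simp only [sndMat_apply, Matrix.mul_apply, Fin.sum_univ_two, snd_add, snd_mul, smul_eq_mul,
    MulOpposite.smul_eq_mul_unop, MulOpposite.unop_op, Matrix.add_apply, fstMat_apply]
  ring

@[simp] theorem fstMat_one : fstMat (1 : M2 (DualNumber k)) = 1 := by
  ext i j
  by_cases h : i = j <;> simp [Matrix.one_apply, h]

@[simp] theorem sndMat_one : sndMat (1 : M2 (DualNumber k)) = 0 := by
  ext i j
  by_cases h : i = j <;> simp [Matrix.one_apply, h]

theorem mkMat_mul (A D A' D' : M2 k) :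
    mkMat A D * mkMat A' D' = mkMat (A * A') (A * D' + D * A') := by
  apply ext_fst_snd
  · rw [fstMat_mul]; simp
  · rw [sndMat_mul]; simp

theorem mkMat_one_zero : mkMat (1 : M2 k) 0 = 1 := by
  apply ext_fst_snd <;> simp

/-! ### Derivations and lifts -/

/-- `rbar`-derivations. -/
def IsDer (rbar : GQ →* M2 k) (d : GQ → M2 k) : Prop :=
  ∀ σ τ, d (σ * τ) = rbar σ * d τ + d σ * rbar τ

theorem IsDer.apply_one {rbar : GQ →* M2 k} {d : GQ → M2 k} (hd : IsDer rbar d) : d 1 = 0 := by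
  have h := hd 1 1
  rw [mul_one, map_one, one_mul, mul_one] at h
  have h2 : d 1 + 0 = d 1 + d 1 := by rw [add_zero]; exact h
  exact (add_left_cancel h2).symm

/-- The derivation part of a representation over `k[ε]`. -/
def derOf (r : GQ →* M2 (DualNumber k)) : GQ → M2 k := fun σ => sndMat (r σ)

theorem isDer_derOf (r : GQ →* M2 (DualNumber k)) (rbar : GQ →* M2 k)
    (h : ∀ σ, fstMat (r σ) = rbar σ) : IsDer rbar (derOf r) := by
  intro σ τ
  simp only [derOf]
  rw [map_mul, sndMat_mul, h, h]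

/-- The representation `rbar + ε d`. -/
def liftMat (rbar : GQ →* M2 k) (d : GQ → M2 k) (hd : IsDer rbar d) :
    GQ →* M2 (DualNumber k) where
  toFun σ := mkMat (rbar σ) (d σ)
  map_one' := by rw [map_one, hd.apply_one, mkMat_one_zero]
  map_mul' σ τ := by rw [mkMat_mul, map_mul, hd σ τ]

@[simp] theorem liftMat_apply (rbar : GQ →* M2 k) (d : GQ → M2 k) (hd : IsDer rbar d) (σ : GQ) :
    liftMat rbar d hd σ = mkMat (rbar σ) (d σ) := rfl

theorem fstMat_liftMat (rbar : GQ →* M2 k) (d : GQ → M2 k) (hd : IsDer rbar d) (σ : GQ) :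
    fstMat (liftMat rbar d hd σ) = rbar σ := by simp

theorem derOf_liftMat (rbar : GQ →* M2 k) (d : GQ → M2 k) (hd : IsDer rbar d) :
    derOf (liftMat rbar d hd) = d := by
  funext σ; simp [derOf]

theorem liftMat_derOf (r : GQ →* M2 (DualNumber k)) (rbar : GQ →* M2 k)
    (h : ∀ σ, fstMat (r σ) = rbar σ) : liftMat rbar (derOf r) (isDer_derOf r rbar h) = r := by
  ext σ : 1
  rw [liftMat_apply, ← h σ]
  exact mkMat_fstMat_sndMat (r σ)

/-! ### Continuity -/

/-- A derivation vanishing on an open subgroup. -/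
def IsContDer (d : GQ → M2 k) : Prop :=
  ∃ L : IntermediateField ℚ (AlgebraicClosure ℚ), FiniteDimensional ℚ L ∧
    ∀ σ : GQ, (∀ x ∈ L, σ x = x) → d σ = 0

theorem isContDer_derOf {r : GQ →* M2 (DualNumber k)} (hr : MatCont r) : IsContDer (derOf r) := by
  obtain ⟨L, hL, h⟩ := hr 2
  refine ⟨L, hL, fun σ hσ => ?_⟩
  ext i j
  have h1 := h σ hσ i j
  rw [DualTest23.maximalIdeal_sq, Ideal.mem_bot] at h1
  have h2 : r σ i j = (1 : M2 (DualNumber k)) i j := by
    rw [Matrix.sub_apply, sub_eq_zero] at h1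
    exact h1
  simp only [derOf, sndMat_apply, Matrix.zero_apply]
  rw [h2]
  have := congrFun (congrFun (sndMat_one (k := k)) i) j
  simpa using this

theorem matCont_liftMat {rbar : GQ →* M2 k} (hrbar : GaloisFactorsThroughFiniteLevel rbar)
    {d : GQ → M2 k} (hd : IsDer rbar d) (hc : IsContDer d) : MatCont (liftMat rbar d hd) := by
  obtain ⟨L₁, hL₁, h₁⟩ := hrbar
  obtain ⟨L₂, hL₂, h₂⟩ := hc
  intro n
  refine ⟨L₁ ⊔ L₂, IntermediateField.finiteDimensional_sup L₁ L₂, fun σ hσ i j => ?_⟩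
  have e1 : rbar σ = 1 := h₁ σ fun x hx => hσ x ((le_sup_left : L₁ ≤ L₁ ⊔ L₂) hx)
  have e2 : d σ = 0 := h₂ σ fun x hx => hσ x ((le_sup_right : L₂ ≤ L₁ ⊔ L₂) hx)
  rw [liftMat_apply, e1, e2, mkMat_one_zero, sub_self]
  exact Ideal.zero_mem _

/-! ### Conjugation by `1 + ε M` -/

theorem conj_liftMat (rbar : GQ →* M2 k) {d d' : GQ → M2 k} (hd : IsDer rbar d)
    (hd' : IsDer rbar d') (M : M2 k) (h : ∀ σ, d' σ = d σ + (M * rbar σ - rbar σ * M)) (σ : GQ) :
    mkMat 1 M * liftMat rbar d hd σ = liftMat rbar d' hd' σ * mkMat 1 M := by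
  rw [liftMat_apply, liftMat_apply, mkMat_mul, mkMat_mul, h σ]
  congr 1
  · rw [one_mul, mul_one]
  · rw [one_mul, mul_one]; abel

theorem isUnit_mkMat_one (M : M2 k) : IsUnit (mkMat (1 : M2 k) M) := by
  refine ⟨⟨mkMat 1 M, mkMat 1 (-M), ?_, ?_⟩, rfl⟩
  · rw [mkMat_mul, one_mul, one_mul, mul_one, neg_add_cancel, mkMat_one_zero]
  · rw [mkMat_mul, one_mul, one_mul, mul_one, add_neg_cancel, mkMat_one_zero]

/-- Derivations differing by an inner derivation give equivalent representations. -/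
theorem ofMatrix_isEquiv_of_inner {rbar : GQ →* M2 k}
    (hrbar : GaloisFactorsThroughFiniteLevel rbar) {d d' : GQ → M2 k} (hd : IsDer rbar d)
    (hd' : IsDer rbar d') (hc : IsContDer d) (hc' : IsContDer d') (M : M2 k)
    (h : ∀ σ, d' σ = d σ + (M * rbar σ - rbar σ * M)) :
    (ofMatrix (liftMat rbar d hd) (matCont_liftMat hrbar hd hc)).IsEquiv
      (ofMatrix (liftMat rbar d' hd') (matCont_liftMat hrbar hd' hc')) :=
  (MatrixModel.ofMatrix_isEquiv_iff _ _).mpr
    ⟨mkMat 1 M, isUnit_mkMat_one M, conj_liftMat rbar hd hd' M h⟩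

/-! ### Strict lifts -/

section Strict

variable {𝒪 : Type} [CommRing 𝒪] [IsLocalRing 𝒪]

theorem isStrictLift_iff_fstMat (rbar : GQ →* M2 (ResidueField 𝒪))
    (r : GQ →* M2 (DualNumber (ResidueField 𝒪))) :
    IsStrictLift rbar r ↔ ∀ σ, fstMat (r σ) = rbar σ := by
  constructor
  · intro h σ
    ext i j
    obtain ⟨a, ha⟩ := residue_surjective (rbar σ i j)
    have h1 := h σ i j a ha
    rw [DualTest23.mem_maximalIdeal_iff, fst_sub, DualTest23.algebraMap_apply, fst_inl,
      sub_eq_zero] at h1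
    rw [fstMat_apply, h1, ha]
  · intro h σ i j a ha
    rw [DualTest23.mem_maximalIdeal_iff, fst_sub, DualTest23.algebraMap_apply, fst_inl,
      sub_eq_zero, ha, ← h σ, fstMat_apply]

theorem isStrictLift_liftMat (rbar : GQ →* M2 (ResidueField 𝒪)) (d : GQ → M2 (ResidueField 𝒪))
    (hd : IsDer rbar d) : IsStrictLift rbar (liftMat rbar d hd) :=
  (isStrictLift_iff_fstMat rbar _).mpr (fstMat_liftMat rbar d hd)

end Strict

end Fermat.Agent.TW.DualLift23
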