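import Mathlib
import Fermat.Agent.TW.DualLift23

/-!
# Programme TW (S56), dictionary part 2: `Hom_𝒪(R, k[ε])` injects into derivation classes

Let `DQ` be a `DeformationRingData` for `ρbar` and a condition `𝒟`, and `rbar` a matrix form of
`ρbar`.  To every `𝒪`-algebra map `φ : DQ.R → k[ε]` we attach the `rbar`-derivation `F φ` of the
push-forward of (a strict matrix model of) the universal representation, such that
* `rbar + ε (F φ)` is a continuous strict lift of type `𝒟`;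
* if `F ψ` and `F φ` differ by an inner derivation then `φ = ψ` (uniqueness part of the universal
  property).
The only inputs about `𝒟` are its invariance under isomorphism and under base change along
`DQ.R → k[ε]`.
-/

set_option autoImplicit false
set_option linter.unusedSectionVars false

noncomputable section

namespace Fermat.Agent.TW.Dict23

open Fermat.Agent.S53 IsLocalRing TrivSqZeroExt DualLift23

section Local

variable {𝒪 : Type} [CommRing 𝒪] [IsLocalRing 𝒪]

/-- Every `𝒪`-algebra map from a local ring to `k[ε]` is local. -/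
theorem isLocalHom_of_algHom {R : Type} [CommRing R] [IsLocalRing R] [Algebra 𝒪 R]
    (φ : R →ₐ[𝒪] DualNumber (ResidueField 𝒪)) :
    IsLocalHom (φ : R →+* DualNumber (ResidueField 𝒪)) := by
  set π : R →+* ResidueField 𝒪 :=
    ((fstHom (ResidueField 𝒪) (ResidueField 𝒪) (ResidueField 𝒪)) : DualNumber (ResidueField 𝒪) →+*
      ResidueField 𝒪).comp (φ : R →+* DualNumber (ResidueField 𝒪)) with hπ
  have hπapp : ∀ y, π y = (φ y).fst := fun y => rfl
  have hsurj : Function.Surjective π := by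
    intro z
    obtain ⟨a, rfl⟩ := residue_surjective z
    refine ⟨algebraMap 𝒪 R a, ?_⟩
    rw [hπapp, AlgHom.commutes, DualTest23.algebraMap_apply, fst_inl]
  have hmax : (RingHom.ker π).IsMaximal := RingHom.ker_isMaximal_of_surjective π hsurj
  have hker : RingHom.ker π = maximalIdeal R := IsLocalRing.eq_maximalIdeal hmax
  refine ⟨fun y hy => ?_⟩
  by_contra hny
  have hmem : y ∈ maximalIdeal R := (mem_maximalIdeal y).mpr hny
  rw [← hker, RingHom.mem_ker, hπapp] at hmem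
  have h1 : IsUnit ((φ : R →+* DualNumber (ResidueField 𝒪)) y).fst :=
    (isUnit_iff_isUnit_fst).mp hy
  rw [RingHom.coe_coe, hmem] at h1
  exact not_isUnit_zero h1

/-- Pushing a strict lift forward along a local `𝒪`-algebra map gives a strict lift. -/
theorem isStrictLift_mapMat {A B : Type} [CommRing A] [IsLocalRing A] [Algebra 𝒪 A] [CommRing B]
    [IsLocalRing B] [Algebra 𝒪 B] (φ : A →ₐ[𝒪] B) (hφ : IsLocalHom (φ : A →+* B))
    {rbar : GQ →* M2 (ResidueField 𝒪)} {r : GQ →* M2 A} (h : IsStrictLift rbar r) :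
    IsStrictLift rbar (mapMat (φ : A →+* B) r) := by
  intro σ i j a ha
  have h1 := h σ i j a ha
  have h3 : (φ : A →+* B) (algebraMap 𝒪 A a) = algebraMap 𝒪 B a := φ.commutes a
  have h2 : mapMat (φ : A →+* B) r σ i j - algebraMap 𝒪 B a =
      (φ : A →+* B) (r σ i j - algebraMap 𝒪 A a) := by
    rw [mapMat_apply, map_sub, h3]
  rw [h2]
  by_contra hn
  have hu : IsUnit ((φ : A →+* B) (r σ i j - algebraMap 𝒪 A a)) := by
    rwa [mem_maximalIdeal, mem_nonunits_iff, not_not] at hn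
  exact (mem_maximalIdeal _).mp h1 (hφ.map_nonunit _ hu)

end Local

variable {𝒪 : Type} [CommRing 𝒪] [IsDomain 𝒪] [IsDiscreteValuationRing 𝒪]
  [IsAdicComplete (maximalIdeal 𝒪) 𝒪]
variable {ρbar : ResidualGaloisRep (ResidueField 𝒪)}
variable {𝒟 : ∀ ⦃A : Type⦄ [CommRing A] [IsLocalRing A] [Algebra 𝒪 A], GaloisRepAdic A → Prop}

/-- **Dictionary (generic part).** -/
theorem exists_der_of_algHom (DQ : GaloisRep.DeformationRingData 𝒪 ρbar 𝒟)
    {rbar : GQ →* M2 (ResidueField 𝒪)} (hrbar : GaloisFactorsThroughFiniteLevel rbar)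
    (hρbar : ρbar.IsEquiv (ofMatrixRes rbar hrbar))
    (h𝒟bc : ∀ (φ : DQ.R →ₐ[𝒪] DualNumber (ResidueField 𝒪))
      (hφ : IsLocalHom (φ : DQ.R →+* DualNumber (ResidueField 𝒪))),
      𝒟 (DQ.ρ.baseChangeAlong (φ : DQ.R →+* DualNumber (ResidueField 𝒪)) hφ))
    (h𝒟iso : ∀ ρ₁ ρ₂ : GaloisRepAdic (DualNumber (ResidueField 𝒪)),
      ρ₁.IsEquiv ρ₂ → 𝒟 ρ₁ → 𝒟 ρ₂) :
    ∃ F : (DQ.R →ₐ[𝒪] DualNumber (ResidueField 𝒪)) → (GQ → M2 (ResidueField 𝒪)),
      (∀ φ, ∃ (hd : IsDer rbar (F φ)) (hc : IsContDer (F φ)),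
        𝒟 (ofMatrix (liftMat rbar (F φ) hd) (matCont_liftMat hrbar hd hc))) ∧
      ∀ φ ψ, (∃ M : M2 (ResidueField 𝒪), ∀ σ, F ψ σ = F φ σ + (M * rbar σ - rbar σ * M)) →
        φ = ψ := by
  -- a strict matrix model of the universal representation
  obtain ⟨ru, hru, hstrict, hequ⟩ :=
    exists_isStrictLift_of_residual_isEquiv ρbar hrbar hρbar DQ.ρ DQ.residual_isEquiv
  -- notation
  have hloc : ∀ φ : DQ.R →ₐ[𝒪] DualNumber (ResidueField 𝒪),
      IsLocalHom (φ : DQ.R →+* DualNumber (ResidueField 𝒪)) := fun φ => isLocalHom_of_algHom φ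
  have hstr : ∀ φ : DQ.R →ₐ[𝒪] DualNumber (ResidueField 𝒪),
      IsStrictLift rbar (mapMat (φ : DQ.R →+* DualNumber (ResidueField 𝒪)) ru) :=
    fun φ => isStrictLift_mapMat φ (hloc φ) hstrict
  have hfst : ∀ (φ : DQ.R →ₐ[𝒪] DualNumber (ResidueField 𝒪)) (σ : GQ),
      fstMat (mapMat (φ : DQ.R →+* DualNumber (ResidueField 𝒪)) ru σ) = rbar σ :=
    fun φ => (isStrictLift_iff_fstMat rbar _).mp (hstr φ)
  have hcont : ∀ φ : DQ.R →ₐ[𝒪] DualNumber (ResidueField 𝒪),
      MatCont (mapMat (φ : DQ.R →+* DualNumber (ResidueField 𝒪)) ru) :=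
    fun φ => MatrixModel.matCont_mapMat hru _ (hloc φ)
  -- the base change is the matrix model of the push-forward
  have hbc : ∀ φ : DQ.R →ₐ[𝒪] DualNumber (ResidueField 𝒪),
      (DQ.ρ.baseChangeAlong (φ : DQ.R →+* DualNumber (ResidueField 𝒪)) (hloc φ)).IsEquiv
        (ofMatrix (mapMat (φ : DQ.R →+* DualNumber (ResidueField 𝒪)) ru) (hcont φ)) :=
    fun φ => adicIsEquiv_trans (adicIsEquiv_baseChangeAlong _ (hloc φ) hequ)
      (MatrixModel.baseChangeAlong_ofMatrix _ (hloc φ) ru hru)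
  refine ⟨fun φ => derOf (mapMat (φ : DQ.R →+* DualNumber (ResidueField 𝒪)) ru), ?_, ?_⟩
  · intro φ
    refine ⟨isDer_derOf _ rbar (hfst φ), isContDer_derOf (hcont φ), ?_⟩
    refine h𝒟iso _ _ ?_ (h𝒟bc φ (hloc φ))
    refine adicIsEquiv_trans (hbc φ) ?_
    exact MatrixModel.ofMatrix_isEquiv_of_eq _ _ (liftMat_derOf _ rbar (hfst φ)).symm
  · rintro φ ψ ⟨M, hM⟩
    -- the two base changes are equivalent
    have hd := isDer_derOf _ rbar (hfst φ)
    have hd' := isDer_derOf _ rbar (hfst ψ)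
    have hc := isContDer_derOf (hcont φ)
    have hc' := isContDer_derOf (hcont ψ)
    have h1 := ofMatrix_isEquiv_of_inner hrbar hd hd' hc hc' M hM
    have h2 : (DQ.ρ.baseChangeAlong (φ : DQ.R →+* DualNumber (ResidueField 𝒪)) (hloc φ)).IsEquiv
        (DQ.ρ.baseChangeAlong (ψ : DQ.R →+* DualNumber (ResidueField 𝒪)) (hloc ψ)) := by
      refine adicIsEquiv_trans (hbc φ) ?_
      refine adicIsEquiv_trans
        (MatrixModel.ofMatrix_isEquiv_of_eq (hcont φ) (matCont_liftMat hrbar hd hc)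
          (liftMat_derOf _ rbar (hfst φ)).symm) ?_
      refine adicIsEquiv_trans h1 ?_
      refine adicIsEquiv_trans
        (MatrixModel.ofMatrix_isEquiv_of_eq (matCont_liftMat hrbar hd' hc') (hcont ψ)
          (liftMat_derOf _ rbar (hfst ψ))) ?_
      exact adicIsEquiv_symm (hbc ψ)
    -- residual condition for the base change along `ψ`
    have hres : (DQ.ρ.baseChangeAlong (ψ : DQ.R →+* DualNumber (ResidueField 𝒪))
        (hloc ψ)).residual.IsEquiv (ρbar.baseChangeAlong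
          (ResidueField.map (algebraMap 𝒪 (DualNumber (ResidueField 𝒪))))) :=
      resIsEquiv_trans (adicIsEquiv_residual (hbc ψ))
        (residual_isEquiv_of_isStrictLift ρbar hrbar hρbar (hcont ψ) (hstr ψ))
    obtain ⟨φ₀, -, huniq⟩ := DQ.universal (DualNumber (ResidueField 𝒪))
      DualTest23.residue_surjective _ (h𝒟bc ψ (hloc ψ)) hres
    have e1 : φ = φ₀ := huniq φ ⟨hloc φ, h2⟩
    have e2 : ψ = φ₀ := huniq ψ ⟨hloc ψ, adicIsEquiv_refl _⟩
    rw [e1, e2]

end Fermat.Agent.TW.Dict23
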