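import Mathlib
import Fermat.Agent.TW.Dict23

/-!
# Programme TW (S56), dictionary part 3: the generic dictionary, refined

For a `DeformationRingData` `DQ` and a matrix form `rbar` of `ρbar`:
* `algHom_fst_eq` : all `𝒪`-algebra maps `DQ.R → k[ε]` have the same constant part;
* `eq_of_not_surjective` : the non-surjective `𝒪`-algebra map `R → k[ε]` is unique;
* `exists_der` : there is `F : Hom_𝒪(DQ.R, k[ε]) → (G_ℚ → M₂(k))` with
  - `F φ` an `rbar`-derivation vanishing on an open subgroup,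
  - the base change of the universal representation along `φ` is `rbar + ε (F φ)`,
  - `F φ = 0` if `φ` has no `ε`-part,
  - if `F ψ - F φ` is inner and the base change along `ψ` is of type `𝒟` then `φ = ψ`,
  - if `φ` is surjective with base change of type `𝒟`, then `F φ` is not inner.
No stability property of `𝒟` is used.
-/

set_option autoImplicit false
set_option linter.unusedSectionVars false

noncomputable section

namespace Fermat.Agent.TW.DictGen23

open Fermat.Agent.S53 IsLocalRing TrivSqZeroExt DualLift23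

section Local

variable {𝒪 : Type} [CommRing 𝒪] [IsLocalRing 𝒪]
variable {R : Type} [CommRing R] [IsLocalRing R] [Algebra 𝒪 R]

/-- All `𝒪`-algebra maps `R → k[ε]` have the same constant part. -/
theorem algHom_fst_eq (hres : Function.Surjective (residue R ∘ algebraMap 𝒪 R))
    (φ φ' : R →ₐ[𝒪] DualNumber (ResidueField 𝒪)) (y : R) : (φ y).fst = (φ' y).fst := by
  obtain ⟨a, ha⟩ := hres (residue R y)
  have hmem : y - algebraMap 𝒪 R a ∈ maximalIdeal R := by
    rw [← residue_eq_zero_iff, map_sub, sub_eq_zero]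
    exact ha.symm
  have key : ∀ ψ : R →ₐ[𝒪] DualNumber (ResidueField 𝒪), (ψ y).fst = residue 𝒪 a := by
    intro ψ
    have hloc := Dict23.isLocalHom_of_algHom ψ
    have h1 : (ψ (y - algebraMap 𝒪 R a)).fst = 0 := by
      by_contra hne
      have hu : IsUnit ((ψ : R →+* DualNumber (ResidueField 𝒪)) (y - algebraMap 𝒪 R a)) :=
        isUnit_iff_isUnit_fst.mpr (isUnit_iff_ne_zero.mpr hne)
      exact (mem_maximalIdeal _).mp hmem (hloc.map_nonunit _ hu)
    rw [map_sub, fst_sub, AlgHom.commutes, DualTest23.algebraMap_apply, fst_inl, sub_eq_zero] at h1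
    exact h1
  rw [key φ, key φ']

/-- A map with a nonzero `ε`-part is surjective. -/
theorem surjective_of_snd_ne_zero (φ : R →ₐ[𝒪] DualNumber (ResidueField 𝒪)) {y : R}
    (hy : (φ y).snd ≠ 0) : Function.Surjective φ := by
  obtain ⟨a, ha⟩ := residue_surjective (R := 𝒪) (φ y).fst
  set y₀ := y - algebraMap 𝒪 R a with hy₀
  have h0 : φ y₀ = inr (φ y).snd := by
    rw [hy₀, map_sub, AlgHom.commutes, DualTest23.algebraMap_apply, ha]
    ext <;> simp
  intro w
  obtain ⟨u, hu⟩ := residue_surjective (R := 𝒪) w.fst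
  obtain ⟨v, hv⟩ := residue_surjective (R := 𝒪) (w.snd / (φ y).snd)
  refine ⟨algebraMap 𝒪 R u + algebraMap 𝒪 R v * y₀, ?_⟩
  rw [map_add, map_mul, AlgHom.commutes, AlgHom.commutes, h0, DualTest23.algebraMap_apply,
    DualTest23.algebraMap_apply, hu, hv]
  ext
  · simp
  · simp only [snd_add, snd_inl, snd_mul, fst_inl, snd_inr, smul_eq_mul, fst_inr,
      MulOpposite.op_zero, zero_smul, add_zero, zero_add]
    field_simp

/-- The non-surjective `𝒪`-algebra map `R → k[ε]` is unique. -/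
theorem eq_of_not_surjective (hres : Function.Surjective (residue R ∘ algebraMap 𝒪 R))
    (φ φ' : R →ₐ[𝒪] DualNumber (ResidueField 𝒪)) (h : ¬ Function.Surjective φ)
    (h' : ¬ Function.Surjective φ') : φ = φ' := by
  apply AlgHom.ext
  intro y
  ext
  · exact algHom_fst_eq hres φ φ' y
  · have h1 : (φ y).snd = 0 := by
      by_contra hne
      exact h (surjective_of_snd_ne_zero φ hne)
    have h2 : (φ' y).snd = 0 := by
      by_contra hne
      exact h' (surjective_of_snd_ne_zero φ' hne)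
    rw [h1, h2]

/-- The `𝒪`-algebra endomorphism `a + b ε ↦ a` of `k[ε]`. -/
def constPart : DualNumber (ResidueField 𝒪) →ₐ[𝒪] DualNumber (ResidueField 𝒪) :=
  ((inlAlgHom (ResidueField 𝒪) (ResidueField 𝒪) (ResidueField 𝒪)).comp
    (fstHom (ResidueField 𝒪) (ResidueField 𝒪) (ResidueField 𝒪))).restrictScalars 𝒪

@[simp] theorem constPart_apply (w : DualNumber (ResidueField 𝒪)) :
    constPart (𝒪 := 𝒪) w = inl w.fst := rfl

end Local

variable {𝒪 : Type} [CommRing 𝒪] [IsDomain 𝒪] [IsDiscreteValuationRing 𝒪]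
  [IsAdicComplete (maximalIdeal 𝒪) 𝒪]
variable {ρbar : ResidualGaloisRep (ResidueField 𝒪)}
variable {𝒟 : ∀ ⦃A : Type⦄ [CommRing A] [IsLocalRing A] [Algebra 𝒪 A], GaloisRepAdic A → Prop}

/-- **Dictionary, generic part (refined).** -/
theorem exists_der (DQ : GaloisRep.DeformationRingData 𝒪 ρbar 𝒟)
    {rbar : GQ →* M2 (ResidueField 𝒪)} (hrbar : GaloisFactorsThroughFiniteLevel rbar)
    (hρbar : ρbar.IsEquiv (ofMatrixRes rbar hrbar)) :
    ∃ F : (DQ.R →ₐ[𝒪] DualNumber (ResidueField 𝒪)) → (GQ → M2 (ResidueField 𝒪)),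
      (∀ φ : DQ.R →ₐ[𝒪] DualNumber (ResidueField 𝒪),
        ∃ (hd : IsDer rbar (F φ)) (hc : IsContDer (F φ)),
        ∀ hφ : IsLocalHom (φ : DQ.R →+* DualNumber (ResidueField 𝒪)),
        (DQ.ρ.baseChangeAlong (φ : DQ.R →+* DualNumber (ResidueField 𝒪)) hφ).IsEquiv
          (ofMatrix (liftMat rbar (F φ) hd) (matCont_liftMat hrbar hd hc))) ∧
      (∀ φ : DQ.R →ₐ[𝒪] DualNumber (ResidueField 𝒪), (∀ y, (φ y).snd = 0) → F φ = 0) ∧
      (∀ φ ψ : DQ.R →ₐ[𝒪] DualNumber (ResidueField 𝒪), (∀ hψ : IsLocalHom (ψ : DQ.R →+* DualNumber (ResidueField 𝒪)),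
          𝒟 (DQ.ρ.baseChangeAlong (ψ : DQ.R →+* DualNumber (ResidueField 𝒪)) hψ)) →
        (∃ M : M2 (ResidueField 𝒪), ∀ σ, F ψ σ = F φ σ + (M * rbar σ - rbar σ * M)) → φ = ψ) ∧
      (∀ φ : DQ.R →ₐ[𝒪] DualNumber (ResidueField 𝒪), Function.Surjective φ →
        (∀ hφ : IsLocalHom (φ : DQ.R →+* DualNumber (ResidueField 𝒪)),
          𝒟 (DQ.ρ.baseChangeAlong (φ : DQ.R →+* DualNumber (ResidueField 𝒪)) hφ)) →
        ¬ ∃ M : M2 (ResidueField 𝒪), ∀ σ, F φ σ = M * rbar σ - rbar σ * M) := by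
  -- a strict matrix model of the universal representation
  obtain ⟨ru, hru, hstrict, hequ⟩ :=
    exists_isStrictLift_of_residual_isEquiv ρbar hrbar hρbar DQ.ρ DQ.residual_isEquiv
  have hloc : ∀ φ : DQ.R →ₐ[𝒪] DualNumber (ResidueField 𝒪),
      IsLocalHom (φ : DQ.R →+* DualNumber (ResidueField 𝒪)) :=
    fun φ => Dict23.isLocalHom_of_algHom φ
  have hstr : ∀ φ : DQ.R →ₐ[𝒪] DualNumber (ResidueField 𝒪),
      IsStrictLift rbar (mapMat (φ : DQ.R →+* DualNumber (ResidueField 𝒪)) ru) :=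
    fun φ => Dict23.isStrictLift_mapMat φ (hloc φ) hstrict
  have hfst : ∀ (φ : DQ.R →ₐ[𝒪] DualNumber (ResidueField 𝒪)) (σ : GQ),
      fstMat (mapMat (φ : DQ.R →+* DualNumber (ResidueField 𝒪)) ru σ) = rbar σ :=
    fun φ => (isStrictLift_iff_fstMat rbar _).mp (hstr φ)
  have hcont : ∀ φ : DQ.R →ₐ[𝒪] DualNumber (ResidueField 𝒪),
      MatCont (mapMat (φ : DQ.R →+* DualNumber (ResidueField 𝒪)) ru) :=
    fun φ => MatrixModel.matCont_mapMat hru _ (hloc φ)
  have hbc : ∀ φ : DQ.R →ₐ[𝒪] DualNumber (ResidueField 𝒪),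
      (DQ.ρ.baseChangeAlong (φ : DQ.R →+* DualNumber (ResidueField 𝒪)) (hloc φ)).IsEquiv
        (ofMatrix (mapMat (φ : DQ.R →+* DualNumber (ResidueField 𝒪)) ru) (hcont φ)) :=
    fun φ => adicIsEquiv_trans (adicIsEquiv_baseChangeAlong _ (hloc φ) hequ)
      (MatrixModel.baseChangeAlong_ofMatrix _ (hloc φ) ru hru)
  have hder : ∀ φ : DQ.R →ₐ[𝒪] DualNumber (ResidueField 𝒪),
      IsDer rbar (derOf (mapMat (φ : DQ.R →+* DualNumber (ResidueField 𝒪)) ru)) :=
    fun φ => isDer_derOf _ rbar (hfst φ)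
  have hcd : ∀ φ : DQ.R →ₐ[𝒪] DualNumber (ResidueField 𝒪),
      IsContDer (derOf (mapMat (φ : DQ.R →+* DualNumber (ResidueField 𝒪)) ru)) :=
    fun φ => isContDer_derOf (hcont φ)
  have hbc' : ∀ φ : DQ.R →ₐ[𝒪] DualNumber (ResidueField 𝒪),
      (DQ.ρ.baseChangeAlong (φ : DQ.R →+* DualNumber (ResidueField 𝒪)) (hloc φ)).IsEquiv
        (ofMatrix (liftMat rbar (derOf (mapMat (φ : DQ.R →+* DualNumber (ResidueField 𝒪)) ru))
          (hder φ)) (matCont_liftMat hrbar (hder φ) (hcd φ))) :=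
    fun φ => adicIsEquiv_trans (hbc φ)
      (MatrixModel.ofMatrix_isEquiv_of_eq (hcont φ) (matCont_liftMat hrbar (hder φ) (hcd φ))
        (liftMat_derOf _ rbar (hfst φ)).symm)
  -- the injectivity statement
  have hinj : ∀ φ ψ : DQ.R →ₐ[𝒪] DualNumber (ResidueField 𝒪),
      (∀ hψ : IsLocalHom (ψ : DQ.R →+* DualNumber (ResidueField 𝒪)),
          𝒟 (DQ.ρ.baseChangeAlong (ψ : DQ.R →+* DualNumber (ResidueField 𝒪)) hψ)) →
      (∃ M : M2 (ResidueField 𝒪), ∀ σ,
        derOf (mapMat (ψ : DQ.R →+* DualNumber (ResidueField 𝒪)) ru) σ =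
          derOf (mapMat (φ : DQ.R →+* DualNumber (ResidueField 𝒪)) ru) σ +
            (M * rbar σ - rbar σ * M)) → φ = ψ := by
    rintro φ ψ h𝒟ψ ⟨M, hM⟩
    have h1 := ofMatrix_isEquiv_of_inner hrbar (hder φ) (hder ψ) (hcd φ) (hcd ψ) M hM
    have h2 : (DQ.ρ.baseChangeAlong (φ : DQ.R →+* DualNumber (ResidueField 𝒪)) (hloc φ)).IsEquiv
        (DQ.ρ.baseChangeAlong (ψ : DQ.R →+* DualNumber (ResidueField 𝒪)) (hloc ψ)) :=
      adicIsEquiv_trans (hbc' φ) (adicIsEquiv_trans h1 (adicIsEquiv_symm (hbc' ψ)))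
    have hres : (DQ.ρ.baseChangeAlong (ψ : DQ.R →+* DualNumber (ResidueField 𝒪))
        (hloc ψ)).residual.IsEquiv (ρbar.baseChangeAlong
          (ResidueField.map (algebraMap 𝒪 (DualNumber (ResidueField 𝒪))))) :=
      resIsEquiv_trans (adicIsEquiv_residual (hbc ψ))
        (residual_isEquiv_of_isStrictLift ρbar hrbar hρbar (hcont ψ) (hstr ψ))
    obtain ⟨φ₀, -, huniq⟩ := DQ.universal (DualNumber (ResidueField 𝒪))
      DualTest23.residue_surjective _ (h𝒟ψ (hloc ψ)) hres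
    have e1 : φ = φ₀ := huniq φ ⟨hloc φ, h2⟩
    have e2 : ψ = φ₀ := huniq ψ ⟨hloc ψ, adicIsEquiv_refl _⟩
    rw [e1, e2]
  have hzero : ∀ φ : DQ.R →ₐ[𝒪] DualNumber (ResidueField 𝒪), (∀ y, (φ y).snd = 0) →
      derOf (mapMat (φ : DQ.R →+* DualNumber (ResidueField 𝒪)) ru) = 0 := by
    intro φ h0
    funext σ
    ext i j
    simp only [derOf, sndMat_apply, mapMat_apply, Pi.zero_apply, Matrix.zero_apply]
    exact h0 _
  refine ⟨fun φ => derOf (mapMat (φ : DQ.R →+* DualNumber (ResidueField 𝒪)) ru),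
    fun φ => ⟨hder φ, hcd φ, fun _ => hbc' φ⟩, hzero, hinj, ?_⟩
  -- surjective maps of type `𝒟` have non-inner derivations
  rintro φ hsurj h𝒟φ ⟨M, hM⟩
  set ψ : DQ.R →ₐ[𝒪] DualNumber (ResidueField 𝒪) := (constPart (𝒪 := 𝒪)).comp φ with hψ
  have hψ0 : ∀ y, (ψ y).snd = 0 := by
    intro y
    rw [hψ, AlgHom.comp_apply, constPart_apply, snd_inl]
  have e : ψ = φ := by
    refine hinj ψ φ h𝒟φ ⟨M, fun σ => ?_⟩
    rw [hzero ψ hψ0, Pi.zero_apply, zero_add]
    exact hM σ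
  obtain ⟨y, hy⟩ := hsurj (inr 1)
  have h1 := hψ0 y
  rw [e, hy, snd_inr] at h1
  exact one_ne_zero h1

end Fermat.Agent.TW.DictGen23
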