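/-
Programme TW (S56), pillar (D): ASSEMBLY of `BrickD_SO`, `BrickD_FL` (`TW/Interface.lean`) from the sub-bricks
of `TW/DictInterface.lean` (helper57).
-/
import Fermat.Agent.TW.DictInterface

set_option autoImplicit false
set_option linter.unusedSectionVars false

open Polynomial IsLocalRing

namespace Fermat.Agent.TW.DictAssembly

open Fermat.Agent.TW.Interface Fermat.Agent.TW.DictInterface Fermat.Agent.TW.DualTest23

variable {𝒪 : Type} [CommRing 𝒪] [IsDomain 𝒪] [IsDiscreteValuationRing 𝒪]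
  [IsAdicComplete (maximalIdeal 𝒪) 𝒪] [Finite (ResidueField 𝒪)]

/-- The bundle of all sub-bricks common to the two conditions. -/
structure Common (𝒪 : Type) [CommRing 𝒪] [IsDomain 𝒪] [IsDiscreteValuationRing 𝒪]
    [IsAdicComplete (maximalIdeal 𝒪) 𝒪] [Finite (ResidueField 𝒪)] : Prop where
  existsLift : ExistsLift 𝒪
  liftCocycle : LiftCocycle (k := ResidueField 𝒪)
  liftEquiv : LiftEquivOfCohom (k := ResidueField 𝒪)
  liftTrace : LiftTrace (k := ResidueField 𝒪)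
  liftUnram : LiftUnram (k := ResidueField 𝒪)
  liftUnip : LiftUnip (k := ResidueField 𝒪)
  nonSurjUnique : NonSurjUnique 𝒪
  nonSurjExists : NonSurjExists 𝒪
  trivialLift : TrivialLift 𝒪
  baseChangeResidual : BaseChangeResidual 𝒪
  baseChangeEasy : BaseChangeEasy
  residualUnip : ResidualUnip 𝒪

/-- The ring-lift attached to a deformation ring datum. -/
def ringLift {ρbar : ResidualGaloisRep (ResidueField 𝒪)}
    {𝒟 : ∀ ⦃A : Type⦄ [CommRing A] [IsLocalRing A] [Algebra 𝒪 A], GaloisRepAdic A → Prop}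
    (DQ : GaloisRep.DeformationRingData 𝒪 ρbar 𝒟) : RingLift ρbar where
  R := DQ.R
  residue_surjective := DQ.residue_surjective
  ρ := DQ.ρ
  residual_isEquiv := DQ.residual_isEquiv

/-- Generic assembly: `cond Smin T ρ = (det cyclotomic ∧ atpCond ρ ∧ unramified outside T) ∧ unipotent
at Smin`, where `atpCond` is stable under surjective base change to `k[ε]`, descends to `ρbar`, and
gives the cocycle condition `atp`. -/
theorem brickD_generic (p : ℕ) [Fact p.Prime] (hC : Common 𝒪)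
    (atpCond : ∀ ⦃A : Type⦄ [CommRing A] [IsLocalRing A], GaloisRepAdic A → Prop)
    (atp : ∀ ρbar : ResidualGaloisRep (ResidueField 𝒪),
      (GalQ → Module.End (ResidueField 𝒪) ρbar.V) → Prop)
    (hbc : ∀ (R : Type) [CommRing R] [IsLocalRing R]
      (φ : R →+* DualNumber (ResidueField 𝒪)) (hφ : IsLocalHom φ), Function.Surjective φ →
      ∀ ρ : GaloisRepAdic R, atpCond ρ → atpCond (ρ.baseChangeAlong φ hφ))
    (hres : ∀ (ρbar : ResidualGaloisRep (ResidueField 𝒪)) (X : RingLift ρbar),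
      atpCond X.ρ → atpCond (GaloisRepAdic.ofResidualGaloisRep ρbar))
    (hlift : p ≠ 2 → ∀ (ρbar : ResidualGaloisRep (ResidueField 𝒪))
      (ρA : GaloisRepAdic (DualNumber (ResidueField 𝒪)))
      (c : GalQ → Module.End (ResidueField 𝒪) ρbar.V), IsLiftOf ρbar ρA c →
      (GaloisRepAdic.ofResidualGaloisRep ρbar).DetIsCyclotomic p → ρA.DetIsCyclotomic p →
      atpCond ρA → atp ρbar c) :
    BrickD 𝒪 p (fun Smin T => fun _A _ _ _ ρ =>
        (ρ.DetIsCyclotomic p ∧ atpCond ρ ∧ ∀ q : ℕ, q.Prime → q ∉ T → ρ.IsUnramifiedAt q) ∧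
          ∀ q ∈ Smin, q.Prime → q ≠ p → ρ.IsUnipotentOnInertiaAt q) atp := by
  classical
  intro ρbar S Smin h T hT DQ
  let X : RingLift ρbar := ringLift DQ
  have htype := DQ.isOfType
  refine ⟨⟨⟨h.hdet, hres ρbar X htype.1.2.1, fun q hq hqS => ?_⟩, fun q hq hqp hqne => ?_⟩, ?_, ?_⟩
  · -- unramified outside `Smin`
    have hqp : q ≠ p := fun hqp => hqS (hqp ▸ h.hpSmin)
    have := (h.hmin q hq hqp).not.1 hqS
    exact not_not.1 this
  · exact hC.residualUnip ρbar X q (htype.2 q hq hqp hqne)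
  · exact (hC.nonSurjUnique DQ.R DQ.residue_surjective).2
  · -- the map `F`
    have hloc : ∀ φ : DQ.R →ₐ[𝒪] DualNumber (ResidueField 𝒪),
        IsLocalHom (φ : DQ.R →+* DualNumber (ResidueField 𝒪)) :=
      (hC.nonSurjUnique DQ.R DQ.residue_surjective).1
    -- the base changes
    let ρφ : (DQ.R →ₐ[𝒪] DualNumber (ResidueField 𝒪)) → GaloisRepAdic (DualNumber (ResidueField 𝒪)) :=
      fun φ => DQ.ρ.baseChangeAlong (φ : DQ.R →+* DualNumber (ResidueField 𝒪)) (hloc φ)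
    have hresφ : ∀ φ, (ρφ φ).residual.IsEquiv (ρbar.baseChangeAlong
        (ResidueField.map (algebraMap 𝒪 (DualNumber (ResidueField 𝒪))))) :=
      fun φ => hC.baseChangeResidual ρbar X φ (hloc φ)
    have hex : ∀ φ, ∃ c : GalQ → Module.End (ResidueField 𝒪) ρbar.V, IsLiftOf ρbar (ρφ φ) c :=
      fun φ => hC.existsLift ρbar (ρφ φ) (hresφ φ)
    -- type of the surjective base changes
    have htypeφ : ∀ φ : DQ.R →ₐ[𝒪] DualNumber (ResidueField 𝒪), Function.Surjective φ →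
        ((ρφ φ).DetIsCyclotomic p ∧ atpCond (ρφ φ) ∧
          ∀ q : ℕ, q.Prime → q ∉ T → (ρφ φ).IsUnramifiedAt q) ∧
        ∀ q ∈ Smin, q.Prime → q ≠ p → (ρφ φ).IsUnipotentOnInertiaAt q := by
      intro φ hφs
      obtain ⟨h1, h2, h3⟩ := hC.baseChangeEasy DQ.R (DualNumber (ResidueField 𝒪))
        (φ : DQ.R →+* DualNumber (ResidueField 𝒪)) (hloc φ) DQ.ρ
      exact ⟨⟨h1 p htype.1.1, hbc DQ.R _ (hloc φ) hφs DQ.ρ htype.1.2.1,
        fun q hq hqT => h2 q (htype.1.2.2 q hq hqT)⟩,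
        fun q hq hqp hqne => h3 q (htype.2 q hq hqp hqne)⟩
    -- uniqueness from the universal property
    have huniv : ∀ φ φ' : DQ.R →ₐ[𝒪] DualNumber (ResidueField 𝒪), Function.Surjective φ' →
        (ρφ φ).IsEquiv (ρφ φ') → φ = φ' := by
      intro φ φ' hφ's hequiv
      obtain ⟨φ0, -, huniq⟩ := DQ.universal (DualNumber (ResidueField 𝒪))
        DualTest23.residue_surjective (ρφ φ') (htypeφ φ' hφ's) (hresφ φ')
      rw [huniq φ ⟨hloc φ, hequiv⟩, huniq φ' ⟨hloc φ', ⟨GaloisRepAdic.Equiv.refl _⟩⟩]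
    refine ⟨fun φ => (hex φ).choose, fun φ hφs => ⟨?_, ?_⟩, fun φ φ' hφs hφ's hcoh => ?_⟩
    · -- Selmer cocycle
      have hl := (hex φ).choose_spec
      obtain ⟨⟨hdetφ, hatp, hunr⟩, hunip⟩ := htypeφ φ hφs
      obtain ⟨hmul, hlev⟩ := hC.liftCocycle ρbar (ρφ φ) _ hl
      exact ⟨⟨hmul, hC.liftTrace p ρbar (ρφ φ) _ hl h.hdet hdetφ, hlev⟩,
        fun q hq hqT P hP σ hσ => hC.liftUnram ρbar (ρφ φ) _ hl q (hunr q hq hqT) P hP σ hσ,
        fun q hq hqp hqne P hP σ hσ =>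
          hC.liftUnip ρbar (ρφ φ) _ hl q (hunip q hq hqp hqne) P hP σ hσ,
        hlift h.hp2 ρbar (ρφ φ) _ hl h.hdet hdetφ hatp⟩
    · -- not null-cohomologous
      intro hcoh
      obtain ⟨ψ, hψ⟩ := hC.nonSurjExists DQ.R DQ.residue_surjective
      have h0 : IsLiftOf ρbar (ρφ ψ) 0 := hC.trivialLift ρbar X ψ (hloc ψ) hψ
      have := huniv ψ φ hφs (hC.liftEquiv ρbar (ρφ ψ) (ρφ φ) 0 _ h0 (hex φ).choose_spec hcoh)
      exact hψ (this ▸ hφs)
    · exact huniv φ φ' hφ's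
        (hC.liftEquiv ρbar (ρφ φ) (ρφ φ') _ _ (hex φ).choose_spec (hex φ').choose_spec hcoh)

/-- **Pillar (D), strict-ordinary version.** -/
theorem brickD_SO (p : ℕ) [Fact p.Prime] (hC : Common 𝒪)
    (hbc : BaseChangeSO) (hres : ResidualSO 𝒪) (hlift : LiftSO (k := ResidueField 𝒪)) :
    BrickD_SO 𝒪 p :=
  brickD_generic p hC (fun _A _ _ ρ => ρ.IsStrictOrdinaryAt p) (fun ρbar => SOLocal ρbar p)
    (fun R _ _ φ hφ _ ρ hρ => hbc R _ φ hφ ρ p hρ)
    (fun ρbar X hX => hres ρbar X p hX)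
    (fun hp2 ρbar ρA c hl h1 h2 h3 => hlift p hp2 ρbar ρA c hl h1 h2 h3)

/-- **Pillar (D), flat version.** -/
theorem brickD_FL (p : ℕ) [Fact p.Prime] (hC : Common 𝒪)
    (hbc : BaseChangeFL) (hres : ResidualFL 𝒪) (hlift : LiftFL (k := ResidueField 𝒪)) :
    BrickD_FL 𝒪 p :=
  brickD_generic p hC (fun _A _ _ ρ => ρ.IsFlatAt p) (fun ρbar => FLLocal ρbar p)
    (fun R _ _ φ hφ hφs ρ hρ => hbc R _ φ hφ hφs ρ p hρ)
    (fun ρbar X hX => hres ρbar X p hX)
    (fun _ ρbar ρA c hl _ _ h3 => hlift p ρbar ρA c hl h3)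

end Fermat.Agent.TW.DictAssembly
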