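/-
Programme TW (S56), pillar (S), brick LOC-SO (helper45): inertia at `p` and the `p`-th roots of unity.

Main result `exists_inertia_cyclo`: for every valuation subring `P` of `ℚ̄` over `p` and every
`a` prime to `p` there is `τ` in the inertia group `I_P` with `τ μ = μ ^ a` for all `μ ∈ μ_p(ℚ̄)`
(`ℚ(ζ_p)/ℚ` is totally ramified at `p`).  Proof: profinite transitivity + surjectivity of the
stabiliser onto the residual automorphism group (Mathlib `RingTheory/Invariant/Profinite`), applied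
to `Gal(ℚ̄/ℚ(ζ_p))` acting on `ℤ̄`; the prime of `ℤ[ζ_p]` over `p` is unique with residue field `𝔽_p`.
-/
import Mathlib
import Fermat.Agent.Lib.FrobeniusExists
import Fermat.Agent.S13.UnramVal

set_option autoImplicit false
set_option linter.style.haveILetI false

open scoped Pointwise
open Fermat.Agent.Lib.FrobeniusExists

namespace Fermat.Agent.TW.InertiaCyclo45

section NF

open NumberField

variable (p : ℕ) [hp : Fact p.Prime] (K : Type) [Field K] [NumberField K]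
  [hK : IsCyclotomicExtension {p} ℚ K]

theorem prime_over_p_unique (P P' : Ideal (integralClosure ℤ K)) [hP₁ : P.IsPrime]
    [hP₂ : P.LiesOver (Ideal.span {(p : ℤ)})] [hP₁' : P'.IsPrime]
    [hP₂' : P'.LiesOver (Ideal.span {(p : ℤ)})] : P = P' := by
  have hζ := hK.zeta_spec
  have h1 := IsCyclotomicExtension.Rat.eq_span_zeta_sub_one_of_liesOver' p K hζ
    (P := (P : Ideal (𝓞 K))) (hP₁ := hP₁) (hP₂ := hP₂)
  have h2 := IsCyclotomicExtension.Rat.eq_span_zeta_sub_one_of_liesOver' p K hζ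
    (P := (P' : Ideal (𝓞 K))) (hP₁ := hP₁') (hP₂ := hP₂')
  exact h1.trans h2.symm

theorem exists_int_sub_mem (P : Ideal (integralClosure ℤ K)) [hP₁ : P.IsPrime]
    [hP₂ : P.LiesOver (Ideal.span {(p : ℤ)})] (x : integralClosure ℤ K) :
    ∃ m : ℤ, x - (m : integralClosure ℤ K) ∈ P := by
  have hdeg : Ideal.inertiaDeg P ℤ = 1 :=
    IsCyclotomicExtension.Rat.inertiaDeg_eq_of_prime p K (P := (P : Ideal (𝓞 K)))
      (hP₁ := hP₁) (hP₂ := hP₂)
  have hpmax : (Ideal.span {(p : ℤ)}).IsMaximal := Int.ideal_span_isMaximal_of_prime p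
  have hPmax : P.IsMaximal := Ideal.IsMaximal.of_liesOver_isMaximal P (Ideal.span {(p : ℤ)})
  rw [Ideal.inertiaDeg_eq_of_isMaximal (Ideal.span {(p : ℤ)}) P] at hdeg
  let _ := Ideal.Quotient.field (Ideal.span {(p : ℤ)})
  let _ := Ideal.Quotient.field P
  have hbt := Subalgebra.bot_eq_top_of_finrank_eq_one hdeg
  have hx : Ideal.Quotient.mk P x ∈ (⊥ : Subalgebra (ℤ ⧸ Ideal.span {(p : ℤ)}) _) := by
    rw [hbt]; exact Algebra.mem_top
  obtain ⟨n, hn⟩ := Algebra.mem_bot.mp hx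
  obtain ⟨m, rfl⟩ := Ideal.Quotient.mk_surjective n
  refine ⟨m, ?_⟩
  rw [Ideal.Quotient.algebraMap_mk_of_liesOver, eq_intCast] at hn
  rw [← Ideal.Quotient.eq]
  exact hn.symm

end NF

attribute [local instance] isGalois_Qbar isIntegral_Qbar

noncomputable section

variable (K : IntermediateField ℚ Qbar)

/-- `Gal(ℚ̄/K)`. -/
abbrev GK : Type := Qbar ≃ₐ[K] Qbar

/-- The ring of integers of `K` (as an integral closure). -/
abbrev OK : Type := integralClosure ℤ K

/-- The inclusion `𝓞_K → ℤ̄`. -/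
def toZbar : OK K →+* Zbar :=
  ((algebraMap K Qbar).comp (integralClosure ℤ K).val.toRingHom).codRestrict Zbar.toSubring
    (fun a => by
      show IsIntegral ℤ (algebraMap K Qbar (a : K))
      exact a.2.map (IsScalarTower.toAlgHom ℤ K Qbar))

instance algOKZbar : Algebra (OK K) Zbar := (toZbar K).toAlgebra

theorem coe_algebraMap_OK (a : OK K) :
    ((algebraMap (OK K) Zbar a : Zbar) : Qbar) = ((a : K) : Qbar) := rfl

instance smulCommClass_GK : SMulCommClass (GK K) (OK K) Zbar where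
  smul_comm g a b := by
    apply Subtype.ext
    simp only [Algebra.smul_def, integralClosure.coe_smul, MulMemClass.coe_mul, smul_mul',
      coe_algebraMap_OK]
    congr 1
    exact g.commutes (a : K)

/-- discrete topology on `Zbar` -/
local instance instTopZbar45 : TopologicalSpace Zbar := ⊥

local instance : DiscreteTopology Zbar := ⟨rfl⟩

theorem continuousSMul_GK : ContinuousSMul (GK K) Zbar := by
  rw [continuousSMul_iff_stabilizer_isOpen]
  intro b
  have h := stabilizer_isOpen_of_isIntegral (K := K) (L := Qbar) (b : Qbar)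
  convert h using 2
  ext g
  simp only [MulAction.mem_stabilizer_iff]
  constructor
  · intro hg
    have := congrArg Subtype.val hg
    simpa using this
  · intro hg
    apply Subtype.ext
    simpa using hg

theorem isInvariant_GK : Algebra.IsInvariant (OK K) Zbar (GK K) := by
  constructor
  intro b hb
  have hfix : ∀ g : GK K, g (b : Qbar) = (b : Qbar) := by
    intro g
    have := congrArg Subtype.val (hb g)
    simpa using this
  obtain ⟨y, hy⟩ := (InfiniteGalois.mem_range_algebraMap_iff_fixed (k := K) (b : Qbar)).mpr hfix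
  have hint : IsIntegral ℤ y := by
    have hb' : IsIntegral ℤ (algebraMap K Qbar y) := hy ▸ b.2
    exact (isIntegral_algebraMap_iff (algebraMap K Qbar).injective).mp hb'
  exact ⟨⟨y, hint⟩, Subtype.ext hy⟩

attribute [local instance] continuousSMul_GK isInvariant_GK continuousSMul_Zbar isInvariant_Zbar

theorem coe_smul_GQ (σ : GQ) (b : Zbar) : ((σ • b : Zbar) : Qbar) = σ (b : Qbar) := rfl

theorem coe_smul_GK (h : GK K) (b : Zbar) : ((h • b : Zbar) : Qbar) = h (b : Qbar) := rfl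

/-- Primitive `p`-th roots of unity are conjugate over `ℚ`. -/
theorem exists_GQ_pow {p : ℕ} (hp : p.Prime) {ζ : Qbar} (hζ : IsPrimitiveRoot ζ p) (a : ℕ)
    (ha : ¬ p ∣ a) : ∃ ρ : GQ, ρ ζ = ζ ^ a := by
  have hcop : Nat.Coprime a p := ((Nat.Prime.coprime_iff_not_dvd hp).mpr ha).symm
  have h1 : minpoly ℤ ζ = minpoly ℤ (ζ ^ a) := hζ.minpoly_eq_pow_coprime hcop
  have hint : IsIntegral ℤ ζ := hζ.isIntegral hp.pos
  have h2 : minpoly ℚ ζ = minpoly ℚ (ζ ^ a) := by
    rw [minpoly.isIntegrallyClosed_eq_field_fractions' ℚ hint,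
      minpoly.isIntegrallyClosed_eq_field_fractions' ℚ (hint.pow a), h1]
  have hconj : IsConjRoot ℚ (ζ ^ a) ζ := h2.symm
  exact hconj.exists_algEquiv


/-- **Inertia at `p` acts on `μ_p` through every exponent prime to `p`.** -/
theorem exists_inertia_cyclo (p : ℕ) (hp : p.Prime) (P : ValuationSubring Qbar)
    (hP : P.LiesOverPrime p) (a : ℕ) (ha : ¬ p ∣ a) :
    ∃ τ ∈ P.inertiaSubgroupIn ℚ, ∀ μ : Qbar, μ ^ p = 1 → τ μ = μ ^ a := by
  haveI : Fact p.Prime := ⟨hp⟩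
  haveI : NeZero (p : Qbar) := ⟨by exact_mod_cast hp.ne_zero⟩
  obtain ⟨ζ, hζ⟩ := HasEnoughRootsOfUnity.exists_primitiveRoot Qbar p
  -- the field `K = ℚ(ζ)`
  let K : IntermediateField ℚ Qbar := IntermediateField.adjoin ℚ {ζ}
  haveI hcyc : IsCyclotomicExtension {p} ℚ K :=
    hζ.intermediateField_adjoin_isCyclotomicExtension ℚ
  haveI : NumberField K := IsCyclotomicExtension.numberField {p} ℚ K
  have hζK : ζ ∈ K := IntermediateField.mem_adjoin_simple_self ℚ ζ
  -- the prime `Q` of `Zbar` attached to `P`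
  have hZV : ∀ b : Zbar, (b : Qbar) ∈ P := fun b => mem_valuationSubring_of_isIntegral P b.2
  let ι : Zbar →+* P := (algebraMap Zbar Qbar).codRestrict P.toSubring hZV
  let Q : Ideal Zbar := Ideal.comap ι (IsLocalRing.maximalIdeal P)
  have hQmem : ∀ b : Zbar, b ∈ Q ↔ (b : Qbar) ∈ P.nonunits := by
    intro b
    rw [Ideal.mem_comap, ← ValuationSubring.coe_mem_nonunits_iff]
    rfl
  haveI hQprime : Q.IsPrime := Ideal.comap_isPrime ι _
  have hPmax : (Ideal.span {(p : ℤ)}).IsMaximal := Int.ideal_span_isMaximal_of_prime p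
  haveI hlo : Q.LiesOver (Ideal.span {(p : ℤ)}) := by
    rw [Ideal.liesOver_iff]
    refine hPmax.eq_of_le (Ideal.IsPrime.under ℤ Q).ne_top ?_
    rw [Ideal.span_le]
    intro z hz
    rw [Set.mem_singleton_iff] at hz
    subst hz
    change algebraMap ℤ Zbar (p : ℤ) ∈ Q
    rw [hQmem]
    have hV' : (p : Qbar) ∈ P.nonunits := hP
    simpa using hV'
  -- an automorphism raising `ζ` to the `a`-th power
  obtain ⟨ρ, hρ⟩ := exists_GQ_pow hp hζ a ha
  -- the contractions of `Q` and `ρ • Q` to `𝓞_K` agree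
  haveI hlo' : (ρ • Q).LiesOver (Ideal.span {(p : ℤ)}) := inferInstance
  have hunder : ∀ X : Ideal Zbar, X.IsPrime → X.LiesOver (Ideal.span {(p : ℤ)}) →
      (X.under (OK K)).LiesOver (Ideal.span {(p : ℤ)}) := by
    intro X _ hX
    rw [Ideal.liesOver_iff, Ideal.under_under]
    exact hX.over
  haveI h𝔭lo : (Q.under (OK K)).LiesOver (Ideal.span {(p : ℤ)}) := hunder Q hQprime hlo
  haveI h𝔭lo' : ((ρ • Q).under (OK K)).LiesOver (Ideal.span {(p : ℤ)}) :=
    hunder (ρ • Q) inferInstance hlo'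
  haveI hρQ : (ρ • Q).IsPrime := inferInstance
  haveI h1 : ((ρ • Q).under (OK K)).IsPrime := inferInstance
  haveI h2 : (Q.under (OK K)).IsPrime := inferInstance
  have hPQ : (ρ • Q).under (OK K) = Q.under (OK K) :=
    prime_over_p_unique p K (P := (ρ • Q).under (OK K)) (P' := Q.under (OK K))
      (hP₁ := h1) (hP₂ := h𝔭lo') (hP₁' := h2) (hP₂' := h𝔭lo)
  obtain ⟨h, hh⟩ := Algebra.IsInvariant.exists_smul_of_under_eq_of_profinite
    (A := OK K) (G := GK K) (ρ • Q) Q hPQ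
  -- `σ₁ = h ∘ ρ` stabilises `Q` and raises `ζ` to the `a`-th power
  let σ₁ : GQ := (h.restrictScalars ℚ) * ρ
  have hσ₁ζ : σ₁ ζ = ζ ^ a := by
    show h (ρ ζ) = ζ ^ a
    rw [hρ, map_pow]
    congr 1
    exact h.commutes ⟨ζ, hζK⟩
  have hσ₁Q : σ₁ • Q = Q := by
    conv_rhs => rw [hh]
    ext b
    simp only [Ideal.mem_pointwise_smul_iff_inv_smul_mem]
    have hb : σ₁⁻¹ • b = ρ⁻¹ • (h⁻¹ • b) := Subtype.ext rfl
    rw [hb]
  let s₁ : MulAction.stabilizer GQ Q := ⟨σ₁, hσ₁Q⟩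
  let e₁ := Ideal.Quotient.stabilizerHom Q (Ideal.span {(p : ℤ)}) GQ s₁
  have he₁ : ∀ b : Zbar, e₁ (Ideal.Quotient.mk Q b) = Ideal.Quotient.mk Q (σ₁ • b) :=
    fun b => rfl
  -- `e₁` is linear over `𝓞_K / 𝔭` because that field is `𝔽_p`
  let 𝔭 : Ideal (OK K) := Q.under (OK K)
  have hcomm : ∀ x : OK K ⧸ 𝔭, e₁.toRingEquiv (algebraMap (OK K ⧸ 𝔭) (Zbar ⧸ Q) x) =
      algebraMap (OK K ⧸ 𝔭) (Zbar ⧸ Q) x := by
    intro x
    obtain ⟨y, rfl⟩ := Ideal.Quotient.mk_surjective x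
    obtain ⟨m, hm⟩ := exists_int_sub_mem p K (P := 𝔭) (hP₁ := h2) (hP₂ := h𝔭lo) y
    have hy : Ideal.Quotient.mk 𝔭 y = ((m : ℤ) : OK K ⧸ 𝔭) := by
      rw [← map_intCast (Ideal.Quotient.mk 𝔭)]
      exact Ideal.Quotient.eq.mpr hm
    rw [hy, map_intCast]
    exact map_intCast e₁.toRingEquiv m
  let e₁' : (Zbar ⧸ Q) ≃ₐ[OK K ⧸ 𝔭] (Zbar ⧸ Q) := AlgEquiv.ofRingEquiv (f := e₁.toRingEquiv) hcomm
  obtain ⟨h₂, hh₂⟩ := Ideal.Quotient.stabilizerHom_surjective_of_profinite (G := GK K) 𝔭 Q e₁'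
  have hh₂' : ∀ b : Zbar, h₂.1 • b - σ₁ • b ∈ Q := by
    intro b
    have h1 := DFunLike.congr_fun hh₂ (Ideal.Quotient.mk Q b)
    rw [Ideal.Quotient.stabilizerHom_apply] at h1
    have h3 : e₁' (Ideal.Quotient.mk Q b) = Ideal.Quotient.mk Q (σ₁ • b) := he₁ b
    rw [h3] at h1
    exact Ideal.Quotient.eq.mp h1
  -- `τ = h₂⁻¹ ∘ σ₁` is in the inertia group and raises `ζ` to the `a`-th power
  let τ : GQ := (h₂.1.restrictScalars ℚ)⁻¹ * σ₁
  have hτζ : τ ζ = ζ ^ a := by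
    show h₂.1⁻¹ (σ₁ ζ) = ζ ^ a
    rw [hσ₁ζ, map_pow]
    congr 1
    exact (h₂.1⁻¹).commutes ⟨ζ, hζK⟩
  have hτQ : ∀ b : Zbar, τ • b - b ∈ Q := by
    intro b
    have h1 : τ • b - b = h₂.1⁻¹ • (σ₁ • b - h₂.1 • b) := by
      rw [smul_sub, inv_smul_smul]
      rfl
    rw [h1]
    have h3 : (σ₁ • b - h₂.1 • b) ∈ h₂.1 • Q := by
      rw [h₂.2]
      have := Q.neg_mem (hh₂' b)
      rwa [neg_sub] at this
    exact Ideal.mem_pointwise_smul_iff_inv_smul_mem.mp h3
  refine ⟨τ, Fermat.Agent.S13.UnramVal.mem_inertiaSubgroupIn_qbar P hp hP τ ?_, ?_⟩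
  · intro x hx
    exact (hQmem _).mp (hτQ ⟨x, hx⟩)
  · intro μ hμ
    obtain ⟨i, -, rfl⟩ := hζ.eq_pow_of_pow_eq_one hμ
    rw [map_pow, hτζ, ← pow_mul, ← pow_mul, mul_comm]

end

end Fermat.Agent.TW.InertiaCyclo45
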