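/-
Programme TW (S56), brick B4 (strict-ordinary local bound), helper45.

`KummerLocal45`: local Kummer theory at `p` for `Γ_p = Gal(ℚ̄_p/ℚ_p)`.

Main results (`p` an odd prime, `Ω = PadicAlgCl p`):

* `padic_decomp`: every `a ∈ ℚ_pˣ` is `p^j (1+p)^k w^p` (so `ℚ_pˣ/(ℚ_pˣ)^p` is generated by `p`, `1+p`);
* `kummer_span`: the abstract Kummer computation in a commutative group with a group action;
* `exists_span_zmod`: the `ZMod p`-space of smooth `χ`-twisted 1-cocycles `Γ_p → ZMod p`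
  (`c (σ τ) = c σ + χ σ * c τ`, `χ` the mod `p` cyclotomic character) is spanned by the coboundary
  `χ - 1` and two more cocycles (the Kummer cocycles of `p` and of `1 + p`);
* `exists_span_field`: the same with coefficients in a finite field `k` of characteristic `p`
  (so `dim_k Z¹(Γ_p, k(χ)) ≤ 3`, i.e. `dim_k H¹(Γ_p, k(χ)) ≤ 2`).

"Smooth" = right-invariant under `Gal(ℚ̄_p/E)` for some finite `E/ℚ_p`; this is what
`IsLevel₁ (pullSets (localGaloisToGlobal p))` unfolds to (via `LevelBridge13.comap_fixingSubgroup_eq`).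
Hilbert 90 at finite level is `PT.BR.InfGalois13.hilbert90_level`.
-/
import Mathlib
import Fermat.Agent.PT.BR.InfGalois13

set_option autoImplicit false
set_option linter.style.haveILetI false

namespace Fermat.Agent.TW.KummerLocal45

open PadicInt Polynomial

section Padic

variable (p : ℕ) [hp : Fact p.Prime]

theorem binom_expand {R : Type*} [CommRing R] (hp2 : p ≠ 2) (t : R) :
    (p : R) ^ 3 ∣ ((1 : R) + p * t) ^ p - (1 + (p : R) ^ 2 * t) := by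
  have h3 : 3 ≤ p := by
    have := hp.out.two_le
    omega
  obtain ⟨n, hn⟩ : ∃ n, p = n + 3 := ⟨p - 3, by omega⟩
  have hrange : Finset.range (p + 1) = Finset.range (n + 1 + 1 + 1 + 1) := by rw [hn]
  rw [add_comm (1 : R), add_pow, hrange, Finset.sum_range_succ', Finset.sum_range_succ',
    Finset.sum_range_succ']
  simp only [one_pow, mul_one, pow_zero, Nat.choose_zero_right, Nat.cast_one, zero_add, pow_one,
    Nat.choose_one_right]
  have hrest : ∀ m, (p : R) ^ 3 ∣ ((p : R) * t) ^ (m + 1 + 1 + 1) * (p.choose (m + 1 + 1 + 1) : R) := by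
    intro m
    refine Dvd.dvd.mul_right ?_ _
    rw [mul_pow]
    refine Dvd.dvd.mul_right ?_ _
    exact pow_dvd_pow _ (by omega)
  have h2 : (p : R) ^ 3 ∣ ((p : R) * t) ^ (1 + 1) * (p.choose (1 + 1) : R) := by
    have hdvd : p ∣ p.choose 2 := hp.out.dvd_choose_self (by norm_num) (by omega)
    obtain ⟨c, hc⟩ := hdvd
    rw [show (1 + 1 : ℕ) = 2 from rfl, hc]
    refine ⟨t ^ 2 * c, ?_⟩
    push_cast
    ring
  have : (∑ x ∈ Finset.range (n + 1), ((p : R) * t) ^ (x + 1 + 1 + 1) * (p.choose (x + 1 + 1 + 1) : R) +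
        ((p : R) * t) ^ (1 + 1) * (p.choose (1 + 1) : R) + (p : R) * t * p + 1) - (1 + (p : R) ^ 2 * t) =
      ∑ x ∈ Finset.range (n + 1), ((p : R) * t) ^ (x + 1 + 1 + 1) * (p.choose (x + 1 + 1 + 1) : R) +
        ((p : R) * t) ^ (1 + 1) * (p.choose (1 + 1) : R) := by ring
  rw [this]
  exact dvd_add (Finset.dvd_sum fun m _ => hrest m) h2

theorem norm_one_add_p_mul (t : ℤ_[p]) : ‖(1 : ℤ_[p]) + p * t‖ = 1 := by
  have hp1 : (1 : ℝ) < p := by exact_mod_cast hp.out.one_lt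
  have hlt : ‖(p : ℤ_[p]) * t‖ < 1 := by
    rw [norm_mul, PadicInt.norm_p]
    have h1 : ‖t‖ ≤ 1 := PadicInt.norm_le_one t
    have : (p : ℝ)⁻¹ < 1 := inv_lt_one_of_one_lt₀ hp1
    calc (p : ℝ)⁻¹ * ‖t‖ ≤ (p : ℝ)⁻¹ * 1 := by gcongr
      _ < 1 := by simpa using this
  have hne : ‖(1 : ℤ_[p])‖ ≠ ‖(p : ℤ_[p]) * t‖ := by
    rw [norm_one]
    exact (ne_of_lt hlt).symm
  rw [PadicInt.norm_add_eq_max_of_ne hne, norm_one]
  exact max_eq_left hlt.le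

/-- Every `1 + p² t` is a `p`-th power in `ℤ_p` (`p` odd). -/
theorem exists_pow_eq_one_add_sq (hp2 : p ≠ 2) (t : ℤ_[p]) :
    ∃ w : ℤ_[p], w ^ p = 1 + (p : ℤ_[p]) ^ 2 * t := by
  set v : ℤ_[p] := 1 + (p : ℤ_[p]) ^ 2 * t with hv
  set F : ℤ_[p][X] := X ^ p - C v with hF
  set a : ℤ_[p] := 1 + p * t with ha
  have hp1 : (1 : ℝ) < p := by exact_mod_cast hp.out.one_lt
  have hp0 : (0 : ℝ) < p := by linarith
  have hFa : F.aeval a = a ^ p - v := by simp [hF]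
  have hF'a : F.derivative.aeval a = p * a ^ (p - 1) := by
    simp [hF, derivative_X_pow]
  have ha1 : ‖a‖ = 1 := norm_one_add_p_mul p t
  have h3 : ‖a ^ p - v‖ ≤ (p : ℝ) ^ (-(3 : ℕ) : ℤ) := by
    rw [PadicInt.norm_le_pow_iff_mem_span_pow, Ideal.mem_span_singleton]
    exact binom_expand p hp2 t
  have hnorm : ‖F.aeval a‖ < ‖F.derivative.aeval a‖ ^ 2 := by
    rw [hFa, hF'a, norm_mul, norm_pow, ha1, one_pow, mul_one, PadicInt.norm_p]
    refine lt_of_le_of_lt h3 ?_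
    rw [← zpow_natCast, inv_zpow']
    apply zpow_lt_zpow_right₀ hp1
    norm_num
  obtain ⟨z, hz, -⟩ := hensels_lemma hnorm
  refine ⟨z, ?_⟩
  have : F.aeval z = z ^ p - v := by simp [hF]
  rw [this, sub_eq_zero] at hz
  exact hz

/-- `(1+p)^k = 1 + k p + p² s`. -/
theorem one_add_p_pow (k : ℕ) :
    ∃ s : ℤ_[p], ((1 : ℤ_[p]) + p) ^ k = 1 + k * p + (p : ℤ_[p]) ^ 2 * s := by
  induction k with
  | zero => exact ⟨0, by simp⟩
  | succ k ih =>
    obtain ⟨s, hs⟩ := ih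
    refine ⟨s + k + p * s, ?_⟩
    rw [pow_succ, hs]
    push_cast
    ring

theorem isUnit_one_add_p : IsUnit ((1 : ℤ_[p]) + p) := by
  rw [PadicInt.isUnit_iff]
  have hp1 : (1 : ℝ) < p := by exact_mod_cast hp.out.one_lt
  have hlt : ‖(p : ℤ_[p])‖ < 1 := by
    rw [PadicInt.norm_p]
    exact inv_lt_one_of_one_lt₀ hp1
  have hne : ‖(1 : ℤ_[p])‖ ≠ ‖(p : ℤ_[p])‖ := by
    rw [norm_one]
    exact (ne_of_lt hlt).symm
  rw [PadicInt.norm_add_eq_max_of_ne hne, norm_one]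
  exact max_eq_left hlt.le

/-- `1 + p y = (1+p)^k (1 + p² t)`. -/
theorem one_add_p_mul_decomp (y : ℤ_[p]) :
    ∃ (k : ℕ) (t : ℤ_[p]), (1 : ℤ_[p]) + p * y = (1 + p) ^ k * (1 + (p : ℤ_[p]) ^ 2 * t) := by
  set k : ℕ := (PadicInt.toZMod y).val with hk
  have hker : y - (k : ℤ_[p]) ∈ RingHom.ker (PadicInt.toZMod (p := p)) := by
    rw [RingHom.mem_ker, map_sub, map_natCast, hk, ZMod.natCast_zmod_val, sub_self]
  rw [PadicInt.ker_toZMod, PadicInt.maximalIdeal_eq_span_p, Ideal.mem_span_singleton] at hker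
  obtain ⟨y', hy'⟩ := hker
  obtain ⟨s, hs⟩ := one_add_p_pow p k
  obtain ⟨u, hu⟩ := (isUnit_one_add_p p).pow k
  refine ⟨k, ↑u⁻¹ * (y' - s), ?_⟩
  have hy : y = k + p * y' := by rw [← hy']; ring
  have h1 : ((1 : ℤ_[p]) + p) ^ k * (↑u⁻¹ : ℤ_[p]) = 1 := by rw [← hu]; exact u.mul_inv
  calc (1 : ℤ_[p]) + p * y = (1 + k * p + (p : ℤ_[p]) ^ 2 * s) + (p : ℤ_[p]) ^ 2 * (y' - s) := by
        rw [hy]; ring
    _ = (1 + p) ^ k + ((1 + p) ^ k * (↑u⁻¹ : ℤ_[p])) * ((p : ℤ_[p]) ^ 2 * (y' - s)) := by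
        rw [h1, hs, one_mul]
    _ = (1 + p) ^ k * (1 + (p : ℤ_[p]) ^ 2 * (↑u⁻¹ * (y' - s))) := by ring

/-- A unit of `ℤ_p` is `(1+p)^k` times a `p`-th power. -/
theorem unit_decomp (hp2 : p ≠ 2) (u : ℤ_[p]ˣ) :
    ∃ (k : ℕ) (w : ℤ_[p]ˣ), (u : ℤ_[p]) = (1 + p) ^ k * (w : ℤ_[p]) ^ p := by
  -- `v = (u^(p-1))⁻¹ ≡ 1 mod p`
  set v : ℤ_[p]ˣ := (u ^ (p - 1))⁻¹ with hv
  have hvz : PadicInt.toZMod (v : ℤ_[p]) = 1 := by
    have h1 : PadicInt.toZMod ((u ^ (p - 1) : ℤ_[p]ˣ) : ℤ_[p]) = 1 := by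
      rw [Units.val_pow_eq_pow_val, map_pow]
      apply ZMod.pow_card_sub_one_eq_one
      intro h0
      have : IsUnit (PadicInt.toZMod (u : ℤ_[p])) := u.isUnit.map _
      rw [h0] at this
      exact not_isUnit_zero this
    have h2 : PadicInt.toZMod ((u ^ (p - 1) : ℤ_[p]ˣ) : ℤ_[p]) * PadicInt.toZMod (v : ℤ_[p]) = 1 := by
      rw [← map_mul, ← Units.val_mul, hv, mul_inv_cancel, Units.val_one, map_one]
    rw [h1, one_mul] at h2
    exact h2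
  have hker : (v : ℤ_[p]) - 1 ∈ RingHom.ker (PadicInt.toZMod (p := p)) := by
    rw [RingHom.mem_ker, map_sub, hvz, map_one, sub_self]
  rw [PadicInt.ker_toZMod, PadicInt.maximalIdeal_eq_span_p, Ideal.mem_span_singleton] at hker
  obtain ⟨y, hy⟩ := hker
  obtain ⟨k, t, hkt⟩ := one_add_p_mul_decomp p y
  obtain ⟨w, hw⟩ := exists_pow_eq_one_add_sq p hp2 t
  have hwu : IsUnit w := by
    have : IsUnit (w ^ p) := by
      rw [hw, PadicInt.isUnit_iff]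
      have h2 : (1 : ℤ_[p]) + (p : ℤ_[p]) ^ 2 * t = 1 + p * (p * t) := by ring
      rw [h2]
      exact norm_one_add_p_mul p (p * t)
    exact (isUnit_pow_iff hp.out.ne_zero).1 this
  obtain ⟨w', hw'⟩ := hwu
  refine ⟨k, u * w', ?_⟩
  have huv : (u : ℤ_[p]) = (u : ℤ_[p]) ^ p * (v : ℤ_[p]) := by
    have h : u = u ^ p * v := by
      rw [hv, ← pow_sub_one_mul hp.out.ne_zero u, mul_comm (u ^ (p - 1)) u, mul_assoc, mul_inv_cancel,
        mul_one]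
    conv_lhs => rw [h]
    push_cast
    rfl
  have hv1 : (v : ℤ_[p]) = 1 + p * y := by rw [← hy]; ring
  rw [huv, hv1, hkt, ← hw, Units.val_mul, mul_pow, hw']
  ring

/-- Structure of `ℚ_pˣ` modulo `p`-th powers (`p` odd): generated by `p` and `1+p`. -/
theorem padic_decomp (hp2 : p ≠ 2) (a : ℚ_[p]) (ha : a ≠ 0) :
    ∃ (j k : ℕ) (w : ℚ_[p]), w ≠ 0 ∧ a = (p : ℚ_[p]) ^ j * (1 + (p : ℚ_[p])) ^ k * w ^ p := by
  have hp0 : (p : ℚ_[p]) ≠ 0 := by exact_mod_cast hp.out.ne_zero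
  have hpR : (p : ℝ) ≠ 0 := by exact_mod_cast hp.out.ne_zero
  set v : ℤ := a.valuation with hv
  -- unit part
  set u₀ : ℚ_[p] := a * (p : ℚ_[p]) ^ (-v) with hu₀
  have hu₀n : ‖u₀‖ = 1 := by
    rw [hu₀, norm_mul, Padic.norm_eq_zpow_neg_valuation ha, norm_zpow, Padic.norm_p, ← hv,
      inv_zpow', neg_neg, ← zpow_add₀ hpR, neg_add_cancel, zpow_zero]
  set u : ℤ_[p]ˣ := PadicInt.mkUnits hu₀n with hu
  obtain ⟨k, w, hw⟩ := unit_decomp p hp2 u
  have hau : a = (p : ℚ_[p]) ^ v * u₀ := by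
    rw [hu₀, mul_comm a, ← mul_assoc, ← zpow_add₀ hp0, add_neg_cancel, zpow_zero, one_mul]
  -- `v = j + p * m`
  set m : ℤ := v / p with hm
  set j : ℕ := (v % p).toNat with hj
  have hjj : ((j : ℕ) : ℤ) = v % p := by
    rw [hj, Int.toNat_of_nonneg]
    exact Int.emod_nonneg _ (by exact_mod_cast hp.out.ne_zero)
  have hvm : v = j + p * m := by rw [hjj, hm]; exact (Int.emod_add_mul_ediv _ _).symm
  refine ⟨j, k, (p : ℚ_[p]) ^ m * ((w : ℤ_[p]) : ℚ_[p]), ?_, ?_⟩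
  · refine mul_ne_zero (zpow_ne_zero _ hp0) ?_
    have : ‖((w : ℤ_[p]) : ℚ_[p])‖ = 1 := by
      simp
    intro h0
    rw [h0, norm_zero] at this
    exact zero_ne_one this
  · have hu₀' : u₀ = (((u : ℤ_[p]ˣ) : ℤ_[p]) : ℚ_[p]) := by rw [hu]; rfl
    rw [hau, hu₀', hw]
    conv_lhs => rw [hvm]
    rw [zpow_add₀ hp0, zpow_natCast]
    push_cast
    rw [mul_pow, ← zpow_natCast ((p : ℚ_[p]) ^ m), ← zpow_mul, mul_comm m]
    ring

end Padic

section Log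

variable {M : Type*} [CommGroup M] (p : ℕ) [hp : Fact p.Prime]

theorem zeta_pow_congr {ζ : M} (hζ : IsPrimitiveRoot ζ p) {a b : ℕ} (h : (a : ZMod p) = b) :
    ζ ^ a = ζ ^ b := by
  rw [pow_eq_pow_iff_modEq, ← hζ.eq_orderOf]
  exact (ZMod.natCast_eq_natCast_iff _ _ _).1 h

theorem zeta_pow_val_injective {ζ : M} (hζ : IsPrimitiveRoot ζ p) {a b : ZMod p}
    (h : ζ ^ a.val = ζ ^ b.val) : a = b :=
  ZMod.val_injective p (hζ.pow_inj (ZMod.val_lt a) (ZMod.val_lt b) h)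

theorem zeta_pow_val_add {ζ : M} (hζ : IsPrimitiveRoot ζ p) (a b : ZMod p) :
    ζ ^ (a + b).val = ζ ^ a.val * ζ ^ b.val := by
  rw [← pow_add]
  apply zeta_pow_congr p hζ
  simp

theorem zeta_pow_val_mul {ζ : M} (hζ : IsPrimitiveRoot ζ p) (a b : ZMod p) :
    ζ ^ (a * b).val = (ζ ^ a.val) ^ b.val := by
  rw [← pow_mul]
  apply zeta_pow_congr p hζ
  simp

theorem zeta_pow_val_natCast {ζ : M} (hζ : IsPrimitiveRoot ζ p) (n : ℕ) :
    ζ ^ ((n : ZMod p)).val = ζ ^ n := by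
  apply zeta_pow_congr p hζ
  simp

theorem zeta_pow_val_natCast_mul {ζ : M} (hζ : IsPrimitiveRoot ζ p) (n : ℕ) (a : ZMod p) :
    ζ ^ ((n : ZMod p) * a).val = (ζ ^ a.val) ^ n := by
  rw [mul_comm, zeta_pow_val_mul p hζ, ← pow_mul, ← pow_mul]
  apply zeta_pow_congr p hζ
  simp

theorem zeta_pow_val_sub_one {ζ : M} (hζ : IsPrimitiveRoot ζ p) (a : ZMod p) :
    ζ ^ (a - 1).val = ζ ^ a.val / ζ := by
  rw [eq_div_iff_mul_eq']
  have h := zeta_pow_val_add p hζ (a - 1) 1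
  rw [sub_add_cancel] at h
  rw [h]
  congr 1
  have := zeta_pow_val_natCast p hζ 1
  rw [Nat.cast_one, pow_one] at this
  exact this.symm

/-- The abstract Kummer computation: if `ζ^{c τ} = τβ/β` and `β^p = (π^j η^k w)^p` with `w` fixed,
then `c = i (χ - 1) + j c₂ + k c₃`. -/
theorem kummer_span {G : Type*} [Group G] [MulDistribMulAction G M]
    {ζ π η : M} (hζ : IsPrimitiveRoot ζ p)
    (htors : ∀ μ : M, μ ^ p = 1 → ∃ i : ℕ, ζ ^ i = μ)
    (χ c₂ c₃ : G → ZMod p) (hχ : ∀ τ : G, τ • ζ = ζ ^ (χ τ).val)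
    (hc₂ : ∀ τ : G, τ • π = π * ζ ^ (c₂ τ).val) (hc₃ : ∀ τ : G, τ • η = η * ζ ^ (c₃ τ).val)
    (c : G → ZMod p) (β : M) (hβ : ∀ τ : G, ζ ^ (c τ).val = τ • β / β)
    (j k : ℕ) (w : M) (hw : ∀ τ : G, τ • w = w) (hdecomp : β ^ p = (π ^ j * η ^ k * w) ^ p) :
    ∃ a₁ : ZMod p, ∀ τ, c τ = a₁ * (χ τ - 1) + j * c₂ τ + k * c₃ τ := by
  have h1 : (β / (π ^ j * η ^ k * w)) ^ p = 1 := by
    rw [div_pow, hdecomp, div_self']
  obtain ⟨i, hi⟩ := htors _ h1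
  have hβ' : β = π ^ j * η ^ k * w * ζ ^ i := by
    rw [hi, mul_div_cancel]
  refine ⟨(i : ZMod p), fun τ => ?_⟩
  apply zeta_pow_val_injective p hζ
  rw [hβ τ, zeta_pow_val_add p hζ, zeta_pow_val_add p hζ, zeta_pow_val_natCast_mul p hζ,
    zeta_pow_val_natCast_mul p hζ, zeta_pow_val_natCast_mul p hζ, zeta_pow_val_sub_one p hζ]
  conv_lhs => rw [hβ']
  simp only [smul_mul', smul_pow', hχ, hc₂, hc₃, hw]
  rw [div_pow, mul_pow, mul_pow, ← pow_mul, ← pow_mul, ← pow_mul]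
  apply Additive.ofMul.injective
  simp only [ofMul_mul, ofMul_div, ofMul_pow]
  abel

end Log

section Galois

variable (p : ℕ) [hp : Fact p.Prime]

local instance isAlgClosurePadic45 : IsAlgClosure ℚ_[p] (PadicAlgCl p) := ⟨inferInstance, inferInstance⟩
local instance isGaloisPadic45 : IsGalois ℚ_[p] (PadicAlgCl p) := IsAlgClosure.isGalois ℚ_[p] (PadicAlgCl p)

theorem coe_smul_units (τ : PadicAlgCl p ≃ₐ[ℚ_[p]] PadicAlgCl p) (x : (PadicAlgCl p)ˣ) :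
    ((τ • x : (PadicAlgCl p)ˣ) : PadicAlgCl p) = τ (x : PadicAlgCl p) := by
  simp [AlgEquiv.smul_units_def]

/-- An element of `Ω` fixed by the whole Galois group lies in `ℚ_p`. -/
theorem exists_algebraMap_eq_of_fixed (x : PadicAlgCl p)
    (hx : ∀ τ : PadicAlgCl p ≃ₐ[ℚ_[p]] PadicAlgCl p, τ x = x) :
    ∃ a : ℚ_[p], algebraMap ℚ_[p] (PadicAlgCl p) a = x := by
  have h1 : x ∈ IntermediateField.fixedField
      ((⊥ : IntermediateField ℚ_[p] (PadicAlgCl p)).fixingSubgroup) := by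
    rw [IntermediateField.mem_fixedField_iff]
    intro f _
    exact hx f
  rw [InfiniteGalois.fixedField_fixingSubgroup, IntermediateField.mem_bot] at h1
  exact h1

theorem htors_units {ζ : (PadicAlgCl p)ˣ} (hζ : IsPrimitiveRoot ζ p) (μ : (PadicAlgCl p)ˣ)
    (hμ : μ ^ p = 1) : ∃ i : ℕ, ζ ^ i = μ := by
  have hζ' : IsPrimitiveRoot (ζ : PadicAlgCl p) p := IsPrimitiveRoot.coe_units_iff.2 hζ
  have hμ' : (μ : PadicAlgCl p) ^ p = 1 := by
    rw [← Units.val_pow_eq_pow_val, hμ, Units.val_one]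
  obtain ⟨i, -, hi⟩ := hζ'.eq_pow_of_pow_eq_one hμ'
  exact ⟨i, Units.ext (by rw [Units.val_pow_eq_pow_val, hi])⟩

/-- Kummer elements: if `x^p ∈ ℚ_p` then `τ x = x ζ^m`. -/
theorem exists_kummer_exponent {ζ : (PadicAlgCl p)ˣ} (hζ : IsPrimitiveRoot ζ p)
    (x : (PadicAlgCl p)ˣ) (a : ℚ_[p]) (hx : algebraMap ℚ_[p] (PadicAlgCl p) a = (x : PadicAlgCl p) ^ p)
    (τ : PadicAlgCl p ≃ₐ[ℚ_[p]] PadicAlgCl p) : ∃ m : ZMod p, τ • x = x * ζ ^ m.val := by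
  have h1 : (τ • x / x) ^ p = 1 := by
    rw [div_pow, div_eq_one]
    apply Units.ext
    rw [Units.val_pow_eq_pow_val, coe_smul_units, Units.val_pow_eq_pow_val, ← map_pow, ← hx,
      AlgEquiv.commutes]
  obtain ⟨i, hi⟩ := htors_units p hζ _ h1
  refine ⟨(i : ZMod p), ?_⟩
  rw [zeta_pow_val_natCast p hζ, hi, mul_div_cancel]

/-- **Local Kummer theory at `p`** (`ZMod p`-coefficients): the space of smooth `χ`-twisted
1-cocycles of `Gal(ℚ̄_p/ℚ_p)` is spanned by three elements (the coboundary `χ - 1` and the Kummer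
cocycles of `p` and `1 + p`). -/
theorem exists_span_zmod (hp2 : p ≠ 2) {ζ : (PadicAlgCl p)ˣ} (hζ : IsPrimitiveRoot ζ p)
    (χ : (PadicAlgCl p ≃ₐ[ℚ_[p]] PadicAlgCl p) → ZMod p)
    (hχ : ∀ τ : PadicAlgCl p ≃ₐ[ℚ_[p]] PadicAlgCl p, τ • ζ = ζ ^ (χ τ).val) :
    ∃ c₂ c₃ : (PadicAlgCl p ≃ₐ[ℚ_[p]] PadicAlgCl p) → ZMod p,
      ∀ c : (PadicAlgCl p ≃ₐ[ℚ_[p]] PadicAlgCl p) → ZMod p,
        (∀ σ τ, c (σ * τ) = c σ + χ σ * c τ) →
        (∃ E : IntermediateField ℚ_[p] (PadicAlgCl p), FiniteDimensional ℚ_[p] E ∧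
          ∀ g, ∀ s ∈ E.fixingSubgroup, c (g * s) = c g) →
        ∃ a₁ a₂ a₃ : ZMod p, ∀ τ, c τ = a₁ * (χ τ - 1) + a₂ * c₂ τ + a₃ * c₃ τ := by
  have hp0 : (p : PadicAlgCl p) ≠ 0 := by exact_mod_cast hp.out.ne_zero
  have hppos : 0 < p := hp.out.pos
  -- the Kummer generators
  obtain ⟨π₀, hπ₀⟩ := IsAlgClosed.exists_pow_nat_eq (p : PadicAlgCl p) hppos
  obtain ⟨η₀, hη₀⟩ := IsAlgClosed.exists_pow_nat_eq ((1 : PadicAlgCl p) + p) hppos
  have h1p : (1 : ℚ_[p]) + p ≠ 0 := by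
    intro h
    have hn : ‖(1 : ℚ_[p]) + p‖ = 1 := by
      have hlt : ‖(p : ℚ_[p])‖ < 1 := by
        rw [Padic.norm_p]
        exact inv_lt_one_of_one_lt₀ (by exact_mod_cast hp.out.one_lt)
      have hne : ‖(1 : ℚ_[p])‖ ≠ ‖(p : ℚ_[p])‖ := by
        rw [norm_one]; exact (ne_of_lt hlt).symm
      rw [Padic.add_eq_max_of_ne hne, norm_one]
      exact max_eq_left hlt.le
    rw [h, norm_zero] at hn
    exact zero_ne_one hn
  have h1p' : (1 : PadicAlgCl p) + p ≠ 0 := by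
    have : algebraMap ℚ_[p] (PadicAlgCl p) (1 + p) ≠ 0 := by
      rw [Ne, map_eq_zero_iff _ (algebraMap ℚ_[p] (PadicAlgCl p)).injective]
      exact h1p
    simpa using this
  have hπne : π₀ ≠ 0 := by
    intro h; rw [h, zero_pow hppos.ne'] at hπ₀; exact hp0 hπ₀.symm
  have hηne : η₀ ≠ 0 := by
    intro h; rw [h, zero_pow hppos.ne'] at hη₀; exact h1p' hη₀.symm
  set π : (PadicAlgCl p)ˣ := Units.mk0 π₀ hπne with hπ
  set η : (PadicAlgCl p)ˣ := Units.mk0 η₀ hηne with hη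
  have hπa : algebraMap ℚ_[p] (PadicAlgCl p) (p : ℚ_[p]) = (π : PadicAlgCl p) ^ p := by
    rw [hπ, Units.val_mk0, hπ₀, map_natCast]
  have hηa : algebraMap ℚ_[p] (PadicAlgCl p) (1 + (p : ℚ_[p])) = (η : PadicAlgCl p) ^ p := by
    rw [hη, Units.val_mk0, hη₀, map_add, map_one, map_natCast]
  choose c₂ hc₂ using exists_kummer_exponent p hζ π _ hπa
  choose c₃ hc₃ using exists_kummer_exponent p hζ η _ hηa
  refine ⟨c₂, c₃, fun c hcoc hsm => ?_⟩
  obtain ⟨E, hEfin, hE⟩ := hsm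
  -- enlarge `E` to contain `ζ`
  have hζint : IsIntegral ℚ_[p] (ζ : PadicAlgCl p) := Algebra.IsIntegral.isIntegral _
  have : FiniteDimensional ℚ_[p] (IntermediateField.adjoin ℚ_[p] {(ζ : PadicAlgCl p)}) :=
    IntermediateField.adjoin.finiteDimensional hζint
  set E' : IntermediateField ℚ_[p] (PadicAlgCl p) :=
    E ⊔ IntermediateField.adjoin ℚ_[p] {(ζ : PadicAlgCl p)} with hE'
  have : FiniteDimensional ℚ_[p] E' := IntermediateField.finiteDimensional_sup _ _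
  have hζE' : (ζ : PadicAlgCl p) ∈ E' :=
    (le_sup_right : IntermediateField.adjoin ℚ_[p] {(ζ : PadicAlgCl p)} ≤ E')
      (IntermediateField.mem_adjoin_simple_self _ _)
  -- the multiplicative cocycle
  set C : (PadicAlgCl p ≃ₐ[ℚ_[p]] PadicAlgCl p) → (PadicAlgCl p)ˣ := fun τ => ζ ^ (c τ).val with hC
  obtain ⟨β, hβ⟩ := Fermat.Agent.PT.BR.InfGalois13.hilbert90_level
    (⊤ : Subgroup (PadicAlgCl p ≃ₐ[ℚ_[p]] PadicAlgCl p)) E' C
    (fun g s hs => by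
      have hs' : s ∈ E.fixingSubgroup :=
        IntermediateField.fixingSubgroup_antitone (le_sup_left : E ≤ E') hs
      simp only [hC, hE g s hs'])
    (fun g => by
      simp only [hC, Units.val_pow_eq_pow_val]
      exact pow_mem hζE' _)
    (fun n _ n' _ => by
      simp only [hC]
      rw [hcoc n n', zeta_pow_val_add p hζ, zeta_pow_val_mul p hζ, smul_pow', hχ, mul_comm])
  have hβ' : ∀ τ, ζ ^ (c τ).val = τ • β / β := fun τ => hβ τ (Subgroup.mem_top τ)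
  -- `β^p ∈ ℚ_p`
  have hζp : ζ ^ p = 1 := hζ.pow_eq_one
  have hfix : ∀ τ : PadicAlgCl p ≃ₐ[ℚ_[p]] PadicAlgCl p,
      τ ((β : PadicAlgCl p) ^ p) = (β : PadicAlgCl p) ^ p := by
    intro τ
    have h1 : (τ • β) ^ p = β ^ p := by
      have h2 : τ • β = ζ ^ (c τ).val * β := by rw [hβ' τ, div_mul_cancel]
      rw [h2, mul_pow, ← pow_mul, mul_comm (c τ).val p, pow_mul, hζp, one_pow, one_mul]
    have h3 := congrArg (fun x : (PadicAlgCl p)ˣ => (x : PadicAlgCl p)) h1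
    simp only [Units.val_pow_eq_pow_val, coe_smul_units] at h3
    rw [map_pow, h3]
  obtain ⟨a, ha⟩ := exists_algebraMap_eq_of_fixed p _ hfix
  have ha0 : a ≠ 0 := by
    intro h
    rw [h, map_zero] at ha
    exact (pow_ne_zero p β.ne_zero) ha.symm
  obtain ⟨j, k, w, hw0, hw⟩ := padic_decomp p hp2 a ha0
  have hwne : algebraMap ℚ_[p] (PadicAlgCl p) w ≠ 0 := by
    rw [Ne, map_eq_zero_iff _ (algebraMap ℚ_[p] (PadicAlgCl p)).injective]
    exact hw0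
  set wu : (PadicAlgCl p)ˣ := Units.mk0 _ hwne with hwu
  have hwfix : ∀ τ : PadicAlgCl p ≃ₐ[ℚ_[p]] PadicAlgCl p, τ • wu = wu := by
    intro τ
    apply Units.ext
    rw [coe_smul_units, hwu, Units.val_mk0, AlgEquiv.commutes]
  have hdecomp : β ^ p = (π ^ j * η ^ k * wu) ^ p := by
    apply Units.ext
    simp only [Units.val_pow_eq_pow_val, Units.val_mul, hwu, Units.val_mk0]
    rw [← ha, hw, map_mul, map_mul, map_pow, map_pow, map_pow, hπa, hηa]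
    ring
  obtain ⟨a₁, ha₁⟩ := kummer_span p hζ (htors_units p hζ) χ c₂ c₃ hχ hc₂ hc₃ c β hβ' j k wu hwfix
    hdecomp
  exact ⟨a₁, j, k, ha₁⟩

/-- **Local Kummer theory at `p`**, coefficients in a finite field `k` of characteristic `p`:
the `k`-space of smooth `χ`-twisted 1-cocycles `Gal(ℚ̄_p/ℚ_p) → k` (`χ` the mod `p` cyclotomic
character) is spanned by three elements, one of which is the coboundary `χ - 1`. -/
theorem exists_span_field (hp2 : p ≠ 2) (k : Type*) [Field k] [CharP k p] [Finite k]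
    (χ : (PadicAlgCl p ≃ₐ[ℚ_[p]] PadicAlgCl p) → k)
    (hχ : ∀ (τ : PadicAlgCl p ≃ₐ[ℚ_[p]] PadicAlgCl p) (a : ℕ),
      (∀ μ : PadicAlgCl p, μ ^ p = 1 → τ μ = μ ^ a) → χ τ = (a : k)) :
    ∃ c₂ c₃ : (PadicAlgCl p ≃ₐ[ℚ_[p]] PadicAlgCl p) → k,
      ∀ c : (PadicAlgCl p ≃ₐ[ℚ_[p]] PadicAlgCl p) → k,
        (∀ σ τ, c (σ * τ) = c σ + χ σ * c τ) →
        (∃ E : IntermediateField ℚ_[p] (PadicAlgCl p), FiniteDimensional ℚ_[p] E ∧
          ∀ g, ∀ s ∈ E.fixingSubgroup, c (g * s) = c g) →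
        ∃ a₁ a₂ a₃ : k, ∀ τ, c τ = a₁ * (χ τ - 1) + a₂ * c₂ τ + a₃ * c₃ τ := by
  have hp0 : (p : PadicAlgCl p) ≠ 0 := by exact_mod_cast hp.out.ne_zero
  haveI : NeZero (p : PadicAlgCl p) := ⟨hp0⟩
  obtain ⟨ζ₀, hζ₀⟩ := HasEnoughRootsOfUnity.exists_primitiveRoot (PadicAlgCl p) p
  have hζ₀ne : ζ₀ ≠ 0 := hζ₀.ne_zero hp.out.ne_zero
  set ζ : (PadicAlgCl p)ˣ := Units.mk0 ζ₀ hζ₀ne with hζdef
  have hζ : IsPrimitiveRoot ζ p := by
    rw [← IsPrimitiveRoot.coe_units_iff, hζdef, Units.val_mk0]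
    exact hζ₀
  -- the `ZMod p`-valued cyclotomic character
  have hex : ∀ τ : PadicAlgCl p ≃ₐ[ℚ_[p]] PadicAlgCl p, ∃ m : ZMod p, τ • ζ = ζ ^ m.val := by
    intro τ
    have h1 : (τ • ζ) ^ p = 1 := by
      rw [← smul_pow', hζ.pow_eq_one, smul_one]
    obtain ⟨i, hi⟩ := htors_units p hζ _ h1
    exact ⟨(i : ZMod p), by rw [zeta_pow_val_natCast p hζ, hi]⟩
  choose χ₀ hχ₀ using hex
  letI : Algebra (ZMod p) k := ZMod.algebra k p
  have hcast : ∀ a : ZMod p, ((a.val : ℕ) : k) = algebraMap (ZMod p) k a := by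
    intro a
    rw [← map_natCast (algebraMap (ZMod p) k), ZMod.natCast_zmod_val]
  have hχeq : ∀ τ, χ τ = algebraMap (ZMod p) k (χ₀ τ) := by
    intro τ
    rw [← hcast]
    apply hχ τ
    intro μ hμ
    obtain ⟨i, -, hi⟩ := hζ₀.eq_pow_of_pow_eq_one hμ
    have h2 : τ ζ₀ = ζ₀ ^ (χ₀ τ).val := by
      have := congrArg (fun x : (PadicAlgCl p)ˣ => (x : PadicAlgCl p)) (hχ₀ τ)
      simpa [coe_smul_units, hζdef] using this
    rw [← hi, map_pow, h2, ← pow_mul, ← pow_mul, mul_comm]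
  obtain ⟨d₂, d₃, hd⟩ := exists_span_zmod p hp2 hζ χ₀ hχ₀
  refine ⟨fun τ => algebraMap (ZMod p) k (d₂ τ), fun τ => algebraMap (ZMod p) k (d₃ τ),
    fun c hcoc hsm => ?_⟩
  obtain ⟨E, hEfin, hE⟩ := hsm
  haveI : Module.Finite (ZMod p) k := Module.Finite.of_finite
  let b := Module.Free.chooseBasis (ZMod p) k
  have hcoord : ∀ i, ∃ a₁ a₂ a₃ : ZMod p, ∀ τ,
      b.repr (c τ) i = a₁ * (χ₀ τ - 1) + a₂ * d₂ τ + a₃ * d₃ τ := by
    intro i
    apply hd (fun τ => b.repr (c τ) i)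
    · intro σ τ
      show b.repr (c (σ * τ)) i = b.repr (c σ) i + χ₀ σ * b.repr (c τ) i
      rw [hcoc, hχeq, ← Algebra.smul_def, map_add, map_smul, Finsupp.add_apply, Finsupp.smul_apply,
        smul_eq_mul]
    · exact ⟨E, hEfin, fun g s hs => by simp only [hE g s hs]⟩
  choose a₁ a₂ a₃ ha using hcoord
  refine ⟨∑ i, a₁ i • b i, ∑ i, a₂ i • b i, ∑ i, a₃ i • b i, fun τ => ?_⟩
  conv_lhs => rw [← b.sum_repr (c τ)]
  simp only [ha, hχeq]
  rw [Finset.sum_mul, Finset.sum_mul, Finset.sum_mul, ← Finset.sum_add_distrib,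
    ← Finset.sum_add_distrib]
  refine Finset.sum_congr rfl fun i _ => ?_
  simp only [Algebra.smul_def, map_add, map_mul, map_sub, map_one]
  ring

end Galois

end Fermat.Agent.TW.KummerLocal45
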