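/-
Programme TW (S56), brick LOC-SO (strict-ordinary local bound), helper45.

`StrictOrdLocal45`: pure group theory / linear algebra (Mathlib only).

Setting: `G` a group with a family `𝓤` of "open" subgroups, `ρ : G →* End_k V`, `dim_k V = 2`,
`L ⊂ V` a `G`-stable line on which `σ` acts by `x(σ)`, acting on `V/L` by `z(σ)`, with
`x = χ z`.  Hypothesis `K3`: the `k`-space of smooth `χ`-twisted cocycles `G → k` is spanned by
`χ - 1, c₂, c₃` (for `G = Gal(ℚ̄_p/ℚ_p)`, `χ` = mod `p` cyclotomic character, this is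
`KummerLocal45.exists_span_field`).

* `span4_matrix` / `span4_end`: every smooth cocycle `f : G → End_k V` (conjugation action) which,
  up to a coboundary `dX`, takes values in `N = Hom(V/L, L)`, lies in the `k`-span of FOUR fixed
  functions (`dE12, c₂ E12, c₃ E12, dE21`).  Hence the space of strict-ordinary cocycles
  `Z¹(G,N) + B¹(G, End V)` has dimension `≤ 4`, and its image in `H¹(G, ad⁰)` has dimension
  `≤ 4 - dim B¹(G, ad⁰) = 1 + h⁰(G, ad⁰)`.
* `line_unique`: uniqueness of the ordinary line, given one inertia-type element `σ₀` acting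
  trivially on `V/L`, `V/L'` whose cyclotomic multiplier is `≠ 1`.

`IsSm 𝓤 f` unfolds to the same proposition as `PT.PRO.LevelCoh28.IsLevel₁ 𝓤 f`.
-/
import Mathlib

set_option autoImplicit false
set_option linter.style.haveILetI false

namespace Fermat.Agent.TW.StrictOrdLocal45

open Matrix

section Mat

variable {G k : Type*} [Group G] [Field k]

/-- smoothness w.r.t. a family of subgroups -/
def IsSm (𝓤 : Set (Subgroup G)) {X : Type*} (f : G → X) : Prop :=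
  ∃ U ∈ 𝓤, ∀ g, ∀ s ∈ U, f (g * s) = f g

/-- The coboundary of a matrix `X` for the conjugation action through `R`. -/
def dMat (R : G →* Matrix (Fin 2) (Fin 2) k) (X : Matrix (Fin 2) (Fin 2) k) (σ : G) :
    Matrix (Fin 2) (Fin 2) k :=
  R σ * X * R σ⁻¹ - X

def E12 : Matrix (Fin 2) (Fin 2) k := !![0, 1; 0, 0]
def E21 : Matrix (Fin 2) (Fin 2) k := !![0, 0; 1, 0]
def E11 : Matrix (Fin 2) (Fin 2) k := !![1, 0; 0, 0]

variable (R : G →* Matrix (Fin 2) (Fin 2) k) (χ : G → k)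

theorem R_mul_inv (σ : G) : R σ * R σ⁻¹ = 1 := by
  rw [← map_mul, mul_inv_cancel, map_one]

variable (htri : ∀ σ, R σ 1 0 = 0) (hχ : ∀ σ, R σ 0 0 = χ σ * R σ 1 1)

include htri in
theorem diag_inv (σ : G) : R σ 0 0 * R σ⁻¹ 0 0 = 1 ∧ R σ 1 1 * R σ⁻¹ 1 1 = 1 := by
  have h := R_mul_inv R σ
  have h00 := congrFun (congrFun h 0) 0
  have h11 := congrFun (congrFun h 1) 1
  simp only [Matrix.mul_apply, Fin.sum_univ_two, Matrix.one_apply_eq, htri, zero_mul, mul_zero,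
    add_zero, zero_add] at h00 h11
  exact ⟨h00, h11⟩

include htri hχ in
/-- conjugation multiplies `E12` by `χ` -/
theorem conj_E12 (σ : G) : R σ * E12 * R σ⁻¹ = χ σ • (E12 : Matrix (Fin 2) (Fin 2) k) := by
  obtain ⟨h0, h1⟩ := diag_inv R htri σ
  have hz : R σ 0 0 * R σ⁻¹ 1 1 = χ σ := by
    rw [hχ, mul_assoc, h1, mul_one]
  ext i j
  fin_cases i <;> fin_cases j <;>
    simp [E12, Matrix.mul_apply, Fin.sum_univ_two, htri, hz]

include htri hχ in
theorem dMat_E12 (σ : G) : dMat R E12 σ = (χ σ - 1) • (E12 : Matrix (Fin 2) (Fin 2) k) := by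
  rw [dMat, conj_E12 R χ htri hχ, sub_smul, one_smul]

include htri in
/-- the coboundary of `E11` is `N`-valued -/
theorem dMat_E11 (σ : G) :
    dMat R E11 σ = (R σ 0 0 * R σ⁻¹ 0 1) • (E12 : Matrix (Fin 2) (Fin 2) k) := by
  obtain ⟨h0, h1⟩ := diag_inv R htri σ
  ext i j
  fin_cases i <;> fin_cases j <;>
    simp [dMat, E11, E12, Matrix.mul_apply, Fin.sum_univ_two, htri, h0]

/-- every matrix is a combination of `1, E11, E12, E21` -/
theorem matrix_decomp (X : Matrix (Fin 2) (Fin 2) k) :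
    X = X 1 1 • (1 : Matrix (Fin 2) (Fin 2) k) + (X 0 0 - X 1 1) • E11 + X 0 1 • E12 + X 1 0 • E21 := by
  ext i j
  fin_cases i <;> fin_cases j <;> simp [E11, E12, E21]

theorem dMat_add (X Y : Matrix (Fin 2) (Fin 2) k) (σ : G) :
    dMat R (X + Y) σ = dMat R X σ + dMat R Y σ := by
  simp only [dMat, mul_add, add_mul]; abel

theorem dMat_smul (a : k) (X : Matrix (Fin 2) (Fin 2) k) (σ : G) :
    dMat R (a • X) σ = a • dMat R X σ := by
  simp only [dMat, Matrix.mul_smul, Matrix.smul_mul, smul_sub]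

theorem dMat_one (σ : G) : dMat R 1 σ = 0 := by
  simp [dMat, R_mul_inv]

/-- `dMat R X` is a cocycle. -/
theorem dMat_mul (X : Matrix (Fin 2) (Fin 2) k) (σ τ : G) :
    dMat R X (σ * τ) = dMat R X σ + R σ * dMat R X τ * R σ⁻¹ := by
  have h : R (σ * τ)⁻¹ = R τ⁻¹ * R σ⁻¹ := by rw [_root_.mul_inv_rev, map_mul]
  have h1 : R σ * R σ⁻¹ = 1 := R_mul_inv R σ
  simp only [dMat, h, map_mul, mul_sub, sub_mul]
  simp only [Matrix.mul_assoc]
  abel

/-- smoothness of `dMat R X` when `R` is trivial on a member of `𝓤` -/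
theorem dMat_inv (X : Matrix (Fin 2) (Fin 2) k) (U : Subgroup G) (hU : ∀ s ∈ U, R s = 1) (g : G)
    (s : G) (hs : s ∈ U) : dMat R X (g * s) = dMat R X g := by
  have h : R (g * s)⁻¹ = R g⁻¹ := by
    rw [_root_.mul_inv_rev, map_mul, hU s⁻¹ (U.inv_mem hs), one_mul]
  simp only [dMat, h, map_mul, hU s hs, mul_one]

variable (𝓤 : Set (Subgroup G))

include htri hχ in
/-- The coordinate of an `N`-valued smooth cocycle is a smooth `χ`-cocycle. -/
theorem coord_cocycle (g : G → Matrix (Fin 2) (Fin 2) k) (n : G → k)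
    (hg : ∀ σ, g σ = n σ • (E12 : Matrix (Fin 2) (Fin 2) k))
    (hgc : ∀ σ τ, g (σ * τ) = g σ + R σ * g τ * R σ⁻¹) (hgs : IsSm 𝓤 g) :
    (∀ σ τ, n (σ * τ) = n σ + χ σ * n τ) ∧ IsSm 𝓤 n := by
  have hn : ∀ σ, n σ = g σ 0 1 := by
    intro σ
    rw [hg σ]
    simp [E12]
  constructor
  · intro σ τ
    have h := hgc σ τ
    rw [hg τ, Matrix.mul_smul, Matrix.smul_mul, conj_E12 R χ htri hχ, hg σ] at h
    rw [hn (σ * τ), h]
    simp [E12, mul_comm]
  · obtain ⟨U, hU, h⟩ := hgs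
    exact ⟨U, hU, fun a s hs => by rw [hn, hn, h a s hs]⟩

include htri hχ in
/-- **The strict-ordinary cocycles are spanned by four elements** (matrix form). -/
theorem span4_matrix (h𝓤 : ∀ U ∈ 𝓤, ∀ V ∈ 𝓤, ∃ W ∈ 𝓤, W ≤ U ⊓ V)
    (hR : ∃ U ∈ 𝓤, ∀ s ∈ U, R s = 1)
    (c₂ c₃ : G → k)
    (K3 : ∀ n : G → k, (∀ σ τ, n (σ * τ) = n σ + χ σ * n τ) → IsSm 𝓤 n →
      ∃ a₁ a₂ a₃ : k, ∀ σ, n σ = a₁ * (χ σ - 1) + a₂ * c₂ σ + a₃ * c₃ σ)
    (f : G → Matrix (Fin 2) (Fin 2) k)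
    (hf : ∀ σ τ, f (σ * τ) = f σ + R σ * f τ * R σ⁻¹) (hfs : IsSm 𝓤 f)
    (X : Matrix (Fin 2) (Fin 2) k)
    (hN : ∀ σ, ∃ t : k, f σ - dMat R X σ = t • (E12 : Matrix (Fin 2) (Fin 2) k)) :
    ∃ a₁ a₂ a₃ a₄ : k, ∀ σ, f σ = a₁ • dMat R E12 σ + a₂ • (c₂ σ • (E12 : Matrix (Fin 2) (Fin 2) k)) +
      a₃ • (c₃ σ • (E12 : Matrix (Fin 2) (Fin 2) k)) + a₄ • dMat R E21 σ := by
  obtain ⟨U₂, hU₂, hRU⟩ := hR
  -- the `N`-coordinate of `f - dX`
  choose n hn using hN
  have hgs : IsSm 𝓤 (fun σ => f σ - dMat R X σ) := by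
    obtain ⟨U₁, hU₁, h1⟩ := hfs
    obtain ⟨W, hW, hWle⟩ := h𝓤 U₁ hU₁ U₂ hU₂
    refine ⟨W, hW, fun a s hs => ?_⟩
    have hs1 : s ∈ U₁ := (hWle hs).1
    have hs2 : s ∈ U₂ := (hWle hs).2
    simp only [h1 a s hs1, dMat_inv R X U₂ hRU a s hs2]
  obtain ⟨hnc, hns⟩ := coord_cocycle R χ htri hχ 𝓤 (fun σ => f σ - dMat R X σ) n hn
    (fun σ τ => by
      simp only [hf σ τ, dMat_mul R X σ τ, mul_sub, sub_mul]
      abel) hgs
  obtain ⟨a₁, a₂, a₃, ha⟩ := K3 n hnc hns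
  -- the `N`-coordinate of `dE11`
  obtain ⟨hmc, hms⟩ := coord_cocycle R χ htri hχ 𝓤 (dMat R E11)
    (fun σ => R σ 0 0 * R σ⁻¹ 0 1) (dMat_E11 R htri) (dMat_mul R E11)
    ⟨U₂, hU₂, dMat_inv R E11 U₂ hRU⟩
  obtain ⟨b₁, b₂, b₃, hb⟩ := K3 _ hmc hms
  refine ⟨a₁ + (X 0 0 - X 1 1) * b₁ + X 0 1, a₂ + (X 0 0 - X 1 1) * b₂,
    a₃ + (X 0 0 - X 1 1) * b₃, X 1 0, fun σ => ?_⟩
  have h1 : f σ = n σ • (E12 : Matrix (Fin 2) (Fin 2) k) + dMat R X σ := by
    rw [← hn σ]; abel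
  have h2 : dMat R X σ = (X 0 0 - X 1 1) • dMat R E11 σ + X 0 1 • dMat R E12 σ +
      X 1 0 • dMat R E21 σ := by
    conv_lhs => rw [matrix_decomp X]
    simp only [dMat_add, dMat_smul, dMat_one, smul_zero, zero_add]
  rw [h1, h2, dMat_E11 R htri, hb σ, ha σ, dMat_E12 R χ htri hχ]
  simp only [smul_smul, ← add_smul]
  ext i j
  fin_cases i <;> fin_cases j <;> simp [E12]
  ring

end Mat

section End

variable {G k V : Type*} [Group G] [Field k] [AddCommGroup V] [Module k V]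

/-- A line in a plane has an adapted basis. -/
theorem exists_adapted_basis (hV : Module.finrank k V = 2) (L : Submodule k V)
    (hL : Module.finrank k L = 1) :
    ∃ b : Module.Basis (Fin 2) k V, L = Submodule.span k {b 0} := by
  haveI : Module.Finite k V := Module.finite_of_finrank_pos (by omega)
  obtain ⟨e₁, he₁, hspan⟩ := finrank_eq_one_iff'.1 hL
  have hLspan : L = Submodule.span k {(e₁ : V)} := by
    apply le_antisymm
    · intro w hw
      obtain ⟨c, hc⟩ := hspan ⟨w, hw⟩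
      rw [Submodule.mem_span_singleton]
      exact ⟨c, by simpa using congrArg Subtype.val hc⟩
    · rw [Submodule.span_singleton_le_iff_mem]
      exact e₁.2
  have he₁' : (e₁ : V) ≠ 0 := fun h => he₁ (Subtype.ext h)
  have hne : L ≠ ⊤ := by
    intro h
    have := finrank_top k V
    rw [← h, hL, hV] at this
    omega
  obtain ⟨e₂, -, he₂⟩ := SetLike.exists_of_lt (lt_top_iff_ne_top.2 hne)
  have hli : LinearIndependent k ![(e₁ : V), e₂] := by
    rw [LinearIndependent.pair_iff' he₁']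
    intro a ha
    apply he₂
    rw [← ha]
    exact L.smul_mem a e₁.2
  let b := basisOfLinearIndependentOfCardEqFinrank hli (by simp [hV])
  refine ⟨b, ?_⟩
  rw [hLspan]
  simp [b]

/-- **The strict-ordinary cocycles are spanned by four elements** (`End_k V` form).

`ρ : G →* End_k V` with `dim V = 2`, `L` a `G`-stable line on which `σ` acts by `x`, acting on `V/L`
by `z`, `x = χ σ * z`; `K3` = the `k`-space of smooth `χ`-cocycles `G → k` is spanned by `χ - 1`,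
`c₂`, `c₃`.  Then every smooth cocycle `f : G → End_k V` (for the conjugation action) which, up to
a coboundary `dX`, takes values in `Hom(V/L, L)`, is a combination of four fixed functions. -/
theorem span4_end (hV : Module.finrank k V = 2) (ρ : G →* Module.End k V) (χ : G → k)
    (L : Submodule k V) (hL : Module.finrank k L = 1)
    (hstab : ∀ σ, ∃ x z : k, (∀ w ∈ L, ρ σ w = x • w) ∧ (∀ v, ρ σ v - z • v ∈ L) ∧ x = χ σ * z)
    (𝓤 : Set (Subgroup G)) (h𝓤 : ∀ U ∈ 𝓤, ∀ V ∈ 𝓤, ∃ W ∈ 𝓤, W ≤ U ⊓ V)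
    (hρ : ∃ U ∈ 𝓤, ∀ s ∈ U, ρ s = 1)
    (c₂ c₃ : G → k)
    (K3 : ∀ n : G → k, (∀ σ τ, n (σ * τ) = n σ + χ σ * n τ) → IsSm 𝓤 n →
      ∃ a₁ a₂ a₃ : k, ∀ σ, n σ = a₁ * (χ σ - 1) + a₂ * c₂ σ + a₃ * c₃ σ) :
    ∃ f₁ f₂ f₃ f₄ : G → Module.End k V, ∀ f : G → Module.End k V,
      (∀ σ τ, f (σ * τ) = f σ + ρ σ * f τ * ρ σ⁻¹) → IsSm 𝓤 f →
      (∃ X : Module.End k V, ∀ σ,
        (∀ v, (f σ - (ρ σ * X * ρ σ⁻¹ - X)) v ∈ L) ∧
        ∀ v ∈ L, (f σ - (ρ σ * X * ρ σ⁻¹ - X)) v = 0) →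
      ∃ a₁ a₂ a₃ a₄ : k, ∀ σ, f σ = a₁ • f₁ σ + a₂ • f₂ σ + a₃ • f₃ σ + a₄ • f₄ σ := by
  obtain ⟨b, hLb⟩ := exists_adapted_basis hV L hL
  let φ : Module.End k V ≃ₐ[k] Matrix (Fin 2) (Fin 2) k := LinearMap.toMatrixAlgEquiv b
  let R : G →* Matrix (Fin 2) (Fin 2) k := (φ : Module.End k V →* Matrix (Fin 2) (Fin 2) k).comp ρ
  have hRφ : ∀ σ, R σ = φ (ρ σ) := fun σ => rfl
  have hφapp : ∀ (Y : Module.End k V) (i j : Fin 2), φ Y i j = b.repr (Y (b j)) i := by
    intro Y i j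
    exact LinearMap.toMatrixAlgEquiv_apply b Y i j
  have hb0L : b 0 ∈ L := by rw [hLb]; exact Submodule.mem_span_singleton_self _
  have hmemL : ∀ v ∈ L, b.repr v 1 = 0 := by
    intro v hv
    rw [hLb, Submodule.mem_span_singleton] at hv
    obtain ⟨c, rfl⟩ := hv
    simp
  have htri : ∀ σ, R σ 1 0 = 0 := by
    intro σ
    obtain ⟨x, z, hx, -, -⟩ := hstab σ
    rw [hRφ, hφapp, hx _ hb0L]
    simp
  have hχ : ∀ σ, R σ 0 0 = χ σ * R σ 1 1 := by
    intro σ
    obtain ⟨x, z, hx, hz, hxz⟩ := hstab σ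
    have h00 : R σ 0 0 = x := by
      rw [hRφ, hφapp, hx _ hb0L]
      simp
    have h11 : R σ 1 1 = z := by
      rw [hRφ, hφapp]
      have := hmemL _ (hz (b 1))
      rw [map_sub, map_smul, Finsupp.sub_apply, Finsupp.smul_apply, sub_eq_zero] at this
      rw [this]
      simp
    rw [h00, h11, hxz]
  have hR : ∃ U ∈ 𝓤, ∀ s ∈ U, R s = 1 := by
    obtain ⟨U, hU, h⟩ := hρ
    exact ⟨U, hU, fun s hs => by rw [hRφ, h s hs, map_one]⟩
  have hφd : ∀ (X : Module.End k V) σ, φ (ρ σ * X * ρ σ⁻¹ - X) = dMat R (φ X) σ := by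
    intro X σ
    simp only [dMat, hRφ, map_sub, map_mul]
  refine ⟨fun σ => φ.symm (dMat R E12 σ), fun σ => φ.symm (c₂ σ • (E12 : Matrix (Fin 2) (Fin 2) k)),
    fun σ => φ.symm (c₃ σ • (E12 : Matrix (Fin 2) (Fin 2) k)), fun σ => φ.symm (dMat R E21 σ),
    fun f hf hfs hX => ?_⟩
  obtain ⟨X, hX⟩ := hX
  obtain ⟨a₁, a₂, a₃, a₄, ha⟩ := span4_matrix R χ htri hχ 𝓤 h𝓤 hR c₂ c₃ K3 (fun σ => φ (f σ))
    (fun σ τ => by
      simp only [hf σ τ, map_add, map_mul, hRφ])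
    (by
      obtain ⟨U, hU, h⟩ := hfs
      exact ⟨U, hU, fun g s hs => by simp only [h g s hs]⟩)
    (φ X)
    (fun σ => by
      obtain ⟨h1, h2⟩ := hX σ
      refine ⟨b.repr ((f σ - (ρ σ * X * ρ σ⁻¹ - X)) (b 1)) 0, ?_⟩
      rw [← hφd, ← map_sub]
      ext i j
      rw [hφapp]
      fin_cases i <;> fin_cases j
      · simp [E12, h2 _ hb0L]
      · simp [E12]
      · simp [E12, h2 _ hb0L]
      · simpa [E12] using hmemL _ (h1 (b 1)))
  refine ⟨a₁, a₂, a₃, a₄, fun σ => ?_⟩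
  apply φ.injective
  rw [ha σ]
  simp only [map_add, map_smul, AlgEquiv.apply_symm_apply]

end End

section Unique

variable {k V : Type*} [Field k] [AddCommGroup V] [Module k V]

/-- **Uniqueness of the ordinary line.**  If `L, L'` are lines in the plane `V`, and `s : End V`
(the action of an inertia element) satisfies: `s` acts on `L` by `x`, on `L'` by `x'`, trivially on
`V/L` and on `V/L'`, and `x = a z`, `x' = a z'` where `z, z'` are the scalars by which `s` acts on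
`V/L`, `V/L'`, with `a ≠ 1`, then `L = L'`. -/
theorem line_unique (hV : Module.finrank k V = 2) (L L' : Submodule k V)
    (hL : Module.finrank k L = 1) (hL' : Module.finrank k L' = 1) (s : Module.End k V) (a : k)
    (ha : a ≠ 1)
    (h1 : ∃ x z : k, (∀ w ∈ L, s w = x • w) ∧ (∀ v, s v - z • v ∈ L) ∧ x = a * z)
    (h1' : ∃ x z : k, (∀ w ∈ L', s w = x • w) ∧ (∀ v, s v - z • v ∈ L') ∧ x = a * z)
    (hI : ∀ v, s v - v ∈ L) (hI' : ∀ v, s v - v ∈ L') : L = L' := by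
  by_contra hne
  -- `L ⊓ L' = ⊥`
  have hinf : L ⊓ L' = ⊥ := by
    by_contra hbot
    have hpos : 0 < Module.finrank k ↥(L ⊓ L') := by
      haveI : Module.Finite k V := Module.finite_of_finrank_pos (by omega)
      exact Module.finrank_pos_iff.2 (Submodule.nontrivial_iff_ne_bot.2 hbot)
    haveI : Module.Finite k V := Module.finite_of_finrank_pos (by omega)
    have hle1 : Module.finrank k ↥(L ⊓ L') ≤ Module.finrank k L :=
      Submodule.finrank_mono inf_le_left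
    have heq1 : L ⊓ L' = L :=
      Submodule.eq_of_le_of_finrank_le inf_le_left (by omega)
    have heq2 : L ⊓ L' = L' :=
      Submodule.eq_of_le_of_finrank_le inf_le_right (by omega)
    exact hne (heq1.symm.trans heq2)
  haveI : Module.Finite k V := Module.finite_of_finrank_pos (by omega)
  -- `z = 1` and `z' = 1`
  have hLtop : L ≠ ⊤ := by
    intro h
    have := finrank_top k V
    rw [← h, hL, hV] at this
    omega
  have hL'top : L' ≠ ⊤ := by
    intro h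
    have := finrank_top k V
    rw [← h, hL', hV] at this
    omega
  obtain ⟨x, z, hx, hz, hxz⟩ := h1
  obtain ⟨x', z', hx', hz', hxz'⟩ := h1'
  have hz1 : z = 1 := by
    obtain ⟨v, -, hv⟩ := SetLike.exists_of_lt (lt_top_iff_ne_top.2 hLtop)
    by_contra hz1
    apply hv
    have h2 : (z - 1) • v ∈ L := by
      have := L.sub_mem (hI v) (hz v)
      have h3 : s v - v - (s v - z • v) = (z - 1) • v := by
        rw [sub_smul, one_smul]; abel
      rwa [h3] at this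
    have h4 := L.smul_mem (z - 1)⁻¹ h2
    rwa [smul_smul, inv_mul_cancel₀ (sub_ne_zero.2 hz1), one_smul] at h4
  -- a nonzero vector of `L'`
  obtain ⟨w', hw', hw'0⟩ : ∃ w' ∈ L', w' ≠ 0 := by
    have : 0 < Module.finrank k L' := by omega
    obtain ⟨⟨w, hw⟩, hw0⟩ := (Module.finrank_pos_iff_exists_ne_zero).1 this
    exact ⟨w, hw, fun h => hw0 (Subtype.ext h)⟩
  -- `x' = 1`
  have hx'1 : x' = 1 := by
    by_contra hx'1
    apply hw'0
    have h2 : (x' - 1) • w' ∈ L ⊓ L' := by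
      refine ⟨?_, L'.smul_mem _ hw'⟩
      have := hI w'
      rwa [hx' w' hw', ← one_smul k w', smul_smul, mul_one, ← sub_smul] at this
    rw [hinf, Submodule.mem_bot, smul_eq_zero] at h2
    exact h2.resolve_left (sub_ne_zero.2 hx'1)
  have hz'1 : z' = 1 := by
    obtain ⟨v, -, hv⟩ := SetLike.exists_of_lt (lt_top_iff_ne_top.2 hL'top)
    by_contra hz'1
    apply hv
    have h2 : (z' - 1) • v ∈ L' := by
      have := L'.sub_mem (hI' v) (hz' v)
      have h3 : s v - v - (s v - z' • v) = (z' - 1) • v := by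
        rw [sub_smul, one_smul]; abel
      rwa [h3] at this
    have h4 := L'.smul_mem (z' - 1)⁻¹ h2
    rwa [smul_smul, inv_mul_cancel₀ (sub_ne_zero.2 hz'1), one_smul] at h4
  rw [hx'1, hz'1, mul_one] at hxz'
  exact ha hxz'.symm

end Unique

end Fermat.Agent.TW.StrictOrdLocal45
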