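/-
Programme TW (S56), pillar (S), brick LOC-SO (helper45): FINAL file.

`locSO : SIface72.LocSO 𝒪 p` — the strict-ordinary local condition at `p` cuts out a subspace `L_p` of
`H¹(ℚ_p, ad⁰ ρbar)` with `#L_p ≤ #H⁰(ℚ_p, ad⁰ ρbar) · #k` containing the local classes of all
deformation cocycles satisfying `SOLocal`.

Ingredients: `KummerLocal45.exists_span_field` (dim Z¹(Γ_p, k(χ)) ≤ 3, local Kummer theory),
`StrictOrdLocal45.span4_end` / `line_unique` (linear algebra), `InertiaCyclo45.exists_inertia_cyclo`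
(inertia at `p` acts on `μ_p` through all of `(ℤ/p)ˣ`, giving uniqueness of the ordinary line).
The count: the strict-ordinary cocycles restricted to `Γ_p` lie in a `k`-space `W` of dimension `≤ 4`
containing all coboundaries `B`; `#B = #ad⁰ / #H⁰ = #k³ / #H⁰`; so `#(W/B) ≤ #k · #H⁰`.
-/
import Fermat.Agent.TW.SIface72
import Fermat.Agent.TW.KummerLocal45
import Fermat.Agent.TW.StrictOrdLocal45
import Fermat.Agent.TW.InertiaCyclo45

set_option autoImplicit false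
set_option linter.style.haveILetI false
set_option linter.unusedSectionVars false

open scoped NNReal
open ExtCitation groupCohomology
open Fermat.Agent.PT.PRO Fermat.Agent.PT.BR Fermat.Agent.PT.BR.LevelBridge13
open Fermat.Agent.TW.Interface Fermat.Agent.TW.GWIface97 Fermat.Agent.TW.SDefs72

namespace Fermat.Agent.TW.LocSO45

local notation "Γ" => (AlgebraicClosure ℚ ≃ₐ[ℚ] AlgebraicClosure ℚ)

/-! ### The place `padicPlace p` lies over `p` -/

section Place

variable (p : ℕ) [hp : Fact p.Prime]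

theorem nnnorm_natCast_p : ‖(p : PadicAlgCl p)‖₊ = (p : ℝ≥0)⁻¹ := by
  ext
  have h1 : ((p : ℚ_[p]) : PadicAlgCl p) = (p : PadicAlgCl p) :=
    map_natCast (algebraMap ℚ_[p] (PadicAlgCl p)) p
  rw [coe_nnnorm, ← h1, PadicAlgCl.norm_extends, Padic.norm_p]
  simp

theorem liesOver_padicPlace : (padicPlace p).LiesOverPrime p := by
  show (p : AlgebraicClosure ℚ) ∈ (padicPlace p).nonunits
  rw [ValuationSubring.mem_nonunits_iff_or]
  right
  rw [mem_padicPlace_iff, map_inv₀, map_natCast, nnnorm_inv, nnnorm_natCast_p, inv_inv]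
  rw [not_le]
  exact_mod_cast hp.out.one_lt

/-- The mod `p` cyclotomic character of `Gal(ℚ̄_p/ℚ_p)` with values in a field of
characteristic `p`, with its local and global characterisations. -/
theorem exists_chi (k : Type*) [Field k] [CharP k p] :
    ∃ χ : (PadicAlgCl p ≃ₐ[ℚ_[p]] PadicAlgCl p) → k,
      (∀ (τ : PadicAlgCl p ≃ₐ[ℚ_[p]] PadicAlgCl p) (a : ℕ),
        (∀ μ : PadicAlgCl p, μ ^ p = 1 → τ μ = μ ^ a) → χ τ = (a : k)) ∧
      (∀ τ : PadicAlgCl p ≃ₐ[ℚ_[p]] PadicAlgCl p, ∃ a : ℕ, χ τ = (a : k) ∧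
        ∀ μ : AlgebraicClosure ℚ, μ ^ p = 1 → localGaloisToGlobal p τ μ = μ ^ a) := by
  have hp0 : (p : PadicAlgCl p) ≠ 0 := by exact_mod_cast hp.out.ne_zero
  haveI : NeZero (p : PadicAlgCl p) := ⟨hp0⟩
  obtain ⟨ζ₀, hζ₀⟩ := HasEnoughRootsOfUnity.exists_primitiveRoot (PadicAlgCl p) p
  have hex : ∀ τ : PadicAlgCl p ≃ₐ[ℚ_[p]] PadicAlgCl p, ∃ i : ℕ, τ ζ₀ = ζ₀ ^ i := by
    intro τ
    have h1 : (τ ζ₀) ^ p = 1 := by rw [← map_pow, hζ₀.pow_eq_one, map_one]
    obtain ⟨i, -, hi⟩ := hζ₀.eq_pow_of_pow_eq_one h1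
    exact ⟨i, hi.symm⟩
  choose e he using hex
  refine ⟨fun τ => (e τ : k), ?_, ?_⟩
  · intro τ a ha
    have h1 : ζ₀ ^ a = ζ₀ ^ e τ := by rw [← he τ, ha ζ₀ hζ₀.pow_eq_one]
    have h0 : ζ₀ ≠ 0 := hζ₀.ne_zero hp.out.ne_zero
    have h2 : a ≡ e τ [MOD p] := by
      have h1' : (Units.mk0 ζ₀ h0) ^ a = (Units.mk0 ζ₀ h0) ^ e τ := by
        apply Units.ext
        simpa using h1
      have := (pow_eq_pow_iff_modEq (x := Units.mk0 ζ₀ h0)).mp h1'
      rwa [← orderOf_units, Units.val_mk0, ← hζ₀.eq_orderOf] at this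
    exact ((CharP.natCast_eq_natCast k p).mpr h2).symm
  · intro τ
    refine ⟨e τ, rfl, ?_⟩
    intro μ hμ
    apply (padicEmbedding p).toRingHom.injective
    show padicEmbedding p (localGaloisToGlobal p τ μ) = padicEmbedding p (μ ^ e τ)
    rw [padicEmbedding_localGaloisToGlobal, map_pow]
    have h1 : (padicEmbedding p μ) ^ p = 1 := by rw [← map_pow, hμ, map_one]
    obtain ⟨j, -, hj⟩ := hζ₀.eq_pow_of_pow_eq_one h1
    rw [← hj, map_pow, he τ, ← pow_mul, ← pow_mul, mul_comm]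

end Place

/-! ### Counting lemmas -/

section Count

theorem card_map_mkQ_mul {R Z : Type*} [Ring R] [AddCommGroup Z] [Module R Z]
    (B W : Submodule R Z) (hBW : B ≤ W) :
    Nat.card (W.map B.mkQ) * Nat.card B = Nat.card W := by
  set g : W →ₗ[R] Z ⧸ B := B.mkQ ∘ₗ W.subtype with hg
  have hrange : LinearMap.range g = W.map B.mkQ := by
    rw [hg, LinearMap.range_comp, Submodule.range_subtype]
  have hker : LinearMap.ker g = B.comap W.subtype := by
    rw [hg, LinearMap.ker_comp, Submodule.ker_mkQ]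
  have h1 : Nat.card W = Nat.card (W ⧸ LinearMap.ker g) * Nat.card (LinearMap.ker g) := by
    rw [mul_comm]; exact Submodule.card_eq_card_quotient_mul_card _
  have h2 : Nat.card (W ⧸ LinearMap.ker g) = Nat.card (W.map B.mkQ) := by
    rw [← hrange]
    exact Nat.card_congr g.quotKerEquivRange.toEquiv
  have h3 : Nat.card (LinearMap.ker g) = Nat.card B := by
    rw [hker]
    exact Nat.card_congr (Submodule.comapSubtypeEquivOfLe hBW).toEquiv
  rw [h1, h2, h3]

/-- Rank–nullity for cardinalities. -/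
theorem card_range_mul_card_ker {R M Z : Type*} [Ring R] [AddCommGroup M] [Module R M]
    [AddCommGroup Z] [Module R Z] (d : M →ₗ[R] Z) :
    Nat.card (LinearMap.range d) * Nat.card (LinearMap.ker d) = Nat.card M := by
  have h1 : Nat.card M = Nat.card (M ⧸ LinearMap.ker d) * Nat.card (LinearMap.ker d) := by
    rw [mul_comm]; exact Submodule.card_eq_card_quotient_mul_card _
  rw [h1, Nat.card_congr d.quotKerEquivRange.toEquiv]

theorem finrank_ker_trace {k V : Type*} [Field k] [AddCommGroup V] [Module k V]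
    (hV : Module.finrank k V = 2) (h2 : (2 : k) ≠ 0) :
    Module.finrank k (LinearMap.ker (LinearMap.trace k V)) = 3 := by
  haveI : Module.Finite k V := Module.finite_of_finrank_pos (by omega)
  have hsurj : Function.Surjective (LinearMap.trace k V) := by
    intro x
    refine ⟨(x / 2) • (1 : Module.End k V), ?_⟩
    rw [map_smul, LinearMap.trace_one, hV, smul_eq_mul]
    push_cast
    field_simp
  have h1 := LinearMap.finrank_range_add_finrank_ker (LinearMap.trace k V)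
  rw [LinearMap.range_eq_top.mpr hsurj, finrank_top, Module.finrank_self,
    Module.finrank_linearMap, hV] at h1
  omega

theorem card_ker_trace {k V : Type*} [Field k] [Finite k] [AddCommGroup V] [Module k V]
    (hV : Module.finrank k V = 2) (h2 : (2 : k) ≠ 0) :
    Nat.card (LinearMap.ker (LinearMap.trace k V)) = Nat.card k ^ 3 := by
  haveI : Module.Finite k V := Module.finite_of_finrank_pos (by omega)
  rw [Module.natCard_eq_pow_finrank (K := k), finrank_ker_trace hV h2]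

end Count

/-! ### Uniqueness of the ordinary line -/

section Line

variable {k : Type} [Field k] (ρbar : ResidualGaloisRep k)

theorem inertia_le_decomposition (P : ValuationSubring (AlgebraicClosure ℚ)) {σ : Γ}
    (hσ : σ ∈ P.inertiaSubgroupIn ℚ) : σ ∈ P.decompositionSubgroup ℚ := by
  obtain ⟨d, -, rfl⟩ := Subgroup.mem_map.mp hσ
  exact d.2

theorem soLocal_line_unique (p : ℕ) (hp : p.Prime) (hp2 : p ≠ 2)
    (P : ValuationSubring (AlgebraicClosure ℚ)) (hP : P.LiesOverPrime p)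
    (L L' : Submodule k ρbar.V) (hL : Module.finrank k L = 1) (hL' : Module.finrank k L' = 1)
    (hI : ∀ σ ∈ P.inertiaSubgroupIn ℚ, ∀ v : ρbar.V, ρbar.ρ σ v - v ∈ L)
    (hI' : ∀ σ ∈ P.inertiaSubgroupIn ℚ, ∀ v : ρbar.V, ρbar.ρ σ v - v ∈ L')
    (hχ : ∀ σ ∈ P.decompositionSubgroup ℚ, ∃ x z : k,
        (∀ w ∈ L, ρbar.ρ σ w = x • w) ∧ (∀ v : ρbar.V, ρbar.ρ σ v - z • v ∈ L) ∧
        ∀ a : ℕ, (∀ μ : AlgebraicClosure ℚ, μ ^ p = 1 → σ μ = μ ^ a) → x = (a : k) * z)
    (hχ' : ∀ σ ∈ P.decompositionSubgroup ℚ, ∃ x z : k,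
        (∀ w ∈ L', ρbar.ρ σ w = x • w) ∧ (∀ v : ρbar.V, ρbar.ρ σ v - z • v ∈ L') ∧
        ∀ a : ℕ, (∀ μ : AlgebraicClosure ℚ, μ ^ p = 1 → σ μ = μ ^ a) → x = (a : k) * z) :
    L = L' := by
  have h2 : ¬ p ∣ 2 := by
    intro h
    have := (Nat.prime_dvd_prime_iff_eq hp Nat.prime_two).mp h
    exact hp2 this
  obtain ⟨σ₀, hσ₀, hμ⟩ := InertiaCyclo45.exists_inertia_cyclo p hp P hP 2 h2
  have hD := inertia_le_decomposition P hσ₀
  have ha : ((2 : ℕ) : k) ≠ 1 := by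
    intro h
    have h1 : (1 : k) = 0 := by
      have : ((2 : ℕ) : k) = 1 + 1 := by norm_num
      rw [this] at h
      exact add_eq_left.mp h
    exact one_ne_zero h1
  refine StrictOrdLocal45.line_unique ρbar.finrank_eq L L' hL hL' (ρbar.ρ σ₀) ((2 : ℕ) : k) ha
    ?_ ?_ (hI σ₀ hσ₀) (hI' σ₀ hσ₀)
  · obtain ⟨x, z, h1, h2, h3⟩ := hχ σ₀ hD
    exact ⟨x, z, h1, h2, h3 2 hμ⟩
  · obtain ⟨x, z, h1, h2, h3⟩ := hχ' σ₀ hD
    exact ⟨x, z, h1, h2, h3 2 hμ⟩

end Line


/-! ### The local bound -/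

section Main

variable {k : Type} [Field k] [Finite k] (p : ℕ) [hp : Fact p.Prime]

local notation "Gp" => (PadicAlgCl p ≃ₐ[ℚ_[p]] PadicAlgCl p)

/-- The span statement: there are four functions `Gal(ℚ̄_p/ℚ_p) → End V` spanning (over `k`) the
restrictions of all strict-ordinary deformation cocycles. -/
theorem exists_span4 (hp2 : p ≠ 2) (hchar : ((p : ℕ) : k) = 0) (ρbar : ResidualGaloisRep k) :
    ∃ f₁ f₂ f₃ f₄ : Gp → Module.End k ρbar.V,
      (∀ c : Γ → Module.End k ρbar.V, IsDefCocycle ρbar c → SOLocal ρbar p c →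
        ∃ a₁ a₂ a₃ a₄ : k, ∀ τ : Gp, c (localGaloisToGlobal p τ) =
          a₁ • f₁ τ + a₂ • f₂ τ + a₃ • f₃ τ + a₄ • f₄ τ) ∧
      (∀ X : Module.End k ρbar.V,
        ∃ a₁ a₂ a₃ a₄ : k, ∀ τ : Gp, conj ρbar (localGaloisToGlobal p τ) X - X =
          a₁ • f₁ τ + a₂ • f₂ τ + a₃ • f₃ τ + a₄ • f₄ τ) := by
  classical
  haveI : CharP k p := (CharP.charP_iff_prime_eq_zero hp.out).mpr hchar
  set r := localGaloisToGlobal p with hr
  by_cases hex : ∃ c₀ : Γ → Module.End k ρbar.V, IsDefCocycle ρbar c₀ ∧ SOLocal ρbar p c₀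
  swap
  · have h4 : Module.finrank k (Module.End k ρbar.V) = 4 := by
      rw [Module.finrank_linearMap, ρbar.finrank_eq]
    let b := Module.finBasisOfFinrankEq k (Module.End k ρbar.V) h4
    refine ⟨fun τ => conj ρbar (r τ) (b 0) - b 0, fun τ => conj ρbar (r τ) (b 1) - b 1,
      fun τ => conj ρbar (r τ) (b 2) - b 2, fun τ => conj ρbar (r τ) (b 3) - b 3,
      fun c hc hso => (hex ⟨c, hc, hso⟩).elim, ?_⟩
    intro X
    refine ⟨b.repr X 0, b.repr X 1, b.repr X 2, b.repr X 3, fun τ => ?_⟩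
    have hX : X = b.repr X 0 • b 0 + b.repr X 1 • b 1 + b.repr X 2 • b 2 + b.repr X 3 • b 3 := by
      conv_lhs => rw [← b.sum_repr X, Fin.sum_univ_four]
    conv_lhs => rw [hX]
    unfold conj
    simp only [mul_add, add_mul, mul_smul_comm, smul_mul_assoc, smul_sub]
    abel
  obtain ⟨c₀, hc₀, hso₀⟩ := hex
  have hP₀ := liesOver_padicPlace p
  obtain ⟨L₀, X₀, hL₀, hstab₀, hin₀, hchi₀, hcoc₀⟩ := hso₀ (padicPlace p) hP₀
  -- every strict-ordinary cocycle is ordinary w.r.t. the SAME line `L₀`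
  have key : ∀ c : Γ → Module.End k ρbar.V, SOLocal ρbar p c →
      ∃ X : Module.End k ρbar.V, ∀ σ ∈ (padicPlace p).decompositionSubgroup ℚ,
        (∀ v : ρbar.V, (c σ - (conj ρbar σ X - X)) v ∈ L₀) ∧
        ∀ v ∈ L₀, (c σ - (conj ρbar σ X - X)) v = 0 := by
    intro c hso
    obtain ⟨L, X, hL, hstab, hin, hchi, hcoc⟩ := hso (padicPlace p) hP₀
    have hLL : L = L₀ :=
      soLocal_line_unique ρbar p hp.out hp2 (padicPlace p) hP₀ L L₀ hL hL₀ hin hin₀ hchi hchi₀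
    subst hLL
    exact ⟨X, hcoc⟩
  obtain ⟨χ, hχ1, hχ2⟩ := exists_chi p k
  -- the local representation
  let ρl : Gp →* Module.End k ρbar.V := ρbar.ρ.comp r
  have hstab : ∀ σ : Gp, ∃ x z : k, (∀ w ∈ L₀, ρl σ w = x • w) ∧
      (∀ v, ρl σ v - z • v ∈ L₀) ∧ x = χ σ * z := by
    intro σ
    obtain ⟨x, z, h1, h2, h3⟩ := hchi₀ (r σ) (localGaloisToGlobal_mem_decompositionSubgroup p σ)
    obtain ⟨a, ha, hμ⟩ := hχ2 σ
    exact ⟨x, z, h1, h2, by rw [ha]; exact h3 a hμ⟩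
  obtain ⟨c₂, c₃, hK⟩ := KummerLocal45.exists_span_field p hp2 k χ hχ1
  have h𝓤 := (isLevelBasis_pullSets r).directed
  have hρ : ∃ U ∈ pullSets r, ∀ s ∈ U, ρl s = 1 := by
    obtain ⟨F, hF, h1⟩ := ρbar.factorsThroughFiniteLevel
    refine ⟨F.fixingSubgroup.comap r, ⟨F, hF, rfl⟩, fun s hs => h1 (r s) (fun x hx => ?_)⟩
    exact hs ⟨x, hx⟩
  have K3 : ∀ n : Gp → k, (∀ σ τ, n (σ * τ) = n σ + χ σ * n τ) →
      StrictOrdLocal45.IsSm (pullSets r) n →
      ∃ a₁ a₂ a₃ : k, ∀ σ, n σ = a₁ * (χ σ - 1) + a₂ * c₂ σ + a₃ * c₃ σ := by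
    intro n hn hsm
    apply hK n hn
    have h1 : LevelCoh28.IsLevel₁ (localSets p) n := (isLevel₁_localSets_iff p n).mpr hsm
    obtain ⟨U, ⟨E, hE, rfl⟩, hU⟩ := h1
    exact ⟨E, hE, hU⟩
  obtain ⟨f₁, f₂, f₃, f₄, hspan⟩ := StrictOrdLocal45.span4_end ρbar.finrank_eq ρl χ L₀ hL₀ hstab
    (pullSets r) h𝓤 hρ c₂ c₃ K3
  refine ⟨f₁, f₂, f₃, f₄, ?_, ?_⟩
  · intro c hc hso
    obtain ⟨X, hX⟩ := key c hso
    apply hspan (fun τ => c (r τ))
    · intro σ τ
      show c (r (σ * τ)) = c (r σ) + ρbar.ρ (r σ) * c (r τ) * ρbar.ρ (r σ⁻¹)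
      rw [map_mul, hc.map_mul, map_inv]
      rfl
    · obtain ⟨F, hF, h1⟩ := hc.level
      refine ⟨F.fixingSubgroup.comap r, ⟨F, hF, rfl⟩, fun g s hs => ?_⟩
      show c (r (g * s)) = c (r g)
      rw [map_mul]
      exact h1 (r g) (r s) (fun x hx => hs ⟨x, hx⟩)
    · refine ⟨X, fun σ => ?_⟩
      have := hX (r σ) (localGaloisToGlobal_mem_decompositionSubgroup p σ)
      show (∀ v, (c (r σ) - (ρbar.ρ (r σ) * X * ρbar.ρ (r σ⁻¹) - X)) v ∈ L₀) ∧
        ∀ v ∈ L₀, (c (r σ) - (ρbar.ρ (r σ) * X * ρbar.ρ (r σ⁻¹) - X)) v = 0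
      rw [map_inv]
      exact this
  · intro X
    apply hspan (fun τ => conj ρbar (r τ) X - X)
    · intro σ τ
      show conj ρbar (r (σ * τ)) X - X = (conj ρbar (r σ) X - X) +
        ρbar.ρ (r σ) * (conj ρbar (r τ) X - X) * ρbar.ρ (r σ⁻¹)
      rw [map_mul, SDefs72.conj_mul, map_inv]
      unfold conj
      noncomm_ring
    · obtain ⟨U, hU, h1⟩ := hρ
      refine ⟨U, hU, fun g s hs => ?_⟩
      show conj ρbar (r (g * s)) X - X = conj ρbar (r g) X - X
      rw [map_mul, SDefs72.conj_mul]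
      have h2 : ρbar.ρ (r s) = 1 := h1 s hs
      have h3 : ρbar.ρ (r s)⁻¹ = 1 := by
        rw [← map_inv]
        exact h1 s⁻¹ (U.inv_mem hs)
      have : conj ρbar (r s) X = X := by
        unfold conj
        rw [h2, h3, one_mul, mul_one]
      rw [this]
    · refine ⟨X, fun σ => ?_⟩
      have h0 : conj ρbar (r σ) X - X - (ρl σ * X * ρl σ⁻¹ - X) = 0 := by
        show conj ρbar (r σ) X - X - (ρbar.ρ (r σ) * X * ρbar.ρ (r σ⁻¹) - X) = 0
        rw [map_inv]
        unfold conj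
        abel
      constructor
      · intro v
        show (conj ρbar (r σ) X - X - (ρl σ * X * ρl σ⁻¹ - X)) v ∈ L₀
        rw [h0]
        exact L₀.zero_mem
      · intro v _
        show (conj ρbar (r σ) X - X - (ρl σ * X * ρl σ⁻¹ - X)) v = 0
        rw [h0]
        rfl


/-- The local bound, stated with `localGaloisToGlobal p`. -/
theorem locSO_core (hp2 : p ≠ 2) (hchar : ((p : ℕ) : k) = 0) (ρbar : ResidualGaloisRep k) :
    ∃ L : Submodule (ZMod p) (LevelCoh28.H1 (pullBasis (localGaloisToGlobal p))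
        (Rep.res (localGaloisToGlobal p) (ad0F ρbar p hchar))),
      Nat.card L ≤
        Nat.card (Rep.res (localGaloisToGlobal p) (ad0F ρbar p hchar)).ρ.invariants *
          Nat.card k ∧
      ∀ c : Γ → Module.End k ρbar.V, IsDefCocycle ρbar c → SOLocal ρbar p c →
        ∀ h : (toAd0 ρbar p hchar c ∘ localGaloisToGlobal p) ∈
            LevelCoh28.Z1 (pullBasis (localGaloisToGlobal p))
              (Rep.res (localGaloisToGlobal p) (ad0F ρbar p hchar)),
          LevelCoh28.H1mk (pullBasis (localGaloisToGlobal p))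
            (Rep.res (localGaloisToGlobal p) (ad0F ρbar p hchar)) ⟨_, h⟩ ∈ L := by
  classical
  haveI : CharP k p := (CharP.charP_iff_prime_eq_zero hp.out).mpr hchar
  obtain ⟨f₁, f₂, f₃, f₄, hsp1, hsp2⟩ := exists_span4 p hp2 hchar ρbar
  set r := localGaloisToGlobal p with hr
  set A : Rep.{0} (ZMod p) Gp := Rep.res r (ad0F ρbar p hchar) with hA
  set 𝓑 := pullBasis r with h𝓑
  let val : A → Module.End k ρbar.V := fun x => ad0F.val ρbar p hchar x
  have hval_inj : Function.Injective val := ad0F.val_injective ρbar p hchar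
  -- the subgroup `W₀` of `Z¹`
  let W₀ : AddSubgroup ↥(LevelCoh28.Z1 𝓑 A) :=
    { carrier := {z | ∃ a₁ a₂ a₃ a₄ : k, ∀ τ : Gp,
        val (z.1 τ) = a₁ • f₁ τ + a₂ • f₂ τ + a₃ • f₃ τ + a₄ • f₄ τ}
      add_mem' := by
        rintro z z' ⟨a₁, a₂, a₃, a₄, h⟩ ⟨b₁, b₂, b₃, b₄, h'⟩
        refine ⟨a₁ + b₁, a₂ + b₂, a₃ + b₃, a₄ + b₄, fun τ => ?_⟩
        have h0 : val ((z + z').1 τ) = val (z.1 τ) + val (z'.1 τ) := rfl
        rw [h0, h τ, h' τ]
        simp only [add_smul]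
        abel
      zero_mem' := ⟨0, 0, 0, 0, fun τ => by
        have h0 : val ((0 : ↥(LevelCoh28.Z1 𝓑 A)).1 τ) = 0 := rfl
        rw [h0]; simp⟩
      neg_mem' := by
        rintro z ⟨a₁, a₂, a₃, a₄, h⟩
        refine ⟨-a₁, -a₂, -a₃, -a₄, fun τ => ?_⟩
        have h0 : val ((-z).1 τ) = - val (z.1 τ) := rfl
        rw [h0, h τ]
        simp only [neg_smul]
        abel }
  let W : Submodule (ZMod p) ↥(LevelCoh28.Z1 𝓑 A) := AddSubgroup.toZModSubmodule p W₀
  have hW : ∀ z : ↥(LevelCoh28.Z1 𝓑 A), z ∈ W ↔ ∃ a₁ a₂ a₃ a₄ : k, ∀ τ : Gp,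
      val (z.1 τ) = a₁ • f₁ τ + a₂ • f₂ τ + a₃ • f₃ τ + a₄ • f₄ τ := fun z => Iff.rfl
  set B : Submodule (ZMod p) ↥(LevelCoh28.Z1 𝓑 A) :=
    (coboundaries₁ A).comap (LevelCoh28.Z1 𝓑 A).subtype with hB
  refine ⟨W.map (LevelCoh28.H1mk 𝓑 A), ?_, ?_⟩
  · -- the count
    -- `B ≤ W`
    have hBW : B ≤ W := by
      intro z hz
      obtain ⟨m, hm⟩ := (show z.1 ∈ coboundaries₁ A from hz)
      obtain ⟨a₁, a₂, a₃, a₄, ha⟩ := hsp2 (val m)
      refine (hW z).mpr ⟨a₁, a₂, a₃, a₄, fun τ => ?_⟩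
      rw [← ha τ, ← hm]
      rfl
    have h1 : Nat.card (W.map (LevelCoh28.H1mk 𝓑 A)) * Nat.card B = Nat.card W :=
      card_map_mkQ_mul B W hBW
    -- `|W| ≤ |k|^4`
    have hWcard : Nat.card W ≤ Nat.card k ^ 4 := by
      have hch : ∀ w : W, ∃ a : Fin 4 → k, ∀ τ : Gp,
          val (w.1.1 τ) = a 0 • f₁ τ + a 1 • f₂ τ + a 2 • f₃ τ + a 3 • f₄ τ := by
        intro w
        obtain ⟨a₁, a₂, a₃, a₄, ha⟩ := (hW w.1).mp w.2
        exact ⟨![a₁, a₂, a₃, a₄], fun τ => by simpa using ha τ⟩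
      choose F hF using hch
      have hinj : Function.Injective F := by
        intro w w' hww
        apply Subtype.ext
        apply Subtype.ext
        funext τ
        apply hval_inj
        rw [hF w τ, hF w' τ, hww]
      have := Nat.card_le_card_of_injective F hinj
      rwa [Nat.card_fun, Nat.card_fin] at this
    -- `|B| * |inv| = |k|^3`
    have hdisc : LevelCoh28.IsDiscrete 𝓑.sets A := by
      intro m
      obtain ⟨F, hF, h1⟩ := ρbar.factorsThroughFiniteLevel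
      refine ⟨F.fixingSubgroup.comap r, ⟨F, hF, rfl⟩, fun s hs => ?_⟩
      apply hval_inj
      show conj ρbar (r s) (val m) = val m
      unfold conj
      have h2 : ρbar.ρ (r s) = 1 := h1 (r s) (fun x hx => hs ⟨x, hx⟩)
      have h3 : ρbar.ρ (r s)⁻¹ = 1 := by
        rw [← map_inv]
        exact h1 (r s⁻¹) (fun x hx => (Subgroup.inv_mem _ hs) ⟨x, hx⟩)
      rw [h2, h3, one_mul, mul_one]
    have hBZ : coboundaries₁ A ≤ LevelCoh28.Z1 𝓑 A := LevelCoh28.coboundaries₁_le_Z1 hdisc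
    have hBcard : Nat.card B = Nat.card (coboundaries₁ A) :=
      Nat.card_congr (Submodule.comapSubtypeEquivOfLe hBZ).toEquiv
    have h2 : Nat.card (coboundaries₁ A) * Nat.card A.ρ.invariants = Nat.card A := by
      have := card_range_mul_card_ker (d₀₁ A).hom
      rwa [d₀₁_ker_eq_invariants] at this
    have h2k : (2 : k) ≠ 0 := by
      intro h
      have h' : ((2 : ℕ) : k) = 0 := by exact_mod_cast h
      have := (CharP.cast_eq_zero_iff k p 2).mp h'
      exact hp2 ((Nat.prime_dvd_prime_iff_eq hp.out Nat.prime_two).mp this)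
    have h3 : Nat.card A = Nat.card k ^ 3 := card_ker_trace ρbar.finrank_eq h2k
    have hq : 0 < Nat.card k := Nat.card_pos
    -- arithmetic
    have h4 : Nat.card (W.map (LevelCoh28.H1mk 𝓑 A)) * Nat.card k ^ 3 ≤
        (Nat.card A.ρ.invariants * Nat.card k) * Nat.card k ^ 3 := by
      calc Nat.card (W.map (LevelCoh28.H1mk 𝓑 A)) * Nat.card k ^ 3
          = Nat.card (W.map (LevelCoh28.H1mk 𝓑 A)) * Nat.card B * Nat.card A.ρ.invariants := by
            rw [← h3, ← h2, hBcard]; ring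
        _ = Nat.card W * Nat.card A.ρ.invariants := by rw [h1]
        _ ≤ Nat.card k ^ 4 * Nat.card A.ρ.invariants := Nat.mul_le_mul_right _ hWcard
        _ = (Nat.card A.ρ.invariants * Nat.card k) * Nat.card k ^ 3 := by ring
    exact Nat.le_of_mul_le_mul_right h4 (pow_pos hq 3)
  · intro c hc hso h
    refine Submodule.mem_map_of_mem ((hW _).mpr ?_)
    obtain ⟨a₁, a₂, a₃, a₄, ha⟩ := hsp1 c hc hso
    refine ⟨a₁, a₂, a₃, a₄, fun τ => ?_⟩
    rw [← ha τ]
    exact val_toAd0 ρbar p hchar hc.trace_eq_zero (r τ)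

end Main


/-! ### The brick -/

section Brick

open IsLocalRing

variable (𝒪 : Type) [CommRing 𝒪] [IsDomain 𝒪] [IsDiscreteValuationRing 𝒪]
  [IsAdicComplete (maximalIdeal 𝒪) 𝒪] [Finite (ResidueField 𝒪)]
variable (p : ℕ) [Fact p.Prime]

/-- **LOC-SO**: the strict-ordinary local condition at `p` cuts out a subspace of `H¹(ℚ_p, ad⁰ ρbar)`
of size at most `#H⁰(ℚ_p, ad⁰ ρbar) · #k`. -/
theorem locSO : SIface72.LocSO 𝒪 p := by
  intro ρbar S Smin h _
  obtain ⟨L, hL1, hL2⟩ := locSO_core p h.hp2 (SIface72.hchar h) ρbar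
  refine ⟨L, hL1, fun c hc hso => ?_⟩
  unfold locCls
  split_ifs with hz
  · exact hL2 c hc hso hz
  · exact L.zero_mem

end Brick

end Fermat.Agent.TW.LocSO45
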