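/-
Programme TW (S56), PILLAR (S): ASSEMBLY of `Interface.BrickS` from the bricks of `SIface72`
(helper72, programme lead).

`brickS_of_bricks : Bridge → GoodAd0 → GlobZero → ArchLe → LocP cond atp → LocUnip → LocUr → LocTW →
   GWStatementW p → TWKill → (cond ⇒ unipotent at Smin) → BrickS 𝒪 p cond atp`.

VERSION 2: uses the WEAK Greenberg–Wiles package (`GWIface2_97.GWPackageW`): the inequality is applied
to `S' = Smin ∪ Q_n ∪ S₀` with the unramified condition `H1ur` at the auxiliary primes of `S₀`.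

* `gw_core`  : the numerical core for an ABSTRACT coefficient module `M`: the Greenberg–Wiles
               inequality with trivial dual Selmer group gives `dim Sel ≤ r · d`.
* `card_core`: a finite set of pairwise distinct nonzero classes in a subspace of dimension `≤ r d`
               has at most `p^(r d) - 1` elements.
-/
import Fermat.Agent.TW.SIface72

set_option autoImplicit false
set_option linter.unusedSectionVars false
set_option linter.style.haveILetI false

open Polynomial IsLocalRing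
open ExtCitation groupCohomology
open Fermat.Agent.PT.PRO Fermat.Agent.PT.BR Fermat.Agent.PT.BR.LevelBridge13
open Fermat.Agent.TW.Interface Fermat.Agent.TW.GWIface97 Fermat.Agent.TW.GWIface2_97
open Fermat.Agent.TW.SDefs72
open Fermat.Agent.TW.SIface72

namespace Fermat.Agent.TW.SCount72

local notation "Γ" => (AlgebraicClosure ℚ ≃ₐ[ℚ] AlgebraicClosure ℚ)

/-! ### Numerical lemmas -/

section Numerics

variable {p : ℕ} [Fact p.Prime]

/-- `#X = p ^ dim X` for a finite `𝔽_p`-vector space. -/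
theorem card_eq_pow_finrank (X : Type) [AddCommGroup X] [Module (ZMod p) X]
    [Module.Finite (ZMod p) X] : Nat.card X = p ^ Module.finrank (ZMod p) X := by
  rw [Module.natCard_eq_pow_finrank (K := ZMod p), Nat.card_zmod]

/-- `#k = p ^ dK p k` for a finite field of characteristic `p`. -/
theorem card_eq_pow_dK (k : Type) [Field k] [Finite k] (hchar : ((p : ℕ) : k) = 0) :
    Nat.card k = p ^ dK p k := by
  haveI : Fintype k := Fintype.ofFinite k
  haveI : CharP k p := by
    have hp : p.Prime := Fact.out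
    have hdvd : ringChar k ∣ p := (ringChar.spec k p).1 hchar
    have hrc : ringChar k = p := ((Nat.dvd_prime hp).1 hdvd).resolve_left CharP.ringChar_ne_one
    exact hrc ▸ ringChar.charP k
  obtain ⟨n, -, hn⟩ := FiniteField.card k p
  have hp1 : 1 < p := (Fact.out : p.Prime).one_lt
  unfold dK
  rw [Nat.card_eq_fintype_card, hn, Nat.log_pow hp1]

theorem finrank_le_of_card_le {X : Type} [AddCommGroup X] [Module (ZMod p) X]
    [Module.Finite (ZMod p) X] {a : ℕ} (h : Nat.card X ≤ p ^ a) :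
    Module.finrank (ZMod p) X ≤ a := by
  rw [card_eq_pow_finrank (p := p)] at h
  exact (Nat.pow_le_pow_iff_right (Fact.out : p.Prime).one_lt).1 h

end Numerics

/-! ### `IsGood` is monotone in the set of primes -/

theorem IsGood.mono {p : ℕ} [Fact p.Prime] {S S' : Finset Nat.Primes} (hSS' : S ⊆ S')
    {M : Rep.{0} (ZMod p) Γ} (h : IsGood S M) : IsGood S' M :=
  ⟨h.fin, h.smooth, fun q hq => h.unram q fun hqS => hq (hSS' hqS)⟩

/-! ### The numerical core, for an abstract coefficient module -/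

section Core

variable {p : ℕ} [Fact p.Prime]

/-- **Numerical core.**  If the Greenberg–Wiles inequality holds for `(S', M, L)`, the local conditions
satisfy `dim L_v ≤ h⁰_v + e_v` with total excess `∑ e_v ≤ d + r d`, the dual Selmer group is trivial,
`h⁰(G_ℚ, M) = 0` and `h⁰(ℝ, M) ≥ d`, then `dim Sel ≤ r d`. -/
theorem gw_core (perp : ∀ (q : Nat.Primes) (M : Rep.{0} (ZMod p) Γ),
      Submodule (ZMod p) (H1l q M) → Submodule (ZMod p) (H1l q (dual M)))
    (M : Rep.{0} (ZMod p) Γ) (S' : Finset Nat.Primes)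
    (L : ∀ v : ↥S', Submodule (ZMod p) (H1l v.1 M))
    (hineq : GWIneq perp S' M L) (d r : ℕ) (e : ↥S' → ℕ)
    (hL : ∀ v : ↥S', Module.finrank (ZMod p) (L v) ≤ h0l v.1 M + e v)
    (he : ∑ v : ↥S', e v ≤ d + r * d)
    (Ld : ∀ v : ↥S', Submodule (ZMod p) (H1l v.1 (dual M)))
    (hLd : ∀ v : ↥S', perp v.1 M (L v) = Ld v)
    (hsel : Sel S' (dual M) Ld = ⊥)
    (hglob : h0g M = 0) (harch : d ≤ h0c M) :
    Module.finrank (ZMod p) (Sel S' M L) ≤ r * d := by
  unfold GWIneq at hineq
  have hfun : (fun v : ↥S' => perp v.1 M (L v)) = Ld := funext hLd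
  rw [hfun, hsel, finrank_bot, hglob] at hineq
  have hsum : ∑ v : ↥S', Module.finrank (ZMod p) (L v) ≤
      (∑ v : ↥S', h0l v.1 M) + (d + r * d) := by
    refine (Finset.sum_le_sum fun v _ => hL v).trans ?_
    rw [Finset.sum_add_distrib]
    exact Nat.add_le_add_left he _
  have := hineq.trans (Nat.add_le_add_left hsum _)
  omega

/-- **Counting core.**  Pairwise distinct nonzero elements of a subspace of dimension `≤ a`. -/
theorem card_core {X : Type} [AddCommGroup X] [Module (ZMod p) X] [Module.Finite (ZMod p) X]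
    (W : Submodule (ZMod p) X) {a : ℕ} (hW : Module.finrank (ZMod p) W ≤ a)
    {ι : Type} (s : Finset ι) (f : ι → X) (hmem : ∀ c ∈ s, f c ∈ W) (hne : ∀ c ∈ s, f c ≠ 0)
    (hinj : ∀ c ∈ s, ∀ c' ∈ s, f c = f c' → c = c') :
    s.card + 1 ≤ p ^ a := by
  classical
  haveI : Finite ↥W := Module.finite_of_finite (ZMod p)
  have hcard : s.card + 1 ≤ Nat.card ↥W := by
    let g : Option ↥s → ↥W := fun o =>
      match o with
      | none => 0
      | some c => ⟨f c.1, hmem c.1 c.2⟩
    have hg : Function.Injective g := by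
      intro x y hxy
      match x, y with
      | none, none => rfl
      | none, some c =>
        exact absurd (congrArg Subtype.val hxy).symm (hne c.1 c.2)
      | some c, none =>
        exact absurd (congrArg Subtype.val hxy) (hne c.1 c.2)
      | some c, some c' =>
        exact congrArg some (Subtype.ext (hinj c.1 c.2 c'.1 c'.2 (congrArg Subtype.val hxy)))
    have := Nat.card_le_card_of_injective g hg
    simpa [Nat.card_eq_fintype_card, Fintype.card_option] using this
  calc s.card + 1 ≤ Nat.card ↥W := hcard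
    _ = p ^ Module.finrank (ZMod p) ↥W := card_eq_pow_finrank _
    _ ≤ p ^ a := Nat.pow_le_pow_right (Fact.out : p.Prime).pos hW

end Core

/-! ### The assembly -/

variable {𝒪 : Type} [CommRing 𝒪] [IsDomain 𝒪] [IsDiscreteValuationRing 𝒪]
  [IsAdicComplete (maximalIdeal 𝒪) 𝒪] [Finite (ResidueField 𝒪)]

theorem brickS_of_bricks (p : ℕ) [Fact p.Prime]
    (cond : Finset ℕ → Finset ℕ →
      ∀ ⦃A : Type⦄ [CommRing A] [IsLocalRing A] [Algebra 𝒪 A], GaloisRepAdic A → Prop)
    (atp : ∀ ρbar : ResidualGaloisRep (ResidueField 𝒪),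
      (Γ → Module.End (ResidueField 𝒪) ρbar.V) → Prop)
    (hcondU : ∀ (ρbar : ResidualGaloisRep (ResidueField 𝒪)) (Smin : Finset ℕ),
      cond Smin Smin (GaloisRepAdic.ofResidualGaloisRep ρbar) →
      ∀ q ∈ Smin, q.Prime → q ≠ p →
        (GaloisRepAdic.ofResidualGaloisRep ρbar).IsUnipotentOnInertiaAt q)
    (hB : Bridge 𝒪 p) (hGood : GoodAd0 𝒪 p) (hGlob : GlobZero 𝒪 p) (hArch : ArchLe 𝒪 p)
    (hP : LocP 𝒪 p cond atp) (hU : LocUnip 𝒪 p) (hUr : LocUr 𝒪 p) (hTWl : LocTW 𝒪 p)
    (hGW : GWStatementW p) (hKill : TWKill 𝒪 p) :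
    BrickS 𝒪 p cond atp := by
  classical
  intro ρbar S Smin h hres
  obtain ⟨pkg⟩ := hGW h.hp2
  have hcardk : Nat.card (ResidueField 𝒪) = p ^ dK p (ResidueField 𝒪) :=
    card_eq_pow_dK _ (hchar h)
  have hgood : IsGood (toPrimes Smin) (MM 𝒪 p ρbar (hchar h)) := hGood ρbar S Smin h
  have hpS : pPrime p ∈ toPrimes Smin := mem_toPrimes.2 h.hpSmin
  -- the auxiliary set of primes of the weak Greenberg–Wiles package
  obtain ⟨S₀, hS₀⟩ := pkg.main (toPrimes Smin) (MM 𝒪 p ρbar (hchar h)) hpS hgood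
  -- the local conditions at the primes of `Smin`
  have hloc : ∀ v : ↥(toPrimes Smin),
      ∃ L : Submodule (ZMod p) (H1l v.1 (MM 𝒪 p ρbar (hchar h))),
      Module.finrank (ZMod p) L ≤ h0l v.1 (MM 𝒪 p ρbar (hchar h)) +
        (if v.1 = pPrime p then dK p (ResidueField 𝒪) else 0) ∧
      ∀ c : Γ → Module.End (ResidueField 𝒪) ρbar.V, IsDefCocycle ρbar c → atp ρbar c →
        (((v.1 : Nat.Primes) : ℕ) ≠ p → ∀ P : ValuationSubring (AlgebraicClosure ℚ),
          P.LiesOverPrime (v.1 : Nat.Primes) → ∀ σ ∈ P.inertiaSubgroupIn ℚ,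
            LinearMap.trace (ResidueField 𝒪) ρbar.V (c σ * ρbar.ρ σ) = 0) →
        locCls ρbar p (hchar h) v.1 c ∈ L := by
    rintro ⟨v, hv⟩
    haveI : Module.Finite (ZMod p) (H1l v (MM 𝒪 p ρbar (hchar h))) :=
      pkg.finite_H1l v _ _ hgood
    haveI : Module.Finite (ZMod p) (Rep.res (primeLocalToGlobal v) (MM 𝒪 p ρbar (hchar h))) :=
      hgood.fin
    by_cases hvp : v = pPrime p
    · subst hvp
      obtain ⟨L, hLc, hLm⟩ := hP ρbar S Smin h hres
      refine ⟨L, ?_, fun c hc hat _ => hLm c hc hat⟩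
      rw [if_pos rfl]
      apply finrank_le_of_card_le
      refine hLc.trans ?_
      rw [hcardk, pow_add]
      refine Nat.mul_le_mul_right _ (le_of_eq ?_)
      exact card_eq_pow_finrank _
    · have hne : (v : ℕ) ≠ p := fun hh => hvp (Subtype.ext hh)
      have hvS : (v : ℕ) ∈ Smin := mem_toPrimes.1 hv
      obtain ⟨L, hLc, hLm⟩ := hU ρbar S Smin h v hne ((h.hmin v v.2 hne).1 hvS)
        (hcondU ρbar Smin hres v hvS v.2 hne)
      refine ⟨L, ?_, fun c hc _ hun => hLm c hc (hun hne)⟩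
      rw [if_neg hvp, add_zero]
      apply finrank_le_of_card_le
      refine hLc.trans (le_of_eq ?_)
      exact card_eq_pow_finrank _
  choose Lc hLfr hLmem using hloc
  -- the base local conditions, as a total family: `Lc` on `Smin`, unramified classes elsewhere
  let Lb : ∀ v : Nat.Primes, Submodule (ZMod p) (H1l v (MM 𝒪 p ρbar (hchar h))) := fun v =>
    if hv : v ∈ toPrimes Smin then Lc ⟨v, hv⟩ else H1ur v (MM 𝒪 p ρbar (hchar h))
  have hLb_mem : ∀ (v : Nat.Primes) (hv : v ∈ toPrimes Smin), Lb v = Lc ⟨v, hv⟩ :=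
    fun v hv => dif_pos hv
  have hLb_not : ∀ (v : Nat.Primes), v ∉ toPrimes Smin → Lb v = H1ur v (MM 𝒪 p ρbar (hchar h)) :=
    fun v hv => dif_neg hv
  -- the Taylor–Wiles primes
  obtain ⟨r, hr⟩ := hKill ρbar S Smin h (Smin ∪ ofPrimes S₀) Finset.subset_union_left
    (fun v => pkg.perp v _ (Lb v))
  refine ⟨r, fun n => ?_⟩
  obtain ⟨qv, hTW, hsel⟩ := hr n
  refine ⟨qv, hTW, fun s hs hcoh => ?_⟩
  -- the big set of primes
  have hTsub : Smin ∪ Finset.univ.image qv ⊆ (Smin ∪ ofPrimes S₀) ∪ Finset.univ.image qv := by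
    intro x hx
    rcases Finset.mem_union.1 hx with hx | hx
    · exact Finset.mem_union_left _ (Finset.mem_union_left _ hx)
    · exact Finset.mem_union_right _ hx
  have hSminT : Smin ⊆ (Smin ∪ ofPrimes S₀) ∪ Finset.univ.image qv := fun x hx =>
    Finset.mem_union_left _ (Finset.mem_union_left _ hx)
  have hsub : toPrimes Smin ⊆ toPrimes ((Smin ∪ ofPrimes S₀) ∪ Finset.univ.image qv) :=
    toPrimes_mono hSminT
  have hsub₀ : S₀ ⊆ toPrimes ((Smin ∪ ofPrimes S₀) ∪ Finset.univ.image qv) := fun q hq =>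
    mem_toPrimes.2 (Finset.mem_union_left _ (Finset.mem_union_right _ (mem_ofPrimes.2 hq)))
  have hgood' : IsGood (toPrimes ((Smin ∪ ofPrimes S₀) ∪ Finset.univ.image qv))
      (MM 𝒪 p ρbar (hchar h)) := IsGood.mono hsub hgood
  have hpS' : pPrime p ∈ toPrimes ((Smin ∪ ofPrimes S₀) ∪ Finset.univ.image qv) := hsub hpS
  haveI : Module.Finite (ZMod p)
      (H1g (toPrimes ((Smin ∪ ofPrimes S₀) ∪ Finset.univ.image qv)) (MM 𝒪 p ρbar (hchar h))) :=
    pkg.finite_H1g _ _ hpS' hgood'
  -- the local conditions on the big set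
  let L' : ∀ v : ↥(toPrimes ((Smin ∪ ofPrimes S₀) ∪ Finset.univ.image qv)),
      Submodule (ZMod p) (H1l v.1 (MM 𝒪 p ρbar (hchar h))) := fun v =>
    if ((v.1 : Nat.Primes) : ℕ) ∈ Finset.univ.image qv then ⊤ else Lb v.1
  have hL'_tw : ∀ v : ↥(toPrimes ((Smin ∪ ofPrimes S₀) ∪ Finset.univ.image qv)),
      ((v.1 : Nat.Primes) : ℕ) ∈ Finset.univ.image qv → L' v = ⊤ := fun v hv => if_pos hv
  have hL'_not : ∀ v : ↥(toPrimes ((Smin ∪ ofPrimes S₀) ∪ Finset.univ.image qv)),
      ((v.1 : Nat.Primes) : ℕ) ∉ Finset.univ.image qv → L' v = Lb v.1 := fun v hv => if_neg hv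
  have hperp : ∀ v : ↥(toPrimes ((Smin ∪ ofPrimes S₀) ∪ Finset.univ.image qv)),
      pkg.perp v.1 (MM 𝒪 p ρbar (hchar h)) (L' v) =
      (if ((v.1 : Nat.Primes) : ℕ) ∈ Finset.univ.image qv then
        (⊥ : Submodule (ZMod p) (H1l v.1 (dual (MM 𝒪 p ρbar (hchar h)))))
        else pkg.perp v.1 (MM 𝒪 p ρbar (hchar h)) (Lb v.1)) := by
    intro v
    by_cases hv : ((v.1 : Nat.Primes) : ℕ) ∈ Finset.univ.image qv
    · rw [hL'_tw v hv, if_pos hv]
      exact pkg.perp_top v.1 _ _ hgood'
    · rw [hL'_not v hv, if_neg hv]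
  -- Taylor–Wiles primes: properties
  have hTWprop : ∀ v : Nat.Primes, (v : ℕ) ∈ Finset.univ.image qv →
      (v : ℕ) ∉ S ∧ (v : ℕ) ≠ p ∧
        h0l v (dual (MM 𝒪 p ρbar (hchar h))) ≤ dK p (ResidueField 𝒪) := by
    intro v hv
    obtain ⟨i, -, hi⟩ := Finset.mem_image.1 hv
    have hvS : (v : ℕ) ∉ S := hi ▸ (hTW.2.1 i).2.1
    have hvp : (v : ℕ) ≠ p := fun hh => hvS (hh ▸ h.hSmin h.hpSmin)
    have hdvd : p ∣ (v : ℕ) - 1 :=
      hi ▸ dvd_trans (dvd_pow_self p (Nat.succ_ne_zero n)) (hTW.2.1 i).2.2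
    have hfrob := hTW.2.2 i
    rw [hi] at hfrob
    exact ⟨hvS, hvp, hTWl ρbar S Smin h v hvS hdvd hfrob⟩
  have hfr := gw_core pkg.perp (MM 𝒪 p ρbar (hchar h))
    (toPrimes ((Smin ∪ ofPrimes S₀) ∪ Finset.univ.image qv)) L'
    (hS₀ _ hsub hsub₀ L') (dK p (ResidueField 𝒪)) r
    (fun v => (if v.1 = pPrime p then dK p (ResidueField 𝒪) else 0) +
      (if ((v.1 : Nat.Primes) : ℕ) ∈ Finset.univ.image qv then dK p (ResidueField 𝒪) else 0))
    (fun v => by
      by_cases hv : ((v.1 : Nat.Primes) : ℕ) ∈ Finset.univ.image qv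
      · obtain ⟨-, hvp, h2⟩ := hTWprop v.1 hv
        have h1 := pkg.finrank_H1l v.1 (MM 𝒪 p ρbar (hchar h)) _ hgood' hvp
        have hvp' : ¬ (v.1 = pPrime p) := fun hh => hvp (by rw [hh]; rfl)
        rw [hL'_tw v hv, finrank_top, if_pos hv, if_neg hvp', zero_add, h1]
        exact Nat.add_le_add_left h2 _
      · rw [hL'_not v hv, if_neg hv, add_zero]
        by_cases hvS : v.1 ∈ toPrimes Smin
        · rw [hLb_mem v.1 hvS]
          exact hLfr ⟨v.1, hvS⟩
        · rw [hLb_not v.1 hvS]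
          have hvp' : ¬ (v.1 = pPrime p) := fun hh => hvS (hh ▸ hpS)
          rw [if_neg hvp', add_zero]
          exact hUr ρbar S Smin h v.1 (fun hh => hvS (mem_toPrimes.2 hh)))
    (by
      rw [Finset.sum_add_distrib]
      refine Nat.add_le_add ?_ ?_
      · rw [Finset.sum_ite, Finset.sum_const_zero, add_zero, Finset.sum_const, smul_eq_mul]
        have : (Finset.univ.filter fun v :
            ↥(toPrimes ((Smin ∪ ofPrimes S₀) ∪ Finset.univ.image qv)) => v.1 = pPrime p).card ≤ 1 :=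
          Finset.card_le_one.2 fun a ha b hb =>
            Subtype.ext ((Finset.mem_filter.1 ha).2.trans (Finset.mem_filter.1 hb).2.symm)
        calc _ ≤ 1 * dK p (ResidueField 𝒪) := Nat.mul_le_mul_right _ this
          _ = dK p (ResidueField 𝒪) := one_mul _
      · rw [Finset.sum_ite, Finset.sum_const_zero, add_zero, Finset.sum_const, smul_eq_mul]
        refine Nat.mul_le_mul_right _ ?_
        have h1 : (Finset.univ.filter fun v :
            ↥(toPrimes ((Smin ∪ ofPrimes S₀) ∪ Finset.univ.image qv)) =>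
              ((v.1 : Nat.Primes) : ℕ) ∈ Finset.univ.image qv).card ≤
            (Finset.univ.image qv).card :=
          Finset.card_le_card_of_injOn (fun v => ((v.1 : Nat.Primes) : ℕ))
            (fun v hv => (Finset.mem_filter.1 hv).2)
            (fun a _ b _ hab => Subtype.ext (Subtype.ext hab))
        refine h1.trans (Finset.card_image_le.trans ?_)
        rw [Finset.card_univ, Fintype.card_fin])
    _ hperp hsel
    (hGlob ρbar S Smin h) (hArch ρbar S Smin h)
  -- the class map on `s`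
  obtain ⟨-, hres1, hinj, hzero, -⟩ := hB ρbar S Smin h
    ((Smin ∪ ofPrimes S₀) ∪ Finset.univ.image qv) hSminT
  obtain ⟨-, -, -, -, hur⟩ := hB ρbar S Smin h (Smin ∪ Finset.univ.image qv)
    Finset.subset_union_left
  have hunr : ∀ c : Γ → Module.End (ResidueField 𝒪) ρbar.V,
      UnramOutside ρbar (Smin ∪ Finset.univ.image qv) c →
      UnramOutside ρbar ((Smin ∪ ofPrimes S₀) ∪ Finset.univ.image qv) c :=
    fun c hc q hq hqT => hc q hq (fun hh => hqT (hTsub hh))
  have hcount := card_core (p := p) _ hfr s (fun c => cls ρbar p (hchar h) _ c)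
    (fun c hc => by
      obtain ⟨hsc, -⟩ := hs c hc
      rw [mem_Sel_iff]
      intro v
      rw [hres1 c hsc.isDefCocycle (hunr c hsc.unramified) v.1]
      by_cases hv : ((v.1 : Nat.Primes) : ℕ) ∈ Finset.univ.image qv
      · rw [hL'_tw v hv]
        exact Submodule.mem_top
      · rw [hL'_not v hv]
        by_cases hvS : v.1 ∈ toPrimes Smin
        · rw [hLb_mem v.1 hvS]
          refine hLmem ⟨v.1, hvS⟩ c hsc.isDefCocycle hsc.atp (fun hne => ?_)
          exact hsc.unipotent _ (mem_toPrimes.1 hvS) v.1.2 hne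
        · rw [hLb_not v.1 hvS]
          refine hur c hsc.isDefCocycle hsc.unramified v.1 (fun hh => ?_)
          rcases Finset.mem_union.1 hh with hh | hh
          · exact hvS (mem_toPrimes.2 hh)
          · exact hv hh)
    (fun c hc h0 => by
      obtain ⟨hsc, hnz⟩ := hs c hc
      exact hnz (hzero c hsc.isDefCocycle (hunr c hsc.unramified) h0))
    (fun c hc c' hc' h0 => by
      obtain ⟨hsc, -⟩ := hs c hc
      obtain ⟨hsc', -⟩ := hs c' hc'
      exact hcoh c hc c' hc'
        (hinj c c' hsc.isDefCocycle (hunr c hsc.unramified) hsc'.isDefCocycle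
          (hunr c' hsc'.unramified) h0))
  calc s.card + 1 ≤ p ^ (r * dK p (ResidueField 𝒪)) := hcount
    _ = Nat.card (ResidueField 𝒪) ^ r := by rw [hcardk, ← pow_mul, mul_comm]

end Fermat.Agent.TW.SCount72
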