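/-
Programme TW (S56), pillar (S), brick S-GOOD/GLOB/ARCH (helper9): model-independent core.

Everything is stated on `ρbar : ResidualGaloisRep k` directly (no cohomology library):

* `complexConjugation_apply_of_pow_eq_one` : complex conjugation inverts roots of unity;
* `det_complexConjugation`   : `DetIsCyclotomic p` (`p = 0` in `k`) gives `det ρbar(c) = -1`;
* `trace_complexConjugation` : hence `tr ρbar(c) = 0` (`ρbar(c)² = 1`, `2 × 2` matrices);
* `conj_complexConjugation`  : `T = ρbar(c)` is fixed by `conj c`; `T ≠ 0`;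
* `eq_zero_of_commute_of_trace_eq_zero` : Schur: a trace-zero endomorphism commuting with a set of
  operators without stable line over an algebraically closed extension vanishes (`2 ≠ 0` in `k`).
-/
import Mathlib
import Fermat.Agent.TW.Interface
import Fermat.Prelude.Def_GaloisRep_ComplexConjugation

set_option autoImplicit false

open Polynomial
open scoped TensorProduct

namespace Fermat.Agent.TW.ArchGlob9

open Fermat.Agent.TW.Interface

/-! ### Complex conjugation and roots of unity -/

/-- Complex conjugation inverts every root of unity of `ℚ̄`. -/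
theorem complexConjugation_apply_of_pow_eq_one {n : ℕ} (hn : n ≠ 0) (μ : AlgebraicClosure ℚ)
    (hμ : μ ^ n = 1) : complexConjugation μ = μ⁻¹ := by
  apply complexEmbedding.toRingHom.injective
  show complexEmbedding (complexConjugation μ) = complexEmbedding μ⁻¹
  rw [complexEmbedding_complexConjugation, map_inv₀]
  have hz : (complexEmbedding μ) ^ n = 1 := by rw [← map_pow, hμ, map_one]
  exact (Complex.inv_eq_conj (Complex.norm_eq_one_of_pow_eq_one hz hn)).symm

/-- Complex conjugation raises every `p`-th root of unity to the power `p - 1`. -/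
theorem complexConjugation_apply_eq_pow_pred {p : ℕ} (hp : p ≠ 0) (μ : AlgebraicClosure ℚ)
    (hμ : μ ^ p = 1) : complexConjugation μ = μ ^ (p - 1) := by
  rw [complexConjugation_apply_of_pow_eq_one hp μ hμ]
  apply inv_eq_of_mul_eq_one_right
  rw [← pow_succ', Nat.sub_add_cancel (Nat.pos_of_ne_zero hp), hμ]

/-! ### Linear algebra in dimension two -/

section LinAlg

variable {k : Type} [Field k]

/-- A `2 × 2` matrix with `M² = 1` and `det M = -1` has trace zero. -/
theorem matrix_trace_eq_zero_of_mul_self_eq_one (M : Matrix (Fin 2) (Fin 2) k) (hM : M * M = 1)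
    (hdet : M.det = -1) : M.trace = 0 := by
  have h00 := congrFun (congrFun hM 0) 0
  have h11 := congrFun (congrFun hM 1) 1
  rw [Matrix.mul_apply, Fin.sum_univ_two, Matrix.one_apply_eq] at h00 h11
  rw [Matrix.det_fin_two] at hdet
  rw [Matrix.trace_fin_two]
  have hsq : (M 0 0 + M 1 1) ^ 2 = 0 := by
    linear_combination h00 + h11 + 2 * hdet
  exact (pow_eq_zero_iff two_ne_zero).mp hsq

/-- An involution of determinant `-1` on a plane has trace zero. -/
theorem trace_eq_zero_of_mul_self_eq_one {V : Type} [AddCommGroup V] [Module k V]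
    (hV : Module.finrank k V = 2) (T : Module.End k V) (hT : T * T = 1)
    (hdet : LinearMap.det T = -1) : LinearMap.trace k V T = 0 := by
  classical
  have : Module.Finite k V := Module.finite_of_finrank_eq_succ hV
  let b : Module.Basis (Fin 2) k V := Module.finBasisOfFinrankEq k V hV
  rw [LinearMap.trace_eq_matrix_trace k b]
  apply matrix_trace_eq_zero_of_mul_self_eq_one
  · rw [← LinearMap.toMatrix_mul, hT, LinearMap.toMatrix_one]
  · rw [LinearMap.det_toMatrix, hdet]

end LinAlg

/-! ### The archimedean place -/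

section Arch

variable {k : Type} [Field k] (ρbar : ResidualGaloisRep k)

/-- In a field, `p ∈ 𝔪` means `p = 0`. -/
theorem natCast_eq_zero_of_mem_maximalIdeal {p : ℕ} (hpk : (p : k) ∈ IsLocalRing.maximalIdeal k) :
    (p : k) = 0 := by
  have hbot : IsLocalRing.maximalIdeal k = ⊥ :=
    (Ideal.eq_bot_or_top _).resolve_right (Ideal.IsMaximal.ne_top inferInstance)
  rw [hbot] at hpk
  exact hpk

/-- `DetIsCyclotomic p` for a residual representation gives `det ρbar(c) = -1`. -/
theorem det_complexConjugation {p : ℕ} (hp : p.Prime)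
    (hdet : (GaloisRepAdic.ofResidualGaloisRep ρbar).DetIsCyclotomic p) :
    LinearMap.det (ρbar.ρ complexConjugation) = -1 := by
  obtain ⟨hpk, h⟩ := hdet
  have hp0 : (p : k) = 0 := natCast_eq_zero_of_mem_maximalIdeal hpk
  have h1 := h 1 complexConjugation (p - 1) (fun μ hμ => by
    rw [pow_one] at hμ
    exact complexConjugation_apply_eq_pow_pred hp.ne_zero μ hμ)
  rw [pow_one, hp0, Ideal.span_singleton_eq_bot.mpr rfl, Ideal.mem_bot, sub_eq_zero] at h1
  have h2 : ((p - 1 : ℕ) : k) = -1 := by
    rw [Nat.cast_sub hp.one_le, hp0, Nat.cast_one, zero_sub]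
  rw [← h2]
  exact h1

theorem ρ_complexConjugation_mul_self :
    ρbar.ρ complexConjugation * ρbar.ρ complexConjugation = 1 := by
  rw [← map_mul, complexConjugation_mul_self, map_one]

/-- `tr ρbar(c) = 0`. -/
theorem trace_complexConjugation {p : ℕ} (hp : p.Prime)
    (hdet : (GaloisRepAdic.ofResidualGaloisRep ρbar).DetIsCyclotomic p) :
    LinearMap.trace k ρbar.V (ρbar.ρ complexConjugation) = 0 :=
  trace_eq_zero_of_mul_self_eq_one ρbar.finrank_eq _ (ρ_complexConjugation_mul_self ρbar)
    (det_complexConjugation ρbar hp hdet)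

/-- `ρbar(c)` is fixed by conjugation by `c`. -/
theorem conj_complexConjugation :
    conj ρbar complexConjugation (ρbar.ρ complexConjugation) = ρbar.ρ complexConjugation := by
  unfold conj
  rw [complexConjugation_inv, mul_assoc, ρ_complexConjugation_mul_self, mul_one]

/-- `ρbar(c) ≠ 0`. -/
theorem ρ_complexConjugation_ne_zero : ρbar.ρ complexConjugation ≠ 0 := by
  intro h
  have h1 := ρ_complexConjugation_mul_self ρbar
  rw [h, mul_zero] at h1
  have : Nontrivial ρbar.V := by
    apply Module.nontrivial_of_finrank_pos (R := k)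
    rw [ρbar.finrank_eq]
    norm_num
  exact zero_ne_one h1

end Arch

/-! ### Schur's lemma -/

section Schur

variable {k : Type} [Field k] (ρbar : ResidualGaloisRep k)

/-- "No stable line over `K`" for a set `S` of Galois elements. -/
def IrredOn (K : Type) [Field K] [Algebra k K] (S : Set GalQ) : Prop :=
  ∀ W : Submodule K (ρbar.baseChange K).V,
    (∀ σ ∈ S, ∀ x ∈ W, (ρbar.baseChange K).ρ σ x ∈ W) → W = ⊥ ∨ W = ⊤

theorem baseChange_ρ_apply (K : Type) [Field K] [Algebra k K] (σ : GalQ) :
    (ρbar.baseChange K).ρ σ = (ρbar.ρ σ).baseChange K := rfl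

/-- Absolute irreducibility in the `IrredOn` vocabulary. -/
theorem irredOn_univ_of_isAbsolutelyIrreducible (habs : ρbar.IsAbsolutelyIrreducible) :
    IrredOn ρbar (AlgebraicClosure k) Set.univ :=
  fun W hW => habs W fun σ x hx => hW σ (Set.mem_univ σ) x hx

/-- Schur's lemma, trace-zero form: a trace-zero endomorphism commuting with a set `S` of operators
having no stable line over an algebraically closed extension vanishes (`2 ≠ 0`). -/
theorem eq_zero_of_commute_of_trace_eq_zero (h2 : (2 : k) ≠ 0)
    (K : Type) [Field K] [Algebra k K] [IsAlgClosed K] (S : Set GalQ)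
    (hirr : IrredOn ρbar K S)
    (X : Module.End k ρbar.V) (hX : ∀ σ ∈ S, X * ρbar.ρ σ = ρbar.ρ σ * X)
    (htr : LinearMap.trace k ρbar.V X = 0) : X = 0 := by
  classical
  set X' : Module.End K (K ⊗[k] ρbar.V) := X.baseChange K with hX'
  have : Nontrivial (K ⊗[k] ρbar.V) := by
    apply Module.nontrivial_of_finrank_pos (R := K)
    rw [Module.finrank_baseChange, ρbar.finrank_eq]
    norm_num
  obtain ⟨c, hc⟩ := Module.End.exists_eigenvalue X'
  have hstab : ∀ σ ∈ S, ∀ x ∈ Module.End.eigenspace X' c,
      (ρbar.baseChange K).ρ σ x ∈ Module.End.eigenspace X' c := by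
    intro σ hσ x hx
    rw [Module.End.mem_eigenspace_iff] at hx ⊢
    rw [baseChange_ρ_apply]
    have hcomm : X' ((ρbar.ρ σ).baseChange K x) = (ρbar.ρ σ).baseChange K (X' x) := by
      rw [hX', ← LinearMap.comp_apply, ← LinearMap.baseChange_comp, ← Module.End.mul_eq_comp,
        hX σ hσ, Module.End.mul_eq_comp, LinearMap.baseChange_comp, LinearMap.comp_apply]
    rw [hcomm, hx, map_smul]
  have htop : Module.End.eigenspace X' c = ⊤ := by
    rcases hirr _ hstab with h | h
    · exact absurd h hc
    · exact h
  have hXc : X' = c • (1 : Module.End K (K ⊗[k] ρbar.V)) := by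
    ext x
    have hx : (1 : K) ⊗ₜ[k] x ∈ Module.End.eigenspace X' c := by rw [htop]; trivial
    rw [Module.End.mem_eigenspace_iff] at hx
    simpa using hx
  have htr' : LinearMap.trace K (K ⊗[k] ρbar.V) X' = 0 := by
    rw [hX', LinearMap.trace_baseChange, htr, map_zero]
  rw [hXc, map_smul, LinearMap.trace_one, Module.finrank_baseChange, ρbar.finrank_eq] at htr'
  have h2K : ((2 : ℕ) : K) ≠ 0 := by
    have : ((2 : ℕ) : K) = algebraMap k K 2 := by
      rw [Nat.cast_ofNat, map_ofNat]
    rw [this]
    exact (map_ne_zero_iff _ (algebraMap k K).injective).mpr h2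
  have hc0 : c = 0 := by
    rcases smul_eq_zero.mp htr' with h | h
    · exact h
    · exact absurd h h2K
  rw [hc0, zero_smul] at hXc
  have hinj := LinearMap.baseChangeHom_injective (R := k) (S := K) (M := ρbar.V) (N := ρbar.V)
  apply hinj
  rw [map_zero]
  exact hXc

/-- If `(p : k) = 0` for an odd `p` then `2 ≠ 0` in `k`. -/
theorem two_ne_zero_of_odd_natCast_eq_zero {p : ℕ} (hp : p.Prime) (hp2 : p ≠ 2)
    (hchar : (p : k) = 0) : (2 : k) ≠ 0 := by
  intro h2
  obtain ⟨m, hm⟩ := hp.odd_of_ne_two hp2
  rw [hm, Nat.cast_add, Nat.cast_mul, Nat.cast_ofNat, h2, zero_mul, zero_add, Nat.cast_one] at hchar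
  exact one_ne_zero hchar

end Schur

end Fermat.Agent.TW.ArchGlob9
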