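/-
Programme TW (S56), pillar (S), brick 206 = S-GOOD/GLOB/ARCH (helper9).

Final deliverables, verbatim in the vocabulary of `SIface72`:

* `goodAd0  : SIface72.GoodAd0 𝒪 p`  -- `ad⁰ ρbar` is finite, smooth, unramified outside `Smin`;
* `globZero : SIface72.GlobZero 𝒪 p` -- `H⁰(G_ℚ, ad⁰ ρbar) = 0` (Schur, `p` odd);
* `archLe   : SIface72.ArchLe 𝒪 p`   -- `[k : 𝔽_p] ≤ dim H⁰(ℝ, ad⁰ ρbar)` (`ρbar(c)` itself is a
  trace-zero invariant of complex conjugation, since `det ρbar(c) = -1`).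
-/
import Fermat.Agent.TW.SIface72
import Fermat.Agent.TW.ArchGlob9

set_option autoImplicit false
set_option linter.unusedSectionVars false

open Polynomial IsLocalRing
open ExtCitation
open Fermat.Agent.PT.PRO Fermat.Agent.PT.BR Fermat.Agent.PT.BR.LevelBridge13
open Fermat.Agent.TW.Interface Fermat.Agent.TW.GWIface97 Fermat.Agent.TW.SDefs72
open Fermat.Agent.TW.SIface72 Fermat.Agent.TW.ArchGlob9

namespace Fermat.Agent.TW.SGlobArch9

local notation "Γ" => (AlgebraicClosure ℚ ≃ₐ[ℚ] AlgebraicClosure ℚ)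

section Generic

variable {k : Type} [Field k] (ρbar : ResidualGaloisRep k) (p : ℕ) [Fact p.Prime]
  (hchar : (p : k) = 0)

/-- If `ρbar σ = 1` then `σ` acts trivially on `ad0F`. -/
theorem ad0F_ρ_eq_one_of_ρ_eq_one (σ : Γ) (h : ρbar.ρ σ = 1) :
    (ad0F ρbar p hchar).ρ σ = 1 := by
  have h' : ρbar.ρ σ⁻¹ = 1 := by
    have h1 : ρbar.ρ σ * ρbar.ρ σ⁻¹ = 1 := by rw [← map_mul, mul_inv_cancel, map_one]
    rwa [h, one_mul] at h1
  refine LinearMap.ext fun x => ?_
  apply ad0F.val_injective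
  rw [ad0F.val_ρ]
  unfold conj
  rw [h, h', one_mul, mul_one]
  rfl

/-- An element of `ad0F` is invariant under `σ` iff its endomorphism commutes with `ρbar σ`. -/
theorem val_mul_ρ_of_ρ_apply_eq (σ : Γ) (x : ad0F ρbar p hchar)
    (h : (ad0F ρbar p hchar).ρ σ x = x) :
    ad0F.val ρbar p hchar x * ρbar.ρ σ = ρbar.ρ σ * ad0F.val ρbar p hchar x := by
  have h1 := congrArg (ad0F.val ρbar p hchar) h
  rw [ad0F.val_ρ] at h1
  unfold conj at h1
  have h2 : ρbar.ρ σ⁻¹ * ρbar.ρ σ = 1 := by rw [← map_mul, inv_mul_cancel, map_one]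
  calc ad0F.val ρbar p hchar x * ρbar.ρ σ
      = ρbar.ρ σ * ad0F.val ρbar p hchar x * ρbar.ρ σ⁻¹ * ρbar.ρ σ := by rw [h1]
    _ = ρbar.ρ σ * ad0F.val ρbar p hchar x := by rw [mul_assoc, h2, mul_one]

/-- `ad0F` is a finite set when `k` is finite. -/
theorem finite_ad0F [Finite k] : Finite (ad0F ρbar p hchar) := by
  have hV : Finite ρbar.V := Module.finite_of_finite k
  have hE : Finite (Module.End k ρbar.V) := Module.finite_of_finite k
  exact Subtype.finite

/-- `ad⁰ ρbar` is finite-dimensional, smooth, and unramified outside `T` as soon as `ρbar` is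
unramified at all primes outside `T`. -/
theorem isGood_ad0F [Finite k] (T : Finset Nat.Primes)
    (hT : ∀ q : Nat.Primes, q ∉ T → ρbar.IsUnramifiedAt q) :
    IsGood T (ad0F ρbar p hchar) where
  fin := by
    have := finite_ad0F ρbar p hchar
    exact Module.Finite.of_finite
  smooth := by
    intro m
    obtain ⟨L, hL, h1⟩ := ρbar.factorsThroughFiniteLevel
    refine ⟨L, hL, fun s hs => ?_⟩
    have hs1 : ρbar.ρ s = 1 := h1 s fun x hx => hs ⟨x, hx⟩
    rw [ad0F_ρ_eq_one_of_ρ_eq_one ρbar p hchar s hs1]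
    rfl
  unram := by
    intro q hq A hA g hg
    exact ad0F_ρ_eq_one_of_ρ_eq_one ρbar p hchar g (hT q hq A hA g hg)

/-- `H⁰(G_ℚ, ad⁰ ρbar) = 0` for absolutely irreducible `ρbar`, `p` odd. -/
theorem h0g_ad0F_eq_zero (hp2 : p ≠ 2) (habs : ρbar.IsAbsolutelyIrreducible) :
    h0g (ad0F ρbar p hchar) = 0 := by
  have h2 : (2 : k) ≠ 0 := two_ne_zero_of_odd_natCast_eq_zero (Fact.out : p.Prime) hp2 hchar
  have hbot : (ad0F ρbar p hchar).ρ.invariants = ⊥ := by
    rw [eq_bot_iff]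
    intro x hx
    rw [Submodule.mem_bot]
    apply ad0F.val_injective ρbar p hchar
    have hz : ad0F.val ρbar p hchar x = 0 := by
      apply eq_zero_of_commute_of_trace_eq_zero ρbar h2 (AlgebraicClosure k) Set.univ
        (irredOn_univ_of_isAbsolutelyIrreducible ρbar habs)
      · intro σ _
        exact val_mul_ρ_of_ρ_apply_eq ρbar p hchar σ x (hx σ)
      · exact Ad0.trace_val (show Ad0 ρbar from x)
    rw [hz]
    rfl
  unfold h0g
  rw [hbot, finrank_bot]


theorem conj_smul (σ : Γ) (a : k) (X : Module.End k ρbar.V) :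
    conj ρbar σ (a • X) = a • conj ρbar σ X := by
  unfold conj
  rw [mul_smul_comm, smul_mul_assoc]

/-- `dK p k = [k : 𝔽_p]` for any `ZMod p`-module structure on the finite field `k`. -/
theorem dK_eq_finrank [Finite k] [Module (ZMod p) k] : dK p k = Module.finrank (ZMod p) k := by
  unfold dK
  have h := Module.natCard_eq_pow_finrank (K := ZMod p) (V := k)
  rw [Nat.card_zmod] at h
  rw [h, Nat.log_pow (Fact.out : p.Prime).one_lt]

/-- `[k : 𝔽_p] ≤ dim H⁰(ℝ, ad⁰ ρbar)`. -/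
theorem dK_le_h0c_ad0F_aux [Finite k] [Module (ZMod p) k]
    (hdet : (GaloisRepAdic.ofResidualGaloisRep ρbar).DetIsCyclotomic p) :
    dK p k ≤ h0c (ad0F ρbar p hchar) := by
  classical
  have hp : p.Prime := Fact.out
  have hfin : Finite (ad0F ρbar p hchar) := finite_ad0F ρbar p hchar
  have hMfin : Module.Finite (ZMod p) (ad0F ρbar p hchar) := Module.Finite.of_finite
  -- the invariant element `T = ρbar(c)`
  have htr := trace_complexConjugation ρbar hp hdet
  let x₀ : Ad0 ρbar := Ad0.mk ρbar (ρbar.ρ complexConjugation) htr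
  -- `a ↦ a • T`
  let g : k →+ ad0F ρbar p hchar :=
    { toFun := fun a => ad0F.of ρbar p hchar (a • x₀)
      map_zero' := by rw [zero_smul]; rfl
      map_add' := fun a b => by rw [add_smul]; rfl }
  have hgval : ∀ a : k, ad0F.val ρbar p hchar (g a) = a • ρbar.ρ complexConjugation := fun a => rfl
  have hgmem : ∀ a : k, g.toZModLinearMap p a ∈
      LinearMap.ker ((ad0F ρbar p hchar).ρ complexConjugation - 1) := by
    intro a
    rw [LinearMap.mem_ker, LinearMap.sub_apply, sub_eq_zero]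
    apply ad0F.val_injective ρbar p hchar
    rw [ad0F.val_ρ]
    show conj ρbar complexConjugation (ad0F.val ρbar p hchar (g a)) = ad0F.val ρbar p hchar (g a)
    rw [hgval, conj_smul, conj_complexConjugation]
  let f : k →ₗ[ZMod p] LinearMap.ker ((ad0F ρbar p hchar).ρ complexConjugation - 1) :=
    (g.toZModLinearMap p).codRestrict _ hgmem
  have hf : Function.Injective f := by
    intro a b hab
    have h1 : g a = g b := congrArg Subtype.val hab
    have h2 := congrArg (ad0F.val ρbar p hchar) h1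
    rw [hgval, hgval, ← sub_eq_zero, ← sub_smul] at h2
    rcases smul_eq_zero.mp h2 with h | h
    · exact sub_eq_zero.mp h
    · exact absurd h (ρ_complexConjugation_ne_zero ρbar)
  rw [dK_eq_finrank p]
  unfold h0c
  exact LinearMap.finrank_le_finrank_of_injective hf

/-- `[k : 𝔽_p] ≤ dim H⁰(ℝ, ad⁰ ρbar)`. -/
theorem dK_le_h0c_ad0F [Finite k]
    (hdet : (GaloisRepAdic.ofResidualGaloisRep ρbar).DetIsCyclotomic p) :
    dK p k ≤ h0c (ad0F ρbar p hchar) :=
  letI : Module (ZMod p) k := AddCommGroup.zmodModule (n := p) (fun x => by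
    rw [nsmul_eq_mul, hchar, zero_mul])
  dK_le_h0c_ad0F_aux ρbar p hchar hdet

end Generic

section Final

variable (𝒪 : Type) [CommRing 𝒪] [IsDomain 𝒪] [IsDiscreteValuationRing 𝒪]
  [IsAdicComplete (maximalIdeal 𝒪) 𝒪] [Finite (ResidueField 𝒪)] (p : ℕ) [Fact p.Prime]

/-- **GOOD**: `ad⁰ ρbar` is finite-dimensional, smooth and unramified outside `Smin`. -/
theorem goodAd0 : GoodAd0 𝒪 p := fun ρbar _S Smin h =>
  isGood_ad0F ρbar p (hchar h) (toPrimes Smin) (by
    intro q hq
    rw [mem_toPrimes] at hq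
    have hqp : (q : ℕ) ≠ p := fun e => hq (e ▸ h.hpSmin)
    by_contra hun
    exact hq ((h.hmin q q.2 hqp).mpr hun))

/-- **GLOB**: `H⁰(G_ℚ, ad⁰ ρbar) = 0`. -/
theorem globZero : GlobZero 𝒪 p := fun ρbar _S _Smin h =>
  h0g_ad0F_eq_zero ρbar p (hchar h) h.hp2 h.habs

/-- **ARCH**: `[k : 𝔽_p] ≤ dim H⁰(ℝ, ad⁰ ρbar)`. -/
theorem archLe : ArchLe 𝒪 p := fun ρbar _S _Smin h =>
  dK_le_h0c_ad0F ρbar p (hchar h) h.hdet

end Final

end Fermat.Agent.TW.SGlobArch9
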