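/-
Programme TW (S56), pillar (S), brick 159 = LOC-TW (helper9).

For a Taylor–Wiles prime `q` (`q ∉ S`, `q ≡ 1 mod p`, Frobenius with distinct eigenvalues in `k`):
`dim_{𝔽_p} H⁰(ℚ_q, ad⁰ρbar(1)) ≤ [k : 𝔽_p]`, i.e. `SIface72.LocTW 𝒪 p`.

Only external input: the existence of a Frobenius element in the image of the local Galois group
(`LocalFrobExists`, delivered by `TW/LocalGen66`); `theorem locTW_of : LocalFrobExists → LocTW 𝒪 p`.

Proof: let `s` be the image of a local Frobenius.  (1) `s` fixes `μ_p` (`ζ^q = ζ`, and `μ_p` injects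
into the residue field), so the mod-`p` cyclotomic character is trivial at `s`; (2) an invariant
functional `f` of `ad⁰(1)` then satisfies `f ∘ (s - 1) = 0`, so the invariants have dimension at most
`dim coker (s - 1) = dim ker (s - 1)` on `ad⁰`; (3) `ker (s - 1)` is the trace-zero commutant of
`ρbar s`, which has at most `#k` elements since `ρbar s` is diagonalisable with distinct eigenvalues.
-/
import Fermat.Agent.TW.SGlobArch9
import Fermat.Agent.TW.SCount72
import Fermat.Agent.ES.J.CycloChar8
import Fermat.Agent.S14.Fields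

set_option autoImplicit false
set_option linter.unusedSectionVars false

open Polynomial IsLocalRing
open ExtCitation
open scoped NNReal
open Fermat.Agent.TW.Interface Fermat.Agent.TW.GWIface97 Fermat.Agent.TW.SDefs72
open Fermat.Agent.TW.SIface72 Fermat.Agent.TW.ArchGlob9 Fermat.Agent.TW.SGlobArch9

namespace Fermat.Agent.TW.LocTW9

local notation "Γ" => (AlgebraicClosure ℚ ≃ₐ[ℚ] AlgebraicClosure ℚ)

/-! ### Linear algebra: the trace-zero commutant of a regular semisimple element -/

section LinAlg

variable {k : Type} [Field k]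

/-- A trace-zero `2 × 2` matrix commuting with `diag(α, β)`, `α ≠ β`, with vanishing upper left
entry is zero. -/
theorem matrix_eq_zero_of_commute_diagonal {α β : k} (hαβ : α ≠ β)
    (M : Matrix (Fin 2) (Fin 2) k) (hM : M * Matrix.diagonal ![α, β] = Matrix.diagonal ![α, β] * M)
    (htr : M.trace = 0) (h00 : M 0 0 = 0) : M = 0 := by
  have h01 := congrFun (congrFun hM 0) 1
  have h10 := congrFun (congrFun hM 1) 0
  rw [Matrix.mul_diagonal, Matrix.diagonal_mul] at h01 h10
  simp only [Matrix.cons_val_zero, Matrix.cons_val_one] at h01 h10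
  have hne : β - α ≠ 0 := sub_ne_zero.mpr (Ne.symm hαβ)
  have e01 : M 0 1 = 0 := by
    have : M 0 1 * (β - α) = 0 := by linear_combination h01
    rcases mul_eq_zero.mp this with h | h
    · exact h
    · exact absurd h hne
  have e10 : M 1 0 = 0 := by
    have : M 1 0 * (β - α) = 0 := by linear_combination -h10
    rcases mul_eq_zero.mp this with h | h
    · exact h
    · exact absurd h hne
  rw [Matrix.trace_fin_two, h00, zero_add] at htr
  ext i j
  fin_cases i <;> fin_cases j <;> simp [h00, e01, e10, htr]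

/-- An endomorphism of a plane with two distinct eigenvalues in `k` is diagonal in a suitable
basis. -/
theorem exists_basis_toMatrix_eq_diagonal {V : Type} [AddCommGroup V] [Module k V]
    [Module.Finite k V] (hV : Module.finrank k V = 2) (T : Module.End k V) {α β : k} (hαβ : α ≠ β)
    (hcp : LinearMap.charpoly T = (X - C α) * (X - C β)) :
    ∃ b : Module.Basis (Fin 2) k V, LinearMap.toMatrix b b T = Matrix.diagonal ![α, β] := by
  classical
  have hα : T.HasEigenvalue α := by
    rw [Module.End.hasEigenvalue_iff_isRoot_charpoly, hcp]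
    simp
  have hβ : T.HasEigenvalue β := by
    rw [Module.End.hasEigenvalue_iff_isRoot_charpoly, hcp]
    simp
  obtain ⟨v₁, hv₁⟩ := hα.exists_hasEigenvector
  obtain ⟨v₂, hv₂⟩ := hβ.exists_hasEigenvector
  have hμ : Function.Injective ![α, β] := by
    intro i j hij
    fin_cases i <;> fin_cases j <;> simp_all
  have hvec : ∀ i : Fin 2, T.HasEigenvector (![α, β] i) (![v₁, v₂] i) := by
    intro i
    fin_cases i
    · exact hv₁
    · exact hv₂
  have hli : LinearIndependent k ![v₁, v₂] :=
    Module.End.eigenvectors_linearIndependent' T ![α, β] hμ ![v₁, v₂] hvec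
  let b : Module.Basis (Fin 2) k V :=
    basisOfLinearIndependentOfCardEqFinrank hli (by rw [hV]; rfl)
  have hb : ∀ i, b i = ![v₁, v₂] i := fun i => by
    simp [b]
  refine ⟨b, ?_⟩
  ext i j
  rw [LinearMap.toMatrix_apply, hb j, (hvec j).apply_eq_smul, map_smul, ← hb j,
    Module.Basis.repr_self, Finsupp.smul_apply, Finsupp.single_apply, Matrix.diagonal_apply]
  by_cases hij : i = j
  · subst hij
    simp
  · rw [if_neg (Ne.symm hij), if_neg hij, smul_zero]

/-- The trace-zero commutant of an endomorphism of a plane with two distinct eigenvalues in `k`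
has at most `#k` elements. -/
theorem card_commutant_le [Finite k] {V : Type} [AddCommGroup V] [Module k V]
    [Module.Finite k V] (hV : Module.finrank k V = 2) (T : Module.End k V) {α β : k} (hαβ : α ≠ β)
    (hcp : LinearMap.charpoly T = (X - C α) * (X - C β)) :
    Nat.card {Y : Module.End k V // LinearMap.trace k V Y = 0 ∧ Y * T = T * Y} ≤ Nat.card k := by
  classical
  obtain ⟨b, hb⟩ := exists_basis_toMatrix_eq_diagonal hV T hαβ hcp
  apply Nat.card_le_card_of_injective (fun Y => LinearMap.toMatrix b b Y.1 0 0)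
  intro Y Z hYZ
  apply Subtype.ext
  rw [← sub_eq_zero]
  apply (LinearMap.toMatrix b b).injective
  rw [map_zero]
  apply matrix_eq_zero_of_commute_diagonal hαβ
  · rw [← hb, ← LinearMap.toMatrix_mul, ← LinearMap.toMatrix_mul, sub_mul, mul_sub, Y.2.2, Z.2.2]
  · rw [← LinearMap.trace_eq_matrix_trace k b, map_sub, Y.2.1, Z.2.1, sub_zero]
  · rw [map_sub, Matrix.sub_apply, sub_eq_zero]
    exact hYZ

end LinAlg

/-! ### The fixed space of one element on `ad0F` -/

section Main

variable {k : Type} [Field k] (ρbar : ResidualGaloisRep k) (p : ℕ) [Fact p.Prime]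
  (hchar : (p : k) = 0)

/-- The fixed space of one element `s` on `ad0F` has at most `#k` elements when `ρbar s` has two
distinct eigenvalues in `k`. -/
theorem finrank_ker_le [Finite k] (s : Γ) {α β : k} (hαβ : α ≠ β)
    (hcp : LinearMap.charpoly (ρbar.ρ s) = (X - C α) * (X - C β)) :
    Module.finrank (ZMod p) (LinearMap.ker ((ad0F ρbar p hchar).ρ s - 1)) ≤ dK p k := by
  have hfin : Finite (ad0F ρbar p hchar) := finite_ad0F ρbar p hchar
  have hMfin : Module.Finite (ZMod p) (ad0F ρbar p hchar) := Module.Finite.of_finite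
  apply SCount72.finrank_le_of_card_le
  rw [← SCount72.card_eq_pow_dK k hchar]
  refine le_trans ?_ (card_commutant_le ρbar.finrank_eq (ρbar.ρ s) hαβ hcp)
  have hE : Finite (Module.End k ρbar.V) := by
    have hV : Finite ρbar.V := Module.finite_of_finite k
    exact Module.finite_of_finite k
  apply Nat.card_le_card_of_injective
    (fun x : LinearMap.ker ((ad0F ρbar p hchar).ρ s - 1) =>
      (⟨ad0F.val ρbar p hchar x.1, Ad0.trace_val (show Ad0 ρbar from x.1),
        val_mul_ρ_of_ρ_apply_eq ρbar p hchar s x.1 (by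
          have h := x.2
          rw [LinearMap.mem_ker, LinearMap.sub_apply, sub_eq_zero] at h
          exact h)⟩ :
        {Y : Module.End k ρbar.V // LinearMap.trace k ρbar.V Y = 0 ∧ Y * ρbar.ρ s = ρbar.ρ s * Y}))
  intro x y hxy
  apply Subtype.ext
  apply ad0F.val_injective ρbar p hchar
  have h := congrArg Subtype.val hxy
  exact h

end Main

/-! ### Invariants of the Tate dual under one element -/

section Dual

variable {p : ℕ} [Fact p.Prime]

/-- The invariants of the local group at `q` on `M^∨(1)` are bounded by the fixed space on `M` of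
any single element of the local group on which the cyclotomic character is trivial. -/
theorem h0l_dual_le_finrank_ker (M : Rep.{0} (ZMod p) Γ) [FiniteDimensional (ZMod p) M]
    (q : Nat.Primes) (g : primeLocalGaloisGroup q)
    (hχ : cycloChar p (primeLocalToGlobal q g) = 1) :
    h0l q (dual M) ≤
      Module.finrank (ZMod p) (LinearMap.ker (M.ρ (primeLocalToGlobal q g) - 1)) := by
  set s := primeLocalToGlobal q g with hs
  set A : M →ₗ[ZMod p] M := M.ρ s - 1 with hA
  have hle : (Rep.res (primeLocalToGlobal q) (dual M)).ρ.invariants ≤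
      ((LinearMap.range A).dualAnnihilator : Submodule (ZMod p) (Module.Dual (ZMod p) M)) := by
    intro f hf
    rw [Submodule.mem_dualAnnihilator]
    rintro _ ⟨m, rfl⟩
    have h1 : (dual M).ρ s f = f := hf g
    rw [Rep.dualTwist_ρ_apply, hχ, Units.val_one, one_smul] at h1
    -- `f ∘ M.ρ s⁻¹ = f`
    have h2 : f (M.ρ s⁻¹ (M.ρ s m)) = f (M.ρ s m) := by
      have := LinearMap.congr_fun h1 (M.ρ s m)
      simpa using this
    have h3 : M.ρ s⁻¹ (M.ρ s m) = m := by
      rw [← Module.End.mul_apply, ← map_mul, inv_mul_cancel, map_one, Module.End.one_apply]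
    rw [h3] at h2
    rw [hA, LinearMap.sub_apply, Module.End.one_apply, map_sub, h2, sub_self]
  unfold h0l
  calc Module.finrank (ZMod p) (Rep.res (primeLocalToGlobal q) (dual M)).ρ.invariants
      ≤ Module.finrank (ZMod p)
          ((LinearMap.range A).dualAnnihilator : Submodule (ZMod p) (Module.Dual (ZMod p) M)) :=
        Submodule.finrank_mono hle
    _ = Module.finrank (ZMod p) (LinearMap.ker A) := by
        have h1 := Subspace.finrank_add_finrank_dualAnnihilator_eq (LinearMap.range A)
        have h2 := LinearMap.finrank_range_add_finrank_ker A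
        omega

end Dual

/-! ### The cyclotomic character at a Frobenius element -/

section Cyclo

variable (p : ℕ) [Fact p.Prime]

/-- An element of `G_ℚ` fixing the chosen primitive `p`-th root of unity has trivial mod-`p`
cyclotomic character. -/
theorem cycloChar_eq_one_of_apply_zeta (σ : Γ)
    (h : σ (Fermat.Agent.S14.Fields.zeta p) = Fermat.Agent.S14.Fields.zeta p) :
    cycloChar p σ = 1 := by
  have h1 : σ ∈ Fermat.Agent.S14.ExtCocycle.GK p :=
    (Fermat.Agent.S14.Fields.mem_GK_iff_apply_zeta p).mpr h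
  have h2 := (Fermat.Agent.S14.Fields.mem_GK_iff p).mp h1
  apply Units.ext
  rw [coe_cycloChar, h2, Units.val_one]

/-- A Frobenius element at a place over `q ≡ 1 mod p`, `q ≠ p`, has trivial mod-`p` cyclotomic
character. -/
theorem cycloChar_eq_one_of_isFrobeniusAt {q : ℕ} (hq : q.Prime) (hqp : q ≠ p)
    (hdvd : p ∣ q - 1) (A : ValuationSubring (AlgebraicClosure ℚ)) (hA : A.LiesOverPrime q)
    {σ : Γ} (hσ : A.IsFrobeniusAt σ q) : cycloChar p σ = 1 := by
  have hp : p.Prime := Fact.out
  apply cycloChar_eq_one_of_apply_zeta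
  set ζ := Fermat.Agent.S14.Fields.zeta p with hζdef
  have hζ : IsPrimitiveRoot ζ p := Fermat.Agent.S14.Fields.zeta_spec p
  have hζp : ζ ^ p = 1 := hζ.pow_eq_one
  have hζ0 : ζ ≠ 0 := hζ.ne_zero hp.ne_zero
  have hζA : ζ ∈ A := Fermat.Agent.ES.J.CycloChar8.mem_of_pow_eq_one hp.ne_zero hζp
  have hζinvA : ζ⁻¹ ∈ A := by
    apply Fermat.Agent.ES.J.CycloChar8.mem_of_pow_eq_one hp.ne_zero (η := ζ⁻¹)
    rw [inv_pow, hζp, inv_one]
  -- `ζ ^ q = ζ`
  have hζq : ζ ^ q = ζ := by
    obtain ⟨m, hm⟩ := hdvd
    have hq1 : q = 1 + p * m := by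
      have := hq.one_le
      omega
    rw [hq1, pow_add, pow_one, pow_mul, hζp, one_pow, mul_one]
  have h1 : σ ζ - ζ ∈ A.nonunits := by
    have := Fermat.Agent.ES.J.CycloChar8.frob_apply_sub_pow_mem_nonunits hσ hζA
    rwa [hζq] at this
  -- `η = σ ζ / ζ` is a `p`-th root of unity congruent to `1`
  have hη : (σ ζ * ζ⁻¹) ^ p = 1 := by
    rw [mul_pow, ← map_pow, hζp, map_one, inv_pow, hζp, inv_one, mul_one]
  have hη1 : σ ζ * ζ⁻¹ - 1 ∈ A.nonunits := by
    have e : σ ζ * ζ⁻¹ - 1 = (σ ζ - ζ) * ζ⁻¹ := by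
      field_simp
    rw [e, ValuationSubring.mem_nonunits_iff (A := A), map_mul,
      Fermat.Agent.ES.J.CycloChar8.valuation_eq_one_of_pow_eq_one hp.ne_zero (η := ζ⁻¹)
        (by rw [inv_pow, hζp, inv_one]), mul_one]
    exact (ValuationSubring.mem_nonunits_iff (A := A)).mp h1
  have hqp' : ¬ q ∣ p := fun hd => hqp ((Nat.prime_dvd_prime_iff_eq hq hp).mp hd)
  have := Fermat.Agent.ES.J.CycloChar8.eq_one_of_sub_one_mem_nonunits hq hA hqp' hη hη1
  field_simp at this
  exact this

end Cyclo

/-! ### The canonical place over `q` -/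

/-- The canonical place `padicPlace q` of `ℚ̄` lies over `q`. -/
theorem padicPlace_liesOverPrime (q : ℕ) [Fact q.Prime] : (padicPlace q).LiesOverPrime q := by
  have hq : q.Prime := Fact.out
  show ((q : ℕ) : AlgebraicClosure ℚ) ∈ (padicPlace q).nonunits
  rw [ValuationSubring.mem_nonunits_iff_or]
  right
  rw [mem_padicPlace_iff, map_inv₀, map_natCast, nnnorm_inv, not_le]
  have h1 : ‖((q : ℕ) : PadicAlgCl q)‖₊ = 1 / (q : ℝ≥0) := by
    have := PadicAlgCl.valuation_p q
    rwa [PadicAlgCl.valuation_def] at this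
  rw [h1, one_div, inv_inv]
  exact_mod_cast hq.one_lt

/-- `primeLocalPlace q` lies over `q`. -/
theorem primeLocalPlace_liesOverPrime (q : Nat.Primes) : (primeLocalPlace q).LiesOverPrime q :=
  letI : Fact (q : ℕ).Prime := ⟨q.2⟩
  padicPlace_liesOverPrime (q : ℕ)


/-! ### The final statement -/

section Final

/-- **External input** (helper66, `TW/LocalGen66.exists_frobenius_global`): the image of the local
Galois group at `q` contains a Frobenius element at the canonical place over `q`. -/
def LocalFrobExists : Prop :=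
  ∀ q : Nat.Primes, ∃ g : primeLocalGaloisGroup q,
    (primeLocalPlace q).IsFrobeniusAt (primeLocalToGlobal q g) q

variable {k : Type} [Field k] (ρbar : ResidualGaloisRep k) (p : ℕ) [Fact p.Prime]
  (hchar : (p : k) = 0)

/-- LOC-TW, generic form. -/
theorem h0l_dual_ad0F_le [Finite k] (hF : LocalFrobExists) (q : Nat.Primes) (hqp : (q : ℕ) ≠ p)
    (hdvd : p ∣ (q : ℕ) - 1)
    (hfrob : ∀ P : ValuationSubring (AlgebraicClosure ℚ), P.LiesOverPrime q →
      ∀ φ : Γ, P.IsFrobeniusAt φ q →
        ∃ α β : k, α ≠ β ∧ LinearMap.charpoly (ρbar.ρ φ) = (X - C α) * (X - C β)) :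
    h0l q (dual (ad0F ρbar p hchar)) ≤ dK p k := by
  obtain ⟨g, hg⟩ := hF q
  have hP := primeLocalPlace_liesOverPrime q
  obtain ⟨α, β, hαβ, hcp⟩ := hfrob _ hP _ hg
  have hχ : cycloChar p (primeLocalToGlobal q g) = 1 :=
    cycloChar_eq_one_of_isFrobeniusAt p q.2 hqp hdvd _ hP hg
  have hfin : Finite (ad0F ρbar p hchar) := finite_ad0F ρbar p hchar
  have hMfin : FiniteDimensional (ZMod p) (ad0F ρbar p hchar) := Module.Finite.of_finite
  exact (h0l_dual_le_finrank_ker (ad0F ρbar p hchar) q g hχ).trans
    (finrank_ker_le ρbar p hchar _ hαβ hcp)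

variable (𝒪 : Type) [CommRing 𝒪] [IsDomain 𝒪] [IsDiscreteValuationRing 𝒪]
  [IsAdicComplete (maximalIdeal 𝒪) 𝒪] [Finite (ResidueField 𝒪)]

/-- **LOC-TW** (`SIface72.LocTW`), from the existence of local Frobenius elements. -/
theorem locTW_of (hF : LocalFrobExists) : LocTW 𝒪 p := fun ρbar _S _Smin h q hqS hdvd hfrob =>
  h0l_dual_ad0F_le ρbar p (SIface72.hchar h) hF q
    (fun e => hqS (e ▸ h.hSmin h.hpSmin)) hdvd hfrob

end Final

end Fermat.Agent.TW.LocTW9
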