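/-
Programme TW (S56), pillar (S), brick **LocUr** (helper66): the unramified classes
`GWIface2_97.H1ur q M ≤ H¹(ℚ_q, M)` have at most `#H⁰(ℚ_q, M)` elements, for EVERY prime `q`
(including `q = p`) and every finite coefficient module `M`:

* `card_H1ur_le    : Nat.card (H1ur q M) ≤ Nat.card (Rep.res (primeLocalToGlobal q) M).ρ.invariants`
* `finrank_H1ur_le : Module.finrank (ZMod p) (H1ur q M) ≤ h0l q M`

Inputs: the abstract counting lemma of helper57 (`B5/Adapt57/UnrAbstract.card_H1ur_le`) and the
generation statement `LocalGen66.exists_gen` (the local Galois group is generated by the inertia group,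
a Frobenius element and any open subgroup).
-/
import Mathlib
import Fermat.Agent.TW.LocalGen66
import Fermat.Agent.TW.B5.Adapt57.UnrAbstract

set_option autoImplicit false

open ExtCitation
open Fermat.Agent.PT.PRO Fermat.Agent.PT.BR Fermat.Agent.PT.BR.LevelBridge13
open Fermat.Agent.TW.GWIface97 Fermat.Agent.TW.GWIface2_97
open Fermat.Agent.TW.B5.Adapt57

namespace Fermat.Agent.TW.LocUr66

local notation "Γ" => (AlgebraicClosure ℚ ≃ₐ[ℚ] AlgebraicClosure ℚ)

variable {p : ℕ} [Fact p.Prime]

/-- The local Galois group modulo inertia is procyclic (at every level). -/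
theorem procyclic (q : Nat.Primes) :
    UnrAbstract.Procyclic (pullBasis (primeLocalToGlobal q)) (localInertia q) := by
  obtain ⟨φ, -, h⟩ := LocalGen66.exists_gen q
  exact UnrAbstract.procyclic_of_uniform _ _ φ h

/-- The unramified classes of the interface are those of the abstract lemma. -/
theorem H1ur_eq (q : Nat.Primes) (M : Rep.{0} (ZMod p) Γ) :
    H1ur q M = UnrAbstract.H1ur (Rep.res (primeLocalToGlobal q) M)
      (pullBasis (primeLocalToGlobal q)) (localInertia q) := rfl

/-- `H¹_ur(ℚ_q, M)` is finite. -/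
theorem finite_H1ur (q : Nat.Primes) (M : Rep.{0} (ZMod p) Γ) [Finite M] :
    Finite ↥(H1ur q M) := by
  have : Finite (Rep.res (primeLocalToGlobal q) M) := ‹Finite M›
  rw [H1ur_eq]
  exact UnrAbstract.finite_H1ur _ _ _ (procyclic q)

/-- **LocUr, cardinality form**: `#H¹_ur(ℚ_q, M) ≤ #H⁰(ℚ_q, M)`. -/
theorem card_H1ur_le (q : Nat.Primes) (M : Rep.{0} (ZMod p) Γ) [Finite M] :
    Nat.card ↥(H1ur q M) ≤ Nat.card (Rep.res (primeLocalToGlobal q) M).ρ.invariants := by
  have : Finite (Rep.res (primeLocalToGlobal q) M) := ‹Finite M›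
  rw [H1ur_eq]
  exact UnrAbstract.card_H1ur_le _ _ _ (procyclic q)

/-- A finite-dimensional `𝔽_p`-vector space is finite. -/
theorem finite_of_finiteDimensional (M : Rep.{0} (ZMod p) Γ) [Module.Finite (ZMod p) M] :
    Finite M := Module.finite_of_finite (ZMod p)

/-- **LocUr, dimension form**: `dim H¹_ur(ℚ_q, M) ≤ h⁰(ℚ_q, M)`. -/
theorem finrank_H1ur_le (q : Nat.Primes) (M : Rep.{0} (ZMod p) Γ) [Module.Finite (ZMod p) M] :
    Module.finrank (ZMod p) ↥(H1ur q M) ≤ h0l q M := by
  have hM : Finite M := finite_of_finiteDimensional M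
  have h1 : Finite ↥(H1ur q M) := finite_H1ur q M
  have hres : Finite (Rep.res (primeLocalToGlobal q) M) := hM
  have h2 : Finite (Rep.res (primeLocalToGlobal q) M).ρ.invariants := inferInstance
  have hle := card_H1ur_le q M
  rw [Module.natCard_eq_pow_finrank (K := ZMod p) (V := ↥(H1ur q M)),
    Module.natCard_eq_pow_finrank (K := ZMod p)
      (V := (Rep.res (primeLocalToGlobal q) M).ρ.invariants), Nat.card_zmod] at hle
  exact (Nat.pow_le_pow_iff_right (Fact.out : p.Prime).one_lt).1 hle

/-- **LocUr** for good coefficient modules. -/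
theorem finrank_H1ur_le_of_isGood (q : Nat.Primes) (M : Rep.{0} (ZMod p) Γ) {S : Finset Nat.Primes}
    (hM : IsGood S M) : Module.finrank (ZMod p) ↥(H1ur q M) ≤ h0l q M := by
  have := hM.fin
  exact finrank_H1ur_le q M

end Fermat.Agent.TW.LocUr66
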