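/-
Programme TW (S56), pillar (S), brick **LocUr** in the vocabulary of `SIface72` (helper66):
`locUr : SIface72.LocUr 𝒪 p`, a direct consequence of `LocUr66.finrank_H1ur_le` (which holds for every
prime `q` and every finite coefficient module).
-/
import Mathlib
import Fermat.Agent.TW.SIface72
import Fermat.Agent.TW.LocUr66

set_option autoImplicit false

open IsLocalRing
open Fermat.Agent.TW.Interface Fermat.Agent.TW.SDefs72

namespace Fermat.Agent.TW.LocUrS66

/-- `ad0F` is finite when `k` is. -/
theorem finite_ad0F {k : Type} [Field k] [Finite k] (ρbar : ResidualGaloisRep k) (p : ℕ)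
    [Fact p.Prime] (hchar : (p : k) = 0) : Finite (ad0F ρbar p hchar) := by
  have hV : Finite ρbar.V := Module.finite_of_finite k
  have hE : Finite (Module.End k ρbar.V) := Module.finite_of_finite k
  exact Subtype.finite

variable (𝒪 : Type) [CommRing 𝒪] [IsDomain 𝒪] [IsDiscreteValuationRing 𝒪]
  [IsAdicComplete (maximalIdeal 𝒪) 𝒪] [Finite (ResidueField 𝒪)]
variable (p : ℕ) [Fact p.Prime]

/-- **LOC-UR**: `dim H¹_ur(ℚ_q, ad⁰) ≤ h⁰(ℚ_q, ad⁰)` (for every prime `q`). -/
theorem locUr : SIface72.LocUr 𝒪 p := by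
  intro ρbar S Smin h q _
  have hfin : Finite (SIface72.MM 𝒪 p ρbar (SIface72.hchar h)) :=
    finite_ad0F ρbar p (SIface72.hchar h)
  have hfd : Module.Finite (ZMod p) (SIface72.MM 𝒪 p ρbar (SIface72.hchar h)) :=
    Module.Finite.of_finite
  exact LocUr66.finrank_H1ur_le q _

end Fermat.Agent.TW.LocUrS66
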