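/-
Programme TW (S56), pillar (S): the LOCAL clauses (2) and (5) of `SIface72.Bridge` (helper57).

* `res1_cls_eq_locCls` : for a def-cocycle `c` whose `toAd0` is a level-`T` cocycle, the restriction of
  its global class to the local group at `q` is `locCls c`.
* `locCls_mem_H1ur` : for a def-cocycle unramified outside `T` and a prime `q ∉ T`, `locCls c` is an
  unramified class at `q`.
-/
import Mathlib
import Fermat.Agent.TW.SIface72
import Fermat.Agent.TW.LocCls57
import Fermat.Agent.TW.LocalGen66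

set_option autoImplicit false
set_option linter.unusedSectionVars false

open ExtCitation groupCohomology
open Fermat.Agent.PT.PRO Fermat.Agent.PT.BR Fermat.Agent.PT.BR.LevelBridge13
open Fermat.Agent.TW.Interface Fermat.Agent.TW.GWIface97 Fermat.Agent.TW.GWIface2_97
open Fermat.Agent.TW.SDefs72 Fermat.Agent.TW.LocCls57

namespace Fermat.Agent.TW.SBridgeLoc57

local notation "Γ" => (AlgebraicClosure ℚ ≃ₐ[ℚ] AlgebraicClosure ℚ)

variable {k : Type} [Field k] (ρbar : ResidualGaloisRep k) (p : ℕ) [Fact p.Prime]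
  (hchar : ((p : ℕ) : k) = 0)

/-- `cls` of a cochain whose `toAd0` is a level-`T` cocycle (no junk). -/
theorem cls_eq (T : Finset ℕ) {c : Γ → Module.End k ρbar.V}
    (hZ : toAd0 ρbar p hchar c ∈ LevelCoh28.Z1 (globalBasis (toPrimes T)) (ad0F ρbar p hchar)) :
    cls ρbar p hchar T c =
      LevelCoh28.H1mk (globalBasis (toPrimes T)) (ad0F ρbar p hchar) ⟨_, hZ⟩ := by
  unfold cls
  rw [dif_pos hZ]

/-- **Clause (2) of `SIface72.Bridge`.** -/
theorem res1_cls_eq_locCls (T : Finset ℕ) {c : Γ → Module.End k ρbar.V}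
    (hc : IsDefCocycle ρbar c)
    (hZ : toAd0 ρbar p hchar c ∈ LevelCoh28.Z1 (globalBasis (toPrimes T)) (ad0F ρbar p hchar))
    (q : Nat.Primes) :
    res1 (toPrimes T) q (ad0F ρbar p hchar) (cls ρbar p hchar T c) =
      locCls ρbar p hchar q c := by
  rw [cls_eq ρbar p hchar T hZ, locCls_eq ρbar p hchar q hc]
  rfl

/-- **Clause (5) of `SIface72.Bridge`.** -/
theorem locCls_mem_H1ur (T : Finset ℕ) {c : Γ → Module.End k ρbar.V}
    (hc : IsDefCocycle ρbar c) (hun : SIface72.UnramOutside ρbar T c) (q : Nat.Primes)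
    (hq : (q : ℕ) ∉ T) :
    locCls ρbar p hchar q c ∈ H1ur q (ad0F ρbar p hchar) := by
  rw [locCls_eq ρbar p hchar q hc]
  refine ⟨locZ ρbar p hchar q hc, fun g hg => ?_, rfl⟩
  apply ad0F.val_injective ρbar p hchar
  rw [locZ_apply]
  exact hun q q.2 hq (primeLocalPlace q) (LocalGen66.liesOverPrime_primeLocalPlace q) _ hg

end Fermat.Agent.TW.SBridgeLoc57
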