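/-
Programme TW (S56), PILLAR (S), brick S-BRIDGE (helper58, for helper72): the dictionary between
plain cocycles `c : G_ℚ → End_k(V)` (pillars (D)/(S) of `TW/Interface`) and the level cohomology
`H¹(G_T, ad⁰ ρbar)`, `H¹(ℚ_q, ad⁰ ρbar)` over `𝔽_p` of `GWIface97` / `SDefs72`.

Main result: `bridge : SIface72.Bridge 𝒪 p`, i.e. for a def-cocycle `c` unramified outside `T ⊇ Smin`
* `toAd0 c` is a level-`T` cocycle (the junk branch of `SDefs72.cls` is not taken): the subgroup
  `{s | ρbar s = 1 ∧ c s = 0}` is open and contains all inertia groups outside `T`, so its fixed field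
  is finite and unramified outside `T`, and `c` is right-invariant under it;
* `res1 (cls c) = locCls c`;
* equal classes ⇒ `Cohomologous`; zero class ⇒ `Cohomologous 0 c`;
* (v2, clause 5) `locCls c` is an unramified class at the primes outside `T`
  (`SBridgeLoc57.locCls_mem_H1ur`, helper57).
-/
import Fermat.Agent.TW.SIface72
import Fermat.Agent.TW.SBridgeLoc57

set_option autoImplicit false
set_option linter.unusedSectionVars false

open Polynomial IsLocalRing
open ExtCitation groupCohomology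
open Fermat.Agent.PT.PRO Fermat.Agent.PT.BR Fermat.Agent.PT.BR.LevelBridge13
open Fermat.Agent.TW.Interface Fermat.Agent.TW.GWIface97 Fermat.Agent.TW.SDefs72
open Fermat.Agent.TW.SIface72

namespace Fermat.Agent.TW.SBridge58

local notation "Qbar" => AlgebraicClosure ℚ
local notation "Γ" => (AlgebraicClosure ℚ ≃ₐ[ℚ] AlgebraicClosure ℚ)

local instance isAlgClosureQbarSB58 : IsAlgClosure ℚ Qbar := ⟨inferInstance, inferInstance⟩
local instance normalQbarSB58 : Normal ℚ Qbar := IsAlgClosure.normal ℚ Qbar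
local instance isGaloisQbarSB58 : IsGalois ℚ Qbar := IsAlgClosure.isGalois ℚ Qbar

section General

variable {k : Type} [Field k] (ρbar : ResidualGaloisRep k)

theorem conj_zero58 (σ : Γ) : conj ρbar σ 0 = 0 := by
  unfold conj
  rw [mul_zero, zero_mul]

variable {ρbar} in
/-- A cocycle vanishes at `1`. -/
theorem cocycle_one {c : Γ → Module.End k ρbar.V} (hc : IsDefCocycle ρbar c) : c 1 = 0 := by
  have h := hc.map_mul 1 1
  rw [mul_one, conj_one] at h
  have h' : c 1 + 0 = c 1 + c 1 := by rw [add_zero]; exact h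
  exact (add_left_cancel h').symm

variable {ρbar} in
/-- The open subgroup on which both `ρbar` and the cocycle `c` are trivial. -/
def kerSub {c : Γ → Module.End k ρbar.V} (hc : IsDefCocycle ρbar c) : Subgroup Γ where
  carrier := {s | ρbar.ρ s = 1 ∧ c s = 0}
  one_mem' := ⟨map_one _, cocycle_one hc⟩
  mul_mem' := by
    rintro s t ⟨hs, hcs⟩ ⟨ht, hct⟩
    refine ⟨?_, ?_⟩
    · rw [map_mul, hs, ht, one_mul]
    · rw [hc.map_mul, hcs, hct, conj_zero58, add_zero]
  inv_mem' := by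
    rintro s ⟨hs, hcs⟩
    have hs' : ρbar.ρ s⁻¹ = 1 := by
      have h1 : ρbar.ρ s⁻¹ * ρbar.ρ s = 1 := by rw [← map_mul, inv_mul_cancel, map_one]
      rwa [hs, mul_one] at h1
    refine ⟨hs', ?_⟩
    have h := hc.map_mul s s⁻¹
    rw [mul_inv_cancel, cocycle_one hc, hcs, zero_add] at h
    unfold conj at h
    rw [hs, hs', one_mul, mul_one] at h
    exact h.symm

variable {ρbar} in
theorem mem_kerSub {c : Γ → Module.End k ρbar.V} (hc : IsDefCocycle ρbar c) (s : Γ) :
    s ∈ kerSub hc ↔ ρbar.ρ s = 1 ∧ c s = 0 := Iff.rfl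

variable {ρbar} in
/-- **The splitting field of the lift attached to a cocycle**: a finite extension of `ℚ`,
unramified outside `T`, whose Galois group acts trivially through `ρbar` and is killed by `c`. -/
theorem exists_level_field (T : Finset Nat.Primes) {c : Γ → Module.End k ρbar.V}
    (hc : IsDefCocycle ρbar c)
    (hρ : ∀ q : Nat.Primes, q ∉ T → ∀ P : ValuationSubring Qbar, P.LiesOverPrime (q : ℕ) →
      ∀ σ ∈ P.inertiaSubgroupIn ℚ, ρbar.ρ σ = 1)
    (hcur : ∀ q : Nat.Primes, q ∉ T → ∀ P : ValuationSubring Qbar, P.LiesOverPrime (q : ℕ) →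
      ∀ σ ∈ P.inertiaSubgroupIn ℚ, c σ = 0) :
    ∃ F : IntermediateField ℚ Qbar, F.IsUnramifiedOutside T ∧
      ∀ s ∈ F.fixingSubgroup, ρbar.ρ s = 1 ∧ c s = 0 := by
  obtain ⟨F₁, hF₁fin, hF₁⟩ := ρbar.factorsThroughFiniteLevel
  obtain ⟨F₂, hF₂fin, hF₂⟩ := hc.level
  have := hF₁fin
  have := hF₂fin
  let N : Subgroup Γ := kerSub hc
  have hFN : (F₁ ⊔ F₂).fixingSubgroup ≤ N := by
    intro s hs
    rw [IntermediateField.fixingSubgroup_sup] at hs
    obtain ⟨h1, h2⟩ := hs
    refine ⟨hF₁ s ((IntermediateField.mem_fixingSubgroup_iff _ _).1 h1), ?_⟩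
    have h3 := hF₂ 1 s ((IntermediateField.mem_fixingSubgroup_iff _ _).1 h2)
    rw [one_mul] at h3
    rw [h3, cocycle_one hc]
  have hNopen : IsOpen (N : Set Γ) :=
    Subgroup.isOpen_mono hFN (F₁ ⊔ F₂).fixingSubgroup_isOpen
  have hNclosed : IsClosed (N : Set Γ) := Subgroup.isClosed_of_isOpen N hNopen
  let Nc : ClosedSubgroup Γ := ⟨N, hNclosed⟩
  have hfix : (IntermediateField.fixedField N).fixingSubgroup = N :=
    InfiniteGalois.fixingSubgroup_fixedField Nc
  have hle : IntermediateField.fixedField N ≤ F₁ ⊔ F₂ := by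
    have h1 := IntermediateField.fixedField_antitone hFN
    rwa [InfiniteGalois.fixedField_fixingSubgroup] at h1
  refine ⟨IntermediateField.fixedField N, ⟨?_, fun q hq A hA g hg => ?_⟩, fun s hs => ?_⟩
  · exact FiniteDimensional.of_injective (IntermediateField.inclusion hle).toLinearMap
      (IntermediateField.inclusion_injective hle)
  · rw [hfix]
    exact ⟨hρ q hq A hA g hg, hcur q hq A hA g hg⟩
  · rw [hfix] at hs
    exact hs

variable (p : ℕ) [Fact p.Prime] (hchar : (p : k) = 0)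

theorem val_add58 (x y : ad0F ρbar p hchar) :
    ad0F.val ρbar p hchar (x + y) = ad0F.val ρbar p hchar x + ad0F.val ρbar p hchar y := rfl

theorem val_sub58 (x y : ad0F ρbar p hchar) :
    ad0F.val ρbar p hchar (x - y) = ad0F.val ρbar p hchar x - ad0F.val ρbar p hchar y := rfl

/-- **Clause 1**: `toAd0 c` is a level-`T` cocycle. -/
theorem toAd0_mem_Z1 (T : Finset Nat.Primes) {c : Γ → Module.End k ρbar.V}
    (hc : IsDefCocycle ρbar c)
    (hρ : ∀ q : Nat.Primes, q ∉ T → ∀ P : ValuationSubring Qbar, P.LiesOverPrime (q : ℕ) →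
      ∀ σ ∈ P.inertiaSubgroupIn ℚ, ρbar.ρ σ = 1)
    (hcur : ∀ q : Nat.Primes, q ∉ T → ∀ P : ValuationSubring Qbar, P.LiesOverPrime (q : ℕ) →
      ∀ σ ∈ P.inertiaSubgroupIn ℚ, c σ = 0) :
    toAd0 ρbar p hchar c ∈ LevelCoh28.Z1 (globalBasis T) (ad0F ρbar p hchar) := by
  obtain ⟨F, hF, hFs⟩ := exists_level_field T hc hρ hcur
  refine ⟨(mem_cocycles₁_iff _).2 fun g h => ?_, ?_⟩
  · apply ad0F.val_injective ρbar p hchar
    rw [val_add58, ad0F.val_ρ, val_toAd0 ρbar p hchar hc.trace_eq_zero,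
      val_toAd0 ρbar p hchar hc.trace_eq_zero, val_toAd0 ρbar p hchar hc.trace_eq_zero,
      hc.map_mul, add_comm]
  · change LevelCoh28.IsLevel₁ (globalSets T) (toAd0 ρbar p hchar c)
    refine ⟨_, ⟨F, hF, rfl⟩, fun g s hs => ?_⟩
    apply ad0F.val_injective ρbar p hchar
    rw [val_toAd0 ρbar p hchar hc.trace_eq_zero, val_toAd0 ρbar p hchar hc.trace_eq_zero,
      hc.map_mul, (hFs s hs).2, conj_zero58, add_zero]

/-- The restriction of a level-`T` cocycle to the local group at `q` is a level cocycle. -/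
theorem comp_mem_Z1 (T : Finset Nat.Primes) (q : Nat.Primes) {f : Γ → ad0F ρbar p hchar}
    (hf : f ∈ LevelCoh28.Z1 (globalBasis T) (ad0F ρbar p hchar)) :
    (f ∘ primeLocalToGlobal q) ∈
      LevelCoh28.Z1 (pullBasis (primeLocalToGlobal q))
        (Rep.res (primeLocalToGlobal q) (ad0F ρbar p hchar)) := by
  refine ⟨(mem_cocycles₁_iff _).2 fun g h => ?_, ?_⟩
  · have h1 := (mem_cocycles₁_iff f).1 hf.1 (primeLocalToGlobal q g) (primeLocalToGlobal q h)
    rw [Function.comp_apply, Function.comp_apply, Function.comp_apply, map_mul]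
    exact h1
  · obtain ⟨U, hU, hinv⟩ := hf.2
    obtain ⟨F, hF, rfl⟩ := hU
    refine ⟨_, ⟨F, hF.1, rfl⟩, fun g s hs => ?_⟩
    rw [Function.comp_apply, Function.comp_apply, map_mul]
    exact hinv (primeLocalToGlobal q g) (primeLocalToGlobal q s) hs

/-- **Clause 2**: the restriction of the global class is the local class. -/
theorem res1_cls (T : Finset ℕ) (q : Nat.Primes) {c : Γ → Module.End k ρbar.V}
    (hZ : toAd0 ρbar p hchar c ∈
      LevelCoh28.Z1 (globalBasis (toPrimes T)) (ad0F ρbar p hchar)) :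
    res1 (toPrimes T) q (ad0F ρbar p hchar) (cls ρbar p hchar T c) =
      locCls ρbar p hchar q c := by
  have hloc := comp_mem_Z1 ρbar p hchar (toPrimes T) q hZ
  unfold cls locCls
  rw [dif_pos hZ, dif_pos hloc]
  rfl

/-- **Clause 3**: equal classes ⇒ cohomologous. -/
theorem cohomologous_of_cls_eq (T : Finset ℕ) {c c' : Γ → Module.End k ρbar.V}
    (hc : IsDefCocycle ρbar c) (hc' : IsDefCocycle ρbar c')
    (hZ : toAd0 ρbar p hchar c ∈
      LevelCoh28.Z1 (globalBasis (toPrimes T)) (ad0F ρbar p hchar))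
    (hZ' : toAd0 ρbar p hchar c' ∈
      LevelCoh28.Z1 (globalBasis (toPrimes T)) (ad0F ρbar p hchar))
    (h : cls ρbar p hchar T c = cls ρbar p hchar T c') : Cohomologous ρbar c c' := by
  unfold cls at h
  rw [dif_pos hZ, dif_pos hZ'] at h
  have h0 : LevelCoh28.H1mk (globalBasis (toPrimes T)) (ad0F ρbar p hchar)
      (⟨_, hZ'⟩ - ⟨_, hZ⟩) = 0 := by
    rw [map_sub, h, sub_self]
  rw [LevelCoh28.H1mk_eq_zero_iff] at h0
  obtain ⟨x, hx⟩ := h0
  refine ⟨ad0F.val ρbar p hchar x, fun σ => ?_⟩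
  have h1 := congrFun hx σ
  rw [d₀₁_hom_apply] at h1
  have h2 := congrArg (ad0F.val ρbar p hchar) h1
  rw [val_sub58, ad0F.val_ρ] at h2
  rw [h2]
  symm
  change ad0F.val ρbar p hchar (toAd0 ρbar p hchar c' σ - toAd0 ρbar p hchar c σ) = _
  rw [val_sub58, val_toAd0 ρbar p hchar hc'.trace_eq_zero,
    val_toAd0 ρbar p hchar hc.trace_eq_zero]

/-- **Clause 4**: zero class ⇒ cohomologous to `0`. -/
theorem cohomologous_zero_of_cls_eq_zero (T : Finset ℕ) {c : Γ → Module.End k ρbar.V}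
    (hc : IsDefCocycle ρbar c)
    (hZ : toAd0 ρbar p hchar c ∈
      LevelCoh28.Z1 (globalBasis (toPrimes T)) (ad0F ρbar p hchar))
    (h : cls ρbar p hchar T c = 0) : Cohomologous ρbar 0 c := by
  unfold cls at h
  rw [dif_pos hZ, LevelCoh28.H1mk_eq_zero_iff] at h
  obtain ⟨x, hx⟩ := h
  refine ⟨ad0F.val ρbar p hchar x, fun σ => ?_⟩
  have h1 := congrFun hx σ
  rw [d₀₁_hom_apply] at h1
  have h2 := congrArg (ad0F.val ρbar p hchar) h1
  rw [val_sub58, ad0F.val_ρ] at h2
  rw [h2, Pi.zero_apply, sub_zero]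
  exact (val_toAd0 ρbar p hchar hc.trace_eq_zero σ).symm

end General

section Main

variable (𝒪 : Type) [CommRing 𝒪] [IsDomain 𝒪] [IsDiscreteValuationRing 𝒪]
  [IsAdicComplete (maximalIdeal 𝒪) 𝒪] [Finite (ResidueField 𝒪)]
variable (p : ℕ) [Fact p.Prime]

/-- **S-BRIDGE.** -/
theorem bridge : Bridge 𝒪 p := by
  intro ρbar S Smin h T hT
  have hρ : ∀ q : Nat.Primes, q ∉ toPrimes T → ∀ P : ValuationSubring Qbar,
      P.LiesOverPrime (q : ℕ) → ∀ σ ∈ P.inertiaSubgroupIn ℚ, ρbar.ρ σ = 1 := by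
    intro q hq
    rw [mem_toPrimes] at hq
    have hqS : (q : ℕ) ∉ Smin := fun h' => hq (hT h')
    have hqp : (q : ℕ) ≠ p := fun h' => hqS (h' ▸ h.hpSmin)
    by_contra hur
    exact hqS ((h.hmin q q.2 hqp).2 hur)
  have hcur : ∀ c : Γ → Module.End (ResidueField 𝒪) ρbar.V, UnramOutside ρbar T c →
      ∀ q : Nat.Primes, q ∉ toPrimes T → ∀ P : ValuationSubring Qbar,
        P.LiesOverPrime (q : ℕ) → ∀ σ ∈ P.inertiaSubgroupIn ℚ, c σ = 0 :=
    fun c hc q hq P hP σ hσ => hc q q.2 (fun h' => hq (mem_toPrimes.2 h')) P hP σ hσ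
  have hZ : ∀ c : Γ → Module.End (ResidueField 𝒪) ρbar.V, IsDefCocycle ρbar c →
      UnramOutside ρbar T c → toAd0 ρbar p (hchar h) c ∈
        LevelCoh28.Z1 (globalBasis (toPrimes T)) (MM 𝒪 p ρbar (hchar h)) :=
    fun c hc hur => toAd0_mem_Z1 ρbar p (hchar h) (toPrimes T) hc hρ (hcur c hur)
  refine ⟨hZ, fun c hc hur q => ?_, fun c c' hc hur hc' hur' heq => ?_, fun c hc hur h0 => ?_,
    fun c hc hur q hq => ?_⟩
  · exact res1_cls ρbar p (hchar h) T q (hZ c hc hur)
  · exact cohomologous_of_cls_eq ρbar p (hchar h) T hc hc' (hZ c hc hur) (hZ c' hc' hur') heq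
  · exact cohomologous_zero_of_cls_eq_zero ρbar p (hchar h) T hc (hZ c hc hur) h0
  · exact Fermat.Agent.TW.SBridgeLoc57.locCls_mem_H1ur ρbar p (hchar h) T hc hur q hq

end Main

end Fermat.Agent.TW.SBridge58
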