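/-
Programme TW (S56), brick D1 (helper69): abstract orbit counting lemma used for the
Dickson-type step (a finite subgroup of `SL₂` with a nontrivial unipotent subgroup of order `q`
has a torus of order at least `(q-1)/2` in the normaliser).

`main_count`: a finite group `G` acts on a finite set `X`, a subgroup `Z` acts trivially, every
`g ∉ Z` has exactly one or exactly two fixed points.  If the defect
`R = 2(|G|-|Z|) - P₁ - |Ω|(|Stab x₀| - |Z|)` satisfies `0 < R < |G|` then `|G| - R` divides `|G|`.
`arith_key`: the arithmetic consequence `q - 1 ≤ 2 e`.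
-/
import Mathlib

set_option autoImplicit false
set_option linter.unusedSectionVars false

namespace Fermat.Agent.TW.OrbitCount69

open MulAction

section general

variable {G X : Type*} [Group G] [MulAction G X]

theorem card_orbit_mul_card_stabilizer [Finite G] (x : X) :
    Nat.card (orbit G x) * Nat.card (stabilizer G x) = Nat.card G := by
  rw [Nat.card_congr (orbitEquivQuotientStabilizer G x),
    ← Subgroup.card_eq_card_quotient_mul_card_subgroup]

theorem card_stabilizer_smul [Finite G] (g : G) (x : X) :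
    Nat.card (stabilizer G (g • x)) = Nat.card (stabilizer G x) := by
  rw [stabilizer_smul_eq_stabilizer_map_conj]
  exact Nat.card_congr ((stabilizer G x).equivMapOfInjective _
    (MulAut.conj g).injective).symm.toEquiv

theorem card_stabilizer_of_mem_orbit [Finite G] {x y : X} (h : y ∈ orbit G x) :
    Nat.card (stabilizer G y) = Nat.card (stabilizer G x) := by
  obtain ⟨g, rfl⟩ := h
  exact card_stabilizer_smul g x

end general

section count

open Classical

variable {G X : Type*} [Group G] [Fintype G] [MulAction G X] [Fintype X]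

/-- number of elements outside `Z` fixing `x` -/
noncomputable def wt (Z : Subgroup G) (x : X) : ℕ :=
  (Finset.univ.filter (fun g : G => g ∉ Z ∧ g • x = x)).card

theorem wt_add_card (Z : Subgroup G) (hZ : ∀ g ∈ Z, ∀ x : X, g • x = x) (x : X) :
    wt Z x + Nat.card Z = Nat.card (stabilizer G x) := by
  have h1 : Nat.card Z = (Finset.univ.filter (fun g : G => g ∈ Z)).card := by
    rw [Nat.card_eq_fintype_card, Fintype.card_subtype]
  have h2 : Nat.card (stabilizer G x) = (Finset.univ.filter (fun g : G => g • x = x)).card := by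
    rw [Nat.card_eq_fintype_card, Fintype.card_subtype]
    rfl
  rw [h1, h2, wt, ← Finset.card_union_of_disjoint]
  · congr 1
    ext g
    simp only [Finset.mem_union, Finset.mem_filter, Finset.mem_univ, true_and]
    constructor
    · rintro (⟨_, h⟩ | h)
      · exact h
      · exact hZ g h x
    · intro h
      by_cases hg : g ∈ Z
      · exact Or.inr hg
      · exact Or.inl ⟨hg, h⟩
  · rw [Finset.disjoint_filter]
    intro g _ h1 h2
    exact h1.1 h2

theorem wt_of_mem_orbit (Z : Subgroup G) (hZ : ∀ g ∈ Z, ∀ x : X, g • x = x) {x y : X}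
    (h : y ∈ orbit G x) : wt Z y = wt Z x := by
  have h1 := wt_add_card Z hZ x
  have h2 := wt_add_card Z hZ y
  rw [card_stabilizer_of_mem_orbit h] at h2
  omega

/-- double counting: the sum of the weights is the number of pairs `(g, x)` with `g ∉ Z`,
`g • x = x`. -/
theorem sum_wt (Z : Subgroup G) :
    ∑ x : X, wt Z x =
      ∑ g ∈ Finset.univ.filter (fun g : G => g ∉ Z),
        (Finset.univ.filter (fun x : X => g • x = x)).card := by
  simp only [wt, Finset.card_filter]
  rw [Finset.sum_comm, Finset.sum_filter]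
  refine Finset.sum_congr rfl fun g _ => ?_
  by_cases hg : g ∈ Z
  · simp [hg]
  · simp [hg]

end count


section count2

open Classical

variable {G X : Type*} [Group G] [Fintype G] [MulAction G X] [Fintype X]

/-- the orbit of `x` as a finset -/
noncomputable def orb (G : Type*) [Group G] [MulAction G X] (x : X) : Finset X :=
  Finset.univ.filter (fun y => y ∈ orbit G x)

theorem card_orb (x : X) : (orb G x).card = Nat.card (orbit G x) := by
  rw [orb, Nat.card_eq_fintype_card, Fintype.card_subtype]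

theorem sum_wt_orb (Z : Subgroup G) (hZ : ∀ g ∈ Z, ∀ x : X, g • x = x) (x : X) :
    ∑ y ∈ orb G x, wt Z y = Nat.card (orbit G x) * wt Z x := by
  have h : ∑ y ∈ orb G x, wt Z y = ∑ _y ∈ orb G x, wt Z x :=
    Finset.sum_congr rfl (fun y hy => wt_of_mem_orbit Z hZ (Finset.mem_filter.mp hy).2)
  rw [h, Finset.sum_const, card_orb, smul_eq_mul]

theorem orb_disjoint {x y : X} (h : y ∉ orbit G x) : Disjoint (orb G x) (orb G y) := by
  rw [Finset.disjoint_left]
  intro t h1 h2
  rw [orb, Finset.mem_filter] at h1 h2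
  apply h
  have e1 := orbit_eq_iff.mpr h1.2
  have e2 := orbit_eq_iff.mpr h2.2
  rw [← e1, e2]
  exact mem_orbit_self y

/-- for a point with positive weight: `2 * z * |orbit| ≤ |G|` and the orbit sum is `|G| - z|orbit|`. -/
theorem orbit_bound (Z : Subgroup G) (hZ : ∀ g ∈ Z, ∀ x : X, g • x = x) (x : X)
    (hpos : 0 < wt Z x) :
    2 * (Nat.card Z * Nat.card (orbit G x)) ≤ Nat.card G ∧
    Nat.card (orbit G x) * wt Z x + Nat.card Z * Nat.card (orbit G x) = Nat.card G ∧
    Nat.card Z * Nat.card (orbit G x) ∣ Nat.card G := by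
  have h1 := wt_add_card Z hZ x
  have h2 := card_orbit_mul_card_stabilizer (G := G) x
  have hle : Z ≤ stabilizer G x := fun g hg => hZ g hg x
  obtain ⟨c, hc⟩ := Subgroup.card_dvd_of_le hle
  have hc2 : 2 ≤ c := by
    by_contra hlt
    have hc' : c = 0 ∨ c = 1 := by omega
    rcases hc' with rfl | rfl
    · rw [mul_zero] at hc; omega
    · rw [mul_one] at hc; omega
  refine ⟨?_, ?_, ?_⟩
  · rw [← h2, hc]
    calc 2 * (Nat.card Z * Nat.card (orbit G x))
        = Nat.card (orbit G x) * (Nat.card Z * 2) := by ring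
      _ ≤ Nat.card (orbit G x) * (Nat.card Z * c) :=
          Nat.mul_le_mul_left _ (Nat.mul_le_mul_left _ hc2)
  · rw [← h2, ← h1]; ring
  · rw [← h2, hc]
    exact ⟨c, by ring⟩

theorem main_count (Z : Subgroup G) (hZ : ∀ g ∈ Z, ∀ x : X, g • x = x)
    (h12 : ∀ g ∉ Z, (Finset.univ.filter (fun x : X => g • x = x)).card = 1 ∨
      (Finset.univ.filter (fun x : X => g • x = x)).card = 2)
    (x₀ : X) (P₁ w₀ R : ℕ)
    (hP₁ : (Finset.univ.filter (fun g : G => g ∉ Z ∧
        (Finset.univ.filter (fun x : X => g • x = x)).card = 1)).card = P₁)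
    (hw₀ : w₀ + Nat.card Z = Nat.card (stabilizer G x₀))
    (hR : R + P₁ + Nat.card (orbit G x₀) * w₀ + 2 * Nat.card Z = 2 * Nat.card G)
    (hR0 : 0 < R) (hRG : R < Nat.card G) :
    (Nat.card G - R) ∣ Nat.card G := by
  have hw₀' : wt Z x₀ = w₀ := by
    have := wt_add_card Z hZ x₀
    omega
  -- (a) total sum
  have hcardZ : (Finset.univ.filter (fun g : G => g ∉ Z)).card + Nat.card Z = Nat.card G := by
    have h1 : Nat.card Z = (Finset.univ.filter (fun g : G => g ∈ Z)).card := by
      rw [Nat.card_eq_fintype_card, Fintype.card_subtype]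
    rw [h1, add_comm, Finset.card_filter_add_card_filter_not, Finset.card_univ,
      Nat.card_eq_fintype_card]
  have hS : ∑ x : X, wt Z x + P₁ = 2 * (Finset.univ.filter (fun g : G => g ∉ Z)).card := by
    rw [sum_wt, ← hP₁]
    have : (Finset.univ.filter (fun g : G => g ∉ Z ∧
        (Finset.univ.filter (fun x : X => g • x = x)).card = 1)) =
        (Finset.univ.filter (fun g : G => g ∉ Z)).filter (fun g =>
        (Finset.univ.filter (fun x : X => g • x = x)).card = 1) := by
      rw [Finset.filter_filter]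
    rw [this, Finset.card_filter, ← Finset.sum_add_distrib, mul_comm, ← smul_eq_mul,
      ← Finset.sum_const]
    refine Finset.sum_congr rfl fun g hg => ?_
    rcases h12 g (Finset.mem_filter.mp hg).2 with h | h
    · rw [h]; simp
    · rw [h]; simp
  -- (b) split off the orbit of x₀
  have hsplit : ∑ x : X, wt Z x =
      ∑ x ∈ orb G x₀, wt Z x + ∑ x ∈ Finset.univ.filter (fun y => y ∉ orbit G x₀), wt Z x := by
    rw [orb, Finset.sum_filter_add_sum_filter_not]
  rw [sum_wt_orb Z hZ, hw₀'] at hsplit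
  have hS1 : ∑ x ∈ Finset.univ.filter (fun y => y ∉ orbit G x₀), wt Z x = R := by omega
  -- (c) a point outside with positive weight
  have hex : ∃ x₁, x₁ ∉ orbit G x₀ ∧ 0 < wt Z x₁ := by
    by_contra hne
    push Not at hne
    have : ∑ x ∈ Finset.univ.filter (fun y => y ∉ orbit G x₀), wt Z x = 0 := by
      refine Finset.sum_eq_zero fun x hx => ?_
      have := hne x (Finset.mem_filter.mp hx).2
      omega
    omega
  obtain ⟨x₁, hx₁, hpos₁⟩ := hex
  obtain ⟨hb1, he1, hd1⟩ := orbit_bound Z hZ x₁ hpos₁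
  have hsub1 : orb G x₁ ⊆ Finset.univ.filter (fun y => y ∉ orbit G x₀) := by
    intro y hy
    rw [orb, Finset.mem_filter] at hy
    rw [Finset.mem_filter]
    refine ⟨Finset.mem_univ _, fun hy0 => hx₁ ?_⟩
    have e1 := orbit_eq_iff.mpr hy.2
    have e2 := orbit_eq_iff.mpr hy0
    rw [← e2, e1]
    exact mem_orbit_self x₁
  by_cases hex2 : ∃ x₂, x₂ ∉ orbit G x₀ ∧ x₂ ∉ orbit G x₁ ∧ 0 < wt Z x₂
  · exfalso
    obtain ⟨x₂, hx₂0, hx₂1, hpos₂⟩ := hex2
    obtain ⟨hb2, he2, hd2⟩ := orbit_bound Z hZ x₂ hpos₂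
    have hsub2 : orb G x₂ ⊆ Finset.univ.filter (fun y => y ∉ orbit G x₀) := by
      intro y hy
      rw [orb, Finset.mem_filter] at hy
      rw [Finset.mem_filter]
      refine ⟨Finset.mem_univ _, fun hy0 => hx₂0 ?_⟩
      have e1 := orbit_eq_iff.mpr hy.2
      have e2 := orbit_eq_iff.mpr hy0
      rw [← e2, e1]
      exact mem_orbit_self x₂
    have hdis : Disjoint (orb G x₁) (orb G x₂) := orb_disjoint hx₂1
    have hle : ∑ x ∈ orb G x₁ ∪ orb G x₂, wt Z x ≤
        ∑ x ∈ Finset.univ.filter (fun y => y ∉ orbit G x₀), wt Z x :=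
      Finset.sum_le_sum_of_subset (Finset.union_subset hsub1 hsub2)
    rw [Finset.sum_union hdis, sum_wt_orb Z hZ, sum_wt_orb Z hZ, hS1] at hle
    omega
  · push Not at hex2
    have hS1' : ∑ x ∈ Finset.univ.filter (fun y => y ∉ orbit G x₀), wt Z x =
        ∑ x ∈ orb G x₁, wt Z x := by
      symm
      refine Finset.sum_subset hsub1 fun x hx hx1 => ?_
      have h0 := (Finset.mem_filter.mp hx).2
      have h1 : x ∉ orbit G x₁ := fun h => hx1 (by rw [orb, Finset.mem_filter]; exact ⟨Finset.mem_univ _, h⟩)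
      have := hex2 x h0 h1
      omega
    rw [sum_wt_orb Z hZ, hS1] at hS1'
    have : Nat.card G - R = Nat.card Z * Nat.card (orbit G x₁) := by omega
    rw [this]
    exact hd1

end count2

/-- the arithmetic behind Dickson's counting argument -/
theorem arith_key (t m e : ℕ) (ht : 2 ≤ t) (hm : 1 ≤ m) (he1 : 1 ≤ e) (he : e ≤ t + 1)
    (hdvd : ((1 + (t + 2) * m) * t + 2) ∣ (1 + (t + 2) * m) * (t + 2) * e) :
    t + 1 ≤ 2 * e := by
  have h1 : (1 + (t + 2) * m) * t + 2 = (t + 2) * (1 + m * t) := by ring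
  have h2 : (1 + (t + 2) * m) * (t + 2) * e = (t + 2) * ((1 + (t + 2) * m) * e) := by ring
  rw [h1, h2] at hdvd
  have h3 : (1 + m * t) ∣ (1 + (t + 2) * m) * e :=
    Nat.dvd_of_mul_dvd_mul_left (by omega) hdvd
  have h4 : (1 + (t + 2) * m) * e = (1 + m * t) * e + m * (2 * e) := by ring
  rw [h4] at h3
  have h5 : (1 + m * t) ∣ m * (2 * e) := (Nat.dvd_add_right (Dvd.intro _ rfl)).mp h3
  have hcop : Nat.Coprime (1 + m * t) m := by
    rw [Nat.coprime_add_mul_left_left]
    exact Nat.coprime_one_left m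
  have h6 : (1 + m * t) ∣ 2 * e := hcop.dvd_of_dvd_mul_left h5
  have h7 : 1 + m * t ≤ 2 * e := Nat.le_of_dvd (by omega) h6
  -- m ≤ 2
  have hm2 : m ≤ 2 := by
    by_contra hlt
    have : 3 * t ≤ m * t := Nat.mul_le_mul_right t (by omega)
    omega
  rcases (by omega : m = 1 ∨ m = 2) with rfl | rfl
  · omega
  · exfalso
    have hodd : Nat.Coprime (1 + 2 * t) 2 := by
      rw [Nat.coprime_add_mul_left_left]
      exact Nat.coprime_one_left 2
    have h8 : (1 + 2 * t) ∣ e := hodd.dvd_of_dvd_mul_left h6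
    have := Nat.le_of_dvd (by omega) h8
    omega


end Fermat.Agent.TW.OrbitCount69
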