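/-
Programme TW (S56), brick D3 support (helper69): set version of `OrbitCount69.main_count`
(the ambient set may be infinite; fixed-point counts are `Set.ncard`s).
-/
import Fermat.Agent.TW.OrbitCount69

set_option autoImplicit false
set_option linter.unusedSectionVars false
set_option linter.style.haveILetI false

namespace Fermat.Agent.TW.OrbitCountSet69

open MulAction Fermat.Agent.TW.OrbitCount69

open Classical

variable {G X : Type*} [Group G] [Finite G] [MulAction G X]

/-- the finite stable set of points with nontrivial stabiliser, together with one orbit -/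
def bigSet (Z : Subgroup G) (x₀ : X) : Set X :=
  {x | x ∈ orbit G x₀ ∨ ∃ g, g ∉ Z ∧ g • x = x}

theorem bigSet_finite (Z : Subgroup G)
    (h12 : ∀ g ∉ Z, (fixedBy X g).ncard = 1 ∨ (fixedBy X g).ncard = 2) (x₀ : X) :
    (bigSet Z x₀).Finite := by
  have h1 : (orbit G x₀).Finite := Set.finite_range _
  have h2 : (⋃ g ∈ {g : G | g ∉ Z}, fixedBy X g).Finite := by
    refine Set.Finite.biUnion (Set.toFinite _) fun g hg => ?_
    apply Set.finite_of_ncard_ne_zero
    rcases h12 g hg with h | h <;> omega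
  refine (h1.union h2).subset ?_
  rintro x (hx | ⟨g, hg, hx⟩)
  · exact Or.inl hx
  · exact Or.inr (Set.mem_biUnion hg hx)

theorem bigSet_smul (Z : Subgroup G) [Z.Normal] (x₀ : X) (g : G) {x : X}
    (hx : x ∈ bigSet Z x₀) : g • x ∈ bigSet Z x₀ := by
  rcases hx with hx | ⟨h, hh, hx⟩
  · left
    obtain ⟨a, rfl⟩ := hx
    exact ⟨g * a, by simp [mul_smul]⟩
  · right
    refine ⟨g * h * g⁻¹, ?_, ?_⟩
    · intro hc
      apply hh
      have := Subgroup.Normal.conj_mem ‹Z.Normal› _ hc g⁻¹
      simpa [mul_assoc] using this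
    · rw [mul_smul, mul_smul, inv_smul_smul, hx]

/-- the sub-action on `bigSet` -/
def bigSub (Z : Subgroup G) [Z.Normal] (x₀ : X) : SubMulAction G X where
  carrier := bigSet Z x₀
  smul_mem' := fun g _ hx => bigSet_smul Z x₀ g hx

theorem main_count_set (Z : Subgroup G) [Z.Normal] (hZ : ∀ g ∈ Z, ∀ x : X, g • x = x)
    (h12 : ∀ g ∉ Z, (fixedBy X g).ncard = 1 ∨ (fixedBy X g).ncard = 2)
    (x₀ : X) (P₁ w₀ R : ℕ)
    (hP₁ : {g : G | g ∉ Z ∧ (fixedBy X g).ncard = 1}.ncard = P₁)
    (hw₀ : w₀ + Nat.card Z = Nat.card (stabilizer G x₀))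
    (hR : R + P₁ + Nat.card (orbit G x₀) * w₀ + 2 * Nat.card Z = 2 * Nat.card G)
    (hR0 : 0 < R) (hRG : R < Nat.card G) :
    (Nat.card G - R) ∣ Nat.card G := by
  haveI : Fintype G := Fintype.ofFinite G
  set Y := bigSub Z x₀ with hY
  haveI : Finite Y := (bigSet_finite Z h12 x₀).to_subtype
  haveI : Fintype Y := Fintype.ofFinite Y
  have hx₀ : x₀ ∈ Y := Or.inl (mem_orbit_self x₀)
  -- fixed point counts agree
  have hfix : ∀ g ∉ Z, ∀ (inst : DecidablePred (fun y : Y => g • y = y)),
      (@Finset.filter _ (fun y : Y => g • y = y) inst Finset.univ).card =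
      (fixedBy X g).ncard := by
    intro g hg inst
    rw [← Set.ncard_coe_finset, ← Set.ncard_image_of_injective _ Subtype.val_injective]
    congr 1
    ext x
    simp only [Finset.coe_filter, Finset.mem_univ, true_and, Set.mem_image, Set.mem_ofPred_eq,
      mem_fixedBy]
    constructor
    · rintro ⟨y, hy, rfl⟩
      have := congrArg Subtype.val hy
      simpa using this
    · intro hx
      refine ⟨⟨x, Or.inr ⟨g, hg, hx⟩⟩, ?_, rfl⟩
      apply Subtype.ext
      simpa using hx
  have hstab : stabilizer G (⟨x₀, hx₀⟩ : Y) = stabilizer G x₀ :=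
    SubMulAction.stabilizer_of_subMul _
  have horb : Nat.card (orbit G (⟨x₀, hx₀⟩ : Y)) = Nat.card (orbit G x₀) := by
    rw [← SubMulAction.val_image_orbit (p := Y) ⟨x₀, hx₀⟩]
    exact (Nat.card_image_of_injective Subtype.val_injective _).symm
  refine main_count (X := Y) Z (fun g hg y => Subtype.ext (by simpa using hZ g hg y.1)) ?_
    ⟨x₀, hx₀⟩ P₁ w₀ R ?_ (by rw [hstab]; exact hw₀) (by rw [horb]; exact hR) hR0 hRG
  · intro g hg
    rw [hfix g hg]
    exact h12 g hg
  · rw [← hP₁, ← Set.ncard_coe_finset]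
    congr 1
    ext g
    simp only [Finset.coe_filter, Finset.mem_univ, true_and, Set.mem_ofPred_eq]
    constructor
    · rintro ⟨hg, h⟩
      exact ⟨hg, by rw [← hfix g hg]; exact h⟩
    · rintro ⟨hg, h⟩
      exact ⟨hg, by rw [hfix g hg]; exact h⟩

end Fermat.Agent.TW.OrbitCountSet69
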