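/-
Programme TW (S56), brick D3 support (helper69): counting "parabolic" elements (outside a normal
subgroup `Z`, exactly one fixed point) of a finite group acting on a set, when all their fixed
points lie in one orbit: `#Par = |orbit| * #(Par ∩ Stab x₀)`.
-/
import Mathlib

set_option autoImplicit false
set_option linter.unusedSectionVars false
set_option linter.style.haveILetI false

namespace Fermat.Agent.TW.ParCount69

open MulAction

open scoped Pointwise

variable {G X : Type*} [Group G] [MulAction G X]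

theorem ncard_fixedBy_conj (g h : G) :
    (fixedBy X (h * g * h⁻¹)).ncard = (fixedBy X g).ncard := by
  rw [← smul_fixedBy X g h]
  exact Set.ncard_image_of_injective _ (MulAction.injective h)

/-- the "parabolic" elements: outside `Z`, exactly one fixed point -/
def IsPar (Z : Subgroup G) (g : G) : Prop := g ∉ Z ∧ (fixedBy X g).ncard = 1

theorem isPar_conj (Z : Subgroup G) [Z.Normal] {g : G} (hg : IsPar (X := X) Z g) (h : G) :
    IsPar (X := X) Z (h * g * h⁻¹) := by
  refine ⟨fun hc => hg.1 ?_, by rw [ncard_fixedBy_conj]; exact hg.2⟩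
  have := Subgroup.Normal.conj_mem ‹Z.Normal› _ hc h⁻¹
  simpa [mul_assoc] using this

theorem card_par [Finite G] (Z : Subgroup G) [Z.Normal] (x₀ : X)
    (hpar : ∀ g : G, IsPar (X := X) Z g → ∀ x, g • x = x → x ∈ orbit G x₀) :
    {g : G | IsPar (X := X) Z g}.ncard =
      Nat.card (orbit G x₀) * {g : G | IsPar (X := X) Z g ∧ g • x₀ = x₀}.ncard := by
  classical
  have hfinorb : Finite (orbit G x₀) := (Set.finite_range (fun g : G => g • x₀)).to_subtype
  haveI : Fintype (orbit G x₀) := Fintype.ofFinite _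
  -- the unique fixed point
  have hex : ∀ g : {g : G // IsPar (X := X) Z g}, ∃ x : X, fixedBy X g.1 = {x} :=
    fun g => Set.ncard_eq_one.mp g.2.2
  choose fp hfp using hex
  have hfp_mem : ∀ g, g.1 • fp g = fp g := fun g => by
    have : fp g ∈ fixedBy X g.1 := by rw [hfp g]; exact Set.mem_singleton _
    exact this
  have hfp_uniq : ∀ g x, g.1 • x = x → x = fp g := fun g x hx => by
    have : x ∈ fixedBy X g.1 := hx
    rw [hfp g] at this
    exact this
  let π : {g : G // IsPar (X := X) Z g} → orbit G x₀ :=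
    fun g => ⟨fp g, hpar g.1 g.2 (fp g) (hfp_mem g)⟩
  rw [← Nat.card_coe_set_eq, ← Nat.card_coe_set_eq]
  show Nat.card {g : G // IsPar (X := X) Z g} = _
  rw [Nat.card_congr (Equiv.sigmaFiberEquiv π).symm, Nat.card_sigma]
  have hfib : ∀ ω : orbit G x₀, Nat.card {g // π g = ω} =
      Nat.card {g : G | IsPar (X := X) Z g ∧ g • x₀ = x₀} := by
    rintro ⟨ω, γ, rfl⟩
    refine Nat.card_congr ⟨fun g => ⟨γ⁻¹ * g.1.1 * γ, ?_, ?_⟩,
      fun g => ⟨⟨γ * g.1 * γ⁻¹, isPar_conj Z g.2.1 γ⟩, ?_⟩, ?_, ?_⟩
    · have := isPar_conj Z g.1.2 γ⁻¹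
      rwa [inv_inv] at this
    · have h1 : fp g.1 = γ • x₀ := congrArg Subtype.val g.2
      have h2 := hfp_mem g.1
      rw [h1] at h2
      rw [mul_smul, mul_smul, h2, inv_smul_smul]
    · apply Subtype.ext
      show fp _ = γ • x₀
      symm
      apply hfp_uniq
      show (γ * g.1 * γ⁻¹) • γ • x₀ = γ • x₀
      rw [mul_smul, mul_smul, inv_smul_smul, g.2.2]
    · intro g
      apply Subtype.ext
      apply Subtype.ext
      show γ * (γ⁻¹ * g.1.1 * γ) * γ⁻¹ = g.1.1
      group
    · intro g
      apply Subtype.ext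
      show γ⁻¹ * (γ * g.1 * γ⁻¹) * γ = g.1
      group
  rw [Finset.sum_congr rfl (fun ω _ => hfib ω), Finset.sum_const, Finset.card_univ,
    smul_eq_mul, ← Nat.card_eq_fintype_card]

end Fermat.Agent.TW.ParCount69
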