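/-
Programme TW (S56), brick D3 support (helper69): fixed points of elements of `GL₂(K)` on the
projective line `OnePoint K` (`K` algebraically closed, characteristic `≠ 2`): a non-scalar element
has exactly one fixed point if it is parabolic and exactly two otherwise.
-/
import Mathlib

set_option autoImplicit false
set_option linter.unusedSectionVars false

namespace Fermat.Agent.TW.ProjFix69

open Matrix MulAction OnePoint Matrix.GeneralLinearGroup

variable {K : Type*} [Field K] [DecidableEq K]

theorem det_entries (g : GL (Fin 2) K) : g 0 0 * g 1 1 - g 0 1 * g 1 0 ≠ 0 := by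
  have := g.det_ne_zero
  rwa [det_fin_two] at this

/-- a matrix which is not of the shape `[a 0; 0 a]` is not scalar -/
theorem not_scalar_of {g : GL (Fin 2) K}
    (h : ¬ (g 1 0 = 0 ∧ g 0 1 = 0 ∧ g 0 0 = g 1 1)) :
    g.val ∉ Set.range (Matrix.scalar (Fin 2)) := by
  rintro ⟨a, ha⟩
  apply h
  have e : ∀ i j, g i j = (Matrix.scalar (Fin 2) a) i j := fun i j => by rw [ha]
  refine ⟨?_, ?_, ?_⟩
  · rw [e]; simp
  · rw [e]; simp
  · rw [e, e]; simp

/-- fixed points of a parabolic element -/
theorem fixedBy_parabolic [NeZero (2 : K)] {g : GL (Fin 2) K} (hg : g.IsParabolic) :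
    fixedBy (OnePoint K) g = {parabolicFixedPoint g} := by
  ext c
  rw [mem_fixedBy, Set.mem_singleton_iff]
  exact hg.smul_eq_self_iff

theorem ncard_fixedBy_parabolic [NeZero (2 : K)] {g : GL (Fin 2) K} (hg : g.IsParabolic) :
    (fixedBy (OnePoint K) g).ncard = 1 := by
  rw [fixedBy_parabolic hg, Set.ncard_singleton]

/-- fixed points of an upper triangular element with distinct diagonal entries -/
theorem fixedBy_upper {g : GL (Fin 2) K} (hc : g 1 0 = 0) (had : g 0 0 ≠ g 1 1) :
    fixedBy (OnePoint K) g = {∞, ((g 0 1 / (g 1 1 - g 0 0) : K) : OnePoint K)} := by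
  have hd : g 1 1 ≠ 0 := by
    intro hd
    have := det_entries g
    rw [hc, hd] at this
    simp at this
  have hsub : g 1 1 - g 0 0 ≠ 0 := sub_ne_zero.mpr (Ne.symm had)
  ext c
  rw [mem_fixedBy, Set.mem_insert_iff, Set.mem_singleton_iff]
  cases c with
  | infty => simp [smul_infty_eq_self_iff, hc]
  | coe c =>
    rw [← fixpointPolynomial_aeval_eq_zero_iff]
    simp only [fixpointPolynomial, hc, map_zero, zero_mul, zero_add, map_sub, map_mul,
      Polynomial.aeval_C, Polynomial.aeval_X, Algebra.algebraMap_self_apply]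
    constructor
    · intro h
      right
      rw [OnePoint.coe_eq_coe, eq_div_iff hsub]
      linear_combination h
    · rintro (h | h)
      · exact absurd h (OnePoint.coe_ne_infty c)
      · rw [OnePoint.coe_eq_coe] at h
        rw [h]
        field_simp
        ring

theorem ncard_fixedBy_upper {g : GL (Fin 2) K} (hc : g 1 0 = 0) (had : g 0 0 ≠ g 1 1) :
    (fixedBy (OnePoint K) g).ncard = 2 := by
  rw [fixedBy_upper hc had, Set.ncard_pair (OnePoint.infty_ne_coe _)]

theorem fixedBy_lower [NeZero (2 : K)] {g : GL (Fin 2) K} (hc : g 1 0 ≠ 0) {s : K}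
    (hs : g.val.discr = s * s) :
    fixedBy (OnePoint K) g =
      {(((g 0 0 - g 1 1 + s) / (2 * g 1 0) : K) : OnePoint K),
       (((g 0 0 - g 1 1 - s) / (2 * g 1 0) : K) : OnePoint K)} := by
  have hdisc : discrim (g 1 0) (g 1 1 - g 0 0) (-g 0 1) = s * s := by
    rw [← hs, discrim, discr_fin_two, trace_fin_two, det_fin_two]
    ring
  ext c
  rw [mem_fixedBy, Set.mem_insert_iff, Set.mem_singleton_iff]
  cases c with
  | infty =>
    simp [smul_infty_eq_self_iff, hc]
  | coe c =>
    rw [← fixpointPolynomial_aeval_eq_zero_iff]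
    simp only [fixpointPolynomial, map_sub, map_mul, map_add, map_pow,
      Polynomial.aeval_C, Polynomial.aeval_X, Algebra.algebraMap_self_apply]
    rw [OnePoint.coe_eq_coe, OnePoint.coe_eq_coe]
    have := quadratic_eq_zero_iff hc hdisc c
    rw [neg_sub] at this
    rw [← this]
    constructor
    · intro h; linear_combination h
    · intro h; linear_combination h

theorem ncard_fixedBy_lower [NeZero (2 : K)] {g : GL (Fin 2) K} (hc : g 1 0 ≠ 0) {s : K}
    (hs : g.val.discr = s * s) (hs0 : s ≠ 0) :
    (fixedBy (OnePoint K) g).ncard = 2 := by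
  rw [fixedBy_lower hc hs, Set.ncard_pair]
  rw [Ne, OnePoint.coe_eq_coe]
  intro h
  have h2 : (2 : K) ≠ 0 := NeZero.ne _
  have h3 : 2 * g 1 0 ≠ 0 := mul_ne_zero h2 hc
  rw [div_left_inj' h3] at h
  apply hs0
  have : 2 * s = 0 := by linear_combination h
  rcases mul_eq_zero.mp this with h' | h'
  · exact absurd h' h2
  · exact h'

/-- over an algebraically closed field of characteristic `≠ 2`, a non-scalar element has exactly
one fixed point if it is parabolic and exactly two otherwise -/
theorem ncard_fixedBy_of_not_parabolic [IsAlgClosed K] [NeZero (2 : K)] {g : GL (Fin 2) K}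
    (hg : g.val.discr ≠ 0) :
    (fixedBy (OnePoint K) g).ncard = 2 := by
  obtain ⟨s, hs⟩ := IsAlgClosed.exists_eq_mul_self g.val.discr
  have hs0 : s ≠ 0 := by
    rintro rfl
    rw [mul_zero] at hs
    exact hg hs
  by_cases hc : g 1 0 = 0
  · refine ncard_fixedBy_upper hc ?_
    intro had
    apply hg
    rw [discr_fin_two, trace_fin_two, det_fin_two, hc, had]
    ring
  · exact ncard_fixedBy_lower hc hs hs0

theorem ncard_fixedBy_eq_one_iff [IsAlgClosed K] [NeZero (2 : K)] {g : GL (Fin 2) K}
    (hg : g.val ∉ Set.range (Matrix.scalar (Fin 2))) :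
    (fixedBy (OnePoint K) g).ncard = 1 ↔ g.IsParabolic := by
  constructor
  · intro h
    refine ⟨hg, ?_⟩
    by_contra hd
    rw [ncard_fixedBy_of_not_parabolic hd] at h
    omega
  · intro h
    exact ncard_fixedBy_parabolic h

theorem ncard_fixedBy_one_or_two [IsAlgClosed K] [NeZero (2 : K)] {g : GL (Fin 2) K}
    (hg : g.val ∉ Set.range (Matrix.scalar (Fin 2))) :
    (fixedBy (OnePoint K) g).ncard = 1 ∨ (fixedBy (OnePoint K) g).ncard = 2 := by
  by_cases hd : g.val.discr = 0
  · exact Or.inl (ncard_fixedBy_parabolic ⟨hg, hd⟩)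
  · exact Or.inr (ncard_fixedBy_of_not_parabolic hd)

end Fermat.Agent.TW.ProjFix69
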