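/-
Programme TW (S56), brick D3 support (helper69): the Dickson-type count.

`torus_card_ge`: a finite subgroup `G` of `SL₂(K)` (`K` algebraically closed of odd characteristic
`p`, `G` given as a subgroup of `GL (Fin 2) K` with `det = 1` on `G`), not contained in the upper
triangular Borel subgroup, whose translation group `Aadd G = {x | u_x ∈ G}` has more than three
elements, satisfies `|Aadd G| ≤ 2 * |range (chi G)| + 1`, where `chi G : Stab_G(∞) →* Kˣ` is
`g ↦ g₀₀ / g₁₁`.  Proof: Klein-type fixed point count on the projective line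
(`OrbitCount69.main_count`, `ParCount69.card_par`) + arithmetic (`OrbitCount69.arith_key`).
-/
import Fermat.Agent.TW.OrbitCountSet69
import Fermat.Agent.TW.ProjFix69
import Fermat.Agent.TW.ParCount69

set_option autoImplicit false
set_option linter.unusedSectionVars false
set_option linter.style.haveILetI false

namespace Fermat.Agent.TW.DicksonCount69

open Matrix MulAction OnePoint Matrix.GeneralLinearGroup Fermat.Agent.TW.ProjFix69

variable {K : Type*} [Field K] [DecidableEq K]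

section defs

variable (G : Subgroup (GL (Fin 2) K))

/-- kernel of the action of `G` on the projective line -/
def Zc : Subgroup G := (MulAction.toPermHom G (OnePoint K)).ker

instance : (Zc G).Normal := by unfold Zc; infer_instance

theorem mem_Zc_iff_forall (g : G) : g ∈ Zc G ↔ ∀ x : OnePoint K, g • x = x := by
  rw [Zc, MonoidHom.mem_ker]
  constructor
  · intro h x
    have := congrArg (fun σ : Equiv.Perm (OnePoint K) => σ x) h
    simpa using this
  · intro h
    ext x
    simpa using h x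

theorem smul_def' (g : G) (x : OnePoint K) : g • x = (g : GL (Fin 2) K) • x := rfl

theorem diag_ne_zero {g : GL (Fin 2) K} (hc : g 1 0 = 0) : g 0 0 ≠ 0 ∧ g 1 1 ≠ 0 := by
  have := det_entries g
  rw [hc, mul_zero, sub_zero] at this
  exact ⟨left_ne_zero_of_mul this, right_ne_zero_of_mul this⟩

theorem mem_Zc_iff (g : G) :
    g ∈ Zc G ↔ g.1 1 0 = 0 ∧ g.1 0 1 = 0 ∧ g.1 0 0 = g.1 1 1 := by
  rw [mem_Zc_iff_forall]
  constructor
  · intro h
    have h1 : g.1 1 0 = 0 := by
      have := h ∞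
      rwa [smul_def', smul_infty_eq_self_iff] at this
    have hd : g.1 1 1 ≠ 0 := (diag_ne_zero h1).2
    have h2 : g.1 0 1 = 0 := by
      have := h ((0 : K) : OnePoint K)
      rw [smul_def', smul_some_eq_ite] at this
      simp only [mul_zero, zero_add] at this
      rw [if_neg hd, OnePoint.coe_eq_coe, div_eq_zero_iff] at this
      rcases this with h | h
      · exact h
      · exact absurd h hd
    refine ⟨h1, h2, ?_⟩
    have := h ((1 : K) : OnePoint K)
    rw [smul_def', smul_some_eq_ite] at this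
    simp only [mul_one, h1, h2, zero_add, add_zero] at this
    rw [if_neg hd, OnePoint.coe_eq_coe, div_eq_one_iff_eq hd] at this
    exact this
  · rintro ⟨h1, h2, h3⟩ x
    have hd : g.1 1 1 ≠ 0 := (diag_ne_zero h1).2
    rw [smul_def']
    cases x with
    | infty => rw [smul_infty_eq_self_iff]; exact h1
    | coe x =>
      rw [smul_some_eq_ite]
      simp only [h1, h2, h3, zero_mul, zero_add, add_zero]
      rw [if_neg hd, mul_div_cancel_left₀ _ hd]

theorem not_scalar_of_not_mem_Zc {g : G} (hg : g ∉ Zc G) :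
    g.1.val ∉ Set.range (Matrix.scalar (Fin 2)) :=
  not_scalar_of (fun h => hg ((mem_Zc_iff G g).mpr h))

theorem mem_stab_infty (g : G) : g ∈ stabilizer G (∞ : OnePoint K) ↔ g.1 1 0 = 0 := by
  rw [mem_stabilizer_iff, smul_def', smul_infty_eq_self_iff]

/-- the additive group of translations in `G` -/
def Aadd : AddSubgroup K where
  carrier := {x | upperRightHom x ∈ G}
  zero_mem' := by
    show upperRightHom (0 : K) ∈ G
    rw [AddChar.map_zero_eq_one]; exact G.one_mem
  add_mem' := by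
    intro a b ha hb
    show upperRightHom (a + b) ∈ G
    rw [AddChar.map_add_eq_mul]; exact G.mul_mem ha hb
  neg_mem' := by
    intro a ha
    show upperRightHom (-a) ∈ G
    rw [AddChar.map_neg_eq_inv]; exact G.inv_mem ha

theorem mem_Aadd (x : K) : x ∈ Aadd G ↔ upperRightHom x ∈ G := Iff.rfl

/-- the character `g ↦ g₀₀ / g₁₁` on the stabiliser of `∞` -/
noncomputable def chi : stabilizer G (∞ : OnePoint K) →* Kˣ where
  toFun g := Units.mk0 (g.1.1 0 0 / g.1.1 1 1)
    (div_ne_zero (diag_ne_zero ((mem_stab_infty G g.1).mp g.2)).1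
      (diag_ne_zero ((mem_stab_infty G g.1).mp g.2)).2)
  map_one' := by
    apply Units.ext
    simp
  map_mul' := by
    intro g h
    apply Units.ext
    have hg := (mem_stab_infty G g.1).mp g.2
    have hh := (mem_stab_infty G h.1).mp h.2
    have hgd := (diag_ne_zero hg).2
    have hhd := (diag_ne_zero hh).2
    simp only [Subgroup.coe_mul, Units.val_mul, Units.val_mk0,
      Matrix.mul_apply, Fin.sum_univ_two, hg, hh, mul_zero, zero_mul, add_zero, zero_add]
    field_simp

theorem chi_val (g : stabilizer G (∞ : OnePoint K)) :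
    ((chi G g : Kˣ) : K) = g.1.1 0 0 / g.1.1 1 1 := rfl

end defs

section kernel

variable (G : Subgroup (GL (Fin 2) K)) {p : ℕ} [Fact p.Prime] [CharP K p]

theorem upperRightHom_entries (x : K) :
    (upperRightHom x : GL (Fin 2) K) 0 0 = 1 ∧ (upperRightHom x : GL (Fin 2) K) 0 1 = x ∧
    (upperRightHom x : GL (Fin 2) K) 1 0 = 0 ∧ (upperRightHom x : GL (Fin 2) K) 1 1 = 1 := by
  simp [upperRightHom]

theorem gl_ext {g h : GL (Fin 2) K} (h00 : g 0 0 = h 0 0) (h01 : g 0 1 = h 0 1)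
    (h10 : g 1 0 = h 1 0) (h11 : g 1 1 = h 1 1) : g = h := by
  apply Units.ext
  ext i j
  fin_cases i <;> fin_cases j <;> assumption

theorem mul_entries (g h : GL (Fin 2) K) :
    (g * h) 0 0 = g 0 0 * h 0 0 + g 0 1 * h 1 0 ∧ (g * h) 0 1 = g 0 0 * h 0 1 + g 0 1 * h 1 1 ∧
    (g * h) 1 0 = g 1 0 * h 0 0 + g 1 1 * h 1 0 ∧ (g * h) 1 1 = g 1 0 * h 0 1 + g 1 1 * h 1 1 := by
  simp [Matrix.mul_apply, Fin.sum_univ_two]

/-- the elements `[c b; 0 c]` of `G` -/
def KerSet : Set G := {g | g.1 1 0 = 0 ∧ g.1 0 0 = g.1 1 1}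

theorem mem_ker_chi (g : stabilizer G (∞ : OnePoint K)) :
    g ∈ (chi G).ker ↔ g.1 ∈ KerSet G := by
  have hg := (mem_stab_infty G g.1).mp g.2
  have hd := (diag_ne_zero hg).2
  rw [MonoidHom.mem_ker, Units.ext_iff, chi_val, Units.val_one, div_eq_one_iff_eq hd]
  exact ⟨fun h => ⟨hg, h⟩, fun h => h.2⟩

theorem card_ker_chi_eq : Nat.card (chi G).ker = (KerSet G).ncard := by
  rw [← Nat.card_coe_set_eq]
  refine Nat.card_congr ⟨fun g => ⟨g.1.1, (mem_ker_chi G g.1).mp g.2⟩,
    fun g => ⟨⟨g.1, (mem_stab_infty G g.1).mpr g.2.1⟩, (mem_ker_chi G _).mpr g.2⟩, ?_, ?_⟩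
  · intro g; rfl
  · intro g; rfl

/-- the parametrisation `(ζ, a) ↦ ζ * u_a` -/
def kerMap (x : Zc G × Aadd G) : G := x.1.1 * ⟨upperRightHom x.2.1, x.2.2⟩

theorem kerMap_entries (x : Zc G × Aadd G) :
    (kerMap G x).1 0 0 = x.1.1.1 0 0 ∧ (kerMap G x).1 0 1 = x.1.1.1 0 0 * x.2.1 ∧
    (kerMap G x).1 1 0 = 0 ∧ (kerMap G x).1 1 1 = x.1.1.1 0 0 := by
  obtain ⟨h1, h2, h3⟩ := (mem_Zc_iff G x.1.1).mp x.1.2
  obtain ⟨e1, e2, e3, e4⟩ := upperRightHom_entries (K := K) x.2.1
  obtain ⟨m1, m2, m3, m4⟩ := mul_entries x.1.1.1 (upperRightHom x.2.1)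
  have : (kerMap G x).1 = x.1.1.1 * upperRightHom x.2.1 := rfl
  rw [this, m1, m2, m3, m4, e1, e2, e3, e4, h1, h2, ← h3]
  simp

theorem kerMap_injective : Function.Injective (kerMap G) := by
  intro x y hxy
  obtain ⟨x1, x2, x3, x4⟩ := kerMap_entries G x
  obtain ⟨y1, y2, y3, y4⟩ := kerMap_entries G y
  obtain ⟨hx1, hx2, hx3⟩ := (mem_Zc_iff G x.1.1).mp x.1.2
  obtain ⟨hy1, hy2, hy3⟩ := (mem_Zc_iff G y.1.1).mp y.1.2
  have hc : x.1.1.1 0 0 = y.1.1.1 0 0 := by rw [← x1, ← y1, hxy]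
  have hcne : x.1.1.1 0 0 ≠ 0 := (diag_ne_zero hx1).1
  have ha : x.2.1 = y.2.1 := by
    have : x.1.1.1 0 0 * x.2.1 = y.1.1.1 0 0 * y.2.1 := by rw [← x2, ← y2, hxy]
    rw [← hc] at this
    exact mul_left_cancel₀ hcne this
  have hz : x.1 = y.1 := by
    apply Subtype.ext
    apply Subtype.ext
    apply gl_ext
    · exact hc
    · rw [hx2, hy2]
    · rw [hx1, hy1]
    · rw [← hx3, ← hy3, hc]
  exact Prod.ext hz (Subtype.ext ha)

theorem range_kerMap (hp2 : p ≠ 2) (hdet : ∀ g ∈ G, g.val.det = 1) :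
    Set.range (kerMap G) = KerSet G := by
  ext g
  constructor
  · rintro ⟨x, rfl⟩
    obtain ⟨x1, x2, x3, x4⟩ := kerMap_entries G x
    exact ⟨x3, by rw [x1, x4]⟩
  · rintro ⟨h10, h00⟩
    have hc2 : g.1 0 0 * g.1 0 0 = 1 := by
      have := hdet g.1 g.2
      rw [det_fin_two, h10, mul_zero, sub_zero, ← h00] at this
      exact this
    -- g² = u_{2cb}
    have hsq : (g * g).1 = upperRightHom (2 * g.1 0 0 * g.1 0 1) := by
      obtain ⟨m1, m2, m3, m4⟩ := mul_entries g.1 g.1
      obtain ⟨e1, e2, e3, e4⟩ := upperRightHom_entries (K := K) (2 * g.1 0 0 * g.1 0 1)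
      apply gl_ext
      · rw [Subgroup.coe_mul, m1, e1, h10, mul_zero, add_zero, hc2]
      · rw [Subgroup.coe_mul, m2, e2, ← h00]; ring
      · rw [Subgroup.coe_mul, m3, e3, h10]; ring
      · rw [Subgroup.coe_mul, m4, e4, h10, ← h00, zero_mul, zero_add, hc2]
    have h2cb : 2 * g.1 0 0 * g.1 0 1 ∈ Aadd G := by
      rw [mem_Aadd, ← hsq]; exact (g * g).2
    have hodd : p % 2 = 1 := (Fact.out : p.Prime).eq_two_or_odd.resolve_left hp2
    have hcb : g.1 0 0 * g.1 0 1 ∈ Aadd G := by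
      have h := (Aadd G).nsmul_mem h2cb ((p + 1) / 2)
      have e : ((p + 1) / 2) • (2 * g.1 0 0 * g.1 0 1) = g.1 0 0 * g.1 0 1 := by
        rw [nsmul_eq_mul]
        have h2 : (((p + 1) / 2 : ℕ) : K) * 2 = 1 := by
          have h3 : (p + 1) / 2 * 2 = p + 1 := by omega
          have h4 : (((p + 1) / 2 * 2 : ℕ) : K) = 1 := by
            rw [h3, Nat.cast_add, CharP.cast_eq_zero, Nat.cast_one, zero_add]
          rw [Nat.cast_mul] at h4
          exact_mod_cast h4
        linear_combination (g.1 0 0 * g.1 0 1) * h2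
      rwa [e] at h
    -- ζ = g * u_{cb}⁻¹
    have hζe : (g * (⟨upperRightHom (g.1 0 0 * g.1 0 1), hcb⟩ : G)⁻¹).1 =
        g.1 * upperRightHom (-(g.1 0 0 * g.1 0 1)) := by
      rw [AddChar.map_neg_eq_inv]; rfl
    obtain ⟨m1, m2, m3, m4⟩ := mul_entries g.1 (upperRightHom (-(g.1 0 0 * g.1 0 1)))
    obtain ⟨e1, e2, e3, e4⟩ := upperRightHom_entries (K := K) (-(g.1 0 0 * g.1 0 1))
    have hζZ : g * (⟨upperRightHom (g.1 0 0 * g.1 0 1), hcb⟩ : G)⁻¹ ∈ Zc G := by
      rw [mem_Zc_iff, hζe, m3, m2, m1, m4, e1, e2, e3, e4, h10, ← h00]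
      refine ⟨by ring, ?_, by ring⟩
      linear_combination (-(g.1 0 1)) * hc2
    refine ⟨(⟨_, hζZ⟩, ⟨g.1 0 0 * g.1 0 1, hcb⟩), ?_⟩
    show g * (⟨upperRightHom (g.1 0 0 * g.1 0 1), hcb⟩ : G)⁻¹ *
      ⟨upperRightHom (g.1 0 0 * g.1 0 1), hcb⟩ = g
    rw [inv_mul_cancel_right]

theorem card_ker_chi (hp2 : p ≠ 2) (hdet : ∀ g ∈ G, g.val.det = 1) :
    Nat.card (chi G).ker = Nat.card (Zc G) * Nat.card (Aadd G) := by
  rw [card_ker_chi_eq, ← range_kerMap G hp2 hdet, ← Nat.card_prod, Set.ncard_range_of_injective (kerMap_injective G)]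

theorem card_stab (hp2 : p ≠ 2) (hdet : ∀ g ∈ G, g.val.det = 1) :
    Nat.card (stabilizer G (∞ : OnePoint K)) =
      Nat.card (chi G).range * (Nat.card (Zc G) * Nat.card (Aadd G)) := by
  rw [Subgroup.card_eq_card_quotient_mul_card_subgroup (chi G).ker, card_ker_chi G hp2 hdet,
    Nat.card_congr (QuotientGroup.quotientKerEquivRange (chi G)).toEquiv]

end kernel

section orbit

variable (G : Subgroup (GL (Fin 2) K)) {p : ℕ} [Fact p.Prime] [CharP K p]

theorem card_dvd_of_stable (A : AddSubgroup K) [Finite A] (Y : Set K)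
    (hst : ∀ a ∈ A, ∀ y ∈ Y, a + y ∈ Y) : Nat.card A ∣ Y.ncard := by
  let S : SubAddAction A K := ⟨Y, fun a y hy => hst a.1 a.2 y hy⟩
  have hfree : ∀ b : S, AddAction.stabilizer A b = ⊥ := by
    intro b
    rw [eq_bot_iff]
    intro a ha
    rw [AddAction.mem_stabilizer_iff] at ha
    have h1 : (a +ᵥ b : S).1 = b.1 := congrArg Subtype.val ha
    have h2 : (a : K) + b.1 = b.1 := h1
    rw [AddSubgroup.mem_bot]
    apply Subtype.ext
    simpa using h2
  have e := AddAction.selfEquivOrbitsQuotientProd hfree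
  have : Y.ncard = Nat.card S := (Nat.card_coe_set_eq Y).symm
  rw [this, Nat.card_congr e, Nat.card_prod]
  exact Dvd.intro_left _ rfl

/-- the finite part of the orbit of `∞` -/
def OmF : Set K := {x | ((x : K) : OnePoint K) ∈ orbit G (∞ : OnePoint K)}

theorem upperRightHom_smul_coe (a x : K) :
    (upperRightHom a : GL (Fin 2) K) • ((x : K) : OnePoint K) = ((a + x : K) : OnePoint K) := by
  obtain ⟨e1, e2, e3, e4⟩ := upperRightHom_entries (K := K) a
  rw [smul_some_eq_ite, e1, e2, e3, e4]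
  simp [add_comm]

theorem OmF_stable (a : K) (ha : a ∈ Aadd G) (x : K) (hx : x ∈ OmF G) : a + x ∈ OmF G := by
  obtain ⟨g, hg⟩ := hx
  refine ⟨⟨upperRightHom a, ha⟩ * g, ?_⟩
  show (⟨upperRightHom a, ha⟩ * g : G) • (∞ : OnePoint K) = _
  rw [mul_smul]
  have hg' : g • (∞ : OnePoint K) = ((x : K) : OnePoint K) := hg
  rw [hg', smul_def']
  exact upperRightHom_smul_coe a x

theorem orbit_eq_insert :
    orbit G (∞ : OnePoint K) = insert ∞ ((fun x : K => (x : OnePoint K)) '' OmF G) := by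
  ext y
  constructor
  · intro hy
    cases y with
    | infty => exact Set.mem_insert _ _
    | coe y => exact Set.mem_insert_of_mem _ ⟨y, hy, rfl⟩
  · rintro (rfl | ⟨x, hx, rfl⟩)
    · exact mem_orbit_self _
    · exact hx

theorem card_orbit_eq [Finite G] :
    Nat.card (orbit G (∞ : OnePoint K)) = 1 + (OmF G).ncard := by
  have hfin : (OmF G).Finite := by
    have h1 : (orbit G (∞ : OnePoint K)).Finite := Set.finite_range _
    exact h1.preimage (OnePoint.coe_injective.injOn)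
  have hnot : (∞ : OnePoint K) ∉ (fun x : K => (x : OnePoint K)) '' OmF G := by
    rintro ⟨x, _, hx⟩
    exact OnePoint.coe_ne_infty x hx
  rw [Nat.card_coe_set_eq, orbit_eq_insert, Set.ncard_insert_of_notMem hnot (hfin.image _),
    add_comm, Set.ncard_image_of_injective _ OnePoint.coe_injective]

theorem OmF_nonempty (hnotB : ∃ g ∈ G, g 1 0 ≠ 0) : (OmF G).Nonempty := by
  obtain ⟨g, hg, hc⟩ := hnotB
  refine ⟨g 0 0 / g 1 0, ⟨⟨g, hg⟩, ?_⟩⟩
  show (⟨g, hg⟩ : G) • (∞ : OnePoint K) = _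
  rw [smul_def', smul_infty_eq_ite, if_neg hc]

/-- `|Ω| = 1 + q m` with `m ≥ 1` -/
theorem card_orbit_form [Finite G] (hnotB : ∃ g ∈ G, g 1 0 ≠ 0) :
    ∃ m : ℕ, 1 ≤ m ∧ Nat.card (orbit G (∞ : OnePoint K)) = 1 + Nat.card (Aadd G) * m := by
  have hfinA : Finite (Aadd G) := by
    have : Function.Injective (fun a : Aadd G => (⟨upperRightHom a.1, a.2⟩ : G)) := by
      intro a b hab
      have := congrArg Subtype.val hab
      exact Subtype.ext (injective_upperRightHom this)
    exact Finite.of_injective _ this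
  obtain ⟨m, hm⟩ := card_dvd_of_stable (Aadd G) (OmF G) (OmF_stable G)
  refine ⟨m, ?_, by rw [card_orbit_eq, hm]⟩
  have hfin : (OmF G).Finite := by
    have h1 : (orbit G (∞ : OnePoint K)).Finite := Set.finite_range _
    exact h1.preimage (OnePoint.coe_injective.injOn)
  have hpos : 0 < (OmF G).ncard := (Set.ncard_pos hfin).mpr (OmF_nonempty G hnotB)
  rcases Nat.eq_zero_or_pos m with rfl | h
  · rw [mul_zero] at hm; omega
  · exact h

end orbit

section parabolic

variable (G : Subgroup (GL (Fin 2) K)) {p : ℕ} [Fact p.Prime] [CharP K p]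

/-- square of a parabolic element of determinant one: parabolic, with trivial `p`-th power -/
theorem sq_parabolic [NeZero (2 : K)] {g : GL (Fin 2) K} (hg : g.IsParabolic)
    (hdet : g.val.det = 1) : (g * g).IsParabolic ∧ (g * g) ^ p = 1 := by
  set M := g.val with hM
  set a := M.parabolicEigenvalue with ha
  have h2 : (2 : K) ≠ 0 := NeZero.ne _
  have ha2 : a * a = 1 := by
    have h := hg.2
    rw [discr_fin_two, hdet] at h
    rw [ha, parabolicEigenvalue]
    field_simp
    linear_combination h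
  have ha0 : a ≠ 0 := left_ne_zero_of_mul (by rw [ha2]; exact one_ne_zero)
  set n := M - scalar (Fin 2) a with hn
  have hn2 : n * n = 0 := by
    have := hg.sub_eigenvalue_sq_eq_zero
    rwa [sq] at this
  have hMn : M = a • (1 : Matrix (Fin 2) (Fin 2) K) + n := by
    rw [hn, scalar_apply, ← smul_one_eq_diagonal]
    abel
  have hn0 : n ≠ 0 := by
    intro h0
    apply hg.1
    refine ⟨a, ?_⟩
    rw [hn, sub_eq_zero] at h0
    exact h0.symm
  set N := (2 * a) • n with hN
  have hN0 : N ≠ 0 := smul_ne_zero (mul_ne_zero h2 ha0) hn0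
  have hN2 : N * N = 0 := by
    rw [hN, smul_mul_smul_comm, hn2, smul_zero]
  have hMM : M * M = 1 + N := by
    rw [hMn, add_mul, mul_add, mul_add, smul_mul_smul_comm, mul_one, ha2, one_smul, hn2,
      smul_mul_assoc, one_mul, mul_smul_comm, mul_one, hN, mul_smul, two_smul]
    abel
  constructor
  · show (g * g).val.IsParabolic
    rw [isParabolic_iff_exists]
    refine ⟨1, N, ?_, hN0, by rw [sq]; exact hN2⟩
    rw [map_one]
    exact hMM
  · apply Units.ext
    rw [Units.val_pow_eq_pow_val, Units.val_mul, Units.val_one]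
    show (M * M) ^ p = 1
    rw [hMM, add_pow_char_of_commute _ (Commute.one_left N), one_pow]
    have : N ^ p = 0 := by
      have hp : 2 ≤ p := (Fact.out : p.Prime).two_le
      exact pow_eq_zero_of_le hp (by rw [sq]; exact hN2)
    rw [this, add_zero]

end parabolic

section parabolic2

open Fermat.Agent.TW.ParCount69

variable (G : Subgroup (GL (Fin 2) K)) {p : ℕ} [Fact p.Prime] [CharP K p]

theorem finite_Aadd [Finite G] : Finite (Aadd G) := by
  have : Function.Injective (fun a : Aadd G => (⟨upperRightHom a.1, a.2⟩ : G)) := by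
    intro a b hab
    have := congrArg Subtype.val hab
    exact Subtype.ext (injective_upperRightHom this)
  exact Finite.of_injective _ this

theorem prime_dvd_card_Aadd [Finite G] (hA : ∃ a ∈ Aadd G, a ≠ 0) : p ∣ Nat.card (Aadd G) := by
  haveI := finite_Aadd G
  obtain ⟨a, ha, ha0⟩ := hA
  have h1 : addOrderOf (⟨a, ha⟩ : Aadd G) ∣ p := by
    apply addOrderOf_dvd_of_nsmul_eq_zero
    apply Subtype.ext
    show p • a = 0
    rw [nsmul_eq_mul, CharP.cast_eq_zero, zero_mul]
  rcases (Nat.dvd_prime (Fact.out : p.Prime)).mp h1 with h | h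
  · exfalso
    rw [AddMonoid.addOrderOf_eq_one_iff] at h
    exact ha0 (congrArg Subtype.val h)
  · rw [← h]
    exact addOrderOf_dvd_natCard _

theorem neZero_two (hp2 : p ≠ 2) : NeZero (2 : K) := by
  refine ⟨fun h => hp2 ?_⟩
  have h2 : ((2 : ℕ) : K) = 0 := by exact_mod_cast h
  rw [CharP.cast_eq_zero_iff K p 2] at h2
  exact (Nat.prime_dvd_prime_iff_eq (Fact.out : p.Prime) Nat.prime_two).mp h2

/-- the fixed point of a parabolic element of `G` lies in the orbit of `∞` -/
theorem par_fixed_mem_orbit [IsAlgClosed K] [Finite G] (hp2 : p ≠ 2)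
    (hdet : ∀ g ∈ G, g.val.det = 1) (hnotB : ∃ g ∈ G, g 1 0 ≠ 0)
    (hA : ∃ a ∈ Aadd G, a ≠ 0) (g : G) (hg : IsPar (X := OnePoint K) (Zc G) g)
    (x : OnePoint K) (hx : g • x = x) : x ∈ orbit G (∞ : OnePoint K) := by
  classical
  haveI : NeZero (2 : K) := neZero_two hp2
  have hpar : g.1.IsParabolic :=
    (ncard_fixedBy_eq_one_iff (not_scalar_of_not_mem_Zc G hg.1)).mp hg.2
  obtain ⟨hu1, hu2⟩ := sq_parabolic (p := p) hpar (hdet g.1 g.2)
  have hfinorb : Finite (orbit G (∞ : OnePoint K)) :=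
    (Set.finite_range (fun g : G => g • (∞ : OnePoint K))).to_subtype
  haveI : Fintype (orbit G (∞ : OnePoint K)) := Fintype.ofFinite _
  obtain ⟨m, _, hm⟩ := card_orbit_form G hnotB
  have hndvd : ¬ p ∣ Fintype.card (orbit G (∞ : OnePoint K)) := by
    rw [← Nat.card_eq_fintype_card, hm]
    intro h
    have h1 : p ∣ Nat.card (Aadd G) * m := Dvd.dvd.mul_right (prime_dvd_card_Aadd G hA) m
    have h2 : p ∣ 1 := (Nat.dvd_add_left h1).mp h
    exact (Fact.out : p.Prime).one_lt.ne' (Nat.dvd_one.mp h2)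
  have hσ : (MulAction.toPermHom G (orbit G (∞ : OnePoint K)) (g * g)) ^ p ^ 1 = 1 := by
    rw [pow_one, ← map_pow]
    have : (g * g) ^ p = 1 := by
      apply Subtype.ext
      rw [Subgroup.coe_pow, Subgroup.coe_mul, hu2]
      rfl
    rw [this, map_one]
  obtain ⟨ω, hω⟩ := Equiv.Perm.exists_fixed_point_of_prime hndvd hσ
  have hω' : (g * g) • ω.1 = ω.1 := congrArg Subtype.val hω
  have hfix := fixedBy_parabolic hu1
  have h1 : ω.1 ∈ fixedBy (OnePoint K) (g.1 * g.1) := hω'
  have h2 : x ∈ fixedBy (OnePoint K) (g.1 * g.1) := by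
    show (g.1 * g.1) • x = x
    have hx' : g.1 • x = x := hx
    rw [mul_smul, hx', hx']
  rw [hfix, Set.mem_singleton_iff] at h1 h2
  rw [h2, ← h1]
  exact ω.2

end parabolic2

section parcount

open Fermat.Agent.TW.ParCount69

variable (G : Subgroup (GL (Fin 2) K)) {p : ℕ} [Fact p.Prime] [CharP K p]

theorem Zc_subset_KerSet : ((Zc G : Subgroup G) : Set G) ⊆ KerSet G := by
  intro g hg
  obtain ⟨h1, _, h3⟩ := (mem_Zc_iff G g).mp hg
  exact ⟨h1, h3⟩

theorem par_stab_eq [IsAlgClosed K] (hp2 : p ≠ 2) :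
    {g : G | IsPar (X := OnePoint K) (Zc G) g ∧ g • (∞ : OnePoint K) = ∞} =
      KerSet G \ ((Zc G : Subgroup G) : Set G) := by
  haveI : NeZero (2 : K) := neZero_two hp2
  ext g
  constructor
  · rintro ⟨⟨hZ, hcard⟩, hinf⟩
    have h10 : g.1 1 0 = 0 := (mem_stab_infty G g).mp hinf
    refine ⟨⟨h10, ?_⟩, hZ⟩
    by_contra hne
    have h2 : (fixedBy (OnePoint K) g.1).ncard = 2 := ncard_fixedBy_upper h10 hne
    have h1 : (fixedBy (OnePoint K) g.1).ncard = 1 := hcard
    omega
  · rintro ⟨⟨h10, h00⟩, hZ⟩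
    have hZ' : g ∉ Zc G := hZ
    refine ⟨⟨hZ', ?_⟩, (mem_stab_infty G g).mpr h10⟩
    have hpar : g.1.IsParabolic := by
      show g.1.val.IsParabolic
      rw [Matrix.isParabolic_iff_of_upperTriangular h10]
      refine ⟨h00, fun h01 => hZ' ?_⟩
      exact (mem_Zc_iff G g).mpr ⟨h10, h01, h00⟩
    exact ncard_fixedBy_parabolic hpar

theorem card_par_stab [IsAlgClosed K] [Finite G] (hp2 : p ≠ 2)
    (hdet : ∀ g ∈ G, g.val.det = 1) :
    {g : G | IsPar (X := OnePoint K) (Zc G) g ∧ g • (∞ : OnePoint K) = ∞}.ncard =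
      Nat.card (Zc G) * Nat.card (Aadd G) - Nat.card (Zc G) := by
  rw [par_stab_eq G hp2, Set.ncard_sdiff (Zc_subset_KerSet G) (Set.toFinite _),
    ← card_ker_chi_eq, card_ker_chi G hp2 hdet]
  congr 1

end parcount

section torus

variable (G : Subgroup (GL (Fin 2) K)) {p : ℕ} [Fact p.Prime] [CharP K p]

/-- conjugating a translation by an upper triangular element -/
theorem conj_upperRight {n : GL (Fin 2) K} (hn : n 1 0 = 0) (x : K) :
    n * upperRightHom x * n⁻¹ = upperRightHom (n 0 0 / n 1 1 * x) := by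
  have hd := (diag_ne_zero hn).2
  rw [mul_inv_eq_iff_eq_mul]
  obtain ⟨m1, m2, m3, m4⟩ := mul_entries n (upperRightHom x)
  obtain ⟨e1, e2, e3, e4⟩ := upperRightHom_entries (K := K) x
  obtain ⟨m1', m2', m3', m4'⟩ := mul_entries (upperRightHom (n 0 0 / n 1 1 * x)) n
  obtain ⟨e1', e2', e3', e4'⟩ := upperRightHom_entries (K := K) (n 0 0 / n 1 1 * x)
  apply gl_ext
  · rw [m1, m1', e1, e3, e1', e2', hn]; ring
  · rw [m2, m2', e2, e4, e1', e2']; field_simp; ring
  · rw [m3, m3', e1, e3, e3', e4', hn]; ring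
  · rw [m4, m4', e2, e4, e3', e4', hn]; ring

theorem chi_mul_mem (n : stabilizer G (∞ : OnePoint K)) {x : K} (hx : x ∈ Aadd G) :
    ((chi G n : Kˣ) : K) * x ∈ Aadd G := by
  have hn := (mem_stab_infty G n.1).mp n.2
  rw [mem_Aadd, chi_val, ← conj_upperRight hn]
  exact G.mul_mem (G.mul_mem n.1.2 hx) (G.inv_mem n.1.2)

theorem card_range_le [Finite G] {x₁ : K} (hx₁ : x₁ ∈ Aadd G) (h0 : x₁ ≠ 0) :
    Nat.card (chi G).range + 1 ≤ Nat.card (Aadd G) := by
  haveI := finite_Aadd G
  have hsub : ({0} : Set K) ⊆ (Aadd G : Set K) := by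
    intro y hy
    rw [Set.mem_singleton_iff] at hy
    rw [hy]
    exact (Aadd G).zero_mem
  have hcard : ((Aadd G : Set K) \ {0}).ncard + 1 = Nat.card (Aadd G) := by
    rw [Set.ncard_sdiff hsub (Set.toFinite _), Set.ncard_singleton]
    have : ((Aadd G : Set K)).ncard = Nat.card (Aadd G) := Nat.card_coe_set_eq _
    rw [this]
    have : 0 < Nat.card (Aadd G) := Nat.card_pos
    omega
  rw [← hcard]
  apply Nat.succ_le_succ
  rw [← Nat.card_coe_set_eq ((Aadd G : Set K) \ {0})]
  have hmem : ∀ s : (chi G).range, (s.1 : K) * x₁ ∈ (Aadd G : Set K) \ {0} := by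
    rintro ⟨s, n, rfl⟩
    refine ⟨chi_mul_mem G n hx₁, ?_⟩
    rw [Set.mem_singleton_iff]
    exact mul_ne_zero (Units.ne_zero _) h0
  refine Nat.card_le_card_of_injective (fun s => ⟨(s.1 : K) * x₁, hmem s⟩) ?_
  intro s t hst
  have h := congrArg Subtype.val hst
  have h2 : (s.1 : K) = (t.1 : K) := mul_right_cancel₀ h0 h
  exact Subtype.ext (Units.ext h2)

end torus

section final

open Fermat.Agent.TW.ParCount69 Fermat.Agent.TW.OrbitCount69 Fermat.Agent.TW.OrbitCountSet69

variable (G : Subgroup (GL (Fin 2) K)) {p : ℕ} [Fact p.Prime] [CharP K p]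

/-- **Dickson-type count**: a finite subgroup `G ≤ SL₂(K)` (`K` algebraically closed of odd
characteristic `p`), not contained in the upper triangular Borel subgroup, whose group of
translations `A = {x | u_x ∈ G}` has more than three elements, has a torus `{g₀₀/g₁₁ : g ∈ G ∩ B}`
of order at least `(|A| - 1)/2`. -/
theorem torus_card_ge [IsAlgClosed K] [Finite G] (hp2 : p ≠ 2)
    (hdet : ∀ g ∈ G, g.val.det = 1) (hnotB : ∃ g ∈ G, g 1 0 ≠ 0)
    (hq : 3 < Nat.card (Aadd G)) :
    Nat.card (Aadd G) ≤ 2 * Nat.card (chi G).range + 1 := by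
  classical
  haveI := finite_Aadd G
  haveI : NeZero (2 : K) := neZero_two hp2
  -- a nonzero translation
  have hA : ∃ a ∈ Aadd G, a ≠ 0 := by
    have hnt : Nontrivial (Aadd G) := by
      rw [← Finite.one_lt_card_iff_nontrivial]; omega
    obtain ⟨a, ha⟩ := exists_ne (0 : Aadd G)
    exact ⟨a.1, a.2, fun h => ha (Subtype.ext h)⟩
  obtain ⟨x₁, hx₁, hx₁0⟩ := hA
  have he := card_range_le G hx₁ hx₁0
  obtain ⟨m, hm1, hD⟩ := card_orbit_form G hnotB
  have hstab := card_stab G hp2 hdet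
  have hG := card_orbit_mul_card_stabilizer (G := G) (∞ : OnePoint K)
  have hP := card_par (X := OnePoint K) (Zc G) (∞ : OnePoint K)
    (par_fixed_mem_orbit G hp2 hdet hnotB ⟨x₁, hx₁, hx₁0⟩)
  rw [card_par_stab G hp2 hdet] at hP
  -- names
  obtain ⟨t, ht⟩ : ∃ t, Nat.card (Aadd G) = t + 2 := ⟨Nat.card (Aadd G) - 2, by omega⟩
  haveI : Finite (chi G).range :=
    Finite.of_surjective (chi G).rangeRestrict (chi G).rangeRestrict_surjective
  have hepos : 0 < Nat.card (chi G).range := Nat.card_pos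
  obtain ⟨e', he'⟩ : ∃ e', Nat.card (chi G).range = e' + 1 :=
    ⟨Nat.card (chi G).range - 1, by omega⟩
  have hzpos : 0 < Nat.card (Zc G) := Nat.card_pos
  set z := Nat.card (Zc G) with hz
  rw [ht, he'] at hstab
  rw [ht] at hD hP
  rw [hD, hstab] at hG
  have hP' : {g : G | IsPar (X := OnePoint K) (Zc G) g}.ncard =
      (1 + (t + 2) * m) * (z * (t + 1)) := by
    rw [hP, hD]
    congr 1
    have : z * (t + 2) = z * (t + 1) + z := by ring
    omega
  have hmain := main_count_set (X := OnePoint K) (Zc G)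
    (fun g hg x => (mem_Zc_iff_forall G g).mp hg x)
    (fun g hg => ncard_fixedBy_one_or_two (not_scalar_of_not_mem_Zc G hg))
    (∞ : OnePoint K) ((1 + (t + 2) * m) * (z * (t + 1))) (z * ((t + 2) * e' + t + 1))
    (z * ((1 + (t + 2) * m) * (t + 2) * e' + 2 * (t + 2) * m)) hP'
    (by rw [hstab]; ring) (by rw [hD, ← hG]; ring)
    (Nat.mul_pos hzpos (by positivity))
    (by
      rw [← hG]
      have : (1 + (t + 2) * m) * ((e' + 1) * (z * (t + 2))) =
          z * ((1 + (t + 2) * m) * (t + 2) * e' + 2 * (t + 2) * m) +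
            z * (t + 2) * (1 + m * t) := by ring
      rw [this]
      have : 0 < z * (t + 2) * (1 + m * t) := by positivity
      omega)
  rw [← hG] at hmain
  have hsub : (1 + (t + 2) * m) * ((e' + 1) * (z * (t + 2))) -
      z * ((1 + (t + 2) * m) * (t + 2) * e' + 2 * (t + 2) * m) = z * (t + 2) * (1 + m * t) := by
    apply Nat.sub_eq_of_eq_add
    ring
  rw [hsub] at hmain
  have h2 : (1 + (t + 2) * m) * ((e' + 1) * (z * (t + 2))) =
      z * (t + 2) * ((1 + (t + 2) * m) * (e' + 1)) := by ring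
  rw [h2] at hmain
  have h3 : (1 + m * t) ∣ (1 + (t + 2) * m) * (e' + 1) :=
    Nat.dvd_of_mul_dvd_mul_left (by positivity) hmain
  have h4 : ((1 + (t + 2) * m) * t + 2) ∣ (1 + (t + 2) * m) * (t + 2) * (e' + 1) := by
    have e1 : (1 + (t + 2) * m) * t + 2 = (t + 2) * (1 + m * t) := by ring
    have e2 : (1 + (t + 2) * m) * (t + 2) * (e' + 1) =
        (t + 2) * ((1 + (t + 2) * m) * (e' + 1)) := by ring
    rw [e1, e2]
    exact Nat.mul_dvd_mul_left _ h3
  have hfin := arith_key t m (e' + 1) (by omega) hm1 (by omega) (by omega) h4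
  omega

end final

end Fermat.Agent.TW.DicksonCount69

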