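/-
Programme TW (S56), brick D3 support (helper69): Dickson-type count over an arbitrary field of odd
characteristic, in the exact shape requested by helper21 (message 685).
-/
import Fermat.Agent.TW.DicksonCount69

set_option autoImplicit false
set_option linter.unusedSectionVars false
set_option linter.style.haveILetI false

namespace Fermat.Agent.TW.DicksonField69

open Matrix MulAction OnePoint Matrix.GeneralLinearGroup Fermat.Agent.TW.DicksonCount69

variable {k : Type*} [Field k]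

/-- **Dickson-type count over an arbitrary field of odd characteristic** (base change of
`DicksonCount69.torus_card_ge` to the algebraic closure). -/
theorem torus_card_ge (p : ℕ) [Fact p.Prime] [CharP k p] (hp2 : p ≠ 2)
    (G : Subgroup (GL (Fin 2) k)) [Finite G] (hdet : ∀ g ∈ G, g.val.det = 1)
    (hmove : ∃ g ∈ G, g 1 0 ≠ 0) (A : AddSubgroup k)
    (hA : ∀ x, x ∈ A ↔ upperRightHom x ∈ G) (hA3 : 3 < Nat.card A)
    (W : Finset k) (hW : ∀ w, w ∈ W ↔ ∃ g ∈ G, g 1 0 = 0 ∧ w = g 0 0 / g 1 1) :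
    Nat.card A - 1 ≤ 2 * W.card := by
  classical
  let K := AlgebraicClosure k
  let φ : k →+* K := algebraMap k K
  have hφ : Function.Injective φ := (algebraMap k K).injective
  haveI : CharP K p := charP_of_injective_algebraMap hφ p
  let Φ : GL (Fin 2) k →* GL (Fin 2) K := GeneralLinearGroup.map φ
  have hΦ : ∀ (g : GL (Fin 2) k) (i j : Fin 2), (Φ g) i j = φ (g i j) := fun g i j =>
    GeneralLinearGroup.map_apply φ i j g
  set G' : Subgroup (GL (Fin 2) K) := G.map Φ with hG'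
  haveI : Finite G' := by
    have : Function.Surjective (fun g : G => (⟨Φ g.1, Subgroup.mem_map_of_mem Φ g.2⟩ : G')) := by
      rintro ⟨_, g, hg, rfl⟩
      exact ⟨⟨g, hg⟩, rfl⟩
    exact Finite.of_surjective _ this
  have hdet' : ∀ g ∈ G', g.val.det = 1 := by
    rintro _ ⟨g, hg, rfl⟩
    have h1 := hdet g hg
    rw [det_fin_two] at h1 ⊢
    have e : ∀ i j, (Φ g).val i j = φ (g.val i j) := fun i j => hΦ g i j
    rw [e, e, e, e, ← map_mul, ← map_mul, ← map_sub, h1, map_one]
  have hmove' : ∃ g ∈ G', g 1 0 ≠ 0 := by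
    obtain ⟨g, hg, h⟩ := hmove
    refine ⟨Φ g, Subgroup.mem_map_of_mem Φ hg, ?_⟩
    rw [hΦ]
    exact fun h0 => h (hφ (by rw [h0, map_zero]))
  -- translations
  have hAcard : Nat.card (Aadd G') = Nat.card A := by
    symm
    have hmem : ∀ a : A, φ a.1 ∈ Aadd G' := by
      intro a
      rw [mem_Aadd]
      refine ⟨upperRightHom a.1, (hA a.1).mp a.2, ?_⟩
      obtain ⟨e1, e2, e3, e4⟩ := upperRightHom_entries (K := k) a.1
      obtain ⟨f1, f2, f3, f4⟩ := upperRightHom_entries (K := K) (φ a.1)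
      apply gl_ext
      · rw [hΦ, e1, f1, map_one]
      · rw [hΦ, e2, f2]
      · rw [hΦ, e3, f3, map_zero]
      · rw [hΦ, e4, f4, map_one]
    refine Nat.card_congr (Equiv.ofBijective (fun a => ⟨φ a.1, hmem a⟩) ⟨?_, ?_⟩)
    · intro a b hab
      exact Subtype.ext (hφ (congrArg Subtype.val hab))
    · rintro ⟨x, hx⟩
      rw [mem_Aadd] at hx
      obtain ⟨g, hg, hgx⟩ := hx
      obtain ⟨f1, f2, f3, f4⟩ := upperRightHom_entries (K := K) x
      have h00 : g 0 0 = 1 := hφ (by rw [← hΦ, hgx, f1, map_one])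
      have h10 : g 1 0 = 0 := hφ (by rw [← hΦ, hgx, f3, map_zero])
      have h11 : g 1 1 = 1 := hφ (by rw [← hΦ, hgx, f4, map_one])
      have h01 : φ (g 0 1) = x := by rw [← hΦ, hgx, f2]
      have hgu : g = upperRightHom (g 0 1) := by
        obtain ⟨e1, e2, e3, e4⟩ := upperRightHom_entries (K := k) (g 0 1)
        apply gl_ext
        · rw [h00, e1]
        · rw [e2]
        · rw [h10, e3]
        · rw [h11, e4]
      refine ⟨⟨g 0 1, (hA _).mpr (by rw [← hgu]; exact hg)⟩, ?_⟩
      exact Subtype.ext h01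
  -- torus
  have hWcard : Nat.card (chi G').range = W.card := by
    rw [← Nat.card_eq_finsetCard W]
    symm
    have hne : ∀ w : W, φ w.1 ≠ 0 := by
      intro w
      obtain ⟨g, hg, h10, hw⟩ := (hW w.1).mp w.2
      have hd := diag_ne_zero h10
      rw [hw]
      exact fun h0 => (div_ne_zero hd.1 hd.2) (hφ (by rw [h0, map_zero]))
    have hmem : ∀ w : W, Units.mk0 (φ w.1) (hne w) ∈ (chi G').range := by
      intro w
      obtain ⟨g, hg, h10, hw⟩ := (hW w.1).mp w.2
      have hg' : Φ g ∈ G' := Subgroup.mem_map_of_mem Φ hg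
      have hst : (⟨Φ g, hg'⟩ : G') ∈ stabilizer G' (∞ : OnePoint K) := by
        rw [mem_stab_infty]
        show (Φ g) 1 0 = 0
        rw [hΦ, h10, map_zero]
      refine ⟨⟨⟨Φ g, hg'⟩, hst⟩, ?_⟩
      apply Units.ext
      rw [chi_val, Units.val_mk0]
      show (Φ g) 0 0 / (Φ g) 1 1 = φ w.1
      rw [hΦ, hΦ, ← map_div₀, ← hw]
    refine Nat.card_congr (Equiv.ofBijective (fun w => ⟨Units.mk0 (φ w.1) (hne w), hmem w⟩)
      ⟨?_, ?_⟩)
    · intro a b hab
      have h1 := congrArg (fun s : (chi G').range => ((s.1 : Kˣ) : K)) hab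
      exact Subtype.ext (hφ h1)
    · rintro ⟨s, ⟨⟨⟨g', hg'⟩, hst⟩, rfl⟩⟩
      obtain ⟨g, hg, rfl⟩ := hg'
      have h10' : (Φ g) 1 0 = 0 := (mem_stab_infty G' _).mp hst
      have h10 : g 1 0 = 0 := hφ (by rw [← hΦ, h10', map_zero])
      have hw : g 0 0 / g 1 1 ∈ W := (hW _).mpr ⟨g, hg, h10, rfl⟩
      refine ⟨⟨g 0 0 / g 1 1, hw⟩, ?_⟩
      apply Subtype.ext
      apply Units.ext
      rw [chi_val, Units.val_mk0]
      show φ (g 0 0 / g 1 1) = (Φ g) 0 0 / (Φ g) 1 1
      rw [hΦ, hΦ, map_div₀]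
  have hq : 3 < Nat.card (Aadd G') := by rw [hAcard]; exact hA3
  have h := DicksonCount69.torus_card_ge G' hp2 hdet' hmove' hq
  rw [hAcard, hWcard] at h
  omega

end Fermat.Agent.TW.DicksonField69
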