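/-
Programme TW (S56), brick D3 support (helper69): Sylow + Frattini + conjugation to normal form for
finite subgroups of `GL₂(k)`, `k` a finite field of characteristic `p`, in the exact shape requested
by helper21 (message 937) for `GrpH1.Normalized.vanish_normalized`.
-/
import Mathlib

set_option autoImplicit false
set_option linter.unusedSectionVars false
set_option linter.style.haveILetI false

namespace Fermat.Agent.TW.SylowNormal69

open Matrix Matrix.GeneralLinearGroup

variable {k : Type*} [Field k] {p : ℕ} [Fact p.Prime] [CharP k p]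

/-- a finite `p`-subgroup of `GL₂(k)` (`k` finite of characteristic `p`) fixes a nonzero vector -/
theorem exists_fixed_vector [Finite k] (P : Subgroup (GL (Fin 2) k)) (hP : IsPGroup p P) :
    ∃ v : Fin 2 → k, v ≠ 0 ∧ ∀ g ∈ P, g.val *ᵥ v = v := by
  classical
  -- the action of `P` on `Fin 2 → k`
  letI : MulAction P (Fin 2 → k) :=
    { smul := fun g v => g.1.val *ᵥ v
      one_smul := fun v => by show (1 : GL (Fin 2) k).val *ᵥ v = v; simp
      mul_smul := fun g h v => by
        show (g.1 * h.1).val *ᵥ v = g.1.val *ᵥ (h.1.val *ᵥ v)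
        rw [Units.val_mul, Matrix.mulVec_mulVec] }
  have hsmul : ∀ (g : P) (v : Fin 2 → k), g • v = g.1.val *ᵥ v := fun _ _ => rfl
  have hcard : p ∣ Nat.card (Fin 2 → k) := by
    have hk : p ∣ Nat.card k := by
      haveI : Fintype k := Fintype.ofFinite k
      obtain ⟨n, hn⟩ := FiniteField.card k p
      rw [Nat.card_eq_fintype_card, hn.2]
      exact dvd_pow_self p n.ne_zero
    rw [Nat.card_fun]
    simp only [Nat.card_eq_fintype_card, Fintype.card_fin]
    exact dvd_pow hk two_ne_zero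
  have h0 : (0 : Fin 2 → k) ∈ MulAction.fixedPoints P (Fin 2 → k) := by
    intro g
    rw [hsmul, Matrix.mulVec_zero]
  obtain ⟨v, hv, hne⟩ := hP.exists_fixed_point_of_prime_dvd_card_of_fixed_point (Fin 2 → k) hcard h0
  refine ⟨v, fun h => hne h.symm, fun g hg => ?_⟩
  have := hv ⟨g, hg⟩
  rwa [hsmul] at this


theorem gl_ext' {g h : GL (Fin 2) k} (h00 : g 0 0 = h 0 0) (h01 : g 0 1 = h 0 1)
    (h10 : g 1 0 = h 1 0) (h11 : g 1 1 = h 1 1) : g = h := by
  apply Units.ext
  ext i j
  fin_cases i <;> fin_cases j <;> assumption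

/-- an element of `p`-power order fixing `e₁` is a translation -/
theorem eq_upperRight_of_fix {g : GL (Fin 2) k} {n : ℕ} (hg : g ^ p ^ n = 1)
    (h00 : g 0 0 = 1) (h10 : g 1 0 = 0) : g = upperRightHom (g 0 1) := by
  have hdet : g.val.det = g 1 1 := by
    rw [det_fin_two, h00, h10]; ring
  have hd : g 1 1 ^ p ^ n = 1 := by
    rw [← hdet, ← Matrix.det_pow, ← Units.val_pow_eq_pow_val, hg, Units.val_one, det_one]
  have hd1 : g 1 1 = 1 := by
    have : (g 1 1 - 1) ^ p ^ n = 0 := by
      rw [sub_pow_char_pow, hd, one_pow, sub_self]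
    exact sub_eq_zero.mp (pow_eq_zero_iff (pow_ne_zero n (Fact.out : p.Prime).ne_zero) |>.mp this)
  have e : (upperRightHom (g 0 1) : GL (Fin 2) k) 0 0 = 1 ∧
      (upperRightHom (g 0 1) : GL (Fin 2) k) 0 1 = g 0 1 ∧
      (upperRightHom (g 0 1) : GL (Fin 2) k) 1 0 = 0 ∧
      (upperRightHom (g 0 1) : GL (Fin 2) k) 1 1 = 1 := by
    simp [upperRightHom]
  obtain ⟨e1, e2, e3, e4⟩ := e
  apply gl_ext'
  · rw [h00, e1]
  · rw [e2]
  · rw [h10, e3]
  · rw [hd1, e4]

/-- a finite `p`-subgroup of `GL₂(k)` is conjugate into the group of upper unitriangular matrices -/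
theorem exists_conj_into_upper [Finite k] (P : Subgroup (GL (Fin 2) k)) (hP : IsPGroup p P) :
    ∃ h : GL (Fin 2) k, ∀ g ∈ P, ∃ x : k, h * g * h⁻¹ = upperRightHom x := by
  obtain ⟨v, hv0, hv⟩ := exists_fixed_vector P hP
  -- a matrix with first column `v`
  obtain ⟨M, hM⟩ : ∃ M : GL (Fin 2) k, M.val *ᵥ ![1, 0] = v := by
    by_cases h0 : v 0 = 0
    · have h1 : v 1 ≠ 0 := by
        intro h1
        apply hv0
        ext i
        fin_cases i
        · exact h0
        · exact h1
      refine ⟨GeneralLinearGroup.mkOfDetNeZero !![v 0, 1; v 1, 0] ?_, ?_⟩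
      · rw [det_fin_two_of]; simpa using h1
      · ext i
        fin_cases i <;> simp [GeneralLinearGroup.mkOfDetNeZero, Matrix.mulVec, dotProduct,
          Fin.sum_univ_two]
    · refine ⟨GeneralLinearGroup.mkOfDetNeZero !![v 0, 0; v 1, 1] ?_, ?_⟩
      · rw [det_fin_two_of]; simpa using h0
      · ext i
        fin_cases i <;> simp [GeneralLinearGroup.mkOfDetNeZero, Matrix.mulVec, dotProduct,
          Fin.sum_univ_two]
  refine ⟨M⁻¹, fun g hg => ?_⟩
  obtain ⟨n, hn⟩ := hP ⟨g, hg⟩
  have hgn : g ^ p ^ n = 1 := by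
    have := congrArg Subtype.val hn
    simpa using this
  set g' := M⁻¹ * g * M⁻¹⁻¹ with hg'
  have hfix : g'.val *ᵥ ![1, 0] = ![1, 0] := by
    have h1 : g'.val = M⁻¹.val * g.val * M.val := by
      rw [hg', inv_inv]; rfl
    rw [h1, ← Matrix.mulVec_mulVec, ← Matrix.mulVec_mulVec, hM, hv g hg, ← hM,
      Matrix.mulVec_mulVec, ← Units.val_mul, inv_mul_cancel, Units.val_one, Matrix.one_mulVec]
  have h00 : g' 0 0 = 1 := by
    have := congrFun hfix 0
    simpa [Matrix.mulVec, dotProduct, Fin.sum_univ_two] using this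
  have h10 : g' 1 0 = 0 := by
    have := congrFun hfix 1
    simpa [Matrix.mulVec, dotProduct, Fin.sum_univ_two] using this
  have hpow : g' ^ p ^ n = 1 := by
    rw [hg', inv_inv]
    have : M⁻¹ * g * M = (MulAut.conj M⁻¹) g := by simp
    rw [this, ← map_pow, hgn, map_one]
  exact ⟨g' 0 1, eq_upperRight_of_fix hpow h00 h10⟩

/-- an element normalising a nontrivial group of translations is upper triangular -/
theorem upper_of_conj_translation {b : GL (Fin 2) k} {x y : k} (hx : x ≠ 0)
    (h : b * upperRightHom x * b⁻¹ = upperRightHom y) : b 1 0 = 0 := by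
  rw [mul_inv_eq_iff_eq_mul] at h
  have h11 := congrArg (fun g : GL (Fin 2) k => g 1 1) h
  simp only [upperRightHom, Units.val_mul, Matrix.mul_apply, Fin.sum_univ_two] at h11
  simp at h11
  rcases h11 with h11 | h11
  · exact h11
  · exact absurd h11 hx

/-- **Sylow + Frattini + conjugation to normal form.** -/
theorem exists_normal_form {k : Type*} [Field k] [Finite k] (p : ℕ) [Fact p.Prime] [CharP k p]
    (Γ : Subgroup (GL (Fin 2) k)) (hp : p ∣ Nat.card Γ) :
    ∃ (h : GL (Fin 2) k) (P : Subgroup (GL (Fin 2) k)),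
      P ≤ Γ.map (MulAut.conj h).toMonoidHom ∧ P ≠ ⊥ ∧ (∀ g ∈ P, g 1 0 = 0) ∧
      (∀ g ∈ P, ∃ n : ℕ, g ^ (p ^ n) = 1) ∧
      ¬ p ∣ P.relIndex (Γ.map (MulAut.conj h).toMonoidHom) ∧
      (∀ g ∈ Γ.map (MulAut.conj h).toMonoidHom,
        ∃ b ∈ Γ.map (MulAut.conj h).toMonoidHom, b 1 0 = 0 ∧ b.val.det = g.val.det) := by
  classical
  -- a Sylow subgroup of `Γ`
  let P0 : Sylow p Γ := default
  have hP0ne : (P0 : Subgroup Γ) ≠ ⊥ := P0.ne_bot_of_dvd_card hp
  set P0' : Subgroup (GL (Fin 2) k) := (P0 : Subgroup Γ).map Γ.subtype with hP0'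
  have hP0'le : P0' ≤ Γ := by
    rintro _ ⟨g, _, rfl⟩
    exact g.2
  have hP0'p : IsPGroup p P0' := P0.2.map Γ.subtype
  obtain ⟨h, hh⟩ := exists_conj_into_upper P0' hP0'p
  set c : GL (Fin 2) k →* GL (Fin 2) k := (MulAut.conj h).toMonoidHom with hc
  have hcinj : Function.Injective c := (MulAut.conj h).injective
  have hcapp : ∀ g, c g = h * g * h⁻¹ := fun g => rfl
  have hcdet : ∀ g : GL (Fin 2) k, (c g).val.det = g.val.det := by
    intro g
    rw [hcapp, Units.val_mul, Units.val_mul, det_mul, det_mul, mul_comm, ← mul_assoc, ← det_mul,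
      ← Units.val_mul, inv_mul_cancel, Units.val_one, det_one, one_mul]
  refine ⟨h, P0'.map c, Subgroup.map_mono hP0'le, ?_, ?_, ?_, ?_, ?_⟩
  · -- nontrivial
    intro hbot
    apply hP0ne
    rw [Subgroup.map_eq_bot_iff_of_injective _ hcinj,
      Subgroup.map_eq_bot_iff_of_injective _ Γ.subtype_injective] at hbot
    exact hbot
  · -- upper triangular
    rintro _ ⟨g, hg, rfl⟩
    obtain ⟨x, hx⟩ := hh g hg
    rw [hcapp, hx]
    simp [upperRightHom]
  · -- p-power order
    rintro _ ⟨g, hg, rfl⟩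
    obtain ⟨n, hn⟩ := hP0'p ⟨g, hg⟩
    refine ⟨n, ?_⟩
    have := congrArg Subtype.val hn
    rw [← map_pow]
    simp only [SubmonoidClass.coe_pow, OneMemClass.coe_one] at this
    rw [this, map_one]
  · -- index
    rw [Subgroup.relIndex_map_map_of_injective _ _ hcinj, Subgroup.relIndex, hP0',
      Subgroup.subgroupOf, Subgroup.comap_map_eq_self_of_injective Γ.subtype_injective]
    exact P0.not_dvd_index
  · -- Frattini
    rintro _ ⟨g, hg, rfl⟩
    -- the determinant character on Γ
    let detΓ : Γ →* kˣ := (Matrix.GeneralLinearGroup.det).comp Γ.subtype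
    set N : Subgroup Γ := detΓ.ker with hN
    have hP0N : (P0 : Subgroup Γ) ≤ N := by
      intro u hu
      rw [hN, MonoidHom.mem_ker]
      obtain ⟨n, hn⟩ := P0.2 ⟨u, hu⟩
      have hn' : u ^ p ^ n = 1 := by
        have := congrArg Subtype.val hn
        simpa using this
      have h1 : (detΓ u) ^ p ^ n = 1 := by rw [← map_pow, hn', map_one]
      have h2 : ((detΓ u : kˣ) : k) ^ p ^ n = 1 := by
        rw [← Units.val_pow_eq_pow_val, h1, Units.val_one]
      have h3 : (((detΓ u : kˣ) : k) - 1) ^ p ^ n = 0 := by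
        rw [sub_pow_char_pow, h2, one_pow, sub_self]
      have h4 : ((detΓ u : kˣ) : k) = 1 :=
        sub_eq_zero.mp (pow_eq_zero_iff (pow_ne_zero n (Fact.out : p.Prime).ne_zero) |>.mp h3)
      exact Units.ext h4
    have hfr := Sylow.normalizer_sup_eq_top (P0.subtype hP0N)
    rw [Sylow.coe_subtype, Subgroup.subgroupOf_map_subtype, inf_eq_left.mpr hP0N] at hfr
    have hgmem : (⟨g, hg⟩ : Γ) ∈ (Subgroup.normalizer ((P0 : Subgroup Γ) : Set Γ) ⊔ N : Subgroup Γ) := by
      rw [hfr]; exact Subgroup.mem_top _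
    rw [← SetLike.mem_coe, Subgroup.mul_normal] at hgmem
    obtain ⟨n, hn, m, hm, hnm⟩ := hgmem
    refine ⟨c n.1, Subgroup.mem_map_of_mem c n.2, ?_, ?_⟩
    · -- upper triangular: `c n` normalises the translations `c P0'`
      obtain ⟨u, hu, hu1⟩ : ∃ u ∈ (P0 : Subgroup Γ), u ≠ 1 := by
        by_contra hcon
        push Not at hcon
        apply hP0ne
        rw [eq_bot_iff]
        intro u hu
        rw [Subgroup.mem_bot]
        exact hcon u hu
      have hu' : u.1 ∈ P0' := ⟨u, hu, rfl⟩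
      obtain ⟨x, hx⟩ := hh u.1 hu'
      have hx0 : x ≠ 0 := by
        rintro rfl
        rw [AddChar.map_zero_eq_one] at hx
        apply hu1
        apply Subtype.ext
        have : c u.1 = c 1 := by rw [hcapp, hx, map_one]
        exact hcinj this
      have hconj : n * u * n⁻¹ ∈ (P0 : Subgroup Γ) :=
        (Subgroup.mem_normalizer_iff.mp hn u).mp hu
      have hconj' : (n * u * n⁻¹).1 ∈ P0' := ⟨_, hconj, rfl⟩
      obtain ⟨y, hy⟩ := hh _ hconj'
      refine upper_of_conj_translation hx0 (y := y) ?_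
      rw [← hx, ← hy, ← hcapp, ← hcapp, ← map_inv, ← map_mul, ← map_mul]
      rfl
    · rw [hcdet, hcdet]
      have hm' : detΓ m = 1 := hm
      have h1 : detΓ (⟨g, hg⟩ : Γ) = detΓ n := by
        have : (fun x1 x2 => x1 * x2) n m = ⟨g, hg⟩ := hnm
        rw [← this]
        simp only [map_mul, hm', mul_one]
      have h2 := congrArg (fun u : kˣ => (u : k)) h1
      exact h2.symm

end Fermat.Agent.TW.SylowNormal69
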