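/-
Programme TW (S56), brick G2-6 part B (helper24): the Tate dual of `ad⁰ ρbar` over `𝔽_p` is
`ad⁰ ρbar ⊗ det` (trace pairing composed with a nonzero `𝔽_p`-linear functional `t : k → 𝔽_p`), and
the selection statement SEL(n) for `N = dual (ad0F ρbar p hchar)`.

* `Psi t b A : N` for a matrix `A`: the functional `Y ↦ t (tr (A · [Y]_b))`;
* `Psi_equivariant` : `N.ρ σ (Psi A) = Psi (ρ σ · A · adj (ρ σ))` (uses `det ρbar = ` cyclotomic);
* `Psi_injective`, `Psi_surjective` (on traceless matrices);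
* `sel` : a cocycle `c : Γ → N` which is not a coboundary is not a coboundary at some `σ` fixing
  `μ_{p^(n+1)}` with distinct eigenvalues (given brick D3 for the finite quotient).
-/
import Fermat.Agent.TW.SelAd24a
import Fermat.Agent.TW.SDefs72

set_option autoImplicit false

open Polynomial Matrix ExtCitation
open Fermat.Agent.TW.Interface Fermat.Agent.TW.GWIface97 Fermat.Agent.TW.SDefs72
open Fermat.Agent.TW.AdIrr24 Fermat.Agent.TW.AdIrrBC24 Fermat.Agent.TW.SelAd24a

namespace Fermat.Agent.TW.SelAd24b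

local notation "Γ" => (AlgebraicClosure ℚ ≃ₐ[ℚ] AlgebraicClosure ℚ)

variable {k : Type} [Field k] (ρbar : ResidualGaloisRep k) (p : ℕ) [Fact p.Prime]
  (hchar : (p : k) = 0) (b : Module.Basis (Fin 2) k ρbar.V)

/-! ### Matrices of elements of `ad0F` -/

/-- The matrix of an element of `ad0F` in the basis `b`. -/
noncomputable def matOf (Y : ad0F ρbar p hchar) : Matrix (Fin 2) (Fin 2) k :=
  LinearMap.toMatrix b b (ad0F.val ρbar p hchar Y)

theorem matOf_add (Y Y' : ad0F ρbar p hchar) :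
    matOf ρbar p hchar b (Y + Y') = matOf ρbar p hchar b Y + matOf ρbar p hchar b Y' := by
  unfold matOf
  rw [← map_add]
  rfl

theorem matOf_zero : matOf ρbar p hchar b 0 = 0 := by
  unfold matOf
  rw [← map_zero (LinearMap.toMatrix b b)]
  rfl

theorem matOf_trace (Y : ad0F ρbar p hchar) : (matOf ρbar p hchar b Y).trace = 0 := by
  unfold matOf
  rw [← LinearMap.trace_eq_matrix_trace k b]
  exact Ad0.trace_val (show Ad0 ρbar from Y)

theorem matOf_injective : Function.Injective (matOf ρbar p hchar b) := by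
  intro Y Y' h
  apply ad0F.val_injective ρbar p hchar
  exact (LinearMap.toMatrix b b).injective h

/-- The element of `ad0F` with a given traceless matrix. -/
noncomputable def ofMat (A : Matrix (Fin 2) (Fin 2) k) (hA : A.trace = 0) : ad0F ρbar p hchar :=
  ad0F.of ρbar p hchar (Ad0.mk ρbar (Matrix.toLin b b A) (by
    rw [LinearMap.trace_eq_matrix_trace k b, LinearMap.toMatrix_toLin, hA]))

theorem matOf_ofMat (A : Matrix (Fin 2) (Fin 2) k) (hA : A.trace = 0) :
    matOf ρbar p hchar b (ofMat ρbar p hchar b A hA) = A := by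
  unfold matOf ofMat
  rw [ad0F.val_of, Ad0.val_mk, LinearMap.toMatrix_toLin]

/-- The matrix of `σ · Y`. -/
theorem matOf_ρ (σ : Γ) (Y : ad0F ρbar p hchar) :
    matOf ρbar p hchar b ((ad0F ρbar p hchar).ρ σ Y)
      = (rhoM ρbar b σ : Matrix (Fin 2) (Fin 2) k) * matOf ρbar p hchar b Y
        * (rhoM ρbar b σ⁻¹ : Matrix (Fin 2) (Fin 2) k) := by
  unfold matOf
  rw [ad0F.val_ρ, rhoM_val, rhoM_val]
  unfold conj
  rw [LinearMap.toMatrix_mul, LinearMap.toMatrix_mul]

/-! ### The pairing -/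

/-- The functional `Y ↦ t (tr (A · [Y]_b))` on `ad0F`, as an element of the Tate dual. -/
noncomputable def Psi (t : k →+ ZMod p) (A : Matrix (Fin 2) (Fin 2) k) :
    dual (ad0F ρbar p hchar) :=
  (AddMonoidHom.toZModLinearMap p
    { toFun := fun Y => t ((A * matOf ρbar p hchar b Y).trace)
      map_zero' := by rw [matOf_zero, mul_zero, trace_zero, map_zero]
      map_add' := fun Y Y' => by rw [matOf_add, mul_add, trace_add, map_add] } :
    Module.Dual (ZMod p) (ad0F ρbar p hchar))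

theorem Psi_apply (t : k →+ ZMod p) (A : Matrix (Fin 2) (Fin 2) k) (Y : ad0F ρbar p hchar) :
    (show Module.Dual (ZMod p) (ad0F ρbar p hchar) from Psi ρbar p hchar b t A) Y
      = t ((A * matOf ρbar p hchar b Y).trace) := rfl

theorem Psi_ext {x y : dual (ad0F ρbar p hchar)}
    (h : ∀ Y : ad0F ρbar p hchar,
      (show Module.Dual (ZMod p) (ad0F ρbar p hchar) from x) Y
        = (show Module.Dual (ZMod p) (ad0F ρbar p hchar) from y) Y) : x = y :=
  LinearMap.ext h

theorem Psi_add (t : k →+ ZMod p) (A A' : Matrix (Fin 2) (Fin 2) k) :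
    Psi ρbar p hchar b t (A + A') = Psi ρbar p hchar b t A + Psi ρbar p hchar b t A' := by
  apply Psi_ext ρbar p hchar
  intro Y
  change t (((A + A') * matOf ρbar p hchar b Y).trace)
    = t ((A * matOf ρbar p hchar b Y).trace) + t ((A' * matOf ρbar p hchar b Y).trace)
  rw [add_mul, trace_add, map_add]

theorem Psi_sub (t : k →+ ZMod p) (A A' : Matrix (Fin 2) (Fin 2) k) :
    Psi ρbar p hchar b t (A - A') = Psi ρbar p hchar b t A - Psi ρbar p hchar b t A' := by
  apply Psi_ext ρbar p hchar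
  intro Y
  change t (((A - A') * matOf ρbar p hchar b Y).trace)
    = t ((A * matOf ρbar p hchar b Y).trace) - t ((A' * matOf ρbar p hchar b Y).trace)
  rw [sub_mul, trace_sub, map_sub]

/-- **Equivariance** of the pairing: the Tate dual of `ad⁰` is `ad⁰ ⊗ det`. -/
theorem Psi_equivariant (t : k →+ ZMod p)
    (hdet : (GaloisRepAdic.ofResidualGaloisRep ρbar).DetIsCyclotomic p)
    (σ : Γ) (A : Matrix (Fin 2) (Fin 2) k) :
    (dual (ad0F ρbar p hchar)).ρ σ (Psi ρbar p hchar b t A)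
      = Psi ρbar p hchar b t ((rhoM ρbar b σ : Matrix (Fin 2) (Fin 2) k) * A
          * (rhoM ρbar b σ : Matrix (Fin 2) (Fin 2) k).adjugate) := by
  apply Psi_ext ρbar p hchar
  intro Y
  change ((cycloChar p σ : (ZMod p)ˣ) : ZMod p) *
      t ((A * matOf ρbar p hchar b ((ad0F ρbar p hchar).ρ σ⁻¹ Y)).trace)
    = t (((rhoM ρbar b σ : Matrix (Fin 2) (Fin 2) k) * A
          * (rhoM ρbar b σ : Matrix (Fin 2) (Fin 2) k).adjugate * matOf ρbar p hchar b Y).trace)
  have hinv : ((rhoM ρbar b σ)⁻¹ : GL (Fin 2) k).val = (rhoM ρbar b σ⁻¹ : Matrix (Fin 2) (Fin 2) k) := by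
    rw [map_inv]
  rw [matOf_ρ, inv_inv, ← Select24.det_smul_cj, cj_def, hinv, det_rhoM_eq_cycloExp p ρbar b hdet σ]
  set R := (rhoM ρbar b σ : Matrix (Fin 2) (Fin 2) k)
  set R' := (rhoM ρbar b σ⁻¹ : Matrix (Fin 2) (Fin 2) k)
  set B := matOf ρbar p hchar b Y
  have e1 : (A * (R' * B * R)).trace = (R * A * R' * B).trace := by
    rw [← mul_assoc, ← mul_assoc, trace_mul_comm, ← mul_assoc, ← mul_assoc]
  rw [e1, smul_mul_assoc, trace_smul, Nat.cast_smul_eq_nsmul, map_nsmul, nsmul_eq_mul,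
    coe_cycloChar]

/-! ### Nondegeneracy -/

theorem Psi_injective (t : k →+ ZMod p) (u : k) (htu : t u ≠ 0) (h2 : (2 : k) ≠ 0)
    (A : Matrix (Fin 2) (Fin 2) k) (hA : A.trace = 0) (h : Psi ρbar p hchar b t A = 0) : A = 0 := by
  -- `tr (A B) = 0` for all traceless `B`
  have key : ∀ B : Matrix (Fin 2) (Fin 2) k, B.trace = 0 → (A * B).trace = 0 := by
    intro B hB
    by_contra hne
    apply htu
    have hB' : (((u / (A * B).trace) • B)).trace = 0 := by rw [trace_smul, hB, smul_zero]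
    have := congrArg (fun f : dual (ad0F ρbar p hchar) =>
      (show Module.Dual (ZMod p) (ad0F ρbar p hchar) from f)
        (ofMat ρbar p hchar b ((u / (A * B).trace) • B) hB')) h
    simp only at this
    rw [Psi_apply, matOf_ofMat, mul_smul_comm, trace_smul, smul_eq_mul,
      div_mul_cancel₀ _ hne] at this
    exact this
  have hA' := traceless_eq A hA
  have e1 := key !![0, 1; 0, 0] (by simp [trace_fin_two])
  have e2 := key !![0, 0; 1, 0] (by simp [trace_fin_two])
  have e3 := key !![1, 0; 0, -1] (by simp [trace_fin_two])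
  rw [hA'] at e1 e2 e3
  simp [trace_fin_two] at e1 e2 e3
  have e3' : A 0 0 = 0 := by
    have : (2 : k) * A 0 0 = 0 := by linear_combination e3
    exact (mul_eq_zero.mp this).resolve_left h2
  rw [hA', e1, e2, e3']
  ext i j
  fin_cases i <;> fin_cases j <;> simp

variable [Finite k]

/-- Traceless matrices. -/
abbrev Tr0 (k : Type) [Field k] : Type := {A : Matrix (Fin 2) (Fin 2) k // A.trace = 0}

theorem card_dual_eq :
    Nat.card (dual (ad0F ρbar p hchar)) = Nat.card (Tr0 k) := by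
  have e : ad0F ρbar p hchar ≃ Tr0 k :=
    { toFun := fun Y => ⟨matOf ρbar p hchar (stdBasis ρbar) Y,
        matOf_trace ρbar p hchar (stdBasis ρbar) Y⟩
      invFun := fun A => ofMat ρbar p hchar (stdBasis ρbar) A.1 A.2
      left_inv := fun Y => by
        apply matOf_injective ρbar p hchar (stdBasis ρbar)
        rw [matOf_ofMat]
      right_inv := fun A => by
        apply Subtype.ext
        exact matOf_ofMat ρbar p hchar (stdBasis ρbar) A.1 A.2 }
  have : Finite (ad0F ρbar p hchar) := Finite.of_equiv _ e.symm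
  have : Module.Finite (ZMod p) (ad0F ρbar p hchar) := Module.Finite.of_finite
  have h1 : Nat.card (dual (ad0F ρbar p hchar))
      = Nat.card (Module.Dual (ZMod p) (ad0F ρbar p hchar)) := rfl
  rw [h1, Module.natCard_eq_pow_finrank (K := ZMod p), Subspace.dual_finrank_eq,
    ← Module.natCard_eq_pow_finrank (K := ZMod p)]
  exact Nat.card_congr e

theorem Psi_surjective (t : k →+ ZMod p) (u : k) (htu : t u ≠ 0) (h2 : (2 : k) ≠ 0)
    (f : dual (ad0F ρbar p hchar)) :
    ∃ A : Matrix (Fin 2) (Fin 2) k, A.trace = 0 ∧ Psi ρbar p hchar b t A = f := by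
  have hinj : Function.Injective (fun A : Tr0 k => Psi ρbar p hchar b t A.1) := by
    intro A A' h
    apply Subtype.ext
    have h0 : Psi ρbar p hchar b t (A.1 - A'.1) = 0 := by
      rw [Psi_sub]
      exact sub_eq_zero.mpr h
    have := Psi_injective ρbar p hchar b t u htu h2 (A.1 - A'.1)
      (by rw [trace_sub, A.2, A'.2, sub_zero]) h0
    exact sub_eq_zero.mp this
  have : Finite (dual (ad0F ρbar p hchar)) := by
    apply Nat.finite_of_card_ne_zero
    rw [card_dual_eq ρbar p hchar]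
    exact Nat.card_ne_zero.mpr ⟨⟨⟨0, Matrix.trace_zero _ _⟩⟩, inferInstance⟩
  have hbij := hinj.bijective_of_nat_card_le (le_of_eq (card_dual_eq ρbar p hchar))
  obtain ⟨A, hA⟩ := hbij.2 f
  exact ⟨A.1, A.2, hA⟩

omit [Finite k] in
include hchar in
/-- A nonzero additive functional `k → 𝔽_p`. -/
theorem exists_functional : ∃ t : k →+ ZMod p, ∃ u : k, t u ≠ 0 := by
  let inst : Module (ZMod p) k := AddCommGroup.zmodModule (n := p) (fun x => by
    rw [nsmul_eq_mul, hchar, zero_mul])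
  have hfree : @Module.Free (ZMod p) k _ _ inst :=
    @Module.Free.of_divisionRing (ZMod p) k _ _ inst
  have hproj : @Module.Projective (ZMod p) _ k _ inst :=
    @Module.Projective.of_free (ZMod p) _ k _ inst hfree
  by_contra h
  push Not at h
  have key := (@Module.forall_dual_apply_eq_zero_iff k _ (ZMod p) _ inst hproj (1 : k)).mp
    (fun φ => h (@LinearMap.toAddMonoidHom _ _ _ _ _ _ _ _ inst _ _ φ) 1)
  exact one_ne_zero key

/-! ### SEL(n) -/

/-- **SEL(n)** for `N = dual (ad0F ρbar p hchar)`. -/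
theorem sel (h2 : (2 : k) ≠ 0) (habs : ρbar.IsAbsolutelyIrreducible)
    (hTW : ∀ (K : Type) [Field K] [Algebra k K] (G : Subgroup Γ), G.index = 2 →
      ∀ V : Submodule K (ρbar.baseChange K).V,
        (∀ σ ∈ G, ∀ x ∈ V, (ρbar.baseChange K).ρ σ x ∈ V) → V = ⊥ ∨ V = ⊤)
    (hdet : (GaloisRepAdic.ofResidualGaloisRep ρbar).DetIsCyclotomic p)
    (hsplit : ∀ σ : Γ, ∃ α β : k, LinearMap.charpoly (ρbar.ρ σ) = (X - C α) * (X - C β))
    (n : ℕ)
    (hD3 : Final24.AdjVanishing (QuotientGroup.lift (Cn p n ⊓ (rhoM ρbar b).ker) (rhoM ρbar b)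
      inf_le_right))
    (c : Γ → dual (ad0F ρbar p hchar))
    (hc : ∀ σ τ : Γ, c (σ * τ) = c σ + (dual (ad0F ρbar p hchar)).ρ σ (c τ))
    (hnc : ¬ ∃ m : dual (ad0F ρbar p hchar), ∀ σ : Γ,
      c σ = (dual (ad0F ρbar p hchar)).ρ σ m - m) :
    ∃ σ ∈ Cn p n, Good ρbar σ ∧
      c σ ∉ LinearMap.range ((dual (ad0F ρbar p hchar)).ρ σ - 1) := by
  obtain ⟨t, u, htu⟩ := exists_functional p hchar
  have hsurj := Psi_surjective ρbar p hchar b t u htu h2
  have hinj := Psi_injective ρbar p hchar b t u htu h2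
  choose ψ hψtr hψ using fun σ => hsurj (c σ)
  have hadjtr : ∀ (σ : Γ) (A : Matrix (Fin 2) (Fin 2) k), A.trace = 0 →
      ((rhoM ρbar b σ : Matrix (Fin 2) (Fin 2) k) * A
        * (rhoM ρbar b σ : Matrix (Fin 2) (Fin 2) k).adjugate).trace = 0 := by
    intro σ A hA
    rw [← Select24.det_smul_cj, trace_smul, cj_trace, hA, smul_zero]
  -- cocycle identity
  have hcoc : ∀ σ τ : Γ, ψ (σ * τ) = ψ σ + (rhoM ρbar b σ : Matrix (Fin 2) (Fin 2) k) * ψ τ
      * (rhoM ρbar b σ : Matrix (Fin 2) (Fin 2) k).adjugate := by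
    intro σ τ
    have h1 : Psi ρbar p hchar b t (ψ (σ * τ) - (ψ σ + (rhoM ρbar b σ : Matrix (Fin 2) (Fin 2) k)
        * ψ τ * (rhoM ρbar b σ : Matrix (Fin 2) (Fin 2) k).adjugate)) = 0 := by
      rw [Psi_sub, Psi_add, ← Psi_equivariant ρbar p hchar b t hdet, hψ, hψ, hψ, hc, sub_self]
    have := hinj _ (by rw [trace_sub, trace_add, hψtr, hψtr, hadjtr σ _ (hψtr τ), add_zero,
      sub_zero]) h1
    exact sub_eq_zero.mp this
  -- not a coboundary
  have hncob : ¬ ∃ Xm : Matrix (Fin 2) (Fin 2) k, Xm.trace = 0 ∧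
      ∀ σ, ψ σ = (rhoM ρbar b σ : Matrix (Fin 2) (Fin 2) k) * Xm
        * (rhoM ρbar b σ : Matrix (Fin 2) (Fin 2) k).adjugate - Xm := by
    rintro ⟨Xm, -, hXm⟩
    apply hnc
    refine ⟨Psi ρbar p hchar b t Xm, fun σ => ?_⟩
    rw [Psi_equivariant ρbar p hchar b t hdet, ← Psi_sub, ← hXm, hψ]
  obtain ⟨s, hsC, hsd, hs⟩ := Final24.exists_sel (AlgebraicClosure k)
    (hyp_rhoM ρbar b h2 habs hTW) (Cn p n) (commutator_le_Cn p n)
    (fun g hg => det_rhoM_of_mem_Cn p ρbar b hdet hg) ψ hψtr hcoc hncob hD3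
  refine ⟨s, hsC, (good_iff_discr_ne_zero ρbar b hsplit s).mpr hsd, ?_⟩
  rintro ⟨m, hm⟩
  apply hs
  obtain ⟨Am, hAmtr, hAm⟩ := hsurj m
  refine ⟨Am, hAmtr, ?_⟩
  have h1 : Psi ρbar p hchar b t (ψ s - ((rhoM ρbar b s : Matrix (Fin 2) (Fin 2) k) * Am
      * (rhoM ρbar b s : Matrix (Fin 2) (Fin 2) k).adjugate - Am)) = 0 := by
    rw [Psi_sub, Psi_sub, ← Psi_equivariant ρbar p hchar b t hdet, hψ, hAm, ← hm]
    simp
  have := hinj _ (by rw [trace_sub, trace_sub, hψtr, hAmtr, hadjtr s _ hAmtr, sub_zero,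
    sub_zero]) h1
  exact sub_eq_zero.mp this

end Fermat.Agent.TW.SelAd24b
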