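/-
Programme TW (S56), brick G2-6 part C (helper24): SEL(n) and SEL0(n) for `N = dual (ad0F ρbar p hchar)`,
UNCONDITIONAL (brick D3 of helper21/helper69 plugged into `SelAd24b.sel`).

* `exists_det_sq_ne_one` : for `p = 5` some `det (ρbar σ)² ≠ 1` (the mod-`p` cyclotomic character is
  surjective);
* `sel_final` : every cocycle `c : Γ → N` which is not a coboundary is not a coboundary at some
  `σ` fixing `μ_{p^(n+1)}` such that `ρbar σ` has distinct eigenvalues in `k`;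
* `sel0_final` : such `σ` exist.
-/
import Fermat.Agent.TW.SelAd24b
import Fermat.Agent.TW.GrpH1.Wrap
import Fermat.Agent.S14.Fields

set_option autoImplicit false

open Polynomial Matrix ExtCitation
open Fermat.Agent.TW.Interface Fermat.Agent.TW.GWIface97 Fermat.Agent.TW.SDefs72
open Fermat.Agent.TW.AdIrr24 Fermat.Agent.TW.AdIrrBC24 Fermat.Agent.TW.SelAd24a
  Fermat.Agent.TW.SelAd24b

namespace Fermat.Agent.TW.SelAd24c

local notation "Γ" => (AlgebraicClosure ℚ ≃ₐ[ℚ] AlgebraicClosure ℚ)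

variable {k : Type} [Field k] (ρbar : ResidualGaloisRep k) (p : ℕ) [Fact p.Prime]
  (hchar : (p : k) = 0)

/-- For `p = 5` (indeed for `p ≥ 5`) the determinant of `ρbar` takes a value whose square is not `1`. -/
theorem exists_det_sq_ne_one (b : Module.Basis (Fin 2) k ρbar.V)
    (hdet : (GaloisRepAdic.ofResidualGaloisRep ρbar).DetIsCyclotomic p) (hp5 : p = 5) :
    ∃ σ : Γ, (rhoM ρbar b σ : Matrix (Fin 2) (Fin 2) k).det ^ 2 ≠ 1 := by
  subst hp5
  have h5k : ((5 : ℕ) : k) = 0 := hdet.1 |> fun h => by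
    have : ((5 : ℕ) : k) ∈ IsLocalRing.maximalIdeal k := h
    rwa [IsLocalRing.maximalIdeal_eq_bot, Ideal.mem_bot] at this
  obtain ⟨σ, hσ⟩ := Fermat.Agent.S14.Fields.exists_cycloExp_eq 5
    (ZMod.unitOfCoprime 2 (by norm_num : Nat.Coprime 2 5))
  refine ⟨σ, ?_⟩
  rw [det_rhoM_eq_cycloExp 5 ρbar b hdet σ]
  rw [ZMod.coe_unitOfCoprime] at hσ
  -- `cycloExp ≡ 2 mod 5`
  have hmod : (cycloExp 5 σ : ℕ) % 5 = 2 := by
    have := (ZMod.natCast_eq_natCast_iff' _ _ _).mp hσ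
    simpa using this
  have hcast : ((cycloExp 5 σ : ℕ) : k) = 2 := by
    conv_lhs => rw [← Nat.mod_add_div (cycloExp 5 σ) 5]
    rw [hmod, Nat.cast_add, Nat.cast_mul, h5k, zero_mul, add_zero]
    norm_num
  rw [hcast]
  intro h
  -- `4 = 1` in `k` gives `3 = 0`, but `5 = 0` too, hence `1 = 0`
  have h3 : (3 : k) = 0 := by linear_combination h
  have h5 : (5 : k) = 0 := by exact_mod_cast h5k
  have : (1 : k) = 0 := by linear_combination 2 * h3 - h5
  exact one_ne_zero this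

variable [Finite k]

/-- **SEL(n), unconditional.** -/
theorem sel_final (hp2 : p ≠ 2) (habs : ρbar.IsAbsolutelyIrreducible)
    (hTW : ∀ (K : Type) [Field K] [Algebra k K] (G : Subgroup Γ), G.index = 2 →
      ∀ V : Submodule K (ρbar.baseChange K).V,
        (∀ σ ∈ G, ∀ x ∈ V, (ρbar.baseChange K).ρ σ x ∈ V) → V = ⊥ ∨ V = ⊤)
    (hdet : (GaloisRepAdic.ofResidualGaloisRep ρbar).DetIsCyclotomic p)
    (hsplit : ∀ σ : Γ, ∃ α β : k, LinearMap.charpoly (ρbar.ρ σ) = (X - C α) * (X - C β))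
    (n : ℕ) (c : Γ → dual (ad0F ρbar p hchar))
    (hc : ∀ σ τ : Γ, c (σ * τ) = c σ + (dual (ad0F ρbar p hchar)).ρ σ (c τ))
    (hnc : ¬ ∃ m : dual (ad0F ρbar p hchar), ∀ σ : Γ,
      c σ = (dual (ad0F ρbar p hchar)).ρ σ m - m) :
    ∃ σ ∈ Cn p n, Good ρbar σ ∧
      c σ ∉ LinearMap.range ((dual (ad0F ρbar p hchar)).ρ σ - 1) := by
  have hcharP : CharP k p := (CharP.charP_iff_prime_eq_zero (Fact.out : p.Prime)).mpr hchar
  have h2 : (2 : k) ≠ 0 := by
    intro h
    have h2' : ((2 : ℕ) : k) = 0 := by exact_mod_cast h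
    have := (CharP.cast_eq_zero_iff k p 2).mp h2'
    have hp := (Nat.prime_dvd_prime_iff_eq (Fact.out : p.Prime) Nat.prime_two).mp this
    exact hp2 hp
  set b := stdBasis ρbar
  exact sel ρbar p hchar b h2 habs hTW hdet hsplit n
    (Fermat.Agent.TW.GrpH1.Wrap.adjVanishing_quotient p hp2 (rhoM ρbar b) (AlgebraicClosure k)
      (hyp_rhoM ρbar b h2 habs hTW) (Cn p n) (commutator_le_Cn p n)
      (exists_det_sq_ne_one ρbar p b hdet)) c hc hnc

omit [Finite k] in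
include hchar in
/-- **SEL0(n).** -/
theorem sel0_final (hp2 : p ≠ 2) (habs : ρbar.IsAbsolutelyIrreducible)
    (hTW : ∀ (K : Type) [Field K] [Algebra k K] (G : Subgroup Γ), G.index = 2 →
      ∀ V : Submodule K (ρbar.baseChange K).V,
        (∀ σ ∈ G, ∀ x ∈ V, (ρbar.baseChange K).ρ σ x ∈ V) → V = ⊥ ∨ V = ⊤)
    (hsplit : ∀ σ : Γ, ∃ α β : k, LinearMap.charpoly (ρbar.ρ σ) = (X - C α) * (X - C β))
    (n : ℕ) : ∃ σ ∈ Cn p n, Good ρbar σ := by
  have hcharP : CharP k p := (CharP.charP_iff_prime_eq_zero (Fact.out : p.Prime)).mpr hchar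
  have h2 : (2 : k) ≠ 0 := by
    intro h
    have h2' : ((2 : ℕ) : k) = 0 := by exact_mod_cast h
    have := (CharP.cast_eq_zero_iff k p 2).mp h2'
    have hp := (Nat.prime_dvd_prime_iff_eq (Fact.out : p.Prime) Nat.prime_two).mp this
    exact hp2 hp
  exact exists_good_mem_Cn p ρbar h2 habs hTW hsplit n

end Fermat.Agent.TW.SelAd24c
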