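/-
Programme TW (S56), FINAL WIRING of pillar (S) and of the whole statement (helper61, integrator).

Everything that is already proved (pillars A, D, E; `Bridge`, `GoodAd0`, `GlobZero`, `ArchLe`,
`LocSO`, `LocFL` (B5), `LocUr`, `LocUnip`, `LocTW`, `TWKill` (G2)) is plugged in; the statement of
S56 is derived from EXACTLY the still-open brick, taken as an explicit hypothesis:

* `GWIface2_97.GWStatementW p`                (weak Greenberg–Wiles package, sub-programme C)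

`s56_of_open` is the literal frozen statement S56 under this hypothesis (collected in the structure
`OpenBricks`), so `Fermat/Agent/S56.lean` is a one-line call once it is a theorem.
-/
import Fermat.Agent.TW.SCount72
import Fermat.Agent.TW.SGlobArch9
import Fermat.Agent.TW.LocTW9
import Fermat.Agent.TW.LocalGen66
import Fermat.Agent.TW.SBridge58
import Fermat.Agent.TW.LocSO45
import Fermat.Agent.TW.LocUrS66
import Fermat.Agent.TW.LocUnipFinal66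
import Fermat.Agent.TW.B5.Adapt57.Final
import Fermat.Agent.TW.TWP59.TWKill59
import Fermat.Agent.TW.Assembly
import Fermat.Agent.TW.BrickA37
import Fermat.Agent.TW.DictFinal

set_option autoImplicit false
set_option linter.unusedSectionVars false

open Polynomial IsLocalRing

namespace Fermat.Agent.TW.SFinal61

open Fermat.Agent.TW.Interface Fermat.Agent.TW.SIface72 Fermat.Agent.TW.GWIface97
open Fermat.Agent.TW.GWIface2_97

variable (𝒪 : Type) [CommRing 𝒪] [IsDomain 𝒪] [IsDiscreteValuationRing 𝒪]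
  [IsAdicComplete (maximalIdeal 𝒪) 𝒪] [Finite (ResidueField 𝒪)] (p : ℕ) [Fact p.Prime]

/-- **S-BRIDGE** (`SBridge58`). -/
theorem bridge : Bridge 𝒪 p := Fermat.Agent.TW.SBridge58.bridge 𝒪 p

/-- **LOC-SO** (`LocSO45`). -/
theorem locSO : LocSO 𝒪 p := Fermat.Agent.TW.LocSO45.locSO 𝒪 p

/-- **LOC-UR** (`LocUrS66`). -/
theorem locUr : LocUr 𝒪 p := Fermat.Agent.TW.LocUrS66.locUr 𝒪 p

/-- **LOC-UNIP** (`LocUnipFinal66`). -/
theorem locUnip : LocUnip 𝒪 p := Fermat.Agent.TW.LocUnipFinal66.locUnip 𝒪 p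

/-- **LOC-TW**, from `LocTW9` and the existence of local Frobenius elements (`LocalGen66`). -/
theorem locTW : LocTW 𝒪 p :=
  Fermat.Agent.TW.LocTW9.locTW_of p 𝒪 Fermat.Agent.TW.LocalGen66.exists_frobenius_global

/-- **LOC-FL** (B5: `B5Main47` + `Adapt57`). -/
theorem locFL : LocFL 𝒪 p := Fermat.Agent.TW.B5.Adapt57.Final.locFL 𝒪 p

/-- **G2 = TWKill** (`TWKill59`). -/
theorem twKill : TWKill 𝒪 p := Fermat.Agent.TW.TWP59.TWKill59.twKill 𝒪 p

/-- The still-open bricks of S56. -/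
structure OpenBricks : Prop where
  gw : GWStatementW p

/-- **Pillar (S), strict-ordinary**, from the open brick. -/
theorem brickS_SO (hGW : GWStatementW p) : BrickS_SO 𝒪 p :=
  Fermat.Agent.TW.SCount72.brickS_of_bricks p _ _ (fun _ _ h => h.2) (bridge 𝒪 p)
    (Fermat.Agent.TW.SGlobArch9.goodAd0 𝒪 p) (Fermat.Agent.TW.SGlobArch9.globZero 𝒪 p)
    (Fermat.Agent.TW.SGlobArch9.archLe 𝒪 p) (locSO 𝒪 p) (locUnip 𝒪 p) (locUr 𝒪 p) (locTW 𝒪 p) hGW (twKill 𝒪 p)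

/-- **Pillar (S), flat**, from the open brick. -/
theorem brickS_FL (hGW : GWStatementW p) : BrickS_FL 𝒪 p :=
  Fermat.Agent.TW.SCount72.brickS_of_bricks p _ _ (fun _ _ h => h.2) (bridge 𝒪 p)
    (Fermat.Agent.TW.SGlobArch9.goodAd0 𝒪 p) (Fermat.Agent.TW.SGlobArch9.globZero 𝒪 p)
    (Fermat.Agent.TW.SGlobArch9.archLe 𝒪 p)
    (locFL 𝒪 p) (locUnip 𝒪 p) (locUr 𝒪 p) (locTW 𝒪 p) hGW (twKill 𝒪 p)

variable {𝒪}

/-- **S56 from the open brick**, in the literal shape of the frozen statement. -/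
theorem s56_of_open (p : ℕ) [Fact p.Prime] (hopen : OpenBricks p)
    (hp2 : p ≠ 2) (hp𝒪 : (p : 𝒪) ∈ maximalIdeal 𝒪)
    (ρbar : ResidualGaloisRep (ResidueField 𝒪))
    (habs : ρbar.IsAbsolutelyIrreducible)
    (hdet : (GaloisRepAdic.ofResidualGaloisRep ρbar).DetIsCyclotomic p)
    (hsplit : ∀ σ : AlgebraicClosure ℚ ≃ₐ[ℚ] AlgebraicClosure ℚ,
      ∃ α β : ResidueField 𝒪, LinearMap.charpoly (ρbar.ρ σ) = (X - C α) * (X - C β))
    (hTW : ∀ (K : Type) [Field K] [Algebra (ResidueField 𝒪) K]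
      (G : Subgroup (AlgebraicClosure ℚ ≃ₐ[ℚ] AlgebraicClosure ℚ)), G.index = 2 →
      ∀ V : Submodule K (ρbar.baseChange K).V,
        (∀ σ ∈ G, ∀ x ∈ V, (ρbar.baseChange K).ρ σ x ∈ V) → V = ⊥ ∨ V = ⊤)
    (S Smin : Finset ℕ) (hpSmin : p ∈ Smin) (hSmin : Smin ⊆ S) (hS : ∀ q ∈ S, q.Prime)
    (hmin : ∀ q : ℕ, q.Prime → q ≠ p → (q ∈ Smin ↔ ¬ ρbar.IsUnramifiedAt q)) :
    (∃ r : ℕ, ∀ n : ℕ, ∃ qv : Fin r → ℕ, Function.Injective qv ∧
      (∀ i, (qv i).Prime ∧ qv i ∉ S ∧ p ^ (n + 1) ∣ qv i - 1) ∧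
      (∀ i, ∀ P : ValuationSubring (AlgebraicClosure ℚ), P.LiesOverPrime (qv i) →
        ∀ φ : AlgebraicClosure ℚ ≃ₐ[ℚ] AlgebraicClosure ℚ, P.IsFrobeniusAt φ (qv i) →
          ∃ α β : ResidueField 𝒪, α ≠ β ∧ LinearMap.charpoly (ρbar.ρ φ) = (X - C α) * (X - C β)) ∧
      ∀ DQ : GaloisRep.DeformationRingData 𝒪 ρbar (fun _A _ _ _ ρ =>
          GaloisRep.strictOrdinaryCondition 𝒪 p (Smin ∪ Finset.univ.image qv) ρ ∧
            ∀ q ∈ Smin, q.Prime → q ≠ p → ρ.IsUnipotentOnInertiaAt q),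
        ∃ γ : MvPowerSeries (Fin r) 𝒪 →ₐ[𝒪] DQ.R, Function.Surjective γ) ∧
    (∃ r : ℕ, ∀ n : ℕ, ∃ qv : Fin r → ℕ, Function.Injective qv ∧
      (∀ i, (qv i).Prime ∧ qv i ∉ S ∧ p ^ (n + 1) ∣ qv i - 1) ∧
      (∀ i, ∀ P : ValuationSubring (AlgebraicClosure ℚ), P.LiesOverPrime (qv i) →
        ∀ φ : AlgebraicClosure ℚ ≃ₐ[ℚ] AlgebraicClosure ℚ, P.IsFrobeniusAt φ (qv i) →
          ∃ α β : ResidueField 𝒪, α ≠ β ∧ LinearMap.charpoly (ρbar.ρ φ) = (X - C α) * (X - C β)) ∧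
      ∀ DQ : GaloisRep.DeformationRingData 𝒪 ρbar (fun _A _ _ _ ρ =>
          GaloisRep.flatCondition 𝒪 p (Smin ∪ Finset.univ.image qv) ρ ∧
            ∀ q ∈ Smin, q.Prime → q ≠ p → ρ.IsUnipotentOnInertiaAt q),
        ∃ γ : MvPowerSeries (Fin r) 𝒪 →ₐ[𝒪] DQ.R, Function.Surjective γ) :=
  Fermat.Agent.TW.Assembly.s56_of_bricks p hp2 hp𝒪 (Fermat.Agent.TW.BrickA37.brickA 𝒪)
    (Fermat.Agent.TW.DictFinal.brickD_SO 𝒪 p) (Fermat.Agent.TW.DictFinal.brickD_FL 𝒪 p)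
    (brickS_SO 𝒪 p hopen.gw)
    (brickS_FL 𝒪 p hopen.gw)
    ρbar habs hdet hsplit hTW S Smin hpSmin hSmin hS hmin

end Fermat.Agent.TW.SFinal61
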