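import Mathlib
import Fermat.Agent.S53.EvalNilp
import Fermat.Agent.S53.CompleteQuot

/-!
# Programme TW (S56), brick A1: generators of the maximal ideal give a surjection from a power
series ring

`R` a complete Noetherian local `𝒪`-algebra whose residue field is generated by `𝒪` (exactly the
fields of `GaloisRep.DeformationRingData.R`), `𝒪` a complete local ring.  If `x : σ → m_R` (with
`σ` finite) generates `m_R` modulo `m_𝒪 R + m_R ^ 2`, then the `𝒪`-algebra map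
`𝒪⟦X_i : i ∈ σ⟧ → R`, `X_i ↦ x_i`, exists and is surjective.
-/

set_option autoImplicit false

noncomputable section

namespace Fermat.Agent.TW.PowerSurj23

open IsLocalRing MvPowerSeries Fermat.Agent.S53

variable {𝒪 : Type} [CommRing 𝒪]
variable {R : Type} [CommRing R] [IsLocalRing R] [Algebra 𝒪 R]
variable {σ : Type} [Finite σ]

section Eval

omit [Finite σ] in
theorem span_range_mk_pow_eq_bot (x : σ → R) (hx : ∀ i, x i ∈ maximalIdeal R) (n : ℕ) :
    Ideal.span (Set.range fun i => (Ideal.Quotient.mk (maximalIdeal R ^ (n + 1)) (x i))) ^ (n + 1)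
      = ⊥ := by
  rw [eq_bot_iff]
  have h1 : Ideal.span (Set.range fun i => (Ideal.Quotient.mk (maximalIdeal R ^ (n + 1)) (x i))) ≤
      (maximalIdeal R).map (Ideal.Quotient.mk (maximalIdeal R ^ (n + 1))) := by
    rw [Ideal.span_le]
    rintro _ ⟨i, rfl⟩
    exact Ideal.mem_map_of_mem _ (hx i)
  calc _ ≤ ((maximalIdeal R).map (Ideal.Quotient.mk (maximalIdeal R ^ (n + 1)))) ^ (n + 1) :=
        Ideal.pow_right_mono h1 _
    _ = ⊥ := by rw [← Ideal.map_pow, Ideal.map_quotient_self]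

variable [IsAdicComplete (maximalIdeal R) R]

/-- The `𝒪`-algebra map `𝒪⟦X⟧ → R` with `X i ↦ x i`, for `x i ∈ m_R` and `R` complete. -/
theorem exists_algHom_X (x : σ → R) (hx : ∀ i, x i ∈ maximalIdeal R) :
    ∃ γ : MvPowerSeries σ 𝒪 →ₐ[𝒪] R, ∀ i, γ (X i) = x i := by
  set u : ∀ n : ℕ, σ → QuotPow R n := fun n i => Ideal.Quotient.mk (maximalIdeal R ^ (n + 1)) (x i)
    with hu_def
  have hu : ∀ n, Ideal.span (Set.range (u n)) ^ (n + 1) = ⊥ := fun n =>
    span_range_mk_pow_eq_bot x hx n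
  set f : ∀ n : ℕ, MvPowerSeries σ 𝒪 →ₐ[𝒪] QuotPow R n := fun n => evalNilp (u n) (n + 1) (hu n)
    with hf_def
  have hcompat : ∀ n : ℕ, (quotPowFactor (𝒪 := 𝒪) R (Nat.le_succ n)).comp (f (n + 1)) = f n := by
    intro n
    apply eq_evalNilp
    intro i
    rw [AlgHom.comp_apply, hf_def]
    simp only
    rw [evalNilp_X]
    rfl
  obtain ⟨γ, hγ⟩ := exists_lift_of_compatible (𝒪 := 𝒪) R f hcompat
  refine ⟨γ, fun i => ?_⟩
  have hmem : ∀ n : ℕ, γ (X i) - x i ∈ maximalIdeal R ^ (n + 1) := by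
    intro n
    have h1 := DFunLike.congr_fun (hγ n) (X i)
    rw [AlgHom.comp_apply, hf_def] at h1
    simp only at h1
    rw [evalNilp_X] at h1
    have h2 : Ideal.Quotient.mk (maximalIdeal R ^ (n + 1)) (γ (X i)) =
        Ideal.Quotient.mk (maximalIdeal R ^ (n + 1)) (x i) := h1
    rwa [Ideal.Quotient.eq] at h2
  have hH : IsHausdorff (maximalIdeal R) R := inferInstance
  have h0 : γ (X i) - x i = 0 := by
    apply hH.haus
    intro n
    rw [SModEq.zero]
    have h3 : maximalIdeal R ^ (n + 1) ≤ maximalIdeal R ^ n := Ideal.pow_le_pow_right (Nat.le_succ n)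
    have h4 := h3 (hmem n)
    simpa [Ideal.smul_top_eq_map] using h4
  exact sub_eq_zero.mp h0

end Eval

section Surj

variable [IsLocalRing 𝒪] [IsNoetherianRing R]

omit [Finite σ] in
/-- Nakayama: generators modulo `m_𝒪 R + m_R ^ 2` generate `m_R` together with `m_𝒪`. -/
theorem maximalIdeal_eq_of_le [IsLocalHom (algebraMap 𝒪 R)] (x : σ → R)
    (hx : ∀ i, x i ∈ maximalIdeal R)
    (hgen : maximalIdeal R ≤ Ideal.span (Set.range x) ⊔
      (maximalIdeal 𝒪).map (algebraMap 𝒪 R) ⊔ maximalIdeal R ^ 2) :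
    maximalIdeal R = Ideal.span (Set.range x) ⊔ (maximalIdeal 𝒪).map (algebraMap 𝒪 R) := by
  apply le_antisymm
  · refine Submodule.le_of_le_smul_of_le_jacobson_bot (I := maximalIdeal R)
      (IsNoetherian.noetherian _) (maximalIdeal_le_jacobson _) ?_
    rw [smul_eq_mul, ← pow_two]
    exact hgen
  · refine sup_le ?_ ?_
    · rw [Ideal.span_le]
      rintro _ ⟨i, rfl⟩
      exact hx i
    · rw [Ideal.map_le_iff_le_comap]
      intro a ha
      rw [Ideal.mem_comap, mem_maximalIdeal, mem_nonunits_iff]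
      intro hu
      exact ha (isUnit_of_map_unit (algebraMap 𝒪 R) a hu)

/-- If `m_R = 𝔞 + m_𝒪 R`, the residue field is generated by `𝒪`, and `𝒪` is complete, then
`𝒪 → R ⧸ 𝔞` is surjective. -/
theorem surjective_algebraMap_quotient [IsPrecomplete (maximalIdeal 𝒪) 𝒪]
    (hres : Function.Surjective (residue R ∘ algebraMap 𝒪 R)) (𝔞 : Ideal R)
    (h𝔞 : maximalIdeal R = 𝔞 ⊔ (maximalIdeal 𝒪).map (algebraMap 𝒪 R)) :
    Function.Surjective (algebraMap 𝒪 (R ⧸ 𝔞)) := by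
  have h𝔞le : 𝔞 ≤ maximalIdeal R := h𝔞 ▸ le_sup_left
  have h𝔞top : 𝔞 ≠ ⊤ := fun h => (maximalIdeal.isMaximal R).ne_top (top_le_iff.mp (h ▸ h𝔞le))
  have : Nontrivial (R ⧸ 𝔞) := Ideal.Quotient.nontrivial_iff.mpr h𝔞top
  have : IsLocalRing (R ⧸ 𝔞) :=
    IsLocalRing.of_surjective' (Ideal.Quotient.mk 𝔞) Ideal.Quotient.mk_surjective
  have hmapeq : (maximalIdeal 𝒪).map (algebraMap 𝒪 (R ⧸ 𝔞)) =
      ((maximalIdeal 𝒪).map (algebraMap 𝒪 R)).map (Ideal.Quotient.mk 𝔞) := by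
    rw [Ideal.map_map]
    rfl
  have hne : (maximalIdeal 𝒪).map (algebraMap 𝒪 (R ⧸ 𝔞)) ≠ ⊤ := by
    intro htop
    have h1 : ((maximalIdeal 𝒪).map (algebraMap 𝒪 R)).map (Ideal.Quotient.mk 𝔞) ≤
        (maximalIdeal R).map (Ideal.Quotient.mk 𝔞) :=
      Ideal.map_mono (h𝔞 ▸ le_sup_right)
    rw [← hmapeq, htop, top_le_iff] at h1
    have h2 : (maximalIdeal R).map (Ideal.Quotient.mk 𝔞) = maximalIdeal (R ⧸ 𝔞) :=
      map_maximalIdeal_of_surjective _ Ideal.Quotient.mk_surjective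
    rw [h2] at h1
    exact (maximalIdeal.isMaximal (R ⧸ 𝔞)).ne_top h1
  have : IsHausdorff ((maximalIdeal 𝒪).map (algebraMap 𝒪 (R ⧸ 𝔞))) (R ⧸ 𝔞) :=
    IsHausdorff.of_isLocalRing _ _ hne
  apply surjective_of_mk_map_comp_surjective (I := maximalIdeal 𝒪) (algebraMap 𝒪 (R ⧸ 𝔞))
  intro y
  obtain ⟨y', rfl⟩ := Ideal.Quotient.mk_surjective y
  obtain ⟨y'', rfl⟩ := Ideal.Quotient.mk_surjective y'
  obtain ⟨a, ha⟩ := hres (residue R y'')
  refine ⟨a, ?_⟩
  rw [RingHom.comp_apply, Ideal.Quotient.eq]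
  have hmem : algebraMap 𝒪 R a - y'' ∈ maximalIdeal R := by
    rw [← Ideal.Quotient.eq]
    exact ha
  rw [h𝔞, Submodule.mem_sup] at hmem
  obtain ⟨s, hs, t, ht, hst⟩ := hmem
  have h3 : algebraMap 𝒪 (R ⧸ 𝔞) a - Ideal.Quotient.mk 𝔞 y'' = Ideal.Quotient.mk 𝔞 t := by
    have h4 : algebraMap 𝒪 (R ⧸ 𝔞) a = Ideal.Quotient.mk 𝔞 (algebraMap 𝒪 R a) := rfl
    rw [h4, ← map_sub, ← hst, map_add, Ideal.Quotient.eq_zero_iff_mem.mpr hs, zero_add]
  rw [h3, hmapeq]
  exact Ideal.mem_map_of_mem _ ht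

variable [IsAdicComplete (maximalIdeal 𝒪) 𝒪] [IsAdicComplete (maximalIdeal R) R]
  [IsLocalHom (algebraMap 𝒪 R)]

/-- **Brick A1a.** Generators of `m_R` modulo `m_𝒪 R + m_R ^ 2` give a surjection from the power
series ring. -/
theorem exists_surjective_of_generators
    (hres : Function.Surjective (residue R ∘ algebraMap 𝒪 R)) (x : σ → R)
    (hx : ∀ i, x i ∈ maximalIdeal R)
    (hgen : maximalIdeal R ≤ Ideal.span (Set.range x) ⊔
      (maximalIdeal 𝒪).map (algebraMap 𝒪 R) ⊔ maximalIdeal R ^ 2) :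
    ∃ γ : MvPowerSeries σ 𝒪 →ₐ[𝒪] R, (∀ i, γ (X i) = x i) ∧ Function.Surjective γ := by
  obtain ⟨γ, hγ⟩ := exists_algHom_X (𝒪 := 𝒪) x hx
  refine ⟨γ, hγ, ?_⟩
  have hmax := maximalIdeal_eq_of_le (𝒪 := 𝒪) x hx hgen
  set I : Ideal (MvPowerSeries σ 𝒪) := Ideal.span (Set.range (X : σ → MvPowerSeries σ 𝒪)) with hI
  have hImap : I.map (γ : MvPowerSeries σ 𝒪 →+* R) = Ideal.span (Set.range x) := by
    rw [hI, Ideal.map_span, ← Set.range_comp]
    congr 2
    funext i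
    exact hγ i
  have hmax' : maximalIdeal R = I.map (γ : MvPowerSeries σ 𝒪 →+* R) ⊔
      (maximalIdeal 𝒪).map (algebraMap 𝒪 R) := by rw [hImap]; exact hmax
  have hne : I.map (γ : MvPowerSeries σ 𝒪 →+* R) ≠ ⊤ := by
    intro htop
    rw [htop, top_sup_eq] at hmax'
    exact (maximalIdeal.isMaximal R).ne_top hmax'
  have : IsHausdorff (I.map (γ : MvPowerSeries σ 𝒪 →+* R)) R := IsHausdorff.of_isLocalRing _ _ hne
  have hsurj : Function.Surjective ((γ : MvPowerSeries σ 𝒪 →+* R)) := by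
    apply surjective_of_mk_map_comp_surjective (I := I) (γ : MvPowerSeries σ 𝒪 →+* R)
    intro y
    obtain ⟨a, ha⟩ := surjective_algebraMap_quotient (𝒪 := 𝒪) hres _ hmax' y
    refine ⟨C a, ?_⟩
    rw [RingHom.comp_apply, ← ha]
    have h1 : (γ : MvPowerSeries σ 𝒪 →+* R) (C a) = algebraMap 𝒪 R a := by
      have := γ.commutes a
      rwa [MvPowerSeries.algebraMap_apply, Algebra.algebraMap_self, RingHom.id_apply] at this
    rw [h1]
    rfl
  exact hsurj

end Surj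

end Fermat.Agent.TW.PowerSurj23
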