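import Mathlib

/-!
# Programme TW (S56), brick A1 (part 2): algebra maps to the dual numbers versus the cotangent space

`B` a local `k`-algebra (`k` a field) whose residue field is `k`.  Every linear functional `l` on
the cotangent space `m_B / m_B ^ 2` gives a `k`-algebra map `B → k[ε]`,
`y ↦ (c y, l (class of (y - c y)))`, where `c y ∈ k` is the residue of `y`; different functionals
give different maps.  Consequently `|k| ^ dim (m_B / m_B ^ 2) ≤ #Hom_k(B, k[ε])` when the latter
is finite.
-/

set_option autoImplicit false

noncomputable section

namespace Fermat.Agent.TW.TangentCount23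

open IsLocalRing

variable {k B : Type} [Field k] [CommRing B] [IsLocalRing B] [Algebra k B]

/-- The residue field of `B` is `k`. -/
def resEquiv (hres : Function.Surjective (residue B ∘ algebraMap k B)) : k ≃+* ResidueField B :=
  RingEquiv.ofBijective ((residue B).comp (algebraMap k B))
    ⟨((residue B).comp (algebraMap k B)).injective, hres⟩

variable (hres : Function.Surjective (residue B ∘ algebraMap k B))

@[simp] theorem resEquiv_apply (a : k) : resEquiv hres a = residue B (algebraMap k B a) := rfl

/-- The "constant coefficient" `B → k`. -/
def coef : B →+* k := ((resEquiv hres).symm : ResidueField B →+* k).comp (residue B)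

theorem resEquiv_coef (y : B) : resEquiv hres (coef hres y) = residue B y := by
  simp [coef]

@[simp] theorem coef_algebraMap (a : k) : coef hres (algebraMap k B a) = a := by
  apply (resEquiv hres).injective
  rw [resEquiv_coef, resEquiv_apply]

theorem residue_algebraMap_coef (y : B) :
    residue B (algebraMap k B (coef hres y)) = residue B y := by
  rw [← resEquiv_apply hres, resEquiv_coef]

theorem sub_coef_mem (y : B) : y - algebraMap k B (coef hres y) ∈ maximalIdeal B := by
  rw [← residue_eq_zero_iff, map_sub, residue_algebraMap_coef, sub_self]

theorem coef_eq_zero_of_mem {y : B} (hy : y ∈ maximalIdeal B) : coef hres y = 0 := by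
  apply (resEquiv hres).injective
  rw [resEquiv_coef, map_zero]
  exact (residue_eq_zero_iff y).mpr hy

/-- The class of `y - c y` in the cotangent space. -/
def tau (y : B) : CotangentSpace B :=
  (maximalIdeal B).toCotangent ⟨y - algebraMap k B (coef hres y), sub_coef_mem hres y⟩

theorem tau_of_mem {y : B} (hy : y ∈ maximalIdeal B) :
    tau hres y = (maximalIdeal B).toCotangent ⟨y, hy⟩ := by
  unfold tau
  congr 1
  apply Subtype.ext
  simp [coef_eq_zero_of_mem hres hy]

theorem tau_algebraMap (a : k) : tau hres (algebraMap k B a) = 0 := by
  unfold tau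
  have : (⟨algebraMap k B a - algebraMap k B (coef hres (algebraMap k B a)),
      sub_coef_mem hres _⟩ : maximalIdeal B) = 0 := by
    apply Subtype.ext
    simp
  rw [this, map_zero]

theorem tau_add (y z : B) : tau hres (y + z) = tau hres y + tau hres z := by
  unfold tau
  rw [← map_add]
  congr 1
  apply Subtype.ext
  simp only [map_add, Submodule.coe_add]
  ring

theorem tau_mul (y z : B) :
    tau hres (y * z) = residue B y • tau hres z + residue B z • tau hres y := by
  set cy := algebraMap k B (coef hres y) with hcy
  set cz := algebraMap k B (coef hres z) with hcz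
  have hy := sub_coef_mem hres y
  have hz := sub_coef_mem hres z
  have hsplit : (⟨y * z - algebraMap k B (coef hres (y * z)), sub_coef_mem hres _⟩ :
      maximalIdeal B) =
      (⟨(y - cy) * (z - cz), Ideal.mul_mem_right _ _ hy⟩ : maximalIdeal B) +
        (cy • (⟨z - cz, hz⟩ : maximalIdeal B) + cz • (⟨y - cy, hy⟩ : maximalIdeal B)) := by
    apply Subtype.ext
    simp only [map_mul, Submodule.coe_add, Submodule.coe_smul, smul_eq_mul]
    ring
  have hsq : (maximalIdeal B).toCotangent
      (⟨(y - cy) * (z - cz), Ideal.mul_mem_right _ _ hy⟩ : maximalIdeal B) = 0 := by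
    rw [Ideal.toCotangent_eq_zero, pow_two]
    exact Ideal.mul_mem_mul hy hz
  have hsm : ∀ (c : B) (v : CotangentSpace B), c • v = residue B c • v := by
    intro c v
    exact (algebraMap_smul (ResidueField B) c v).symm
  have hry : residue B cy = residue B y := residue_algebraMap_coef hres y
  have hrz : residue B cz = residue B z := residue_algebraMap_coef hres z
  unfold tau
  rw [hsplit, map_add, hsq, zero_add, map_add, map_smul, map_smul, hsm cy, hsm cz, hry, hrz]

/-- The algebra map `B → k[ε]` attached to a functional on the cotangent space. -/
def ofFunctional (l : CotangentSpace B →ₗ[ResidueField B] ResidueField B) :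
    B →ₐ[k] DualNumber k where
  toFun y := TrivSqZeroExt.inl (coef hres y) +
    TrivSqZeroExt.inr ((resEquiv hres).symm (l (tau hres y)))
  map_one' := by
    have h1 : tau hres (1 : B) = 0 := by
      have := tau_algebraMap hres (1 : k)
      rwa [map_one] at this
    simp [h1]
  map_mul' y z := by
    rw [tau_mul, map_add, map_smul, map_smul, map_add]
    simp only [smul_eq_mul, map_mul]
    rw [← resEquiv_coef hres y, ← resEquiv_coef hres z]
    simp only [RingEquiv.symm_apply_apply]
    ext
    · simp
    · simp only [TrivSqZeroExt.snd_add, TrivSqZeroExt.snd_inl, TrivSqZeroExt.snd_inr,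
        TrivSqZeroExt.snd_mul, TrivSqZeroExt.fst_add, TrivSqZeroExt.fst_inl,
        TrivSqZeroExt.fst_inr, zero_add, add_zero, smul_eq_mul, MulOpposite.smul_eq_mul_unop,
        MulOpposite.unop_op]
      ring
  map_zero' := by
    have h0 : tau hres (0 : B) = 0 := by
      have := tau_algebraMap hres (0 : k)
      rwa [map_zero] at this
    simp [h0]
  map_add' y z := by
    rw [tau_add, map_add, map_add, map_add]
    simp only [TrivSqZeroExt.inl_add, TrivSqZeroExt.inr_add]
    abel
  commutes' a := by
    rw [tau_algebraMap, map_zero, map_zero, coef_algebraMap]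
    simp [TrivSqZeroExt.algebraMap_eq_inl]

theorem snd_ofFunctional (l : CotangentSpace B →ₗ[ResidueField B] ResidueField B) (y : B) :
    (ofFunctional hres l y).snd = (resEquiv hres).symm (l (tau hres y)) := by
  simp [ofFunctional]

theorem ofFunctional_injective : Function.Injective (ofFunctional (k := k) (B := B) hres) := by
  intro l l' h
  apply LinearMap.ext
  intro v
  obtain ⟨⟨y, hy⟩, rfl⟩ := (maximalIdeal B).toCotangent_surjective v
  have h1 := congrArg TrivSqZeroExt.snd (DFunLike.congr_fun h y)
  rw [snd_ofFunctional, snd_ofFunctional, tau_of_mem hres hy] at h1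
  exact (resEquiv hres).symm.injective h1

/-- **Counting.** `|k| ^ dim (m_B / m_B ^ 2) ≤ #Hom_k(B, k[ε])`. -/
theorem pow_finrank_le_card [Finite k] [IsNoetherianRing B] [Finite (B →ₐ[k] DualNumber k)]
    (hres : Function.Surjective (residue B ∘ algebraMap k B)) :
    Nat.card k ^ Module.finrank (ResidueField B) (CotangentSpace B) ≤
      Nat.card (B →ₐ[k] DualNumber k) := by
  have hfin : Finite (ResidueField B) := Finite.of_equiv k (resEquiv hres).toEquiv
  have hcardk : Nat.card (ResidueField B) = Nat.card k :=
    (Nat.card_congr (resEquiv hres).toEquiv).symm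
  have h1 : Nat.card (CotangentSpace B →ₗ[ResidueField B] ResidueField B) =
      Nat.card k ^ Module.finrank (ResidueField B) (CotangentSpace B) := by
    have e := (Module.finBasis (ResidueField B) (CotangentSpace B)).toDualEquiv
    have hV : Finite (CotangentSpace B) := Module.finite_of_finite (ResidueField B)
    rw [← Nat.card_congr e.toEquiv, Module.natCard_eq_pow_finrank (K := ResidueField B), hcardk]
  rw [← h1]
  exact Nat.card_le_card_of_injective _ (ofFunctional_injective hres)

end Fermat.Agent.TW.TangentCount23
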