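import Mathlib
import Fermat.Agent.TW.PowerSurj23
import Fermat.Agent.TW.TangentCount23

/-!
# Programme TW (S56), brick A1b: a bound on `#Hom_𝒪(R, k[ε])` gives a surjection from a power
series ring in that many variables

`𝒪` a complete local ring with finite residue field `k`, `R` a complete Noetherian local
`𝒪`-algebra with residue field `k` (the shape of `GaloisRep.DeformationRingData.R`).  If the set of
`𝒪`-algebra maps `R → k[ε]` injects into a finite set of cardinality `≤ |k| ^ r`, then there is a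
surjective `𝒪`-algebra map `𝒪⟦X_1, …, X_r⟧ → R`.
-/

set_option autoImplicit false
set_option linter.unusedSectionVars false

noncomputable section

namespace Fermat.Agent.TW.PowerSurjCount23

open IsLocalRing MvPowerSeries

variable {𝒪 : Type} [CommRing 𝒪] [IsLocalRing 𝒪]
variable {R : Type} [CommRing R] [IsLocalRing R] [Algebra 𝒪 R] [IsLocalHom (algebraMap 𝒪 R)]

variable (𝒪 R) in
/-- The ideal `m_𝒪 R`. -/
abbrev baseIdeal : Ideal R := (maximalIdeal 𝒪).map (algebraMap 𝒪 R)

theorem baseIdeal_le : baseIdeal 𝒪 R ≤ maximalIdeal R := by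
  rw [baseIdeal, Ideal.map_le_iff_le_comap]
  intro a ha
  rw [Ideal.mem_comap, mem_maximalIdeal, mem_nonunits_iff]
  intro hu
  exact ha (isUnit_of_map_unit (algebraMap 𝒪 R) a hu)

variable (𝒪 R) in
/-- The special fibre `R ⧸ m_𝒪 R`. -/
abbrev Fibre : Type := R ⧸ baseIdeal 𝒪 R

local instance fibre_nontrivial : Nontrivial (Fibre 𝒪 R) :=
  Ideal.Quotient.nontrivial_iff.mpr fun h =>
    (maximalIdeal.isMaximal R).ne_top (top_le_iff.mp (h ▸ baseIdeal_le))

local instance fibre_isLocalRing : IsLocalRing (Fibre 𝒪 R) :=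
  IsLocalRing.of_surjective' (Ideal.Quotient.mk (baseIdeal 𝒪 R)) Ideal.Quotient.mk_surjective

/-- The structure map `k → R ⧸ m_𝒪 R`. -/
def fibreMap : ResidueField 𝒪 →+* Fibre 𝒪 R :=
  Ideal.quotientMap (baseIdeal 𝒪 R) (algebraMap 𝒪 R) Ideal.le_comap_map

local instance fibre_algebra : Algebra (ResidueField 𝒪) (Fibre 𝒪 R) := (fibreMap (𝒪 := 𝒪) (R := R)).toAlgebra

theorem fibre_algebraMap_residue (a : 𝒪) :
    algebraMap (ResidueField 𝒪) (Fibre 𝒪 R) (residue 𝒪 a) =
      Ideal.Quotient.mk (baseIdeal 𝒪 R) (algebraMap 𝒪 R a) := rfl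

local instance fibre_isScalarTower : IsScalarTower 𝒪 (ResidueField 𝒪) (Fibre 𝒪 R) :=
  IsScalarTower.of_algebraMap_eq fun _ => rfl

theorem maximalIdeal_fibre :
    maximalIdeal (Fibre 𝒪 R) = (maximalIdeal R).map (Ideal.Quotient.mk (baseIdeal 𝒪 R)) :=
  (map_maximalIdeal_of_surjective _ Ideal.Quotient.mk_surjective).symm

theorem fibre_hres (hres : Function.Surjective (residue R ∘ algebraMap 𝒪 R)) :
    Function.Surjective (residue (Fibre 𝒪 R) ∘ algebraMap (ResidueField 𝒪) (Fibre 𝒪 R)) := by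
  intro z
  obtain ⟨z', rfl⟩ := residue_surjective z
  obtain ⟨y, rfl⟩ := Ideal.Quotient.mk_surjective z'
  obtain ⟨a, ha⟩ := hres (residue R y)
  refine ⟨residue 𝒪 a, ?_⟩
  rw [Function.comp_apply, fibre_algebraMap_residue, ← sub_eq_zero, ← map_sub, ← map_sub,
    residue_eq_zero_iff, maximalIdeal_fibre]
  refine Ideal.mem_map_of_mem _ ?_
  rw [← residue_eq_zero_iff, map_sub, sub_eq_zero]
  exact ha

/-- `k`-algebra maps out of the special fibre give `𝒪`-algebra maps out of `R`. -/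
def ofFibre (ψ : Fibre 𝒪 R →ₐ[ResidueField 𝒪] DualNumber (ResidueField 𝒪)) :
    R →ₐ[𝒪] DualNumber (ResidueField 𝒪) :=
  (ψ.restrictScalars 𝒪).comp (Ideal.Quotient.mkₐ 𝒪 (baseIdeal 𝒪 R))

theorem ofFibre_injective : Function.Injective (ofFibre (𝒪 := 𝒪) (R := R)) := by
  intro ψ ψ' h
  apply AlgHom.ext
  intro z
  obtain ⟨y, rfl⟩ := Ideal.Quotient.mk_surjective z
  exact DFunLike.congr_fun h y


section Main

variable [IsNoetherianRing R]

/-- A generating family of `m_R` modulo `m_𝒪 R`, indexed by `Fin r`, as soon as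
`dim m_F / m_F ^ 2 ≤ r` for the special fibre `F`. -/
theorem exists_generators {r : ℕ}
    (hd : Module.finrank (ResidueField (Fibre 𝒪 R)) (CotangentSpace (Fibre 𝒪 R)) ≤ r) :
    ∃ x : Fin r → R, (∀ i, x i ∈ maximalIdeal R) ∧
      maximalIdeal R ≤ Ideal.span (Set.range x) ⊔ baseIdeal 𝒪 R := by
  -- a generating finset of the maximal ideal of the fibre with `finrank` elements
  have hfg : (maximalIdeal (Fibre 𝒪 R)).FG := (maximalIdeal (Fibre 𝒪 R)).fg_of_isNoetherianRing
  obtain ⟨s, hscard, hsspan⟩ := Submodule.FG.exists_span_finset_card_eq_spanFinrank hfg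
  have hrank : Module.finrank (ResidueField (Fibre 𝒪 R)) (CotangentSpace (Fibre 𝒪 R)) =
      (maximalIdeal (Fibre 𝒪 R)).spanFinrank := by
    apply Module.finrank_eq_of_rank_eq
    rw [rank_cotangentSpace_eq_spanrank_maximalIdeal, Submodule.FG.spanRank_eq_spanFinrank hfg]
  have hsr : s.card ≤ r := by rw [hscard, ← hrank]; exact hd
  -- enumerate `s` by `Fin r`, padding with zeros
  let g : Fin r → Fibre 𝒪 R := fun j =>
    if h : j.val < s.card then (s.equivFin.symm ⟨j.val, h⟩ : Fibre 𝒪 R) else 0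
  have hsg : (s : Set (Fibre 𝒪 R)) ⊆ Set.range g := by
    intro z hz
    have hz' : z ∈ s := hz
    set i := s.equivFin ⟨z, hz'⟩ with hi
    refine ⟨⟨i.val, lt_of_lt_of_le i.isLt hsr⟩, ?_⟩
    simp only [g]
    rw [dif_pos i.isLt]
    have : s.equivFin.symm ⟨i.val, i.isLt⟩ = ⟨z, hz'⟩ := by
      rw [Fin.eta, hi, Equiv.symm_apply_apply]
    rw [this]
  have hgmem : ∀ j, g j ∈ maximalIdeal (Fibre 𝒪 R) := by
    intro j
    simp only [g]
    split_ifs with h
    · rw [← hsspan]
      exact Submodule.subset_span (s.equivFin.symm ⟨j.val, h⟩).2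
    · exact Ideal.zero_mem _
  have hgspan : maximalIdeal (Fibre 𝒪 R) ≤ Ideal.span (Set.range g) := by
    rw [← hsspan]
    exact Submodule.span_mono hsg
  -- lift to `R`
  choose x hx using fun j => Ideal.Quotient.mk_surjective (g j)
  refine ⟨x, fun i => ?_, ?_⟩
  · by_contra hni
    have hu : IsUnit (x i) := by
      rwa [mem_maximalIdeal, mem_nonunits_iff, not_not] at hni
    have hu' : IsUnit (g i) := by
      rw [← hx i]
      exact hu.map _
    exact (mem_maximalIdeal _).mp (hgmem i) hu'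
  · have hmapspan : (Ideal.span (Set.range x)).map (Ideal.Quotient.mk (baseIdeal 𝒪 R)) =
        Ideal.span (Set.range g) := by
      rw [Ideal.map_span, ← Set.range_comp]
      congr 2
      funext j
      exact hx j
    intro u hu
    have h1 : Ideal.Quotient.mk (baseIdeal 𝒪 R) u ∈
        (Ideal.span (Set.range x)).map (Ideal.Quotient.mk (baseIdeal 𝒪 R)) := by
      rw [hmapspan]
      apply hgspan
      rw [maximalIdeal_fibre]
      exact Ideal.mem_map_of_mem _ hu
    rw [Ideal.mem_map_iff_of_surjective _ Ideal.Quotient.mk_surjective] at h1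
    obtain ⟨w, hw, hwu⟩ := h1
    have h2 : u - w ∈ baseIdeal 𝒪 R := by
      rw [← Ideal.Quotient.eq, hwu]
    have : u = w + (u - w) := by ring
    rw [this]
    exact Ideal.add_mem _ (Ideal.mem_sup_left hw) (Ideal.mem_sup_right h2)

variable [IsAdicComplete (maximalIdeal 𝒪) 𝒪] [IsAdicComplete (maximalIdeal R) R]
  [Finite (ResidueField 𝒪)]

/-- **Brick A1b.** If the `𝒪`-algebra maps `R → k[ε]` inject into a finite set with at most
`|k| ^ r` elements, then `R` is a quotient of `𝒪⟦X_1, …, X_r⟧`. -/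
theorem exists_surjective_of_injective
    (hres : Function.Surjective (residue R ∘ algebraMap 𝒪 R)) {T : Type*} [Finite T]
    (f : (R →ₐ[𝒪] DualNumber (ResidueField 𝒪)) → T) (hf : Function.Injective f) (r : ℕ)
    (hT : Nat.card T ≤ Nat.card (ResidueField 𝒪) ^ r) :
    ∃ γ : MvPowerSeries (Fin r) 𝒪 →ₐ[𝒪] R, Function.Surjective γ := by
  have hfinHom : Finite (R →ₐ[𝒪] DualNumber (ResidueField 𝒪)) := Finite.of_injective f hf
  have hfinFib : Finite (Fibre 𝒪 R →ₐ[ResidueField 𝒪] DualNumber (ResidueField 𝒪)) :=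
    Finite.of_injective _ (ofFibre_injective (𝒪 := 𝒪) (R := R))
  have h1 := TangentCount23.pow_finrank_le_card (k := ResidueField 𝒪) (B := Fibre 𝒪 R)
    (fibre_hres hres)
  have h2 : Nat.card (Fibre 𝒪 R →ₐ[ResidueField 𝒪] DualNumber (ResidueField 𝒪)) ≤
      Nat.card (R →ₐ[𝒪] DualNumber (ResidueField 𝒪)) :=
    Nat.card_le_card_of_injective _ (ofFibre_injective (𝒪 := 𝒪) (R := R))
  have h3 : Nat.card (R →ₐ[𝒪] DualNumber (ResidueField 𝒪)) ≤ Nat.card T :=
    Nat.card_le_card_of_injective f hf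
  have hk : 1 < Nat.card (ResidueField 𝒪) := Finite.one_lt_card
  have hd : Module.finrank (ResidueField (Fibre 𝒪 R)) (CotangentSpace (Fibre 𝒪 R)) ≤ r :=
    (Nat.pow_le_pow_iff_right hk).mp (h1.trans (h2.trans (h3.trans hT)))
  obtain ⟨x, hx, hgen⟩ := exists_generators (𝒪 := 𝒪) (R := R) hd
  obtain ⟨γ, -, hγ⟩ := PowerSurj23.exists_surjective_of_generators (𝒪 := 𝒪) hres x hx
    (hgen.trans le_sup_left)
  exact ⟨γ, hγ⟩

/-- **Brick A1b, cardinality form.** -/
theorem exists_surjective_of_card_le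
    (hres : Function.Surjective (residue R ∘ algebraMap 𝒪 R))
    [Finite (R →ₐ[𝒪] DualNumber (ResidueField 𝒪))] (r : ℕ)
    (hcard : Nat.card (R →ₐ[𝒪] DualNumber (ResidueField 𝒪)) ≤ Nat.card (ResidueField 𝒪) ^ r) :
    ∃ γ : MvPowerSeries (Fin r) 𝒪 →ₐ[𝒪] R, Function.Surjective γ :=
  exists_surjective_of_injective hres id Function.injective_id r hcard

end Main

end Fermat.Agent.TW.PowerSurjCount23
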