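import Mathlib
import Fermat.Agent.TW.Dict23
import Fermat.Agent.TW.PowerSurjCount23

/-!
# Programme TW (S56), brick A assembled: a Selmer-type bound gives the surjection

If the `rbar`-derivations `d` for which `rbar + ε d` is a continuous lift of type `𝒟` are
classified, modulo inner derivations, by a finite set `T` with at most `|k| ^ r` elements, then the
deformation ring `DQ.R` is a quotient of `𝒪⟦X_1, …, X_r⟧`.
-/

set_option autoImplicit false

noncomputable section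

namespace Fermat.Agent.TW.ABrick23

open Fermat.Agent.S53 IsLocalRing DualLift23

variable {𝒪 : Type} [CommRing 𝒪] [IsDomain 𝒪] [IsDiscreteValuationRing 𝒪]
  [IsAdicComplete (maximalIdeal 𝒪) 𝒪] [Finite (ResidueField 𝒪)]
variable {ρbar : ResidualGaloisRep (ResidueField 𝒪)}
variable {𝒟 : ∀ ⦃A : Type⦄ [CommRing A] [IsLocalRing A] [Algebra 𝒪 A], GaloisRepAdic A → Prop}

/-- The derivations giving continuous lifts of type `𝒟` over `k[ε]`. -/
def TypeDer (𝒟 : ∀ ⦃A : Type⦄ [CommRing A] [IsLocalRing A] [Algebra 𝒪 A], GaloisRepAdic A → Prop)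
    {rbar : GQ →* M2 (ResidueField 𝒪)} (hrbar : GaloisFactorsThroughFiniteLevel rbar) : Type :=
  {d : GQ → M2 (ResidueField 𝒪) // ∃ (hd : IsDer rbar d) (hc : IsContDer d),
    𝒟 (ofMatrix (liftMat rbar d hd) (matCont_liftMat hrbar hd hc))}

/-- **Brick A.** -/
theorem exists_surjective_of_classes (DQ : GaloisRep.DeformationRingData 𝒪 ρbar 𝒟)
    {rbar : GQ →* M2 (ResidueField 𝒪)} (hrbar : GaloisFactorsThroughFiniteLevel rbar)
    (hρbar : ρbar.IsEquiv (ofMatrixRes rbar hrbar))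
    (h𝒟bc : ∀ (φ : DQ.R →ₐ[𝒪] DualNumber (ResidueField 𝒪))
      (hφ : IsLocalHom (φ : DQ.R →+* DualNumber (ResidueField 𝒪))),
      𝒟 (DQ.ρ.baseChangeAlong (φ : DQ.R →+* DualNumber (ResidueField 𝒪)) hφ))
    (h𝒟iso : ∀ ρ₁ ρ₂ : GaloisRepAdic (DualNumber (ResidueField 𝒪)),
      ρ₁.IsEquiv ρ₂ → 𝒟 ρ₁ → 𝒟 ρ₂)
    {T : Type*} [Finite T] (cls : TypeDer 𝒟 hrbar → T)
    (hcls : ∀ d d' : TypeDer 𝒟 hrbar, cls d = cls d' →
      ∃ M : M2 (ResidueField 𝒪), ∀ σ, d'.1 σ = d.1 σ + (M * rbar σ - rbar σ * M))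
    (r : ℕ) (hT : Nat.card T ≤ Nat.card (ResidueField 𝒪) ^ r) :
    ∃ γ : MvPowerSeries (Fin r) 𝒪 →ₐ[𝒪] DQ.R, Function.Surjective γ := by
  obtain ⟨F, hF1, hF2⟩ := Dict23.exists_der_of_algHom DQ hrbar hρbar h𝒟bc h𝒟iso
  refine PowerSurjCount23.exists_surjective_of_injective DQ.residue_surjective
    (fun φ => cls ⟨F φ, hF1 φ⟩) ?_ r hT
  intro φ ψ h
  exact hF2 φ ψ (hcls _ _ h)

end Fermat.Agent.TW.ABrick23
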