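/-
Programme TW (S56), group theory for brick G2 (choice of Taylor–Wiles primes), part D1 (helper24).

Setting: `K` a field with `2 ≠ 0` in which every element is a square (e.g. algebraically closed),
`ρ : G →* GL (Fin 2) K`.  `Hyp ρ` says: no line of `K²` is stable under `G` ("absolutely irreducible")
and no line is stable under a subgroup of index `2` (the Taylor–Wiles hypothesis).

Main results (all for traceless `2 × 2` matrices, i.e. `ad⁰`):
* `noStableLineAd`   : no line of `ad⁰` is stable under conjugation by `G`;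
* `exists_trace_ne_zero` : `ad⁰` is irreducible, in bilinear form: for nonzero traceless `X, Y` there is
  `g` with `tr (ρ g X (ρ g)⁻¹ Y) ≠ 0` (the trace form is nondegenerate, so this says that the
  conjugates of `X` span `ad⁰`);
* `eq_zero_of_twisted_invariant` : `(ad⁰ ⊗ χ)^G = 0` for any twist `χ`.
-/
import Mathlib

set_option autoImplicit false

namespace Fermat.Agent.TW.AdIrr24

open Matrix

variable {K : Type*} [Field K]

/-! ### `2 × 2` toolkit -/

/-- A traceless `2 × 2` matrix in normal form. -/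
theorem traceless_eq (X : Matrix (Fin 2) (Fin 2) K) (h : X.trace = 0) :
    X = !![X 0 0, X 0 1; X 1 0, -X 0 0] := by
  rw [trace_fin_two] at h
  have h11 : X 1 1 = -X 0 0 := by linear_combination h
  conv_lhs => rw [eta_fin_two X, h11]

/-- Cayley–Hamilton for a traceless `2 × 2` matrix. -/
theorem mul_self_of_trace_zero (X : Matrix (Fin 2) (Fin 2) K) (h : X.trace = 0) :
    X * X = (-X.det) • (1 : Matrix (Fin 2) (Fin 2) K) := by
  rw [traceless_eq X h]
  ext i j
  fin_cases i <;> fin_cases j <;> simp [Matrix.mul_apply, Fin.sum_univ_two, det_fin_two] <;> ring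

/-- `det (X - δ) = det X + δ²` for traceless `X`. -/
theorem det_sub_smul_one_of_trace_zero (X : Matrix (Fin 2) (Fin 2) K) (h : X.trace = 0) (δ : K) :
    (X - δ • (1 : Matrix (Fin 2) (Fin 2) K)).det = X.det + δ * δ := by
  rw [trace_fin_two] at h
  have h11 : X 1 1 = -X 0 0 := by linear_combination h
  simp [det_fin_two, h11]
  ring

/-- The kernel of a nonzero `2 × 2` matrix is at most a line. -/
theorem ker_line (A : Matrix (Fin 2) (Fin 2) K) (hA : A ≠ 0) (v w : Fin 2 → K) (hv : v ≠ 0)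
    (hAv : A *ᵥ v = 0) (hAw : A *ᵥ w = 0) : ∃ c : K, w = c • v := by
  have hD : v 0 * w 1 - v 1 * w 0 = 0 := by
    by_contra hD
    apply hA
    have e1 : ∀ i, A i 0 * v 0 + A i 1 * v 1 = 0 := fun i => by
      have := congrFun hAv i
      simpa [Matrix.mulVec, dotProduct, Fin.sum_univ_two] using this
    have e2 : ∀ i, A i 0 * w 0 + A i 1 * w 1 = 0 := fun i => by
      have := congrFun hAw i
      simpa [Matrix.mulVec, dotProduct, Fin.sum_univ_two] using this
    have z0 : ∀ i, A i 0 = 0 := fun i => by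
      have : A i 0 * (v 0 * w 1 - v 1 * w 0) = 0 := by
        linear_combination w 1 * e1 i - v 1 * e2 i
      exact (mul_eq_zero.mp this).resolve_right hD
    have z1 : ∀ i, A i 1 = 0 := fun i => by
      have : A i 1 * (v 0 * w 1 - v 1 * w 0) = 0 := by
        linear_combination v 0 * e2 i - w 0 * e1 i
      exact (mul_eq_zero.mp this).resolve_right hD
    ext i j
    fin_cases j
    · exact z0 i
    · exact z1 i
  by_cases h0 : v 0 = 0
  · have h1 : v 1 ≠ 0 := by
      intro h1
      apply hv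
      ext i
      fin_cases i
      · exact h0
      · exact h1
    refine ⟨w 1 / v 1, ?_⟩
    ext i
    fin_cases i
    · simp only [Fin.zero_eta, Pi.smul_apply, smul_eq_mul, h0, mul_zero]
      have : v 1 * w 0 = 0 := by rw [h0] at hD; linear_combination -hD
      exact (mul_eq_zero.mp this).resolve_left h1
    · simp only [Fin.mk_one, Pi.smul_apply, smul_eq_mul]
      field_simp
  · refine ⟨w 0 / v 0, ?_⟩
    ext i
    fin_cases i
    · simp only [Fin.zero_eta, Pi.smul_apply, smul_eq_mul]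
      field_simp
    · simp only [Fin.mk_one, Pi.smul_apply, smul_eq_mul]
      field_simp
      linear_combination hD

/-- Commuting traceless matrices are proportional (`2 ≠ 0`). -/
theorem exists_smul_of_commute (h2 : (2 : K) ≠ 0) (A B : Matrix (Fin 2) (Fin 2) K)
    (hA : A.trace = 0) (hB : B.trace = 0) (hA0 : A ≠ 0) (hAB : A * B = B * A) :
    ∃ t : K, B = t • A := by
  have hA' := traceless_eq A hA
  have hB' := traceless_eq B hB
  set a := A 0 0
  set b := A 0 1
  set c := A 1 0
  set a' := B 0 0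
  set b' := B 0 1
  set c' := B 1 0
  rw [hA', hB'] at hAB
  have e00 := congrFun (congrFun hAB 0) 0
  have e01 := congrFun (congrFun hAB 0) 1
  have e10 := congrFun (congrFun hAB 1) 0
  simp [Matrix.mul_apply, Fin.sum_univ_two] at e00 e01 e10
  have r1 : b * c' = b' * c := by linear_combination e00
  have r2 : a * b' = a' * b := by
    have : (2 : K) * (a * b' - a' * b) = 0 := by linear_combination e01
    have := (mul_eq_zero.mp this).resolve_left h2
    linear_combination this
  have r3 : c * a' = c' * a := by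
    have : (2 : K) * (c * a' - c' * a) = 0 := by linear_combination e10
    have := (mul_eq_zero.mp this).resolve_left h2
    linear_combination this
  have key : ∀ t : K, a' = t * a → b' = t * b → c' = t * c → B = t • A := by
    intro t h1 h2' h3
    rw [hA', hB']
    ext i j
    fin_cases i <;> fin_cases j <;> simp [h1, h2', h3]
  by_cases ha : a = 0
  · by_cases hb : b = 0
    · have hc : c ≠ 0 := by
        intro hc
        apply hA0
        rw [hA', ha, hb, hc]
        ext i j
        fin_cases i <;> fin_cases j <;> simp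
      refine ⟨c' / c, key _ ?_ ?_ ?_⟩
      · field_simp
        linear_combination r3
      · field_simp
        linear_combination -r1
      · field_simp
    · refine ⟨b' / b, key _ ?_ ?_ ?_⟩
      · field_simp
        linear_combination -r2
      · field_simp
      · field_simp
        linear_combination r1
  · refine ⟨a' / a, key _ ?_ ?_ ?_⟩
    · field_simp
    · field_simp
      linear_combination r2
    · field_simp
      linear_combination -r3

/-- Triple product: a traceless `Z` orthogonal (for the trace form) to traceless `X, X'` commutes with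
`[X, X']`. -/
theorem commute_bracket_of_orthogonal (X X' Z : Matrix (Fin 2) (Fin 2) K)
    (hX : X.trace = 0) (hX' : X'.trace = 0) (hZ : Z.trace = 0)
    (h1 : (Z * X).trace = 0) (h2 : (Z * X').trace = 0) :
    Z * (X * X' - X' * X) = (X * X' - X' * X) * Z := by
  have key : Z * (X * X' - X' * X) - (X * X' - X' * X) * Z
      = (2 * (Z * X).trace) • X' - (2 * (Z * X').trace) • X := by
    rw [traceless_eq X hX, traceless_eq X' hX', traceless_eq Z hZ]
    ext i j
    fin_cases i <;> fin_cases j <;>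
      simp [trace_fin_two] <;> ring
  rw [h1, h2] at key
  simp only [mul_zero, zero_smul, sub_self] at key
  exact sub_eq_zero.mp key

/-! ### Stable lines -/

variable {G : Type*} [Group G] (ρ : G →* GL (Fin 2) K)

/-- Some line of `K²` is stable under all `ρ g`, `g ∈ S`. -/
def HasStableLine (S : Set G) : Prop :=
  ∃ v : Fin 2 → K, v ≠ 0 ∧ ∀ g ∈ S, ∃ c : K, (ρ g : Matrix (Fin 2) (Fin 2) K) *ᵥ v = c • v

/-- Standing hypotheses: `2 ≠ 0`, every element of `K` is a square, `ρ` has no stable line, and neither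
has its restriction to any subgroup of index `2`. -/
structure Hyp : Prop where
  two_ne : (2 : K) ≠ 0
  sq : ∀ a : K, IsSquare a
  habs : ¬ HasStableLine ρ Set.univ
  hTW : ∀ H : Subgroup G, H.index = 2 → ¬ HasStableLine ρ (H : Set G)

variable {ρ}

theorem hasStableLine_of_nilpotent (S : Set G) (X : Matrix (Fin 2) (Fin 2) K) (hX : X ≠ 0)
    (hdet : X.det = 0)
    (h : ∀ g ∈ S, ∃ c : K, (ρ g : Matrix (Fin 2) (Fin 2) K) * X = c • (X * ρ g)) :
    HasStableLine ρ S := by
  obtain ⟨v, hv, hXv⟩ := exists_mulVec_eq_zero_iff.mpr hdet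
  refine ⟨v, hv, fun g hg => ?_⟩
  obtain ⟨c, hc⟩ := h g hg
  have hc0 : c ≠ 0 := by
    rintro rfl
    rw [zero_smul] at hc
    apply hX
    have : ((ρ g)⁻¹ : GL (Fin 2) K).val * ((ρ g : Matrix (Fin 2) (Fin 2) K) * X) = 0 := by
      rw [hc, mul_zero]
    rwa [← mul_assoc, Units.inv_mul, one_mul] at this
  have h1 : X *ᵥ ((ρ g : Matrix (Fin 2) (Fin 2) K) *ᵥ v) = 0 := by
    have : (c • (X * (ρ g : Matrix (Fin 2) (Fin 2) K))) *ᵥ v = 0 := by
      rw [← hc, ← mulVec_mulVec, hXv, mulVec_zero]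
    rw [smul_mulVec, ← mulVec_mulVec] at this
    exact (smul_eq_zero.mp this).resolve_left hc0
  obtain ⟨c', hc'⟩ := ker_line X hX v _ hv hXv h1
  exact ⟨c', hc'⟩

theorem hasStableLine_of_semisimple (S : Set G) (X : Matrix (Fin 2) (Fin 2) K)
    (htr : X.trace = 0) (hdet : X.det ≠ 0) (δ : K) (hδ : -X.det = δ * δ) (h2 : (2 : K) ≠ 0)
    (h : ∀ g ∈ S, (ρ g : Matrix (Fin 2) (Fin 2) K) * X = X * ρ g) :
    HasStableLine ρ S := by
  set A : Matrix (Fin 2) (Fin 2) K := X - δ • (1 : Matrix (Fin 2) (Fin 2) K) with hA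
  have hAdet : A.det = 0 := by
    rw [hA, det_sub_smul_one_of_trace_zero X htr, ← hδ]
    ring
  have hA0 : A ≠ 0 := by
    intro h0
    have hX : X = δ • (1 : Matrix (Fin 2) (Fin 2) K) := sub_eq_zero.mp h0
    have : X.trace = 2 * δ := by
      rw [hX, trace_smul, trace_one]
      simp
      ring
    rw [htr] at this
    have hδ0 : δ = 0 := (mul_eq_zero.mp this.symm).resolve_left h2
    apply hdet
    rw [hδ0, mul_zero] at hδ
    exact neg_eq_zero.mp hδ
  obtain ⟨v, hv, hAv⟩ := exists_mulVec_eq_zero_iff.mpr hAdet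
  refine ⟨v, hv, fun g hg => ?_⟩
  have hcomm : (ρ g : Matrix (Fin 2) (Fin 2) K) * A = A * ρ g := by
    rw [hA, mul_sub, sub_mul, h g hg]
    simp
  have h1 : A *ᵥ ((ρ g : Matrix (Fin 2) (Fin 2) K) *ᵥ v) = 0 := by
    rw [mulVec_mulVec, ← hcomm, ← mulVec_mulVec, hAv, mulVec_zero]
  obtain ⟨c', hc'⟩ := ker_line A hA0 v _ hv hAv h1
  exact ⟨c', hc'⟩

/-- The centraliser of a matrix in `G`. -/
def centralizerOf (ρ : G →* GL (Fin 2) K) (X : Matrix (Fin 2) (Fin 2) K) : Subgroup G where
  carrier := {g | (ρ g : Matrix (Fin 2) (Fin 2) K) * X = X * ρ g}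
  mul_mem' := by
    intro a b ha hb
    change (ρ a : Matrix (Fin 2) (Fin 2) K) * X = X * ρ a at ha
    change (ρ b : Matrix (Fin 2) (Fin 2) K) * X = X * ρ b at hb
    change (ρ (a * b) : Matrix (Fin 2) (Fin 2) K) * X = X * ρ (a * b)
    rw [map_mul, Units.val_mul, mul_assoc, hb, ← mul_assoc, ha, mul_assoc]
  one_mem' := by
    change (ρ 1 : Matrix (Fin 2) (Fin 2) K) * X = X * ρ 1
    simp
  inv_mem' := by
    intro a ha
    change (ρ a : Matrix (Fin 2) (Fin 2) K) * X = X * ρ a at ha
    change (ρ a⁻¹ : Matrix (Fin 2) (Fin 2) K) * X = X * ρ a⁻¹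
    rw [map_inv]
    have : ((ρ a)⁻¹ : GL (Fin 2) K).val * ((ρ a : Matrix (Fin 2) (Fin 2) K) * X) * ((ρ a)⁻¹ : GL (Fin 2) K).val
        = ((ρ a)⁻¹ : GL (Fin 2) K).val * (X * (ρ a : Matrix (Fin 2) (Fin 2) K)) * ((ρ a)⁻¹ : GL (Fin 2) K).val := by
      rw [ha]
    rw [← mul_assoc, Units.inv_mul, one_mul, mul_assoc, mul_assoc, Units.mul_inv, mul_one] at this
    exact this.symm

theorem mem_centralizerOf (X : Matrix (Fin 2) (Fin 2) K) (g : G) :
    g ∈ centralizerOf ρ X ↔ (ρ g : Matrix (Fin 2) (Fin 2) K) * X = X * ρ g := Iff.rfl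

/-- **No stable line in `ad⁰`.** -/
theorem noStableLineAd (hyp : Hyp ρ) (X : Matrix (Fin 2) (Fin 2) K) (hX : X ≠ 0)
    (htr : X.trace = 0) :
    ¬ ∀ g : G, ∃ c : K, (ρ g : Matrix (Fin 2) (Fin 2) K) * X * ((ρ g)⁻¹ : GL (Fin 2) K) = c • X := by
  intro h
  have h' : ∀ g : G, ∃ c : K, (ρ g : Matrix (Fin 2) (Fin 2) K) * X = c • (X * ρ g) := by
    intro g
    obtain ⟨c, hc⟩ := h g
    refine ⟨c, ?_⟩
    have : (ρ g : Matrix (Fin 2) (Fin 2) K) * X * ((ρ g)⁻¹ : GL (Fin 2) K) * (ρ g : Matrix (Fin 2) (Fin 2) K)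
        = c • X * (ρ g : Matrix (Fin 2) (Fin 2) K) := by rw [hc]
    rw [mul_assoc, Units.inv_mul, mul_one, smul_mul_assoc] at this
    exact this
  by_cases hdet : X.det = 0
  · exact hyp.habs (hasStableLine_of_nilpotent Set.univ X hX hdet (fun g _ => h' g))
  · obtain ⟨δ, hδ⟩ := hyp.sq (-X.det)
    have hsq := mul_self_of_trace_zero X htr
    -- every `g` commutes or anticommutes with `X`
    have hpm : ∀ g : G, (ρ g : Matrix (Fin 2) (Fin 2) K) * X = X * ρ g ∨
        (ρ g : Matrix (Fin 2) (Fin 2) K) * X = -(X * ρ g) := by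
      intro g
      obtain ⟨c, hc⟩ := h' g
      have e1 : (ρ g : Matrix (Fin 2) (Fin 2) K) * (X * X)
          = (c * c) • (X * X * (ρ g : Matrix (Fin 2) (Fin 2) K)) := by
        calc (ρ g : Matrix (Fin 2) (Fin 2) K) * (X * X)
            = ((ρ g : Matrix (Fin 2) (Fin 2) K) * X) * X := (mul_assoc _ _ _).symm
          _ = (c • (X * (ρ g : Matrix (Fin 2) (Fin 2) K))) * X := by rw [hc]
          _ = c • (X * ((ρ g : Matrix (Fin 2) (Fin 2) K) * X)) := by
              rw [smul_mul_assoc, mul_assoc]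
          _ = c • (X * (c • (X * (ρ g : Matrix (Fin 2) (Fin 2) K)))) := by rw [hc]
          _ = (c * c) • (X * X * (ρ g : Matrix (Fin 2) (Fin 2) K)) := by
              rw [mul_smul_comm, smul_smul, mul_assoc]
      rw [hsq] at e1
      simp only [mul_smul_comm, mul_one, smul_mul_assoc, one_mul, smul_smul] at e1
      have e2 : ((-X.det) - c * c * (-X.det)) • (ρ g : Matrix (Fin 2) (Fin 2) K) = 0 := by
        rw [sub_smul, e1, sub_self]
      have hg0 : (ρ g : Matrix (Fin 2) (Fin 2) K) ≠ 0 := by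
        intro h0
        have := (ρ g).mul_inv
        rw [h0, zero_mul] at this
        exact zero_ne_one this
      have e3 : (-X.det) - c * c * (-X.det) = 0 := (smul_eq_zero.mp e2).resolve_right hg0
      have e4 : (c - 1) * (c + 1) = 0 := by
        have : (-X.det) * ((c - 1) * (c + 1)) = 0 := by linear_combination -e3
        exact (mul_eq_zero.mp this).resolve_left (neg_ne_zero.mpr hdet)
      rcases mul_eq_zero.mp e4 with h1 | h1
      · left
        have : c = 1 := by linear_combination h1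
        rw [hc, this, one_smul]
      · right
        have : c = -1 := by linear_combination h1
        rw [hc, this, neg_smul, one_smul]
    have hXinv : ∀ Y : Matrix (Fin 2) (Fin 2) K, X * Y = 0 → Y = 0 := by
      intro Y hY
      have : X * (X * Y) = 0 := by rw [hY, mul_zero]
      rw [← mul_assoc, hsq, smul_mul_assoc, one_mul] at this
      exact (smul_eq_zero.mp this).resolve_left (neg_ne_zero.mpr hdet)
    have hstab : HasStableLine ρ (centralizerOf ρ X : Set G) :=
      hasStableLine_of_semisimple _ X htr hdet δ hδ hyp.two_ne (fun g hg => hg)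
    by_cases htop : ∀ g : G, g ∈ centralizerOf ρ X
    · apply hyp.habs
      obtain ⟨v, hv, hv'⟩ := hstab
      exact ⟨v, hv, fun g _ => hv' g (htop g)⟩
    · push Not at htop
      obtain ⟨a, ha⟩ := htop
      have ha' : (ρ a : Matrix (Fin 2) (Fin 2) K) * X = -(X * ρ a) :=
        (hpm a).resolve_left ha
      refine hyp.hTW (centralizerOf ρ X) ?_ hstab
      rw [Subgroup.index_eq_two_iff]
      refine ⟨a, fun b => ?_⟩
      have hba : (ρ (b * a) : Matrix (Fin 2) (Fin 2) K) * X
          = -((ρ b : Matrix (Fin 2) (Fin 2) K) * X * ρ a) := by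
        rw [map_mul, Units.val_mul, mul_assoc, ha', mul_neg, mul_assoc]
      by_cases hb : b ∈ centralizerOf ρ X
      · refine Or.inr ⟨hb, ?_⟩
        intro hba'
        rw [mem_centralizerOf] at hb hba'
        rw [hba, hb, map_mul, Units.val_mul, mul_assoc] at hba'
        have h0 : X * ((2 : K) • ((ρ b : Matrix (Fin 2) (Fin 2) K) * ρ a)) = 0 := by
          rw [mul_smul_comm, two_smul]
          have := hba'
          rw [neg_eq_iff_add_eq_zero] at this
          exact this
        have := hXinv _ h0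
        have h3 : ((ρ b : Matrix (Fin 2) (Fin 2) K) * ρ a) = 0 :=
          (smul_eq_zero.mp this).resolve_left hyp.two_ne
        have h4 := (ρ b * ρ a).mul_inv
        rw [Units.val_mul, h3, zero_mul] at h4
        exact zero_ne_one h4
      · refine Or.inl ⟨?_, hb⟩
        have hb' : (ρ b : Matrix (Fin 2) (Fin 2) K) * X = -(X * ρ b) := (hpm b).resolve_left hb
        rw [mem_centralizerOf, hba, hb', neg_mul, neg_neg, map_mul, Units.val_mul, mul_assoc]

/-- Conjugation by `ρ g`. -/
def cj (ρ : G →* GL (Fin 2) K) (g : G) (Z : Matrix (Fin 2) (Fin 2) K) :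
    Matrix (Fin 2) (Fin 2) K :=
  (ρ g : Matrix (Fin 2) (Fin 2) K) * Z * ((ρ g)⁻¹ : GL (Fin 2) K)

theorem cj_def (g : G) (Z : Matrix (Fin 2) (Fin 2) K) :
    cj ρ g Z = (ρ g : Matrix (Fin 2) (Fin 2) K) * Z * ((ρ g)⁻¹ : GL (Fin 2) K) := rfl

theorem cj_trace (g : G) (Z : Matrix (Fin 2) (Fin 2) K) : (cj ρ g Z).trace = Z.trace :=
  trace_units_conj (ρ g) Z

theorem cj_det (g : G) (Z : Matrix (Fin 2) (Fin 2) K) : (cj ρ g Z).det = Z.det :=
  det_units_conj (ρ g) Z

theorem cj_one (Z : Matrix (Fin 2) (Fin 2) K) : cj ρ 1 Z = Z := by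
  simp [cj_def]

theorem cj_mul (g h : G) (Z : Matrix (Fin 2) (Fin 2) K) : cj ρ g (cj ρ h Z) = cj ρ (g * h) Z := by
  simp only [cj_def, map_mul, Units.val_mul, _root_.mul_inv_rev, mul_assoc]

theorem cj_sub (g : G) (Z Z' : Matrix (Fin 2) (Fin 2) K) :
    cj ρ g (Z - Z') = cj ρ g Z - cj ρ g Z' := by
  simp only [cj_def, mul_sub, sub_mul]

theorem cj_add (g : G) (Z Z' : Matrix (Fin 2) (Fin 2) K) :
    cj ρ g (Z + Z') = cj ρ g Z + cj ρ g Z' := by
  simp only [cj_def, mul_add, add_mul]

theorem cj_smul (g : G) (c : K) (Z : Matrix (Fin 2) (Fin 2) K) :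
    cj ρ g (c • Z) = c • cj ρ g Z := by
  simp only [cj_def, mul_smul_comm, smul_mul_assoc]

theorem cj_zero (g : G) : cj ρ g (0 : Matrix (Fin 2) (Fin 2) K) = 0 := by
  simp [cj_def]

theorem cj_prod (g : G) (Z Z' : Matrix (Fin 2) (Fin 2) K) :
    cj ρ g (Z * Z') = cj ρ g Z * cj ρ g Z' := by
  simp only [cj_def, mul_assoc, Units.inv_mul_cancel_left]

theorem cj_eq_zero_iff (g : G) (Z : Matrix (Fin 2) (Fin 2) K) : cj ρ g Z = 0 ↔ Z = 0 := by
  constructor
  · intro h
    have := congrArg (cj ρ g⁻¹) h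
    rwa [cj_mul, inv_mul_cancel, cj_one, cj_zero] at this
  · rintro rfl
    exact cj_zero g

/-- **`ad⁰` is irreducible** (bilinear form): the conjugates of a nonzero traceless `X` are not all
orthogonal to a nonzero traceless `Y`. -/
theorem exists_trace_ne_zero (hyp : Hyp ρ) (X Y : Matrix (Fin 2) (Fin 2) K) (hX : X ≠ 0)
    (hY : Y ≠ 0) (hXtr : X.trace = 0) (hYtr : Y.trace = 0) :
    ∃ g : G, ((ρ g : Matrix (Fin 2) (Fin 2) K) * X * ((ρ g)⁻¹ : GL (Fin 2) K) * Y).trace ≠ 0 := by
  by_contra hcon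
  push Not at hcon
  -- `Y` is orthogonal to all conjugates of `X`
  have horth : ∀ g, (Y * cj ρ g X).trace = 0 := fun g => by
    rw [trace_mul_comm]
    exact hcon g
  -- `Y` commutes with all brackets of conjugates
  have hYcomm : ∀ g₁ g₂, Y * (cj ρ g₁ X * cj ρ g₂ X - cj ρ g₂ X * cj ρ g₁ X)
      = (cj ρ g₁ X * cj ρ g₂ X - cj ρ g₂ X * cj ρ g₁ X) * Y := fun g₁ g₂ =>
    commute_bracket_of_orthogonal _ _ _ (by rw [cj_trace, hXtr]) (by rw [cj_trace, hXtr]) hYtr
      (horth g₁) (horth g₂)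
  -- a conjugate not proportional to `X`
  have hns := noStableLineAd hyp X hX hXtr
  push Not at hns
  obtain ⟨g₀, hg₀⟩ := hns
  obtain ⟨N, hN⟩ : ∃ N : Matrix (Fin 2) (Fin 2) K, N = X * cj ρ g₀ X - cj ρ g₀ X * X := ⟨_, rfl⟩
  have hNtr : N.trace = 0 := by
    rw [hN, trace_sub, trace_mul_comm, sub_self]
  have hN0 : N ≠ 0 := by
    intro h0
    rw [hN] at h0
    obtain ⟨t, ht⟩ := exists_smul_of_commute hyp.two_ne X (cj ρ g₀ X) hXtr
      (by rw [cj_trace, hXtr]) hX (sub_eq_zero.mp h0)
    exact hg₀ t ht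
  have hYN : N * Y = Y * N := by
    have := hYcomm 1 g₀
    rw [cj_one, ← hN] at this
    exact this.symm
  obtain ⟨t, ht⟩ := exists_smul_of_commute hyp.two_ne N Y hNtr hYtr hN0 hYN
  have ht0 : t ≠ 0 := by
    rintro rfl
    rw [zero_smul] at ht
    exact hY ht
  -- the line spanned by `N` is stable
  apply noStableLineAd hyp N hN0 hNtr
  intro g
  have hcjN : cj ρ g N = cj ρ g X * cj ρ (g * g₀) X - cj ρ (g * g₀) X * cj ρ g X := by
    rw [hN, cj_sub, cj_prod, cj_prod, cj_mul]
  have h1 : Y * cj ρ g N = cj ρ g N * Y := by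
    rw [hcjN]
    exact hYcomm g (g * g₀)
  have h2 : N * cj ρ g N = cj ρ g N * N := by
    rw [ht, smul_mul_assoc, mul_smul_comm] at h1
    exact smul_right_injective (Matrix (Fin 2) (Fin 2) K) ht0 h1
  obtain ⟨s, hs⟩ := exists_smul_of_commute hyp.two_ne N (cj ρ g N) hNtr
    (by rw [cj_trace, hNtr]) hN0 h2
  exact ⟨s, hs⟩

/-- **No twisted invariants in `ad⁰`**: a traceless `X` with `χ g • ρ g X (ρ g)⁻¹ = X` for all `g`
vanishes (any function `χ`, e.g. `χ = det ρ` for `ad⁰(1)`, or `χ = 1` for `ad⁰`). -/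
theorem eq_zero_of_twisted_invariant (hyp : Hyp ρ) (χ : G → K) (X : Matrix (Fin 2) (Fin 2) K)
    (htr : X.trace = 0)
    (h : ∀ g : G, χ g • ((ρ g : Matrix (Fin 2) (Fin 2) K) * X * ((ρ g)⁻¹ : GL (Fin 2) K)) = X) :
    X = 0 := by
  by_contra hX
  apply noStableLineAd hyp X hX htr
  intro g
  have hg := h g
  by_cases hχ : χ g = 0
  · rw [hχ, zero_smul] at hg
    exact absurd hg.symm hX
  · refine ⟨(χ g)⁻¹, ?_⟩
    rw [← hg, smul_smul, inv_mul_cancel₀ hχ, one_smul]
    exact hg.symm ▸ rfl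

end Fermat.Agent.TW.AdIrr24
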