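/-
Programme TW (S56), brick D3, wrapper (d) (helper69): from the subgroup statement of helper21
(`GrpH1.Main.vanish_subgroup`, for subgroups of `GL₂(k)`) to `Final24.AdjVanishing ρ` for an
abstract group `Γ` and `ρ : Γ →* GL₂(k)` with central kernel.

* `psi_ker_eq_zero` : a traceless adjugate-twisted cocycle vanishes on `ker ρ` (central kernel,
  `(ad⁰ ⊗ det)^Γ = 0`);
* `adjVanishing_of_range` : `AdjVanishing ρ` from "every traceless cocycle on `ρ.range` is a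
  coboundary";
* `hirr_range`, `h5_range` : the hypotheses of the subgroup theorem for `ρ.range`;
* `adjVanishing_of_hyp` : the wrapper, with the subgroup theorem as hypothesis `hsub` (verbatim the
  statement of `vanish_subgroup`, quantified over all subgroups).
-/
import Fermat.Agent.TW.Final24
import Fermat.Agent.TW.GrpH1.Unip

set_option autoImplicit false

namespace Fermat.Agent.TW.AdjVanish69

open Matrix Fermat.Agent.TW Fermat.Agent.TW.GrpH1

variable {k : Type*} [Field k] {Γ : Type*} [Group Γ]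

/-- A traceless adjugate-twisted cocycle vanishes on the (central) kernel of `ρ`. -/
theorem psi_ker_eq_zero (ρ : Γ →* GL (Fin 2) k) (hker : ρ.ker ≤ Subgroup.center Γ)
    (K : Type*) [Field K] [Algebra k K] (hyp : AdIrr24.Hyp (AdIrrBC24.bc K ρ))
    (ψ : Γ → Matrix (Fin 2) (Fin 2) k) (htr : ∀ g, (ψ g).trace = 0)
    (hcoc : ∀ g h, ψ (g * h) = ψ g + (ρ g : Matrix (Fin 2) (Fin 2) k) * ψ h
      * (ρ g : Matrix (Fin 2) (Fin 2) k).adjugate)
    (z : Γ) (hz : z ∈ ρ.ker) : ψ z = 0 := by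
  refine AdIrrBC24.eq_zero_of_adjugate_invariant_bc hyp (ψ z) (htr z) (fun g => ?_)
  have hzc : g * z = z * g := (Subgroup.mem_center_iff.mp (hker hz) g)
  have h1 := hcoc g z
  have h2 := hcoc z g
  have hρz : ρ z = 1 := MonoidHom.mem_ker.mp hz
  rw [hρz, Units.val_one, Matrix.adjugate_one, one_mul, mul_one] at h2
  rw [hzc, h2] at h1
  have h3 : ψ z + ψ g = ψ g + (ρ g : Matrix (Fin 2) (Fin 2) k) * ψ z
      * (ρ g : Matrix (Fin 2) (Fin 2) k).adjugate := h1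
  rw [add_comm (ψ z) (ψ g)] at h3
  exact (add_left_cancel h3).symm

/-- The cocycle only depends on `ρ g`. -/
theorem psi_eq_of_rho_eq (ρ : Γ →* GL (Fin 2) k) (hker : ρ.ker ≤ Subgroup.center Γ)
    (K : Type*) [Field K] [Algebra k K] (hyp : AdIrr24.Hyp (AdIrrBC24.bc K ρ))
    (ψ : Γ → Matrix (Fin 2) (Fin 2) k) (htr : ∀ g, (ψ g).trace = 0)
    (hcoc : ∀ g h, ψ (g * h) = ψ g + (ρ g : Matrix (Fin 2) (Fin 2) k) * ψ h
      * (ρ g : Matrix (Fin 2) (Fin 2) k).adjugate)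
    (a b : Γ) (hab : ρ a = ρ b) : ψ a = ψ b := by
  have hz : a⁻¹ * b ∈ ρ.ker := by
    rw [MonoidHom.mem_ker, map_mul, map_inv, hab, inv_mul_cancel]
  have h0 := psi_ker_eq_zero ρ hker K hyp ψ htr hcoc _ hz
  have h1 := hcoc a (a⁻¹ * b)
  rw [mul_inv_cancel_left, h0, mul_zero, zero_mul, add_zero] at h1
  exact h1.symm

/-- `AdjVanishing ρ` from the vanishing statement for the subgroup `ρ.range` of `GL₂(k)`. -/
theorem adjVanishing_of_range (ρ : Γ →* GL (Fin 2) k) (hker : ρ.ker ≤ Subgroup.center Γ)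
    (K : Type*) [Field K] [Algebra k K] (hyp : AdIrr24.Hyp (AdIrrBC24.bc K ρ))
    (hsub : ∀ c, Unip.IsCocOn ρ.range c → Unip.IsCobOn (ρ.range : Set (GL (Fin 2) k)) c) :
    Final24.AdjVanishing ρ := by
  classical
  intro ψ htr hcoc
  let c : GL (Fin 2) k → Matrix (Fin 2) (Fin 2) k := fun g =>
    if h : g ∈ ρ.range then ψ h.choose else 0
  have hc : ∀ a : Γ, c (ρ a) = ψ a := by
    intro a
    have hmem : ρ a ∈ ρ.range := ⟨a, rfl⟩
    have : c (ρ a) = ψ hmem.choose := dif_pos hmem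
    rw [this]
    exact psi_eq_of_rho_eq ρ hker K hyp ψ htr hcoc _ _ hmem.choose_spec
  have hcoc' : Unip.IsCocOn ρ.range c := by
    refine ⟨?_, ?_⟩
    · rintro _ ⟨a, rfl⟩ _ ⟨b, rfl⟩
      rw [← map_mul, hc, hc, hc, hcoc a b, Unip.act]
    · rintro _ ⟨a, rfl⟩
      rw [hc]
      exact htr a
  obtain ⟨m, hm, hm'⟩ := hsub c hcoc'
  refine ⟨m, hm, fun g => ?_⟩
  rw [← hc g, hm' (ρ g) ⟨g, rfl⟩, Unip.act]

/-- Absolute irreducibility over `K ⊇ k` gives irreducibility of `ρ.range` over `k`. -/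
theorem hirr_range (ρ : Γ →* GL (Fin 2) k) (K : Type*) [Field K] [Algebra k K]
    (hyp : AdIrr24.Hyp (AdIrrBC24.bc K ρ)) :
    ∀ v : Fin 2 → k, v ≠ 0 → ∃ g ∈ ρ.range, ∀ a : k, g.val *ᵥ v ≠ a • v := by
  intro v hv
  by_contra hcon
  push Not at hcon
  apply hyp.habs
  refine ⟨fun i => algebraMap k K (v i), ?_, fun g _ => ?_⟩
  · intro h0
    apply hv
    funext i
    have := congrFun h0 i
    simp only [Pi.zero_apply] at this
    exact (algebraMap k K).injective (by rw [this, Pi.zero_apply, map_zero])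
  · obtain ⟨a, ha⟩ := hcon (ρ g) ⟨g, rfl⟩
    refine ⟨algebraMap k K a, ?_⟩
    rw [AdIrrBC24.bc_val]
    funext i
    have hi := congrFun ha i
    simp only [Matrix.mulVec, dotProduct, Pi.smul_apply, smul_eq_mul, AdIrrBC24.mbc_apply] at hi ⊢
    rw [← map_mul, ← hi, map_sum]
    exact Finset.sum_congr rfl fun j _ => (map_mul _ _ _).symm

/-- The `p = 5` hypothesis for `ρ.range`. -/
theorem h5_range (ρ : Γ →* GL (Fin 2) k) (p : ℕ)
    (h5 : p = 5 → ∃ g, (ρ g).val.det ^ 2 ≠ 1) :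
    p = 5 → ∃ g ∈ ρ.range, g.val.det ^ 2 ≠ 1 := by
  intro hp
  obtain ⟨g, hg⟩ := h5 hp
  exact ⟨ρ g, ⟨g, rfl⟩, hg⟩

/-- **Wrapper (d).**  `hsub` is verbatim the statement of `GrpH1.Main.vanish_subgroup`. -/
theorem adjVanishing_of_hyp [Finite k] (p : ℕ) [Fact p.Prime] [CharP k p] (hp2 : p ≠ 2)
    (ρ : Γ →* GL (Fin 2) k) (hker : ρ.ker ≤ Subgroup.center Γ)
    (K : Type*) [Field K] [Algebra k K] (hyp : AdIrr24.Hyp (AdIrrBC24.bc K ρ))
    (h5 : p = 5 → ∃ g, (ρ g).val.det ^ 2 ≠ 1)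
    (hsub : ∀ (Γ' : Subgroup (GL (Fin 2) k)) (c : GL (Fin 2) k → Matrix (Fin 2) (Fin 2) k),
      Unip.IsCocOn Γ' c →
      (∀ v : Fin 2 → k, v ≠ 0 → ∃ g ∈ Γ', ∀ a : k, g.val *ᵥ v ≠ a • v) →
      (p = 5 → ∃ g ∈ Γ', g.val.det ^ 2 ≠ 1) →
      Unip.IsCobOn (Γ' : Set (GL (Fin 2) k)) c) :
    Final24.AdjVanishing ρ := by
  have _ := hp2
  exact adjVanishing_of_range ρ hker K hyp
    (fun c hc => hsub ρ.range c hc (hirr_range ρ K hyp) (h5_range ρ p h5))

end Fermat.Agent.TW.AdjVanish69
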