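/-
Programme TW (S56), brick D3, final glue (helper69): `Final24.AdjVanishing ρ` for an abstract group
`Γ` and `ρ : Γ →* GL₂(k)` (`k` finite of odd characteristic `p`) with central kernel, under the
irreducibility hypotheses `AdIrr24.Hyp (AdIrrBC24.bc K ρ)` over an extension `K/k`, and with some
`det(ρ g)² ≠ 1` when `p = 5`.

Combines `GrpH1.Main.vanish_subgroup` (helper21) with the wrapper `AdjVanish69.adjVanishing_of_hyp`.
-/
import Fermat.Agent.TW.AdjVanish69
import Fermat.Agent.TW.GrpH1.Main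

set_option autoImplicit false

namespace Fermat.Agent.TW.AdjVanishFinal69

open Matrix Fermat.Agent.TW Fermat.Agent.TW.GrpH1

/-- **Brick D3, final form**: `H¹(Γ, ad⁰ρ ⊗ det) = 0`. -/
theorem adjVanishing {k : Type*} [Field k] [Finite k] (p : ℕ) [Fact p.Prime] [CharP k p]
    (hp2 : p ≠ 2) {Γ : Type*} [Group Γ] (ρ : Γ →* GL (Fin 2) k)
    (hker : ρ.ker ≤ Subgroup.center Γ) (K : Type*) [Field K] [Algebra k K]
    (hyp : AdIrr24.Hyp (AdIrrBC24.bc K ρ))
    (h5 : p = 5 → ∃ g, (ρ g).val.det ^ 2 ≠ 1) : Final24.AdjVanishing ρ :=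
  AdjVanish69.adjVanishing_of_hyp p hp2 ρ hker K hyp h5
    (fun Γ' c hc hirr h5' => Main.vanish_subgroup p hp2 Γ' c hc hirr h5')

end Fermat.Agent.TW.AdjVanishFinal69
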