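/-
Programme TW (S56), brick C3-T2, generic part (helper68): transport of Artin induction
(`ArtinInd68.eq_zero_of_cyclic_coind`) to functions on `Rep (ZMod p) Γ`, where `Γ` is any group
with a surjection `π : Γ →* D` onto a finite group.

If `F : Rep (ZMod p) Γ → ℤ` is additive on short exact sequences (of finite-dimensional modules
satisfying a predicate `P` which holds for all modules inflated from `D`), and `F` vanishes on
the inflations of the modules coinduced from cyclic subgroups of `D` of order prime to `p`, then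
`F M = 0` for every finite-dimensional `M` (satisfying `P`) on which `ker π` acts trivially.
-/
import Fermat.Agent.TW.ArtinInd68

set_option autoImplicit false
set_option linter.style.haveILetI false
set_option linter.unusedSectionVars false

namespace Fermat.Agent.TW.ArtinBridge68

open Representation Fermat.Agent.TW.AddFun68 Fermat.Agent.TW.ArtinInd68

variable {p : ℕ} [Fact p.Prime] {Γ D : Type} [Group Γ] [Group D]

/-- Additivity of `F` on short exact sequences `0 → A → B → C → 0` of representations of `Γ`
whose middle term is finite-dimensional and satisfies `P`. -/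
def IsAddOn (P : Rep.{0} (ZMod p) Γ → Prop) (F : Rep.{0} (ZMod p) Γ → ℤ) : Prop :=
  ∀ (A B C : Rep.{0} (ZMod p) Γ) (φ : A →ₗ[ZMod p] B) (_ : ∀ g a, φ (A.ρ g a) = B.ρ g (φ a))
    (ψ : B →ₗ[ZMod p] C) (_ : ∀ g b, ψ (B.ρ g b) = C.ρ g (ψ b)),
    Function.Injective φ → Function.Surjective ψ → (∀ b, ψ b = 0 ↔ ∃ a, φ a = b) →
    FiniteDimensional (ZMod p) B → P B → F B = F A + F C

/-- The function on representations of `D` obtained by inflation along `π`. -/
noncomputable def inflFun (π : Γ →* D) (F : Rep.{0} (ZMod p) Γ → ℤ) : RepFun p D :=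
  fun _ _ _ ρ => F (Rep.of (ρ.comp π))

variable {P : Rep.{0} (ZMod p) Γ → Prop} {F : Rep.{0} (ZMod p) Γ → ℤ} (π : Γ →* D)

/-- Inflation of an additive function is additive. -/
theorem isAdditiveFun_inflFun (hF : IsAddOn P F)
    (hP : ∀ (V : Type) [AddCommGroup V] [Module (ZMod p) V] [Module.Finite (ZMod p) V]
      (ρ : Representation (ZMod p) D V), P (Rep.of (ρ.comp π))) :
    IsAdditiveFun p D (inflFun π F) := by
  intro V' V V'' _ _ _ _ _ _ _ _ _ ρ' ρ ρ'' i q hi hq hex
  refine hF (Rep.of (ρ'.comp π)) (Rep.of (ρ.comp π)) (Rep.of (ρ''.comp π))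
    i.toLinearMap ?_ q.toLinearMap ?_ hi hq ?_ ?_ (hP V ρ)
  · intro g a
    exact IntertwiningMap.isIntertwining ρ' ρ i (π g) a
  · intro g b
    exact IntertwiningMap.isIntertwining ρ ρ'' q (π g) b
  · intro b
    have : b ∈ LinearMap.ker q.toLinearMap ↔ b ∈ LinearMap.range i.toLinearMap := by rw [hex]
    rw [LinearMap.mem_ker, LinearMap.mem_range] at this
    exact this
  · change FiniteDimensional (ZMod p) V
    infer_instance

/-- Descent of a representation of `Γ` on which `ker π` acts trivially to `D`. -/
noncomputable def descend (hπ : Function.Surjective π) {V : Type} [AddCommGroup V]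
    [Module (ZMod p) V] (ρ : Representation (ZMod p) Γ V)
    (hker : ∀ n ∈ π.ker, ρ n = 1) : Representation (ZMod p) D V :=
  have key : ∀ g g' : Γ, π g = π g' → ρ g = ρ g' := by
    intro g g' h
    have hmem : g⁻¹ * g' ∈ π.ker := by
      rw [MonoidHom.mem_ker, map_mul, map_inv, h, inv_mul_cancel]
    have h1 := hker _ hmem
    have : ρ g' = ρ g * ρ (g⁻¹ * g') := by rw [← map_mul, mul_inv_cancel_left]
    rw [this, h1, mul_one]
  { toFun := fun d => ρ (Classical.choose (hπ d))
    map_one' := by
      have h := Classical.choose_spec (hπ 1)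
      rw [key _ 1 (by rw [h, map_one]), map_one]
    map_mul' := by
      intro d d'
      have h := Classical.choose_spec (hπ (d * d'))
      have h1 := Classical.choose_spec (hπ d)
      have h2 := Classical.choose_spec (hπ d')
      rw [← map_mul]
      exact key _ _ (by rw [h, map_mul, h1, h2]) }

theorem descend_apply (hπ : Function.Surjective π) {V : Type} [AddCommGroup V]
    [Module (ZMod p) V] (ρ : Representation (ZMod p) Γ V)
    (hker : ∀ n ∈ π.ker, ρ n = 1) (g : Γ) : descend π hπ ρ hker (π g) = ρ g := by
  have h := Classical.choose_spec (hπ (π g))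
  change ρ (Classical.choose (hπ (π g))) = ρ g
  have hmem : g⁻¹ * Classical.choose (hπ (π g)) ∈ π.ker := by
    rw [MonoidHom.mem_ker, map_mul, map_inv, h, inv_mul_cancel]
  have h1 := hker _ hmem
  have : ρ (Classical.choose (hπ (π g))) = ρ g * ρ (g⁻¹ * Classical.choose (hπ (π g))) := by
    rw [← map_mul, mul_inv_cancel_left]
  rw [this, h1, mul_one]

variable [Finite D]

/-- **Artin induction, inflated form.**  Vanishing on all inflated modules. -/
theorem eq_zero_of_cyclic_coind_infl (hF : IsAddOn P F)
    (hP : ∀ (V : Type) [AddCommGroup V] [Module (ZMod p) V] [Module.Finite (ZMod p) V]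
      (ρ : Representation (ZMod p) D V), P (Rep.of (ρ.comp π)))
    (hcyc : ∀ C : Subgroup D, IsCyclic C → (Nat.card C).Coprime p →
      ∀ (W : Type) [AddCommGroup W] [Module (ZMod p) W] [Module.Finite (ZMod p) W]
        (σ : Representation (ZMod p) C W), F (Rep.of ((coind C.subtype σ).comp π)) = 0)
    (V : Type) [AddCommGroup V] [Module (ZMod p) V] [Module.Finite (ZMod p) V]
    (ρ : Representation (ZMod p) D V) : F (Rep.of (ρ.comp π)) = 0 :=
  eq_zero_of_cyclic_coind (inflFun π F) (isAdditiveFun_inflFun π hF hP) hcyc V ρ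

/-- **Artin induction for functions on `Rep (ZMod p) Γ`.**  `F M = 0` for every
finite-dimensional `M` on which `ker π` acts trivially. -/
theorem eq_zero_of_cyclic_coind_rep (hπ : Function.Surjective π) (hF : IsAddOn P F)
    (hP : ∀ (V : Type) [AddCommGroup V] [Module (ZMod p) V] [Module.Finite (ZMod p) V]
      (ρ : Representation (ZMod p) D V), P (Rep.of (ρ.comp π)))
    (hcyc : ∀ C : Subgroup D, IsCyclic C → (Nat.card C).Coprime p →
      ∀ (W : Type) [AddCommGroup W] [Module (ZMod p) W] [Module.Finite (ZMod p) W]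
        (σ : Representation (ZMod p) C W), F (Rep.of ((coind C.subtype σ).comp π)) = 0)
    (M : Rep.{0} (ZMod p) Γ) [FiniteDimensional (ZMod p) M] (hPM : P M)
    (hker : ∀ n ∈ π.ker, M.ρ n = 1) : F M = 0 := by
  -- the zero module
  have hzero : F (Rep.of ((Representation.trivial (ZMod p) D PUnit).comp π)) = 0 := by
    have h := hF (Rep.of ((Representation.trivial (ZMod p) D PUnit).comp π))
      (Rep.of ((Representation.trivial (ZMod p) D PUnit).comp π))
      (Rep.of ((Representation.trivial (ZMod p) D PUnit).comp π))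
      LinearMap.id (fun _ _ => rfl) 0 (fun _ _ => Subsingleton.elim (α := PUnit) _ _)
      (fun _ _ h => h) (fun y => ⟨y, Subsingleton.elim (α := PUnit) _ _⟩)
      (fun b => ⟨fun _ => ⟨b, rfl⟩, fun _ => Subsingleton.elim (α := PUnit) _ _⟩)
      (by change FiniteDimensional (ZMod p) PUnit; infer_instance)
      (hP PUnit (Representation.trivial (ZMod p) D PUnit))
    linarith
  have hdesc := eq_zero_of_cyclic_coind_infl π hF hP hcyc M (descend π hπ M.ρ hker)
  have h := hF (Rep.of ((descend π hπ M.ρ hker).comp π)) M
    (Rep.of ((Representation.trivial (ZMod p) D PUnit).comp π))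
    LinearMap.id ?_ 0 ?_ (fun _ _ h => h) (fun y => ⟨0, Subsingleton.elim (α := PUnit) _ _⟩)
    (fun b => ⟨fun _ => ⟨b, rfl⟩, fun _ => Subsingleton.elim (α := PUnit) _ _⟩)
    inferInstance hPM
  · rw [h, hdesc, hzero, add_zero]
  · intro g a
    change (descend π hπ M.ρ hker (π g)) a = M.ρ g a
    rw [descend_apply]
  · intro g b
    exact Subsingleton.elim (α := PUnit) _ _

end Fermat.Agent.TW.ArtinBridge68
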