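/-
Programme TW (S56), brick C3-(iii)a (helper68): the combinatorial form of Artin's induction
theorem.  For a finite group `G` the constant function `|G|` on `G` is an integral linear
combination of the permutation characters `g ↦ #Fix_g(G ⧸ C)` of the cyclic subgroups `C ≤ G`.

Main statement: `exists_artin_coeffs`.
Pure Mathlib; no Galois objects.
-/
import Mathlib

set_option autoImplicit false
set_option linter.style.haveILetI false
set_option linter.unusedSectionVars false

namespace Fermat.Agent.TW.ArtinComb68

open scoped Classical

variable {G : Type*} [Group G]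

/-- The number of fixed points of `g` on `G ⧸ H` (the value at `g` of the permutation character
of `G ⧸ H`). -/
noncomputable def fixCount (H : Subgroup G) (g : G) : ℕ :=
  Nat.card (MulAction.fixedBy (G ⧸ H) g)

/-- The number of `x` with `x⁻¹ g x ∈ H`. -/
noncomputable def conjCount (H : Subgroup G) (g : G) : ℕ :=
  Nat.card {x : G // x⁻¹ * g * x ∈ H}

/-- The number of `x` such that `x⁻¹ g x` generates `C`. -/
noncomputable def genCount (C : Subgroup G) (g : G) : ℕ :=
  Nat.card {x : G // Subgroup.zpowers (x⁻¹ * g * x) = C}

theorem mem_fixedBy_mk_iff (H : Subgroup G) (g x : G) :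
    (x : G ⧸ H) ∈ MulAction.fixedBy (G ⧸ H) g ↔ x⁻¹ * g * x ∈ H := by
  rw [MulAction.mem_fixedBy, MulAction.Quotient.smul_mk, eq_comm, QuotientGroup.eq, smul_eq_mul,
    mul_assoc]

theorem conjCount_eq (H : Subgroup G) (g : G) :
    conjCount H g = fixCount H g * Nat.card H := by
  unfold conjCount fixCount
  rw [← Nat.card_prod]
  refine Nat.card_congr ?_
  refine ((Subgroup.groupEquivQuotientProdSubgroup (s := H)).subtypeEquiv
    (p := fun x => x⁻¹ * g * x ∈ H)
    (q := fun y => y.1 ∈ MulAction.fixedBy (G ⧸ H) g) ?_).trans ?_
  · intro x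
    exact (mem_fixedBy_mk_iff H g x).symm
  · exact Equiv.prodSubtypeFstEquivSubtypeProd (p := fun q => q ∈ MulAction.fixedBy (G ⧸ H) g)

variable [Finite G]

theorem genCount_eq_zero_of_not_isCyclic (C : Subgroup G) (hC : ¬ IsCyclic C) (g : G) :
    genCount C g = 0 := by
  unfold genCount
  have : IsEmpty {x : G // Subgroup.zpowers (x⁻¹ * g * x) = C} := by
    refine ⟨fun x => hC ?_⟩
    rw [← x.2]
    exact Subgroup.isCyclic_zpowers _
  exact Nat.card_of_isEmpty

theorem conjCount_eq_sum (H : Subgroup G) (g : G) :
    letI : Fintype (Subgroup G) := Fintype.ofFinite _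
    conjCount H g = ∑ B ∈ (Finset.univ.filter fun B : Subgroup G => B ≤ H), genCount B g := by
  letI : Fintype (Subgroup G) := Fintype.ofFinite _
  letI : Fintype G := Fintype.ofFinite _
  have h1 : conjCount H g = (Finset.univ.filter fun x : G => x⁻¹ * g * x ∈ H).card :=
    Nat.subtype_card _ (by simp)
  have h2 : ∀ B : Subgroup G, genCount B g =
      ((Finset.univ.filter fun x : G => x⁻¹ * g * x ∈ H).filter
        fun x => Subgroup.zpowers (x⁻¹ * g * x) = B).card ∨ ¬ B ≤ H := by
    intro B
    by_cases hB : B ≤ H
    · left
      refine Nat.subtype_card _ ?_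
      intro x
      simp only [Finset.mem_filter, Finset.mem_univ, true_and, and_iff_right_iff_imp]
      intro hx
      rw [← Subgroup.zpowers_le, hx]
      exact hB
    · right; exact hB
  rw [h1, Finset.card_eq_sum_card_fiberwise
    (f := fun x : G => Subgroup.zpowers (x⁻¹ * g * x))
    (t := Finset.univ.filter fun B : Subgroup G => B ≤ H)]
  · refine Finset.sum_congr rfl ?_
    intro B hB
    rcases h2 B with h | h
    · exact h.symm
    · exact absurd (Finset.mem_filter.mp hB).2 h
  · intro x hx
    simp only [Finset.coe_filter, Finset.mem_univ, true_and, Set.mem_setOf_eq] at hx ⊢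
    rwa [Subgroup.zpowers_le]

theorem sum_genCount (g : G) :
    letI : Fintype (Subgroup G) := Fintype.ofFinite _
    ∑ B : Subgroup G, genCount B g = Nat.card G := by
  letI : Fintype (Subgroup G) := Fintype.ofFinite _
  have h := conjCount_eq_sum (⊤ : Subgroup G) g
  have h' : conjCount (⊤ : Subgroup G) g = Nat.card G := by
    unfold conjCount
    exact Nat.card_congr (Equiv.subtypeUnivEquiv (fun x => Subgroup.mem_top _))
  rw [h'] at h
  rw [h]
  refine Finset.sum_congr ?_ (fun _ _ => rfl)
  ext B
  simp

/-- The permutation character of `G ⧸ H` as an integer valued function. -/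
noncomputable def permChar (H : Subgroup G) : G → ℤ := fun g => (fixCount H g : ℤ)

/-- The generator-count function as an integer valued function. -/
noncomputable def genFun (C : Subgroup G) : G → ℤ := fun g => (genCount C g : ℤ)

/-- The `ℤ`-span of the permutation characters of the cyclic subgroups. -/
noncomputable def cyclicSpan (G : Type*) [Group G] : Submodule ℤ (G → ℤ) :=
  Submodule.span ℤ (permChar '' {C : Subgroup G | IsCyclic C})

theorem card_smul_permChar (H : Subgroup G) :
    letI : Fintype (Subgroup G) := Fintype.ofFinite _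
    (Nat.card H : ℤ) • permChar H =
      ∑ B ∈ (Finset.univ.filter fun B : Subgroup G => B ≤ H), genFun B := by
  letI : Fintype (Subgroup G) := Fintype.ofFinite _
  funext g
  have h := conjCount_eq_sum H g
  rw [conjCount_eq] at h
  simp only [Pi.smul_apply, permChar, genFun, Finset.sum_apply, smul_eq_mul]
  have h' : ((fixCount H g * Nat.card H : ℕ) : ℤ) =
      ((∑ B ∈ (Finset.univ.filter fun B : Subgroup G => B ≤ H), genCount B g : ℕ) : ℤ) := by
    rw [h]
  push_cast at h'
  linarith

theorem genFun_mem_cyclicSpan : ∀ (n : ℕ) (C : Subgroup G), IsCyclic C → Nat.card C = n →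
    genFun C ∈ cyclicSpan G := by
  letI : Fintype (Subgroup G) := Fintype.ofFinite _
  intro n
  induction n using Nat.strong_induction_on with
  | _ n ih =>
    intro C hC hn
    have h := card_smul_permChar C
    have hsplit : (Finset.univ.filter fun B : Subgroup G => B ≤ C) =
        insert C (Finset.univ.filter fun B : Subgroup G => B < C) := by
      ext B
      simp only [Finset.mem_filter, Finset.mem_univ, true_and, Finset.mem_insert]
      constructor
      · intro hB
        rcases eq_or_lt_of_le hB with h | h
        · left; exact h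
        · right; exact h
      · rintro (h | h)
        · exact h.le
        · exact h.le
    rw [hsplit, Finset.sum_insert (by simp)] at h
    have h3 : genFun C = (Nat.card C : ℤ) • permChar C -
        ∑ B ∈ (Finset.univ.filter fun B : Subgroup G => B < C), genFun B := by
      rw [h]; abel
    rw [h3]
    refine Submodule.sub_mem _ (Submodule.smul_mem _ _ ?_) (Submodule.sum_mem _ ?_)
    · exact Submodule.subset_span ⟨C, hC, rfl⟩
    · intro B hB
      have hBC : B < C := (Finset.mem_filter.mp hB).2
      haveI := hC
      have hBcyc : IsCyclic B := Subgroup.isCyclic_of_le hBC.le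
      have hlt : Nat.card B < n := by
        rw [← hn]
        have hle : Nat.card B ≤ Nat.card C := Subgroup.card_le_of_le hBC.le
        rcases lt_or_eq_of_le hle with h | h
        · exact h
        · exfalso
          have : B = C := Subgroup.eq_of_le_of_card_ge hBC.le h.ge
          exact hBC.ne this
      exact ih _ hlt B hBcyc rfl

theorem const_card_mem_cyclicSpan :
    (fun _ : G => (Nat.card G : ℤ)) ∈ cyclicSpan G := by
  letI : Fintype (Subgroup G) := Fintype.ofFinite _
  have h : (fun _ : G => (Nat.card G : ℤ)) = ∑ B : Subgroup G, genFun B := by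
    funext g
    have := sum_genCount g
    simp only [Finset.sum_apply, genFun]
    rw [← this]
    push_cast
    rfl
  rw [h]
  refine Submodule.sum_mem _ ?_
  intro B _
  by_cases hB : IsCyclic B
  · exact genFun_mem_cyclicSpan _ B hB rfl
  · have : genFun B = 0 := by
      funext g
      simp [genFun, genCount_eq_zero_of_not_isCyclic B hB g]
    rw [this]
    exact Submodule.zero_mem _

/-- **Artin's induction theorem, combinatorial form.**  There are finitely many cyclic subgroups
`C` and integers `a C` such that `∑ a C * #Fix_g(G ⧸ C) = |G|` for every `g`. -/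
theorem exists_artin_coeffs :
    ∃ (t : Finset (Subgroup G)) (a : Subgroup G → ℤ), (∀ C ∈ t, IsCyclic C) ∧
      ∀ g : G, ∑ C ∈ t, a C * (fixCount C g : ℤ) = (Nat.card G : ℤ) := by
  have h := const_card_mem_cyclicSpan (G := G)
  unfold cyclicSpan at h
  rw [Submodule.mem_span_image_iff_exists_fun] at h
  obtain ⟨t, ht, c, hc⟩ := h
  refine ⟨t, fun C => if hC : C ∈ t then c ⟨C, hC⟩ else 0, fun C hC => ht hC, ?_⟩
  intro g
  have := congrFun hc g
  rw [← this, Finset.sum_apply, ← Finset.sum_coe_sort t]
  refine Finset.sum_congr rfl ?_
  intro C _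
  simp [permChar]

end Fermat.Agent.TW.ArtinComb68
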