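/-
Programme TW (S56), brick C3-(iii)g (helper68): finite-dimensional representations of a finite
group over a field of characteristic zero with equal characters are isomorphic
(`nonempty_equiv_of_character_eq`).
Pure Mathlib.
-/
import Mathlib

set_option autoImplicit false
set_option linter.style.haveILetI false
set_option linter.unusedSectionVars false

namespace Fermat.Agent.TW.CharIso68

open Representation Module

universe u v w

variable {k : Type w} {G : Type*} [Field k] [Group G]

section splitting

variable {V : Type u} [AddCommGroup V] [Module k V] {ρ : Representation k G V}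

theorem isCompl_toSubmodule {S T : Subrepresentation ρ} (h : IsCompl S T) :
    IsCompl S.toSubmodule T.toSubmodule := by
  constructor
  · rw [disjoint_iff]
    have := congrArg Subrepresentation.toSubmodule (disjoint_iff.mp h.disjoint)
    exact this
  · rw [codisjoint_iff]
    have := congrArg Subrepresentation.toSubmodule (codisjoint_iff.mp h.codisjoint)
    exact this

/-- `ρ ≅ S × T` for complementary subrepresentations. -/
noncomputable def equivProdOfIsCompl (S T : Subrepresentation ρ)
    (h : IsCompl S.toSubmodule T.toSubmodule) :
    (S.toRepresentation.prod T.toRepresentation).Equiv ρ :=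
  Representation.Equiv.mk (Submodule.prodEquivOfIsCompl _ _ h) (by
    intro g
    apply LinearMap.ext
    rintro ⟨s, t⟩
    simp only [LinearMap.coe_comp, LinearEquiv.coe_coe, Function.comp_apply,
      Submodule.coe_prodEquivOfIsCompl', map_add]
    rfl)

theorem character_prod {W : Type v} [AddCommGroup W] [Module k W] [FiniteDimensional k V]
    [FiniteDimensional k W] (ρ : Representation k G V) (σ : Representation k G W) (g : G) :
    (ρ.prod σ).character g = ρ.character g + σ.character g := by
  unfold Representation.character
  exact LinearMap.trace_prodMap' (ρ g) (σ g)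

/-- Product of isomorphisms. -/
noncomputable def prodCongr {V₁ V₂ : Type u} {W₁ W₂ : Type v} [AddCommGroup V₁] [Module k V₁]
    [AddCommGroup V₂] [Module k V₂] [AddCommGroup W₁] [Module k W₁] [AddCommGroup W₂] [Module k W₂]
    {ρ₁ : Representation k G V₁} {ρ₂ : Representation k G V₂}
    {σ₁ : Representation k G W₁} {σ₂ : Representation k G W₂}
    (e₁ : ρ₁.Equiv σ₁) (e₂ : ρ₂.Equiv σ₂) : (ρ₁.prod ρ₂).Equiv (σ₁.prod σ₂) :=
  Representation.Equiv.mk (LinearEquiv.prodCongr e₁.toLinearEquiv e₂.toLinearEquiv) (by
    intro g
    apply LinearMap.ext
    rintro ⟨x, y⟩
    simp only [LinearMap.coe_comp, LinearEquiv.coe_coe, Function.comp_apply,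
      LinearEquiv.prodCongr_apply, Representation.prod_apply_apply]
    ext
    · exact e₁.toIntertwiningMap.isIntertwining _ _ g x
    · exact e₂.toIntertwiningMap.isIntertwining _ _ g y)

end splitting

section main

variable [Fintype G] [CharZero k]

theorem exists_minimal_subrep {V : Type u} [AddCommGroup V] [Module k V] [FiniteDimensional k V]
    [Nontrivial V] (ρ : Representation k G V) :
    ∃ S : Subrepresentation ρ, S ≠ ⊥ ∧ ∀ T : Subrepresentation ρ, T ≤ S → T ≠ ⊥ → T = S := by
  classical
  let P : ℕ → Prop := fun n => ∃ S : Subrepresentation ρ, S ≠ ⊥ ∧ finrank k S.toSubmodule = n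
  have hP : ∃ n, P n := by
    refine ⟨_, ⊤, ?_, rfl⟩
    intro h
    have h2 := congrArg Subrepresentation.toSubmodule h
    change (⊤ : Submodule k V) = ⊥ at h2
    exact top_ne_bot h2
  obtain ⟨S, hS, hSn⟩ := Nat.find_spec hP
  refine ⟨S, hS, ?_⟩
  intro T hTS hT
  have hle : T.toSubmodule ≤ S.toSubmodule := hTS
  have h1 : Nat.find hP ≤ finrank k T.toSubmodule := Nat.find_min' hP ⟨T, hT, rfl⟩
  have h2 : T.toSubmodule = S.toSubmodule := by
    apply Submodule.eq_of_le_of_finrank_le hle
    rw [hSn]; exact h1
  exact Subrepresentation.toSubmodule_injective h2

/-- **Characters determine representations in characteristic zero.** -/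
theorem nonempty_equiv_of_character_eq : ∀ (n : ℕ) {V : Type u} {W : Type v} [AddCommGroup V]
    [Module k V] [AddCommGroup W] [Module k W] [FiniteDimensional k V] [FiniteDimensional k W]
    (ρ : Representation k G V) (σ : Representation k G W), finrank k V = n →
    ρ.character = σ.character → Nonempty (ρ.Equiv σ) := by
  haveI : Invertible (Nat.card G : k) :=
    invertibleOfNonzero (by exact_mod_cast (Nat.card_pos (α := G)).ne')
  haveI : NeZero (Nat.card G : k) := ⟨by exact_mod_cast (Nat.card_pos (α := G)).ne'⟩
  intro n
  induction n using Nat.strong_induction_on with
  | _ n ih =>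
    intro V W _ _ _ _ _ _ ρ σ hn hchar
    have hdim : finrank k W = finrank k V := by
      have h1 := congrFun hchar 1
      rw [char_one, char_one] at h1
      exact_mod_cast h1.symm
    rcases Nat.eq_zero_or_pos n with h0 | hpos
    · -- both spaces are zero
      subst h0
      haveI : Subsingleton V := finrank_zero_iff.mp hn
      haveI : Subsingleton W := finrank_zero_iff.mp (hdim.trans hn)
      exact ⟨Representation.Equiv.mk
        { toFun := fun _ => 0, invFun := fun _ => 0, map_add' := fun _ _ => by simp,
          map_smul' := fun _ _ => by simp, left_inv := fun _ => Subsingleton.elim _ _,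
          right_inv := fun _ => Subsingleton.elim _ _ }
        (fun g => by ext x; exact Subsingleton.elim _ _)⟩
    · haveI : Nontrivial V := finrank_pos_iff.mp (hn ▸ hpos)
      obtain ⟨S, hS, hSmin⟩ := exists_minimal_subrep ρ
      -- Hom(S, σ) and Hom(S, ρ) have the same dimension
      have hhom : finrank k (S.toRepresentation.IntertwiningMap σ) =
          finrank k (S.toRepresentation.IntertwiningMap ρ) := by
        have h1 := card_inv_mul_sum_char_mul_char_eq_finrank S.toRepresentation σ
        have h2 := card_inv_mul_sum_char_mul_char_eq_finrank S.toRepresentation ρ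
        rw [hchar] at h2
        have := h1.symm.trans h2
        exact_mod_cast this
      -- the inclusion is a nonzero element of Hom(S, ρ)
      let incl : S.toRepresentation.IntertwiningMap ρ :=
        ⟨S.toSubmodule.subtype, fun g => by ext; rfl⟩
      have hincl : incl ≠ 0 := by
        intro h
        apply hS
        apply Subrepresentation.toSubmodule_injective
        change S.toSubmodule = ⊥
        rw [Submodule.eq_bot_iff]
        intro x hx
        have := congrArg (fun φ : S.toRepresentation.IntertwiningMap ρ => φ ⟨x, hx⟩) h
        exact this
      have hpos' : 0 < finrank k (S.toRepresentation.IntertwiningMap σ) := by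
        rw [hhom]
        exact finrank_pos_iff_exists_ne_zero.mpr ⟨incl, hincl⟩
      obtain ⟨j, hj⟩ := finrank_pos_iff_exists_ne_zero.mp hpos'
      -- j is injective by minimality of S
      have hjinj : Function.Injective j := by
        change Function.Injective j.toLinearMap
        rw [← LinearMap.ker_eq_bot, Submodule.eq_bot_iff]
        by_contra hker
        push Not at hker
        obtain ⟨x₀, hx₀, hx₀ne⟩ := hker
        -- the image of ker j in V is a nonzero subrepresentation contained in S
        let K : Subrepresentation ρ :=
          { toSubmodule := (LinearMap.ker j.toLinearMap).map S.toSubmodule.subtype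
            apply_mem_toSubmodule := by
              rintro g _ ⟨x, hx, rfl⟩
              refine ⟨S.toRepresentation g x, ?_, rfl⟩
              have hx' : j.toLinearMap x = 0 := hx
              change j.toLinearMap (S.toRepresentation g x) = 0
              have : j.toLinearMap (S.toRepresentation g x) = σ g (j.toLinearMap x) :=
                j.isIntertwining _ _ g x
              rw [this, hx', map_zero] }
        have hKS : K ≤ S := by
          rintro _ ⟨x, _, rfl⟩
          exact x.2
        have hKne : K ≠ ⊥ := by
          intro h
          have h2 : (x₀ : V) ∈ K.toSubmodule := ⟨x₀, hx₀, rfl⟩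
          rw [h] at h2
          have h3 : (x₀ : V) = 0 := h2
          exact hx₀ne (Subtype.ext h3)
        have hKeq := hSmin K hKS hKne
        apply hj
        ext x
        have hx : (x : V) ∈ K.toSubmodule := by rw [hKeq]; exact x.2
        obtain ⟨y, hy, hyx⟩ := hx
        have : y = x := Subtype.ext hyx
        subst this
        exact hy
      -- the image of j
      let S' : Subrepresentation σ :=
        { toSubmodule := LinearMap.range j.toLinearMap
          apply_mem_toSubmodule := by
            rintro g _ ⟨x, rfl⟩
            exact ⟨S.toRepresentation g x, j.isIntertwining _ _ g x⟩ }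
      let eS : S.toRepresentation.Equiv S'.toRepresentation :=
        Representation.Equiv.mk (LinearEquiv.ofInjective j.toLinearMap hjinj) (by
          intro g
          ext x
          exact j.isIntertwining _ _ g x)
      -- complements
      obtain ⟨T, hT⟩ := exists_isCompl S
      obtain ⟨T', hT'⟩ := exists_isCompl S'
      have hT2 := isCompl_toSubmodule hT
      have hT2' := isCompl_toSubmodule hT'
      let e1 := equivProdOfIsCompl S T hT2
      let e2 := equivProdOfIsCompl S' T' hT2'
      -- characters of the complements agree
      have hcharT : T.toRepresentation.character = T'.toRepresentation.character := by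
        funext g
        have h1 := congrFun (char_iso e1) g
        have h2 := congrFun (char_iso e2) g
        rw [character_prod] at h1 h2
        have h3 := congrFun (char_iso eS) g
        have h4 := congrFun hchar g
        rw [← h1, ← h2, h3] at h4
        exact add_left_cancel h4
      have hdimT : finrank k T.toSubmodule < n := by
        have h1 := Submodule.finrank_add_eq_of_isCompl hT2
        have h2 : 0 < finrank k S.toSubmodule := by
          have hne : S.toSubmodule ≠ ⊥ := fun h => hS (Subrepresentation.toSubmodule_injective h)
          obtain ⟨x, hx, hx0⟩ := Submodule.exists_mem_ne_zero_of_ne_bot hne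
          exact finrank_pos_iff_exists_ne_zero.mpr ⟨⟨x, hx⟩, fun h => hx0 (congrArg Subtype.val h)⟩
        omega
      obtain ⟨eT⟩ := ih _ hdimT T.toRepresentation T'.toRepresentation rfl hcharT
      exact ⟨e1.symm.trans ((prodCongr eS eT).trans e2)⟩

/-- Characters determine representations in characteristic zero (version without the auxiliary
dimension). -/
theorem nonempty_equiv_of_character_eq' {V : Type u} {W : Type v} [AddCommGroup V]
    [Module k V] [AddCommGroup W] [Module k W] [FiniteDimensional k V] [FiniteDimensional k W]
    (ρ : Representation k G V) (σ : Representation k G W) (h : ρ.character = σ.character) :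
    Nonempty (ρ.Equiv σ) :=
  nonempty_equiv_of_character_eq _ ρ σ rfl h

end main

end Fermat.Agent.TW.CharIso68
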