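/-
Programme TW (S56), brick C3-(iii)i (helper68): additive functions on permutation modules.
* `permVal f X = f (𝔽_p[X])`; additivity over finite disjoint unions (`permVal_sigma`);
* `permVal_eq_of_card_fixedBy_eq`: `G`-sets with the same fixed point counts have the same
  `permVal` (characters + lattices);
* `sum_mul_permVal_eq_zero`: an integral relation between the permutation characters of
  subgroups gives the same relation between the values `permVal f (G ⧸ C)`.
Pure Mathlib + the `*68` bricks.
-/
import Fermat.Agent.TW.PermLattice68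
import Fermat.Agent.TW.CharIso68
import Fermat.Agent.TW.ArtinComb68

set_option autoImplicit false
set_option linter.style.haveILetI false
set_option linter.unusedSectionVars false

namespace Fermat.Agent.TW.GSetSum68

open Representation Fermat.Agent.TW.AddFun68 Fermat.Agent.TW.PermRep68
  Fermat.Agent.TW.PermLattice68 Fermat.Agent.TW.CharIso68 Fermat.Agent.TW.ArtinComb68

variable {p : ℕ} [Fact p.Prime] {G : Type} [Group G]

/-- The value of `f` on the permutation module `𝔽_p[X]`. -/
noncomputable def permVal (f : RepFun p G) (X : Type) [MulAction G X] : ℤ :=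
  f (X → ZMod p) (permRep (ZMod p) G X)

section sigma

variable {I : Type} (X : I → Type) [∀ i, MulAction G (X i)]

/-- Functions on the disjoint union which vanish outside the components in `s`. -/
def suppSub (p : ℕ) (s : Finset I) : Submodule (ZMod p) ((Σ i, X i) → ZMod p) where
  carrier := {u | ∀ i x, i ∉ s → u ⟨i, x⟩ = 0}
  add_mem' := fun {u v} hu hv i x hi => by
    rw [Pi.add_apply, hu i x hi, hv i x hi, add_zero]
  zero_mem' := fun _ _ _ => rfl
  smul_mem' := fun c u hu i x hi => by
    rw [Pi.smul_apply, hu i x hi, smul_zero]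

theorem mem_suppSub {s : Finset I} {u : (Σ i, X i) → ZMod p} :
    u ∈ suppSub X p s ↔ ∀ i x, i ∉ s → u ⟨i, x⟩ = 0 := Iff.rfl

theorem suppSub_stable (s : Finset I) (g : G) :
    suppSub X p s ≤ (suppSub X p s).comap (permRep (ZMod p) G (Σ i, X i) g) := by
  intro u hu i x hi
  change u (g⁻¹ • (⟨i, x⟩ : Σ i, X i)) = 0
  rw [Sigma.smul_mk]
  exact hu i _ hi

/-- The representation on functions supported on `s`. -/
noncomputable def suppRep (s : Finset I) : Representation (ZMod p) G ↥(suppSub X p s) :=
  (permRep (ZMod p) G (Σ i, X i)).subrepresentation _ (suppSub_stable X s)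

theorem suppSub_mono {s t : Finset I} (h : s ⊆ t) : suppSub X p s ≤ suppSub X p t :=
  fun _ hu i x hi => hu i x (fun his => hi (h his))

variable [Fintype I] [∀ i, Fintype (X i)] {f : RepFun p G}

open Classical in
theorem map_suppRep (hf : IsAdditiveFun p G f) (s : Finset I) :
    f _ (suppRep (p := p) X s) = ∑ i ∈ s, permVal f (X i) := by
  induction s using Finset.induction_on with
  | empty =>
    haveI : Subsingleton ↥(suppSub X p (∅ : Finset I)) := by
      refine ⟨fun u v => Subtype.ext (funext ?_)⟩
      rintro ⟨i, x⟩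
      rw [u.2 i x (Finset.notMem_empty i), v.2 i x (Finset.notMem_empty i)]
    rw [hf.map_of_subsingleton, Finset.sum_empty]
  | insert i s hi ih =>
    rw [Finset.sum_insert hi, ← ih, add_comm]
    refine hf _ _ _ (suppRep X s) (suppRep X (insert i s)) (permRep (ZMod p) G (X i))
      ⟨Submodule.inclusion (suppSub_mono X (Finset.subset_insert i s)), fun g => by ext; rfl⟩
      ⟨(LinearMap.funLeft (ZMod p) (ZMod p) (Sigma.mk i)) ∘ₗ (suppSub X p (insert i s)).subtype,
        fun g => by ext u x; rfl⟩ ?_ ?_ ?_
    · exact Submodule.inclusion_injective (suppSub_mono X (Finset.subset_insert i s))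
    · intro w
      refine ⟨⟨fun jx => if h : jx.1 = i then w (h ▸ jx.2) else 0, ?_⟩, ?_⟩
      · intro j x hj
        have : j ≠ i := fun h => hj (h ▸ Finset.mem_insert_self i s)
        simp [this]
      · funext x
        simp
    · ext u
      simp only [LinearMap.mem_range, LinearMap.mem_ker]
      constructor
      · rintro ⟨v, rfl⟩
        funext x
        exact v.2 i x hi
      · intro hu
        refine ⟨⟨u.1, ?_⟩, Subtype.ext rfl⟩
        intro j x hj
        by_cases hji : j = i
        · subst hji
          exact congrFun hu x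
        · exact u.2 j x (fun h => by
            rcases Finset.mem_insert.mp h with h | h
            · exact hji h
            · exact hj h)

/-- Additivity of `permVal` over finite disjoint unions. -/
theorem permVal_sigma (hf : IsAdditiveFun p G f) :
    permVal f (Σ i, X i) = ∑ i, permVal f (X i) := by
  rw [← map_suppRep X hf Finset.univ]
  unfold permVal
  refine hf.map_equiv (Representation.Equiv.symm ?_)
  refine IntertwiningMap.ofBijective
    ⟨(suppSub X p Finset.univ).subtype, fun g => by ext; rfl⟩ ?_
  refine ⟨Submodule.injective_subtype _, fun u => ⟨⟨u, ?_⟩, rfl⟩⟩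
  intro i x hi
  exact absurd (Finset.mem_univ i) hi

/-- Fixed points of a disjoint union. -/
theorem card_fixedBy_sigma (g : G) :
    Nat.card (MulAction.fixedBy (Σ i, X i) g) = ∑ i, Nat.card (MulAction.fixedBy (X i) g) := by
  rw [← Nat.card_sigma]
  refine Nat.card_congr ?_
  refine
    { toFun := fun y => ⟨y.1.1, ⟨y.1.2, ?_⟩⟩
      invFun := fun y => ⟨⟨y.1, y.2.1⟩, ?_⟩
      left_inv := fun y => rfl
      right_inv := fun y => rfl }
  · have := y.2
    rw [MulAction.mem_fixedBy] at this ⊢
    obtain ⟨⟨i, x⟩, hy⟩ := y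
    rw [Sigma.smul_mk] at this
    simpa using this
  · have := y.2.2
    rw [MulAction.mem_fixedBy] at this ⊢
    rw [Sigma.smul_mk, this]

end sigma

section compare

variable [Finite G] {f : RepFun p G}

/-- `G`-sets with the same fixed point counts have the same `permVal`. -/
theorem permVal_eq_of_card_fixedBy_eq (hf : IsAdditiveFun p G f) (X Y : Type) [Fintype X]
    [Fintype Y] [MulAction G X] [MulAction G Y]
    (h : ∀ g : G, Nat.card (MulAction.fixedBy X g) = Nat.card (MulAction.fixedBy Y g)) :
    permVal f X = permVal f Y := by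
  haveI : Fintype G := Fintype.ofFinite G
  have hchar : (permRep ℚ G X).character = (permRep ℚ G Y).character := by
    funext g
    rw [character_permRep, character_permRep, h g]
  obtain ⟨φ⟩ := nonempty_equiv_of_character_eq' (permRep ℚ G X) (permRep ℚ G Y) hchar
  exact map_permRep_eq_of_equiv hf X Y φ

/-- An integral linear relation between permutation characters of subgroups yields the same
relation between the values of an additive function on the permutation modules. -/
theorem sum_mul_permVal_eq_zero (hf : IsAdditiveFun p G f) {J : Type} [Fintype J]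
    (c : J → Subgroup G) (b : J → ℤ)
    (h : ∀ g : G, ∑ j, b j * (fixCount (c j) g : ℤ) = 0) :
    ∑ j, b j * permVal f (G ⧸ c j) = 0 := by
  classical
  haveI : Fintype G := Fintype.ofFinite G
  -- positive and negative parts
  let Ipos := Σ j : J, Fin (b j).toNat
  let Ineg := Σ j : J, Fin (-b j).toNat
  let Xpos : Ipos → Type := fun i => G ⧸ c i.1
  let Xneg : Ineg → Type := fun i => G ⧸ c i.1
  have hpos : permVal f (Σ i, Xpos i) = ∑ j, ((b j).toNat : ℤ) * permVal f (G ⧸ c j) := by
    rw [permVal_sigma Xpos hf, Fintype.sum_sigma]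
    refine Finset.sum_congr rfl fun j _ => ?_
    change ∑ _i : Fin (b j).toNat, permVal f (G ⧸ c j) = _
    rw [Finset.sum_const, Finset.card_univ, Fintype.card_fin, nsmul_eq_mul]
  have hneg : permVal f (Σ i, Xneg i) = ∑ j, ((-b j).toNat : ℤ) * permVal f (G ⧸ c j) := by
    rw [permVal_sigma Xneg hf, Fintype.sum_sigma]
    refine Finset.sum_congr rfl fun j _ => ?_
    change ∑ _i : Fin (-b j).toNat, permVal f (G ⧸ c j) = _
    rw [Finset.sum_const, Finset.card_univ, Fintype.card_fin, nsmul_eq_mul]
  have hfix : ∀ g : G, Nat.card (MulAction.fixedBy (Σ i, Xpos i) g) =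
      Nat.card (MulAction.fixedBy (Σ i, Xneg i) g) := by
    intro g
    rw [card_fixedBy_sigma, card_fixedBy_sigma]
    have h1 : ((∑ i : Ipos, Nat.card (MulAction.fixedBy (Xpos i) g) : ℕ) : ℤ) =
        ∑ j, ((b j).toNat : ℤ) * (fixCount (c j) g : ℤ) := by
      rw [Fintype.sum_sigma]
      push_cast
      refine Finset.sum_congr rfl fun j _ => ?_
      change ∑ _i : Fin (b j).toNat, ((fixCount (c j) g : ℕ) : ℤ) = _
      rw [Finset.sum_const, Finset.card_univ, Fintype.card_fin, nsmul_eq_mul]
    have h2 : ((∑ i : Ineg, Nat.card (MulAction.fixedBy (Xneg i) g) : ℕ) : ℤ) =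
        ∑ j, ((-b j).toNat : ℤ) * (fixCount (c j) g : ℤ) := by
      rw [Fintype.sum_sigma]
      push_cast
      refine Finset.sum_congr rfl fun j _ => ?_
      change ∑ _i : Fin (-b j).toNat, ((fixCount (c j) g : ℕ) : ℤ) = _
      rw [Finset.sum_const, Finset.card_univ, Fintype.card_fin, nsmul_eq_mul]
    have h3 : ∑ j, ((b j).toNat : ℤ) * (fixCount (c j) g : ℤ) -
        ∑ j, ((-b j).toNat : ℤ) * (fixCount (c j) g : ℤ) = 0 := by
      rw [← Finset.sum_sub_distrib, ← h g]
      refine Finset.sum_congr rfl fun j _ => ?_
      rw [← sub_mul, Int.toNat_sub_toNat_neg]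
    have h4 : ((∑ i : Ipos, Nat.card (MulAction.fixedBy (Xpos i) g) : ℕ) : ℤ) =
        ((∑ i : Ineg, Nat.card (MulAction.fixedBy (Xneg i) g) : ℕ) : ℤ) := by
      rw [h1, h2]; linarith
    exact_mod_cast h4
  have hmain := permVal_eq_of_card_fixedBy_eq hf (Σ i, Xpos i) (Σ i, Xneg i) hfix
  rw [hpos, hneg] at hmain
  have : ∑ j, b j * permVal f (G ⧸ c j) =
      ∑ j, ((b j).toNat : ℤ) * permVal f (G ⧸ c j) -
        ∑ j, ((-b j).toNat : ℤ) * permVal f (G ⧸ c j) := by
    rw [← Finset.sum_sub_distrib]
    refine Finset.sum_congr rfl fun j _ => ?_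
    rw [← sub_mul, Int.toNat_sub_toNat_neg]
  rw [this, hmain, sub_self]

end compare

end Fermat.Agent.TW.GSetSum68
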