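/-
Programme TW (S56), sub-programme C (Greenberg–Wiles): THE CLOSING THEOREM (helper97).

`gwStatementW : GWStatementW p` — the weak Greenberg–Wiles package, unconditionally:
`GWFinal97.gwStatementW_of_lite` (all other bricks of C plugged in) applied to
`C1.MiddleLite69.middleExactLite` (helper69: RECIP + COUNT for `LocPair58.perp`).
-/
import Fermat.Agent.TW.GWFinal97
import Fermat.Agent.TW.C1.MiddleLite69

set_option autoImplicit false

namespace Fermat.Agent.TW.GWFinalC97

open Fermat.Agent.TW.GWIface2_97

variable {p : ℕ} [Fact p.Prime]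

/-- **Sub-programme C, closed**: the weak Greenberg–Wiles package. -/
theorem gwStatementW : GWStatementW p :=
  Fermat.Agent.TW.GWFinal97.gwStatementW_of_lite
    (fun hp2 S M hpS hM => Fermat.Agent.TW.C1.MiddleLite69.middleExactLite hp2 S hpS M hM)

end Fermat.Agent.TW.GWFinalC97
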