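/-
Programme TW (S56), sub-programme C (Greenberg–Wiles), brick C1 SLICE B (helper68):
**local invariants compatible with the global invariant `τ`**.

Generic part (PRO vocabulary): in the setting of `PT/PRO/MainGeneric20`, from
* `τ : H²_lev(G; C)[p] →+ ZMod p` injective,
* (S2) `res_q : H²_lev(G; I_q) → H²_lev(G_q; W_q)` injective,
* (LG) `t_* ∘ inc_{q*}` injective on `H²_lev(G; I_q)[p]`,
* some injective `τ_q : H²_lev(G_q; W_q)[p] →+ ZMod p` for every `q`,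
we construct `φ_q : H²_lev(G_q; W_q)[p] →+ ZMod p`, injective, with
(COMPAT) `φ_q (res_q w) = τ (t_* inc_{q*} w)` for all `w ∈ H²_lev(G; I_q)[p]`.
-/
import Mathlib
import Fermat.Agent.PT.PRO.PairingRes1
import Fermat.Agent.PT.PRO.InvP4

set_option autoImplicit false
set_option linter.style.haveILetI false
set_option linter.unusedSectionVars false

namespace Fermat.Agent.TW.GWLocInv68

open Function
open Fermat.Agent.PT.PRO.HyperLevel25 Fermat.Agent.PT.PRO.Resolved4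
open Fermat.Agent.PT.PRO.HyperRes25 Fermat.Agent.PT.PRO.PairingRes1
open Fermat.Agent.PT.PRO.InvP4

/-! ### Pure algebra -/

section algebra

variable {p : ℕ} [Fact p.Prime]

/-- If `U ↪ V` and both `U`, `V` embed in `ZMod p`, then the embedding of `U` extends to an
embedding of `V`. -/
theorem exists_injective_extension {U V : Type*} [AddCommGroup U] [AddCommGroup V]
    (ρ : U →+ V) (hρ : Injective ρ) (ψ : U →+ ZMod p) (hψ : Injective ψ)
    (τV : V →+ ZMod p) (hτV : Injective τV) :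
    ∃ φ : V →+ ZMod p, Injective φ ∧ ∀ u, φ (ρ u) = ψ u := by
  classical
  have hp : p.Prime := Fact.out
  haveI : NeZero p := ⟨hp.ne_zero⟩
  by_cases hU : ∀ u : U, u = 0
  · refine ⟨τV, hτV, fun u => ?_⟩
    rw [hU u, map_zero, map_zero, map_zero]
  · push Not at hU
    obtain ⟨u₀, hu₀⟩ := hU
    have hψu₀ : ψ u₀ ≠ 0 := fun h => hu₀ (hψ (by rw [h, map_zero]))
    -- `ψ` is surjective
    have hψsurj : Surjective ψ := by
      intro z
      refine ⟨(z * (ψ u₀)⁻¹).val • u₀, ?_⟩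
      rw [map_nsmul, nsmul_eq_mul, ZMod.natCast_val, ZMod.cast_id', id_eq, mul_assoc,
        inv_mul_cancel₀ hψu₀, mul_one]
    -- cardinalities
    haveI : Finite V := Finite.of_injective τV hτV
    have hcardU : Nat.card U = p := by
      rw [Nat.card_congr (Equiv.ofBijective ψ ⟨hψ, hψsurj⟩), Nat.card_zmod]
    have hcardV : Nat.card V ≤ p := by
      have := Nat.card_le_card_of_injective τV hτV
      rwa [Nat.card_zmod] at this
    have hbij : Bijective ρ :=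
      hρ.bijective_of_nat_card_le (by rw [hcardU]; exact hcardV)
    let e : U ≃+ V := AddEquiv.ofBijective ρ hbij
    refine ⟨ψ.comp e.symm.toAddMonoidHom, hψ.comp e.symm.injective, fun u => ?_⟩
    change ψ (e.symm (e u)) = ψ u
    rw [e.symm_apply_apply]

/-- Restriction of an additive map to the `p`-torsion. -/
def pTorMap (p : ℕ) {T T' : Type*} [AddCommGroup T] [AddCommGroup T'] (f : T →+ T') :
    pTor p T →+ pTor p T' where
  toFun x := ⟨f x.1, by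
    have hx : p • x.1 = 0 := x.2
    change p • f x.1 = 0
    rw [← map_nsmul, hx, map_zero]⟩
  map_zero' := Subtype.ext (map_zero f)
  map_add' x y := Subtype.ext (map_add f x.1 y.1)

theorem pTorMap_coe (p : ℕ) {T T' : Type*} [AddCommGroup T] [AddCommGroup T'] (f : T →+ T')
    (x : pTor p T) : ((pTorMap p f x : pTor p T') : T') = f x.1 := rfl

theorem map_mem_pTor {k : Type*} [Semiring k] {T T' : Type*} [AddCommGroup T] [AddCommGroup T']
    [Module k T] [Module k T'] (f : T →ₗ[k] T') {w : T} {p : ℕ} (hw : p • w = 0) :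
    p • f w = 0 := by
  rw [← map_nsmul, hw, map_zero]

end algebra

/-! ### One local place -/

section one

variable {k G G' : Type*} [CommRing k] [Group G] [Group G']
  {𝒰 : Set (Subgroup G)} {𝒰' : Set (Subgroup G')}
variable {I C Iq W : Type*} [AddCommGroup I] [Module k I] [AddCommGroup C] [Module k C]
  [AddCommGroup Iq] [Module k Iq] [AddCommGroup W] [Module k W]
variable (h𝒰 : IsLevelBasis 𝒰) (h𝒰' : IsLevelBasis 𝒰') {r : G' →* G}
  (hr : IsLevelHom r 𝒰' 𝒰)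
  {ρI : Representation k G I} (hI : IsDiscrete 𝒰 ρI)
  {ρC : Representation k G C} (hC : IsDiscrete 𝒰 ρC)
  {ρIq : Representation k G Iq} (hIq : IsDiscrete 𝒰 ρIq)
  {ρW : Representation k G' W} (hW : IsDiscrete 𝒰' ρW)
  (t : I →ₗ[k] C) (ht : ∀ g x, t (ρI g x) = ρC g (t x))
  (inc : Iq →ₗ[k] I) (hinc : ∀ g x, inc (ρIq g x) = ρI g (inc x))
  (ev : Iq →ₗ[k] W) (hev : ∀ g x, ev (ρIq (r g) x) = ρW g (ev x))

/-- **The local invariant at one place, compatible with `τ`.** -/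
theorem exists_localInv_one (p : ℕ) [Fact p.Prime]
    (τ : pTor p (Hlev2 h𝒰 ρC hC) →+ ZMod p) (hτ : Injective τ)
    (hS2 : Injective (resH2 hr h𝒰 h𝒰' hIq hW ev hev))
    (hLG : ∀ w : Hlev2 h𝒰 ρIq hIq, p • w = 0 →
      (lvlHom h𝒰 hI hC t ht).mapH2 ((lvlHom h𝒰 hIq hI inc hinc).mapH2 w) = 0 → w = 0)
    (τq : pTor p (Hlev2 h𝒰' ρW hW) →+ ZMod p) (hτq : Injective τq) :
    ∃ φ : pTor p (Hlev2 h𝒰' ρW hW) →+ ZMod p, Injective φ ∧
      ∀ (w : Hlev2 h𝒰 ρIq hIq) (hw : p • w = 0),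
        φ ⟨resH2 hr h𝒰 h𝒰' hIq hW ev hev w, map_mem_pTor _ hw⟩ =
          τ ⟨(lvlHom h𝒰 hI hC t ht).mapH2 ((lvlHom h𝒰 hIq hI inc hinc).mapH2 w),
            map_mem_pTor _ (map_mem_pTor _ hw)⟩ := by
  let ρ : pTor p (Hlev2 h𝒰 ρIq hIq) →+ pTor p (Hlev2 h𝒰' ρW hW) :=
    pTorMap p (resH2 hr h𝒰 h𝒰' hIq hW ev hev).toAddMonoidHom
  let ψ : pTor p (Hlev2 h𝒰 ρIq hIq) →+ ZMod p :=
    τ.comp (pTorMap p (((lvlHom h𝒰 hI hC t ht).mapH2).comp
      ((lvlHom h𝒰 hIq hI inc hinc).mapH2)).toAddMonoidHom)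
  have hρ : Injective ρ := by
    intro x y hxy
    apply Subtype.ext
    apply hS2
    exact congrArg Subtype.val hxy
  have hψ : Injective ψ := by
    rw [injective_iff_map_eq_zero]
    intro x hx
    have h1 : pTorMap p (((lvlHom h𝒰 hI hC t ht).mapH2).comp
        ((lvlHom h𝒰 hIq hI inc hinc).mapH2)).toAddMonoidHom x = 0 := by
      apply hτ
      rw [map_zero]
      exact hx
    have h2 : (lvlHom h𝒰 hI hC t ht).mapH2 ((lvlHom h𝒰 hIq hI inc hinc).mapH2 x.1) = 0 :=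
      congrArg Subtype.val h1
    exact Subtype.ext (hLG x.1 x.2 h2)
  obtain ⟨φ, hφ, hcompat⟩ := exists_injective_extension ρ hρ ψ hψ τq hτq
  exact ⟨φ, hφ, fun w hw => hcompat ⟨w, hw⟩⟩

end one

/-! ### All places -/

section all

variable {k G : Type*} [CommRing k] [Group G] {𝒰 : Set (Subgroup G)}
variable {ι : Type*} {Gq : ι → Type*} [∀ q, Group (Gq q)] {𝒰q : ∀ q, Set (Subgroup (Gq q))}
variable {I C : Type*} [AddCommGroup I] [Module k I] [AddCommGroup C] [Module k C]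
variable {Iq W : ι → Type*} [∀ q, AddCommGroup (Iq q)] [∀ q, Module k (Iq q)]
  [∀ q, AddCommGroup (W q)] [∀ q, Module k (W q)]
variable (h𝒰 : IsLevelBasis 𝒰) (h𝒰q : ∀ q, IsLevelBasis (𝒰q q))
  (r : ∀ q, Gq q →* G) (hr : ∀ q, IsLevelHom (r q) (𝒰q q) 𝒰)
  {ρI : Representation k G I} (hI : IsDiscrete 𝒰 ρI)
  {ρC : Representation k G C} (hC : IsDiscrete 𝒰 ρC)
  {ρIq : ∀ q, Representation k G (Iq q)} (hIq : ∀ q, IsDiscrete 𝒰 (ρIq q))
  {ρW : ∀ q, Representation k (Gq q) (W q)} (hW : ∀ q, IsDiscrete (𝒰q q) (ρW q))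
  (t : I →ₗ[k] C) (ht : ∀ g x, t (ρI g x) = ρC g (t x))
  (inc : ∀ q, Iq q →ₗ[k] I) (hinc : ∀ q g x, inc q (ρIq q g x) = ρI g (inc q x))
  (ev : ∀ q, Iq q →ₗ[k] W q) (hev : ∀ q g x, ev q (ρIq q (r q g) x) = ρW q g (ev q x))

/-- **Local invariants compatible with `τ`** (generic form, setting of `MainGeneric20`). -/
theorem exists_localInv (p : ℕ) [Fact p.Prime]
    (τ : pTor p (Hlev2 h𝒰 ρC hC) →+ ZMod p) (hτ : Injective τ)
    (hS2 : ∀ q, Injective (resH2 (hr q) h𝒰 (h𝒰q q) (hIq q) (hW q) (ev q) (hev q)))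
    (hLG : ∀ q (w : Hlev2 h𝒰 (ρIq q) (hIq q)), p • w = 0 →
      (lvlHom h𝒰 hI hC t ht).mapH2 ((lvlHom h𝒰 (hIq q) hI (inc q) (hinc q)).mapH2 w) = 0 → w = 0)
    (hτq : ∀ q, ∃ τq : pTor p (Hlev2 (h𝒰q q) (ρW q) (hW q)) →+ ZMod p, Injective τq) :
    ∃ φ : ∀ q, pTor p (Hlev2 (h𝒰q q) (ρW q) (hW q)) →+ ZMod p,
      (∀ q, Injective (φ q)) ∧
      ∀ q (w : Hlev2 h𝒰 (ρIq q) (hIq q)) (hw : p • w = 0),
        φ q ⟨resH2 (hr q) h𝒰 (h𝒰q q) (hIq q) (hW q) (ev q) (hev q) w, map_mem_pTor _ hw⟩ =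
          τ ⟨(lvlHom h𝒰 hI hC t ht).mapH2
            ((lvlHom h𝒰 (hIq q) hI (inc q) (hinc q)).mapH2 w),
            map_mem_pTor _ (map_mem_pTor _ hw)⟩ := by
  have h : ∀ q, ∃ φ : pTor p (Hlev2 (h𝒰q q) (ρW q) (hW q)) →+ ZMod p, Injective φ ∧
      ∀ (w : Hlev2 h𝒰 (ρIq q) (hIq q)) (hw : p • w = 0),
        φ ⟨resH2 (hr q) h𝒰 (h𝒰q q) (hIq q) (hW q) (ev q) (hev q) w, map_mem_pTor _ hw⟩ =
          τ ⟨(lvlHom h𝒰 hI hC t ht).mapH2
            ((lvlHom h𝒰 (hIq q) hI (inc q) (hinc q)).mapH2 w),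
            map_mem_pTor _ (map_mem_pTor _ hw)⟩ := by
    intro q
    obtain ⟨τq, hτq'⟩ := hτq q
    exact exists_localInv_one h𝒰 (h𝒰q q) (hr q) hI hC (hIq q) (hW q) t ht (inc q) (hinc q)
      (ev q) (hev q) p τ hτ (hS2 q) (hLG q) τq hτq'
  choose φ hφ hcompat using h
  exact ⟨φ, hφ, hcompat⟩

end all

end Fermat.Agent.TW.GWLocInv68
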