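/-
Programme TW (S56), brick C3-R2 (helper68): **generator calculus** for representations of a
cyclic group over a field, in terms of one generator.

* `twFix π a = {x : P → N | ∀ v, x (π v) = a (x v)}`;
* `commSub a b = {f : N →ₗ Y | f ∘ a = b ∘ f}`, `hom a b = finrank (commSub a b)`;
* (g1) for `C = ⟨c₀⟩`: `ρ.invariants = ker (ρ c₀ - 1)`,
  `(linHom ρ τ).invariants = commSub (ρ c₀) (τ c₀)`,
  `equivFun ρ X = twFix (toPerm c₀) (ρ c₀)` (`C`-equivariant functions on a `C`-set);
* (g2) `hom a b` is invariant under conjugation of `b`, additive in `b` for `prodMap`,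
  `hom a (c • 1) = finrank ker (a - c • 1)`, `hom a (permEnd π) = finrank (twFix π a)`;
  `twFix` of a permutation preserving a decomposition `P₁ ⊕ P₂`, `Σ i, Q i`, or the fibres of an
  invariant function is the product of the `twFix`'s.
Mathlib + `DirHerb5.SemisimpleConj.Conj`, `DirHerb5.LatticeCharpoly.permEnd`.
-/
import Mathlib
import Fermat.Agent.TW.DirHerb5.SemisimpleConj
import Fermat.Agent.TW.DirHerb5.LatticeCharpoly

set_option autoImplicit false
set_option linter.style.haveILetI false
set_option linter.unusedSectionVars false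
set_option linter.unusedTactic false

namespace Fermat.Agent.TW.GenCalc68

open Module Fermat.Agent.TW.DirHerb5.SemisimpleConj Fermat.Agent.TW.DirHerb5.LatticeCharpoly

variable {k : Type*} [Field k]

/-! ### Definitions -/

section defs

variable {P : Type*} {N : Type*} [AddCommGroup N] [Module k N] {Y : Type*} [AddCommGroup Y]
  [Module k Y]

/-- Twisted fixed functions: `x (π v) = a (x v)`. -/
def twFix (π : Equiv.Perm P) (a : N →ₗ[k] N) : Submodule k (P → N) where
  carrier := {x | ∀ v, x (π v) = a (x v)}
  add_mem' {x y} hx hy v := by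
    change x (π v) + y (π v) = a (x v + y v)
    rw [hx v, hy v, map_add]
  zero_mem' v := by
    change (0 : N) = a 0
    rw [map_zero]
  smul_mem' c x hx v := by
    change c • x (π v) = a (c • x v)
    rw [hx v, map_smul]

theorem mem_twFix {π : Equiv.Perm P} {a : N →ₗ[k] N} {x : P → N} :
    x ∈ twFix π a ↔ ∀ v, x (π v) = a (x v) := Iff.rfl

/-- Linear maps intertwining `a` and `b`. -/
def commSub (a : N →ₗ[k] N) (b : Y →ₗ[k] Y) : Submodule k (N →ₗ[k] Y) where
  carrier := {f | f ∘ₗ a = b ∘ₗ f}
  add_mem' {f g} hf hg := by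
    change (f + g) ∘ₗ a = b ∘ₗ (f + g)
    rw [LinearMap.add_comp, LinearMap.comp_add, hf, hg]
  zero_mem' := by
    change (0 : N →ₗ[k] Y) ∘ₗ a = b ∘ₗ 0
    rw [LinearMap.zero_comp, LinearMap.comp_zero]
  smul_mem' c f hf := by
    change (c • f) ∘ₗ a = b ∘ₗ (c • f)
    rw [LinearMap.smul_comp, LinearMap.comp_smul, hf]

theorem mem_commSub {a : N →ₗ[k] N} {b : Y →ₗ[k] Y} {f : N →ₗ[k] Y} :
    f ∈ commSub a b ↔ f ∘ₗ a = b ∘ₗ f := Iff.rfl

theorem mem_commSub' {a : N →ₗ[k] N} {b : Y →ₗ[k] Y} {f : N →ₗ[k] Y} :
    f ∈ commSub a b ↔ ∀ n, f (a n) = b (f n) := by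
  rw [mem_commSub]
  constructor
  · intro h n
    exact LinearMap.congr_fun h n
  · intro h
    exact LinearMap.ext h

/-- `dim Hom_{k[x]}((N, a), (Y, b))`. -/
noncomputable def hom (a : N →ₗ[k] N) (b : Y →ₗ[k] Y) : ℕ := finrank k (commSub a b)

end defs

/-! ### (g1) cyclic groups -/

section cyclic

variable {C : Type*} [Group C] {N : Type*} [AddCommGroup N] [Module k N] {Y : Type*}
  [AddCommGroup Y] [Module k Y]

/-- A property of elements of a group generated by `c₀` which holds for `c₀` and is stable
under products and inverses holds everywhere. -/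
theorem forall_of_zpowers_eq_top {c₀ : C} (h : Subgroup.zpowers c₀ = ⊤) (p : C → Prop)
    (h1 : p 1) (hmul : ∀ a b, p a → p b → p (a * b)) (hinv : ∀ a, p a → p a⁻¹) (h0 : p c₀) :
    ∀ c, p c := by
  let H : Subgroup C :=
    { carrier := {c | p c}
      mul_mem' := fun {a b} ha hb => hmul a b ha hb
      one_mem' := h1
      inv_mem' := fun {a} ha => hinv a ha }
  have hle : Subgroup.zpowers c₀ ≤ H := by
    rw [Subgroup.zpowers_le]
    exact h0
  intro c
  have : c ∈ Subgroup.zpowers c₀ := by rw [h]; exact Subgroup.mem_top c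
  exact hle this

/-- The invariants of a cyclic group are the fixed vectors of a generator. -/
theorem invariants_eq_ker_sub_one {c₀ : C} (h : Subgroup.zpowers c₀ = ⊤)
    (ρ : Representation k C N) : ρ.invariants = LinearMap.ker (ρ c₀ - 1) := by
  ext v
  rw [Representation.mem_invariants, LinearMap.mem_ker, LinearMap.sub_apply,
    Module.End.one_apply, sub_eq_zero]
  constructor
  · intro hv
    exact hv c₀
  · intro hv
    refine forall_of_zpowers_eq_top h (fun c => ρ c v = v) ?_ ?_ ?_ hv
    · rw [map_one, Module.End.one_apply]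
    · intro a b ha hb
      rw [map_mul, Module.End.mul_apply, hb, ha]
    · intro a ha
      have : ρ a⁻¹ (ρ a v) = v := by
        rw [← Module.End.mul_apply, ← map_mul, inv_mul_cancel, map_one, Module.End.one_apply]
      rw [ha] at this
      exact this

/-- `Hom_C(N, Y)` is cut out by commutation with a generator. -/
theorem linHom_invariants_eq {c₀ : C} (h : Subgroup.zpowers c₀ = ⊤)
    (ρ : Representation k C N) (τ : Representation k C Y) :
    (Representation.linHom ρ τ).invariants = commSub (ρ c₀) (τ c₀) := by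
  rw [invariants_eq_ker_sub_one h]
  ext f
  rw [LinearMap.mem_ker, LinearMap.sub_apply, Module.End.one_apply, sub_eq_zero,
    Representation.linHom_apply, mem_commSub]
  have hinv : ρ c₀⁻¹ ∘ₗ ρ c₀ = LinearMap.id := by
    change ρ c₀⁻¹ * ρ c₀ = 1
    rw [← map_mul, inv_mul_cancel, map_one]
  have hinv' : ρ c₀ ∘ₗ ρ c₀⁻¹ = LinearMap.id := by
    change ρ c₀ * ρ c₀⁻¹ = 1
    rw [← map_mul, mul_inv_cancel, map_one]
  constructor
  · intro hf
    rw [← hf, LinearMap.comp_assoc, LinearMap.comp_assoc, hinv, LinearMap.comp_id, hf]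
  · intro hf
    rw [← LinearMap.comp_assoc, ← hf, LinearMap.comp_assoc, hinv', LinearMap.comp_id]

variable {X : Type*} [MulAction C X]

/-- `C`-equivariant functions on a `C`-set. -/
def equivFun (ρ : Representation k C N) (X : Type*) [MulAction C X] : Submodule k (X → N) where
  carrier := {x | ∀ (c : C) (v : X), x (c • v) = ρ c (x v)}
  add_mem' {x y} hx hy c v := by
    change x (c • v) + y (c • v) = ρ c (x v + y v)
    rw [hx c v, hy c v, map_add]
  zero_mem' c v := by
    change (0 : N) = ρ c 0
    rw [map_zero]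
  smul_mem' r x hx c v := by
    change r • x (c • v) = ρ c (r • x v)
    rw [hx c v, map_smul]

theorem mem_equivFun {ρ : Representation k C N} {x : X → N} :
    x ∈ equivFun ρ X ↔ ∀ (c : C) (v : X), x (c • v) = ρ c (x v) := Iff.rfl

/-- Equivariant functions on a `C`-set, `C = ⟨c₀⟩`, are the twisted fixed functions of `c₀`. -/
theorem equivFun_eq_twFix {c₀ : C} (h : Subgroup.zpowers c₀ = ⊤) (ρ : Representation k C N) :
    equivFun ρ X = twFix (MulAction.toPerm c₀) (ρ c₀) := by
  ext x
  rw [mem_equivFun, mem_twFix]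
  constructor
  · intro hx v
    exact hx c₀ v
  · intro hx
    refine forall_of_zpowers_eq_top h (fun c => ∀ v, x (c • v) = ρ c (x v)) ?_ ?_ ?_ hx
    · intro v
      rw [one_smul, map_one, Module.End.one_apply]
    · intro a b ha hb v
      rw [mul_smul, ha, hb, map_mul, Module.End.mul_apply]
    · intro a ha v
      have h1 := ha (a⁻¹ • v)
      rw [smul_inv_smul] at h1
      rw [h1, ← Module.End.mul_apply, ← map_mul, inv_mul_cancel, map_one, Module.End.one_apply]

end cyclic

/-! ### (g2) the numbers `hom a b` -/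

section homSec

variable {N : Type*} [AddCommGroup N] [Module k N] {Y : Type*} [AddCommGroup Y] [Module k Y]
  {Y' : Type*} [AddCommGroup Y'] [Module k Y'] {N' : Type*} [AddCommGroup N'] [Module k N']

/-- `hom a b` only depends on the conjugacy class of `b`. -/
theorem hom_congr_right (a : N →ₗ[k] N) {b : End k Y} {b' : End k Y'} (h : Conj b b') :
    hom a b = hom a b' := by
  obtain ⟨e, he⟩ := h
  have hmap : (commSub a b).map (LinearEquiv.congrRight e : (N →ₗ[k] Y) ≃ₗ[k] (N →ₗ[k] Y')).toLinearMap
      = commSub a b' := by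
    ext f'
    rw [Submodule.mem_map, mem_commSub']
    constructor
    · rintro ⟨f, hf, rfl⟩ n
      rw [mem_commSub'] at hf
      change e (f (a n)) = b' (e (f n))
      rw [hf, he]
    · intro hf'
      refine ⟨(e.symm : Y' →ₗ[k] Y) ∘ₗ f', ?_, ?_⟩
      · rw [mem_commSub']
        intro n
        change e.symm (f' (a n)) = b (e.symm (f' n))
        apply e.injective
        rw [he, e.apply_symm_apply, e.apply_symm_apply, hf']
      · apply LinearMap.ext
        intro n
        change e (e.symm (f' n)) = f' n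
        rw [e.apply_symm_apply]
  unfold hom
  rw [← hmap]
  exact (LinearEquiv.finrank_map_eq _ _).symm

/-- `hom a b` only depends on the conjugacy class of `a`. -/
theorem hom_congr_left {a : End k N} {a' : End k N'} (h : Conj a a') (b : Y →ₗ[k] Y) :
    hom a b = hom a' b := by
  obtain ⟨e, he⟩ := h
  have hmap : (commSub a b).map (LinearEquiv.congrLeft Y k e : (N →ₗ[k] Y) ≃ₗ[k] (N' →ₗ[k] Y)).toLinearMap
      = commSub a' b := by
    ext f'
    rw [Submodule.mem_map, mem_commSub']
    constructor
    · rintro ⟨f, hf, rfl⟩ n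
      rw [mem_commSub'] at hf
      change f (e.symm (a' n)) = b (f (e.symm n))
      rw [← hf]
      congr 1
      apply e.injective
      rw [he, e.apply_symm_apply, e.apply_symm_apply]
    · intro hf'
      refine ⟨f' ∘ₗ (e : N →ₗ[k] N'), ?_, ?_⟩
      · rw [mem_commSub']
        intro n
        change f' (e (a n)) = b (f' (e n))
        rw [he, hf']
      · apply LinearMap.ext
        intro n
        change f' (e (e.symm n)) = f' n
        rw [e.apply_symm_apply]
  unfold hom
  rw [← hmap]
  exact (LinearEquiv.finrank_map_eq _ _).symm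

/-- Intertwiners into a product. -/
def commSubProdEquiv (a : N →ₗ[k] N) (b : Y →ₗ[k] Y) (b' : Y' →ₗ[k] Y') :
    commSub a (b.prodMap b') ≃ₗ[k] (commSub a b × commSub a b') where
  toFun f := (⟨(LinearMap.fst k Y Y') ∘ₗ f.1, by
      rw [mem_commSub']
      intro n
      have := (mem_commSub'.mp f.2) n
      exact congrArg Prod.fst this⟩,
    ⟨(LinearMap.snd k Y Y') ∘ₗ f.1, by
      rw [mem_commSub']
      intro n
      have := (mem_commSub'.mp f.2) n
      exact congrArg Prod.snd this⟩)
  map_add' f g := rfl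
  map_smul' c f := rfl
  invFun g := ⟨g.1.1.prod g.2.1, by
    rw [mem_commSub']
    intro n
    change (g.1.1 (a n), g.2.1 (a n)) = (b (g.1.1 n), b' (g.2.1 n))
    rw [(mem_commSub'.mp g.1.2) n, (mem_commSub'.mp g.2.2) n]⟩
  left_inv f := by
    apply Subtype.ext
    apply LinearMap.ext
    intro n
    rfl
  right_inv g := by
    apply Prod.ext
    · apply Subtype.ext
      apply LinearMap.ext
      intro n
      rfl
    · apply Subtype.ext
      apply LinearMap.ext
      intro n
      rfl

/-- `hom a` is additive on products. -/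
theorem hom_prodMap [FiniteDimensional k N] [FiniteDimensional k Y] [FiniteDimensional k Y']
    (a : N →ₗ[k] N) (b : Y →ₗ[k] Y) (b' : Y' →ₗ[k] Y') :
    hom a (b.prodMap b') = hom a b + hom a b' := by
  unfold hom
  rw [LinearEquiv.finrank_eq (commSubProdEquiv a b b'), finrank_prod]

/-- The kernel of the transpose has the dimension of the kernel. -/
theorem finrank_ker_dualMap [FiniteDimensional k N] (g : N →ₗ[k] N) :
    finrank k (LinearMap.ker g.dualMap) = finrank k (LinearMap.ker g) := by
  have h1 := LinearMap.finrank_range_add_finrank_ker g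
  have h2 := LinearMap.finrank_range_add_finrank_ker g.dualMap
  have h3 := LinearMap.finrank_range_dualMap_eq_finrank_range g
  have h4 : finrank k (Dual k N) = finrank k N := Subspace.dual_finrank_eq
  omega

theorem dualMap_sub_smul_one (a : N →ₗ[k] N) (c : k) :
    (a - c • (1 : End k N)).dualMap = a.dualMap - c • (1 : End k (Dual k N)) := by
  apply LinearMap.ext
  intro f
  apply LinearMap.ext
  intro n
  simp only [LinearMap.dualMap_apply, LinearMap.sub_apply, LinearMap.smul_apply,
    Module.End.one_apply, map_sub, map_smul]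

/-- `dim Hom((N, a), (k, c)) = dim ker (a - c)`. -/
theorem hom_smul_one [FiniteDimensional k N] (a : N →ₗ[k] N) (c : k) :
    hom a (c • (1 : End k k)) = finrank k (LinearMap.ker (a - c • (1 : End k N))) := by
  have h : commSub a (c • (1 : End k k)) =
      LinearMap.ker (a.dualMap - c • (1 : End k (Dual k N))) := by
    ext f
    rw [mem_commSub', LinearMap.mem_ker]
    constructor
    · intro hf
      apply LinearMap.ext
      intro n
      simp only [LinearMap.sub_apply, LinearMap.dualMap_apply, LinearMap.smul_apply,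
        Module.End.one_apply, LinearMap.zero_apply]
      rw [hf n, LinearMap.smul_apply, Module.End.one_apply, sub_self]
    · intro hf n
      have := LinearMap.congr_fun hf n
      simp only [LinearMap.sub_apply, LinearMap.dualMap_apply, LinearMap.smul_apply,
        Module.End.one_apply, LinearMap.zero_apply, sub_eq_zero] at this
      rw [LinearMap.smul_apply, Module.End.one_apply]
      exact this
  unfold hom
  rw [h, ← dualMap_sub_smul_one, finrank_ker_dualMap]

end homSec

/-! ### `twFix` as a kernel, duality, and `hom a (permEnd π)` -/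

section twFixSec

variable {P : Type*} {N : Type*} [AddCommGroup N] [Module k N]

/-- The operator `(Θ x) v = a (x (π⁻¹ v))` on `P → N`. -/
def theta (π : Equiv.Perm P) (a : N →ₗ[k] N) : (P → N) →ₗ[k] (P → N) :=
  (a.compLeft P) ∘ₗ (LinearMap.funLeft k N π.symm)

theorem theta_apply (π : Equiv.Perm P) (a : N →ₗ[k] N) (x : P → N) (v : P) :
    theta π a x v = a (x (π.symm v)) := rfl

theorem twFix_eq_ker (π : Equiv.Perm P) (a : N →ₗ[k] N) :
    twFix π a = LinearMap.ker (theta π a - 1) := by
  ext x
  rw [mem_twFix, LinearMap.mem_ker, LinearMap.sub_apply, Module.End.one_apply, sub_eq_zero]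
  constructor
  · intro h
    funext v
    rw [theta_apply, ← h, Equiv.apply_symm_apply]
  · intro h v
    have := congrFun h (π v)
    rw [theta_apply, Equiv.symm_apply_apply] at this
    exact this.symm

variable [Fintype P] [FiniteDimensional k N]

/-- Duality: `twFix π⁻¹ aᵀ` and `twFix π a` have the same dimension. -/
theorem finrank_twFix_dual (π : Equiv.Perm P) (a : N →ₗ[k] N) :
    finrank k (twFix π⁻¹ a.dualMap) = finrank k (twFix π a) := by
  classical
  let E : (P → Dual k N) ≃ₗ[k] Dual k (P → N) := LinearMap.lsum k (fun _ : P => N) k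
  have hE : ∀ (y : P → Dual k N) (x : P → N), E y x = ∑ v, y v (x v) := by
    intro y x
    change (LinearMap.lsum k (fun _ : P => N) k y) x = _
    rw [LinearMap.lsum_apply, LinearMap.sum_apply]
    rfl
  have hcomm : ∀ y : P → Dual k N,
      (theta π a).dualMap (E y) = E (theta π⁻¹ a.dualMap y) := by
    intro y
    apply LinearMap.ext
    intro x
    rw [LinearMap.dualMap_apply, hE, hE]
    rw [← Equiv.sum_comp π (fun v => y v (theta π a x v))]
    refine Finset.sum_congr rfl fun u _ => ?_
    rw [theta_apply, theta_apply, Equiv.symm_apply_apply]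
    rfl
  have hmap : (twFix π⁻¹ a.dualMap).map (E : (P → Dual k N) →ₗ[k] Dual k (P → N)) =
      LinearMap.ker ((theta π a - 1).dualMap) := by
    have h1 : (theta π a - 1).dualMap = (theta π a).dualMap - 1 := by
      have := dualMap_sub_smul_one (theta π a) (1 : k)
      rw [one_smul, one_smul] at this
      exact this
    ext F
    rw [Submodule.mem_map, LinearMap.mem_ker, h1, LinearMap.sub_apply, Module.End.one_apply,
      sub_eq_zero]
    constructor
    · rintro ⟨y, hy, rfl⟩
      rw [twFix_eq_ker, LinearMap.mem_ker, LinearMap.sub_apply, Module.End.one_apply,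
        sub_eq_zero] at hy
      change (theta π a).dualMap (E y) = E y
      rw [hcomm, hy]
    · intro hF
      refine ⟨E.symm F, ?_, E.apply_symm_apply F⟩
      rw [twFix_eq_ker, LinearMap.mem_ker, LinearMap.sub_apply, Module.End.one_apply,
        sub_eq_zero]
      apply E.injective
      rw [← hcomm, E.apply_symm_apply, hF]
  have h2 : finrank k (twFix π⁻¹ a.dualMap) =
      finrank k ((twFix π⁻¹ a.dualMap).map (E : (P → Dual k N) →ₗ[k] Dual k (P → N))) :=
    (LinearEquiv.finrank_map_eq E _).symm
  rw [h2, hmap, finrank_ker_dualMap, ← twFix_eq_ker]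

/-- Intertwiners into a permutation module are twisted fixed families of functionals. -/
def commSubPermEquiv (π : Equiv.Perm P) (a : N →ₗ[k] N) :
    commSub a (permEnd k π) ≃ₗ[k] twFix π⁻¹ a.dualMap where
  toFun f := ⟨fun v => (LinearMap.proj v) ∘ₗ f.1, by
    rw [mem_twFix]
    intro v
    apply LinearMap.ext
    intro n
    have := congrFun ((mem_commSub'.mp f.2) n) v
    rw [permEnd_apply] at this
    change f.1 n (π⁻¹ v) = f.1 (a n) v
    exact this.symm⟩
  map_add' f g := rfl
  map_smul' c f := rfl
  invFun y := ⟨LinearMap.pi y.1, by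
    rw [mem_commSub']
    intro n
    funext v
    rw [permEnd_apply]
    have := LinearMap.congr_fun ((mem_twFix.mp y.2) v) n
    change y.1 (π⁻¹ v) n = y.1 v (a n) at this
    change y.1 v (a n) = y.1 (π.symm v) n
    exact this.symm⟩
  left_inv f := by
    apply Subtype.ext
    apply LinearMap.ext
    intro n
    rfl
  right_inv y := by
    apply Subtype.ext
    funext v
    apply LinearMap.ext
    intro n
    rfl

/-- `dim Hom((N, a), (k^P, π)) = dim twFix π a`. -/
theorem hom_permEnd (π : Equiv.Perm P) (a : N →ₗ[k] N) :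
    hom a (permEnd k π) = finrank k (twFix π a) := by
  unfold hom
  rw [LinearEquiv.finrank_eq (commSubPermEquiv π a), finrank_twFix_dual]

end twFixSec

/-! ### Decompositions of `twFix` -/

section decomp

variable {N : Type*} [AddCommGroup N] [Module k N]

/-- Transport of `twFix` along an equivalence of the underlying sets. -/
def twFixCongr {P Q : Type*} (e : P ≃ Q) (π : Equiv.Perm P) (π' : Equiv.Perm Q)
    (h : ∀ v, e (π v) = π' (e v)) (a : N →ₗ[k] N) : twFix π a ≃ₗ[k] twFix π' a where
  toFun x := ⟨fun w => x.1 (e.symm w), by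
    rw [mem_twFix]
    intro w
    have h1 : e.symm (π' w) = π (e.symm w) := by
      apply e.injective
      rw [e.apply_symm_apply, h, e.apply_symm_apply]
    change x.1 (e.symm (π' w)) = a (x.1 (e.symm w))
    rw [h1]
    exact (mem_twFix.mp x.2) _⟩
  map_add' x y := rfl
  map_smul' c x := rfl
  invFun y := ⟨fun v => y.1 (e v), by
    rw [mem_twFix]
    intro v
    change y.1 (e (π v)) = a (y.1 (e v))
    rw [h]
    exact (mem_twFix.mp y.2) _⟩
  left_inv x := by
    apply Subtype.ext
    funext v
    change x.1 (e.symm (e v)) = x.1 v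
    rw [e.symm_apply_apply]
  right_inv y := by
    apply Subtype.ext
    funext w
    change y.1 (e (e.symm w)) = y.1 w
    rw [e.apply_symm_apply]

theorem finrank_twFix_congr {P Q : Type*} (e : P ≃ Q) (π : Equiv.Perm P) (π' : Equiv.Perm Q)
    (h : ∀ v, e (π v) = π' (e v)) (a : N →ₗ[k] N) :
    finrank k (twFix π a) = finrank k (twFix π' a) :=
  LinearEquiv.finrank_eq (twFixCongr e π π' h a)

/-- `twFix` of a permutation of `P₁ ⊕ P₂` preserving both summands. -/
def twFixSumEquiv {P₁ P₂ : Type*} (π : Equiv.Perm (P₁ ⊕ P₂)) (π₁ : Equiv.Perm P₁)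
    (π₂ : Equiv.Perm P₂) (h₁ : ∀ v, π (Sum.inl v) = Sum.inl (π₁ v))
    (h₂ : ∀ v, π (Sum.inr v) = Sum.inr (π₂ v)) (a : N →ₗ[k] N) :
    twFix π a ≃ₗ[k] (twFix π₁ a × twFix π₂ a) where
  toFun x := (⟨fun v => x.1 (Sum.inl v), by
      rw [mem_twFix]
      intro v
      change x.1 (Sum.inl (π₁ v)) = a (x.1 (Sum.inl v))
      rw [← h₁]
      exact (mem_twFix.mp x.2) _⟩,
    ⟨fun v => x.1 (Sum.inr v), by
      rw [mem_twFix]
      intro v
      change x.1 (Sum.inr (π₂ v)) = a (x.1 (Sum.inr v))
      rw [← h₂]
      exact (mem_twFix.mp x.2) _⟩)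
  map_add' x y := rfl
  map_smul' c x := rfl
  invFun y := ⟨Sum.elim y.1.1 y.2.1, by
    rw [mem_twFix]
    rintro (v | v)
    · rw [h₁]
      exact (mem_twFix.mp y.1.2) v
    · rw [h₂]
      exact (mem_twFix.mp y.2.2) v⟩
  left_inv x := by
    apply Subtype.ext
    funext v
    rcases v with v | v <;> rfl
  right_inv y := by
    apply Prod.ext <;> rfl

theorem finrank_twFix_sum {P₁ P₂ : Type*} [Finite P₁] [Finite P₂] [FiniteDimensional k N]
    (π : Equiv.Perm (P₁ ⊕ P₂)) (π₁ : Equiv.Perm P₁)
    (π₂ : Equiv.Perm P₂) (h₁ : ∀ v, π (Sum.inl v) = Sum.inl (π₁ v))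
    (h₂ : ∀ v, π (Sum.inr v) = Sum.inr (π₂ v)) (a : N →ₗ[k] N) :
    finrank k (twFix π a) = finrank k (twFix π₁ a) + finrank k (twFix π₂ a) := by
  rw [LinearEquiv.finrank_eq (twFixSumEquiv π π₁ π₂ h₁ h₂ a), finrank_prod]

/-- `twFix` of a permutation of `Σ i, Q i` preserving the components. -/
def twFixSigmaEquiv {I : Type*} {Q : I → Type*} (π : Equiv.Perm (Σ i, Q i))
    (πi : ∀ i, Equiv.Perm (Q i)) (h : ∀ i v, π ⟨i, v⟩ = ⟨i, πi i v⟩) (a : N →ₗ[k] N) :
    twFix π a ≃ₗ[k] (∀ i, twFix (πi i) a) where
  toFun x := fun i => ⟨fun v => x.1 ⟨i, v⟩, by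
    rw [mem_twFix]
    intro v
    change x.1 ⟨i, πi i v⟩ = a (x.1 ⟨i, v⟩)
    rw [← h]
    exact (mem_twFix.mp x.2) _⟩
  map_add' x y := rfl
  map_smul' c x := rfl
  invFun y := ⟨fun w => (y w.1).1 w.2, by
    rw [mem_twFix]
    rintro ⟨i, v⟩
    rw [h]
    exact (mem_twFix.mp (y i).2) v⟩
  left_inv x := by
    apply Subtype.ext
    funext w
    rfl
  right_inv y := by
    funext i
    rfl

theorem finrank_twFix_sigma {I : Type*} [Fintype I] {Q : I → Type*} [∀ i, Finite (Q i)]
    [FiniteDimensional k N] (π : Equiv.Perm (Σ i, Q i))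
    (πi : ∀ i, Equiv.Perm (Q i)) (h : ∀ i v, π ⟨i, v⟩ = ⟨i, πi i v⟩) (a : N →ₗ[k] N) :
    finrank k (twFix π a) = ∑ i, finrank k (twFix (πi i) a) := by
  rw [LinearEquiv.finrank_eq (twFixSigmaEquiv π πi h a), finrank_pi_fintype]

/-- The permutation induced on a fibre of an invariant function. -/
def fibrePerm {P I : Type*} (π : Equiv.Perm P) (r : P → I) (hr : ∀ v, r (π v) = r v) (i : I) :
    Equiv.Perm {v // r v = i} :=
  π.subtypePerm (fun v => by rw [hr])

theorem fibrePerm_apply {P I : Type*} (π : Equiv.Perm P) (r : P → I) (hr : ∀ v, r (π v) = r v)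
    (i : I) (v : {v // r v = i}) : ((fibrePerm π r hr i v : {v // r v = i}) : P) = π v.1 := rfl

/-- `twFix` decomposes along the fibres of an invariant function. -/
theorem finrank_twFix_fibres {P I : Type*} [Finite P] [Fintype I] [FiniteDimensional k N]
    (π : Equiv.Perm P) (r : P → I) (hr : ∀ v, r (π v) = r v) (a : N →ₗ[k] N) :
    finrank k (twFix π a) = ∑ i, finrank k (twFix (fibrePerm π r hr i) a) := by
  let e : (Σ i, {v // r v = i}) ≃ P := Equiv.sigmaFiberEquiv r
  let π' : Equiv.Perm (Σ i, {v // r v = i}) := (e.trans π).trans e.symm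
  have he : ∀ w, e (π' w) = π (e w) := by
    intro w
    change e (e.symm (π (e w))) = π (e w)
    rw [e.apply_symm_apply]
  have hπ' : ∀ i (v : {v // r v = i}), π' ⟨i, v⟩ = ⟨i, fibrePerm π r hr i v⟩ := by
    intro i v
    apply e.injective
    rw [he]
    rfl
  rw [← finrank_twFix_congr e π' π he a, finrank_twFix_sigma π' (fibrePerm π r hr) hπ' a]

end decomp

/-! ### Corollaries in the form used by the numerics -/

section corollaries

variable {C : Type*} [Group C] {N : Type*} [AddCommGroup N] [Module k N] {Y : Type*}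
  [AddCommGroup Y] [Module k Y]

theorem finrank_linHom_invariants {c₀ : C} (h : Subgroup.zpowers c₀ = ⊤)
    (ρ : Representation k C N) (τ : Representation k C Y) :
    finrank k (Representation.linHom ρ τ).invariants = hom (ρ c₀) (τ c₀) := by
  rw [linHom_invariants_eq h]
  rfl

theorem finrank_invariants {c₀ : C} (h : Subgroup.zpowers c₀ = ⊤) (ρ : Representation k C N) :
    finrank k ρ.invariants = finrank k (LinearMap.ker (ρ c₀ - 1)) := by
  rw [invariants_eq_ker_sub_one h]

theorem finrank_equivFun {X : Type*} [MulAction C X] {c₀ : C} (h : Subgroup.zpowers c₀ = ⊤)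
    (ρ : Representation k C N) :
    finrank k (equivFun ρ X) = finrank k (twFix (MulAction.toPerm c₀ : Equiv.Perm X) (ρ c₀)) := by
  rw [equivFun_eq_twFix h]

theorem hom_one [FiniteDimensional k N] (a : N →ₗ[k] N) :
    hom a (1 : End k k) = finrank k (LinearMap.ker (a - 1)) := by
  have := hom_smul_one a (1 : k)
  rw [one_smul, one_smul] at this
  exact this

end corollaries

end Fermat.Agent.TW.GenCalc68
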