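/-
Programme TW (S56), sub-programme C4 (local Euler characteristic, architect helper74), brick C4-LFb
(helper49), ABSTRACT CORE:  higher unit groups `1 + 𝔪^n` of a complete discrete valuation ring `A` of
mixed characteristic `(0, p)` with `(p) = 𝔪^e`.

* `higherUnits I n : Subgroup Aˣ`  (`= {u | u - 1 ∈ I^n}`, any ideal `I` of any commutative ring);
* `add_pow_prime_expand` : `(s + y)^p = s^p + p s^(p-1) y + p y^2 a + y^p`;
* `pow_prime_mem_higherUnits` : `u ∈ U^(n)`, `(p-1) n ≥ e`  ⇒  `u^p ∈ U^(n+e)`;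
* `eq_one_of_pow_prime_eq_one` : no `p`-torsion in `U^(n)` for `(p-1) n > e`;
* `exists_pow_prime_eq` : every element of `U^(n+e)` is a `p`-th power of an element of `U^(n)`
  for `(p-1) n > e` (successive approximation, completeness);
* `powPrime_bijective` : `u ↦ u^p` is a bijection `U^(n) → U^(n+e)` for `(p-1) n > e`.
-/
import Mathlib

set_option autoImplicit false

open IsLocalRing

namespace Fermat.Agent.TW.LEulUnitsB49

section General

variable {A : Type*} [CommRing A] (I : Ideal A)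

/-- The higher unit group `U^(n) = 1 + I^n`, as a subgroup of `Aˣ`. -/
def higherUnits (n : ℕ) : Subgroup Aˣ where
  carrier := {u | (u : A) - 1 ∈ I ^ n}
  one_mem' := by
    show ((1 : Aˣ) : A) - 1 ∈ I ^ n
    rw [Units.val_one, sub_self]
    exact zero_mem _
  mul_mem' := fun {a b} ha hb => by
    show ((a * b : Aˣ) : A) - 1 ∈ I ^ n
    have h : ((a * b : Aˣ) : A) - 1 = (a : A) * ((b : A) - 1) + ((a : A) - 1) := by
      rw [Units.val_mul]; ring
    rw [h]
    exact add_mem (Ideal.mul_mem_left _ _ hb) ha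
  inv_mem' := fun {a} ha => by
    show ((a⁻¹ : Aˣ) : A) - 1 ∈ I ^ n
    have h : ((a⁻¹ : Aˣ) : A) - 1 = -(((a⁻¹ : Aˣ) : A) * ((a : A) - 1)) := by
      rw [mul_sub, Units.inv_mul, mul_one]; ring
    rw [h]
    exact neg_mem (Ideal.mul_mem_left _ _ ha)

theorem mem_higherUnits {n : ℕ} {u : Aˣ} : u ∈ higherUnits I n ↔ (u : A) - 1 ∈ I ^ n := Iff.rfl

theorem higherUnits_anti {m n : ℕ} (h : m ≤ n) : higherUnits I n ≤ higherUnits I m :=
  fun _ hu => Ideal.pow_le_pow_right h hu

/-- `(s + y)^p = s^p + p s^(p-1) y + p y^2 a + y^p`. -/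
theorem add_pow_prime_expand {p : ℕ} (hp : p.Prime) (s y : A) :
    ∃ a : A, (s + y) ^ p = s ^ p + (p : A) * s ^ (p - 1) * y + (p : A) * y ^ 2 * a + y ^ p := by
  have h := add_pow_prime_eq hp y s
  have h1 : (1 : ℕ) ∈ Finset.Ioo 0 p := Finset.mem_Ioo.mpr ⟨Nat.one_pos, hp.one_lt⟩
  rw [← Finset.add_sum_erase _ _ h1] at h
  have hdvd : y ∣ ∑ k ∈ (Finset.Ioo 0 p).erase 1,
      y ^ (k - 1) * s ^ (p - k - 1) * ((p.choose k / p : ℕ) : A) := by
    refine Finset.dvd_sum fun k hk => ?_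
    have hk1 : k ≠ 1 := (Finset.mem_erase.mp hk).1
    have hk0 : 0 < k := (Finset.mem_Ioo.mp (Finset.mem_erase.mp hk).2).1
    have : 1 ≤ k - 1 := by omega
    exact Dvd.dvd.mul_right (Dvd.dvd.mul_right (dvd_pow_self y (by omega)) _) _
  obtain ⟨t, ht⟩ := hdvd
  have hc : ((p.choose 1 / p : ℕ) : A) = 1 := by
    rw [Nat.choose_one_right, Nat.div_self hp.pos, Nat.cast_one]
  refine ⟨s * t, ?_⟩
  rw [add_comm s y, h, ht, hc, Nat.sub_self, pow_zero, one_mul, mul_one]
  have hs : s * s ^ (p - 1 - 1) = s ^ (p - 1) := by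
    rw [← pow_succ']
    congr 1
    have := hp.two_le
    omega
  calc y ^ p + s ^ p + (p : A) * y * s * (s ^ (p - 1 - 1) + y * t)
      = s ^ p + (p : A) * (s * s ^ (p - 1 - 1)) * y + (p : A) * y ^ 2 * (s * t) + y ^ p := by ring
    _ = _ := by rw [hs]

theorem pow_sub_one_mem {n : ℕ} {s : A} (hs : s - 1 ∈ I ^ n) (j : ℕ) : s ^ j - 1 ∈ I ^ n := by
  have h : s ^ j - 1 = (∑ i ∈ Finset.range j, s ^ i) * (s - 1) := (geom_sum_mul s j).symm
  rw [h]
  exact Ideal.mul_mem_left _ _ hs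

/-- `u ∈ U^(n)`, `p ∈ I^e`, `e ≤ (p-1) n`  ⇒  `u^p ∈ U^(n+e)`. -/
theorem pow_prime_sub_one_mem {p : ℕ} (hp : p.Prime) {e n : ℕ} (hpe : (p : A) ∈ I ^ e)
    (hn : e ≤ (p - 1) * n) {s : A} (hs : s - 1 ∈ I ^ n) : s ^ p - 1 ∈ I ^ (n + e) := by
  obtain ⟨a, ha⟩ := add_pow_prime_expand hp (1 : A) (s - 1)
  have h : s ^ p - 1 = (p : A) * (s - 1) + (p : A) * (s - 1) ^ 2 * a + (s - 1) ^ p := by
    have : s = 1 + (s - 1) := by ring
    rw [this, ha]; ring
  rw [h]
  have hp2 := hp.two_le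
  refine add_mem (add_mem ?_ ?_) ?_
  · rw [add_comm n e, pow_add]
    exact Ideal.mul_mem_mul hpe hs
  · have : (p : A) * (s - 1) ^ 2 * a = ((p : A) * (s - 1)) * ((s - 1) * a) := by ring
    rw [this, add_comm n e, pow_add]
    exact Ideal.mul_mem_right _ _ (Ideal.mul_mem_mul hpe hs)
  · have h1 : (s - 1) ^ p ∈ (I ^ n) ^ p := Ideal.pow_mem_pow hs p
    rw [← pow_mul] at h1
    refine Ideal.pow_le_pow_right ?_ h1
    have : n * p = n + (p - 1) * n := by
      have : p = 1 + (p - 1) := by omega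
      calc n * p = n * (1 + (p - 1)) := by rw [← this]
        _ = n + (p - 1) * n := by ring
    omega

theorem pow_prime_mem_higherUnits {p : ℕ} (hp : p.Prime) {e n : ℕ} (hpe : (p : A) ∈ I ^ e)
    (hn : e ≤ (p - 1) * n) {u : Aˣ} (hu : u ∈ higherUnits I n) :
    u ^ p ∈ higherUnits I (n + e) := by
  show ((u ^ p : Aˣ) : A) - 1 ∈ I ^ (n + e)
  rw [Units.val_pow_eq_pow_val]
  exact pow_prime_sub_one_mem I hp hpe hn hu

theorem mul_mem_pow_of_le {a b c : ℕ} {x y : A} (hx : x ∈ I ^ a) (hy : y ∈ I ^ b)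
    (h : c ≤ a + b) : x * y ∈ I ^ c :=
  Ideal.pow_le_pow_right h (by rw [pow_add]; exact Ideal.mul_mem_mul hx hy)

/-- Limits of `I`-adic Cauchy sequences (in the form `f (k+1) - f k ∈ I^k`). -/
theorem exists_limit [IsPrecomplete I A] (f : ℕ → A) (hf : ∀ k, f (k + 1) - f k ∈ I ^ k) :
    ∃ L : A, ∀ k, L - f k ∈ I ^ k := by
  have hmn : ∀ {m n : ℕ}, m ≤ n → f n - f m ∈ I ^ m := by
    intro m n hmn
    induction hmn with
    | refl => rw [sub_self]; exact zero_mem _
    | step hmk ih =>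
      rename_i k
      have : f (k + 1) - f m = (f (k + 1) - f k) + (f k - f m) := by ring
      rw [this]
      exact add_mem (Ideal.pow_le_pow_right hmk (hf k)) ih
  obtain ⟨L, hL⟩ := IsPrecomplete.prec' (I := I) f (fun {m n} h => by
    rw [SModEq.sub_mem, smul_eq_mul, Ideal.mul_top]
    have := hmn h
    rw [← neg_sub]
    exact neg_mem this)
  refine ⟨L, fun k => ?_⟩
  have := hL k
  rw [SModEq.sub_mem, smul_eq_mul, Ideal.mul_top] at this
  rw [← neg_sub]
  exact neg_mem this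

theorem eq_zero_of_forall_mem_pow [IsHausdorff I A] (x : A) (h : ∀ k, x ∈ I ^ k) : x = 0 := by
  refine IsHausdorff.haus' (I := I) x fun n => ?_
  rw [SModEq.sub_mem, smul_eq_mul, Ideal.mul_top, sub_zero]
  exact h n

end General

section DVR

variable {A : Type*} [CommRing A] [IsDomain A] [IsDiscreteValuationRing A]
  {p : ℕ} (hp : p.Prime) {e : ℕ} (hpe : Ideal.span {(p : A)} = maximalIdeal A ^ e)

include hpe in
theorem natCast_mem_pow : (p : A) ∈ maximalIdeal A ^ e := by
  rw [← hpe]; exact Ideal.mem_span_singleton_self _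

include hp hpe in
/-- `U^(n)` has no `p`-torsion for `(p-1) n > e`. -/
theorem eq_one_of_pow_prime_eq_one {n : ℕ} (hn : e < (p - 1) * n) {u : Aˣ}
    (hu : u ∈ higherUnits (maximalIdeal A) n) (hup : u ^ p = 1) : u = 1 := by
  have hn1 : 1 ≤ n := by
    rcases Nat.eq_zero_or_pos n with h | h
    · rw [h, mul_zero] at hn; omega
    · exact h
  have hp2 := hp.two_le
  set z : A := (u : A) - 1 with hz
  have hzn : z ∈ maximalIdeal A ^ n := hu
  have hzm : z ∈ maximalIdeal A := Ideal.pow_le_self (by omega) hzn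
  obtain ⟨a, ha⟩ := add_pow_prime_expand hp (1 : A) z
  have hu1 : (1 + z) ^ p = 1 := by
    have : (1 : A) + z = u := by rw [hz]; ring
    rw [this, ← Units.val_pow_eq_pow_val, hup, Units.val_one]
  rw [hu1, one_pow, one_pow, mul_one] at ha
  have hzp : z ^ p = z * z ^ (p - 1) := by
    rw [← pow_succ']; congr 1; omega
  have h0 : z * ((p : A) * (1 + z * a) + z ^ (p - 1)) = 0 := by
    have : z * ((p : A) * (1 + z * a) + z ^ (p - 1))
        = (1 + (p : A) * z + (p : A) * z ^ 2 * a + z ^ p) - 1 := by rw [hzp]; ring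
    rw [this, ← ha, sub_self]
  rcases mul_eq_zero.mp h0 with h | h
  · apply Units.ext
    rw [Units.val_one]
    exact sub_eq_zero.mp h
  · exfalso
    have hunit : IsUnit (1 + z * a) := by
      have h1 : z * a ∈ maximalIdeal A := Ideal.mul_mem_right _ _ hzm
      by_contra hnu
      have h2 : 1 + z * a ∈ maximalIdeal A := (mem_maximalIdeal _).mpr hnu
      have h3 : (1 : A) ∈ maximalIdeal A := by
        have := sub_mem h2 h1
        rwa [add_sub_cancel_right] at this
      exact (Ideal.ne_top_iff_one _).mp (maximalIdeal.isMaximal A).ne_top h3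
    obtain ⟨w, hw⟩ := hunit
    have hpz : (p : A) = -(z ^ (p - 1)) * ((w⁻¹ : Aˣ) : A) := by
      have h1 : (p : A) * (w : A) = -(z ^ (p - 1)) := by
        rw [hw]; exact eq_neg_of_add_eq_zero_left h
      calc (p : A) = (p : A) * ((w : A) * ((w⁻¹ : Aˣ) : A)) := by rw [Units.mul_inv, mul_one]
        _ = ((p : A) * (w : A)) * ((w⁻¹ : Aˣ) : A) := by ring
        _ = _ := by rw [h1]
    have hpmem : (p : A) ∈ maximalIdeal A ^ ((p - 1) * n) := by
      rw [hpz]
      refine Ideal.mul_mem_right _ _ (neg_mem ?_)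
      have := Ideal.pow_mem_pow hzn (p - 1)
      rwa [← pow_mul, mul_comm] at this
    have hle : maximalIdeal A ^ e ≤ maximalIdeal A ^ ((p - 1) * n) := by
      rw [← hpe, Ideal.span_singleton_le_iff_mem]
      exact hpmem
    have hlt := Ideal.pow_right_strictAnti (maximalIdeal A)
      (IsDiscreteValuationRing.not_a_field A) (maximalIdeal.isMaximal A).ne_top hn
    exact absurd hle (not_le_of_gt hlt)

include hp hpe in
/-- One step of the successive approximation of a `p`-th root. -/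
theorem approx_step {n : ℕ} (hn : e < (p - 1) * n) {u s : A} {m : ℕ} (hm : n ≤ m)
    (hs : s - 1 ∈ maximalIdeal A ^ n) (hus : u - s ^ p ∈ maximalIdeal A ^ (m + e)) :
    ∃ s' : A, s' - 1 ∈ maximalIdeal A ^ n ∧ u - s' ^ p ∈ maximalIdeal A ^ (m + 1 + e) ∧
      s' - s ∈ maximalIdeal A ^ m := by
  have hn1 : 1 ≤ n := by
    rcases Nat.eq_zero_or_pos n with h | h
    · rw [h, mul_zero] at hn; omega
    · exact h
  have hp2 := hp.two_le
  have hpm := natCast_mem_pow hpe
  rw [pow_add, ← hpe, Ideal.mem_mul_span_singleton] at hus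
  obtain ⟨y, hy, hyp⟩ := hus
  obtain ⟨a, ha⟩ := add_pow_prime_expand hp s y
  refine ⟨s + y, ?_, ?_, ?_⟩
  · have : s + y - 1 = (s - 1) + y := by ring
    rw [this]
    exact add_mem hs (Ideal.pow_le_pow_right hm hy)
  · have hexp : u - (s + y) ^ p
        = -(((p : A) * y) * (s ^ (p - 1) - 1)) - ((p : A) * y) * (y * a) - y ^ p := by
      rw [ha]
      have : u = s ^ p + y * (p : A) := by rw [hyp]; ring
      rw [this]; ring
    rw [hexp]
    have hpy : (p : A) * y ∈ maximalIdeal A ^ (e + m) := by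
      rw [pow_add]; exact Ideal.mul_mem_mul hpm hy
    refine sub_mem (sub_mem (neg_mem ?_) ?_) ?_
    · exact mul_mem_pow_of_le _ hpy (pow_sub_one_mem _ hs (p - 1)) (by omega)
    · have hya : y * a ∈ maximalIdeal A ^ m := Ideal.mul_mem_right _ _ hy
      exact mul_mem_pow_of_le _ hpy hya (by omega)
    · have h1 : y ^ p ∈ (maximalIdeal A ^ m) ^ p := Ideal.pow_mem_pow hy p
      rw [← pow_mul] at h1
      refine Ideal.pow_le_pow_right ?_ h1
      have h2 : m * p = m + (p - 1) * m := by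
        have : p = 1 + (p - 1) := by omega
        calc m * p = m * (1 + (p - 1)) := by rw [← this]
          _ = m + (p - 1) * m := by ring
      have h3 : (p - 1) * n ≤ (p - 1) * m := Nat.mul_le_mul_left _ hm
      omega
  · rw [add_sub_cancel_left]
    exact hy

include hp hpe in
/-- Every element of `U^(n+e)` is the `p`-th power of an element of `U^(n)`, `(p-1) n > e`. -/
theorem exists_pow_prime_eq [IsAdicComplete (maximalIdeal A) A] {n : ℕ} (hn : e < (p - 1) * n)
    {u : Aˣ} (hu : u ∈ higherUnits (maximalIdeal A) (n + e)) :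
    ∃ t ∈ higherUnits (maximalIdeal A) n, t ^ p = u := by
  classical
  -- the approximating sequence
  let P : ℕ → A → Prop := fun k s =>
    s - 1 ∈ maximalIdeal A ^ n ∧ (u : A) - s ^ p ∈ maximalIdeal A ^ (n + k + e)
  have h0 : P 0 1 := by
    refine ⟨by rw [sub_self]; exact zero_mem _, ?_⟩
    rw [one_pow, add_zero]
    exact hu
  have step : ∀ k (s : {s : A // P k s}), ∃ s' : {s : A // P (k + 1) s},
      (s' : A) - s ∈ maximalIdeal A ^ (n + k) := by
    intro k s
    obtain ⟨s', h1, h2, h3⟩ := approx_step hp hpe hn (Nat.le_add_right n k) s.2.1 s.2.2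
    exact ⟨⟨s', h1, by rw [← add_assoc]; exact h2⟩, h3⟩
  let seq : ∀ k, {s : A // P k s} := fun k =>
    Nat.rec ⟨1, h0⟩ (fun k s => Classical.choose (step k s)) k
  have hseq : ∀ k, (seq (k + 1)).1 - (seq k).1 ∈ maximalIdeal A ^ (n + k) :=
    fun k => Classical.choose_spec (step k (seq k))
  obtain ⟨L, hL⟩ := exists_limit (maximalIdeal A) (fun k => (seq k).1)
    (fun k => Ideal.pow_le_pow_right (Nat.le_add_left k n) (hseq k))
  have hL1 : L - 1 ∈ maximalIdeal A ^ n := by
    have : L - 1 = (L - (seq n).1) + ((seq n).1 - 1) := by ring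
    rw [this]
    exact add_mem (hL n) (seq n).2.1
  have hLp : L ^ p = (u : A) := by
    rw [← sub_eq_zero]
    refine eq_zero_of_forall_mem_pow (maximalIdeal A) _ fun k => ?_
    have h1 : L ^ p - (seq k).1 ^ p ∈ maximalIdeal A ^ k := by
      have : L ^ p - (seq k).1 ^ p = (L - (seq k).1) *
          ∑ i ∈ Finset.range p, L ^ i * (seq k).1 ^ (p - 1 - i) := by
        rw [mul_comm]; exact ((Commute.all L (seq k).1).geom_sum₂_mul p).symm
      rw [this]
      exact Ideal.mul_mem_right _ _ (hL k)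
    have h2 : (u : A) - (seq k).1 ^ p ∈ maximalIdeal A ^ k :=
      Ideal.pow_le_pow_right (by omega) (seq k).2.2
    have : L ^ p - (u : A) = (L ^ p - (seq k).1 ^ p) - ((u : A) - (seq k).1 ^ p) := by ring
    rw [this]
    exact sub_mem h1 h2
  have hLu : IsUnit L := by
    have : IsUnit (L ^ p) := by rw [hLp]; exact u.isUnit
    exact (isUnit_pow_iff hp.ne_zero).mp this
  obtain ⟨t, ht⟩ := hLu
  refine ⟨t, ?_, ?_⟩
  · show (t : A) - 1 ∈ maximalIdeal A ^ n
    rw [ht]; exact hL1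
  · apply Units.ext
    rw [Units.val_pow_eq_pow_val, ht, hLp]

/-- The `p`-th power map `U^(n) → U^(n+e)` (`e ≤ (p-1) n`). -/
def powPrime {n : ℕ} (hn : e ≤ (p - 1) * n) :
    higherUnits (maximalIdeal A) n →* higherUnits (maximalIdeal A) (n + e) where
  toFun u := ⟨(u : Aˣ) ^ p,
    pow_prime_mem_higherUnits (maximalIdeal A) hp (natCast_mem_pow hpe) hn u.2⟩
  map_one' := by
    apply Subtype.ext
    show ((1 : higherUnits (maximalIdeal A) n) : Aˣ) ^ p = 1
    rw [Subgroup.coe_one, one_pow]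
  map_mul' := fun u v => by
    apply Subtype.ext
    show ((u * v : higherUnits (maximalIdeal A) n) : Aˣ) ^ p = (u : Aˣ) ^ p * (v : Aˣ) ^ p
    rw [Subgroup.coe_mul, mul_pow]

theorem powPrime_coe {n : ℕ} (hn : e ≤ (p - 1) * n) (u : higherUnits (maximalIdeal A) n) :
    ((powPrime hp hpe hn u : higherUnits (maximalIdeal A) (n + e)) : Aˣ) = (u : Aˣ) ^ p := rfl

/-- **C4-LFb (1).**  For `(p-1) n > e` the `p`-th power map is a bijection `U^(n) → U^(n+e)`. -/
theorem powPrime_bijective [IsAdicComplete (maximalIdeal A) A] {n : ℕ} (hn : e < (p - 1) * n) :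
    Function.Bijective (powPrime hp hpe hn.le) := by
  constructor
  · rw [injective_iff_map_eq_one]
    intro u hu
    have h1 : (u : Aˣ) ^ p = 1 := by
      have := congrArg (fun x : higherUnits (maximalIdeal A) (n + e) => (x : Aˣ)) hu
      simpa [powPrime_coe] using this
    apply Subtype.ext
    rw [Subgroup.coe_one]
    exact eq_one_of_pow_prime_eq_one hp hpe hn u.2 h1
  · intro w
    obtain ⟨t, ht, htw⟩ := exists_pow_prime_eq hp hpe hn w.2
    exact ⟨⟨t, ht⟩, Subtype.ext htw⟩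

end DVR

section Theta

variable {A : Type*} [CommRing A] (I : Ideal A)

/-- **C4-LFb (2).**  `u ↦ [u - 1]` is a homomorphism `U^(n) → (A ⧸ I^(n+k), +)` for `k ≤ n`. -/
def theta {n k : ℕ} (hk : k ≤ n) : higherUnits I n →* Multiplicative (A ⧸ I ^ (n + k)) where
  toFun u := Multiplicative.ofAdd (Ideal.Quotient.mk (I ^ (n + k)) (((u : Aˣ) : A) - 1))
  map_one' := by
    rw [Subgroup.coe_one, Units.val_one, sub_self, map_zero]; rfl
  map_mul' := fun u v => by
    rw [← ofAdd_add, ← map_add]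
    congr 1
    rw [Ideal.Quotient.eq, Subgroup.coe_mul, Units.val_mul]
    have : ((u : Aˣ) : A) * ((v : Aˣ) : A) - 1 - ((((u : Aˣ) : A) - 1) + (((v : Aˣ) : A) - 1))
        = (((u : Aˣ) : A) - 1) * (((v : Aˣ) : A) - 1) := by ring
    rw [this]
    exact mul_mem_pow_of_le I u.2 v.2 (by omega)

theorem theta_apply {n k : ℕ} (hk : k ≤ n) (u : higherUnits I n) :
    theta I hk u = Multiplicative.ofAdd (Ideal.Quotient.mk (I ^ (n + k)) (((u : Aˣ) : A) - 1)) :=
  rfl

theorem theta_eq_one_iff {n k : ℕ} (hk : k ≤ n) (u : higherUnits I n) :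
    theta I hk u = 1 ↔ (u : Aˣ) ∈ higherUnits I (n + k) := by
  rw [theta_apply, ← ofAdd_zero, Multiplicative.ofAdd.apply_eq_iff_eq,
    Ideal.Quotient.eq_zero_iff_mem]
  rfl

theorem ker_theta {n k : ℕ} (hk : k ≤ n) :
    (theta I hk).ker = (higherUnits I (n + k)).subgroupOf (higherUnits I n) := by
  ext u
  rw [MonoidHom.mem_ker, theta_eq_one_iff, Subgroup.mem_subgroupOf]

/-- The image of `theta` is (the image of) `I^n`, as soon as `1 + x` is a unit for `x ∈ I`. -/
theorem exists_theta_eq {n k : ℕ} (hk : k ≤ n) (hI : I ≤ Ideal.jacobson ⊥) (hn : 1 ≤ n) {x : A}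
    (hx : x ∈ I ^ n) :
    ∃ u : higherUnits I n, theta I hk u = Multiplicative.ofAdd (Ideal.Quotient.mk (I ^ (n + k)) x) := by
  have hxI : x ∈ I := Ideal.pow_le_self (by omega) hx
  have hunit : IsUnit (1 + x) := by
    have := (Ideal.mem_jacobson_bot.mp (hI hxI)) 1
    rwa [mul_one, add_comm] at this
  obtain ⟨w, hw⟩ := hunit
  refine ⟨⟨w, ?_⟩, ?_⟩
  · show (w : A) - 1 ∈ I ^ n
    rw [hw, add_sub_cancel_left]; exact hx
  · rw [theta_apply]
    show Multiplicative.ofAdd (Ideal.Quotient.mk (I ^ (n + k)) ((w : A) - 1)) = _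
    rw [hw, add_sub_cancel_left]

theorem theta_mem_range {n k : ℕ} (hk : k ≤ n) (u : higherUnits I n) :
    ∃ x ∈ I ^ n, theta I hk u = Multiplicative.ofAdd (Ideal.Quotient.mk (I ^ (n + k)) x) :=
  ⟨_, u.2, rfl⟩

/-- Equivariance: a ring automorphism preserving `I` preserves `U^(n)` and commutes with
`u ↦ u - 1`. -/
theorem map_mem_higherUnits (σ : A ≃+* A) (hσ : ∀ x, x ∈ I → σ x ∈ I) {n : ℕ} {u : Aˣ}
    (hu : u ∈ higherUnits I n) : Units.map (σ : A →* A) u ∈ higherUnits I n := by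
  show σ (u : A) - 1 ∈ I ^ n
  have h1 : σ (u : A) - 1 = σ ((u : A) - 1) := by rw [map_sub, map_one]
  rw [h1]
  have hle : (I ^ n).map (σ : A →+* A) ≤ I ^ n := by
    rw [Ideal.map_pow]
    exact Ideal.pow_right_mono (Ideal.map_le_iff_le_comap.mpr fun x hx => hσ x hx) n
  exact hle (Ideal.mem_map_of_mem _ hu)

/-- **C4-LFb (3).**  `U^(n)` has finite index in `Aˣ` when `A ⧸ I^n` is finite. -/
theorem finite_quotient_higherUnits (n : ℕ) [Finite (A ⧸ I ^ n)] :
    Finite (Aˣ ⧸ higherUnits I n) := by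
  let f : Aˣ →* (A ⧸ I ^ n)ˣ := Units.map (Ideal.Quotient.mk (I ^ n) : A →* A ⧸ I ^ n)
  have hker : f.ker = higherUnits I n := by
    ext u
    rw [MonoidHom.mem_ker, Units.ext_iff, mem_higherUnits]
    show Ideal.Quotient.mk (I ^ n) (u : A) = 1 ↔ _
    rw [← map_one (Ideal.Quotient.mk (I ^ n)), Ideal.Quotient.eq]
  rw [← hker]
  exact Finite.of_injective _ (QuotientGroup.kerLift_injective f)

end Theta

end Fermat.Agent.TW.LEulUnitsB49
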