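/-
Programme TW (S56), brick C4-EC (local Euler characteristic), helper74.  File 1: COUNTING.

Pure algebra over an arbitrary (noncommutative) ring `R` (later `R = ℤ[Δ]`, `Δ` a finite group of
order prime to `p`).  `A` is a fixed `R`-module which is "`p`-projective": `R`-linear maps out of
`A` lift along surjections of `R`-modules killed by `p` (Maschke).  For an `R`-module `Y` we
count `cnt A Y = #Hom_R(A, Y)`.

* `cnt_eq_mul` : `cnt` is multiplicative on short exact sequences of modules killed by `p`;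
* `cnt_six_term` : for a six-term exact sequence of finite modules killed by `p` the
  alternating product of the `cnt`'s is `1`;
* `torP`, `cotP` : the `p`-torsion `X[p]` and the cotorsion `X/pX` of an `R`-module `X`;
* `cnt_snake` : for a submodule `N ≤ X` with quotient `Q = X/N`
  `cnt (X/p) * cnt (N[p]) * cnt (Q[p]) = cnt (X[p]) * cnt (N/p) * cnt (Q/p)`
  (multiplicativity of the "`A`-weighted Herbrand quotient of multiplication by `p`");
* `cnt_torP_eq_cnt_cotP_of_finite` : for a finite module `cnt (Q[p]) = cnt (Q/p)`.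
-/
import Mathlib

set_option autoImplicit false

namespace Fermat.Agent.TW.LocECCount74

universe u v

open Function

variable (R : Type u) [Ring R] (p : ℕ)

/-- `A` is `p`-projective: `R`-linear maps out of `A` lift along surjections of `R`-modules whose
source is killed by `p`. -/
def IsPProj (A : Type v) [AddCommGroup A] [Module R A] : Prop :=
  ∀ (Y Y'' : Type v) [AddCommGroup Y] [Module R Y] [AddCommGroup Y''] [Module R Y'']
    (π : Y →ₗ[R] Y''), Surjective π → (∀ y : Y, p • y = 0) →
    ∀ f : A →ₗ[R] Y'', ∃ g : A →ₗ[R] Y, π ∘ₗ g = f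

/-- The number of `R`-linear maps `A → Y`. -/
noncomputable def cnt (A Y : Type v) [AddCommGroup A] [Module R A] [AddCommGroup Y] [Module R Y] :
    ℕ := Nat.card (A →ₗ[R] Y)

section Basic

variable {R}
variable {A : Type v} [AddCommGroup A] [Module R A]
variable {Y Y' Y'' : Type v} [AddCommGroup Y] [Module R Y] [AddCommGroup Y'] [Module R Y']
  [AddCommGroup Y''] [Module R Y'']

instance finite_hom [Finite A] [Finite Y] : Finite (A →ₗ[R] Y) :=
  Finite.of_injective (fun f : A →ₗ[R] Y => (f : A → Y)) DFunLike.coe_injective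

theorem cnt_pos [Finite A] [Finite Y] : 0 < cnt R A Y := Nat.card_pos

instance finite_quot [Finite Y] (S : Submodule R Y) : Finite (Y ⧸ S) :=
  Finite.of_surjective _ (Submodule.Quotient.mk_surjective S)

theorem cnt_congr (e : Y ≃ₗ[R] Y') : cnt R A Y = cnt R A Y' :=
  Nat.card_congr
    { toFun := fun f => e.toLinearMap ∘ₗ f
      invFun := fun f => e.symm.toLinearMap ∘ₗ f
      left_inv := fun f => by ext a; simp
      right_inv := fun f => by ext a; simp }

theorem cnt_of_subsingleton [Subsingleton Y] : cnt R A Y = 1 := by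
  have : Subsingleton (A →ₗ[R] Y) := ⟨fun _ _ => by ext a; exact Subsingleton.elim _ _⟩
  have : Nonempty (A →ₗ[R] Y) := ⟨0⟩
  exact Nat.card_unique

/-- Post-composition with `π` as an additive map on `Hom` groups. -/
def postComp (π : Y →ₗ[R] Y'') : (A →ₗ[R] Y) →+ (A →ₗ[R] Y'') where
  toFun f := π ∘ₗ f
  map_zero' := LinearMap.comp_zero _
  map_add' _ _ := LinearMap.comp_add _ _ _

/-- `cnt` is multiplicative on short exact sequences of modules killed by `p`. -/
theorem cnt_eq_mul (hA : IsPProj R p A) (ι : Y' →ₗ[R] Y) (π : Y →ₗ[R] Y'') (hι : Injective ι)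
    (hπ : Surjective π) (hex : Function.Exact ι π) (hp : ∀ y : Y, p • y = 0) :
    cnt R A Y = cnt R A Y' * cnt R A Y'' := by
  classical
  have hsurj : Surjective (postComp (A := A) π) := fun f => hA Y Y'' π hπ hp f
  -- the kernel is `Hom(A, Y')`
  let e : (A →ₗ[R] Y') ≃ (postComp (A := A) π).ker :=
    { toFun := fun g => ⟨ι ∘ₗ g, by
        rw [AddMonoidHom.mem_ker]
        ext a
        exact hex.apply_apply_eq_zero (g a)⟩
      invFun := fun f =>
        (LinearEquiv.ofInjective ι hι).symm.toLinearMap ∘ₗ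
          (f.1.codRestrict (LinearMap.range ι) (fun a => by
            have h1 : π (f.1 a) = 0 := by
              have := f.2
              rw [AddMonoidHom.mem_ker] at this
              exact congrArg (fun (φ : A →ₗ[R] Y'') => φ a) this
            exact (hex (f.1 a)).1 h1))
      left_inv := fun g => by
        ext a
        simp only [LinearMap.coe_comp, LinearEquiv.coe_coe, comp_apply]
        apply hι
        have := LinearEquiv.ofInjective_apply (h := hι) ι
          ((LinearEquiv.ofInjective ι hι).symm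
            (LinearMap.codRestrict (LinearMap.range ι) (ι ∘ₗ g) (fun a => ⟨g a, rfl⟩) a))
        rw [LinearEquiv.apply_symm_apply] at this
        rw [← this]
        rfl
      right_inv := fun f => by
        apply Subtype.ext
        ext a
        simp only [LinearMap.coe_comp, LinearEquiv.coe_coe, comp_apply]
        have := LinearEquiv.ofInjective_apply (h := hι) ι
          ((LinearEquiv.ofInjective ι hι).symm
            (LinearMap.codRestrict (LinearMap.range ι) f.1 (fun a => by
            have h1 : π (f.1 a) = 0 := by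
              have := f.2
              rw [AddMonoidHom.mem_ker] at this
              exact congrArg (fun (φ : A →ₗ[R] Y'') => φ a) this
            exact (hex (f.1 a)).1 h1) a))
        rw [LinearEquiv.apply_symm_apply] at this
        rw [← this]
        rfl }
  have h1 : Nat.card (postComp (A := A) π).ker * (postComp (A := A) π).ker.index
      = Nat.card (A →ₗ[R] Y) := AddSubgroup.card_mul_index _
  have h2 : (postComp (A := A) π).ker.index = Nat.card (A →ₗ[R] Y'') := by
    rw [AddSubgroup.index_ker, AddMonoidHom.range_eq_top.2 hsurj]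
    exact Nat.card_congr (Equiv.Set.univ _)
  unfold cnt
  rw [← h1, h2, Nat.card_congr e]

/-- `cnt Y = cnt (ker f) * cnt (range f)` for a linear map out of a module killed by `p`. -/
theorem cnt_eq_ker_mul_range (hA : IsPProj R p A) (f : Y →ₗ[R] Y'') (hp : ∀ y : Y, p • y = 0) :
    cnt R A Y = cnt R A (LinearMap.ker f) * cnt R A (LinearMap.range f) := by
  refine cnt_eq_mul p hA (LinearMap.ker f).subtype f.rangeRestrict
    (Submodule.injective_subtype _) f.surjective_rangeRestrict ?_ hp
  intro y
  constructor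
  · intro h
    refine ⟨⟨y, ?_⟩, rfl⟩
    rw [LinearMap.mem_ker]
    exact congrArg Subtype.val h
  · rintro ⟨z, rfl⟩
    apply Subtype.ext
    exact z.2

theorem cnt_of_eq {Z : Type v} [AddCommGroup Z] [Module R Z] {S T : Submodule R Z} (h : S = T) :
    cnt R A S = cnt R A T := cnt_congr (LinearEquiv.ofEq S T h)

end Basic

section SixTerm

variable {R}
variable {A : Type v} [AddCommGroup A] [Module R A]
variable {Y₁ Y₂ Y₃ Y₄ Y₅ Y₆ : Type v}
  [AddCommGroup Y₁] [Module R Y₁] [AddCommGroup Y₂] [Module R Y₂] [AddCommGroup Y₃] [Module R Y₃]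
  [AddCommGroup Y₄] [Module R Y₄] [AddCommGroup Y₅] [Module R Y₅] [AddCommGroup Y₆] [Module R Y₆]

/-- Euler--Poincare principle for a six-term exact sequence of modules killed by `p`. -/
theorem cnt_six_term (hA : IsPProj R p A)
    (f₁ : Y₁ →ₗ[R] Y₂) (f₂ : Y₂ →ₗ[R] Y₃) (f₃ : Y₃ →ₗ[R] Y₄) (f₄ : Y₄ →ₗ[R] Y₅)
    (f₅ : Y₅ →ₗ[R] Y₆)
    (h₁ : Injective f₁) (h₁₂ : Function.Exact f₁ f₂) (h₂₃ : Function.Exact f₂ f₃)
    (h₃₄ : Function.Exact f₃ f₄) (h₄₅ : Function.Exact f₄ f₅) (h₅ : Surjective f₅)
    (p₁ : ∀ y : Y₁, p • y = 0) (p₂ : ∀ y : Y₂, p • y = 0) (p₃ : ∀ y : Y₃, p • y = 0)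
    (p₄ : ∀ y : Y₄, p • y = 0) (p₅ : ∀ y : Y₅, p • y = 0) :
    cnt R A Y₁ * cnt R A Y₃ * cnt R A Y₅ = cnt R A Y₂ * cnt R A Y₄ * cnt R A Y₆ := by
  have e₁ := cnt_eq_ker_mul_range p hA f₁ p₁
  have e₂ := cnt_eq_ker_mul_range p hA f₂ p₂
  have e₃ := cnt_eq_ker_mul_range p hA f₃ p₃
  have e₄ := cnt_eq_ker_mul_range p hA f₄ p₄
  have e₅ := cnt_eq_ker_mul_range p hA f₅ p₅
  have k₁ : cnt R A (LinearMap.ker f₁) = 1 := by
    have : Subsingleton (LinearMap.ker f₁) := by
      rw [LinearMap.ker_eq_bot.2 h₁]
      infer_instance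
    exact cnt_of_subsingleton
  have k₂ : cnt R A (LinearMap.ker f₂) = cnt R A (LinearMap.range f₁) :=
    cnt_of_eq (LinearMap.exact_iff.1 h₁₂)
  have k₃ : cnt R A (LinearMap.ker f₃) = cnt R A (LinearMap.range f₂) :=
    cnt_of_eq (LinearMap.exact_iff.1 h₂₃)
  have k₄ : cnt R A (LinearMap.ker f₄) = cnt R A (LinearMap.range f₃) :=
    cnt_of_eq (LinearMap.exact_iff.1 h₃₄)
  have k₅ : cnt R A (LinearMap.ker f₅) = cnt R A (LinearMap.range f₄) :=
    cnt_of_eq (LinearMap.exact_iff.1 h₄₅)
  have r₅ : cnt R A (LinearMap.range f₅) = cnt R A Y₆ := by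
    rw [cnt_of_eq (LinearMap.range_eq_top.2 h₅)]
    exact cnt_congr Submodule.topEquiv
  rw [e₁, e₂, e₃, e₄, e₅, k₁, k₂, k₃, k₄, k₅, r₅]
  ring

end SixTerm

section TorCot

variable (X : Type v) [AddCommGroup X] [Module R X]

/-- Multiplication by `p` as an `R`-linear map. -/
def pMul : X →ₗ[R] X := (p : ℕ) • LinearMap.id

@[simp] theorem pMul_apply (x : X) : pMul R p X x = p • x := rfl

/-- The `p`-torsion `X[p]`. -/
def torP : Submodule R X := LinearMap.ker (pMul R p X)

/-- The submodule `pX`. -/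
def imP : Submodule R X := LinearMap.range (pMul R p X)

/-- The cotorsion `X/pX`. -/
abbrev cotP : Type v := X ⧸ imP R p X

variable {R p X}

theorem mem_torP {x : X} : x ∈ torP R p X ↔ p • x = 0 := Iff.rfl

theorem mem_imP {x : X} : x ∈ imP R p X ↔ ∃ y : X, p • y = x := Iff.rfl

theorem smul_mem_imP (x : X) : p • x ∈ imP R p X := ⟨x, rfl⟩

theorem torP_smul (x : torP R p X) : p • x = 0 := Subtype.ext x.2

theorem cotP_smul (x : cotP R p X) : p • x = 0 := by
  obtain ⟨x, rfl⟩ := Submodule.Quotient.mk_surjective _ x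
  rw [← Submodule.Quotient.mk_smul, Submodule.Quotient.mk_eq_zero]
  exact smul_mem_imP x

variable {X' : Type v} [AddCommGroup X'] [Module R X']

/-- Functoriality of `X[p]`. -/
def torMap (f : X →ₗ[R] X') : torP R p X →ₗ[R] torP R p X' :=
  f.restrict (fun x hx => by
    rw [mem_torP] at hx ⊢
    rw [← map_nsmul, hx, map_zero])

@[simp] theorem torMap_apply (f : X →ₗ[R] X') (x : torP R p X) :
    ((torMap f x : torP R p X') : X') = f x := rfl

/-- Functoriality of `X/pX`. -/
def cotMap (f : X →ₗ[R] X') : cotP R p X →ₗ[R] cotP R p X' :=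
  Submodule.mapQ _ _ f (by
    rintro _ ⟨y, rfl⟩
    exact ⟨f y, by simp⟩)

@[simp] theorem cotMap_mk (f : X →ₗ[R] X') (x : X) :
    cotMap (p := p) f (Submodule.Quotient.mk x) = Submodule.Quotient.mk (f x) := rfl

end TorCot

section Snake

variable {R p}
variable {X : Type v} [AddCommGroup X] [Module R X] (N : Submodule R X)

/-- A chosen lift of a class of `X ⧸ N`. -/
noncomputable def liftQ (q : X ⧸ N) : X := Function.surjInv (Submodule.Quotient.mk_surjective N) q

theorem mk_liftQ (q : X ⧸ N) : (Submodule.Quotient.mk (liftQ N q) : X ⧸ N) = q :=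
  Function.surjInv_eq (Submodule.Quotient.mk_surjective N) q

theorem smul_mem_of_mk_mem_torP {x : X} (hx : (Submodule.Quotient.mk x : X ⧸ N) ∈ torP R p (X ⧸ N)) :
    p • x ∈ N := by
  rw [← Submodule.Quotient.mk_eq_zero, Submodule.Quotient.mk_smul]
  exact hx

theorem smul_liftQ_mem (q : torP R p (X ⧸ N)) : p • liftQ N q.1 ∈ N := by
  apply smul_mem_of_mk_mem_torP
  rw [mk_liftQ]
  exact q.2

/-- The connecting map of the snake lemma (as a function). -/
noncomputable def deltaFun (q : torP R p (X ⧸ N)) : cotP R p N :=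
  Submodule.Quotient.mk ⟨p • liftQ N q.1, smul_liftQ_mem N q⟩

theorem deltaFun_eq (q : torP R p (X ⧸ N)) (x : X)
    (hx : (Submodule.Quotient.mk x : X ⧸ N) = q.1) (hx' : p • x ∈ N) :
    deltaFun N q = Submodule.Quotient.mk ⟨p • x, hx'⟩ := by
  unfold deltaFun
  rw [Submodule.Quotient.eq]
  have hmem : liftQ N q.1 - x ∈ N := by
    rw [← Submodule.Quotient.mk_eq_zero, Submodule.Quotient.mk_sub, mk_liftQ, hx, sub_self]
  refine ⟨⟨liftQ N q.1 - x, hmem⟩, ?_⟩
  apply Subtype.ext
  simp [smul_sub]

/-- The connecting map `Q[p] → N/pN` of the snake lemma for multiplication by `p` on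
`0 → N → X → Q → 0`. -/
noncomputable def delta : torP R p (X ⧸ N) →ₗ[R] cotP R p N where
  toFun := deltaFun N
  map_add' q q' := by
    have h : p • (liftQ N q.1 + liftQ N q'.1) ∈ N := by
      rw [smul_add]
      exact N.add_mem (smul_liftQ_mem N q) (smul_liftQ_mem N q')
    rw [deltaFun_eq N (q + q') (liftQ N q.1 + liftQ N q'.1)
      (by rw [Submodule.Quotient.mk_add, mk_liftQ, mk_liftQ]; rfl) h]
    unfold deltaFun
    rw [← Submodule.Quotient.mk_add]
    congr 1
    apply Subtype.ext
    simp [smul_add]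
  map_smul' r q := by
    have h : p • (r • liftQ N q.1) ∈ N := by
      rw [smul_comm]
      exact N.smul_mem r (smul_liftQ_mem N q)
    rw [deltaFun_eq N (r • q) (r • liftQ N q.1)
      (by rw [Submodule.Quotient.mk_smul, mk_liftQ]; rfl) h]
    unfold deltaFun
    rw [RingHom.id_apply, ← Submodule.Quotient.mk_smul]
    congr 1
    apply Subtype.ext
    show p • r • liftQ N q.1 = r • p • liftQ N q.1
    exact smul_comm _ _ _

theorem delta_eq (q : torP R p (X ⧸ N)) (x : X)
    (hx : (Submodule.Quotient.mk x : X ⧸ N) = q.1) (hx' : p • x ∈ N) :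
    delta N q = Submodule.Quotient.mk ⟨p • x, hx'⟩ := deltaFun_eq N q x hx hx'

theorem injective_torMap_subtype : Injective (torMap (p := p) N.subtype) := by
  intro a b h
  apply Subtype.ext
  apply Subtype.ext
  exact congrArg (fun z : torP R p X => (z : X)) h

theorem exact_torMap : Function.Exact (torMap (p := p) N.subtype) (torMap (p := p) N.mkQ) := by
  intro y
  constructor
  · intro h
    have h1 : (Submodule.Quotient.mk (y : X) : X ⧸ N) = 0 :=
      congrArg (fun z : torP R p (X ⧸ N) => (z : X ⧸ N)) h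
    rw [Submodule.Quotient.mk_eq_zero] at h1
    refine ⟨⟨⟨y, h1⟩, ?_⟩, ?_⟩
    · rw [mem_torP]
      apply Subtype.ext
      exact y.2
    · apply Subtype.ext
      rfl
  · rintro ⟨z, rfl⟩
    apply Subtype.ext
    show (Submodule.Quotient.mk ((z : N) : X) : X ⧸ N) = 0
    rw [Submodule.Quotient.mk_eq_zero]
    exact (z : N).2

theorem exact_torMap_delta : Function.Exact (torMap (p := p) N.mkQ) (delta N) := by
  intro q
  constructor
  · intro h
    have h0 : delta N q = Submodule.Quotient.mk ⟨p • liftQ N q.1, smul_liftQ_mem N q⟩ := rfl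
    rw [h0, Submodule.Quotient.mk_eq_zero] at h
    obtain ⟨n, hn⟩ := h
    have hn' : p • (n : X) = p • liftQ N q.1 := congrArg Subtype.val hn
    refine ⟨⟨liftQ N q.1 - n, ?_⟩, ?_⟩
    · rw [mem_torP, smul_sub, hn', sub_self]
    · apply Subtype.ext
      show (Submodule.Quotient.mk (liftQ N q.1 - n) : X ⧸ N) = q.1
      rw [Submodule.Quotient.mk_sub, mk_liftQ, (Submodule.Quotient.mk_eq_zero N).2 n.2, sub_zero]
  · rintro ⟨y, rfl⟩
    have hy : p • (y : X) ∈ N := by
      rw [(mem_torP).1 y.2]
      exact N.zero_mem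
    rw [delta_eq N _ (y : X) rfl hy, Submodule.Quotient.mk_eq_zero]
    refine ⟨0, ?_⟩
    apply Subtype.ext
    simp [(mem_torP).1 y.2]

theorem exact_delta_cotMap : Function.Exact (delta N) (cotMap (p := p) N.subtype) := by
  intro c
  constructor
  · intro h
    obtain ⟨n, rfl⟩ := Submodule.Quotient.mk_surjective _ c
    rw [cotMap_mk, Submodule.Quotient.mk_eq_zero] at h
    obtain ⟨x, hx⟩ := h
    have hx1 : p • x = (n : X) := hx
    have hq : (Submodule.Quotient.mk x : X ⧸ N) ∈ torP R p (X ⧸ N) := by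
      rw [mem_torP, ← Submodule.Quotient.mk_smul, hx1, Submodule.Quotient.mk_eq_zero]
      exact n.2
    refine ⟨⟨Submodule.Quotient.mk x, hq⟩, ?_⟩
    rw [delta_eq N _ x rfl (by rw [hx1]; exact n.2)]
    congr 1
    apply Subtype.ext
    exact hx1
  · rintro ⟨q, rfl⟩
    have h0 : delta N q = Submodule.Quotient.mk ⟨p • liftQ N q.1, smul_liftQ_mem N q⟩ := rfl
    rw [h0, cotMap_mk, Submodule.Quotient.mk_eq_zero]
    exact smul_mem_imP _

theorem exact_cotMap : Function.Exact (cotMap (p := p) N.subtype) (cotMap (p := p) N.mkQ) := by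
  intro c
  constructor
  · intro h
    obtain ⟨x, rfl⟩ := Submodule.Quotient.mk_surjective _ c
    rw [cotMap_mk, Submodule.Quotient.mk_eq_zero] at h
    obtain ⟨q', hq'⟩ := h
    obtain ⟨x', rfl⟩ := Submodule.Quotient.mk_surjective _ q'
    have h1 : (Submodule.Quotient.mk (p • x') : X ⧸ N) = Submodule.Quotient.mk x := hq'
    rw [Submodule.Quotient.eq] at h1
    have h2 : x - p • x' ∈ N := by
      have := N.neg_mem h1
      rwa [neg_sub] at this
    refine ⟨Submodule.Quotient.mk ⟨x - p • x', h2⟩, ?_⟩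
    rw [cotMap_mk, Submodule.Quotient.eq]
    refine ⟨-x', ?_⟩
    simp
  · rintro ⟨c', rfl⟩
    obtain ⟨n, rfl⟩ := Submodule.Quotient.mk_surjective _ c'
    rw [cotMap_mk, cotMap_mk]
    have : N.mkQ (N.subtype n) = 0 := by
      rw [Submodule.mkQ_apply, Submodule.Quotient.mk_eq_zero]
      exact n.2
    rw [this, Submodule.Quotient.mk_zero]

theorem surjective_cotMap_mkQ : Surjective (cotMap (p := p) N.mkQ) := by
  intro c
  obtain ⟨q, rfl⟩ := Submodule.Quotient.mk_surjective _ c
  obtain ⟨x, rfl⟩ := Submodule.Quotient.mk_surjective _ q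
  exact ⟨Submodule.Quotient.mk x, rfl⟩

variable {A : Type v} [AddCommGroup A] [Module R A]

/-- Multiplicativity of the `A`-weighted Herbrand quotient of multiplication by `p`. -/
theorem cnt_snake (hA : IsPProj R p A) :
    cnt R A (torP R p N) * cnt R A (torP R p (X ⧸ N)) * cnt R A (cotP R p X) =
      cnt R A (torP R p X) * cnt R A (cotP R p N) * cnt R A (cotP R p (X ⧸ N)) :=
  cnt_six_term p hA (torMap N.subtype) (torMap N.mkQ) (delta N) (cotMap N.subtype) (cotMap N.mkQ)
    (injective_torMap_subtype N) (exact_torMap N) (exact_torMap_delta N) (exact_delta_cotMap N)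
    (exact_cotMap N) (surjective_cotMap_mkQ N) torP_smul torP_smul torP_smul cotP_smul cotP_smul

end Snake

section Finite

variable {R p}
variable {A : Type v} [AddCommGroup A] [Module R A]

/-- A module killed by `p` has `cnt (Y[p]) = cnt (Y/pY)` (both are `cnt Y`). -/
theorem cnt_torP_eq_cnt_cotP_of_smul_eq_zero {Y : Type v} [AddCommGroup Y] [Module R Y]
    (hY : ∀ y : Y, p • y = 0) : cnt R A (torP R p Y) = cnt R A (cotP R p Y) := by
  have h1 : torP R p Y = ⊤ := by
    rw [eq_top_iff]
    intro y _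
    exact hY y
  have h2 : imP R p Y = ⊥ := by
    rw [eq_bot_iff]
    rintro _ ⟨y, rfl⟩
    exact hY y
  rw [cnt_of_eq h1, cnt_congr (Submodule.topEquiv (R := R) (M := Y))]
  exact (cnt_congr (Submodule.quotEquivOfEqBot _ h2)).symm

theorem cnt_torP_eq_cnt_cotP_aux (hA : IsPProj R p A) [Finite A] :
    ∀ n : ℕ, ∀ (Q : Type v) [AddCommGroup Q] [Module R Q] [Finite Q], Nat.card Q = n →
      cnt R A (torP R p Q) = cnt R A (cotP R p Q) := by
  intro n
  induction n using Nat.strong_induction_on with
  | _ n ih =>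
    intro Q _ _ _ hn
    by_cases hbot : torP R p Q = ⊥
    · -- multiplication by `p` is bijective
      have hinj : Injective (pMul R p Q) := LinearMap.ker_eq_bot.1 hbot
      have hsurj : Surjective (pMul R p Q) := Finite.surjective_of_injective hinj
      have htop : imP R p Q = ⊤ := LinearMap.range_eq_top.2 hsurj
      have : Subsingleton (torP R p Q) := by
        rw [hbot]
        infer_instance
      have : Subsingleton (cotP R p Q) := by
        rw [Submodule.Quotient.subsingleton_iff]
        exact htop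
      rw [cnt_of_subsingleton, cnt_of_subsingleton]
    · set N := torP R p Q with hN
      have hsn := cnt_snake N hA
      have hcard : Nat.card Q = Nat.card N * Nat.card (Q ⧸ N) :=
        Submodule.card_eq_card_quotient_mul_card N
      have hNnt : Nontrivial N := (Submodule.nontrivial_iff_ne_bot).2 hbot
      have h1 : 1 < Nat.card N := Finite.one_lt_card
      have hpos : 0 < Nat.card (Q ⧸ N) := Nat.card_pos
      have hlt : Nat.card (Q ⧸ N) < n := by
        rw [← hn, hcard]
        nlinarith
      have ihQ := ih _ hlt (Q ⧸ N) rfl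
      have hNN : cnt R A (torP R p N) = cnt R A (cotP R p N) :=
        cnt_torP_eq_cnt_cotP_of_smul_eq_zero (fun y => torP_smul y)
      rw [ihQ, hNN] at hsn
      have hpos1 : 0 < cnt R A (cotP R p N) := cnt_pos
      have hpos2 : 0 < cnt R A (cotP R p (Q ⧸ N)) := cnt_pos
      have : cnt R A (cotP R p N) * cnt R A (cotP R p (Q ⧸ N)) * cnt R A (cotP R p Q) =
          cnt R A (cotP R p N) * cnt R A (cotP R p (Q ⧸ N)) * cnt R A (torP R p Q) := by
        rw [hsn]
        ring
      exact (Nat.eq_of_mul_eq_mul_left (Nat.mul_pos hpos1 hpos2) this).symm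

/-- For a finite module `Q`: `cnt (Q[p]) = cnt (Q/pQ)`. -/
theorem cnt_torP_eq_cnt_cotP_of_finite (hA : IsPProj R p A) [Finite A]
    (Q : Type v) [AddCommGroup Q] [Module R Q] [Finite Q] :
    cnt R A (torP R p Q) = cnt R A (cotP R p Q) :=
  cnt_torP_eq_cnt_cotP_aux hA _ Q rfl

variable {X : Type v} [AddCommGroup X] [Module R X] (N : Submodule R X)

/-- Passing to a submodule of finite index does not change the weighted Herbrand quotient. -/
theorem cnt_of_finite_quotient (hA : IsPProj R p A) [Finite A] [Finite (X ⧸ N)] :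
    cnt R A (torP R p N) * cnt R A (cotP R p X) = cnt R A (torP R p X) * cnt R A (cotP R p N) := by
  have hsn := cnt_snake N hA
  rw [cnt_torP_eq_cnt_cotP_of_finite hA (X ⧸ N)] at hsn
  have hpos : 0 < cnt R A (cotP R p (X ⧸ N)) := cnt_pos
  have : cnt R A (cotP R p (X ⧸ N)) * (cnt R A (torP R p N) * cnt R A (cotP R p X)) =
      cnt R A (cotP R p (X ⧸ N)) * (cnt R A (torP R p X) * cnt R A (cotP R p N)) := by
    calc _ = cnt R A (torP R p N) * cnt R A (cotP R p (X ⧸ N)) * cnt R A (cotP R p X) := by ring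
      _ = _ := by rw [hsn]; ring
  exact Nat.eq_of_mul_eq_mul_left hpos this

/-- A quotient without `p`-torsion. -/
theorem cnt_of_torsionFree_quotient (hA : IsPProj R p A) (hQ : torP R p (X ⧸ N) = ⊥) :
    cnt R A (torP R p N) * cnt R A (cotP R p X) =
      cnt R A (torP R p X) * cnt R A (cotP R p N) * cnt R A (cotP R p (X ⧸ N)) := by
  have hsn := cnt_snake N hA
  have : Subsingleton (torP R p (X ⧸ N)) := by
    rw [hQ]
    infer_instance
  rw [cnt_of_subsingleton (Y := torP R p (X ⧸ N)), mul_one] at hsn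
  exact hsn

end Finite

end Fermat.Agent.TW.LocECCount74
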