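/-
Programme TW (S56), brick C4 (local Tate duality numerics + local Euler characteristic),
owner/architect helper74.  INTERFACE FILE for the local-field part (LF) of C4: definitions and
statement shapes ONLY (each brick owner proves `theorem ... : <Shape> ...` verbatim in his file).

MODEL (PT/LOC): `E : Type` with `[Field E] [Algebra ℚ_[q] E] [FiniteDimensional ℚ_[q] E]`,
`intRing q E` (a complete DVR: `PT/LOC/Structure14`, `StructureTower27`).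
`Δ` is an ABSTRACT finite group with `ι : Δ →* (E ≃ₐ[ℚ_[q]] E)` (injective where stated),
`R = ℤ[Δ] = MonoidAlgebra ℤ Δ`, counting `cnt R A Y = #Hom_R(A, Y)` from `TW/LocECCount74`.

ALL MODULE STATEMENTS ARE IN "ANY MODEL" FORM: an `R`-module `X` together with an additive
isomorphism to the concrete group and a compatibility hypothesis (`IsUnitsModel`, `IsLatticeModel`,
trivial action for `ℤ`).  Tools to produce and compare models: `TW/LocECGrpRing74`.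

E-level objects: `mE`, `mPow q E n : AddSubgroup E` (`= 𝔪ⁿ`), `UE q E n : Subgroup Eˣ`
(`= 1 + 𝔪ⁿ`, `n = 0`: the units of `𝒪`), defined through helper49's abstract
`LEulUnitsB49.higherUnits`.

SHAPES:
* `LFaCount`  (helper23, brick 169): valuation sequence + finite index, all `q`;
* `LFaPrime`  (helper23): `q ≠ p`: `1 + 𝔪` is uniquely `p`-divisible;
* `LFbCount`  (helper49, brick 170): `q = p`, `n` large: `U⁽ⁿ⁾[p] = 1`, `U⁽ⁿ⁾/p ≅ 𝔪ⁿ/p𝔪ⁿ`;
* `LFcCount`  (helper10, brick 171): `q = p`: `cnt A (𝔪ⁿ/p𝔪ⁿ) = (#A)^[K:ℚ_p]`;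
* `LFfin`     : `Eˣ/(Eˣ)^p` is finite;
* `LFCount`   : the assembled count (consumed by BASE).
-/
import Mathlib
import Fermat.Agent.PT.LOC.Structure14
import Fermat.Agent.TW.LEulUnitsB49
import Fermat.Agent.TW.LocECCount74

set_option autoImplicit false

open Fermat.Agent.PT.LOC.Interface12
open Fermat.Agent.TW.LocECCount74

namespace Fermat.Agent.TW.LEulIface74

noncomputable section

variable (q : ℕ) [Fact q.Prime] (E : Type) [Field E] [Algebra ℚ_[q] E]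
  [FiniteDimensional ℚ_[q] E]

/-! ### E-level objects -/

/-- The maximal ideal of the ring of integers. -/
abbrev mE : Ideal (intRing q E) := IsLocalRing.maximalIdeal (intRing q E)

/-- `𝔪ⁿ` as an additive subgroup of `E`. -/
def mPow (n : ℕ) : AddSubgroup E :=
  ((mE q E) ^ n).toAddSubgroup.map ((algebraMap (intRing q E) E : intRing q E →+* E) : intRing q E →+ E)

/-- `U⁽ⁿ⁾ = 1 + 𝔪ⁿ` (for `n = 0`: the units of the ring of integers) as a subgroup of `Eˣ`. -/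
def UE (n : ℕ) : Subgroup Eˣ :=
  (LEulUnitsB49.higherUnits (mE q E) n).map
    (Units.map ((algebraMap (intRing q E) E : intRing q E →+* E) : intRing q E →* E))

/-! ### Models -/

section Models

variable {Δ : Type} [Group Δ] (ι : Δ →* (E ≃ₐ[ℚ_[q]] E))

/-- The `ℤ[Δ]`-module `X` models `Eˣ` (written additively) with `Δ` acting through `ι`. -/
def IsUnitsModel (X : Type) [AddCommGroup X] [Module (MonoidAlgebra ℤ Δ) X]
    (eX : X ≃+ Additive Eˣ) : Prop :=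
  ∀ (δ : Δ) (x : X), eX (MonoidAlgebra.of ℤ Δ δ • x) =
    Additive.ofMul (Units.map (((ι δ : E ≃ₐ[ℚ_[q]] E) : E →+* E) : E →* E) (Additive.toMul (eX x)))

/-- The `ℤ[Δ]`-module `Y` models the lattice `𝔪ⁿ ⊂ E` with `Δ` acting through `ι`. -/
def IsLatticeModel (n : ℕ) (Y : Type) [AddCommGroup Y] [Module (MonoidAlgebra ℤ Δ) Y]
    (eY : Y ≃+ mPow q E n) : Prop :=
  ∀ (δ : Δ) (y : Y), ((eY (MonoidAlgebra.of ℤ Δ δ • y) : mPow q E n) : E) =
    ι δ ((eY y : mPow q E n) : E)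

/-- The `ℤ[Δ]`-module `Z` has trivial `Δ`-action. -/
def IsTrivModel (Z : Type) [AddCommGroup Z] [Module (MonoidAlgebra ℤ Δ) Z] : Prop :=
  ∀ (δ : Δ) (z : Z), MonoidAlgebra.of ℤ Δ δ • z = z

end Models

/-! ### Statement shapes -/

section Shapes

variable (p : ℕ) [Fact p.Prime] {Δ : Type} [Group Δ] [Finite Δ] (ι : Δ →* (E ≃ₐ[ℚ_[q]] E))

/-- **LF-A (count)**: valuation sequence and finite index of `U⁽ⁿ⁾`, any `q`, any `n`.
`S` is the submodule of the model `X` of `Eˣ` corresponding to `U⁽ⁿ⁾`, `Z` models `ℤ` with trivial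
action. -/
def LFaCount : Prop :=
  ∀ (X : Type) [AddCommGroup X] [Module (MonoidAlgebra ℤ Δ) X] (eX : X ≃+ Additive Eˣ),
    IsUnitsModel q E ι X eX →
  ∀ (Z : Type) [AddCommGroup Z] [Module (MonoidAlgebra ℤ Δ) Z] (_eZ : Z ≃+ ℤ),
    IsTrivModel (Δ := Δ) Z →
  ∀ (n : ℕ) (S : Submodule (MonoidAlgebra ℤ Δ) X),
    (∀ x : X, x ∈ S ↔ Additive.toMul (eX x) ∈ UE q E n) →
  ∀ (A : Type) [AddCommGroup A] [Module (MonoidAlgebra ℤ Δ) A] [Finite A],
    (∀ a : A, p • a = 0) → IsPProj (MonoidAlgebra ℤ Δ) p A →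
    cnt (MonoidAlgebra ℤ Δ) A (torP (MonoidAlgebra ℤ Δ) p S) *
        cnt (MonoidAlgebra ℤ Δ) A (cotP (MonoidAlgebra ℤ Δ) p X) =
      cnt (MonoidAlgebra ℤ Δ) A (torP (MonoidAlgebra ℤ Δ) p X) *
        cnt (MonoidAlgebra ℤ Δ) A (cotP (MonoidAlgebra ℤ Δ) p S) *
        cnt (MonoidAlgebra ℤ Δ) A (cotP (MonoidAlgebra ℤ Δ) p Z)

/-- **LF-A (`q ≠ p`)**: `x ↦ x ^ p` is bijective on `U⁽¹⁾ = 1 + 𝔪`. -/
def LFaPrime : Prop :=
  q ≠ p → ∀ u ∈ UE q E 1, ∃! v : Eˣ, v ∈ UE q E 1 ∧ v ^ p = u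

/-- **LF-B (`q = p`)**: for all large `n`: `U⁽ⁿ⁾` has no `p`-torsion and `U⁽ⁿ⁾/p ≅ 𝔪ⁿ/p𝔪ⁿ`
(`Δ`-equivariantly), in counting form. -/
def LFbCount : Prop :=
  q = p → ∃ n₀ : ℕ, ∀ n : ℕ, n₀ ≤ n →
  ∀ (X : Type) [AddCommGroup X] [Module (MonoidAlgebra ℤ Δ) X] (eX : X ≃+ Additive Eˣ),
    IsUnitsModel q E ι X eX →
  ∀ (S : Submodule (MonoidAlgebra ℤ Δ) X),
    (∀ x : X, x ∈ S ↔ Additive.toMul (eX x) ∈ UE q E n) →
  ∀ (Y : Type) [AddCommGroup Y] [Module (MonoidAlgebra ℤ Δ) Y] (eY : Y ≃+ mPow q E n),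
    IsLatticeModel q E ι n Y eY →
  ∀ (A : Type) [AddCommGroup A] [Module (MonoidAlgebra ℤ Δ) A] [Finite A],
    (∀ a : A, p • a = 0) →
    cnt (MonoidAlgebra ℤ Δ) A (torP (MonoidAlgebra ℤ Δ) p S) = 1 ∧
    cnt (MonoidAlgebra ℤ Δ) A (cotP (MonoidAlgebra ℤ Δ) p S) =
      cnt (MonoidAlgebra ℤ Δ) A (cotP (MonoidAlgebra ℤ Δ) p Y)

/-- **LF-C (`q = p`)**: normal basis lattice + lattice comparison:
`#Hom_Δ(A, 𝔪ⁿ/p𝔪ⁿ) = (#A)^[K:ℚ_p]`, `K = E^Δ`. -/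
def LFcCount : Prop :=
  q = p → Function.Injective ι → ¬ p ∣ Nat.card Δ →
  ∀ (n : ℕ) (Y : Type) [AddCommGroup Y] [Module (MonoidAlgebra ℤ Δ) Y] (eY : Y ≃+ mPow q E n),
    IsLatticeModel q E ι n Y eY →
  ∀ (A : Type) [AddCommGroup A] [Module (MonoidAlgebra ℤ Δ) A] [Finite A],
    (∀ a : A, p • a = 0) → IsPProj (MonoidAlgebra ℤ Δ) p A →
    cnt (MonoidAlgebra ℤ Δ) A (cotP (MonoidAlgebra ℤ Δ) p Y) =
      Nat.card A ^ Module.finrank ℚ_[q] (IntermediateField.fixedField ι.range)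

/-- **LF-fin**: `Eˣ/(Eˣ)^p` is finite. -/
def LFfin : Prop :=
  Finite (Eˣ ⧸ (powMonoidHom p : Eˣ →* Eˣ).range)

/-- **LF (assembled count)**: for a finite `ℤ[Δ]`-module `A` killed by `p` and `p`-projective,
`#Hom_Δ(A, Eˣ/p) = #Hom_Δ(A, μ_p(E)) · #Hom_Δ(A, ℤ/p) · (#A)^([K:ℚ_p]·[q = p])`. -/
def LFCount : Prop :=
  Function.Injective ι → ¬ p ∣ Nat.card Δ →
  ∀ (X : Type) [AddCommGroup X] [Module (MonoidAlgebra ℤ Δ) X] (eX : X ≃+ Additive Eˣ),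
    IsUnitsModel q E ι X eX →
  ∀ (Z : Type) [AddCommGroup Z] [Module (MonoidAlgebra ℤ Δ) Z] (_eZ : Z ≃+ ℤ),
    IsTrivModel (Δ := Δ) Z →
  ∀ (A : Type) [AddCommGroup A] [Module (MonoidAlgebra ℤ Δ) A] [Finite A],
    (∀ a : A, p • a = 0) → IsPProj (MonoidAlgebra ℤ Δ) p A →
    cnt (MonoidAlgebra ℤ Δ) A (cotP (MonoidAlgebra ℤ Δ) p X) =
      cnt (MonoidAlgebra ℤ Δ) A (torP (MonoidAlgebra ℤ Δ) p X) *
        cnt (MonoidAlgebra ℤ Δ) A (cotP (MonoidAlgebra ℤ Δ) p Z) *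
        Nat.card A ^ (if q = p then Module.finrank ℚ_[q] (IntermediateField.fixedField ι.range)
          else 0)

end Shapes

end

end Fermat.Agent.TW.LEulIface74
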