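/-
Programme TW (S56), brick C4 (local Tate duality numerics + local Euler characteristic),
owner/architect helper74.  INTERFACE FILE 2: the cohomological statement shapes of C4
(definitions + `Prop`s only; each brick owner proves `theorem ... : <Shape> ...` verbatim).

* `LD2Shape`        (helper64, brick 172): `H²` of the local group is effaceable by restriction;
* `ChiAdd`, `BaseAt`, `ArtinReduction` (ART): reduction of `χ(M) + c · dim M = 0` to coinduced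
  modules from subgroups `U ⊇ V₀` with `p ∤ [U : V₀]`, abstract group with a level basis;
* `BaseH1`          (B1 = K1 + K2 + duality): `#H¹(U, N) = #Hom_{ℤ[Δ]}(N^*, Lˣ/p)`.
-/
import Mathlib
import Fermat.Agent.TW.LEulDual74
import Fermat.Agent.TW.LEulIface74
import Fermat.Agent.TW.GWIface97

set_option autoImplicit false

open Module
open Fermat.Agent.PT.PRO Fermat.Agent.PT.PRO.LevelCoh28
open Fermat.Agent.TW.Tate62.H0LES Fermat.Agent.TW.Tate62.EulerIneq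
open Fermat.Agent.TW.Tate62.ChiAdditive
open Fermat.Agent.TW.LEulDual74 Fermat.Agent.TW.LocECCount74 Fermat.Agent.TW.LEulIface74

namespace Fermat.Agent.TW.LEulIface2_74

noncomputable section

variable {p : ℕ} [Fact p.Prime]

/-! ### Abstract Artin reduction -/

section Abstract

variable {G : Type} [Group G]

/-- Additivity of the truncated Euler characteristic on short exact sequences of
finite-dimensional discrete modules (the output of `LEulDual74.chi_eq_add`). -/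
def ChiAdd (𝓑 : LevelBasis G) : Prop :=
  ∀ (A B C : Rep.{0} (ZMod p) G) (φ : A →ₗ[ZMod p] B) (_ : ∀ g a, φ (A.ρ g a) = B.ρ g (φ a))
    (ψ : B →ₗ[ZMod p] C) (_ : ∀ g b, ψ (B.ρ g b) = C.ρ g (ψ b)),
    Function.Injective φ → Function.Surjective ψ → (∀ b, ψ b = 0 ↔ ∃ a, φ a = b) →
    FiniteDimensional (ZMod p) B → IsDiscrete 𝓑.sets B →
    chi 𝓑 B = chi 𝓑 A + chi 𝓑 C

/-- **BASE** at the open normal subgroup `V₀`: for every subgroup `U ⊇ V₀` with `p ∤ [U : V₀]` and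
every finite-dimensional `U`-module `N` on which `V₀` acts trivially,
`h¹(U, N) = h⁰(U, N) + h⁰(U, N^*) + c · [G : U] · dim N`. -/
def BaseAt (𝓑 : LevelBasis G) (ε : G →* (ZMod p)ˣ) (c : ℕ) (V₀ : Subgroup G) : Prop :=
  ∀ U : Subgroup G, V₀ ≤ U → ¬ p ∣ V₀.relIndex U →
  ∀ N : Rep.{0} (ZMod p) ↥U, FiniteDimensional (ZMod p) N →
    (∀ u : ↥U, (u : G) ∈ V₀ → ∀ n : N, N.ρ u n = n) →
    FiniteDimensional (ZMod p) (H1 (subBasis 𝓑 U) N) ∧
    finrank (ZMod p) (H1 (subBasis 𝓑 U) N) =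
      finrank (ZMod p) (H0 N) + finrank (ZMod p) (H0 (N.dualTwist (ε.comp U.subtype))) +
        c * U.index * finrank (ZMod p) N

/-- **ART**: Artin induction (helper68's `ArtinInd68.eq_zero_of_cyclic_coind`) + Shapiro
(`TateShap6/Abstract`) reduce the Euler characteristic formula to `BaseAt`. -/
def ArtinReduction (G : Type) [Group G] : Prop :=
  ∀ (𝓑 : LevelBasis G) (ε : G →* (ZMod p)ˣ) (c : ℕ),
    ChiAdd (p := p) 𝓑 → FinCoh (k := ZMod p) 𝓑 → H2Dual (k := ZMod p) 𝓑 ε →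
    ∀ V₀ ∈ 𝓑.sets, V₀.Normal → (∀ v ∈ V₀, ε v = 1) → BaseAt 𝓑 ε c V₀ →
    ∀ M : Rep.{0} (ZMod p) G, FiniteDimensional (ZMod p) M →
      (∀ v ∈ V₀, ∀ m : M, M.ρ v m = m) →
      chi 𝓑 M + (c : ℤ) * finrank (ZMod p) M = 0

end Abstract

/-! ### The local group -/

section Local

variable (q : ℕ) [Fact q.Prime]

/-- **LD2**: `H²` of the local Galois group is effaceable by restriction to an open normal
subgroup; with the extra data consumed by LD3 (`V ≤ V₀` both normal members of the basis, `V₀`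
acting trivially on `N` and on `μ_p`, `p ∣ [V₀ : V]`).  `𝓑` is any level basis of
`Gal(ℚ̄_q/ℚ_q)` defining the Krull topology (in the application:
`pullBasis (primeLocalToGlobal q)`), `ε` the mod `p` cyclotomic character. -/
def LD2Shape (𝓑 : LevelBasis (PadicAlgCl q ≃ₐ[ℚ_[q]] PadicAlgCl q))
    (ε : (PadicAlgCl q ≃ₐ[ℚ_[q]] PadicAlgCl q) →* (ZMod p)ˣ) : Prop :=
  ∀ N : Rep.{0} (ZMod p) (PadicAlgCl q ≃ₐ[ℚ_[q]] PadicAlgCl q),
    FiniteDimensional (ZMod p) N → IsDiscrete 𝓑.sets N →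
    ∃ V₀ ∈ 𝓑.sets, ∃ V ∈ 𝓑.sets, V₀.Normal ∧ V.Normal ∧ V ≤ V₀ ∧
      (∀ v ∈ V₀, ∀ n : N, N.ρ v n = n) ∧ (∀ v ∈ V₀, ε v = 1) ∧ p ∣ V.relIndex V₀ ∧
      ∀ x : H2 𝓑 N, resH2 𝓑 V N x = 0

/-- **B1** (`K1 + K2 +` duality): for `L/ℚ_q` finite normal containing `μ_p`,
`V₀ = Gal(ℚ̄_q/L) ≤ U` with `p ∤ [U : V₀]`, `Δ = U/V₀` acting on `L` through `ι`, `N` a
finite-dimensional `U`-module trivial on `V₀`, `X` a model of `Lˣ`, `A` a model of
`N^* = N.dualTwist ε`: `#H¹(U, N) = #Hom_{ℤ[Δ]}(A, X/p)`. -/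
def BaseH1 : Prop :=
  ∀ (𝓑 : LevelBasis (PadicAlgCl q ≃ₐ[ℚ_[q]] PadicAlgCl q)),
    (∀ W ∈ 𝓑.sets, ∃ F : IntermediateField ℚ_[q] (PadicAlgCl q),
      FiniteDimensional ℚ_[q] F ∧ F.fixingSubgroup ≤ W) →
    (∀ F : IntermediateField ℚ_[q] (PadicAlgCl q), FiniteDimensional ℚ_[q] F →
      ∃ W ∈ 𝓑.sets, W ≤ F.fixingSubgroup) →
  ∀ (L : IntermediateField ℚ_[q] (PadicAlgCl q)) [FiniteDimensional ℚ_[q] L] [Normal ℚ_[q] L],
    L.fixingSubgroup ∈ 𝓑.sets →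
  ∀ ζ : L, IsPrimitiveRoot ζ p →
  ∀ U : Subgroup (PadicAlgCl q ≃ₐ[ℚ_[q]] PadicAlgCl q), L.fixingSubgroup ≤ U →
    ¬ p ∣ L.fixingSubgroup.relIndex U →
  ∀ ε : ↥U →* (ZMod p)ˣ,
    (∀ u : ↥U, (u : PadicAlgCl q ≃ₐ[ℚ_[q]] PadicAlgCl q) (ζ : PadicAlgCl q) =
      (ζ : PadicAlgCl q) ^ ((ε u : (ZMod p)ˣ) : ZMod p).val) →
  ∀ (N : Rep.{0} (ZMod p) ↥U) [FiniteDimensional (ZMod p) N],
    (∀ u : ↥U, (u : PadicAlgCl q ≃ₐ[ℚ_[q]] PadicAlgCl q) ∈ L.fixingSubgroup →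
      ∀ n : N, N.ρ u n = n) →
  ∀ {Δ : Type} [Group Δ] [Finite Δ] (π : ↥U →* Δ), Function.Surjective π →
    (∀ u : ↥U, π u = 1 ↔ (u : PadicAlgCl q ≃ₐ[ℚ_[q]] PadicAlgCl q) ∈ L.fixingSubgroup) →
  ∀ ι : Δ →* (↥L ≃ₐ[ℚ_[q]] ↥L),
    (∀ (u : ↥U) (x : ↥L), ((ι (π u) x : ↥L) : PadicAlgCl q) =
      (u : PadicAlgCl q ≃ₐ[ℚ_[q]] PadicAlgCl q) (x : PadicAlgCl q)) →
  ∀ (X : Type) [AddCommGroup X] [Module (MonoidAlgebra ℤ Δ) X] (eX : X ≃+ Additive (↥L)ˣ),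
    IsUnitsModel q ↥L ι X eX →
  ∀ (A : Type) [AddCommGroup A] [Module (MonoidAlgebra ℤ Δ) A] (eA : A ≃+ (N.dualTwist ε)),
    (∀ (u : ↥U) (a : A),
      eA (MonoidAlgebra.of ℤ Δ (π u) • a) = (N.dualTwist ε).ρ u (eA a)) →
  Finite ((↥L)ˣ ⧸ (powMonoidHom p : (↥L)ˣ →* (↥L)ˣ).range) →
    Finite (H1 (subBasis 𝓑 U) N) ∧
    Nat.card (H1 (subBasis 𝓑 U) N) =
      cnt (MonoidAlgebra ℤ Δ) A (cotP (MonoidAlgebra ℤ Δ) p X)

end Local

end

end Fermat.Agent.TW.LEulIface2_74
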