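/-
Programme TW (S56), brick C4-ART (Artin reduction of the local Euler characteristic), helper64.

`artinReduction : LEulIface2_74.ArtinReduction (p := p) G` for every group `G`: if the truncated
Euler characteristic `χ` is additive, `H¹`, `H²` are finite, `h²(X) = h⁰(X^*)`, and the BASE formula
`h¹(U, N) = h⁰(N) + h⁰(N^*) + c [G : U] dim N` holds for all `U ⊇ V₀` with `p ∤ [U : V₀]` and all
`N` trivial on `V₀`, then `χ(M) + c dim M = 0` for every finite-dimensional `M` trivial on `V₀`.

Proof: Artin induction for additive functions (`ArtinBridge68.eq_zero_of_cyclic_coind_rep`,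
helper68) reduces to the inflations of the modules coinduced from cyclic subgroups `C` of
`D = G ⧸ V₀` of order prime to `p`; for those, Shapiro's lemma (`TateShap6/Abstract`, helper6)
computes `h⁰`, `h¹`, the hypothesis `H2Dual` computes `h²` as `h⁰` of the twisted dual, which is
again coinduced (`DualCoind68`, helper68), and the BASE formula applies to `U = π⁻¹ C`.
-/
import Mathlib
import Fermat.Agent.TW.LEulIface2_74
import Fermat.Agent.TW.ArtinBridge68
import Fermat.Agent.TW.DualCoind68
import Fermat.Agent.TW.TateShap6.Abstract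
import Fermat.Agent.TW.TateShap6.Dim

set_option autoImplicit false
set_option linter.unusedSectionVars false
set_option linter.style.haveILetI false
set_option synthInstance.maxHeartbeats 200000

open Module

namespace Fermat.Agent.TW.LEulArtin64

open Fermat.Agent.PT.PRO Fermat.Agent.PT.PRO.LevelCoh28
open Fermat.Agent.TW.Tate62.H0LES Fermat.Agent.TW.Tate62.EulerIneq
open Fermat.Agent.TW.Tate62.ChiAdditive
open Fermat.Agent.TW.LEulDual74 Fermat.Agent.TW.LEulIface2_74
open Fermat.Agent.TW.ArtinBridge68 Fermat.Agent.TW.DualCoind68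
open Fermat.Agent.TW.TateShap6.Abstract Fermat.Agent.TW.TateShap6.Dim

/-! ### `H⁰` and equivariant isomorphisms -/

section H0

variable {k G : Type} [Field k] [Group G]

/-- `h⁰` is invariant under equivariant linear isomorphisms. -/
theorem finrank_H0_congr {A B : Rep.{0} k G} (e : A ≃ₗ[k] B)
    (he : ∀ g a, e (A.ρ g a) = B.ρ g (e a)) : finrank k (H0 A) = finrank k (H0 B) := by
  refine LinearEquiv.finrank_eq (LinearEquiv.ofBijective (mapH0 (e : A →ₗ[k] B) he)
    ⟨mapH0_injective _ he e.injective, ?_⟩)
  intro b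
  have hb := (mem_H0_iff B b).1 b.2
  refine ⟨⟨e.symm b, (mem_H0_iff A _).2 fun g => e.injective ?_⟩,
    Subtype.ext (e.apply_symm_apply b)⟩
  rw [he, e.apply_symm_apply, hb g]

end H0

/-! ### The twisted dual of an inflated coinduced module -/

section DualCoind

variable {k G D W : Type} [Field k] [Group G] [Group D] [Finite D] [AddCommGroup W] [Module k W]
  (π : G →* D) (hπ : Function.Surjective π) (C : Subgroup D) (σ : Representation k C W)
  (ε : G →* kˣ) (ω : D →* kˣ) (hω : ∀ g, ω (π g) = ε g)

include hπ hω in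
/-- `h⁰` of the twisted dual of the inflation of `Coind_C^D σ` is `h⁰(π⁻¹ C, W^*)`. -/
theorem finrank_H0_dualTwist_inflCoind :
    finrank k (H0 ((inflCoind π C σ).dualTwist ε)) =
      finrank k (H0 ((resComap π C σ).dualTwist (ε.comp (C.comap π).subtype))) := by
  -- step 1: the dual of the coinduced module is coinduced
  have h1 : finrank k (H0 ((inflCoind π C σ).dualTwist ε)) =
      finrank k (H0 (inflCoind π C (dualTw C σ ω))) := by
    refine finrank_H0_congr
      (LinearEquiv.ofBijective (dualCoindMap C σ ω) (dualCoindMap_bijective C σ ω)) ?_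
    intro g a
    have h := dualCoindMap_equivariant C σ ω (π g) a
    rw [hω, ← map_inv] at h
    exact h
  -- step 2: Shapiro in degree 0
  have h2 : finrank k (H0 (inflCoind π C (dualTw C σ ω))) =
      finrank k (H0 (resComap π C (dualTw C σ ω))) :=
    (h0Equiv' π C (dualTw C σ ω) hπ).finrank_eq
  -- step 3: the two actions of `π⁻¹ C` on the dual of `W` coincide
  have h3 : finrank k (H0 (resComap π C (dualTw C σ ω))) =
      finrank k (H0 ((resComap π C σ).dualTwist (ε.comp (C.comap π).subtype))) := by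
    refine finrank_H0_congr (LinearEquiv.refl k (Module.Dual k W)) ?_
    intro h l
    show dualTw C σ ω ⟨π h, h.2⟩ l =
      ((ε.comp (C.comap π).subtype) h : k) • (l ∘ₗ (resComap π C σ).ρ h⁻¹)
    rw [dualTw_apply, MonoidHom.comp_apply, Subgroup.coe_subtype, hω]
    congr 2
    show σ (⟨π h, h.2⟩ : C)⁻¹ = σ ⟨π ((h⁻¹ : ↥(C.comap π)) : G), (h⁻¹).2⟩
    congr 1
    exact Subtype.ext (map_inv π (h : G)).symm
  rw [h1, h2, h3]

end DualCoind

/-! ### The Artin reduction -/

variable {p : ℕ} [Fact p.Prime]

/-- **ART**: the Artin reduction of the Euler characteristic formula to the BASE case. -/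
theorem artinReduction (G : Type) [Group G] : ArtinReduction (p := p) G := by
  intro 𝓑 ε c hadd hfin hdual V₀ hV₀ hn hε hbase M hM htriv
  have hp : p.Prime := Fact.out
  haveI := hn
  haveI : V₀.FiniteIndex := 𝓑.isBasis.finiteIndex V₀ hV₀
  haveI : Finite (G ⧸ V₀) := Subgroup.finite_quotient_of_finiteIndex
  -- the finite quotient
  set π : G →* G ⧸ V₀ := QuotientGroup.mk' V₀ with hπdef
  have hπ : Function.Surjective π := QuotientGroup.mk'_surjective V₀
  have hker : π.ker = V₀ := QuotientGroup.ker_mk' V₀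
  have hkerB : ∃ U' ∈ 𝓑.sets, U' ≤ π.ker := ⟨V₀, hV₀, hker.ge⟩
  -- the descended character
  have hεker : V₀ ≤ ε.ker := fun v hv => MonoidHom.mem_ker.2 (hε v hv)
  let ω : G ⧸ V₀ →* (ZMod p)ˣ := QuotientGroup.lift V₀ ε hεker
  have hω : ∀ g, ω (π g) = ε g := fun g => rfl
  -- the additive function
  let P : Rep.{0} (ZMod p) G → Prop := fun X => IsDiscrete 𝓑.sets X
  let F : Rep.{0} (ZMod p) G → ℤ := fun X => chi 𝓑 X + (c : ℤ) * finrank (ZMod p) X
  have hF : IsAddOn P F := by
    intro A B C φ hφ ψ hψ hinj hsurj hex hBfd hPB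
    have h1 := hadd A B C φ hφ ψ hψ hinj hsurj hex hBfd hPB
    have hdim : finrank (ZMod p) B = finrank (ZMod p) A + finrank (ZMod p) C := by
      have h2 := LinearMap.finrank_range_add_finrank_ker ψ
      have h3 : LinearMap.ker ψ = LinearMap.range φ := by
        ext b
        rw [LinearMap.mem_ker, LinearMap.mem_range]
        exact hex b
      rw [h3, LinearMap.finrank_range_of_inj hinj, LinearMap.range_eq_top.2 hsurj,
        finrank_top] at h2
      omega
    show chi 𝓑 B + (c : ℤ) * finrank (ZMod p) B =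
      chi 𝓑 A + (c : ℤ) * finrank (ZMod p) A + (chi 𝓑 C + (c : ℤ) * finrank (ZMod p) C)
    rw [h1, hdim]
    push_cast
    ring
  have hP : ∀ (V : Type) [AddCommGroup V] [Module (ZMod p) V] [Module.Finite (ZMod p) V]
      (ρ : Representation (ZMod p) (G ⧸ V₀) V), P (Rep.of (ρ.comp π)) := by
    intro V _ _ _ ρ a
    refine ⟨V₀, hV₀, fun s hs => ?_⟩
    show ρ (π s) a = a
    have : π s = 1 := (QuotientGroup.eq_one_iff s).2 hs
    rw [this, map_one]
    rfl
  -- the cyclic case
  have hcyc : ∀ C : Subgroup (G ⧸ V₀), IsCyclic C → (Nat.card C).Coprime p →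
      ∀ (W : Type) [AddCommGroup W] [Module (ZMod p) W] [Module.Finite (ZMod p) W]
        (σ : Representation (ZMod p) C W),
        F (Rep.of ((Representation.coind C.subtype σ).comp π)) = 0 := by
    intro C _ hcop W _ _ _ σ
    haveI hMfd : FiniteDimensional (ZMod p) (inflCoind π C σ) :=
      Fermat.Agent.TW.ArtinInd68.finite_coindV (p := p) C σ
    have hMdisc : IsDiscrete 𝓑.sets (inflCoind π C σ) := isDiscrete_inflCoind π C σ 𝓑 hkerB
    -- `U = π⁻¹ C`
    have hV₀U : V₀ ≤ C.comap π := by
      intro v hv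
      have h1 : π v = 1 := (QuotientGroup.eq_one_iff v).2 hv
      rw [Subgroup.mem_comap, h1]
      exact C.one_mem
    have hrel : V₀.relIndex (C.comap π) = Nat.card C := by
      have h1 : ((⊥ : Subgroup (G ⧸ V₀)).comap π).relIndex (C.comap π) = Nat.card C := by
        rw [Subgroup.relIndex_comap, Subgroup.relIndex_bot_left,
          Subgroup.map_comap_eq_self_of_surjective hπ]
      rwa [MonoidHom.comap_bot, hker] at h1
    have hndvd : ¬ p ∣ V₀.relIndex (C.comap π) := by
      rw [hrel]
      exact (Nat.Prime.coprime_iff_not_dvd hp).1 hcop.symm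
    have hNfd : FiniteDimensional (ZMod p) (resComap π C σ) :=
      inferInstanceAs (FiniteDimensional (ZMod p) W)
    obtain ⟨hH1fd, hH1⟩ := hbase (C.comap π) hV₀U hndvd (resComap π C σ) hNfd
      (fun u hu n => by
        have := resComap_ρ_of_mem_ker π C σ (h := u) (by rw [hker]; exact hu)
        rw [this]
        rfl)
    -- Shapiro
    have e0 : finrank (ZMod p) (H0 (inflCoind π C σ)) = finrank (ZMod p) (H0 (resComap π C σ)) :=
      (h0Equiv' π C σ hπ).finrank_eq
    have e1 : finrank (ZMod p) (H1 𝓑 (inflCoind π C σ)) =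
        finrank (ZMod p) (H1 (subBasis 𝓑 (C.comap π)) (resComap π C σ)) :=
      (h1Equiv π C σ 𝓑 (subBasis 𝓑 (C.comap π)) hkerB
        (fun U' hU' => ⟨U', hU', rfl⟩)
        (fun V hV => by
          obtain ⟨U', hU', rfl⟩ := hV
          exact ⟨U', hU', rfl⟩) hπ).finrank_eq
    have e2 : finrank (ZMod p) (H2 𝓑 (inflCoind π C σ)) =
        finrank (ZMod p) (H0 ((inflCoind π C σ).dualTwist ε)) := hdual _ hMfd hMdisc
    have e3 := finrank_H0_dualTwist_inflCoind π hπ C σ ε ω hω
    -- dimensions
    have hdimM : finrank (ZMod p) (inflCoind π C σ) = C.index * finrank (ZMod p) W :=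
      finrank_coindV C σ
    have hidx : (C.comap π).index = C.index := Subgroup.index_comap_of_surjective C hπ
    have hdimN : finrank (ZMod p) (resComap π C σ) = finrank (ZMod p) W := rfl
    show chi 𝓑 (inflCoind π C σ) + (c : ℤ) * finrank (ZMod p) (inflCoind π C σ) = 0
    unfold chi
    rw [e0, e1, e2, e3, hH1, hdimM, hidx, hdimN]
    push_cast
    ring
  -- conclusion
  haveI := hM
  have hPM : P M := fun a => ⟨V₀, hV₀, fun s hs => htriv s hs a⟩
  have hkerM : ∀ n ∈ π.ker, M.ρ n = 1 := by
    intro n hn'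
    rw [hker] at hn'
    exact LinearMap.ext fun m => htriv n hn' m
  exact eq_zero_of_cyclic_coind_rep π hπ hF hP hcyc M hPM hkerM

end Fermat.Agent.TW.LEulArtin64
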