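/-
Programme TW (S56), sub-programme C4 (local Euler characteristic, architect helper74), brick C4-LFc
(helper10), ABSTRACT CORE 1: counting `Δ`-equivariant maps into a coinduced (regular) module.

`Δ` a finite group, `R = ℤ[Δ]`, `Y` an `R`-module, `Q` an abelian group and `π : Y →+ Q` such that
`y ↦ (δ ↦ π (δ⁻¹ y))` is a bijection `Y → (Δ → Q)` (i.e. `Y` is the regular/coinduced module
`ℤ[Δ] ⊗ Q`).  Then for every `R`-module `A`: `Hom_R(A, Y) ≃ Hom_ℤ(A, Q)`, `f ↦ π ∘ f`.
If moreover `A`, `Q` are finite, killed by the prime `p`, and `#Q = p ^ d`, then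
`cnt R A Y = (#A) ^ d`.
-/
import Mathlib
import Fermat.Agent.TW.LocECCount74

set_option autoImplicit false

namespace Fermat.Agent.TW.LEulLatticeCore10

open Fermat.Agent.TW.LocECCount74

universe v w

variable {Δ : Type*} [Group Δ]

section Coinduced

variable {A Y : Type v} [AddCommGroup A] [Module (MonoidAlgebra ℤ Δ) A]
  [AddCommGroup Y] [Module (MonoidAlgebra ℤ Δ) Y] {Q : Type w} [AddCommGroup Q] (π : Y →+ Q)

/-- The action of a group element on a `ℤ[Δ]`-module. -/
noncomputable def gs (δ : Δ) (y : Y) : Y := MonoidAlgebra.single δ (1 : ℤ) • y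

theorem gs_one (y : Y) : gs (1 : Δ) y = y := by
  unfold gs
  rw [← MonoidAlgebra.one_def, one_smul]

theorem gs_mul (δ ε : Δ) (y : Y) : gs (δ * ε) y = gs δ (gs ε y) := by
  unfold gs
  rw [smul_smul, MonoidAlgebra.single_mul_single, mul_one]

theorem gs_add (δ : Δ) (y y' : Y) : gs δ (y + y') = gs δ y + gs δ y' := smul_add _ _ _

theorem gs_zero (δ : Δ) : gs δ (0 : Y) = 0 := smul_zero _

theorem map_gs (f : A →ₗ[MonoidAlgebra ℤ Δ] Y) (δ : Δ) (a : A) : f (gs δ a) = gs δ (f a) :=
  f.map_smul _ _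

/-- The coordinates `y ↦ (δ ↦ π (δ⁻¹ y))`. -/
noncomputable def coords : Y →+ (Δ → Q) where
  toFun y δ := π (gs δ⁻¹ y)
  map_zero' := by
    funext δ
    simp only [gs_zero, map_zero, Pi.zero_apply]
  map_add' y y' := by
    funext δ
    simp only [gs_add, map_add, Pi.add_apply]

@[simp] theorem coords_apply (y : Y) (δ : Δ) : coords π y δ = π (gs δ⁻¹ y) := rfl

theorem coords_gs (ε : Δ) (y : Y) (δ : Δ) : coords π (gs ε y) δ = coords π y (ε⁻¹ * δ) := by
  simp only [coords_apply, ← gs_mul, mul_inv_rev, inv_inv]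

/-- `Hom_R(A, Y) ≃ Hom_ℤ(A, Q)` for a coinduced module `Y`. -/
noncomputable def homEquiv (hbij : Function.Bijective (coords (Δ := Δ) π)) :
    (A →ₗ[MonoidAlgebra ℤ Δ] Y) ≃ (A →+ Q) where
  toFun f := π.comp f.toAddMonoidHom
  invFun g :=
    MonoidAlgebra.equivariantOfLinearOfComm
      (AddMonoidHom.toIntLinearMap
        { toFun := fun a => (Equiv.ofBijective _ hbij).symm (fun δ => g (gs δ⁻¹ a))
          map_zero' := by
            apply hbij.1
            rw [← Equiv.ofBijective_apply (coords π) hbij, Equiv.apply_symm_apply, map_zero]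
            funext δ
            simp only [gs_zero, map_zero, Pi.zero_apply]
          map_add' := fun a a' => by
            apply hbij.1
            rw [map_add]
            simp only [← Equiv.ofBijective_apply (coords π) hbij, Equiv.apply_symm_apply]
            funext δ
            simp only [gs_add, map_add, Pi.add_apply] })
      (fun ε a => by
        apply hbij.1
        funext δ
        show coords π ((Equiv.ofBijective _ hbij).symm (fun δ => g (gs δ⁻¹ (gs ε a)))) δ =
          coords π (gs ε ((Equiv.ofBijective _ hbij).symm (fun δ => g (gs δ⁻¹ a)))) δ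
        rw [coords_gs]
        simp only [← Equiv.ofBijective_apply (coords π) hbij, Equiv.apply_symm_apply]
        simp only [← gs_mul, mul_inv_rev, inv_inv])
  left_inv f := by
    apply LinearMap.ext
    intro a
    apply hbij.1
    show coords π ((Equiv.ofBijective _ hbij).symm
      (fun δ => (π.comp f.toAddMonoidHom) (gs δ⁻¹ a))) = coords π (f a)
    rw [← Equiv.ofBijective_apply (coords π) hbij, Equiv.apply_symm_apply]
    funext δ
    simp only [AddMonoidHom.coe_comp, Function.comp_apply, LinearMap.toAddMonoidHom_coe,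
      coords_apply, map_gs]
  right_inv g := by
    ext a
    show π ((Equiv.ofBijective _ hbij).symm (fun δ => g (gs δ⁻¹ a))) = g a
    have h := congrFun (Equiv.apply_symm_apply (Equiv.ofBijective _ hbij)
      (fun δ => g (gs δ⁻¹ a))) 1
    rw [Equiv.ofBijective_apply, coords_apply, inv_one, gs_one] at h
    rw [h, gs_one]

theorem cnt_eq_card_addMonoidHom (hbij : Function.Bijective (coords (Δ := Δ) π)) :
    cnt (MonoidAlgebra ℤ Δ) A Y = Nat.card (A →+ Q) :=
  Nat.card_congr (homEquiv π hbij)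

end Coinduced

section CotCoinduced

variable {Y : Type v} [AddCommGroup Y] [Module (MonoidAlgebra ℤ Δ) Y] {Q₀ : Type w}
  [AddCommGroup Q₀] (π₀ : Y →+ Q₀) (p : ℕ)

/-- The subgroup `p Q₀`. -/
def pMultiples (Q₀ : Type w) [AddCommGroup Q₀] (p : ℕ) : AddSubgroup Q₀ :=
  (nsmulAddMonoidHom p : Q₀ →+ Q₀).range

theorem mem_pMultiples {x : Q₀} : x ∈ pMultiples Q₀ p ↔ ∃ y : Q₀, p • y = x := Iff.rfl

/-- The map `Y/pY → Q₀/pQ₀` induced by `π₀`. -/
noncomputable def piBar : cotP (MonoidAlgebra ℤ Δ) p Y →+ Q₀ ⧸ pMultiples Q₀ p :=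
  QuotientAddGroup.lift (imP (MonoidAlgebra ℤ Δ) p Y).toAddSubgroup
    ((QuotientAddGroup.mk' (pMultiples Q₀ p)).comp π₀) (by
      rintro _ ⟨y, rfl⟩
      rw [AddMonoidHom.mem_ker, AddMonoidHom.comp_apply, pMul_apply, map_nsmul,
        QuotientAddGroup.mk'_apply, QuotientAddGroup.eq_zero_iff]
      exact ⟨π₀ y, rfl⟩)

theorem piBar_mk (y : Y) :
    piBar (Δ := Δ) π₀ p (Submodule.Quotient.mk y) = QuotientAddGroup.mk (π₀ y) := rfl

theorem gs_mk (δ : Δ) (y : Y) :
    gs δ (Submodule.Quotient.mk y : cotP (MonoidAlgebra ℤ Δ) p Y) =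
      Submodule.Quotient.mk (gs δ y) := rfl

/-- If `Y` is coinduced from `Q₀` then `Y/pY` is coinduced from `Q₀/pQ₀`. -/
theorem bijective_coords_piBar (hbij : Function.Bijective (coords (Δ := Δ) π₀)) :
    Function.Bijective (coords (Δ := Δ) (piBar (Δ := Δ) π₀ p)) := by
  constructor
  · rw [injective_iff_map_eq_zero]
    intro ybar h
    obtain ⟨y, rfl⟩ := Submodule.Quotient.mk_surjective _ ybar
    have h1 : ∀ δ : Δ, ∃ q : Q₀, p • q = coords π₀ y δ := by
      intro δ
      have := congrFun h δ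
      rw [coords_apply, gs_mk, piBar_mk, Pi.zero_apply, QuotientAddGroup.eq_zero_iff] at this
      exact this
    choose q hq using h1
    obtain ⟨y', hy'⟩ := hbij.2 q
    have : y = p • y' := by
      apply hbij.1
      rw [map_nsmul, hy']
      funext δ
      rw [Pi.smul_apply, hq]
    rw [this, Submodule.Quotient.mk_eq_zero]
    exact smul_mem_imP y'
  · intro qbar
    choose q hq using fun δ => QuotientAddGroup.mk_surjective (qbar δ)
    obtain ⟨y, hy⟩ := hbij.2 q
    refine ⟨Submodule.Quotient.mk y, ?_⟩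
    funext δ
    rw [coords_apply, gs_mk, piBar_mk, ← hq δ, ← hy]
    rfl

end CotCoinduced

section Elementary

theorem card_linearMap_zmod {A : Type v} {Q : Type w} [AddCommGroup A] [AddCommGroup Q]
    {p : ℕ} [Fact p.Prime] [Module (ZMod p) A] [Module (ZMod p) Q] [Finite A] [Finite Q]
    {d : ℕ} (hd : Nat.card Q = p ^ d) : Nat.card (A →ₗ[ZMod p] Q) = Nat.card A ^ d := by
  have _fA : Module.Finite (ZMod p) A := Module.Finite.of_finite
  have _fQ : Module.Finite (ZMod p) Q := Module.Finite.of_finite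
  have hcA : Nat.card A = p ^ Module.finrank (ZMod p) A := by
    have := Module.natCard_eq_pow_finrank (K := ZMod p) (V := A)
    rwa [Nat.card_zmod] at this
  have hcQ : Nat.card Q = p ^ Module.finrank (ZMod p) Q := by
    have := Module.natCard_eq_pow_finrank (K := ZMod p) (V := Q)
    rwa [Nat.card_zmod] at this
  have hdQ : Module.finrank (ZMod p) Q = d :=
    Nat.pow_right_injective (Fact.out : p.Prime).two_le (hcQ.symm.trans hd)
  have hH := Module.natCard_eq_pow_finrank (K := ZMod p) (V := A →ₗ[ZMod p] Q)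
  rw [Nat.card_zmod, Module.finrank_linearMap, hdQ, pow_mul, ← hcA] at hH
  exact hH

/-- Counting homomorphisms between elementary abelian `p`-groups. -/
theorem card_addMonoidHom_of_elementary {A : Type v} {Q : Type w} [AddCommGroup A]
    [AddCommGroup Q] [Finite A] [Finite Q] {p : ℕ} [Fact p.Prime] (hA : ∀ a : A, p • a = 0)
    (hQ : ∀ x : Q, p • x = 0) {d : ℕ} (hd : Nat.card Q = p ^ d) :
    Nat.card (A →+ Q) = Nat.card A ^ d := by
  let _ : Module (ZMod p) A := AddCommGroup.zmodModule hA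
  let _ : Module (ZMod p) Q := AddCommGroup.zmodModule hQ
  have e : (A →+ Q) ≃ (A →ₗ[ZMod p] Q) :=
    { toFun := fun f => AddMonoidHom.toZModLinearMap p f
      invFun := fun f => f.toAddMonoidHom
      left_inv := fun f => by ext; rfl
      right_inv := fun f => by ext; rfl }
  rw [Nat.card_congr e]
  exact card_linearMap_zmod hd

end Elementary

section Main

variable {A Y : Type v} [AddCommGroup A] [Module (MonoidAlgebra ℤ Δ) A]
  [AddCommGroup Y] [Module (MonoidAlgebra ℤ Δ) Y] {Q₀ : Type w} [AddCommGroup Q₀]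

/-- **Count for a coinduced lattice.**  If `Y` is coinduced from `Q₀` (via `π₀`), `#(Q₀/pQ₀) = p^d`
and `A` is finite and killed by `p`, then `#Hom_R(A, Y/pY) = (#A)^d`. -/
theorem cnt_cotP_of_coinduced {p : ℕ} [Fact p.Prime] [Finite A] (hA : ∀ a : A, p • a = 0)
    (π₀ : Y →+ Q₀) (hbij : Function.Bijective (coords (Δ := Δ) π₀)) {d : ℕ}
    (hd : Nat.card (Q₀ ⧸ pMultiples Q₀ p) = p ^ d) :
    cnt (MonoidAlgebra ℤ Δ) A (cotP (MonoidAlgebra ℤ Δ) p Y) = Nat.card A ^ d := by
  rw [cnt_eq_card_addMonoidHom (piBar (Δ := Δ) π₀ p) (bijective_coords_piBar π₀ p hbij)]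
  have hfin : Finite (Q₀ ⧸ pMultiples Q₀ p) := by
    apply Nat.finite_of_card_ne_zero
    rw [hd]
    exact pow_ne_zero _ (Fact.out : p.Prime).ne_zero
  refine card_addMonoidHom_of_elementary hA (fun x => ?_) hd
  obtain ⟨x, rfl⟩ := QuotientAddGroup.mk_surjective x
  rw [← QuotientAddGroup.mk_nsmul, QuotientAddGroup.eq_zero_iff]
  exact ⟨x, rfl⟩

end Main

end Fermat.Agent.TW.LEulLatticeCore10
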