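/-
Programme TW (S56), sub-programme C4 (local Euler characteristic, architect helper74), brick C4-LFc
(helper10), ABSTRACT CORE 2: index bookkeeping for multiplication by `p` on torsion-free abelian
groups, and invariance of `cnt A (X/pX)` under passage to a submodule of finite index and under
`R`-linear isomorphisms.
-/
import Mathlib
import Fermat.Agent.TW.LocECCount74

set_option autoImplicit false

namespace Fermat.Agent.TW.LEulLatticeIdx10

open Fermat.Agent.TW.LocECCount74

universe u v

section Groups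

variable {X : Type*} [AddCommGroup X] (p : ℕ)

/-- The subgroup `pX`. -/
def pSub (X : Type*) [AddCommGroup X] (p : ℕ) : AddSubgroup X :=
  (nsmulAddMonoidHom p : X →+ X).range

theorem mem_pSub {x : X} : x ∈ pSub X p ↔ ∃ y : X, p • y = x := Iff.rfl

/-- For a torsion-free group and a subgroup `N` of finite index, `[X : pX] = [N : pN]`. -/
theorem index_pSub_eq (htf : ∀ x : X, p • x = 0 → x = 0) (N : AddSubgroup X)
    (hN : N.index ≠ 0) : (pSub N p).index = (pSub X p).index := by
  have hinj : Function.Injective (nsmulAddMonoidHom p : X →+ X) := by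
    rw [injective_iff_map_eq_zero]
    exact fun x hx => htf x hx
  -- `pN` as a subgroup of `X`
  have h1 : (N.map (nsmulAddMonoidHom p : X →+ X)).index = N.index * (pSub X p).index :=
    AddSubgroup.index_map_of_injective N hinj
  have hle : N.map (nsmulAddMonoidHom p : X →+ X) ≤ N := by
    rintro _ ⟨n, hn, rfl⟩
    exact N.nsmul_mem hn p
  have h2 : (N.map (nsmulAddMonoidHom p : X →+ X)).relIndex N * N.index =
      (N.map (nsmulAddMonoidHom p : X →+ X)).index := AddSubgroup.relIndex_mul_index hle
  have h3 : (N.map (nsmulAddMonoidHom p : X →+ X)).relIndex N = (pSub N p).index := by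
    unfold AddSubgroup.relIndex
    congr 1
    ext n
    rw [AddSubgroup.mem_addSubgroupOf, mem_pSub]
    constructor
    · rintro ⟨m, hm, hmn⟩
      exact ⟨⟨m, hm⟩, Subtype.ext hmn⟩
    · rintro ⟨m, rfl⟩
      exact ⟨m.1, m.2, rfl⟩
  rw [h3, h1, mul_comm] at h2
  exact Nat.eq_of_mul_eq_mul_left (Nat.pos_of_ne_zero hN) h2

end Groups

section Ambient

variable {G : Type*} [AddCommGroup G]

/-- The subgroup `m S` of an ambient group. -/
def mSub (S : AddSubgroup G) (m : ℕ) : AddSubgroup G := S.map (nsmulAddMonoidHom m : G →+ G)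

theorem mem_mSub {S : AddSubgroup G} {m : ℕ} {x : G} : x ∈ mSub S m ↔ ∃ y ∈ S, m • y = x :=
  Iff.rfl

theorem mSub_le (S : AddSubgroup G) (m : ℕ) : mSub S m ≤ S := by
  rintro _ ⟨y, hy, rfl⟩
  exact S.nsmul_mem hy m

theorem mSub_mono {S T : AddSubgroup G} (h : S ≤ T) (m : ℕ) : mSub S m ≤ mSub T m :=
  AddSubgroup.map_mono h

theorem mSub_mSub (S : AddSubgroup G) (m n : ℕ) : mSub (mSub S m) n = mSub S (n * m) := by
  ext x
  constructor
  · rintro ⟨_, ⟨y, hy, rfl⟩, rfl⟩
    exact ⟨y, hy, by simp only [nsmulAddMonoidHom_apply, mul_nsmul']⟩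
  · rintro ⟨y, hy, rfl⟩
    exact ⟨m • y, ⟨y, hy, rfl⟩, by simp only [nsmulAddMonoidHom_apply, mul_nsmul']⟩

/-- `[S : pS]`, as a relative index in the ambient group. -/
noncomputable def pIdx (S : AddSubgroup G) (p : ℕ) : ℕ := (mSub S p).relIndex S

theorem index_pSub_eq_pIdx (S : AddSubgroup G) (p : ℕ) : (pSub S p).index = pIdx S p := by
  unfold pIdx AddSubgroup.relIndex
  congr 1
  ext n
  rw [AddSubgroup.mem_addSubgroupOf, mem_pSub, mem_mSub]
  constructor
  · rintro ⟨m, rfl⟩
    exact ⟨m.1, m.2, rfl⟩
  · rintro ⟨m, hm, hmn⟩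
    exact ⟨⟨m, hm⟩, Subtype.ext hmn⟩

variable {p : ℕ} (htf : ∀ x : G, p • x = 0 → x = 0)

include htf in
theorem injective_nsmul : Function.Injective (nsmulAddMonoidHom p : G →+ G) := by
  rw [injective_iff_map_eq_zero]
  exact fun x hx => htf x hx

include htf in
theorem injective_nsmul_pow (a : ℕ) : Function.Injective (nsmulAddMonoidHom (p ^ a) : G →+ G) := by
  induction a with
  | zero =>
    intro x y h
    simpa using h
  | succ a ih =>
    intro x y h
    apply ih
    apply injective_nsmul htf
    simp only [nsmulAddMonoidHom_apply] at h ⊢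
    rw [← mul_nsmul', ← mul_nsmul', ← pow_succ']
    exact h

include htf in
/-- `[N : pN] = [X : pX]` for `N ≤ X` of finite index in a torsion-free ambient group. -/
theorem pIdx_eq_of_le {N X : AddSubgroup G} (hle : N ≤ X) (hfin : N.relIndex X ≠ 0) :
    pIdx N p = pIdx X p := by
  have hinj := injective_nsmul htf
  have h1 : (mSub N p).relIndex X = N.relIndex X * pIdx X p := by
    rw [← AddSubgroup.relIndex_mul_relIndex _ _ _ (mSub_mono hle p) (mSub_le X p)]
    unfold mSub pIdx
    rw [AddSubgroup.relIndex_map_map_of_injective N X hinj]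
    rfl
  have h2 : (mSub N p).relIndex X = pIdx N p * N.relIndex X := by
    rw [← AddSubgroup.relIndex_mul_relIndex _ _ _ (mSub_le N p) hle]
    rfl
  rw [h2, mul_comm] at h1
  exact Nat.eq_of_mul_eq_mul_left (Nat.pos_of_ne_zero hfin) h1

include htf in
/-- `[S : p^a S] = [S : pS]^a`. -/
theorem relIndex_mSub_pow (S : AddSubgroup G) (a : ℕ) :
    (mSub S (p ^ a)).relIndex S = pIdx S p ^ a := by
  induction a with
  | zero =>
    have : mSub S (p ^ 0) = S := by
      ext x
      rw [mem_mSub]
      constructor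
      · rintro ⟨y, hy, rfl⟩
        simpa using hy
      · intro hx
        exact ⟨x, hx, by simp⟩
    rw [this, AddSubgroup.relIndex_self, pow_zero]
  | succ a ih =>
    have e : mSub S (p ^ (a + 1)) = mSub (mSub S (p ^ a)) p := by
      rw [mSub_mSub, pow_succ, mul_comm]
    rw [e, ← AddSubgroup.relIndex_mul_relIndex _ _ _ (mSub_mono (mSub_le S (p ^ a)) p) (mSub_le S p)]
    unfold mSub at ih ⊢
    rw [AddSubgroup.relIndex_map_map_of_injective _ S (injective_nsmul htf), ih, pow_succ]
    rfl

/-- Finite-index is inherited in a sandwich `T ≤ N ≤ M ≤ X`. -/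
theorem relIndex_ne_zero_of_sandwich {T N M X : AddSubgroup G} (hTN : T ≤ N) (hNM : N ≤ M)
    (hMX : M ≤ X) (h : T.relIndex X ≠ 0) : N.relIndex M ≠ 0 := by
  have h1 := AddSubgroup.relIndex_mul_relIndex _ _ _ hTN (hNM.trans hMX)
  have h2 := AddSubgroup.relIndex_mul_relIndex _ _ _ hNM hMX
  intro h0
  rw [h0, zero_mul] at h2
  rw [← h2, mul_zero] at h1
  exact h h1.symm

end Ambient

section Modules

variable {R : Type u} [Ring R] {p : ℕ}
variable {A : Type v} [AddCommGroup A] [Module R A]
variable {X X' : Type v} [AddCommGroup X] [Module R X] [AddCommGroup X'] [Module R X']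

/-- `#(X/pX)` is the index of `pX`. -/
theorem card_cotP : Nat.card (cotP R p X) = (pSub X p).index := by
  have : (imP R p X).toAddSubgroup = pSub X p := by
    ext x
    exact Iff.rfl
  rw [← this]
  rfl

theorem torP_eq_bot (htf : ∀ x : X, p • x = 0 → x = 0) : torP R p X = ⊥ := by
  rw [eq_bot_iff]
  intro x hx
  exact (Submodule.mem_bot R).mpr (htf x hx)

/-- An `R`-linear isomorphism induces one on cotorsion. -/
noncomputable def cotEquiv (e : X ≃ₗ[R] X') : cotP R p X ≃ₗ[R] cotP R p X' :=
  Submodule.Quotient.equiv (imP R p X) (imP R p X') e (by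
    ext x
    constructor
    · rintro ⟨_, ⟨y, rfl⟩, rfl⟩
      exact ⟨e y, by simp⟩
    · rintro ⟨y, rfl⟩
      exact ⟨p • e.symm y, ⟨e.symm y, rfl⟩, by simp⟩)

theorem cnt_cotP_congr (e : X ≃ₗ[R] X') : cnt R A (cotP R p X) = cnt R A (cotP R p X') :=
  cnt_congr (cotEquiv e)

/-- Passing to a submodule of finite index of a torsion-free module does not change
`cnt A (X/pX)`. -/
theorem cnt_cotP_submodule (hA : IsPProj R p A) [Finite A] (htf : ∀ x : X, p • x = 0 → x = 0)
    (N : Submodule R X) [Finite (X ⧸ N)] : cnt R A (cotP R p N) = cnt R A (cotP R p X) := by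
  have h := cnt_of_finite_quotient (p := p) N hA
  have hX : Subsingleton (torP R p X) := by
    rw [torP_eq_bot htf]
    infer_instance
  have hN : Subsingleton (torP R p N) := by
    rw [torP_eq_bot (fun x hx => Subtype.ext (htf x.1 (by
      have := congrArg Subtype.val hx
      simpa using this)))]
    infer_instance
  rw [cnt_of_subsingleton (Y := torP R p N), cnt_of_subsingleton (Y := torP R p X), one_mul,
    one_mul] at h
  exact h.symm

/-- Comparison of two submodules `L' ≤ L` of a torsion-free module with `[L : L']` finite. -/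
theorem cnt_cotP_of_le (hA : IsPProj R p A) [Finite A] (htf : ∀ x : X, p • x = 0 → x = 0)
    {L' L : Submodule R X} (hle : L' ≤ L)
    (hfin : L'.toAddSubgroup.relIndex L.toAddSubgroup ≠ 0) :
    cnt R A (cotP R p L') = cnt R A (cotP R p L) := by
  have htfL : ∀ x : L, p • x = 0 → x = 0 := fun x hx => Subtype.ext (htf x.1 (by
    have := congrArg Subtype.val hx
    simpa using this))
  have hq : Finite (L ⧸ Submodule.comap L.subtype L') := by
    have : Nat.card (L ⧸ Submodule.comap L.subtype L') ≠ 0 := hfin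
    exact Nat.finite_of_card_ne_zero this
  rw [← cnt_cotP_submodule hA htfL (Submodule.comap L.subtype L')]
  exact cnt_cotP_congr (Submodule.comapSubtypeEquivOfLe hle).symm

end Modules

end Fermat.Agent.TW.LEulLatticeIdx10
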