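/-
Programme TW (S56), sub-programme C4 (local Euler characteristic, architect helper74), brick C4-LFc
(helper10), ABSTRACT CORE 3: the normal-basis lattice.

`Δ` a finite group acting faithfully on a field `E` (so `E / K`, `K = E^Δ`, is Galois with group
`Δ`), `O` a `Δ`-stable subring such that every element of `E` is `p^k`-divisible into `O`.  Then
there is `b ∈ O` whose conjugates `δ b` form a `K`-basis of `E`; the lattice
`Λ = {y | all coordinates of y lie in O}` (`= ⊕ (O ∩ K) δ b`) is `Δ`-stable, contained in `O`,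
contains `p^a O` for some `a` (if `O` is finitely generated over `O ∩ K`), and is coinduced from
`O ∩ K`.
-/
import Mathlib
import Fermat.Agent.TW.LEulLatticeCore10
import Fermat.Agent.TW.LEulLatticeIdx10

set_option autoImplicit false
set_option linter.unusedSectionVars false

namespace Fermat.Agent.TW.LEulLatticeNB10

open Fermat.Agent.TW.LocECCount74 Fermat.Agent.TW.LEulLatticeCore10
  Fermat.Agent.TW.LEulLatticeIdx10 Module

universe v

variable {Δ : Type*} [Group Δ] [Finite Δ] {E : Type v} [Field E] [MulSemiringAction Δ E]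
  [FaithfulSMul Δ E]

/-! ### The normal basis -/

/-- A `K`-basis of `E` indexed by `Δ` is *normal* if `B δ = δ • B 1`. -/
def IsNormalBasis (B : Basis Δ (FixedPoints.subfield Δ E) E) : Prop := ∀ δ : Δ, B δ = δ • B 1

variable (Δ E) in
theorem exists_isNormalBasis : ∃ B : Basis Δ (FixedPoints.subfield Δ E) E, IsNormalBasis B := by
  refine ⟨(IsGalois.normalBasis (FixedPoints.subfield Δ E) E).reindex
    (FixedPoints.toAlgAutMulEquiv Δ E).symm.toEquiv, fun δ => ?_⟩
  have h : ∀ ε : Δ, ((FixedPoints.toAlgAutMulEquiv Δ E).symm.toEquiv).symm ε =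
      FixedPoints.toAlgAutMulEquiv Δ E ε := fun _ => rfl
  rw [Basis.reindex_apply, Basis.reindex_apply, h, h,
    IsGalois.normalBasis_apply (FixedPoints.toAlgAutMulEquiv Δ E δ),
    (FixedPoints.toAlgAutMulEquiv Δ E).map_one]
  rfl

/-- Scaling a normal basis by a nonzero natural number gives a normal basis. -/
theorem exists_isNormalBasis_mem {p : ℕ} (hp0 : (p : E) ≠ 0) (O : Subring E)
    (hscale : ∀ x : E, ∃ k : ℕ, (p : E) ^ k * x ∈ O) :
    ∃ B : Basis Δ (FixedPoints.subfield Δ E) E, IsNormalBasis B ∧ B 1 ∈ O := by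
  obtain ⟨B0, hB0⟩ := exists_isNormalBasis Δ E
  obtain ⟨k, hk⟩ := hscale (B0 1)
  have hu : ∀ _ : Δ, IsUnit ((p : FixedPoints.subfield Δ E) ^ k) := fun _ => by
    apply IsUnit.pow
    rw [isUnit_iff_ne_zero]
    intro h
    apply hp0
    have := congrArg (fun x : FixedPoints.subfield Δ E => (x : E)) h
    simpa using this
  refine ⟨B0.isUnitSMul hu, fun δ => ?_, ?_⟩
  · rw [Basis.isUnitSMul_apply, Basis.isUnitSMul_apply, hB0 δ, smul_comm]
  · rw [Basis.isUnitSMul_apply]
    have : ((p : FixedPoints.subfield Δ E) ^ k) • B0 1 = (p : E) ^ k * B0 1 := by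
      rw [Subfield.smul_def]
      simp
    rw [this]
    exact hk

/-! ### Coordinates and the action -/

section Coord

variable {B : Basis Δ (FixedPoints.subfield Δ E) E} (hB : IsNormalBasis B)

/-- `x ↦ ε • x` as a `K`-linear map. -/
def actLin (ε : Δ) : E →ₗ[FixedPoints.subfield Δ E] E where
  toFun x := ε • x
  map_add' := smul_add ε
  map_smul' c x := by
    rw [RingHom.id_apply]
    exact smul_comm ε c x

include hB in
theorem smul_basis (ε δ : Δ) : ε • B δ = B (ε * δ) := by
  rw [hB δ, hB (ε * δ), mul_smul]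

include hB in
/-- The coordinates of `ε • y` are the translated coordinates of `y`. -/
theorem repr_smul (ε δ : Δ) (y : E) : B.repr (ε • y) δ = B.repr y (ε⁻¹ * δ) := by
  classical
  have h : (B.coord δ).comp (actLin ε) = B.coord (ε⁻¹ * δ) := by
    apply B.ext
    intro δ'
    rw [LinearMap.comp_apply]
    show B.coord δ (ε • B δ') = _
    rw [smul_basis hB, Basis.coord_apply, Basis.coord_apply, Basis.repr_self, Basis.repr_self,
      Finsupp.single_apply, Finsupp.single_apply]
    congr 1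
    rw [eq_iff_iff]
    constructor
    · rintro rfl
      rw [inv_mul_cancel_left]
    · rintro rfl
      rw [mul_inv_cancel_left]
  have := congrArg (fun f => f y) h
  simpa [actLin, Basis.coord_apply] using this

end Coord

/-! ### Stable subgroups as `ℤ[Δ]`-submodules -/

section Stable

variable [Module (MonoidAlgebra ℤ Δ) E]

/-- An additive subgroup of `E` stable under `Δ` is a `ℤ[Δ]`-submodule. -/
def toSub (hact : ∀ (δ : Δ) (x : E), MonoidAlgebra.single δ (1 : ℤ) • x = δ • x)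
    (S : AddSubgroup E) (hS : ∀ (δ : Δ) (x : E), x ∈ S → δ • x ∈ S) :
    Submodule (MonoidAlgebra ℤ Δ) E where
  carrier := S
  add_mem' := S.add_mem
  zero_mem' := S.zero_mem
  smul_mem' r x hx := by
    induction r using MonoidAlgebra.induction_on with
    | of δ =>
      rw [MonoidAlgebra.of_apply, hact]
      exact hS δ x hx
    | add f g hf hg =>
      rw [add_smul]
      exact S.add_mem hf hg
    | smul z f hf =>
      rw [smul_assoc]
      exact S.zsmul_mem hf z

theorem mem_toSub (hact : ∀ (δ : Δ) (x : E), MonoidAlgebra.single δ (1 : ℤ) • x = δ • x)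
    (S : AddSubgroup E) (hS : ∀ (δ : Δ) (x : E), x ∈ S → δ • x ∈ S) (x : E) :
    x ∈ toSub hact S hS ↔ x ∈ S := Iff.rfl

theorem toSub_toAddSubgroup (hact : ∀ (δ : Δ) (x : E), MonoidAlgebra.single δ (1 : ℤ) • x = δ • x)
    (S : AddSubgroup E) (hS : ∀ (δ : Δ) (x : E), x ∈ S → δ • x ∈ S) :
    (toSub hact S hS).toAddSubgroup = S := rfl

end Stable

/-! ### The lattice -/

section Lattice

variable (B : Basis Δ (FixedPoints.subfield Δ E) E) (O : Subring E)

/-- `Λ = {y | all coordinates of y lie in O}`, as an additive subgroup. -/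
def latGrp : AddSubgroup E where
  carrier := {y | ∀ δ : Δ, ((B.repr y δ : FixedPoints.subfield Δ E) : E) ∈ O}
  add_mem' := fun {y y'} hy hy' δ => by
    rw [map_add, Finsupp.add_apply, Subfield.coe_add]
    exact O.add_mem (hy δ) (hy' δ)
  zero_mem' := fun δ => by
    rw [map_zero, Finsupp.zero_apply, ZeroMemClass.coe_zero]
    exact O.zero_mem
  neg_mem' := fun {y} hy δ => by
    rw [map_neg, Finsupp.neg_apply, Subfield.coe_neg]
    exact O.neg_mem (hy δ)

theorem mem_latGrp {y : E} :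
    y ∈ latGrp B O ↔ ∀ δ : Δ, ((B.repr y δ : FixedPoints.subfield Δ E) : E) ∈ O := Iff.rfl

variable {B}

theorem latGrp_stable (hB : IsNormalBasis B) (ε : Δ) (y : E) (hy : y ∈ latGrp B O) :
    ε • y ∈ latGrp B O := fun δ => by
  rw [repr_smul hB]
  exact hy _

/-- `Λ ⊆ O`. -/
theorem latGrp_le (hB : IsNormalBasis B) (hOΔ : ∀ (δ : Δ) (x : E), x ∈ O → δ • x ∈ O)
    (hb : B 1 ∈ O) : latGrp B O ≤ O.toAddSubgroup := by
  intro y hy
  cases nonempty_fintype Δ
  rw [← B.sum_repr y]
  refine O.toAddSubgroup.sum_mem fun δ _ => ?_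
  rw [Subfield.smul_def, smul_eq_mul, hB δ]
  exact O.mul_mem (hy δ) (hOΔ δ _ hb)

/-- The fixed part `O ∩ K` of `O`, as an additive subgroup. -/
def okGrp (Δ : Type*) [Group Δ] [MulSemiringAction Δ E] (O : Subring E) : AddSubgroup E where
  carrier := {x | x ∈ O ∧ ∀ δ : Δ, δ • x = x}
  add_mem' := fun {x y} hx hy => ⟨O.add_mem hx.1 hy.1, fun δ => by rw [smul_add, hx.2, hy.2]⟩
  zero_mem' := ⟨O.zero_mem, fun δ => smul_zero δ⟩
  neg_mem' := fun {x} hx => ⟨O.neg_mem hx.1, fun δ => by rw [smul_neg, hx.2]⟩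

variable (B)

/-- The coordinate at `1`, as a map `Λ → O ∩ K`. -/
noncomputable def pi0 : latGrp B O →+ okGrp Δ O where
  toFun y := ⟨((B.repr y.1 1 : FixedPoints.subfield Δ E) : E), y.2 1, (B.repr y.1 1).2⟩
  map_zero' := by
    apply Subtype.ext
    show ((B.repr (0 : E) 1 : FixedPoints.subfield Δ E) : E) = 0
    rw [map_zero, Finsupp.zero_apply, ZeroMemClass.coe_zero]
  map_add' y y' := by
    apply Subtype.ext
    show ((B.repr (y.1 + y'.1) 1 : FixedPoints.subfield Δ E) : E) = _
    rw [map_add, Finsupp.add_apply, Subfield.coe_add]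
    rfl

end Lattice

section Contains

variable {B : Basis Δ (FixedPoints.subfield Δ E) E} {O : Subring E}

/-- `Λ` is stable under multiplication by `O ∩ K`. -/
theorem mul_mem_latGrp {c y : E} (hc : c ∈ O) (hfix : ∀ δ : Δ, δ • c = c) (hy : y ∈ latGrp B O) :
    c * y ∈ latGrp B O := fun δ => by
  have h : c * y = (⟨c, hfix⟩ : FixedPoints.subfield Δ E) • y := by
    rw [Subfield.smul_def]
    rfl
  rw [h, map_smul, Finsupp.smul_apply, smul_eq_mul, Subfield.coe_mul]
  exact O.mul_mem hc (hy δ)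

theorem smul_natCast_pow (δ : Δ) (p m : ℕ) : δ • ((p : E) ^ m) = (p : E) ^ m := by
  rw [smul_pow']
  congr 1
  exact map_natCast (MulSemiringAction.toRingHom Δ E δ) p

theorem natCast_pow_mul_mem_latGrp {p : ℕ} (m : ℕ) {y : E} (hy : y ∈ latGrp B O) :
    (p : E) ^ m * y ∈ latGrp B O :=
  mul_mem_latGrp (O.pow_mem (natCast_mem O p) m) (fun δ => smul_natCast_pow δ p m) hy

/-- Every element of `E` is `p`-power divisible into `Λ`. -/
theorem exists_pow_mul_mem_latGrp {p : ℕ} (hscale : ∀ x : E, ∃ k : ℕ, (p : E) ^ k * x ∈ O)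
    (x : E) : ∃ a : ℕ, (p : E) ^ a * x ∈ latGrp B O := by
  cases nonempty_fintype Δ
  choose k hk using fun δ : Δ => hscale ((B.repr x δ : FixedPoints.subfield Δ E) : E)
  refine ⟨∑ δ, k δ, fun δ => ?_⟩
  have h : (p : E) ^ (∑ δ, k δ) * x =
      (⟨(p : E) ^ (∑ δ, k δ), fun ε => smul_natCast_pow ε p _⟩ : FixedPoints.subfield Δ E) • x := by
    rw [Subfield.smul_def]
    rfl
  rw [h, map_smul, Finsupp.smul_apply, smul_eq_mul, Subfield.coe_mul]
  have hle : k δ ≤ ∑ δ, k δ := Finset.single_le_sum (fun _ _ => Nat.zero_le _) (Finset.mem_univ δ)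
  obtain ⟨m, hm⟩ := Nat.exists_eq_add_of_le hle
  show (p : E) ^ (∑ δ, k δ) * _ ∈ O
  rw [hm, add_comm, pow_add, mul_assoc]
  exact O.mul_mem (O.pow_mem (natCast_mem O p) m) (hk δ)

/-- `p^a O ⊆ Λ` for some `a`, if `O` is finitely generated over `O ∩ K`. -/
theorem exists_pow_le_latGrp {p : ℕ} (hscale : ∀ x : E, ∃ k : ℕ, (p : E) ^ k * x ∈ O)
    (hfg : ∃ s : Finset E, ∀ x ∈ O, ∃ c : E → E,
      (∀ i ∈ s, c i ∈ O ∧ ∀ δ : Δ, δ • c i = c i) ∧ x = ∑ i ∈ s, c i * i) :
    ∃ a : ℕ, ∀ x ∈ O, (p : E) ^ a * x ∈ latGrp B O := by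
  obtain ⟨s, hs⟩ := hfg
  choose k hk using fun i : E => exists_pow_mul_mem_latGrp (B := B) hscale i
  refine ⟨∑ i ∈ s, k i, fun x hx => ?_⟩
  obtain ⟨c, hc, rfl⟩ := hs x hx
  rw [Finset.mul_sum]
  refine (latGrp B O).sum_mem fun i hi => ?_
  have hle : k i ≤ ∑ i ∈ s, k i := Finset.single_le_sum (fun _ _ => Nat.zero_le _) hi
  obtain ⟨m, hm⟩ := Nat.exists_eq_add_of_le hle
  have e : (p : E) ^ (∑ i ∈ s, k i) * (c i * i) = c i * ((p : E) ^ m * ((p : E) ^ k i * i)) := by
    rw [hm, pow_add]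
    ring
  rw [e]
  exact mul_mem_latGrp (hc i hi).1 (hc i hi).2 (natCast_pow_mul_mem_latGrp m (hk i))

end Contains

/-! ### `Λ` is coinduced from `O ∩ K` -/

section CoindLattice

variable [Module (MonoidAlgebra ℤ Δ) E]
  (hact : ∀ (δ : Δ) (x : E), MonoidAlgebra.single δ (1 : ℤ) • x = δ • x)
  {B : Basis Δ (FixedPoints.subfield Δ E) E} (hB : IsNormalBasis B) (O : Subring E)

/-- `Λ` as a `ℤ[Δ]`-submodule of `E`. -/
def lat : Submodule (MonoidAlgebra ℤ Δ) E := toSub hact (latGrp B O) (latGrp_stable O hB)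

/-- The coordinate at `1`, on the submodule `Λ`. -/
noncomputable def piLat : lat hact hB O →+ okGrp Δ O :=
  (pi0 B O).comp
    { toFun := fun y => ⟨y.1, y.2⟩
      map_zero' := rfl
      map_add' := fun _ _ => rfl }

theorem coords_piLat_val (y : lat hact hB O) (δ : Δ) :
    ((coords (Δ := Δ) (piLat hact hB O) y δ : okGrp Δ O) : E) =
      ((B.repr y.1 δ : FixedPoints.subfield Δ E) : E) := by
  rw [coords_apply]
  show ((B.repr ((gs δ⁻¹ y : lat hact hB O) : E) 1 : FixedPoints.subfield Δ E) : E) = _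
  have : ((gs δ⁻¹ y : lat hact hB O) : E) = δ⁻¹ • (y : E) := by
    unfold gs
    rw [Submodule.coe_smul, hact]
  rw [this, repr_smul hB, inv_inv, mul_one]

theorem bijective_coords_piLat : Function.Bijective (coords (Δ := Δ) (piLat hact hB O)) := by
  constructor
  · intro y y' h
    apply Subtype.ext
    apply B.repr.injective
    ext δ
    have := congrArg (fun f : Δ → okGrp Δ O => ((f δ : okGrp Δ O) : E)) h
    simp only [coords_piLat_val] at this
    exact this
  · intro c
    cases nonempty_fintype Δ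
    let κ : Δ → FixedPoints.subfield Δ E := fun δ => ⟨(c δ : E), (c δ).2.2⟩
    have hrepr : ∀ δ, B.repr (∑ ε, κ ε • B ε) δ = κ δ := fun δ => by
      rw [B.repr_sum_self]
    refine ⟨⟨∑ ε, κ ε • B ε, fun δ => ?_⟩, ?_⟩
    · rw [hrepr]
      exact (c δ).2.1
    · funext δ
      apply Subtype.ext
      rw [coords_piLat_val]
      show ((B.repr (∑ ε, κ ε • B ε) δ : FixedPoints.subfield Δ E) : E) = _
      rw [hrepr]

end CoindLattice

end Fermat.Agent.TW.LEulLatticeNB10
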