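/-
Programme TW (S56), sub-programme C4 (local Euler characteristic, architect helper74), brick C4-LFc
(helper10), ABSTRACT MAIN THEOREM.

`Δ` a finite group acting faithfully on a field `E` with `p ≠ 0` in `E`; `E` is a `ℤ[Δ]`-module
through the action; `O` a `Δ`-stable subring, `p`-power absorbing, finitely generated over its
fixed part, with `[O : pO] = p^n`.  Then for every `ℤ[Δ]`-submodule `M` of `E` with
`p^k O ⊆ M ⊆ O` and every finite `p`-projective `ℤ[Δ]`-module `A` killed by `p`: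
`#Hom_{ℤ[Δ]}(A, M/pM) = (#A)^d` where `d * #Δ = n`.
-/
import Mathlib
import Fermat.Agent.TW.LEulLatticeNB10

set_option autoImplicit false
set_option linter.unusedSectionVars false

namespace Fermat.Agent.TW.LEulLatticeMain10

open Fermat.Agent.TW.LocECCount74 Fermat.Agent.TW.LEulLatticeCore10
  Fermat.Agent.TW.LEulLatticeIdx10 Fermat.Agent.TW.LEulLatticeNB10 Module

universe v

variable {Δ : Type*} [Group Δ] [Finite Δ] {E : Type v} [Field E] [MulSemiringAction Δ E]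
  [FaithfulSMul Δ E] [Module (MonoidAlgebra ℤ Δ) E]

/-- `#(N/pN)` for a submodule `N` of `E`, as a relative index. -/
theorem card_cotP_submodule (p : ℕ) (N : Submodule (MonoidAlgebra ℤ Δ) E) :
    Nat.card (cotP (MonoidAlgebra ℤ Δ) p N) = pIdx N.toAddSubgroup p := by
  rw [card_cotP]
  exact index_pSub_eq_pIdx N.toAddSubgroup p

/-- Multiplication by `m` as a `ℤ[Δ]`-linear map. -/
noncomputable def mLin (m : ℕ) : E →ₗ[MonoidAlgebra ℤ Δ] E := m • LinearMap.id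

theorem mLin_apply (m : ℕ) (x : E) : mLin (Δ := Δ) m x = (m : E) * x := by
  simp [mLin, nsmul_eq_mul]

theorem map_mLin_toAddSubgroup (m : ℕ) (N : Submodule (MonoidAlgebra ℤ Δ) E) :
    (N.map (mLin m)).toAddSubgroup = mSub N.toAddSubgroup m := by
  ext x
  constructor
  · rintro ⟨y, hy, rfl⟩
    exact ⟨y, hy, by simp [mLin]⟩
  · rintro ⟨y, hy, rfl⟩
    exact ⟨y, hy, by simp [mLin]⟩

theorem mem_mSub_subring {O : Subring E} {m : ℕ} {x : E} :
    x ∈ mSub O.toAddSubgroup m ↔ ∃ y ∈ O, (m : E) * y = x := by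
  rw [mem_mSub]
  constructor
  · rintro ⟨y, hy, rfl⟩
    exact ⟨y, hy, by simp [nsmul_eq_mul]⟩
  · rintro ⟨y, hy, rfl⟩
    exact ⟨y, hy, by simp [nsmul_eq_mul]⟩

/-- **Main theorem (abstract form) of C4-LFc.** -/
theorem cnt_cotP_eq_pow
    (hact : ∀ (δ : Δ) (x : E), MonoidAlgebra.single δ (1 : ℤ) • x = δ • x)
    {p : ℕ} [Fact p.Prime] (hp0 : (p : E) ≠ 0)
    (O : Subring E) (hOΔ : ∀ (δ : Δ) (x : E), x ∈ O → δ • x ∈ O)
    (hscale : ∀ x : E, ∃ k : ℕ, (p : E) ^ k * x ∈ O)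
    (hfg : ∃ s : Finset E, ∀ x ∈ O, ∃ c : E → E,
      (∀ i ∈ s, c i ∈ O ∧ ∀ δ : Δ, δ • c i = c i) ∧ x = ∑ i ∈ s, c i * i)
    {n : ℕ} (hcard : pIdx O.toAddSubgroup p = p ^ n)
    (M : Submodule (MonoidAlgebra ℤ Δ) E) (hMO : ∀ x ∈ M, x ∈ O)
    (hOM : ∃ k : ℕ, ∀ x ∈ O, (p : E) ^ k * x ∈ M)
    {A : Type v} [AddCommGroup A] [Module (MonoidAlgebra ℤ Δ) A] [Finite A]
    (hA : ∀ a : A, p • a = 0) (hAproj : IsPProj (MonoidAlgebra ℤ Δ) p A) :
    ∃ d : ℕ, d * Nat.card Δ = n ∧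
      cnt (MonoidAlgebra ℤ Δ) A (cotP (MonoidAlgebra ℤ Δ) p M) = Nat.card A ^ d := by
  have hp := (Fact.out : p.Prime)
  have htf : ∀ x : E, p • x = 0 → x = 0 := fun x hx => by
    rw [nsmul_eq_mul] at hx
    exact (mul_eq_zero.mp hx).resolve_left hp0
  obtain ⟨B, hB, hb⟩ := exists_isNormalBasis_mem (Δ := Δ) hp0 O hscale
  obtain ⟨a, ha⟩ := exists_pow_le_latGrp (B := B) hscale hfg
  obtain ⟨k, hk⟩ := hOM
  set Og := O.toAddSubgroup with hOg
  set Λg := latGrp B O with hΛg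
  set Λ := lat hact hB O with hΛ
  have hΛO : Λg ≤ Og := latGrp_le O hB hOΔ hb
  have haΛ : mSub Og (p ^ a) ≤ Λg := by
    intro x hx
    obtain ⟨y, hy, rfl⟩ := mem_mSub_subring.mp hx
    rw [Nat.cast_pow]
    exact ha y hy
  have hidx : ∀ m : ℕ, (mSub Og (p ^ m)).relIndex Og ≠ 0 := fun m => by
    rw [relIndex_mSub_pow htf, hcard]
    exact pow_ne_zero _ (pow_ne_zero _ hp.ne_zero)
  -- `[Λ : pΛ] = [O : pO] = p^n`
  have hΛfin : Λg.relIndex Og ≠ 0 :=
    relIndex_ne_zero_of_sandwich haΛ hΛO le_rfl (hidx a)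
  have hpΛ : pIdx Λg p = p ^ n := by rw [pIdx_eq_of_le htf hΛO hΛfin, hcard]
  -- `Λ/pΛ ≅ Δ → (O ∩ K)/p`
  have hbij := bijective_coords_piLat hact hB O
  have hbij' := bijective_coords_piBar (piLat hact hB O) p hbij
  have hc1 : Nat.card (cotP (MonoidAlgebra ℤ Δ) p Λ) =
      Nat.card (okGrp Δ O ⧸ pMultiples (okGrp Δ O) p) ^ Nat.card Δ := by
    rw [Nat.card_congr (Equiv.ofBijective _ hbij'), Nat.card_fun]
  have hc2 : Nat.card (cotP (MonoidAlgebra ℤ Δ) p Λ) = p ^ n := by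
    rw [card_cotP_submodule]
    exact hpΛ
  have hΔpos : 0 < Nat.card Δ := Nat.card_pos
  obtain ⟨d, -, hd⟩ := (Nat.dvd_prime_pow hp).mp
    (show Nat.card (okGrp Δ O ⧸ pMultiples (okGrp Δ O) p) ∣ p ^ n by
      rw [← hc2, hc1]
      exact dvd_pow_self _ hΔpos.ne')
  have hdn : d * Nat.card Δ = n := by
    apply Nat.pow_right_injective hp.two_le
    show p ^ (d * Nat.card Δ) = p ^ n
    rw [pow_mul, ← hd, ← hc1, hc2]
  refine ⟨d, hdn, ?_⟩
  -- count for `Λ`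
  have hcntΛ : cnt (MonoidAlgebra ℤ Δ) A (cotP (MonoidAlgebra ℤ Δ) p Λ) = Nat.card A ^ d :=
    cnt_cotP_of_coinduced hA (piLat hact hB O) hbij hd
  -- compare `M` with `p^k Λ`
  have hinj : Function.Injective (mLin (Δ := Δ) (E := E) (p ^ k)) := by
    intro x y h
    apply injective_nsmul_pow htf k
    show p ^ k • x = p ^ k • y
    simpa only [mLin, LinearMap.smul_apply, LinearMap.id_apply] using h
  have e1 : cnt (MonoidAlgebra ℤ Δ) A (cotP (MonoidAlgebra ℤ Δ) p (Λ.map (mLin (p ^ k)))) =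
      cnt (MonoidAlgebra ℤ Δ) A (cotP (MonoidAlgebra ℤ Δ) p Λ) :=
    (cnt_cotP_congr (Submodule.equivMapOfInjective (mLin (p ^ k)) hinj Λ)).symm
  have hle : Λ.map (mLin (p ^ k)) ≤ M := by
    rintro _ ⟨y, hy, rfl⟩
    rw [mLin_apply, Nat.cast_pow]
    exact hk y (hΛO hy)
  have hfin : (Λ.map (mLin (p ^ k))).toAddSubgroup.relIndex M.toAddSubgroup ≠ 0 := by
    rw [map_mLin_toAddSubgroup]
    have h1 : mSub Og (p ^ (k + a)) ≤ mSub Λg (p ^ k) := by
      rw [pow_add, ← mSub_mSub]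
      exact mSub_mono haΛ _
    have h2 : mSub Λg (p ^ k) ≤ M.toAddSubgroup := by
      have := hle
      rw [← Submodule.toAddSubgroup_le, map_mLin_toAddSubgroup] at this
      exact this
    have h3 : M.toAddSubgroup ≤ Og := fun x hx => hMO x hx
    exact relIndex_ne_zero_of_sandwich h1 h2 h3 (hidx (k + a))
  rw [← cnt_cotP_of_le hAproj htf hle hfin, e1, hcntΛ]

end Fermat.Agent.TW.LEulLatticeMain10
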