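/-
Programme TW (S56), brick C4 (local Euler characteristic), owner helper74.
GENERIC GROUP-RING TOOLS for the counting over `R = ℤ[Δ] = MonoidAlgebra ℤ Δ`
(`TW/LocECCount74.lean`): passing between "additive group with a `Δ`-action" and `R`-module.

* `map_smul_of_equivariant`, `linearMapOfEquivariant`, `linearEquivOfEquivariant`:
  an additive map commuting with every `of δ` is `R`-linear;
* `submoduleOfStable`: a `Δ`-stable additive subgroup is an `R`-submodule;
* `repOfAction`, `Model`, `modelEquiv`, `modelEquiv_of_smul`: the canonical `R`-module attached to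
  an additive action `act : Δ →* AddMonoid.End Z` (Mathlib's `Representation.asModule`);
* `Model.unique`: any two models of the same action are `R`-linearly isomorphic.
Mathlib only.
-/
import Mathlib

set_option autoImplicit false

namespace Fermat.Agent.TW.LocECGrpRing74

open MonoidAlgebra

variable {Δ : Type*} [Monoid Δ]

section Linear

variable {X Y : Type*} [AddCommGroup X] [Module (MonoidAlgebra ℤ Δ) X]
  [AddCommGroup Y] [Module (MonoidAlgebra ℤ Δ) Y]

/-- An additive map commuting with the group elements commutes with the whole group ring. -/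
theorem map_smul_of_equivariant (f : X →+ Y)
    (h : ∀ (δ : Δ) (x : X), f (of ℤ Δ δ • x) = of ℤ Δ δ • f x)
    (r : MonoidAlgebra ℤ Δ) (x : X) : f (r • x) = r • f x := by
  induction r using MonoidAlgebra.induction_on with
  | of g => exact h g x
  | add a b ha hb => rw [add_smul, map_add, ha, hb, add_smul]
  | smul n a ha => rw [smul_assoc, map_zsmul, ha, smul_assoc]

/-- An additive `Δ`-equivariant map is `ℤ[Δ]`-linear. -/
def linearMapOfEquivariant (f : X →+ Y)
    (h : ∀ (δ : Δ) (x : X), f (of ℤ Δ δ • x) = of ℤ Δ δ • f x) : X →ₗ[MonoidAlgebra ℤ Δ] Y where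
  toFun := f
  map_add' := f.map_add
  map_smul' r x := map_smul_of_equivariant f h r x

@[simp] theorem linearMapOfEquivariant_apply (f : X →+ Y)
    (h : ∀ (δ : Δ) (x : X), f (of ℤ Δ δ • x) = of ℤ Δ δ • f x) (x : X) :
    linearMapOfEquivariant f h x = f x := rfl

/-- An additive `Δ`-equivariant bijection is a `ℤ[Δ]`-linear equivalence. -/
def linearEquivOfEquivariant (f : X ≃+ Y)
    (h : ∀ (δ : Δ) (x : X), f (of ℤ Δ δ • x) = of ℤ Δ δ • f x) : X ≃ₗ[MonoidAlgebra ℤ Δ] Y where
  toFun := f
  invFun := f.symm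
  left_inv := f.left_inv
  right_inv := f.right_inv
  map_add' := f.map_add
  map_smul' r x := map_smul_of_equivariant f.toAddMonoidHom h r x

@[simp] theorem linearEquivOfEquivariant_apply (f : X ≃+ Y)
    (h : ∀ (δ : Δ) (x : X), f (of ℤ Δ δ • x) = of ℤ Δ δ • f x) (x : X) :
    linearEquivOfEquivariant f h x = f x := rfl

/-- A `Δ`-stable additive subgroup is a `ℤ[Δ]`-submodule. -/
def submoduleOfStable (S : AddSubgroup X)
    (h : ∀ (δ : Δ) (x : X), x ∈ S → of ℤ Δ δ • x ∈ S) : Submodule (MonoidAlgebra ℤ Δ) X where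
  carrier := S
  add_mem' := S.add_mem
  zero_mem' := S.zero_mem
  smul_mem' r x hx := by
    induction r using MonoidAlgebra.induction_on with
    | of g => exact h g x hx
    | add a b ha hb => rw [add_smul]; exact S.add_mem ha hb
    | smul n a ha => rw [smul_assoc]; exact S.zsmul_mem ha n

@[simp] theorem mem_submoduleOfStable (S : AddSubgroup X)
    (h : ∀ (δ : Δ) (x : X), x ∈ S → of ℤ Δ δ • x ∈ S) (x : X) :
    x ∈ submoduleOfStable S h ↔ x ∈ S := Iff.rfl

/-- A `ℤ[Δ]`-module is killed by `p` as soon as its additive group is. -/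
theorem nsmul_eq_zero_of (p : ℕ) (h : ∀ x : X, p • x = 0) (x : X) : (p : MonoidAlgebra ℤ Δ) • x = 0 := by
  rw [Nat.cast_smul_eq_nsmul]; exact h x

end Linear

section Model

variable {Z : Type*} [AddCommGroup Z]

/-- The `ℤ`-linear representation attached to an additive action. -/
def repOfAction (act : Δ →* AddMonoid.End Z) : Representation ℤ Δ Z :=
  ((addMonoidEndRingEquivInt Z : AddMonoid.End Z →* Module.End ℤ Z)).comp act

@[simp] theorem repOfAction_apply (act : Δ →* AddMonoid.End Z) (δ : Δ) (z : Z) :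
    repOfAction act δ z = act δ z := rfl

/-- The canonical `ℤ[Δ]`-module attached to an additive action `act` on `Z` (a type synonym of `Z`,
Mathlib's `Representation.asModule`). -/
abbrev Model (act : Δ →* AddMonoid.End Z) : Type _ := (repOfAction act).asModule

/-- The identification of the canonical model with `Z`. -/
def modelEquiv (act : Δ →* AddMonoid.End Z) : Model act ≃+ Z :=
  (repOfAction act).asModuleEquiv.toAddEquiv

theorem modelEquiv_of_smul (act : Δ →* AddMonoid.End Z) (δ : Δ) (x : Model act) :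
    modelEquiv act (of ℤ Δ δ • x) = act δ (modelEquiv act x) := by
  change (repOfAction act).asModuleEquiv (of ℤ Δ δ • x) = _
  rw [Representation.asModuleEquiv_map_smul, Representation.asAlgebraHom_of]
  rfl

/-- Any two models of the same action are `ℤ[Δ]`-linearly isomorphic. -/
def Model.unique (act : Δ →* AddMonoid.End Z)
    {X Y : Type*} [AddCommGroup X] [Module (MonoidAlgebra ℤ Δ) X]
    [AddCommGroup Y] [Module (MonoidAlgebra ℤ Δ) Y] (eX : X ≃+ Z) (eY : Y ≃+ Z)
    (hX : ∀ (δ : Δ) (x : X), eX (of ℤ Δ δ • x) = act δ (eX x))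
    (hY : ∀ (δ : Δ) (y : Y), eY (of ℤ Δ δ • y) = act δ (eY y)) : X ≃ₗ[MonoidAlgebra ℤ Δ] Y :=
  linearEquivOfEquivariant (eX.trans eY.symm) (fun δ x => by
    apply eY.injective
    rw [hY]
    simp only [AddEquiv.trans_apply, AddEquiv.apply_symm_apply]
    exact hX δ x)

@[simp] theorem Model.unique_apply (act : Δ →* AddMonoid.End Z)
    {X Y : Type*} [AddCommGroup X] [Module (MonoidAlgebra ℤ Δ) X]
    [AddCommGroup Y] [Module (MonoidAlgebra ℤ Δ) Y] (eX : X ≃+ Z) (eY : Y ≃+ Z)
    (hX : ∀ (δ : Δ) (x : X), eX (of ℤ Δ δ • x) = act δ (eX x))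
    (hY : ∀ (δ : Δ) (y : Y), eY (of ℤ Δ δ • y) = act δ (eY y)) (x : X) :
    eY (Model.unique act eX eY hX hY x) = eX x := by
  simp [Model.unique]

end Model

end Fermat.Agent.TW.LocECGrpRing74
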