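/-
Programme TW (S56), sub-programme C4 (local Euler characteristic, architect helper74), brick C4-LFc
(helper10), E-LEVEL: the statement `LEulIface74.LFcCount` for a `p`-adic field `E` in the model of
`PT/LOC` (`[Field E] [Algebra ℚ_[p] E] [FiniteDimensional ℚ_[p] E]`, `𝒪 = intRing p E`):
`#Hom_{ℤ[Δ]}(A, 𝔪ⁿ/p𝔪ⁿ) = (#A)^[K:ℚ_p]`, `K = E^Δ`.

Part 1: the facts about `𝒪` and `𝔪ⁿ` consumed by the abstract theorem
`LEulLatticeMain10.cnt_cotP_eq_pow`.
-/
import Mathlib
import Fermat.Agent.TW.LEulIface74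
import Fermat.Agent.TW.LocECGrpRing74
import Fermat.Agent.TW.LEulLatticeMain10

set_option autoImplicit false
set_option linter.unusedSectionVars false

namespace Fermat.Agent.TW.LEulLatticeLoc10

open scoped Fermat.Agent.PT.LOC.Interface12
open Fermat.Agent.PT.LOC.Interface12 Fermat.Agent.PT.LOC.Structure14
  Fermat.Agent.TW.LocECCount74 Fermat.Agent.TW.LEulIface74 Fermat.Agent.TW.LEulLatticeIdx10

noncomputable section

variable (p : ℕ) [Fact p.Prime] (E : Type) [Field E] [Algebra ℚ_[p] E]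
  [FiniteDimensional ℚ_[p] E]

/-! ### The ring of integers -/

theorem snorm_pow (x : E) (k : ℕ) : snorm p E (x ^ k) = snorm p E x ^ k := by
  induction k with
  | zero => rw [pow_zero, pow_zero, snorm_one]
  | succ k ih => rw [pow_succ, pow_succ, snorm_mul, ih]

/-- Every element of `E` is `p`-power divisible into `𝒪`. -/
theorem exists_pow_mul_mem (x : E) : ∃ k : ℕ, (p : E) ^ k * x ∈ intRing p E := by
  have hp1 : (1 : ℝ) < p := by exact_mod_cast (Fact.out : p.Prime).one_lt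
  obtain ⟨k, hk⟩ := pow_unbounded_of_one_lt (snorm p E x) hp1
  refine ⟨k, ?_⟩
  rw [mem_intRing_iff]
  show snorm p E ((p : E) ^ k * x) ≤ 1
  rw [snorm_mul, snorm_pow, snorm_natCast_q, inv_pow]
  have hpk : (0 : ℝ) < (p : ℝ) ^ k := pow_pos (by linarith) k
  rw [inv_mul_le_iff₀ hpk, mul_one]
  exact hk.le

/-- Automorphisms preserve `𝒪`. -/
theorem algEquiv_mem (σ : E ≃ₐ[ℚ_[p]] E) {x : E} (hx : x ∈ intRing p E) : σ x ∈ intRing p E := by
  rw [mem_intRing_iff] at hx ⊢
  rwa [← spectralNorm_eq_of_equiv σ x]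

theorem natCast_ne_zero : (p : E) ≠ 0 := by
  intro h
  have := snorm_natCast_q p E
  rw [h, snorm_zero] at this
  have hp0 : (0 : ℝ) < p := by exact_mod_cast (Fact.out : p.Prime).pos
  exact (inv_pos.mpr hp0).ne this

/-- The automorphism of `𝒪` induced by an automorphism of `E`. -/
def intEquiv (σ : E ≃ₐ[ℚ_[p]] E) : intRing p E ≃ₐ[ℤ_[p]] intRing p E :=
  (σ.restrictScalars ℤ_[p]).mapIntegralClosure

theorem coe_intEquiv (σ : E ≃ₐ[ℚ_[p]] E) (y : intRing p E) : (intEquiv p E σ y : E) = σ (y : E) :=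
  rfl

theorem intEquiv_mem_pow (σ : E ≃ₐ[ℚ_[p]] E) (n : ℕ) {y : intRing p E}
    (hy : y ∈ mE p E ^ n) : intEquiv p E σ y ∈ mE p E ^ n := by
  have h1 : mE p E ≤ (mE p E).comap (intEquiv p E σ : intRing p E →+* intRing p E) := by
    intro x hx
    rw [Ideal.mem_comap, IsLocalRing.mem_maximalIdeal, mem_nonunits_iff] at *
    intro hu
    apply hx
    have := hu.map (intEquiv p E σ).symm
    simpa using this
  have h2 : (mE p E ^ n).map (intEquiv p E σ : intRing p E →+* intRing p E) ≤ mE p E ^ n := by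
    rw [Ideal.map_pow]
    exact Ideal.pow_right_mono (Ideal.map_le_iff_le_comap.mpr h1) n
  exact h2 (Ideal.mem_map_of_mem _ hy)

/-! ### The lattices `𝔪ⁿ` -/

theorem mem_mPow {n : ℕ} {x : E} :
    x ∈ mPow p E n ↔ ∃ y : intRing p E, y ∈ mE p E ^ n ∧ (y : E) = x := by
  unfold mPow
  rw [AddSubgroup.mem_map]
  rfl

theorem mPow_le (n : ℕ) {x : E} (hx : x ∈ mPow p E n) : x ∈ intRing p E := by
  obtain ⟨y, -, rfl⟩ := (mem_mPow p E).mp hx
  exact y.2

theorem algEquiv_mem_mPow (σ : E ≃ₐ[ℚ_[p]] E) (n : ℕ) {x : E} (hx : x ∈ mPow p E n) :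
    σ x ∈ mPow p E n := by
  obtain ⟨y, hy, rfl⟩ := (mem_mPow p E).mp hx
  exact (mem_mPow p E).mpr ⟨intEquiv p E σ y, intEquiv_mem_pow p E σ n hy, rfl⟩

theorem natCast_mem_mE : ((p : ℕ) : intRing p E) ∈ mE p E := by
  rw [IsLocalRing.mem_maximalIdeal, mem_nonunits_iff]
  intro hu
  obtain ⟨u, hu⟩ := hu
  have h1 : ((u⁻¹ : (intRing p E)ˣ) : intRing p E) * (p : intRing p E) = 1 := by
    rw [← hu]
    exact u.inv_mul
  have h2 : ((((u⁻¹ : (intRing p E)ˣ) : intRing p E) : E)) * (p : E) = 1 := by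
    have := congrArg (fun z : intRing p E => (z : E)) h1
    simpa using this
  have h3 := snorm_mul p E ((((u⁻¹ : (intRing p E)ˣ) : intRing p E) : E)) (p : E)
  rw [h2, snorm_one, snorm_natCast_q] at h3
  have h4 : snorm p E ((((u⁻¹ : (intRing p E)ˣ) : intRing p E) : E)) ≤ 1 :=
    (mem_intRing_iff p E _).mp (((u⁻¹ : (intRing p E)ˣ) : intRing p E)).2
  have hp1 : (1 : ℝ) < p := by exact_mod_cast (Fact.out : p.Prime).one_lt
  have h5 : (p : ℝ)⁻¹ < 1 := inv_lt_one_of_one_lt₀ hp1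
  have h6 : snorm p E ((((u⁻¹ : (intRing p E)ˣ) : intRing p E) : E)) * (p : ℝ)⁻¹ < 1 := by
    calc _ ≤ 1 * (p : ℝ)⁻¹ := by
          apply mul_le_mul_of_nonneg_right h4
          exact inv_nonneg.mpr (by linarith)
      _ < 1 := by rwa [one_mul]
  linarith

/-- `pⁿ 𝒪 ⊆ 𝔪ⁿ`. -/
theorem pow_mul_mem_mPow (n : ℕ) {x : E} (hx : x ∈ intRing p E) :
    (p : E) ^ n * x ∈ mPow p E n := by
  refine (mem_mPow p E).mpr ⟨((p : ℕ) : intRing p E) ^ n * ⟨x, hx⟩, ?_, ?_⟩
  · exact Ideal.mul_mem_right _ _ (Ideal.pow_mem_pow (natCast_mem_mE p E) n)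
  · simp

/-! ### Finite generation and the index of `p𝒪` -/

theorem finiteInt : Module.Finite ℤ_[p] (intRing p E) :=
  IsIntegralClosure.finite ℤ_[p] ℚ_[p] E (intRing p E)

theorem faithfulInt : FaithfulSMul ℤ_[p] E := by
  rw [faithfulSMul_iff_algebraMap_injective]
  exact (algebraMap ℚ_[p] E).injective.comp (IsFractionRing.injective ℤ_[p] ℚ_[p])

theorem torsionFreeInt : Module.IsTorsionFree ℤ_[p] E := by
  have := faithfulInt p E
  infer_instance

attribute [local instance] finiteInt faithfulInt torsionFreeInt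

theorem algEquiv_algebraMap_int (σ : E ≃ₐ[ℚ_[p]] E) (z : ℤ_[p]) :
    σ (algebraMap ℤ_[p] E z) = algebraMap ℤ_[p] E z := by
  rw [IsScalarTower.algebraMap_apply ℤ_[p] ℚ_[p] E, σ.commutes]

/-- `𝒪` is finitely generated over `ℤ_p`, in the form consumed by the abstract theorem. -/
theorem exists_generators : ∃ s : Finset E, ∀ x ∈ intRing p E, ∃ c : E → E,
    (∀ i ∈ s, c i ∈ intRing p E ∧ ∀ σ : E ≃ₐ[ℚ_[p]] E, σ (c i) = c i) ∧
      x = ∑ i ∈ s, c i * i := by
  classical
  obtain ⟨s₀, hs₀⟩ := (Module.Finite.fg_top : (⊤ : Submodule ℤ_[p] (intRing p E)).FG)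
  refine ⟨s₀.map ⟨Subtype.val, Subtype.val_injective⟩, fun x hx => ?_⟩
  have hmem : (⟨x, hx⟩ : intRing p E) ∈ Submodule.span ℤ_[p] (s₀ : Set (intRing p E)) := by
    rw [hs₀]
    trivial
  obtain ⟨f, -, hf⟩ := Submodule.mem_span_finset.mp hmem
  refine ⟨fun e => if h : e ∈ intRing p E then algebraMap ℤ_[p] E (f ⟨e, h⟩) else 0,
    fun i _ => ?_, ?_⟩
  · by_cases h : i ∈ intRing p E
    · simp only [h, dite_true]
      exact ⟨Subalgebra.algebraMap_mem _ _, fun σ => algEquiv_algebraMap_int p E σ _⟩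
    · simp only [h, dite_false]
      exact ⟨zero_mem _, fun σ => map_zero σ⟩
  · rw [Finset.sum_map]
    have := congrArg (fun z : intRing p E => (z : E)) hf
    simp only [AddSubmonoidClass.coe_finsetSum] at this
    rw [← this]
    refine Finset.sum_congr rfl fun i _ => ?_
    simp only [Function.Embedding.coeFn_mk, i.2, dite_true, Subtype.coe_eta]
    rw [Algebra.smul_def]
    rfl

theorem freeInt : Module.Free ℤ_[p] (intRing p E) :=
  IsIntegralClosure.module_free ℤ_[p] ℚ_[p] E (intRing p E)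

attribute [local instance] freeInt

theorem finrank_intRing : Module.finrank ℤ_[p] (intRing p E) = Module.finrank ℚ_[p] E :=
  IsIntegralClosure.rank ℤ_[p] ℚ_[p] E (intRing p E)

/-- Reduction of the coordinates modulo `p`. -/
def redMap : intRing p E →+ (Fin (Module.finrank ℤ_[p] (intRing p E)) → ZMod p) where
  toFun x i := PadicInt.toZMod ((Module.finBasis ℤ_[p] (intRing p E)).repr x i)
  map_zero' := by
    funext i
    simp
  map_add' x y := by
    funext i
    simp

theorem redMap_surjective : Function.Surjective (redMap p E) := by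
  intro g
  choose z hz using fun i => ZMod.ringHom_surjective (PadicInt.toZMod (p := p)) (g i)
  refine ⟨∑ i, z i • Module.finBasis ℤ_[p] (intRing p E) i, ?_⟩
  funext i
  show PadicInt.toZMod ((Module.finBasis ℤ_[p] (intRing p E)).repr _ i) = g i
  rw [Module.Basis.repr_sum_self, hz]

theorem mem_ker_redMap {x : intRing p E} :
    x ∈ (redMap p E).ker ↔ ∃ y : intRing p E, p • y = x := by
  rw [AddMonoidHom.mem_ker]
  constructor
  · intro h
    have h1 : ∀ i, ∃ c : ℤ_[p], (Module.finBasis ℤ_[p] (intRing p E)).repr x i = (p : ℤ_[p]) * c := by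
      intro i
      have := congrFun h i
      have h2 : (Module.finBasis ℤ_[p] (intRing p E)).repr x i ∈
          RingHom.ker (PadicInt.toZMod (p := p)) := this
      rw [PadicInt.ker_toZMod, PadicInt.maximalIdeal_eq_span_p, Ideal.mem_span_singleton] at h2
      exact h2
    choose c hc using h1
    refine ⟨∑ i, c i • Module.finBasis ℤ_[p] (intRing p E) i, ?_⟩
    apply (Module.finBasis ℤ_[p] (intRing p E)).repr.injective
    ext i
    rw [map_nsmul, Finsupp.smul_apply, Module.Basis.repr_sum_self, hc, nsmul_eq_mul]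
  · rintro ⟨y, rfl⟩
    funext i
    show PadicInt.toZMod ((Module.finBasis ℤ_[p] (intRing p E)).repr (p • y) i) = 0
    rw [map_nsmul, Finsupp.smul_apply, nsmul_eq_mul, map_mul, map_natCast, ZMod.natCast_self,
      zero_mul]

/-- `[𝒪 : p𝒪] = p^[E:ℚ_p]`. -/
theorem pIdx_intRing :
    pIdx (intRing p E).toSubring.toAddSubgroup p = p ^ Module.finrank ℚ_[p] E := by
  rw [← index_pSub_eq_pIdx]
  let g : (intRing p E).toSubring.toAddSubgroup →+ intRing p E :=
    { toFun := fun x => ⟨x.1, x.2⟩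
      map_zero' := rfl
      map_add' := fun _ _ => rfl }
  have hg : Function.Surjective g := fun y => ⟨⟨y.1, y.2⟩, rfl⟩
  have hker : pSub (intRing p E).toSubring.toAddSubgroup p = ((redMap p E).comp g).ker := by
    ext x
    rw [mem_pSub, AddMonoidHom.mem_ker, AddMonoidHom.comp_apply, ← AddMonoidHom.mem_ker,
      mem_ker_redMap]
    constructor
    · rintro ⟨y, rfl⟩
      exact ⟨g y, (map_nsmul g p y).symm⟩
    · rintro ⟨y, hy⟩
      obtain ⟨y', rfl⟩ := hg y
      refine ⟨y', ?_⟩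
      apply Subtype.ext
      have := congrArg (fun z : intRing p E => (z : E)) hy
      simpa [g] using this
  rw [hker, AddSubgroup.index_ker]
  have hsurj : Function.Surjective ((redMap p E).comp g) := (redMap_surjective p E).comp hg
  rw [AddMonoidHom.range_eq_top.mpr hsurj]
  rw [AddSubgroup.card_top, Nat.card_fun, Nat.card_zmod, Nat.card_fin, finrank_intRing]

/-! ### The main theorem -/

end

open Fermat.Agent.TW.LocECGrpRing74 Fermat.Agent.TW.LEulLatticeNB10
  Fermat.Agent.TW.LEulLatticeMain10 in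
/-- **C4-LFc**: `#Hom_{ℤ[Δ]}(A, 𝔪ⁿ/p𝔪ⁿ) = (#A)^[K:ℚ_p]`. -/
theorem lFcCount (q : ℕ) [Fact q.Prime] (E : Type) [Field E] [Algebra ℚ_[q] E]
    [FiniteDimensional ℚ_[q] E] (p : ℕ) [Fact p.Prime] {Δ : Type} [Group Δ] [Finite Δ]
    (ι : Δ →* (E ≃ₐ[ℚ_[q]] E)) : LFcCount q E p ι := by
  intro hqp hι _ n Y _ _ eY hY A _ _ _ hpA hA
  subst hqp
  -- the action of `Δ` on `E`
  let _ : MulSemiringAction Δ E := MulSemiringAction.compHom E ι
  have hsmul : ∀ (δ : Δ) (x : E), δ • x = ι δ x := fun _ _ => rfl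
  have : FaithfulSMul Δ E := ⟨fun {δ δ'} h => hι (AlgEquiv.ext fun x => h x)⟩
  -- `E` as a `ℤ[Δ]`-module
  let φ : Δ →* Module.End ℤ E :=
    { toFun := fun δ => ((ι δ : E ≃ₐ[ℚ_[q]] E) : E →+ E).toIntLinearMap
      map_one' := by
        ext x
        simp
      map_mul' := fun δ δ' => by
        ext x
        simp }
  let _ : Module (MonoidAlgebra ℤ Δ) E :=
    Module.compHom E ((MonoidAlgebra.lift ℤ (Module.End ℤ E) Δ φ).toRingHom)
  have hact : ∀ (δ : Δ) (x : E), MonoidAlgebra.single δ (1 : ℤ) • x = δ • x := by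
    intro δ x
    show ((MonoidAlgebra.lift ℤ (Module.End ℤ E) Δ φ) (MonoidAlgebra.single δ 1)) x = _
    rw [MonoidAlgebra.lift_single, one_smul]
    rfl
  -- the submodule `𝔪ⁿ`
  let M : Submodule (MonoidAlgebra ℤ Δ) E :=
    toSub hact (mPow q E n) (fun δ x hx => algEquiv_mem_mPow q E (ι δ) n hx)
  obtain ⟨s, hs⟩ := exists_generators q E
  obtain ⟨d, hd, hcnt⟩ := cnt_cotP_eq_pow hact (natCast_ne_zero q E) (intRing q E).toSubring
    (fun δ x hx => algEquiv_mem q E (ι δ) hx) (exists_pow_mul_mem q E)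
    ⟨s, fun x hx => by
      obtain ⟨c, hc, hx'⟩ := hs x hx
      exact ⟨c, fun i hi => ⟨(hc i hi).1, fun δ => (hc i hi).2 (ι δ)⟩, hx'⟩⟩
    (pIdx_intRing q E) M (fun x hx => mPow_le q E n hx)
    ⟨n, fun x hx => pow_mul_mem_mPow q E n hx⟩ hpA hA
  -- transport along the model
  let e0 : Y ≃+ M :=
    { toFun := fun y => ⟨(eY y : E), (eY y).2⟩
      invFun := fun m => eY.symm ⟨(m : E), m.2⟩
      left_inv := fun y => eY.symm_apply_apply y
      right_inv := fun m => by
        apply Subtype.ext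
        show ((eY (eY.symm ⟨(m : E), m.2⟩) : mPow q E n) : E) = (m : E)
        rw [eY.apply_symm_apply]
      map_add' := fun y y' => by
        apply Subtype.ext
        show ((eY (y + y') : mPow q E n) : E) = ((eY y : mPow q E n) : E) + ((eY y' : mPow q E n) : E)
        rw [map_add, AddSubgroup.coe_add] }
  have he0 : ∀ (δ : Δ) (y : Y),
      e0 (MonoidAlgebra.of ℤ Δ δ • y) = MonoidAlgebra.of ℤ Δ δ • e0 y := by
    intro δ y
    apply Subtype.ext
    show ((eY (MonoidAlgebra.of ℤ Δ δ • y) : mPow q E n) : E) =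
      MonoidAlgebra.of ℤ Δ δ • ((eY y : mPow q E n) : E)
    rw [hY δ y, MonoidAlgebra.of_apply, hact, hsmul]
  rw [LEulLatticeIdx10.cnt_cotP_congr (linearEquivOfEquivariant e0 he0), hcnt]
  congr 1
  -- `d = [K : ℚ_p]`
  have h1 : Module.finrank (IntermediateField.fixedField ι.range) E = Nat.card Δ := by
    rw [IntermediateField.finrank_fixedField_eq_card]
    exact (Nat.card_congr (MonoidHom.ofInjective hι).toEquiv).symm
  have h2 := Module.finrank_mul_finrank ℚ_[q] (IntermediateField.fixedField ι.range) E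
  rw [h1, ← hd] at h2
  exact (Nat.eq_of_mul_eq_mul_right Nat.card_pos h2).symm

end Fermat.Agent.TW.LEulLatticeLoc10
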