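/-
Programme TW (S56), sub-programme C4 (local Euler characteristic, architect helper74), brick
C4-LF-ASM (helper10), part B: the assembled unit-structure count `LEulIface74.LFCount`:
for a finite `ℤ[Δ]`-module `A` killed by `p` and `p`-projective,
`#Hom_Δ(A, Eˣ/p) = #Hom_Δ(A, μ_p(E)) · #Hom_Δ(A, ℤ/p) · (#A)^([K:ℚ_p]·[q = p])`,
from `lfaCount`, `lfaPrime` (part A), `LEulCountB49.lfbCount` (helper49) and
`LEulLatticeLoc10.lFcCount` (helper10).
-/
import Mathlib
import Fermat.Agent.TW.LEulAsmA10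
import Fermat.Agent.TW.LEulLatticeLoc10

set_option autoImplicit false
set_option linter.unusedSectionVars false

namespace Fermat.Agent.TW.LEulAsm10

open Fermat.Agent.PT.LOC.Interface12 Fermat.Agent.PT.LOC.Structure14
open Fermat.Agent.TW.LocECCount74 Fermat.Agent.TW.LocECGrpRing74 Fermat.Agent.TW.LEulIface74
open Fermat.Agent.TW.LEulCountB49

noncomputable section

variable (q : ℕ) [Fact q.Prime] {E : Type} [Field E] [Algebra ℚ_[q] E]
  [FiniteDimensional ℚ_[q] E]
variable {Δ : Type} [Group Δ] (ι : Δ →* (E ≃ₐ[ℚ_[q]] E))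

/-! ### The submodule of a units model attached to `U⁽ⁿ⁾` -/

section Units

variable {X : Type} [AddCommGroup X] (eX : X ≃+ Additive Eˣ)

theorem uOf_neg (x : X) : uOf eX (-x) = (uOf eX x)⁻¹ := by
  apply eq_inv_of_mul_eq_one_left
  rw [← uOf_add, neg_add_cancel, uOf_zero]

/-- The additive subgroup of the model corresponding to `U⁽ⁿ⁾`. -/
def unitsAddSub (n : ℕ) : AddSubgroup X where
  carrier := {x | uOf eX x ∈ UE q E n}
  zero_mem' := by
    show uOf eX 0 ∈ UE q E n
    rw [uOf_zero]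
    exact one_mem _
  add_mem' := fun {x y} hx hy => by
    show uOf eX (x + y) ∈ UE q E n
    rw [uOf_add]
    exact mul_mem hx hy
  neg_mem' := fun {x} hx => by
    show uOf eX (-x) ∈ UE q E n
    rw [uOf_neg]
    exact inv_mem hx

variable [Module (MonoidAlgebra ℤ Δ) X]

/-- The submodule of the model corresponding to `U⁽ⁿ⁾`. -/
def unitsSub (hX : IsUnitsModel q E ι X eX) (n : ℕ) : Submodule (MonoidAlgebra ℤ Δ) X :=
  submoduleOfStable (unitsAddSub q eX n) (fun δ x hx => by
    show uOf eX (MonoidAlgebra.of ℤ Δ δ • x) ∈ UE q E n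
    rw [uOf_of_smul ι eX hX]
    exact (LEulDefsE23.map_mem_UE_iff q E (ι δ) (uOf eX x)).mpr hx)

theorem mem_unitsSub (hX : IsUnitsModel q E ι X eX) (n : ℕ) (x : X) :
    x ∈ unitsSub q ι eX hX n ↔ Additive.toMul (eX x) ∈ UE q E n := Iff.rfl

end Units

/-! ### The canonical model of `𝔪ⁿ` -/

/-- The action of `Δ` on `𝔪ⁿ`. -/
def latAct (n : ℕ) : Δ →* AddMonoid.End (mPow q E n) where
  toFun δ :=
    { toFun := fun y => ⟨ι δ (y : E), LEulDefsE23.map_mem_mPow q E (ι δ) y.2⟩
      map_zero' := by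
        apply Subtype.ext
        show ι δ ((0 : mPow q E n) : E) = ((0 : mPow q E n) : E)
        rw [AddSubgroup.coe_zero, map_zero]
      map_add' := fun y y' => by
        apply Subtype.ext
        show ι δ ((y + y' : mPow q E n) : E) = ι δ (y : E) + ι δ (y' : E)
        rw [AddSubgroup.coe_add, map_add] }
  map_one' := by
    ext y
    show ((1 : Δ) |> ι) (y : E) = (y : E)
    rw [map_one]
    rfl
  map_mul' δ δ' := by
    ext y
    show ι (δ * δ') (y : E) = ι δ (ι δ' (y : E))
    rw [map_mul]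
    rfl

theorem isLatticeModel_model (n : ℕ) :
    IsLatticeModel q E ι n (Model (latAct q ι n)) (modelEquiv (latAct q ι n)) := by
  intro δ y
  rw [modelEquiv_of_smul]
  rfl

/-! ### The assembly -/

end

/-- **LF (assembled count)**. -/
theorem lfCount (q : ℕ) [Fact q.Prime] (E : Type) [Field E] [Algebra ℚ_[q] E]
    [FiniteDimensional ℚ_[q] E] (p : ℕ) [Fact p.Prime] {Δ : Type} [Group Δ] [Finite Δ]
    (ι : Δ →* (E ≃ₐ[ℚ_[q]] E)) : LFCount q E p ι := by
  intro hι hpΔ X _ _ eX hX Z _ _ eZ hZ A _ _ _ hpA hA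
  by_cases hqp : q = p
  · -- `q = p`
    rw [if_pos hqp]
    obtain ⟨n₀, hn₀⟩ := lfbCount q E p ι hqp
    obtain ⟨h1, h2⟩ := hn₀ n₀ le_rfl X eX hX (unitsSub q ι eX hX n₀) (mem_unitsSub q ι eX hX n₀)
      (Model (latAct q ι n₀)) (modelEquiv (latAct q ι n₀)) (isLatticeModel_model q ι n₀) A hpA
    have h3 := LEulLatticeLoc10.lFcCount q E p ι hqp hι hpΔ n₀ (Model (latAct q ι n₀))
      (modelEquiv (latAct q ι n₀)) (isLatticeModel_model q ι n₀) A hpA hA
    have h4 := LEulAsmA10.lfaCount q E p ι X eX hX Z eZ hZ n₀ (unitsSub q ι eX hX n₀)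
      (mem_unitsSub q ι eX hX n₀) A hpA hA
    rw [h1, one_mul, h2, h3] at h4
    rw [h4]
    ring
  · -- `q ≠ p`
    rw [if_neg hqp, pow_zero, mul_one]
    have hP := LEulAsmA10.lfaPrime q E p hqp
    set S := unitsSub q ι eX hX 1 with hSdef
    have hS : ∀ x : X, x ∈ S ↔ Additive.toMul (eX x) ∈ UE q E 1 := mem_unitsSub q ι eX hX 1
    have hsub1 : Subsingleton (torP (MonoidAlgebra ℤ Δ) p S) := by
      refine ⟨fun a b => ?_⟩
      have key : ∀ c : torP (MonoidAlgebra ℤ Δ) p S, c = 0 := by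
        intro c
        have hc : p • (c : S) = 0 := mem_torP.mp c.2
        have hc' : p • ((c : S) : X) = 0 := by
          rw [← Submodule.coe_smul_of_tower, hc, Submodule.coe_zero]
        have hu : uOf eX ((c : S) : X) ∈ UE q E 1 := (hS _).mp (c : S).2
        have hpow : uOf eX ((c : S) : X) ^ p = 1 := by
          rw [← uOf_nsmul, hc', uOf_zero]
        obtain ⟨v, -, hv⟩ := hP 1 (one_mem _)
        have e1 := hv (uOf eX ((c : S) : X)) ⟨hu, hpow⟩
        have e2 := hv 1 ⟨one_mem _, one_pow p⟩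
        have e3 : uOf eX ((c : S) : X) = 1 := e1.trans e2.symm
        have e4 : ((c : S) : X) = 0 := (uOf_eq_one_iff eX _).mp e3
        apply Subtype.ext
        apply Subtype.ext
        exact e4
      rw [key a, key b]
    have hsub2 : Subsingleton (cotP (MonoidAlgebra ℤ Δ) p S) := by
      rw [Submodule.Quotient.subsingleton_iff, eq_top_iff]
      intro s _
      have hu : uOf eX (s : X) ∈ UE q E 1 := (hS _).mp s.2
      obtain ⟨v, ⟨hv1, hv2⟩, -⟩ := hP _ hu
      have hmem : eX.symm (Additive.ofMul v) ∈ S := by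
        rw [hS]
        show uOf eX (eX.symm (Additive.ofMul v)) ∈ UE q E 1
        rw [uOf_symm]
        exact hv1
      refine ⟨⟨eX.symm (Additive.ofMul v), hmem⟩, ?_⟩
      apply Subtype.ext
      show ((p • (⟨eX.symm (Additive.ofMul v), hmem⟩ : S) : S) : X) = (s : X)
      rw [Submodule.coe_smul_of_tower]
      apply uOf_injective eX
      show uOf eX (p • eX.symm (Additive.ofMul v)) = uOf eX (s : X)
      rw [uOf_nsmul, uOf_symm, hv2]
    have h4 := LEulAsmA10.lfaCount q E p ι X eX hX Z eZ hZ 1 S hS A hpA hA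
    rw [cnt_of_subsingleton (Y := torP (MonoidAlgebra ℤ Δ) p S),
      cnt_of_subsingleton (Y := cotP (MonoidAlgebra ℤ Δ) p S), one_mul, mul_one] at h4
    exact h4

end Fermat.Agent.TW.LEulAsm10
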