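/-
Programme TW (S56), brick C4 (local duality numerics + local Euler characteristic), helper74.
File `LEulEfface74`: STEP LD3 — `dim H²(N) = dim H⁰(N^*)` and finiteness of `H²(N)` from
* natural perfect pairings on `H¹` (`LEulDual74.PairData`),
* finiteness of `H¹`,
* effaceability of `H²(N)` by restriction to an open normal subgroup `V` (STEP LD2),
for an abstract group `G` with a level basis `𝓑`, a field `k` and a level character `ε`.

Method: `F = scoind_V^G (N|V)` (smooth coinduction, `PT/PRO/SmoothCoind28`), `0 → N → F → N'' → 0`.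
Shapiro (`sh2 ∘ unit_* = res`) + LD2 give `H²(N) → H²(F)` zero, so `δ : H¹(N'') → H²(N)` is onto;
by the adjointness of `H¹(F) → H¹(N'')` and `H¹(N''^*) → H¹(F^*)` and the low-degree exact sequence
of `0 → N''^* → F^* → N^* → 0`, `h²(N) = h⁰(N^*) - rank(H⁰(F^*) → H⁰(N^*))`, and the last map is the
norm `N_{G/V}`, which vanishes as soon as `V ≤ V₀` with `[V₀ : V] = 0` in `k` and `V₀` acts
trivially on `N` and on `ε`.
-/
import Mathlib
import Fermat.Agent.TW.LEulDual74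
import Fermat.Agent.PT.PRO.SmoothCoind28
import Fermat.Agent.PT.PRO.ShapiroLevel28

set_option autoImplicit false
set_option linter.unusedSectionVars false
set_option linter.style.haveILetI false

universe u

open Module

namespace Fermat.Agent.TW.LEulEfface74

open Fermat.Agent.PT.PRO Fermat.Agent.PT.PRO.LevelCoh28
open Fermat.Agent.TW.Tate62.H0LES Fermat.Agent.TW.Tate62.EulerIneq
open Fermat.Agent.TW.Tate62.ChiAdditive
open Fermat.Agent.TW.LEulDual74

variable {k G : Type u} [Field k] [Group G]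

/-! ### The abstract dimension count -/

section Count

variable {𝓑 : LevelBasis G} {ε : G →* kˣ}
  (P : PairData 𝓑 ε) (hε : IsLevelChar 𝓑.sets ε)
  (hFIN1 : ∀ X : Rep.{u} k G, FiniteDimensional k X → IsDiscrete 𝓑.sets X →
    FiniteDimensional k (H1 𝓑 X))
  {A B C : Rep.{u} k G}
  (φ : A →ₗ[k] B) (hφ : ∀ g a, φ (A.ρ g a) = B.ρ g (φ a))
  (ψ : B →ₗ[k] C) (hψ : ∀ g b, ψ (B.ρ g b) = C.ρ g (ψ b))
  (hinj : Function.Injective φ) (hsurj : Function.Surjective ψ)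
  (hex : ∀ b, ψ b = 0 ↔ ∃ a, φ a = b)

include P hε hFIN1 hφ hψ hinj hsurj hex in
/-- If `H²(A) → H²(B)` is zero and `H⁰(B^*) → H⁰(A^*)` is zero, then `H²(A)` is finite-dimensional
of dimension `dim H⁰(A^*)`. -/
theorem h2_eq_h0_dual_of_effaceable [FiniteDimensional k B] (hB : IsDiscrete 𝓑.sets B)
    (h2 : ∀ x, mapH2 (𝓑 := 𝓑) φ hφ x = 0)
    (h0 : ∀ Λ : B.dualTwist ε, Λ ∈ H0 (B.dualTwist ε) → dualTwistMap φ ε Λ = 0) :
    FiniteDimensional k (H2 𝓑 A) ∧ finrank k (H2 𝓑 A) = finrank k (H0 (A.dualTwist ε)) := by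
  haveI hAfd : FiniteDimensional k A := FiniteDimensional.of_injective φ hinj
  haveI hCfd : FiniteDimensional k C := FiniteDimensional.of_surjective ψ hsurj
  have hA : IsDiscrete 𝓑.sets A := isDiscrete_of_injective φ hφ hinj hB
  have hC : IsDiscrete 𝓑.sets C := isDiscrete_of_surjective ψ hψ hsurj hB
  have hA' := isDiscrete_dualTwist 𝓑.isBasis hε hA
  have hB' := isDiscrete_dualTwist 𝓑.isBasis hε hB
  have hC' := isDiscrete_dualTwist 𝓑.isBasis hε hC
  haveI hAd : FiniteDimensional k (A.dualTwist ε) :=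
    inferInstanceAs (FiniteDimensional k (Module.Dual k A))
  haveI hBd : FiniteDimensional k (B.dualTwist ε) :=
    inferInstanceAs (FiniteDimensional k (Module.Dual k B))
  haveI hCd : FiniteDimensional k (C.dualTwist ε) :=
    inferInstanceAs (FiniteDimensional k (Module.Dual k C))
  haveI := hFIN1 B inferInstance hB
  haveI := hFIN1 C hCfd hC
  haveI := hFIN1 _ hBd hB'
  haveI := hFIN1 _ hCd hC'
  -- `δ` is onto
  have hδ : LinearMap.range (delta φ hφ ψ hψ hinj hsurj hex hB) = ⊤ := by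
    rw [← ker_mapH2 φ hφ ψ hψ hinj hsurj hex hB, eq_top_iff]
    intro x _
    exact h2 x
  haveI hH2 : FiniteDimensional k (H2 𝓑 A) :=
    Module.Finite.of_surjective (delta φ hφ ψ hψ hinj hsurj hex hB) (LinearMap.range_eq_top.1 hδ)
  refine ⟨hH2, ?_⟩
  have e5 := finrank_eq_of_exact (mapH1 (𝓑 := 𝓑) ψ hψ) (delta φ hφ ψ hψ hinj hsurj hex hB)
    (ker_delta φ hφ ψ hψ hinj hsurj hex hB)
  rw [hδ, finrank_top] at e5
  -- the dual sequence `0 → C^* → B^* → A^* → 0`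
  have hψ' := dualTwistMap_equivariant ψ hψ ε
  have hφ' := dualTwistMap_equivariant φ hφ ε
  have hinj' := dualTwistMap_injective ψ ε hsurj
  have hsurj' := dualTwistMap_surjective φ ε hinj
  have hex' := dualTwistMap_exact φ ψ hex ε
  have hz : LinearMap.range (mapH0 (dualTwistMap φ ε) hφ') = ⊥ := by
    rw [eq_bot_iff]
    rintro _ ⟨Λ, rfl⟩
    rw [Submodule.mem_bot]
    apply Subtype.ext
    exact h0 Λ.1 Λ.2
  have d2 := finrank_eq_of_exact (mapH0 (dualTwistMap φ ε) hφ')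
    (delta0 𝓑 (dualTwistMap ψ ε) hψ' (dualTwistMap φ ε) hφ' hinj' hsurj' hex' hB')
    (ker_delta0 𝓑 (dualTwistMap ψ ε) hψ' (dualTwistMap φ ε) hφ' hinj' hsurj' hex' hB')
  rw [hz, finrank_bot] at d2
  have d3 := finrank_eq_of_exact
    (delta0 𝓑 (dualTwistMap ψ ε) hψ' (dualTwistMap φ ε) hφ' hinj' hsurj' hex' hB')
    (mapH1 (𝓑 := 𝓑) (dualTwistMap ψ ε) hψ')
    (ker_mapH1_left 𝓑 (dualTwistMap ψ ε) hψ' (dualTwistMap φ ε) hφ' hinj' hsurj' hex' hB')
  have hadj := finrank_range_eq_of_adjoint (P.pair B) (P.pair C)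
    (P.right B inferInstance hB) (P.left C hCfd hC) (P.right C hCfd hC)
    (mapH1 (𝓑 := 𝓑) ψ hψ) (mapH1 (𝓑 := 𝓑) (dualTwistMap ψ ε) hψ')
    (fun x y => P.natural B C ψ hψ inferInstance hB hsurj x y)
  have hCC := finrank_eq_of_perfect (P.pair C) (P.left C hCfd hC) (P.right C hCfd hC)
  omega

end Count

/-! ### The coinduced module and its unit -/

section Construction

open SmoothCoind28 ShapiroLevel28 LevelCohRes28

variable (𝓑 : LevelBasis G) (V : Subgroup G) (N : Rep.{u} k G)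

/-- `F = scoind_V^G (N|V)`. -/
noncomputable abbrev coindN : Rep.{u} k G := scoind V.subtype 𝓑 (Rep.res V.subtype N)

variable (hN : IsDiscrete 𝓑.sets N)

/-- The unit `N → scoind_V^G (N|V)`, `n ↦ (g ↦ g • n)`. -/
noncomputable def unit : N →ₗ[k] coindN 𝓑 V N where
  toFun n := ⟨fun g => N.ρ g n, by
    refine ⟨fun h g => ?_, ?_⟩
    · show N.ρ ((h : G) * g) n = N.ρ (h : G) (N.ρ g n)
      rw [map_mul]; rfl
    · obtain ⟨U, hU, h⟩ := hN n
      exact ⟨U, hU, fun g s hs => by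
        show N.ρ (g * s) n = N.ρ g n
        rw [map_mul, Module.End.mul_apply, h s hs]⟩⟩
  map_add' a b := Subtype.ext (funext fun g => map_add _ _ _)
  map_smul' c a := Subtype.ext (funext fun g => map_smul _ _ _)

@[simp] theorem unit_apply (n : N) (g : G) : (unit 𝓑 V N hN n).1 g = N.ρ g n := rfl

theorem unit_equivariant (g : G) (n : N) :
    unit 𝓑 V N hN (N.ρ g n) = (coindN 𝓑 V N).ρ g (unit 𝓑 V N hN n) := by
  refine Subtype.ext (funext fun x => ?_)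
  rw [scoind_ρ_apply, unit_apply, unit_apply, map_mul]
  rfl

theorem ev_unit (n : N) : ev V.subtype 𝓑 (Rep.res V.subtype N) (unit 𝓑 V N hN n) = n := by
  show N.ρ 1 n = n
  rw [map_one]; rfl

theorem unit_injective : Function.Injective (unit 𝓑 V N hN) := by
  intro a b h
  rw [← ev_unit 𝓑 V N hN a, h, ev_unit]

/-- The image of the unit. -/
noncomputable def unitRange : Submodule k (coindN 𝓑 V N) := LinearMap.range (unit 𝓑 V N hN)

theorem unitRange_stable (g : G) :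
    unitRange 𝓑 V N hN ≤ (unitRange 𝓑 V N hN).comap ((coindN 𝓑 V N).ρ g) := by
  rintro _ ⟨n, rfl⟩
  exact ⟨N.ρ g n, unit_equivariant 𝓑 V N hN g n⟩

/-- The cokernel `N'' = F / N`. -/
noncomputable def cokN : Rep.{u} k G :=
  Rep.quotient (coindN 𝓑 V N) (unitRange 𝓑 V N hN) (unitRange_stable 𝓑 V N hN)

/-- The projection `F → N''`. -/
noncomputable def proj : coindN 𝓑 V N →ₗ[k] cokN 𝓑 V N hN := (unitRange 𝓑 V N hN).mkQ

theorem proj_equivariant (g : G) (b : coindN 𝓑 V N) :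
    proj 𝓑 V N hN ((coindN 𝓑 V N).ρ g b) = (cokN 𝓑 V N hN).ρ g (proj 𝓑 V N hN b) := rfl

theorem proj_surjective : Function.Surjective (proj 𝓑 V N hN) := Submodule.mkQ_surjective _

theorem proj_exact (b : coindN 𝓑 V N) :
    proj 𝓑 V N hN b = 0 ↔ ∃ a, unit 𝓑 V N hN a = b := by
  show (unitRange 𝓑 V N hN).mkQ b = 0 ↔ _
  rw [Submodule.mkQ_apply, Submodule.Quotient.mk_eq_zero]
  rfl

include hN in
/-- `N|V` is discrete for the induced basis. -/
theorem isDiscrete_res : IsDiscrete (subBasis 𝓑 V).sets (Rep.res V.subtype N) :=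
  LevelCohRes28.isDiscrete_of_surjective (isLevelHom_subtype 𝓑 V)
    (LinearMap.id : N →ₗ[k] Rep.res V.subtype N) (fun _ _ => rfl) Function.surjective_id hN

/-- Shapiro's map composed with the unit is the restriction. -/
theorem sh2_mapH2_unit (x : H2 𝓑 N) :
    sh2 V.subtype 𝓑 (subBasis 𝓑 V) (isLevelHom_subtype 𝓑 V) (Rep.res V.subtype N)
      (mapH2 (𝓑 := 𝓑) (unit 𝓑 V N hN) (unit_equivariant 𝓑 V N hN) x) = resH2 𝓑 V N x := by
  obtain ⟨z, rfl⟩ := H2mk_surjective 𝓑 N x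
  rw [mapH2_mk]
  unfold sh2 resH2
  rw [ppH2_mk, ppH2_mk]
  congr 1
  apply Subtype.ext
  funext g
  exact ev_unit 𝓑 V N hN _

/-- **Shapiro + LD2**: if restriction to `V` kills `H²(N)`, then `H²(N) → H²(F)` is zero. -/
theorem mapH2_unit_eq_zero (hres : ∀ x : H2 𝓑 N, resH2 𝓑 V N x = 0) (x : H2 𝓑 N) :
    mapH2 (𝓑 := 𝓑) (unit 𝓑 V N hN) (unit_equivariant 𝓑 V N hN) x = 0 := by
  apply sh2_injective V.subtype 𝓑 (subBasis 𝓑 V) (isLevelHom_subtype 𝓑 V) (subBasis_induced 𝓑 V)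
    (Rep.res V.subtype N) (isDiscrete_res 𝓑 V N hN)
  rw [map_zero, sh2_mapH2_unit, hres]

end Construction

/-! ### The norm argument -/

section Norm

open SmoothCoind28

variable (𝓑 : LevelBasis G) (V₀ V : Subgroup G) [hV₀n : V₀.Normal] [hVn : V.Normal]
  (hle : V ≤ V₀) (hV : V ∈ 𝓑.sets) (N : Rep.{u} k G) (hN : IsDiscrete 𝓑.sets N)
  (htriv : ∀ v ∈ V₀, ∀ n : N, N.ρ v n = n)

/-- The chosen representative of the class of `x` modulo `V₀`. -/
noncomputable def rep (x : G) : G := Quotient.out (QuotientGroup.mk x : G ⧸ V₀)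

theorem rep_inv_mul_mem (x : G) : (rep V₀ x)⁻¹ * x ∈ V₀ :=
  QuotientGroup.eq.1 (QuotientGroup.out_eq' (QuotientGroup.mk x : G ⧸ V₀))

theorem rep_mul_right (x v : G) (hv : v ∈ V₀) : rep V₀ (x * v) = rep V₀ x := by
  unfold rep
  congr 1
  rw [QuotientGroup.eq]
  have : (x * v)⁻¹ * x = v⁻¹ := by group
  rw [this]
  exact V₀.inv_mem hv

include hV₀n in
theorem rep_mul_left (v x : G) (hv : v ∈ V₀) : rep V₀ (v * x) = rep V₀ x := by
  unfold rep
  congr 1
  rw [QuotientGroup.eq]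
  have : (v * x)⁻¹ * x = x⁻¹ * v⁻¹ * x⁻¹⁻¹ := by group
  rw [this]
  exact hV₀n.conj_mem _ (V₀.inv_mem hv) _

open Classical in
/-- The function supported on `⋃_c s(c) V` (one `V`-coset in each `V₀`-coset) with values
`x ↦ x • n`. -/
noncomputable def bumpFun (n : N) (x : G) : N :=
  if (rep V₀ x)⁻¹ * x ∈ V then N.ρ x n else 0

include hV₀n hVn hle in
theorem bumpFun_mul_left (n : N) (h : G) (hh : h ∈ V) (g : G) :
    bumpFun V₀ V N n (h * g) = N.ρ h (bumpFun V₀ V N n g) := by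
  unfold bumpFun
  rw [rep_mul_left V₀ h g (hle hh)]
  have h1 : (rep V₀ g)⁻¹ * (h * g) = ((rep V₀ g)⁻¹ * h * (rep V₀ g)⁻¹⁻¹) * ((rep V₀ g)⁻¹ * g) := by
    group
  have h2 : (rep V₀ g)⁻¹ * h * (rep V₀ g)⁻¹⁻¹ ∈ V := hVn.conj_mem _ hh _
  have h3 : (rep V₀ g)⁻¹ * (h * g) ∈ V ↔ (rep V₀ g)⁻¹ * g ∈ V := by
    rw [h1]
    exact Subgroup.mul_mem_cancel_left V h2
  by_cases hc : (rep V₀ g)⁻¹ * g ∈ V
  · rw [if_pos (h3.2 hc), if_pos hc, map_mul]
    rfl
  · rw [if_neg (fun h' => hc (h3.1 h')), if_neg hc, map_zero]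

include hle htriv in
theorem bumpFun_mul_right (n : N) (g s : G) (hs : s ∈ V) :
    bumpFun V₀ V N n (g * s) = bumpFun V₀ V N n g := by
  unfold bumpFun
  rw [rep_mul_right V₀ g s (hle hs)]
  have h1 : (rep V₀ g)⁻¹ * (g * s) = ((rep V₀ g)⁻¹ * g) * s := by group
  have h3 : (rep V₀ g)⁻¹ * (g * s) ∈ V ↔ (rep V₀ g)⁻¹ * g ∈ V := by
    rw [h1]
    exact Subgroup.mul_mem_cancel_right V hs
  by_cases hc : (rep V₀ g)⁻¹ * g ∈ V
  · rw [if_pos (h3.2 hc), if_pos hc, map_mul, Module.End.mul_apply, htriv s (hle hs)]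
  · rw [if_neg (fun h' => hc (h3.1 h')), if_neg hc]

/-- The bump function as an element of the coinduced module. -/
noncomputable def bump (n : N) : coindN 𝓑 V N :=
  ⟨bumpFun V₀ V N n, fun h g => bumpFun_mul_left V₀ V hle N n (h : G) h.2 g,
    ⟨V, hV, fun g s hs => bumpFun_mul_right V₀ V hle N htriv n g s hs⟩⟩

@[simp] theorem bump_apply (n : N) (x : G) :
    (bump 𝓑 V₀ V hle hV N htriv n).1 x = bumpFun V₀ V N n x := rfl

include hV₀n in
/-- `unit n = ∑_{τ ∈ V₀/V} τ • bump n`. -/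
theorem unit_eq_sum [Fintype (↥V₀ ⧸ V.subgroupOf V₀)] (n : N) :
    unit 𝓑 V N hN n = ∑ τ : ↥V₀ ⧸ V.subgroupOf V₀,
      (coindN 𝓑 V N).ρ ((Quotient.out τ : ↥V₀) : G) (bump 𝓑 V₀ V hle hV N htriv n) := by
  refine Subtype.ext (funext fun x => ?_)
  rw [unit_apply]
  have hsum : ((∑ τ : ↥V₀ ⧸ V.subgroupOf V₀,
      (coindN 𝓑 V N).ρ ((Quotient.out τ : ↥V₀) : G) (bump 𝓑 V₀ V hle hV N htriv n) :
        coindN 𝓑 V N)).1 x =
      ∑ τ : ↥V₀ ⧸ V.subgroupOf V₀, bumpFun V₀ V N n (x * ((Quotient.out τ : ↥V₀) : G)) := by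
    have h1 := Submodule.coe_sum (scoindV V.subtype 𝓑 (Rep.res V.subtype N))
      (fun τ : ↥V₀ ⧸ V.subgroupOf V₀ =>
        (coindN 𝓑 V N).ρ ((Quotient.out τ : ↥V₀) : G) (bump 𝓑 V₀ V hle hV N htriv n))
      Finset.univ
    have h2 := congrFun h1 x
    rw [Finset.sum_apply] at h2
    exact h2
  rw [hsum]
  -- the unique coset contributing
  set w : G := (rep V₀ x)⁻¹ * x with hw
  have hwV₀ : w ∈ V₀ := rep_inv_mul_mem V₀ x
  set τ₀ : ↥V₀ ⧸ V.subgroupOf V₀ := QuotientGroup.mk (⟨w⁻¹, V₀.inv_mem hwV₀⟩ : ↥V₀) with hτ₀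
  have hcond : ∀ τ : ↥V₀ ⧸ V.subgroupOf V₀,
      (rep V₀ (x * ((Quotient.out τ : ↥V₀) : G)))⁻¹ * (x * ((Quotient.out τ : ↥V₀) : G)) =
        w * ((Quotient.out τ : ↥V₀) : G) := by
    intro τ
    rw [rep_mul_right V₀ x _ (Quotient.out τ : ↥V₀).2, hw, mul_assoc]
  have hmem : ∀ τ : ↥V₀ ⧸ V.subgroupOf V₀,
      w * ((Quotient.out τ : ↥V₀) : G) ∈ V ↔ τ = τ₀ := by
    intro τ
    have h1 : τ₀ = τ ↔ (⟨w⁻¹, V₀.inv_mem hwV₀⟩ : ↥V₀)⁻¹ * (Quotient.out τ : ↥V₀) ∈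
        V.subgroupOf V₀ := by
      rw [← QuotientGroup.eq, QuotientGroup.out_eq']
    rw [eq_comm, h1, Subgroup.mem_subgroupOf]
    simp only [Subgroup.coe_mul, InvMemClass.coe_inv, inv_inv]
  rw [Finset.sum_eq_single τ₀]
  · unfold bumpFun
    rw [hcond τ₀, if_pos ((hmem τ₀).2 rfl), map_mul, Module.End.mul_apply,
      htriv _ (Quotient.out τ₀ : ↥V₀).2]
  · intro τ _ hne
    unfold bumpFun
    rw [hcond τ, if_neg (fun h => hne ((hmem τ).1 h))]
  · intro h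
    exact absurd (Finset.mem_univ _) h

end Norm

/-! ### Finite-dimensionality of the coinduced module -/

section FinDim

open SmoothCoind28

variable (𝓑 : LevelBasis G) (V : Subgroup G) [hVn : V.Normal] (hV : V ∈ 𝓑.sets)
  (N : Rep.{u} k G)

/-- Restriction of a coinduced function to a set of coset representatives. -/
noncomputable def toReps : coindN 𝓑 V N →ₗ[k] (G ⧸ V → N) where
  toFun f c := f.1 (Quotient.out c)
  map_add' _ _ := rfl
  map_smul' _ _ := rfl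

include hVn in
theorem toReps_injective : Function.Injective (toReps 𝓑 V N) := by
  rw [← LinearMap.ker_eq_bot, LinearMap.ker_eq_bot']
  intro f hf
  refine Subtype.ext (funext fun x => ?_)
  have h0 : f.1 (Quotient.out (QuotientGroup.mk x : G ⧸ V)) = 0 := congrFun hf _
  set s : G := Quotient.out (QuotientGroup.mk x : G ⧸ V) with hs
  have h1 : s⁻¹ * x ∈ V := QuotientGroup.eq.1 (QuotientGroup.out_eq' (QuotientGroup.mk x : G ⧸ V))
  have h2 : s * (s⁻¹ * x) * s⁻¹ ∈ V := hVn.conj_mem _ h1 _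
  have h3 : x = (⟨s * (s⁻¹ * x) * s⁻¹, h2⟩ : ↥V).1 * s := by
    show x = s * (s⁻¹ * x) * s⁻¹ * s
    group
  have h4 := scoind_equivariant V.subtype 𝓑 (Rep.res V.subtype N) f
    (⟨s * (s⁻¹ * x) * s⁻¹, h2⟩ : ↥V) s
  have h5 : f.1 x = f.1 ((⟨s * (s⁻¹ * x) * s⁻¹, h2⟩ : ↥V).1 * s) := by rw [← h3]
  rw [h5]
  show f.1 (V.subtype ⟨s * (s⁻¹ * x) * s⁻¹, h2⟩ * s) = 0
  rw [h4, h0, map_zero]

include hVn hV in
theorem finiteDimensional_coindN [FiniteDimensional k N] :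
    FiniteDimensional k (coindN 𝓑 V N) := by
  haveI : V.FiniteIndex := 𝓑.isBasis.finiteIndex V hV
  haveI : Finite (G ⧸ V) := Subgroup.finite_quotient_of_finiteIndex
  exact FiniteDimensional.of_injective (toReps 𝓑 V N) (toReps_injective 𝓑 V N)

end FinDim

/-! ### LD3 -/

section Final

open SmoothCoind28

variable {𝓑 : LevelBasis G} {ε : G →* kˣ}

/-- An invariant of the twisted dual is invariant under the elements where `ε = 1`. -/
theorem apply_rho_of_mem_H0 {F : Rep.{u} k G} {Λ : F.dualTwist ε}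
    (hΛ : Λ ∈ H0 (F.dualTwist ε)) (g : G) (hg : ε g = 1) (f : F) :
    (Λ : Module.Dual k F) (F.ρ g f) = (Λ : Module.Dual k F) f := by
  have h := (mem_H0_iff _ Λ).1 hΛ g⁻¹
  rw [Rep.dualTwist_ρ_apply] at h
  have h' := LinearMap.congr_fun h f
  rw [map_inv, hg, inv_one, Units.val_one, one_smul, inv_inv] at h'
  exact h'

variable (P : PairData 𝓑 ε)
  (hFIN1 : ∀ X : Rep.{u} k G, FiniteDimensional k X → IsDiscrete 𝓑.sets X →
    FiniteDimensional k (H1 𝓑 X))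

include P hFIN1 in
/-- **LD3.**  Let `N` be a finite-dimensional discrete module, `V ≤ V₀` normal members of the
basis, `V₀` acting trivially on `N` and on `ε`, `[V₀ : V] = 0` in `k`, and suppose restriction to
`V` kills `H²(N)`.  Then `H²(N)` is finite-dimensional and `dim H²(N) = dim H⁰(N^*)`. -/
theorem ld3 (N : Rep.{u} k G) [FiniteDimensional k N] (hN : IsDiscrete 𝓑.sets N)
    (V₀ V : Subgroup G) (hV₀ : V₀ ∈ 𝓑.sets) (hV : V ∈ 𝓑.sets) [hV₀n : V₀.Normal] [hVn : V.Normal]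
    (hle : V ≤ V₀) (htriv : ∀ v ∈ V₀, ∀ n : N, N.ρ v n = n) (hεV₀ : ∀ v ∈ V₀, ε v = 1)
    (hidx : ((V.relIndex V₀ : ℕ) : k) = 0)
    (hres : ∀ x : H2 𝓑 N, resH2 𝓑 V N x = 0) :
    FiniteDimensional k (H2 𝓑 N) ∧ finrank k (H2 𝓑 N) = finrank k (H0 (N.dualTwist ε)) := by
  haveI := finiteDimensional_coindN 𝓑 V hV N
  have hε : IsLevelChar 𝓑.sets ε := ⟨V₀, hV₀, hεV₀⟩
  refine h2_eq_h0_dual_of_effaceable P hε hFIN1 (unit 𝓑 V N hN) (unit_equivariant 𝓑 V N hN)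
    (proj 𝓑 V N hN) (proj_equivariant 𝓑 V N hN) (unit_injective 𝓑 V N hN)
    (proj_surjective 𝓑 V N hN) (proj_exact 𝓑 V N hN) (isDiscrete_scoind _ _ _)
    (mapH2_unit_eq_zero 𝓑 V N hN hres) ?_
  intro Λ hΛ
  haveI : V.FiniteIndex := 𝓑.isBasis.finiteIndex V hV
  haveI : (V.subgroupOf V₀).FiniteIndex := inferInstance
  haveI : Finite (↥V₀ ⧸ V.subgroupOf V₀) := Subgroup.finite_quotient_of_finiteIndex
  haveI : Fintype (↥V₀ ⧸ V.subgroupOf V₀) := Fintype.ofFinite _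
  apply LinearMap.ext
  intro n
  show (Λ : Module.Dual k (coindN 𝓑 V N)) (unit 𝓑 V N hN n) = 0
  rw [unit_eq_sum 𝓑 V₀ V hle hV N hN htriv n, map_sum]
  have hterm : ∀ τ : ↥V₀ ⧸ V.subgroupOf V₀,
      (Λ : Module.Dual k (coindN 𝓑 V N))
        ((coindN 𝓑 V N).ρ ((Quotient.out τ : ↥V₀) : G) (bump 𝓑 V₀ V hle hV N htriv n)) =
      (Λ : Module.Dual k (coindN 𝓑 V N)) (bump 𝓑 V₀ V hle hV N htriv n) := fun τ =>
    apply_rho_of_mem_H0 hΛ _ (hεV₀ _ (Quotient.out τ : ↥V₀).2) _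
  rw [Finset.sum_congr rfl (fun τ _ => hterm τ), Finset.sum_const, Finset.card_univ, nsmul_eq_mul]
  have hcard : Fintype.card (↥V₀ ⧸ V.subgroupOf V₀) = V.relIndex V₀ := by
    rw [← Nat.card_eq_fintype_card, ← Subgroup.index_eq_card]
    rfl
  rw [hcard, hidx, zero_mul]

end Final

end Fermat.Agent.TW.LEulEfface74
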