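/-
Programme TW (S56), brick C4-FIN(H¹), helper64: finiteness of `H¹` by inflation–restriction.

Abstract group `G` with a level basis `𝓑`, field `k`, `X` a finite-dimensional discrete module,
`V ∈ 𝓑.sets`.  If `H¹(V, X)` (level cohomology for the induced basis `LEulDual74.subBasis 𝓑 V`) is
finite-dimensional, then so is `H¹(G, X)`: the kernel of the restriction `LEulDual74.resH1` is the
image of the space of level cocycles vanishing on `V`; such cocycles are right-`V`-invariant, hence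
embed in the finite-dimensional space of functions `G ⧸ V → X`.
-/
import Mathlib
import Fermat.Agent.TW.LEulDual74

set_option autoImplicit false
set_option linter.unusedSectionVars false
set_option linter.style.haveILetI false

universe u

open Module groupCohomology

namespace Fermat.Agent.TW.LEulFin64

open Fermat.Agent.PT.PRO Fermat.Agent.PT.PRO.LevelCoh28 Fermat.Agent.PT.PRO.LevelCohRes28
open Fermat.Agent.TW.LEulDual74

variable {k G : Type u} [Field k] [Group G] (𝓑 : LevelBasis G) (V : Subgroup G)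
  (X : Rep.{u} k G)

/-- The 1-cochains vanishing on `V`. -/
def vanOn : Submodule k (G → X) where
  carrier := {c | ∀ v ∈ V, c v = 0}
  add_mem' := fun {a b} ha hb v hv => by rw [Pi.add_apply, ha v hv, hb v hv, add_zero]
  zero_mem' := fun _ _ => rfl
  smul_mem' := fun r a ha v hv => by rw [Pi.smul_apply, ha v hv, smul_zero]

/-- The level cocycles vanishing on `V`. -/
def Z1van : Submodule k (G → X) := Z1 𝓑 X ⊓ vanOn V X

theorem Z1van_le : Z1van 𝓑 V X ≤ Z1 𝓑 X := inf_le_left

/-- A cocycle vanishing on `V` is right-`V`-invariant. -/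
theorem apply_mul_of_mem {c : G → X} (hc : c ∈ Z1van 𝓑 V X) (g : G) {v : G} (hv : v ∈ V) :
    c (g * v) = c g := by
  have h1 := (mem_cocycles₁_iff c).1 hc.1.1 g v
  rw [h1, hc.2 v hv, map_zero, zero_add]

/-- Evaluation at the chosen representatives of `G ⧸ V`. -/
noncomputable def evalOut : ↥(Z1van 𝓑 V X) →ₗ[k] (G ⧸ V → X) where
  toFun c q := (c : G → X) q.out
  map_add' _ _ := rfl
  map_smul' _ _ := rfl

theorem evalOut_injective : Function.Injective (evalOut 𝓑 V X) := by
  rw [← LinearMap.ker_eq_bot, LinearMap.ker_eq_bot']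
  intro c hc
  apply Subtype.ext
  funext g
  obtain ⟨v, hv⟩ := QuotientGroup.mk_out_eq_mul V g
  have h1 : (c : G → X) ((g : G ⧸ V)).out = 0 := congrFun hc (g : G ⧸ V)
  rw [hv, apply_mul_of_mem 𝓑 V X c.2 g v.2] at h1
  exact h1

theorem finiteDimensional_Z1van (hV : V ∈ 𝓑.sets) [FiniteDimensional k X] :
    FiniteDimensional k ↥(Z1van 𝓑 V X) := by
  haveI : V.FiniteIndex := 𝓑.isBasis.finiteIndex V hV
  haveI : Finite (G ⧸ V) := Subgroup.finite_quotient_of_finiteIndex
  exact Module.Finite.of_injective (evalOut 𝓑 V X) (evalOut_injective 𝓑 V X)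

/-- The classes of the cocycles vanishing on `V`. -/
noncomputable def classVan : ↥(Z1van 𝓑 V X) →ₗ[k] H1 𝓑 X :=
  H1mk 𝓑 X ∘ₗ Submodule.inclusion (Z1van_le 𝓑 V X)

variable {X}

/-- The kernel of the restriction to `V` consists of classes of cocycles vanishing on `V`. -/
theorem ker_resH1_le (hX : IsDiscrete 𝓑.sets X) :
    LinearMap.ker (resH1 𝓑 V X) ≤ LinearMap.range (classVan 𝓑 V X) := by
  intro y hy
  obtain ⟨c, rfl⟩ := H1mk_surjective 𝓑 X y
  rw [LinearMap.mem_ker] at hy
  have h1 : H1mk (subBasis 𝓑 V) (Rep.res V.subtype X)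
      (ppZ1 V.subtype (LinearMap.id : X →ₗ[k] Rep.res V.subtype X) (fun _ _ => rfl)
        (isLevelHom_subtype 𝓑 V) c) = 0 := hy
  rw [H1mk_eq_zero_iff] at h1
  obtain ⟨x, hx⟩ := h1
  have hd : (d₀₁ X).hom x ∈ Z1 𝓑 X := coboundaries₁_le_Z1 hX ⟨x, rfl⟩
  have hc' : (c : G → X) - (d₀₁ X).hom x ∈ Z1van 𝓑 V X := by
    refine ⟨(Z1 𝓑 X).sub_mem c.2 hd, fun v hv => ?_⟩
    have h2 := congrFun hx ⟨v, hv⟩
    rw [d₀₁_hom_apply] at h2
    rw [Pi.sub_apply, d₀₁_hom_apply, sub_eq_zero]
    exact h2.symm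
  refine ⟨⟨_, hc'⟩, ?_⟩
  show H1mk 𝓑 X ⟨(c : G → X) - (d₀₁ X).hom x, hc'.1⟩ = H1mk 𝓑 X c
  rw [eq_comm, ← sub_eq_zero, ← map_sub, H1mk_eq_zero_iff]
  refine ⟨x, ?_⟩
  show (d₀₁ X).hom x = (c : G → X) - ((c : G → X) - (d₀₁ X).hom x)
  rw [sub_sub_cancel]

/-- **Finiteness of `H¹` by inflation–restriction.** -/
theorem finiteDimensional_H1_of_res (hV : V ∈ 𝓑.sets) [FiniteDimensional k X]
    (hX : IsDiscrete 𝓑.sets X)
    (hfin : FiniteDimensional k (H1 (subBasis 𝓑 V) (Rep.res V.subtype X))) :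
    FiniteDimensional k (H1 𝓑 X) := by
  haveI := finiteDimensional_Z1van 𝓑 V X hV
  haveI : FiniteDimensional k ↥(LinearMap.range (classVan 𝓑 V X)) := inferInstance
  haveI : FiniteDimensional k ↥(LinearMap.ker (resH1 𝓑 V X)) :=
    Submodule.finiteDimensional_of_le (ker_resH1_le 𝓑 V hX)
  haveI : FiniteDimensional k ↥(LinearMap.range (resH1 𝓑 V X)) := inferInstance
  haveI : Module.Finite k (H1 𝓑 X ⧸ LinearMap.ker (resH1 𝓑 V X)) :=
    Module.Finite.equiv (resH1 𝓑 V X).quotKerEquivRange.symm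
  exact Module.Finite.of_submodule_quotient (LinearMap.ker (resH1 𝓑 V X))

/-- Finiteness of `H¹` for all finite-dimensional discrete modules, from finiteness over
trivialising open subgroups. -/
theorem finH1_of_forall
    (h : ∀ X : Rep.{u} k G, FiniteDimensional k X → IsDiscrete 𝓑.sets X →
      ∃ V ∈ 𝓑.sets, FiniteDimensional k (H1 (subBasis 𝓑 V) (Rep.res V.subtype X))) :
    ∀ X : Rep.{u} k G, FiniteDimensional k X → IsDiscrete 𝓑.sets X →
      FiniteDimensional k (H1 𝓑 X) := by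
  intro X hXfd hX
  obtain ⟨V, hV, hfin⟩ := h X hXfd hX
  exact finiteDimensional_H1_of_res 𝓑 V hV hX hfin

end Fermat.Agent.TW.LEulFin64
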