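/-
Programme TW (S56), brick C4-FIN(H¹), helper64: finiteness of `H¹(G, X)` from the BASE formula
`LEulIface2_74.BaseAt` at `U = V₀` (which contains the finiteness of `H¹(V₀, N)` for `N` trivial on
`V₀`) and inflation–restriction (`LEulFin64.finiteDimensional_H1_of_res`).
-/
import Mathlib
import Fermat.Agent.TW.LEulIface2_74
import Fermat.Agent.TW.LEulFin64

set_option autoImplicit false
set_option linter.unusedSectionVars false
set_option linter.style.haveILetI false

open Module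

namespace Fermat.Agent.TW.LEulFinBase64

open Fermat.Agent.PT.PRO Fermat.Agent.PT.PRO.LevelCoh28
open Fermat.Agent.TW.LEulDual74 Fermat.Agent.TW.LEulIface2_74 Fermat.Agent.TW.LEulFin64

variable {p : ℕ} [Fact p.Prime] {G : Type} [Group G]

/-- `H¹(G, X)` is finite-dimensional for `X` trivial on `V₀`, if `BaseAt` holds at `V₀`. -/
theorem finiteDimensional_H1_of_baseAt (𝓑 : LevelBasis G) (ε : G →* (ZMod p)ˣ) (c : ℕ)
    (V₀ : Subgroup G) (hV₀ : V₀ ∈ 𝓑.sets) (hbase : BaseAt 𝓑 ε c V₀)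
    (X : Rep.{0} (ZMod p) G) [FiniteDimensional (ZMod p) X]
    (htriv : ∀ v ∈ V₀, ∀ x : X, X.ρ v x = x) : FiniteDimensional (ZMod p) (H1 𝓑 X) := by
  have hp : p.Prime := Fact.out
  have hX : IsDiscrete 𝓑.sets X := fun x => ⟨V₀, hV₀, fun s hs => htriv s hs x⟩
  have hnd : ¬ p ∣ V₀.relIndex V₀ := by
    rw [Subgroup.relIndex_self]
    exact hp.one_lt.ne' ∘ Nat.dvd_one.1
  have hfd : FiniteDimensional (ZMod p) (Rep.res V₀.subtype X) :=
    inferInstanceAs (FiniteDimensional (ZMod p) X)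
  obtain ⟨hfin, -⟩ := hbase V₀ le_rfl hnd (Rep.res V₀.subtype X) hfd
    (fun u hu x => htriv (u : G) hu x)
  exact finiteDimensional_H1_of_res 𝓑 V₀ hV₀ hX hfin

end Fermat.Agent.TW.LEulFinBase64
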