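/-
Programme TW (S56), brick C4 (local Euler characteristic), helper64: ABSTRACT ASSEMBLY.

For a group `G` with a level basis `𝓑`, a character `ε : G →* (ZMod p)ˣ` and `c : ℕ`, from
* `P : LEulDual74.PairData 𝓑 ε`                       (LD1: natural perfect pairings on `H¹`),
* `Effaceable 𝓑 ε`  (= `LEulIface2_74.LD2Shape` for an abstract group; LD2),
* `BaseEverywhere 𝓑 ε c` (every f.d. discrete module is trivialised, together with `ε`, by a normal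
  member `V₀` of the basis at which `LEulIface2_74.BaseAt 𝓑 ε c V₀` holds; BASE),
we get, for every finite-dimensional discrete `M`: `H¹`, `H²` finite-dimensional,
`h²(M) = h⁰(M^*)` and `h¹(M) = h⁰(M) + h²(M) + c · dim M`
(LD3 = `LEulEfface74.ld3`, ADD = `LEulDual74.chi_eq_add`, ART = `LEulArtin64.artinReduction`,
FIN = `LEulFinBase64.finiteDimensional_H1_of_baseAt`).
-/
import Mathlib
import Fermat.Agent.TW.LEulEfface74
import Fermat.Agent.TW.LEulArtin64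
import Fermat.Agent.TW.LEulFinBase64

set_option autoImplicit false
set_option linter.unusedSectionVars false
set_option linter.style.haveILetI false

open Module

namespace Fermat.Agent.TW.LEulAsm64

open Fermat.Agent.PT.PRO Fermat.Agent.PT.PRO.LevelCoh28
open Fermat.Agent.TW.Tate62.H0LES Fermat.Agent.TW.Tate62.EulerIneq
open Fermat.Agent.TW.Tate62.ChiAdditive
open Fermat.Agent.TW.LEulDual74 Fermat.Agent.TW.LEulIface2_74

variable {p : ℕ} [Fact p.Prime] {G : Type} [Group G]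

/-- `H²` is effaceable by restriction (the shape `LEulIface2_74.LD2Shape` for an abstract group). -/
def Effaceable (𝓑 : LevelBasis G) (ε : G →* (ZMod p)ˣ) : Prop :=
  ∀ N : Rep.{0} (ZMod p) G, FiniteDimensional (ZMod p) N → IsDiscrete 𝓑.sets N →
    ∃ V₀ ∈ 𝓑.sets, ∃ V ∈ 𝓑.sets, V₀.Normal ∧ V.Normal ∧ V ≤ V₀ ∧
      (∀ v ∈ V₀, ∀ n : N, N.ρ v n = n) ∧ (∀ v ∈ V₀, ε v = 1) ∧ p ∣ V.relIndex V₀ ∧
      ∀ x : H2 𝓑 N, resH2 𝓑 V N x = 0

/-- The BASE formula holds at a trivialising normal member of the basis, for every module. -/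
def BaseEverywhere (𝓑 : LevelBasis G) (ε : G →* (ZMod p)ˣ) (c : ℕ) : Prop :=
  ∀ X : Rep.{0} (ZMod p) G, FiniteDimensional (ZMod p) X → IsDiscrete 𝓑.sets X →
    ∃ V₀ ∈ 𝓑.sets, V₀.Normal ∧ (∀ v ∈ V₀, ∀ x : X, X.ρ v x = x) ∧ (∀ v ∈ V₀, ε v = 1) ∧
      BaseAt 𝓑 ε c V₀

variable {𝓑 : LevelBasis G} {ε : G →* (ZMod p)ˣ} {c : ℕ}

/-- FIN: `H¹` is finite-dimensional. -/
theorem finH1 (hBase : BaseEverywhere 𝓑 ε c) :
    ∀ X : Rep.{0} (ZMod p) G, FiniteDimensional (ZMod p) X → IsDiscrete 𝓑.sets X →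
      FiniteDimensional (ZMod p) (H1 𝓑 X) := by
  intro X hXfd hX
  obtain ⟨V₀, hV₀, -, htriv, -, hb⟩ := hBase X hXfd hX
  exact LEulFinBase64.finiteDimensional_H1_of_baseAt 𝓑 ε c V₀ hV₀ hb X htriv

/-- LD3: `H²` is finite-dimensional of dimension `h⁰` of the twisted dual. -/
theorem h2_dual (P : PairData 𝓑 ε) (hEff : Effaceable 𝓑 ε) (hBase : BaseEverywhere 𝓑 ε c)
    (N : Rep.{0} (ZMod p) G) (hNfd : FiniteDimensional (ZMod p) N) (hN : IsDiscrete 𝓑.sets N) :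
    FiniteDimensional (ZMod p) (H2 𝓑 N) ∧
      finrank (ZMod p) (H2 𝓑 N) = finrank (ZMod p) (H0 (N.dualTwist ε)) := by
  obtain ⟨V₀, hV₀, V, hV, hV₀n, hVn, hle, htriv, hεV₀, hdiv, hres⟩ := hEff N hNfd hN
  haveI := hV₀n
  haveI := hVn
  have hidx : ((V.relIndex V₀ : ℕ) : ZMod p) = 0 := (ZMod.natCast_eq_zero_iff _ _).2 hdiv
  exact LEulEfface74.ld3 P (finH1 hBase) N hN V₀ V hV₀ hV hle htriv hεV₀ hidx hres

theorem finCoh (P : PairData 𝓑 ε) (hEff : Effaceable 𝓑 ε) (hBase : BaseEverywhere 𝓑 ε c) :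
    FinCoh (k := ZMod p) 𝓑 :=
  fun X hXfd hX => ⟨finH1 hBase X hXfd hX, (h2_dual P hEff hBase X hXfd hX).1⟩

theorem h2Dual (P : PairData 𝓑 ε) (hEff : Effaceable 𝓑 ε) (hBase : BaseEverywhere 𝓑 ε c) :
    H2Dual (k := ZMod p) 𝓑 ε :=
  fun X hXfd hX => (h2_dual P hEff hBase X hXfd hX).2

theorem isLevelChar (hBase : BaseEverywhere 𝓑 ε c) : IsLevelChar 𝓑.sets ε := by
  let T : Rep.{0} (ZMod p) G := Rep.of (Representation.trivial (ZMod p) G PUnit)
  have hTfd : FiniteDimensional (ZMod p) T := inferInstanceAs (FiniteDimensional (ZMod p) PUnit)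
  have hT : IsDiscrete 𝓑.sets T := fun a => by
    obtain ⟨U, hU⟩ := 𝓑.isBasis.nonempty
    exact ⟨U, hU, fun _ _ => Subsingleton.elim (α := PUnit) _ _⟩
  obtain ⟨V₀, hV₀, -, -, hε, -⟩ := hBase T hTfd hT
  exact ⟨V₀, hV₀, hε⟩

/-- ADD: the truncated Euler characteristic is additive. -/
theorem chiAdd (P : PairData 𝓑 ε) (hEff : Effaceable 𝓑 ε) (hBase : BaseEverywhere 𝓑 ε c) :
    ChiAdd (p := p) 𝓑 := by
  intro A B C φ hφ ψ hψ hinj hsurj hex hBfd hB
  haveI := hBfd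
  exact chi_eq_add P (isLevelChar hBase) (finCoh P hEff hBase) (h2Dual P hEff hBase)
    φ hφ ψ hψ hinj hsurj hex hB

/-- **The local Euler characteristic formula** `χ(M) + c · dim M = 0`. -/
theorem chi_add_eq_zero (P : PairData 𝓑 ε) (hEff : Effaceable 𝓑 ε)
    (hBase : BaseEverywhere 𝓑 ε c) (M : Rep.{0} (ZMod p) G)
    (hMfd : FiniteDimensional (ZMod p) M) (hM : IsDiscrete 𝓑.sets M) :
    chi 𝓑 M + (c : ℤ) * finrank (ZMod p) M = 0 := by
  obtain ⟨V₀, hV₀, hn, htriv, hε, hb⟩ := hBase M hMfd hM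
  exact LEulArtin64.artinReduction G 𝓑 ε c (chiAdd P hEff hBase) (finCoh P hEff hBase)
    (h2Dual P hEff hBase) V₀ hV₀ hn hε hb M hMfd htriv

/-- **Assembly**: finiteness, `h² = h⁰` of the dual, and `h¹ = h⁰ + h² + c · dim`. -/
theorem euler (P : PairData 𝓑 ε) (hEff : Effaceable 𝓑 ε) (hBase : BaseEverywhere 𝓑 ε c)
    (M : Rep.{0} (ZMod p) G) (hMfd : FiniteDimensional (ZMod p) M) (hM : IsDiscrete 𝓑.sets M) :
    FiniteDimensional (ZMod p) (H1 𝓑 M) ∧ FiniteDimensional (ZMod p) (H2 𝓑 M) ∧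
      finrank (ZMod p) (H2 𝓑 M) = finrank (ZMod p) (H0 (M.dualTwist ε)) ∧
      finrank (ZMod p) (H1 𝓑 M) =
        finrank (ZMod p) (H0 M) + finrank (ZMod p) (H2 𝓑 M) + c * finrank (ZMod p) M := by
  refine ⟨finH1 hBase M hMfd hM, (h2_dual P hEff hBase M hMfd hM).1,
    (h2_dual P hEff hBase M hMfd hM).2, ?_⟩
  have h := chi_add_eq_zero P hEff hBase M hMfd hM
  unfold chi at h
  have h2 : (finrank (ZMod p) (H1 𝓑 M) : ℤ) =
      finrank (ZMod p) (H0 M) + finrank (ZMod p) (H2 𝓑 M) + c * finrank (ZMod p) M := by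
    linarith
  exact_mod_cast h2

end Fermat.Agent.TW.LEulAsm64
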