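/-
Programme TW (S56), brick C4-LD2 (H² of the local group is effaceable by restriction), helper64.
File `LEulEffaceD64`: open subgroups of `Γ_q = Gal(ℚ̄_q/ℚ_q)` of index divisible by `p`.

* `irreducible_X_pow_sub_q` : `X ^ n - q` is irreducible over `ℚ_q` (Eisenstein);
* `exists_mem_levelLoc_dvd_index` : members of the level basis of index divisible by `n`;
* `exists_normal_le_dvd_relIndex` : below every member `V₀` of the level basis there is a normal
  member `V` with `p ∣ [V₀ : V]`.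
-/
import Mathlib
import Fermat.Agent.PT.GLUE.Objects21

set_option autoImplicit false
set_option linter.unusedSectionVars false
set_option linter.style.haveILetI false

open Polynomial IntermediateField

namespace Fermat.Agent.TW.LEulEffaceD64

open Fermat.Agent.PT.PRO Fermat.Agent.PT.PRO.LevelCoh28 Fermat.Agent.PT.GLUE.Objects21

variable (q : ℕ) [Fact q.Prime]

/-- `X ^ n - q` is irreducible over `ℚ_q` (Eisenstein's criterion over `ℤ_q`). -/
theorem irreducible_X_pow_sub_q (n : ℕ) (hn : 0 < n) :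
    Irreducible (X ^ n - C (q : ℚ_[q]) : ℚ_[q][X]) := by
  have hq : Prime (q : ℤ_[q]) := PadicInt.prime_p
  have hprime : (Ideal.span {(q : ℤ_[q])}).IsPrime :=
    (Ideal.span_singleton_prime hq.ne_zero).2 hq
  have hmonic : (X ^ n - C (q : ℤ_[q]) : ℤ_[q][X]).Monic := monic_X_pow_sub_C _ hn.ne'
  have hdeg : (X ^ n - C (q : ℤ_[q]) : ℤ_[q][X]).natDegree = n := natDegree_X_pow_sub_C
  have hE : (X ^ n - C (q : ℤ_[q]) : ℤ_[q][X]).IsEisensteinAt (Ideal.span {(q : ℤ_[q])}) := by
    refine ⟨?_, ?_, ?_⟩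
    · rw [hmonic.leadingCoeff]
      exact fun h => hprime.ne_top ((Ideal.eq_top_iff_one _).2 h)
    · intro k hk
      rw [hdeg] at hk
      rw [coeff_sub, coeff_X_pow, coeff_C, if_neg hk.ne]
      split_ifs
      · rw [zero_sub]
        exact neg_mem (Ideal.mem_span_singleton_self _)
      · rw [sub_zero]
        exact zero_mem _
    · rw [coeff_sub, coeff_X_pow, coeff_C, if_neg hn.ne, if_pos rfl, zero_sub, neg_mem_iff,
        Ideal.span_singleton_pow, Ideal.mem_span_singleton]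
      intro h
      have h2 : (q : ℤ_[q]) * (q : ℤ_[q]) ∣ (q : ℤ_[q]) * 1 := by
        rwa [mul_one, ← pow_two]
      exact hq.not_isUnit (isUnit_of_dvd_one ((mul_dvd_mul_iff_left hq.ne_zero).1 h2))
  have hirr := hE.irreducible hprime hmonic.isPrimitive (by rw [hdeg]; exact hn)
  have h2 := (Polynomial.Monic.irreducible_iff_irreducible_map_fraction_map (K := ℚ_[q])
    hmonic).1 hirr
  simpa using h2

local notation "Ω" => PadicAlgCl q
local notation "Γq" => (PadicAlgCl q ≃ₐ[ℚ_[q]] PadicAlgCl q)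

local instance isAlgClosurePadicD64 : IsAlgClosure ℚ_[q] Ω := ⟨inferInstance, inferInstance⟩
local instance isGaloisPadicD64 : IsGalois ℚ_[q] Ω := IsAlgClosure.isGalois ℚ_[q] Ω

/-- For every `n ≥ 1` the level basis of `Γ_q` has a member of index divisible by `n`. -/
theorem exists_mem_levelLoc_dvd_index (n : ℕ) (hn : 0 < n) :
    ∃ U ∈ (levelLoc q).sets, n ∣ U.index := by
  obtain ⟨z, hz⟩ := IsAlgClosed.exists_pow_nat_eq (algebraMap ℚ_[q] Ω (q : ℚ_[q])) hn
  have hq0 : algebraMap ℚ_[q] Ω (q : ℚ_[q]) ≠ 0 := by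
    rw [Ne, map_eq_zero]
    exact_mod_cast (Fact.out : q.Prime).ne_zero
  have hz0 : z ≠ 0 := by
    rintro rfl
    rw [zero_pow hn.ne'] at hz
    exact hq0 hz.symm
  obtain ⟨U, hU, hfix⟩ := isDiscrete_unitsLoc q (Additive.ofMul (Units.mk0 z hz0))
  refine ⟨U, hU, ?_⟩
  have hle : U ≤ (ℚ_[q]⟮z⟯).fixingSubgroup := by
    intro s hs
    have h1 : s z = z := by
      have := congrArg (fun b : (unitsLoc q).V =>
        ((Additive.toMul (α := Ωˣ) b : Ωˣ) : Ω)) (hfix s hs)
      exact this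
    rw [IntermediateField.mem_fixingSubgroup_iff]
    intro y hy
    induction hy using IntermediateField.adjoin_induction with
    | mem x hx => rw [Set.mem_singleton_iff.1 hx, h1]
    | algebraMap x => exact s.commutes x
    | add x y _ _ hx hy => rw [map_add, hx, hy]
    | mul x y _ _ hx hy => rw [map_mul, hx, hy]
    | inv x _ hx => rw [map_inv₀, hx]
  have hfin : Module.finrank ℚ_[q] ℚ_[q]⟮z⟯ = n := by
    have hint : IsIntegral ℚ_[q] z := Algebra.IsIntegral.isIntegral z
    have hmin : (X ^ n - C (q : ℚ_[q]) : ℚ_[q][X]) = minpoly ℚ_[q] z :=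
      minpoly.eq_of_irreducible_of_monic (irreducible_X_pow_sub_q q n hn)
        (by simp [hz]) (monic_X_pow_sub_C _ hn.ne')
    rw [IntermediateField.adjoin.finrank hint, ← hmin, natDegree_X_pow_sub_C]
  rw [← hfin, IntermediateField.finrank_eq_fixingSubgroup_index]
  exact Subgroup.index_dvd_of_le hle

/-- Below every member `V₀` of the level basis there is a normal member `V` with `p ∣ [V₀ : V]`. -/
theorem exists_normal_le_dvd_relIndex (p : ℕ) [Fact p.Prime] (V₀ : Subgroup Γq)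
    (hV₀ : V₀ ∈ (levelLoc q).sets) :
    ∃ V ∈ (levelLoc q).sets, V.Normal ∧ V ≤ V₀ ∧ p ∣ V.relIndex V₀ := by
  have h𝓤 := (levelLoc q).isBasis
  have hp := (Fact.out : p.Prime)
  have hfi := h𝓤.finiteIndex V₀ hV₀
  have hidx : V₀.index ≠ 0 := hfi.index_ne_zero
  -- `p ^ m > [Γ_q : V₀]`
  obtain ⟨U, hU, hUdvd⟩ := exists_mem_levelLoc_dvd_index q (p ^ V₀.index) (pow_pos hp.pos _)
  obtain ⟨W₁, hW₁, hW₁le⟩ := h𝓤.directed V₀ hV₀ U hU
  obtain ⟨V, hV, hVW₁, hVn⟩ := h𝓤.normalCore W₁ hW₁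
  have hVV₀ : V ≤ V₀ := hVW₁.trans (hW₁le.trans inf_le_left)
  have hVU : V ≤ U := hVW₁.trans (hW₁le.trans inf_le_right)
  refine ⟨V, hV, hVn, hVV₀, ?_⟩
  by_contra hnd
  have h1 : p ^ V₀.index ∣ V.index := hUdvd.trans (Subgroup.index_dvd_of_le hVU)
  rw [← Subgroup.relIndex_mul_index hVV₀] at h1
  have hcop : Nat.Coprime (p ^ V₀.index) (V.relIndex V₀) :=
    Nat.Coprime.pow_left _ ((Nat.Prime.coprime_iff_not_dvd hp).2 hnd)
  have h2 : p ^ V₀.index ∣ V₀.index := hcop.dvd_of_dvd_mul_left h1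
  have h3 := Nat.le_of_dvd (Nat.pos_of_ne_zero hidx) h2
  exact absurd h3 (not_le.2 (Nat.lt_pow_self hp.one_lt))

end Fermat.Agent.TW.LEulEffaceD64
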