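/-
Programme TW (S56), brick C4-LD2, helper64: **`H²` of the local Galois group is effaceable by
restriction.**

`Γ_q = Gal(ℚ̄_q/ℚ_q)` with its level basis, `N` a finite-dimensional discrete `𝔽_p[Γ_q]`-module.
There is an open normal subgroup `V₀` acting trivially on `N` (and on `μ_p`) such that for all
subgroups `V ≤ V₁ ≤ V₀` with `V` open and `p ∣ [V₁ : V]` the restriction
`H²(Γ_q, N) → H²(V, N)` (level cohomology, `LEulDual74.resH2`) is zero; and such `V` exist.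

Main statements (the `Nat.Primes` forms at the end are the ones to cite):
* `exists_coboundary_of_trivial` : the cochain-level statement;
* `resH2_eq_zero_of_dvd` : `resH2 (levelLoc q) V N = 0`;
* `exists_effacing`, `exists_normal_le_dvd_relIndex`, `exists_resH2_eq_zero` :
  the final forms for `pullBasis (primeLocalToGlobal q)`.
-/
import Mathlib
import Fermat.Agent.PT.GLUE.BasisCompare13
import Fermat.Agent.TW.LEulDual74
import Fermat.Agent.TW.LEulEffaceC64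
import Fermat.Agent.TW.LEulEffaceD64

set_option autoImplicit false
set_option linter.unusedSectionVars false
set_option linter.style.haveILetI false

open CategoryTheory groupCohomology

namespace Fermat.Agent.TW.LEulEfface64

open Fermat.Agent.PT.PRO Fermat.Agent.PT.PRO.LevelCoh28 Fermat.Agent.PT.GLUE.Objects21
open Fermat.Agent.PT.BR Fermat.Agent.TW.LEulEffaceC64 Fermat.Agent.TW.LEulEffaceD64
open Fermat.Agent.TW.LEulDual74

section Local

variable (q : ℕ) [Fact q.Prime]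

local notation "Ω" => PadicAlgCl q
local notation "Γq" => (PadicAlgCl q ≃ₐ[ℚ_[q]] PadicAlgCl q)

/-- **Cochain level**: if `V₀` acts trivially on `N` and on `ζ_p`, `V ≤ V₀` is open with
`p ∣ [V₀ : V]`, then every level 2-cocycle of `Γ_q` in `N` is on `V` the coboundary of a level
1-cochain. -/
theorem exists_coboundary_of_trivial (p : ℕ) [Fact p.Prime] (N : Rep.{0} (ZMod p) Γq)
    [FiniteDimensional (ZMod p) N] (ζ : Ωˣ) (hζ : IsPrimitiveRoot ζ p) (V₀ V : Subgroup Γq)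
    (hV : ∃ W ∈ (levelLoc q).sets, W ≤ V) (hVV₀ : V ≤ V₀) (hfix : ∀ g ∈ V₀, g • ζ = ζ)
    (htriv : ∀ g ∈ V₀, ∀ n : N, N.ρ g n = n) (hdiv : p ∣ V.relIndex V₀)
    (c : Γq × Γq → N) (hc : c ∈ Z2 (levelLoc q) N) :
    ∃ b : Γq → N, IsLevel₁ (levelLoc q).sets b ∧
      ∀ g ∈ V, ∀ h ∈ V, N.ρ g (b h) - b (g * h) + b g = c (g, h) := by
  classical
  let B := Module.finBasis (ZMod p) N
  have hcoc := (mem_cocycles₂_iff c).1 hc.1
  have hscalar : ∀ i, ∃ b : Γq → ZMod p, IsLevel₁ (levelLoc q).sets b ∧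
      ∀ g ∈ V, ∀ h ∈ V, b h - b (g * h) + b g = B.coord i (c (g, h)) := by
    intro i
    refine exists_scalar_coboundary q p ζ hζ V₀ V hV hVV₀ hfix hdiv (fun x => B.coord i (c x))
      (hc.2.comp (B.coord i)) ?_
    intro g hg h hh j hj
    have := congrArg (B.coord i) (hcoc g h j)
    rw [htriv g hg, map_add, map_add] at this
    exact this
  choose b hblevel hbeq using hscalar
  refine ⟨fun g => ∑ i, b i g • B i, ?_, fun g hg h hh => ?_⟩
  · have hmem : (∑ i, fun g => b i g • B i) ∈ levelCochains₁ (levelLoc q) N :=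
      Submodule.sum_mem _ fun i _ => (hblevel i).comp (fun x => x • B i)
    have heq : (fun g => ∑ i, b i g • B i) = ∑ i, fun g => b i g • B i := by
      funext g
      rw [Finset.sum_apply]
    rw [heq]
    exact hmem
  · rw [htriv g (hVV₀ hg), ← Finset.sum_sub_distrib, ← Finset.sum_add_distrib]
    have : ∀ i, b i h • B i - b i (g * h) • B i + b i g • B i = B.repr (c (g, h)) i • B i := by
      intro i
      rw [← sub_smul, ← add_smul, hbeq i g hg h hh]
      rfl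
    rw [Finset.sum_congr rfl fun i _ => this i]
    exact B.sum_repr (c (g, h))

/-- A primitive `p`-th root of unity and an open normal subgroup fixing it and `N`. -/
theorem exists_trivializing (p : ℕ) [Fact p.Prime] (N : Rep.{0} (ZMod p) Γq)
    [FiniteDimensional (ZMod p) N] (hN : IsDiscrete (levelLoc q).sets N) :
    ∃ ζ : Ωˣ, IsPrimitiveRoot ζ p ∧ ∃ V₀ ∈ (levelLoc q).sets, V₀.Normal ∧
      (∀ g ∈ V₀, g • ζ = ζ) ∧ ∀ g ∈ V₀, ∀ n : N, N.ρ g n = n := by
  classical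
  have h𝓤 := (levelLoc q).isBasis
  haveI : NeZero p := ⟨(Fact.out : p.Prime).ne_zero⟩
  haveI : NeZero ((p : ℕ) : Ω) := ⟨by exact_mod_cast (Fact.out : p.Prime).ne_zero⟩
  obtain ⟨ζ₀, hζ₀⟩ := HasEnoughRootsOfUnity.exists_primitiveRoot Ω p
  have hζ : IsPrimitiveRoot (hζ₀.isUnit (NeZero.ne p)).unit p :=
    (IsPrimitiveRoot.coe_units_iff).1 (by simpa using hζ₀)
  refine ⟨_, hζ, ?_⟩
  obtain ⟨U₁, hU₁, hfixζ⟩ := isDiscrete_unitsLoc q (Additive.ofMul (hζ₀.isUnit (NeZero.ne p)).unit)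
  let B := Module.finBasis (ZMod p) N
  obtain ⟨U₂, hU₂, -, hfixB⟩ := hN.exists_fixing h𝓤 (Set.finite_range B)
  obtain ⟨W, hW, hWle⟩ := h𝓤.directed U₁ hU₁ U₂ hU₂
  obtain ⟨V₀, hV₀, hV₀W, hn⟩ := h𝓤.normalCore W hW
  refine ⟨V₀, hV₀, hn, fun g hg => ?_, fun g hg n => ?_⟩
  · have := hfixζ g ((hV₀W.trans (hWle.trans inf_le_left)) hg)
    exact congrArg (Additive.toMul (α := Ωˣ)) this
  · have hg₂ : g ∈ U₂ := (hV₀W.trans (hWle.trans inf_le_right)) hg
    rw [← B.sum_repr n, map_sum]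
    refine Finset.sum_congr rfl fun i _ => ?_
    rw [map_smul, hfixB g hg₂ (B i) ⟨i, rfl⟩]

/-- **`resH2 = 0`** for the basis `levelLoc q`. -/
theorem resH2_eq_zero_of_dvd (p : ℕ) [Fact p.Prime] (N : Rep.{0} (ZMod p) Γq)
    [FiniteDimensional (ZMod p) N] (ζ : Ωˣ) (hζ : IsPrimitiveRoot ζ p) (V₀ V : Subgroup Γq)
    (hV : ∃ W ∈ (levelLoc q).sets, W ≤ V) (hVV₀ : V ≤ V₀) (hfix : ∀ g ∈ V₀, g • ζ = ζ)
    (htriv : ∀ g ∈ V₀, ∀ n : N, N.ρ g n = n) (hdiv : p ∣ V.relIndex V₀) :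
    resH2 (levelLoc q) V N = 0 := by
  apply LinearMap.ext
  intro x
  obtain ⟨c, rfl⟩ := H2mk_surjective (levelLoc q) N x
  rw [LinearMap.zero_apply]
  show H2mk (subBasis (levelLoc q) V) (Rep.res V.subtype N) _ = 0
  rw [H2mk_eq_zero_iff, mem_B2_iff]
  obtain ⟨b, ⟨U, hU, hbU⟩, hb⟩ := exists_coboundary_of_trivial q p N ζ hζ V₀ V hV hVV₀ hfix htriv
    hdiv (c : Γq × Γq → N) c.2
  refine ⟨fun v : V => b (v : Γq), ⟨U.subgroupOf V, ⟨U, hU, rfl⟩, fun g s hs => ?_⟩, ?_⟩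
  · exact hbU (g : Γq) (s : Γq) (Subgroup.mem_subgroupOf.1 hs)
  · funext ⟨g, h⟩
    rw [d₁₂_hom_apply]
    exact hb (g : Γq) g.2 (h : Γq) h.2

/-- The effacement statement for any level basis equal to `levelLoc q`. -/
theorem exists_effacing_aux (p : ℕ) [Fact p.Prime] (𝓑 : LevelBasis Γq) (h𝓑 : 𝓑 = levelLoc q)
    (N : Rep.{0} (ZMod p) Γq) [FiniteDimensional (ZMod p) N] (hN : IsDiscrete 𝓑.sets N) :
    ∃ V₀ ∈ 𝓑.sets, V₀.Normal ∧ (∀ g ∈ V₀, ∀ n : N, N.ρ g n = n) ∧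
      ∀ V₁ V : Subgroup Γq, V₁ ≤ V₀ → V ≤ V₁ → (∃ W ∈ 𝓑.sets, W ≤ V) → p ∣ V.relIndex V₁ →
        resH2 𝓑 V N = 0 := by
  subst h𝓑
  obtain ⟨ζ, hζ, V₀, hV₀, hn, hfix, htriv⟩ := exists_trivializing q p N hN
  exact ⟨V₀, hV₀, hn, htriv, fun V₁ V hV₁ hVV₁ hV hdiv =>
    resH2_eq_zero_of_dvd q p N ζ hζ V₁ V hV hVV₁ (fun g hg => hfix g (hV₁ hg))
      (fun g hg => htriv g (hV₁ hg)) hdiv⟩

/-- Subgroups of index divisible by `p`, for any level basis equal to `levelLoc q`. -/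
theorem exists_normal_le_dvd_relIndex_aux (p : ℕ) [Fact p.Prime] (𝓑 : LevelBasis Γq)
    (h𝓑 : 𝓑 = levelLoc q) (V₀ : Subgroup Γq) (hV₀ : V₀ ∈ 𝓑.sets) :
    ∃ V ∈ 𝓑.sets, V.Normal ∧ V ≤ V₀ ∧ p ∣ V.relIndex V₀ := by
  subst h𝓑
  exact LEulEffaceD64.exists_normal_le_dvd_relIndex q p V₀ hV₀

end Local

/-! ### Final forms, in the vocabulary of `GWIface97` -/

section Final

open ExtCitation LevelBridge13

variable (p : ℕ) [Fact p.Prime] (q : Nat.Primes)

/-- **LD2 (precise form).**  For a finite-dimensional discrete `𝔽_p`-module `N` of the local Galois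
group at `q` there is an open normal subgroup `V₀` acting trivially on `N` such that the restriction
`H²(Γ_q, N) → H²(V, N)` vanishes for all `V ≤ V₁ ≤ V₀` with `V` open and `p ∣ [V₁ : V]`. -/
theorem exists_effacing (N : Rep.{0} (ZMod p) (primeLocalGaloisGroup q))
    [FiniteDimensional (ZMod p) N] (hN : IsDiscrete (pullBasis (primeLocalToGlobal q)).sets N) :
    ∃ V₀ ∈ (pullBasis (primeLocalToGlobal q)).sets, V₀.Normal ∧
      (∀ g ∈ V₀, ∀ n : N, N.ρ g n = n) ∧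
      ∀ V₁ V : Subgroup (primeLocalGaloisGroup q), V₁ ≤ V₀ → V ≤ V₁ →
        (∃ W ∈ (pullBasis (primeLocalToGlobal q)).sets, W ≤ V) → p ∣ V.relIndex V₁ →
          resH2 (pullBasis (primeLocalToGlobal q)) V N = 0 :=
  exists_effacing_aux (q : ℕ) p (pullBasis (primeLocalToGlobal q))
    (Fermat.Agent.PT.GLUE.BasisCompare13.pullBasis_prime_eq q) N hN

/-- Below every member `V₀` of the local level basis there is a normal member `V` with
`p ∣ [V₀ : V]`. -/
theorem exists_normal_le_dvd_relIndex (V₀ : Subgroup (primeLocalGaloisGroup q))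
    (hV₀ : V₀ ∈ (pullBasis (primeLocalToGlobal q)).sets) :
    ∃ V ∈ (pullBasis (primeLocalToGlobal q)).sets, V.Normal ∧ V ≤ V₀ ∧ p ∣ V.relIndex V₀ :=
  exists_normal_le_dvd_relIndex_aux (q : ℕ) p (pullBasis (primeLocalToGlobal q))
    (Fermat.Agent.PT.GLUE.BasisCompare13.pullBasis_prime_eq q) V₀ hV₀

/-- **LD2**: `H²` of the local Galois group is effaceable by restriction to an open normal
subgroup (which moreover acts trivially on the module). -/
theorem exists_resH2_eq_zero (N : Rep.{0} (ZMod p) (primeLocalGaloisGroup q))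
    [FiniteDimensional (ZMod p) N] (hN : IsDiscrete (pullBasis (primeLocalToGlobal q)).sets N) :
    ∃ V ∈ (pullBasis (primeLocalToGlobal q)).sets, V.Normal ∧
      (∀ g ∈ V, ∀ n : N, N.ρ g n = n) ∧ resH2 (pullBasis (primeLocalToGlobal q)) V N = 0 := by
  obtain ⟨V₀, hV₀, -, htriv, hres⟩ := exists_effacing p q N hN
  obtain ⟨V, hV, hn, hVV₀, hdiv⟩ := exists_normal_le_dvd_relIndex p q V₀ hV₀
  exact ⟨V, hV, hn, fun g hg => htriv g (hVV₀ hg),
    hres V₀ V le_rfl hVV₀ ⟨V, hV, le_rfl⟩ hdiv⟩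

end Final

end Fermat.Agent.TW.LEulEfface64
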