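/-
Programme TW (S56), sub-programme C (Greenberg–Wiles), brick C4-ASM (helper97):
FINAL INSTANTIATION of helper74's abstract local Euler characteristic machinery at the local
Galois group `primeLocalGaloisGroup q` with the level basis `pullBasis (primeLocalToGlobal q)` and
the mod `p` cyclotomic character, ending in the field `localEuler` of `GWAsm97.GWBricks`:
`LocalEuler q M` for good `M`.

Inputs still taken as hypotheses (owners in brackets):
* `P : PairData 𝓑q εq`                      [LD1, helper1]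
* `hFIN1` : finiteness of `H¹` of f.d. discrete local modules   [FIN]
* `hBase` : `BaseAt 𝓑q εq c V₀` for a cofinal family of normal `V₀` on which `εq = 1`  [BASE, helper10]
Already plugged in: LD2 (`LEulEfface64`), LD3 (`LEulEfface74.ld3`), ADD (`LEulDual74.chi_eq_add`),
ART (`LEulArtin64.artinReduction`).
-/
import Mathlib
import Fermat.Agent.TW.GWIface97
import Fermat.Agent.TW.LEulIface2_74
import Fermat.Agent.TW.LEulEfface74
import Fermat.Agent.TW.LEulEfface64
import Fermat.Agent.TW.LEulArtin64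
import Fermat.Agent.PT.BR.DualTwist7

set_option autoImplicit false
set_option maxHeartbeats 400000
set_option linter.unusedSectionVars false
set_option linter.style.haveILetI false

open Module ExtCitation
open Fermat.Agent.PT.PRO Fermat.Agent.PT.PRO.LevelCoh28
open Fermat.Agent.PT.BR Fermat.Agent.PT.BR.LevelBridge13
open Fermat.Agent.TW.Tate62.H0LES Fermat.Agent.TW.Tate62.EulerIneq
open Fermat.Agent.TW.Tate62.ChiAdditive
open Fermat.Agent.TW.LEulDual74 Fermat.Agent.TW.LEulIface2_74

namespace Fermat.Agent.TW.LEulAsm97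

open Fermat.Agent.TW.GWIface97

local notation "Γ" => (AlgebraicClosure ℚ ≃ₐ[ℚ] AlgebraicClosure ℚ)

variable (p : ℕ) [Fact p.Prime] (q : Nat.Primes)

/-- The level basis of the local Galois group at `q` (all open subgroups). -/
noncomputable abbrev Bq : LevelBasis (primeLocalGaloisGroup q) := pullBasis (primeLocalToGlobal q)

/-- The local mod `p` cyclotomic character at `q`. -/
noncomputable abbrev epsq : primeLocalGaloisGroup q →* (ZMod p)ˣ :=
  (cycloChar p).comp (primeLocalToGlobal q)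

/-- The constant `[ℚ_q : ℚ_p]`-term of the local Euler characteristic: `1` if `q = p`, else `0`. -/
def cq : ℕ := if (q : ℕ) = p then 1 else 0

theorem isLevelChar_epsq : IsLevelChar (Bq q).sets (epsq p q) :=
  ⟨(Fermat.Agent.S14.Fields.Kz p).fixingSubgroup.comap (primeLocalToGlobal q),
    ⟨Fermat.Agent.S14.Fields.Kz p, inferInstance, rfl⟩,
    fun _ hs => DualTwist7.cycloChar_eq_one_of_mem_fixingSubgroup_Kz p hs⟩

section Abstract

variable {p q}
variable (P : PairData (Bq q) (epsq p q))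
  (hFIN1 : ∀ X : Rep.{0} (ZMod p) (primeLocalGaloisGroup q), FiniteDimensional (ZMod p) X →
    IsDiscrete (Bq q).sets X → FiniteDimensional (ZMod p) (H1 (Bq q) X))

include P hFIN1 in
/-- LD2 + LD3: finiteness of `H²` and `h² = h⁰` of the dual, for all f.d. discrete local modules. -/
theorem h2_fin_dual (X : Rep.{0} (ZMod p) (primeLocalGaloisGroup q))
    (hXfd : FiniteDimensional (ZMod p) X) (hX : IsDiscrete (Bq q).sets X) :
    FiniteDimensional (ZMod p) (H2 (Bq q) X) ∧
      finrank (ZMod p) (H2 (Bq q) X) = finrank (ZMod p) (H0 (X.dualTwist (epsq p q))) := by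
  haveI := hXfd
  obtain ⟨V₀, hV₀, -, htriv, hres⟩ := LEulEfface64.exists_effacing p q X hX
  obtain ⟨Uε, hUε, hε1⟩ := isLevelChar_epsq p q
  obtain ⟨W, hW, hWle⟩ := (Bq q).isBasis.directed V₀ hV₀ Uε hUε
  obtain ⟨V₁, hV₁, hV₁le, hV₁n⟩ := (Bq q).isBasis.normalCore W hW
  obtain ⟨V, hV, hVn, hVle, hdiv⟩ := LEulEfface64.exists_normal_le_dvd_relIndex p q V₁ hV₁
  haveI := hV₁n
  haveI := hVn
  have h0 : ((V.relIndex V₁ : ℕ) : ZMod p) = 0 := (ZMod.natCast_eq_zero_iff _ _).2 hdiv
  have hres' : ∀ x : H2 (Bq q) X, resH2 (Bq q) V X x = 0 := by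
    intro x
    rw [hres V₁ V (fun v hv => (hWle (hV₁le hv)).1) hVle ⟨V, hV, le_rfl⟩ hdiv]
    rfl
  exact LEulEfface74.ld3 P hFIN1 X hX V₁ V hV₁ hV hVle
    (fun v hv n => htriv v (hWle (hV₁le hv)).1 n) (fun v hv => hε1 v (hWle (hV₁le hv)).2) h0 hres'

include P hFIN1 in
theorem finCoh : FinCoh (k := ZMod p) (Bq q) := fun X hXfd hX =>
  ⟨hFIN1 X hXfd hX, (h2_fin_dual P hFIN1 X hXfd hX).1⟩

include P hFIN1 in
theorem h2Dual : H2Dual (k := ZMod p) (Bq q) (epsq p q) := fun X hXfd hX =>
  (h2_fin_dual P hFIN1 X hXfd hX).2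

include P hFIN1 in
theorem chiAdd : ChiAdd (p := p) (Bq q) := by
  intro A B C φ hφ ψ hψ hinj hsurj hex hBfd hB
  haveI := hBfd
  exact chi_eq_add P (isLevelChar_epsq p q) (finCoh P hFIN1) (h2Dual P hFIN1) φ hφ ψ hψ hinj hsurj
    hex hB

variable (hBase : ∀ V ∈ (Bq q).sets, ∃ V₀ ∈ (Bq q).sets, V₀ ≤ V ∧ V₀.Normal ∧
    (∀ v ∈ V₀, epsq p q v = 1) ∧ BaseAt (Bq q) (epsq p q) (cq p q) V₀)

include P hFIN1 hBase in
/-- **Tate's local Euler characteristic formula**, abstract form. -/
theorem chi_formula (X : Rep.{0} (ZMod p) (primeLocalGaloisGroup q))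
    (hXfd : FiniteDimensional (ZMod p) X) (hX : IsDiscrete (Bq q).sets X) :
    chi (Bq q) X + (cq p q : ℤ) * finrank (ZMod p) X = 0 := by
  haveI := hXfd
  obtain ⟨U, hU, -, hfix⟩ := exists_normal_acting_trivially (Bq q).isBasis hX
  obtain ⟨V₀, hV₀, hle, hn, hε, hb⟩ := hBase U hU
  exact LEulArtin64.artinReduction (p := p) (primeLocalGaloisGroup q) (Bq q) (epsq p q) (cq p q)
    (chiAdd P hFIN1) (finCoh P hFIN1) (h2Dual P hFIN1) V₀ hV₀ hn hε hb X hXfd
    (fun v hv m => hfix v (hle hv) m)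

end Abstract

/-! ### The final form, in the vocabulary of `GWIface97` -/

section Final

/-- Restriction commutes with the twisted dual. -/
theorem res_dualTwist {G : Type} [Group G] (r : G →* Γ) (χ : Γ →* (ZMod p)ˣ)
    (M : Rep.{0} (ZMod p) Γ) :
    Rep.res r (M.dualTwist χ) = (Rep.res r M).dualTwist (χ.comp r) := by
  have h : (M.ρ.dual.twist χ).comp r = ((Rep.res r M).ρ.dual.twist (χ.comp r)) := by
    ext g f
    simp [Representation.twist_apply_apply, Representation.dual_apply]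
  show Rep.of ((M.ρ.dual.twist χ).comp r) = Rep.of ((Rep.res r M).ρ.dual.twist (χ.comp r))
  rw [h]

theorem h0l_dual_eq (M : Rep.{0} (ZMod p) Γ) :
    h0l q (dual M) =
      finrank (ZMod p) (H0 ((Rep.res (primeLocalToGlobal q) M).dualTwist (epsq p q))) := by
  show finrank (ZMod p) (H0 (Rep.res (primeLocalToGlobal q) (dual M))) = _
  exact congrArg (fun X : Rep.{0} (ZMod p) (primeLocalGaloisGroup q) => finrank (ZMod p) ↥(H0 X))
    (res_dualTwist p (primeLocalToGlobal q) (cycloChar p) M)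

variable {p q}

/-- **(C4) `LocalEuler q M` for good `M`** from the three remaining inputs of C4. -/
theorem localEuler_of (P : PairData (Bq q) (epsq p q))
    (hFIN1 : ∀ X : Rep.{0} (ZMod p) (primeLocalGaloisGroup q), FiniteDimensional (ZMod p) X →
      IsDiscrete (Bq q).sets X → FiniteDimensional (ZMod p) (H1 (Bq q) X))
    (hBase : ∀ V ∈ (Bq q).sets, ∃ V₀ ∈ (Bq q).sets, V₀ ≤ V ∧ V₀.Normal ∧
      (∀ v ∈ V₀, epsq p q v = 1) ∧ BaseAt (Bq q) (epsq p q) (cq p q) V₀)
    (S : Finset Nat.Primes) (M : Rep.{0} (ZMod p) Γ) (hM : IsGood S M) : LocalEuler q M := by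
  haveI := hM.fin
  have hXfd : FiniteDimensional (ZMod p) (Rep.res (primeLocalToGlobal q) M) :=
    inferInstanceAs (FiniteDimensional (ZMod p) M)
  have hX : IsDiscrete (Bq q).sets (Rep.res (primeLocalToGlobal q) M) :=
    isDiscrete_pullSets M (primeLocalToGlobal q) hM.smooth
  have h1 := hFIN1 _ hXfd hX
  obtain ⟨h2, h3⟩ := h2_fin_dual P hFIN1 _ hXfd hX
  have h4 := chi_formula P hFIN1 hBase _ hXfd hX
  have h5 : finrank (ZMod p) (H2l q M) = h0l q (dual M) := by
    rw [h0l_dual_eq]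
    exact h3
  refine ⟨h1, h2, h5, ?_⟩
  have h6 : finrank (ZMod p) (Rep.res (primeLocalToGlobal q) M) = finrank (ZMod p) M := rfl
  have h7 : h0l q M = finrank (ZMod p) (H0 (Rep.res (primeLocalToGlobal q) M)) := rfl
  unfold chi at h4
  rw [h6, ← h7] at h4
  unfold cq at h4
  show finrank (ZMod p) (H1 (Bq q) (Rep.res (primeLocalToGlobal q) M)) =
    h0l q M + finrank (ZMod p) (H2 (Bq q) (Rep.res (primeLocalToGlobal q) M)) +
      (if (q : ℕ) = p then finrank (ZMod p) M else 0)
  split_ifs at h4 ⊢ with hqp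
  · push_cast at h4
    omega
  · push_cast at h4
    omega

end Final

end Fermat.Agent.TW.LEulAsm97
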