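/-
Programme TW (S56), sub-programme C4 (local Euler characteristic, architect helper74), brick C4-LFb
(helper49), E-LEVEL TRANSPORT of `LEulUnitsB49` to the model of `PT/LOC/Interface12`:
`E` a `p`-adic field, `𝒪 = intRing p E`, `ord : Eˣ → ℤ`, `e = ord p` (absolute ramification index).

* `mPow n : AddSubgroup E`  (`= {x | x = 0 ∨ n ≤ ord x}`, the image of `𝔪^n`): `mem_mPow_iff`,
  `mPow_anti`, `mul_mem_mPow`, `algEquiv_mem_mPow_iff`, `natCast_mul_mem_mPow_iff`
  (multiplication by `p` is a bijection `mPow n → mPow (n + e)`);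
* `UE n : Subgroup Eˣ` (`= {u ∈ unitGroup | u - 1 ∈ mPow n}`): `mem_UE_iff`, `mem_UE_iff_of_pos`,
  `UE_zero`, `UE_anti`, `algEquiv_mem_UE_iff`, `mul_sub_one_sub_mem_mPow`, `exists_mem_UE_sub_one_eq`;
* `powP_bijective` : `u ↦ u ^ p` is a bijection `UE n → UE (n + e)` for `e < (p - 1) n`;
* `finite_unitGroup_quot_UE` : `UE n` has finite index in `unitGroup`.
-/
import Mathlib
import Fermat.Agent.PT.LOC.Interface12
import Fermat.Agent.PT.LOC.Structure14
import Fermat.Agent.PT.LOC.StructureTower27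
import Fermat.Agent.PT.LOC.StructureTowerEF27
import Fermat.Agent.TW.LEulUnitsB49

set_option autoImplicit false
set_option linter.unusedSectionVars false

open scoped Fermat.Agent.PT.LOC.Interface12
open Fermat.Agent.PT.LOC.Interface12 Fermat.Agent.PT.LOC.Structure14
  Fermat.Agent.PT.LOC.StructureTower27 Fermat.Agent.PT.LOC.StructureTowerEF27
  Fermat.Agent.TW.LEulUnitsB49 IsLocalRing

namespace Fermat.Agent.TW.LEulUnitsB49E

noncomputable section

variable (p : ℕ) [Fact p.Prime] (E : Type) [Field E] [Algebra ℚ_[p] E] [FiniteDimensional ℚ_[p] E]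

/-! ### The subgroups `𝔪^n` of `E` -/

/-- The image of `𝔪^n` in `E`. -/
def mPow (n : ℕ) : AddSubgroup E :=
  ((maximalIdeal (intRing p E)) ^ n).toAddSubgroup.map (intRing p E).val.toAddMonoidHom

theorem mem_mPow_iff_exists {n : ℕ} {x : E} :
    x ∈ mPow p E n ↔ ∃ y : intRing p E, y ∈ maximalIdeal (intRing p E) ^ n ∧ (y : E) = x := by
  rw [mPow, AddSubgroup.mem_map]
  rfl

theorem coe_mem_mPow_iff {n : ℕ} (y : intRing p E) :
    (y : E) ∈ mPow p E n ↔ y ∈ maximalIdeal (intRing p E) ^ n := by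
  rw [mem_mPow_iff_exists]
  constructor
  · rintro ⟨y', hy', h⟩
    have : y' = y := Subtype.ext h
    rwa [← this]
  · intro h
    exact ⟨y, h, rfl⟩

/-- `x ∈ mPow n ↔ x = 0 ∨ n ≤ ord x`. -/
theorem mem_mPow_iff {n : ℕ} {x : E} :
    x ∈ mPow p E n ↔ ∀ hx : x ≠ 0, (n : ℤ) ≤ ord p E (Units.mk0 x hx) := by
  constructor
  · intro h hx
    obtain ⟨y, hy, rfl⟩ := (mem_mPow_iff_exists p E).1 h
    have hO : ((Units.mk0 (y : E) hx : Eˣ) : E) ∈ intRing p E := y.2
    exact (mem_maximalIdeal_pow_iff p E (Units.mk0 (y : E) hx) hO n).1 hy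
  · intro h
    by_cases hx : x = 0
    · rw [hx]; exact zero_mem _
    · have h1 := h hx
      have hO : ((Units.mk0 x hx : Eˣ) : E) ∈ intRing p E :=
        (mem_intRing_iff_ord p E (Units.mk0 x hx)).2 (le_trans (Int.natCast_nonneg n) h1)
      have h2 := (mem_maximalIdeal_pow_iff p E (Units.mk0 x hx) hO n).2 h1
      exact (mem_mPow_iff_exists p E).2 ⟨⟨x, hO⟩, h2, rfl⟩

theorem mem_mPow_of_ord {n : ℕ} (u : Eˣ) (h : (n : ℤ) ≤ ord p E u) : (u : E) ∈ mPow p E n := by
  rw [mem_mPow_iff]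
  intro hx
  have : Units.mk0 (u : E) hx = u := Units.ext rfl
  rwa [this]

theorem ord_of_mem_mPow {n : ℕ} (u : Eˣ) (h : (u : E) ∈ mPow p E n) : (n : ℤ) ≤ ord p E u := by
  have := (mem_mPow_iff p E).1 h u.ne_zero
  have h2 : Units.mk0 (u : E) u.ne_zero = u := Units.ext rfl
  rwa [h2] at this

theorem mPow_anti {m n : ℕ} (h : m ≤ n) : mPow p E n ≤ mPow p E m := by
  intro x hx
  obtain ⟨y, hy, rfl⟩ := (mem_mPow_iff_exists p E).1 hx
  exact (coe_mem_mPow_iff p E y).2 (Ideal.pow_le_pow_right h hy)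

theorem mPow_zero_eq (x : E) : x ∈ mPow p E 0 ↔ x ∈ intRing p E := by
  constructor
  · intro h
    obtain ⟨y, -, rfl⟩ := (mem_mPow_iff_exists p E).1 h
    exact y.2
  · intro h
    exact (mem_mPow_iff_exists p E).2 ⟨⟨x, h⟩, by rw [pow_zero, Ideal.one_eq_top]; trivial, rfl⟩

theorem mul_mem_mPow {a b : ℕ} {x y : E} (hx : x ∈ mPow p E a) (hy : y ∈ mPow p E b) :
    x * y ∈ mPow p E (a + b) := by
  obtain ⟨x', hx', rfl⟩ := (mem_mPow_iff_exists p E).1 hx
  obtain ⟨y', hy', rfl⟩ := (mem_mPow_iff_exists p E).1 hy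
  have : ((x' * y' : intRing p E) : E) ∈ mPow p E (a + b) :=
    (coe_mem_mPow_iff p E _).2 (by rw [pow_add]; exact Ideal.mul_mem_mul hx' hy')
  exact this

/-- Automorphisms of `E` preserve `mPow n`. -/
theorem algEquiv_mem_mPow_iff (σ : E ≃ₐ[ℚ_[p]] E) {n : ℕ} {x : E} :
    σ x ∈ mPow p E n ↔ x ∈ mPow p E n := by
  rw [mem_mPow_iff, mem_mPow_iff]
  have key : ∀ (hx : x ≠ 0) (hσ : σ x ≠ 0),
      ord p E (Units.mk0 (σ x) hσ) = ord p E (Units.mk0 x hx) := by
    intro hx hσ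
    have h1 : Units.mk0 (σ x) hσ = Units.map (σ : E →* E) (Units.mk0 x hx) := Units.ext rfl
    rw [h1, ord_algEquiv p ℚ_[p] E σ]
  constructor
  · intro h hx
    have hσ : σ x ≠ 0 := (map_ne_zero_iff σ σ.injective).mpr hx
    rw [← key hx hσ]
    exact h hσ
  · intro h hσ
    have hx : x ≠ 0 := (map_ne_zero_iff σ σ.injective).mp hσ
    rw [key hx hσ]
    exact h hx

/-! ### The absolute ramification index -/

theorem natCast_p_ne_zero : (p : E) ≠ 0 := by
  have h : (p : E) = algebraMap ℚ_[p] E (p : ℚ_[p]) := by simp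
  rw [h, map_ne_zero_iff _ (algebraMap ℚ_[p] E).injective]
  exact_mod_cast (Fact.out : p.Prime).ne_zero

/-- `p` as a unit of `E`. -/
def pUnit : Eˣ := Units.mk0 (p : E) (natCast_p_ne_zero p E)

theorem ord_pUnit_pos : 0 < ord p E (pUnit p E) := by
  have hmem : (p : intRing p E) ∈ maximalIdeal (intRing p E) := by
    rw [← maxId_eq_maximalIdeal]; exact natCast_mem_maxId p E
  have hO : ((pUnit p E : Eˣ) : E) ∈ intRing p E := natCast_q_mem p E
  have h2 : (⟨((pUnit p E : Eˣ) : E), hO⟩ : intRing p E) = (p : intRing p E) := Subtype.ext rfl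
  have := (mem_maximalIdeal_iff p E (pUnit p E) hO).1 (by rw [h2]; exact hmem)
  exact this

/-- The absolute ramification index `e = ord p`. -/
def eAbs : ℕ := (ord p E (pUnit p E)).toNat

theorem eAbs_cast : (eAbs p E : ℤ) = ord p E (pUnit p E) :=
  Int.toNat_of_nonneg (ord_pUnit_pos p E).le

theorem eAbs_pos : 0 < eAbs p E := by
  have := ord_pUnit_pos p E
  rw [← eAbs_cast] at this
  exact_mod_cast this

/-- Multiplication by `p` maps `mPow n` onto `mPow (n + e)`. -/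
theorem natCast_mul_mem_mPow_iff {n : ℕ} {x : E} :
    (p : E) * x ∈ mPow p E (n + eAbs p E) ↔ x ∈ mPow p E n := by
  rw [mem_mPow_iff, mem_mPow_iff]
  have key : ∀ (hx : x ≠ 0) (hpx : (p : E) * x ≠ 0),
      ord p E (Units.mk0 ((p : E) * x) hpx) = eAbs p E + ord p E (Units.mk0 x hx) := by
    intro hx hpx
    have h1 : Units.mk0 ((p : E) * x) hpx = pUnit p E * Units.mk0 x hx := Units.ext rfl
    rw [h1, ord_mul, eAbs_cast]
  constructor
  · intro h hx
    have hpx : (p : E) * x ≠ 0 := mul_ne_zero (natCast_p_ne_zero p E) hx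
    have := h hpx
    rw [key hx hpx] at this
    push_cast at this
    linarith
  · intro h hpx
    have hx : x ≠ 0 := right_ne_zero_of_mul hpx
    rw [key hx hpx]
    have := h hx
    push_cast
    linarith

theorem exists_natCast_mul_eq {n : ℕ} {y : E} (hy : y ∈ mPow p E (n + eAbs p E)) :
    ∃ x ∈ mPow p E n, (p : E) * x = y := by
  refine ⟨(p : E)⁻¹ * y, ?_, by rw [← mul_assoc, mul_inv_cancel₀ (natCast_p_ne_zero p E), one_mul]⟩
  rw [← natCast_mul_mem_mPow_iff, ← mul_assoc, mul_inv_cancel₀ (natCast_p_ne_zero p E), one_mul]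
  exact hy

/-- `(p) = 𝔪^e` in `𝒪`. -/
theorem span_natCast_eq :
    Ideal.span {((p : ℕ) : intRing p E)} = maximalIdeal (intRing p E) ^ eAbs p E := by
  ext y
  rw [← coe_mem_mPow_iff, Ideal.mem_span_singleton]
  constructor
  · rintro ⟨z, rfl⟩
    have h : (((p : intRing p E) * z : intRing p E) : E) = (p : E) * (z : E) := rfl
    rw [h]
    have := (natCast_mul_mem_mPow_iff p E (n := 0) (x := (z : E))).2
      ((mPow_zero_eq p E _).2 z.2)
    rwa [zero_add] at this
  · intro h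
    have h' : (y : E) ∈ mPow p E (0 + eAbs p E) := by rwa [zero_add]
    obtain ⟨x, hx, hxy⟩ := exists_natCast_mul_eq p E h'
    have hxO : x ∈ intRing p E := (mPow_zero_eq p E x).1 hx
    exact ⟨⟨x, hxO⟩, Subtype.ext hxy.symm⟩

/-! ### The higher unit groups of `E` -/

/-- `𝒪ˣ → Eˣ`. -/
def incl : (intRing p E)ˣ →* Eˣ := Units.map ((intRing p E).val : intRing p E →* E)

theorem coe_incl (w : (intRing p E)ˣ) : ((incl p E w : Eˣ) : E) = ((w : intRing p E) : E) := rfl

theorem incl_injective : Function.Injective (incl p E) := by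
  intro u v h
  apply Units.ext
  apply Subtype.ext
  exact congrArg (fun z : Eˣ => (z : E)) h

theorem incl_mem_unitGroup (w : (intRing p E)ˣ) : incl p E w ∈ unitGroup p E := by
  refine ⟨(w : intRing p E).2, ?_⟩
  rw [← map_inv]
  exact ((w⁻¹ : (intRing p E)ˣ) : intRing p E).2

theorem exists_incl_eq {u : Eˣ} (hu : u ∈ unitGroup p E) :
    ∃ w : (intRing p E)ˣ, incl p E w = u := by
  refine ⟨⟨⟨(u : E), hu.1⟩, ⟨((u⁻¹ : Eˣ) : E), hu.2⟩, ?_, ?_⟩, ?_⟩
  · apply Subtype.ext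
    show (u : E) * ((u⁻¹ : Eˣ) : E) = 1
    rw [← Units.val_mul, mul_inv_cancel, Units.val_one]
  · apply Subtype.ext
    show ((u⁻¹ : Eˣ) : E) * (u : E) = 1
    rw [← Units.val_mul, inv_mul_cancel, Units.val_one]
  · apply Units.ext
    rfl

/-- The higher unit group `U^(n)` of `E` (`U^(0)` = units of `𝒪`). -/
def UE (n : ℕ) : Subgroup Eˣ := (higherUnits (maximalIdeal (intRing p E)) n).map (incl p E)

theorem mem_UE_iff {n : ℕ} {u : Eˣ} :
    u ∈ UE p E n ↔ u ∈ unitGroup p E ∧ (u : E) - 1 ∈ mPow p E n := by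
  constructor
  · rintro ⟨w, hw, rfl⟩
    refine ⟨incl_mem_unitGroup p E w, ?_⟩
    have h : ((incl p E w : Eˣ) : E) - 1 = (((w : intRing p E) - 1 : intRing p E) : E) := rfl
    rw [h, coe_mem_mPow_iff]
    exact hw
  · rintro ⟨hu, h⟩
    obtain ⟨w, rfl⟩ := exists_incl_eq p E hu
    refine ⟨w, ?_, rfl⟩
    have h' : ((incl p E w : Eˣ) : E) - 1 = (((w : intRing p E) - 1 : intRing p E) : E) := rfl
    rw [h', coe_mem_mPow_iff] at h
    exact h

theorem one_add_isUnit {y : intRing p E} (hy : y ∈ maximalIdeal (intRing p E)) :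
    IsUnit (1 + y) := by
  by_contra hnu
  have h2 : 1 + y ∈ maximalIdeal (intRing p E) := (mem_maximalIdeal _).mpr hnu
  have h3 : (1 : intRing p E) ∈ maximalIdeal (intRing p E) := by
    have := sub_mem h2 hy
    rwa [add_sub_cancel_right] at this
  exact (Ideal.ne_top_iff_one _).mp (maximalIdeal.isMaximal (intRing p E)).ne_top h3

/-- For `x ∈ mPow n`, `n ≥ 1`, there is `u ∈ UE n` with `u - 1 = x`. -/
theorem exists_mem_UE_sub_one_eq {n : ℕ} (hn : 1 ≤ n) {x : E} (hx : x ∈ mPow p E n) :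
    ∃ u ∈ UE p E n, (u : E) - 1 = x := by
  obtain ⟨y, hy, rfl⟩ := (mem_mPow_iff_exists p E).1 hx
  have hym : y ∈ maximalIdeal (intRing p E) := Ideal.pow_le_self (by omega) hy
  obtain ⟨w, hw⟩ := one_add_isUnit p E hym
  refine ⟨incl p E w, ⟨w, ?_, rfl⟩, ?_⟩
  · show (w : intRing p E) - 1 ∈ maximalIdeal (intRing p E) ^ n
    rw [hw, add_sub_cancel_left]; exact hy
  · rw [coe_incl, hw]
    show ((1 : E) + (y : E)) - 1 = (y : E)
    ring

theorem mem_UE_iff_of_pos {n : ℕ} (hn : 1 ≤ n) {u : Eˣ} :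
    u ∈ UE p E n ↔ (u : E) - 1 ∈ mPow p E n := by
  constructor
  · intro h
    exact ((mem_UE_iff p E).1 h).2
  · intro h
    obtain ⟨u', hu', h'⟩ := exists_mem_UE_sub_one_eq p E hn h
    have : u' = u := Units.ext (by linear_combination h')
    rwa [← this]

theorem UE_zero : UE p E 0 = unitGroup p E := by
  ext u
  rw [mem_UE_iff]
  constructor
  · exact fun h => h.1
  · intro h
    refine ⟨h, (mPow_zero_eq p E _).2 ?_⟩
    exact sub_mem h.1 (one_mem _)

theorem UE_anti {m n : ℕ} (h : m ≤ n) : UE p E n ≤ UE p E m := by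
  intro u hu
  rw [mem_UE_iff] at hu ⊢
  exact ⟨hu.1, mPow_anti p E h hu.2⟩

theorem UE_le_unitGroup (n : ℕ) : UE p E n ≤ unitGroup p E :=
  fun _ hu => ((mem_UE_iff p E).1 hu).1

/-- Automorphisms of `E` preserve `UE n`. -/
theorem algEquiv_mem_UE_iff (σ : E ≃ₐ[ℚ_[p]] E) {n : ℕ} {u : Eˣ} :
    Units.map (σ : E →* E) u ∈ UE p E n ↔ u ∈ UE p E n := by
  rw [mem_UE_iff, mem_UE_iff, unitsMap_mem_unitGroup_iff p ℚ_[p] E σ u]
  have h : ((Units.map (σ : E →* E) u : Eˣ) : E) - 1 = σ ((u : E) - 1) := by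
    rw [map_sub, map_one]; rfl
  rw [h, algEquiv_mem_mPow_iff]

/-- `(u u' - 1) - ((u - 1) + (u' - 1)) ∈ mPow (n + k)` for `u, u' ∈ UE n`, `k ≤ n`. -/
theorem mul_sub_one_sub_mem_mPow {n k : ℕ} (hk : k ≤ n) {u u' : Eˣ} (hu : u ∈ UE p E n)
    (hu' : u' ∈ UE p E n) :
    (((u * u' : Eˣ) : E) - 1) - (((u : E) - 1) + ((u' : E) - 1)) ∈ mPow p E (n + k) := by
  have h : (((u * u' : Eˣ) : E) - 1) - (((u : E) - 1) + ((u' : E) - 1))
      = ((u : E) - 1) * ((u' : E) - 1) := by rw [Units.val_mul]; ring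
  rw [h]
  exact mPow_anti p E (by omega) (mul_mem_mPow p E ((mem_UE_iff p E).1 hu).2
    ((mem_UE_iff p E).1 hu').2)

/-! ### The `p`-th power map -/

theorem pow_mem_UE {n : ℕ} (hn : eAbs p E ≤ (p - 1) * n) {u : Eˣ} (hu : u ∈ UE p E n) :
    u ^ p ∈ UE p E (n + eAbs p E) := by
  obtain ⟨w, hw, rfl⟩ := hu
  refine ⟨w ^ p, ?_, map_pow _ _ _⟩
  exact pow_prime_mem_higherUnits _ (Fact.out : p.Prime)
    (natCast_mem_pow (span_natCast_eq p E)) hn hw

/-- The `p`-th power map `UE n → UE (n + e)`. -/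
def powP {n : ℕ} (hn : eAbs p E ≤ (p - 1) * n) : UE p E n →* UE p E (n + eAbs p E) where
  toFun u := ⟨(u : Eˣ) ^ p, pow_mem_UE p E hn u.2⟩
  map_one' := by
    apply Subtype.ext
    show ((1 : UE p E n) : Eˣ) ^ p = 1
    rw [Subgroup.coe_one, one_pow]
  map_mul' u v := by
    apply Subtype.ext
    show ((u * v : UE p E n) : Eˣ) ^ p = (u : Eˣ) ^ p * (v : Eˣ) ^ p
    rw [Subgroup.coe_mul, mul_pow]

theorem powP_coe {n : ℕ} (hn : eAbs p E ≤ (p - 1) * n) (u : UE p E n) :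
    ((powP p E hn u : UE p E (n + eAbs p E)) : Eˣ) = (u : Eˣ) ^ p := rfl

/-- `UE n` has no `p`-torsion for `e < (p - 1) n`. -/
theorem eq_one_of_pow_eq_one {n : ℕ} (hn : eAbs p E < (p - 1) * n) {u : Eˣ}
    (hu : u ∈ UE p E n) (hup : u ^ p = 1) : u = 1 := by
  obtain ⟨w, hw, rfl⟩ := hu
  have h1 : w ^ p = 1 := incl_injective p E (by rw [map_pow, hup, map_one])
  rw [eq_one_of_pow_prime_eq_one (Fact.out : p.Prime) (span_natCast_eq p E) hn hw h1, map_one]

/-- Every element of `UE (n + e)` is a `p`-th power of an element of `UE n`, `e < (p - 1) n`. -/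
theorem exists_pow_eq {n : ℕ} (hn : eAbs p E < (p - 1) * n) {v : Eˣ}
    (hv : v ∈ UE p E (n + eAbs p E)) : ∃ u ∈ UE p E n, u ^ p = v := by
  obtain ⟨w, hw, rfl⟩ := hv
  obtain ⟨t, ht, htw⟩ := exists_pow_prime_eq (Fact.out : p.Prime) (span_natCast_eq p E) hn hw
  exact ⟨incl p E t, ⟨t, ht, rfl⟩, by rw [← map_pow, htw]⟩

/-- **C4-LFb (4).**  `u ↦ u ^ p` is a bijection `UE n → UE (n + e)` for `e < (p - 1) n`. -/
theorem powP_bijective {n : ℕ} (hn : eAbs p E < (p - 1) * n) :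
    Function.Bijective (powP p E hn.le) := by
  constructor
  · rw [injective_iff_map_eq_one]
    intro u hu
    have h1 : (u : Eˣ) ^ p = 1 := congrArg (fun x : UE p E (n + eAbs p E) => (x : Eˣ)) hu
    exact Subtype.ext (eq_one_of_pow_eq_one p E hn u.2 h1)
  · intro v
    obtain ⟨u, hu, huv⟩ := exists_pow_eq p E hn v.2
    exact ⟨⟨u, hu⟩, Subtype.ext huv⟩

/-! ### Finite index -/

/-- **C4-LFb (5).**  `UE n` has finite index in the unit group. -/
theorem finite_unitGroup_quot_UE (n : ℕ) :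
    Finite (↥(unitGroup p E) ⧸ (UE p E n).subgroupOf (unitGroup p E)) := by
  have hfin0 : Finite (intRing p E ⧸ maximalIdeal (intRing p E)) := by
    rw [← maxId_eq_maximalIdeal]; infer_instance
  have hfin : Finite (intRing p E ⧸ maximalIdeal (intRing p E) ^ n) :=
    Ideal.finite_quotient_pow (IsNoetherian.noetherian _) n
  have hq : Finite ((intRing p E)ˣ ⧸ higherUnits (maximalIdeal (intRing p E)) n) :=
    finite_quotient_higherUnits _ n
  let f : (intRing p E)ˣ →* ↥(unitGroup p E) :=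
    (incl p E).codRestrict (unitGroup p E) (incl_mem_unitGroup p E)
  have hf : Function.Surjective f := by
    rintro ⟨u, hu⟩
    obtain ⟨w, hw⟩ := exists_incl_eq p E hu
    exact ⟨w, Subtype.ext hw⟩
  have hle : higherUnits (maximalIdeal (intRing p E)) n ≤
      ((UE p E n).subgroupOf (unitGroup p E)).comap f := by
    intro w hw
    show ((f w : ↥(unitGroup p E)) : Eˣ) ∈ UE p E n
    exact ⟨w, hw, rfl⟩
  let g := QuotientGroup.map (higherUnits (maximalIdeal (intRing p E)) n)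
    ((UE p E n).subgroupOf (unitGroup p E)) f hle
  have hg : Function.Surjective g := by
    intro x
    induction x using QuotientGroup.induction_on with
    | H u =>
      obtain ⟨w, rfl⟩ := hf u
      exact ⟨QuotientGroup.mk w, rfl⟩
  exact Finite.of_surjective g hg

end

end Fermat.Agent.TW.LEulUnitsB49E
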