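/-
Programme TW (S56), sub-programme C4 (local Euler characteristic, architect helper74), brick C4-LFb
(helper49), COUNTING FORM: proof of the interface shape `LEulIface74.LFbCount`.

For `q = p` and `n ≥ e + 1` (`e = ord p` the absolute ramification index), `S ↔ U⁽ⁿ⁾ = 1 + 𝔪ⁿ`
inside a model `X` of `Eˣ` and `Y` a model of `𝔪ⁿ`:
* `S[p] = 0` (`U⁽ⁿ⁾` has no `p`-torsion), so `cnt A (S[p]) = 1`;
* `u ↦ u - 1` induces a `ℤ[Δ]`-linear isomorphism `S/pS ≃ Y/pY` (`cotEquiv`), because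
  `pS ↔ U⁽ⁿ⁺ᵉ⁾` (`powP_bijective`) and `pY ↔ 𝔪ⁿ⁺ᵉ`, so `cnt A (S/pS) = cnt A (Y/pY)`.
-/
import Mathlib
import Fermat.Agent.TW.LEulIface74
import Fermat.Agent.TW.LEulUnitsB49E
import Fermat.Agent.TW.LocECGrpRing74

set_option autoImplicit false
set_option linter.unusedSectionVars false

open Fermat.Agent.PT.LOC.Interface12 Fermat.Agent.PT.LOC.Structure14
open Fermat.Agent.TW.LocECCount74 Fermat.Agent.TW.LocECGrpRing74
open Fermat.Agent.TW.LEulUnitsB49E

namespace Fermat.Agent.TW.LEulCountB49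

noncomputable section

variable (p : ℕ) [Fact p.Prime] (E : Type) [Field E] [Algebra ℚ_[p] E] [FiniteDimensional ℚ_[p] E]

/-- The interface `mPow` is the `mPow` of `LEulUnitsB49E`. -/
theorem mPow_eq (n : ℕ) : LEulIface74.mPow p E n = LEulUnitsB49E.mPow p E n := rfl

/-- The interface `UE` is the `UE` of `LEulUnitsB49E`. -/
theorem UE_eq (n : ℕ) : LEulIface74.UE p E n = LEulUnitsB49E.UE p E n := rfl

variable {p E}
variable {Δ : Type} [Group Δ] (ι : Δ →* (E ≃ₐ[ℚ_[p]] E))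

/-! ### The unit attached to an element of a units model -/

section UnitsModel

variable {X : Type} [AddCommGroup X] (eX : X ≃+ Additive Eˣ)

/-- The unit of `E` attached to an element of the model. -/
def uOf (x : X) : Eˣ := Additive.toMul (eX x)

theorem uOf_add (x x' : X) : uOf eX (x + x') = uOf eX x * uOf eX x' := by
  unfold uOf
  rw [map_add, toMul_add]

theorem uOf_zero : uOf eX 0 = 1 := by
  unfold uOf
  rw [map_zero, toMul_zero]

theorem uOf_nsmul (k : ℕ) (x : X) : uOf eX (k • x) = uOf eX x ^ k := by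
  unfold uOf
  rw [map_nsmul, toMul_nsmul]

theorem uOf_eq_one_iff (x : X) : uOf eX x = 1 ↔ x = 0 := by
  constructor
  · intro h
    apply eX.injective
    rw [map_zero]
    exact h
  · rintro rfl
    exact uOf_zero eX

theorem uOf_symm (u : Eˣ) : uOf eX (eX.symm (Additive.ofMul u)) = u := by
  unfold uOf
  rw [AddEquiv.apply_symm_apply]
  rfl

theorem uOf_injective : Function.Injective (uOf eX) := fun _ _ h => eX.injective h

variable [Module (MonoidAlgebra ℤ Δ) X]

theorem uOf_of_smul (hX : LEulIface74.IsUnitsModel p E ι X eX) (δ : Δ) (x : X) :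
    uOf eX (MonoidAlgebra.of ℤ Δ δ • x) =
      Units.map (((ι δ : E ≃ₐ[ℚ_[p]] E) : E →+* E) : E →* E) (uOf eX x) :=
  congrArg Additive.toMul (hX δ x)

end UnitsModel

/-! ### Lattice models -/

section LatticeModel

variable {n : ℕ} {Y : Type} [AddCommGroup Y] (eY : Y ≃+ LEulIface74.mPow p E n)

theorem coe_eY_nsmul (k : ℕ) (y : Y) :
    ((eY (k • y) : LEulIface74.mPow p E n) : E) = (k : E) * ((eY y : LEulIface74.mPow p E n) : E) := by
  rw [map_nsmul, AddSubgroup.coe_nsmul, nsmul_eq_mul]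

variable [Module (MonoidAlgebra ℤ Δ) Y]

/-- `pY` corresponds to `𝔪ⁿ⁺ᵉ`. -/
theorem mem_imP_iff (y : Y) :
    y ∈ imP (MonoidAlgebra ℤ Δ) p Y ↔
      ((eY y : LEulIface74.mPow p E n) : E) ∈ LEulUnitsB49E.mPow p E (n + eAbs p E) := by
  constructor
  · rintro ⟨z, rfl⟩
    rw [pMul_apply, coe_eY_nsmul]
    exact (natCast_mul_mem_mPow_iff p E).2 (eY z).2
  · intro h
    obtain ⟨z, hz, hzy⟩ := exists_natCast_mul_eq p E h
    refine ⟨eY.symm ⟨z, hz⟩, ?_⟩
    apply eY.injective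
    apply Subtype.ext
    rw [pMul_apply, coe_eY_nsmul, AddEquiv.apply_symm_apply]
    exact hzy

end LatticeModel

/-! ### The comparison `S/pS ≃ Y/pY` -/

section Compare

variable {n : ℕ}
variable {X : Type} [AddCommGroup X] [Module (MonoidAlgebra ℤ Δ) X] (eX : X ≃+ Additive Eˣ)
variable (S : Submodule (MonoidAlgebra ℤ Δ) X)
  (hS : ∀ x : X, x ∈ S ↔ Additive.toMul (eX x) ∈ LEulIface74.UE p E n)
variable {Y : Type} [AddCommGroup Y] [Module (MonoidAlgebra ℤ Δ) Y]
  (eY : Y ≃+ LEulIface74.mPow p E n)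

include hS in
theorem uOf_mem_UE (x : S) : uOf eX (x : X) ∈ LEulUnitsB49E.UE p E n := (hS x).1 x.2

include hS in
theorem uOf_sub_one_mem (x : S) : ((uOf eX (x : X) : Eˣ) : E) - 1 ∈ LEulIface74.mPow p E n :=
  ((mem_UE_iff p E).1 (uOf_mem_UE eX S hS x)).2

/-- `x ↦ u(x) - 1`, as a map `S → Y`. -/
def gFun (x : S) : Y := eY.symm ⟨((uOf eX (x : X) : Eˣ) : E) - 1, uOf_sub_one_mem eX S hS x⟩

theorem coe_eY_gFun (x : S) :
    ((eY (gFun eX S hS eY x) : LEulIface74.mPow p E n) : E) = ((uOf eX (x : X) : Eˣ) : E) - 1 := by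
  unfold gFun
  rw [AddEquiv.apply_symm_apply]

/-- The additive map `S → Y/pY`, `x ↦ [u(x) - 1]` (additive because `e ≤ n`). -/
def phiAdd (hen : eAbs p E ≤ n) : S →+ cotP (MonoidAlgebra ℤ Δ) p Y :=
  AddMonoidHom.mk' (fun x => Submodule.Quotient.mk (gFun eX S hS eY x)) (by
    intro x x'
    rw [← Submodule.Quotient.mk_add, Submodule.Quotient.eq, mem_imP_iff eY]
    rw [map_sub, map_add, AddSubgroup.coe_sub, AddSubgroup.coe_add, coe_eY_gFun, coe_eY_gFun,
      coe_eY_gFun]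
    have h := mul_sub_one_sub_mem_mPow p E hen (uOf_mem_UE eX S hS x) (uOf_mem_UE eX S hS x')
    have h2 : uOf eX ((x + x' : S) : X) = uOf eX (x : X) * uOf eX (x' : X) := by
      rw [Submodule.coe_add, uOf_add]
    rw [h2]
    exact h)

theorem phiAdd_apply (hen : eAbs p E ≤ n) (x : S) :
    phiAdd eX S hS eY hen x = Submodule.Quotient.mk (gFun eX S hS eY x) := rfl

variable (hX : LEulIface74.IsUnitsModel p E ι X eX) (hY : LEulIface74.IsLatticeModel p E ι n Y eY)

include hX hY in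
theorem gFun_of_smul (δ : Δ) (x : S) :
    gFun eX S hS eY (MonoidAlgebra.of ℤ Δ δ • x) = MonoidAlgebra.of ℤ Δ δ • gFun eX S hS eY x := by
  apply eY.injective
  apply Subtype.ext
  rw [hY δ, coe_eY_gFun, coe_eY_gFun, Submodule.coe_smul, uOf_of_smul ι eX hX]
  rw [map_sub, map_one]
  rfl

/-- The `ℤ[Δ]`-linear map `S → Y/pY`. -/
def phiLin (hen : eAbs p E ≤ n) : S →ₗ[MonoidAlgebra ℤ Δ] cotP (MonoidAlgebra ℤ Δ) p Y :=
  linearMapOfEquivariant (phiAdd eX S hS eY hen) (by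
    intro δ x
    rw [phiAdd_apply, phiAdd_apply, gFun_of_smul ι eX S hS eY hX hY]
    rfl)

theorem phiLin_apply (hen : eAbs p E ≤ n) (x : S) :
    phiLin ι eX S hS eY hX hY hen x = Submodule.Quotient.mk (gFun eX S hS eY x) := rfl

theorem phiLin_surjective (hen : eAbs p E ≤ n) (hn1 : 1 ≤ n) :
    Function.Surjective (phiLin ι eX S hS eY hX hY hen) := by
  intro c
  obtain ⟨y, rfl⟩ := Submodule.Quotient.mk_surjective _ c
  obtain ⟨u, hu, huy⟩ := exists_mem_UE_sub_one_eq p E hn1 (eY y).2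
  have hxS : eX.symm (Additive.ofMul u) ∈ S := by
    rw [hS]
    have := uOf_symm eX u
    unfold uOf at this
    rw [this]
    exact hu
  refine ⟨⟨eX.symm (Additive.ofMul u), hxS⟩, ?_⟩
  rw [phiLin_apply]
  congr 1
  apply eY.injective
  apply Subtype.ext
  rw [coe_eY_gFun]
  show ((uOf eX (eX.symm (Additive.ofMul u)) : Eˣ) : E) - 1 = _
  rw [uOf_symm, huy]

theorem ker_phiLin (hen : eAbs p E ≤ n) (hn1 : 1 ≤ n) (hlt : eAbs p E < (p - 1) * n) :
    LinearMap.ker (phiLin ι eX S hS eY hX hY hen) = imP (MonoidAlgebra ℤ Δ) p S := by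
  ext x
  rw [LinearMap.mem_ker, phiLin_apply, Submodule.Quotient.mk_eq_zero, mem_imP_iff eY, coe_eY_gFun,
    ← mem_UE_iff_of_pos p E (by omega : 1 ≤ n + eAbs p E)]
  constructor
  · intro h
    obtain ⟨v, hv, hvu⟩ := exists_pow_eq p E hlt h
    have hxS : eX.symm (Additive.ofMul v) ∈ S := by
      rw [hS]
      have := uOf_symm eX v
      unfold uOf at this
      rw [this]
      exact hv
    refine ⟨⟨eX.symm (Additive.ofMul v), hxS⟩, ?_⟩
    apply Subtype.ext
    apply uOf_injective eX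
    rw [pMul_apply, Submodule.coe_smul_of_tower, uOf_nsmul, uOf_symm, hvu]
  · rintro ⟨x', rfl⟩
    rw [pMul_apply, Submodule.coe_smul_of_tower, uOf_nsmul]
    exact pow_mem_UE p E hlt.le (uOf_mem_UE eX S hS x')

/-- **C4-LFb, module form.**  `S/pS ≃ Y/pY` as `ℤ[Δ]`-modules. -/
def cotEquiv (hen : eAbs p E ≤ n) (hn1 : 1 ≤ n) (hlt : eAbs p E < (p - 1) * n) :
    cotP (MonoidAlgebra ℤ Δ) p S ≃ₗ[MonoidAlgebra ℤ Δ] cotP (MonoidAlgebra ℤ Δ) p Y :=
  (Submodule.quotEquivOfEq _ _ (ker_phiLin ι eX S hS eY hX hY hen hn1 hlt).symm).trans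
    ((phiLin ι eX S hS eY hX hY hen).quotKerEquivOfSurjective
      (phiLin_surjective ι eX S hS eY hX hY hen hn1))

include hS in
/-- **C4-LFb, module form.**  `S[p] = 0`. -/
theorem subsingleton_torP (hlt : eAbs p E < (p - 1) * n) :
    Subsingleton (torP (MonoidAlgebra ℤ Δ) p S) := by
  refine ⟨fun a b => ?_⟩
  have key : ∀ c : torP (MonoidAlgebra ℤ Δ) p S, c = 0 := by
    intro c
    apply Subtype.ext
    apply Subtype.ext
    apply uOf_injective eX
    rw [Submodule.coe_zero, Submodule.coe_zero, uOf_zero]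
    apply eq_one_of_pow_eq_one p E hlt (uOf_mem_UE eX S hS c.1)
    rw [← uOf_nsmul, ← Submodule.coe_smul_of_tower]
    have := c.2
    rw [mem_torP] at this
    rw [this, Submodule.coe_zero, uOf_zero]
  rw [key a, key b]

end Compare

end

/-- **C4-LFb, counting form**: the interface shape `LEulIface74.LFbCount`. -/
theorem lfbCount (q : ℕ) [Fact q.Prime] (E : Type) [Field E] [Algebra ℚ_[q] E]
    [FiniteDimensional ℚ_[q] E] (p : ℕ) [Fact p.Prime] {Δ : Type} [Group Δ] [Finite Δ]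
    (ι : Δ →* (E ≃ₐ[ℚ_[q]] E)) : LEulIface74.LFbCount q E p ι := by
  intro hqp
  subst hqp
  refine ⟨eAbs q E + 1, ?_⟩
  intro n hn X _ _ eX hX S hS Y _ _ eY hY A _ _ _ _
  have hq2 : 2 ≤ q := (Fact.out : q.Prime).two_le
  have hen : eAbs q E ≤ n := by omega
  have hn1 : 1 ≤ n := by omega
  have hlt : eAbs q E < (q - 1) * n := by
    have h1 : 1 * n ≤ (q - 1) * n := Nat.mul_le_mul_right n (by omega)
    omega
  constructor
  · have := subsingleton_torP eX S hS hlt
    exact cnt_of_subsingleton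
  · exact cnt_congr (cotEquiv ι eX S hS eY hX hY hen hn1 hlt)

end Fermat.Agent.TW.LEulCountB49
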