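/-
Programme TW (S56), sub-programme C4 (local Euler characteristic, architect helper74): E-LEVEL
VOCABULARY for the unit structure of a `q`-adic field `E` in the PT/LOC model (`Interface12`), shared by
bricks C4-LFa (helper23) and C4-LFb (helper49).

* `incl : (intRing q E)ˣ →* Eˣ` (injective, range `unitGroup q E`), `ofUnitGroup`;
* `mPow n : AddSubgroup E` = the image of `𝔪 ^ n`; `mem_mPow_iff_ord : (x : E) ∈ mPow n ↔ n ≤ ord x`;
* `UE n : Subgroup Eˣ` = the image of `higherUnits 𝔪 n` (`LEulUnitsB49`); `mem_UE`: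
  `u ∈ UE n ↔ u ∈ unitGroup ∧ u - 1 ∈ mPow n`; `UE_zero : UE 0 = unitGroup q E`;
* `intAutQ σ : intRing q E ≃+* intRing q E` for `σ : E ≃ₐ[ℚ_[q]] E`; stability of `𝔪 ^ n`, `mPow n`,
  `UE n`, `unitGroup` under `σ`; `ord_map : ord (σ x) = ord x`.
-/
import Mathlib
import Fermat.Agent.PT.LOC.Teichmuller14
import Fermat.Agent.TW.LEulUnitsB49

set_option autoImplicit false
set_option linter.unusedSectionVars false

open scoped Fermat.Agent.PT.LOC.Interface12
open Fermat.Agent.PT.LOC.Interface12 Fermat.Agent.PT.LOC.Structure14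
  Fermat.Agent.PT.LOC.StructureTower27 IsLocalRing

namespace Fermat.Agent.TW.LEulDefsE23

noncomputable section

variable (q : ℕ) [Fact q.Prime] (E : Type) [Field E] [Algebra ℚ_[q] E]
  [FiniteDimensional ℚ_[q] E]

/-! ### Units of the ring of integers inside `Eˣ` -/

/-- `𝒪ˣ → Eˣ`. -/
def incl : (intRing q E)ˣ →* Eˣ := Units.map ((intRing q E).val : intRing q E →* E)

theorem coe_incl (u : (intRing q E)ˣ) : ((incl q E u : Eˣ) : E) = ((u : intRing q E) : E) := rfl

theorem incl_injective : Function.Injective (incl q E) := by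
  intro u v h
  apply Units.ext
  apply Subtype.ext
  exact congrArg (fun z : Eˣ => (z : E)) h

theorem incl_mem_unitGroup (u : (intRing q E)ˣ) : incl q E u ∈ unitGroup q E := by
  refine ⟨(u : intRing q E).2, ?_⟩
  rw [← map_inv]
  exact ((u⁻¹ : (intRing q E)ˣ) : intRing q E).2

/-- An element of `unitGroup q E` as a unit of the ring of integers. -/
def ofUnitGroup (u : Eˣ) (hu : u ∈ unitGroup q E) : (intRing q E)ˣ :=
  ⟨⟨(u : E), hu.1⟩, ⟨((u⁻¹ : Eˣ) : E), hu.2⟩,
    Subtype.ext (by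
      show (u : E) * ((u⁻¹ : Eˣ) : E) = 1
      rw [← Units.val_mul, mul_inv_cancel, Units.val_one]),
    Subtype.ext (by
      show ((u⁻¹ : Eˣ) : E) * (u : E) = 1
      rw [← Units.val_mul, inv_mul_cancel, Units.val_one])⟩

@[simp] theorem incl_ofUnitGroup (u : Eˣ) (hu : u ∈ unitGroup q E) :
    incl q E (ofUnitGroup q E u hu) = u := Units.ext rfl

theorem coe_ofUnitGroup (u : Eˣ) (hu : u ∈ unitGroup q E) :
    (((ofUnitGroup q E u hu : (intRing q E)ˣ) : intRing q E) : E) = (u : E) := rfl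

theorem range_incl : (incl q E).range = unitGroup q E := by
  ext u
  constructor
  · rintro ⟨v, rfl⟩
    exact incl_mem_unitGroup q E v
  · intro hu
    exact ⟨ofUnitGroup q E u hu, incl_ofUnitGroup q E u hu⟩

/-- `𝒪ˣ ≃ unitGroup q E`. -/
def unitGroupEquiv : (intRing q E)ˣ ≃* unitGroup q E :=
  (MonoidHom.ofInjective (incl_injective q E)).trans (MulEquiv.subgroupCongr (range_incl q E))

theorem coe_unitGroupEquiv (u : (intRing q E)ˣ) :
    ((unitGroupEquiv q E u : unitGroup q E) : Eˣ) = incl q E u := rfl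

theorem incl_unitGroupEquiv_symm (u : unitGroup q E) :
    incl q E ((unitGroupEquiv q E).symm u) = (u : Eˣ) := by
  rw [← coe_unitGroupEquiv, MulEquiv.apply_symm_apply]

theorem unitGroupEquiv_symm_eq (u : unitGroup q E) :
    (unitGroupEquiv q E).symm u = ofUnitGroup q E u u.2 := by
  apply incl_injective q E
  rw [incl_unitGroupEquiv_symm, incl_ofUnitGroup]

/-! ### Powers of the maximal ideal inside `E` -/

/-- `𝔪 ^ n` as an additive subgroup of `E`. -/
def mPow (n : ℕ) : AddSubgroup E :=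
  ((maximalIdeal (intRing q E)) ^ n).toAddSubgroup.map
    ((intRing q E).val : intRing q E →+* E).toAddMonoidHom

theorem mem_mPow {n : ℕ} {x : E} :
    x ∈ mPow q E n ↔
      ∃ hx : x ∈ intRing q E, (⟨x, hx⟩ : intRing q E) ∈ maximalIdeal (intRing q E) ^ n := by
  constructor
  · rintro ⟨y, hy, rfl⟩
    exact ⟨y.2, hy⟩
  · rintro ⟨hx, h⟩
    exact ⟨⟨x, hx⟩, h, rfl⟩

theorem coe_mem_mPow {n : ℕ} (y : intRing q E) :
    (y : E) ∈ mPow q E n ↔ y ∈ maximalIdeal (intRing q E) ^ n := by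
  rw [mem_mPow]
  constructor
  · rintro ⟨_, h⟩
    exact h
  · intro h
    exact ⟨y.2, h⟩

theorem mPow_le_intRing {n : ℕ} {x : E} (hx : x ∈ mPow q E n) : x ∈ intRing q E :=
  ((mem_mPow q E).mp hx).1

theorem mem_mPow_zero {x : E} : x ∈ mPow q E 0 ↔ x ∈ intRing q E := by
  rw [mem_mPow]
  constructor
  · rintro ⟨hx, -⟩
    exact hx
  · intro hx
    exact ⟨hx, by rw [pow_zero, Ideal.one_eq_top]; exact Submodule.mem_top⟩

theorem mPow_anti {m n : ℕ} (h : m ≤ n) : mPow q E n ≤ mPow q E m := by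
  intro x hx
  obtain ⟨hx1, hx2⟩ := (mem_mPow q E).mp hx
  exact (mem_mPow q E).mpr ⟨hx1, Ideal.pow_le_pow_right h hx2⟩

/-- `x ∈ 𝔪 ^ n ↔ n ≤ ord x` for `x ≠ 0`. -/
theorem mem_mPow_iff_ord {n : ℕ} (x : Eˣ) : (x : E) ∈ mPow q E n ↔ (n : ℤ) ≤ ord q E x := by
  rw [mem_mPow]
  constructor
  · rintro ⟨hx, h⟩
    exact (mem_maximalIdeal_pow_iff q E x hx n).mp h
  · intro h
    have hx : (x : E) ∈ intRing q E := (mem_intRing_iff_ord q E x).mpr (le_trans (by positivity) h)
    exact ⟨hx, (mem_maximalIdeal_pow_iff q E x hx n).mpr h⟩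

theorem mul_mem_mPow {m n : ℕ} {x y : E} (hx : x ∈ mPow q E m) (hy : y ∈ mPow q E n) :
    x * y ∈ mPow q E (m + n) := by
  obtain ⟨hx1, hx2⟩ := (mem_mPow q E).mp hx
  obtain ⟨hy1, hy2⟩ := (mem_mPow q E).mp hy
  refine (mem_mPow q E).mpr ⟨mul_mem hx1 hy1, ?_⟩
  rw [pow_add]
  exact Ideal.mul_mem_mul hx2 hy2

/-! ### Higher unit groups inside `Eˣ` -/

/-- `U^(n) = 1 + 𝔪 ^ n` (`U^(0) = 𝒪ˣ`) as a subgroup of `Eˣ`. -/
def UE (n : ℕ) : Subgroup Eˣ :=
  (LEulUnitsB49.higherUnits (maximalIdeal (intRing q E)) n).map (incl q E)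

theorem mem_UE {n : ℕ} {u : Eˣ} :
    u ∈ UE q E n ↔ u ∈ unitGroup q E ∧ (u : E) - 1 ∈ mPow q E n := by
  constructor
  · rintro ⟨v, hv, rfl⟩
    refine ⟨incl_mem_unitGroup q E v, ?_⟩
    have h1 : ((incl q E v : Eˣ) : E) - 1 = (((v : intRing q E) - 1 : intRing q E) : E) := rfl
    rw [h1, coe_mem_mPow]
    exact hv
  · rintro ⟨hu, h⟩
    refine ⟨ofUnitGroup q E u hu, ?_, incl_ofUnitGroup q E u hu⟩
    have h1 : (u : E) - 1 =
        ((((ofUnitGroup q E u hu : (intRing q E)ˣ) : intRing q E) - 1 : intRing q E) : E) := rfl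
    rw [h1, coe_mem_mPow] at h
    exact h

theorem UE_le_unitGroup (n : ℕ) : UE q E n ≤ unitGroup q E := fun _ hu => ((mem_UE q E).mp hu).1

theorem UE_zero : UE q E 0 = unitGroup q E := by
  ext u
  rw [mem_UE, mem_mPow_zero]
  constructor
  · exact fun h => h.1
  · intro hu
    exact ⟨hu, sub_mem hu.1 (one_mem _)⟩

theorem UE_anti {m n : ℕ} (h : m ≤ n) : UE q E n ≤ UE q E m := by
  intro u hu
  rw [mem_UE] at hu ⊢
  exact ⟨hu.1, mPow_anti q E h hu.2⟩

/-- For `n ≥ 1` the condition `u ∈ unitGroup` is automatic. -/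
theorem mem_UE_of_pos {n : ℕ} (hn : 1 ≤ n) {u : Eˣ} : u ∈ UE q E n ↔ (u : E) - 1 ∈ mPow q E n := by
  rw [mem_UE]
  constructor
  · exact fun h => h.2
  · intro h
    refine ⟨?_, h⟩
    obtain ⟨hx1, hx2⟩ := (mem_mPow q E).mp (mPow_anti q E hn h)
    rw [pow_one] at hx2
    -- `u = 1 + (u - 1)` is a unit of the local ring `𝒪`
    have hu1 : (u : E) ∈ intRing q E := by
      have := add_mem hx1 (one_mem (intRing q E))
      rwa [sub_add_cancel] at this
    have hunit : IsUnit (⟨(u : E), hu1⟩ : intRing q E) := by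
      by_contra hnu
      have h1 : (⟨(u : E), hu1⟩ : intRing q E) ∈ maximalIdeal (intRing q E) :=
        (mem_maximalIdeal _).mpr hnu
      have h2 : (1 : intRing q E) ∈ maximalIdeal (intRing q E) := by
        have := sub_mem h1 hx2
        have e : (⟨(u : E), hu1⟩ : intRing q E) - ⟨(u : E) - 1, hx1⟩ = 1 := by
          apply Subtype.ext
          show (u : E) - ((u : E) - 1) = 1
          ring
        rwa [e] at this
      exact (maximalIdeal (intRing q E)).ne_top_iff_one.mp (Ideal.IsMaximal.ne_top inferInstance) h2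
    obtain ⟨v, hv⟩ := hunit
    have : incl q E v = u := Units.ext (by rw [coe_incl, hv])
    rw [← this]
    exact incl_mem_unitGroup q E v

/-- `U^(n)` has finite index in the unit group. -/
theorem finiteIndex_UE (n : ℕ) : ((UE q E n).subgroupOf (unitGroup q E)).FiniteIndex := by
  have hfin0 : Finite (intRing q E ⧸ maximalIdeal (intRing q E)) :=
    Fermat.Agent.PT.LOC.Teichmuller14.finite_resField q E
  have hfin : Finite (intRing q E ⧸ maximalIdeal (intRing q E) ^ n) :=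
    Ideal.finite_quotient_pow (IsNoetherian.noetherian _) n
  have h1 : Finite ((intRing q E)ˣ ⧸ LEulUnitsB49.higherUnits (maximalIdeal (intRing q E)) n) :=
    LEulUnitsB49.finite_quotient_higherUnits _ n
  have h2 : (LEulUnitsB49.higherUnits (maximalIdeal (intRing q E)) n).FiniteIndex :=
    Subgroup.finiteIndex_of_finite_quotient
  have h3 : (UE q E n).subgroupOf (unitGroup q E) =
      (LEulUnitsB49.higherUnits (maximalIdeal (intRing q E)) n).map
        (unitGroupEquiv q E).toMonoidHom := by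
    ext u
    rw [Subgroup.mem_subgroupOf, Subgroup.mem_map]
    constructor
    · rintro ⟨v, hv, hvu⟩
      refine ⟨v, hv, ?_⟩
      apply Subtype.ext
      exact hvu
    · rintro ⟨v, hv, rfl⟩
      exact ⟨v, hv, rfl⟩
  rw [h3]
  refine ⟨?_⟩
  rw [Subgroup.index_map_of_bijective (unitGroupEquiv q E).bijective]
  exact h2.index_ne_zero

/-! ### Automorphisms -/

/-- The automorphism of `𝒪` induced by `σ ∈ Aut(E/ℚ_q)`. -/
def intAutQ (σ : E ≃ₐ[ℚ_[q]] E) : intRing q E ≃+* intRing q E :=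
  ((σ.restrictScalars ℤ_[q]).mapIntegralClosure).toRingEquiv

theorem coe_intAutQ (σ : E ≃ₐ[ℚ_[q]] E) (x : intRing q E) :
    ((intAutQ q E σ x : intRing q E) : E) = σ (x : E) := rfl

theorem coe_intAutQ_symm (σ : E ≃ₐ[ℚ_[q]] E) (x : intRing q E) :
    (((intAutQ q E σ).symm x : intRing q E) : E) = σ.symm (x : E) := rfl

theorem intAutQ_mem_maximalIdeal (σ : E ≃ₐ[ℚ_[q]] E) {x : intRing q E}
    (hx : x ∈ maximalIdeal (intRing q E)) : intAutQ q E σ x ∈ maximalIdeal (intRing q E) := by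
  rw [mem_maximalIdeal, mem_nonunits_iff] at hx ⊢
  intro hu
  apply hx
  have := hu.map (intAutQ q E σ).symm
  rwa [RingEquiv.symm_apply_apply] at this

theorem intAutQ_mem_pow (σ : E ≃ₐ[ℚ_[q]] E) {n : ℕ} {x : intRing q E}
    (hx : x ∈ maximalIdeal (intRing q E) ^ n) :
    intAutQ q E σ x ∈ maximalIdeal (intRing q E) ^ n := by
  have hle : (maximalIdeal (intRing q E)).map (intAutQ q E σ : intRing q E →+* intRing q E) ≤
      maximalIdeal (intRing q E) := by
    rw [Ideal.map_le_iff_le_comap]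
    intro y hy
    exact intAutQ_mem_maximalIdeal q E σ hy
  have h1 : (maximalIdeal (intRing q E) ^ n).map (intAutQ q E σ : intRing q E →+* intRing q E) ≤
      maximalIdeal (intRing q E) ^ n := by
    rw [Ideal.map_pow]
    exact Ideal.pow_right_mono hle n
  exact h1 (Ideal.mem_map_of_mem _ hx)

theorem map_mem_intRing_iff (σ : E ≃ₐ[ℚ_[q]] E) {x : E} : σ x ∈ intRing q E ↔ x ∈ intRing q E :=
  algEquiv_mem_intRing_iff q ℚ_[q] E σ

theorem map_mem_mPow (σ : E ≃ₐ[ℚ_[q]] E) {n : ℕ} {x : E} (hx : x ∈ mPow q E n) :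
    σ x ∈ mPow q E n := by
  obtain ⟨hx1, hx2⟩ := (mem_mPow q E).mp hx
  exact (mem_mPow q E).mpr ⟨(map_mem_intRing_iff q E σ).mpr hx1, intAutQ_mem_pow q E σ hx2⟩

theorem map_mem_mPow_iff (σ : E ≃ₐ[ℚ_[q]] E) {n : ℕ} {x : E} :
    σ x ∈ mPow q E n ↔ x ∈ mPow q E n := by
  refine ⟨fun h => ?_, map_mem_mPow q E σ⟩
  have := map_mem_mPow q E σ.symm h
  rwa [AlgEquiv.symm_apply_apply] at this

theorem map_mem_unitGroup_iff (σ : E ≃ₐ[ℚ_[q]] E) (u : Eˣ) :
    Units.map (σ : E →* E) u ∈ unitGroup q E ↔ u ∈ unitGroup q E :=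
  unitsMap_mem_unitGroup_iff q ℚ_[q] E σ u

theorem map_mem_UE_iff (σ : E ≃ₐ[ℚ_[q]] E) {n : ℕ} (u : Eˣ) :
    Units.map (σ : E →* E) u ∈ UE q E n ↔ u ∈ UE q E n := by
  rw [mem_UE, mem_UE, map_mem_unitGroup_iff]
  have h1 : ((Units.map (σ : E →* E) u : Eˣ) : E) - 1 = σ ((u : E) - 1) := by
    rw [map_sub, map_one]
    rfl
  rw [h1, map_mem_mPow_iff]

theorem incl_map (σ : E ≃ₐ[ℚ_[q]] E) (u : (intRing q E)ˣ) :
    incl q E (Units.map (intAutQ q E σ : intRing q E →* intRing q E) u) =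
      Units.map (σ : E →* E) (incl q E u) := Units.ext rfl

/-- `ord` is invariant under automorphisms. -/
theorem ord_map (σ : E ≃ₐ[ℚ_[q]] E) (x : Eˣ) : ord q E (Units.map (σ : E →* E) x) = ord q E x := by
  obtain ⟨π, hπ⟩ := exists_isUniformizer q E
  have hu := mul_zpow_neg_ord_mem_unitGroup q E π hπ x
  set u := x * π ^ (-(ord q E x)) with hudef
  have hx : x = u * π ^ (ord q E x) := by
    rw [hudef, mul_assoc, ← zpow_add, neg_add_cancel, zpow_zero, mul_one]
  have hσu : ord q E (Units.map (σ : E →* E) u) = 0 :=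
    (mem_unitGroup_iff_ord q E _).mp ((map_mem_unitGroup_iff q E σ u).mpr hu)
  have hσπ : ord q E (Units.map (σ : E →* E) π) = 1 := by
    rw [← isUniformizer_iff_ord]
    exact isUniformizer_algEquiv q ℚ_[q] E (σ := σ) hπ
  conv_lhs => rw [hx]
  rw [map_mul, map_zpow, ord_mul, ord_zpow, hσu, hσπ]
  ring

end

end Fermat.Agent.TW.LEulDefsE23
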