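/-
Programme TW (S56), sub-programme C4 (local Euler characteristic, architect helper74), brick C4-LFa
(helper23), ABSTRACT CORE (Mathlib only): units of a Henselian local ring `A` with finite residue field
`k`, `#k = Q`, and an integer `n` (resp. a prime `p`) invertible in `A`.

* `redUnits : Aˣ →* kˣ` (surjective), `U1 = 1 + 𝔪 = ker redUnits`, `mem_U1`;
* `eq_of_pow_eq` : `u ^ n = v ^ n`, `u v⁻¹ ∈ U1`, `n ∈ Aˣ` ⇒ `u = v`;
* `exists_pow_eq` : every element of `U1` is an `n`-th power of an element of `U1` (Hensel);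
  `powU1 n : U1 →* U1` is bijective (`powU1_bijective`);
* cyclic groups: `pow_card_div_eq_one_iff`, `exists_pow_card_div_eq`;
* for a prime `p ∣ Q - 1`: `redRoots_bijective` (`μ_p(A) → μ_p(k)` is bijective), and
  `theta p : Aˣ →* rootsOfUnity p A`, `u ↦` the unique `p`-th root of unity congruent to
  `u ^ ((Q - 1) / p)` mod `𝔪`; `theta_surjective`, `theta_eq_one_iff : theta u = 1 ↔ ∃ v, v ^ p = u`,
  `theta_map` (equivariance under ring automorphisms).
-/
import Mathlib

set_option autoImplicit false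
set_option linter.unusedSectionVars false
set_option linter.style.haveILetI false

open IsLocalRing Polynomial

noncomputable section

namespace Fermat.Agent.TW.LEulUnitsA23

/-! ### Finite cyclic groups -/

section Cyclic

variable {G : Type*} [CommGroup G] [Finite G] [IsCyclic G]

theorem pow_card_div_eq_one_iff {d : ℕ} (hd : d ∣ Nat.card G) (x : G) :
    x ^ (Nat.card G / d) = 1 ↔ ∃ y : G, y ^ d = x := by
  have hN : 0 < Nat.card G := Nat.card_pos
  have hdm : Nat.card G / d * d = Nat.card G := Nat.div_mul_cancel hd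
  have hm : 0 < Nat.card G / d := by
    rcases Nat.eq_zero_or_pos (Nat.card G / d) with h | h
    · rw [h, zero_mul] at hdm; omega
    · exact h
  constructor
  · intro hx
    obtain ⟨g, hg⟩ := IsCyclic.exists_monoid_generator (α := G)
    have hord : orderOf g = Nat.card G :=
      orderOf_eq_card_of_forall_mem_zpowers fun y =>
        (Submonoid.powers_le_zpowers g) (hg y)
    obtain ⟨i, rfl⟩ := (Submonoid.mem_powers_iff _ _).mp (hg x)
    rw [← pow_mul, ← orderOf_dvd_iff_pow_eq_one, hord] at hx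
    have h1 : d ∣ i := by
      apply Nat.dvd_of_mul_dvd_mul_right hm
      rw [mul_comm d, hdm]
      exact hx
    obtain ⟨j, rfl⟩ := h1
    exact ⟨g ^ j, by rw [← pow_mul, mul_comm]⟩
  · rintro ⟨y, rfl⟩
    rw [← pow_mul, mul_comm, hdm, pow_card_eq_one']

theorem exists_pow_card_div_eq {d : ℕ} (hd : d ∣ Nat.card G) {y : G} (hy : y ^ d = 1) :
    ∃ x : G, x ^ (Nat.card G / d) = y := by
  have hN : 0 < Nat.card G := Nat.card_pos
  have hdm : Nat.card G / d * d = Nat.card G := Nat.div_mul_cancel hd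
  have hd0 : 0 < d := by
    rcases Nat.eq_zero_or_pos d with h | h
    · rw [h, mul_zero] at hdm; omega
    · exact h
  obtain ⟨g, hg⟩ := IsCyclic.exists_monoid_generator (α := G)
  have hord : orderOf g = Nat.card G :=
    orderOf_eq_card_of_forall_mem_zpowers fun y =>
      (Submonoid.powers_le_zpowers g) (hg y)
  obtain ⟨j, rfl⟩ := (Submonoid.mem_powers_iff _ _).mp (hg y)
  rw [← pow_mul, ← orderOf_dvd_iff_pow_eq_one, hord] at hy
  have h1 : Nat.card G / d ∣ j := by
    apply Nat.dvd_of_mul_dvd_mul_right hd0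
    rw [hdm]
    exact hy
  obtain ⟨l, rfl⟩ := h1
  exact ⟨g ^ l, by rw [← pow_mul, mul_comm]⟩

end Cyclic

/-! ### Principal units -/

section Local

variable {A : Type*} [CommRing A] [IsLocalRing A]

/-- Reduction of units. -/
def redUnits : Aˣ →* (ResidueField A)ˣ := Units.map (residue A : A →* ResidueField A)

@[simp] theorem coe_redUnits (u : Aˣ) :
    ((redUnits u : (ResidueField A)ˣ) : ResidueField A) = residue A (u : A) := rfl

theorem redUnits_surjective : Function.Surjective (redUnits (A := A)) := by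
  intro x
  obtain ⟨a, ha⟩ := residue_surjective (x : ResidueField A)
  have hu : IsUnit a := by
    have h1 : IsUnit (residue A a) := ha ▸ x.isUnit
    exact (isUnit_map_iff (residue A) a).mp h1
  exact ⟨hu.unit, Units.ext (by rw [coe_redUnits, IsUnit.unit_spec, ha])⟩

/-- The principal units `1 + 𝔪`. -/
def U1 : Subgroup Aˣ := (redUnits (A := A)).ker

theorem mem_U1 {u : Aˣ} : u ∈ U1 ↔ (u : A) - 1 ∈ maximalIdeal A := by
  rw [U1, MonoidHom.mem_ker, Units.ext_iff, coe_redUnits, Units.val_one, ← residue_eq_zero_iff,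
    map_sub, map_one, sub_eq_zero]

theorem mem_U1_iff_residue {u : Aˣ} : u ∈ U1 ↔ residue A (u : A) = 1 := by
  rw [U1, MonoidHom.mem_ker, Units.ext_iff, coe_redUnits, Units.val_one]

theorem isUnit_of_isUnit_residue {a : A} (h : IsUnit (residue A a)) : IsUnit a :=
  (isUnit_map_iff (residue A) a).mp h

/-- Uniqueness of roots: `u ^ n = v ^ n`, `u ≡ v mod 𝔪`, `n` invertible ⇒ `u = v`. -/
theorem eq_of_pow_eq {n : ℕ} (hn : IsUnit (n : A)) {u v : Aˣ} (h1 : u * v⁻¹ ∈ U1)
    (h : u ^ n = v ^ n) : u = v := by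
  apply Units.ext
  have hroot : ∀ w : Aˣ, w ^ n = v ^ n → (X ^ n - C ((v : A) ^ n)).eval (w : A) = 0 := by
    intro w hw
    rw [eval_sub, eval_pow, eval_X, eval_C, ← Units.val_pow_eq_pow_val, ← Units.val_pow_eq_pow_val,
      hw, sub_self]
  refine IsLocalRing.eq_of_eval_eq_zero_of_not_isUnit_sub (hroot u h) (hroot v rfl) ?_ ?_
  · have h2 : (u : A) - v = (v : A) * (((u * v⁻¹ : Aˣ) : A) - 1) := by
      rw [Units.val_mul, mul_sub, mul_one, mul_comm (u : A), ← mul_assoc, Units.mul_inv, one_mul]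
    rw [h2]
    intro hu
    exact (mem_maximalIdeal _).mp ((maximalIdeal A).mul_mem_left _ (mem_U1.mp h1)) hu
  · rw [derivative_sub, derivative_C, sub_zero, derivative_X_pow, eval_mul, eval_C, eval_pow,
      eval_X]
    exact hn.mul (u.isUnit.pow _)

/-- The `n`-th power map on principal units. -/
def powU1 (n : ℕ) : (U1 : Subgroup Aˣ) →* (U1 : Subgroup Aˣ) where
  toFun u := ⟨(u : Aˣ) ^ n, pow_mem u.2 n⟩
  map_one' := by ext; simp
  map_mul' u v := by ext; simp [mul_pow]

@[simp] theorem coe_powU1 (n : ℕ) (u : (U1 : Subgroup Aˣ)) :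
    ((powU1 n u : (U1 : Subgroup Aˣ)) : Aˣ) = (u : Aˣ) ^ n := rfl

variable [HenselianRing A (maximalIdeal A)]

/-- Hensel: every principal unit is an `n`-th power of a principal unit, `n` invertible. -/
theorem exists_pow_eq {n : ℕ} (hn : IsUnit (n : A)) {u : Aˣ} (hu : u ∈ U1) :
    ∃ v ∈ U1, v ^ n = u := by
  have hn0 : n ≠ 0 := by
    rintro rfl
    rw [Nat.cast_zero] at hn
    exact not_isUnit_zero hn
  have hmonic : (X ^ n - C (u : A)).Monic := monic_X_pow_sub_C _ hn0
  have h1 : (X ^ n - C (u : A)).eval 1 ∈ maximalIdeal A := by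
    rw [eval_sub, eval_pow, eval_X, eval_C, one_pow, ← neg_sub]
    exact neg_mem (mem_U1.mp hu)
  have h2 : IsUnit (Ideal.Quotient.mk (maximalIdeal A) ((X ^ n - C (u : A)).derivative.eval 1)) := by
    rw [derivative_sub, derivative_C, sub_zero, derivative_X_pow, eval_mul, eval_C, eval_pow,
      eval_X, one_pow, mul_one]
    exact hn.map _
  obtain ⟨a, hroot, hcong⟩ := HenselianRing.is_henselian (I := maximalIdeal A) _ hmonic 1 h1 h2
  have hapow : a ^ n = (u : A) := by
    rw [IsRoot.def, eval_sub, eval_pow, eval_X, eval_C, sub_eq_zero] at hroot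
    exact hroot
  have haunit : IsUnit a := by
    rw [← isUnit_pow_iff hn0, hapow]
    exact u.isUnit
  refine ⟨haunit.unit, mem_U1.mpr ?_, Units.ext ?_⟩
  · rw [IsUnit.unit_spec]
    exact hcong
  · rw [Units.val_pow_eq_pow_val, IsUnit.unit_spec, hapow]

/-- The `n`-th power map is bijective on `1 + 𝔪` when `n` is invertible. -/
theorem powU1_bijective {n : ℕ} (hn : IsUnit (n : A)) :
    Function.Bijective (powU1 (A := A) n) := by
  constructor
  · intro u v h
    apply Subtype.ext
    refine eq_of_pow_eq hn (mul_mem u.2 (inv_mem v.2)) ?_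
    exact congrArg Subtype.val h
  · intro u
    obtain ⟨v, hv, hvu⟩ := exists_pow_eq hn u.2
    exact ⟨⟨v, hv⟩, Subtype.ext hvu⟩

end Local

/-! ### Roots of unity and the tame symbol `u ↦ u ^ ((Q - 1) / n) mod 𝔪` -/

section Theta

variable {A : Type*} [CommRing A] [IsLocalRing A]

variable (A) in
/-- Reduction of `n`-th roots of unity. -/
def redRoots (n : ℕ) : rootsOfUnity n A →* rootsOfUnity n (ResidueField A) :=
  restrictRootsOfUnity (residue A) n

theorem coe_redRoots (n : ℕ) (ζ : rootsOfUnity n A) :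
    (((redRoots A n ζ : rootsOfUnity n (ResidueField A)) : (ResidueField A)ˣ) : ResidueField A) =
      residue A ((ζ : Aˣ) : A) := rfl

theorem redRoots_injective {n : ℕ} (hn : IsUnit (n : A)) : Function.Injective (redRoots A n) := by
  intro ζ ζ' h
  apply Subtype.ext
  refine eq_of_pow_eq hn ?_ ?_
  · rw [mem_U1_iff_residue, Units.val_mul, map_mul]
    have h1 : residue A ((ζ : Aˣ) : A) = residue A ((ζ' : Aˣ) : A) := by
      rw [← coe_redRoots, ← coe_redRoots, h]
    rw [h1, ← map_mul, Units.mul_inv, map_one]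
  · rw [(mem_rootsOfUnity _ _).mp ζ.2, (mem_rootsOfUnity _ _).mp ζ'.2]

theorem redRoots_surjective [HenselianRing A (maximalIdeal A)] {n : ℕ} (hn : IsUnit (n : A)) :
    Function.Surjective (redRoots A n) := by
  intro x
  have hn0 : n ≠ 0 := by
    rintro rfl
    rw [Nat.cast_zero] at hn
    exact not_isUnit_zero hn
  have hx : ((x : (ResidueField A)ˣ) : ResidueField A) ^ n = 1 := by
    rw [← Units.val_pow_eq_pow_val, (mem_rootsOfUnity _ _).mp x.2, Units.val_one]
  obtain ⟨a₀, ha₀⟩ := residue_surjective ((x : (ResidueField A)ˣ) : ResidueField A)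
  have hmonic : (X ^ n - C (1 : A)).Monic := monic_X_pow_sub_C _ hn0
  have h1 : (X ^ n - C (1 : A)).eval a₀ ∈ maximalIdeal A := by
    rw [← residue_eq_zero_iff, eval_sub, eval_pow, eval_X, eval_C, map_sub, map_pow, map_one, ha₀,
      hx, sub_self]
  have h2 : IsUnit (Ideal.Quotient.mk (maximalIdeal A) ((X ^ n - C (1 : A)).derivative.eval a₀)) := by
    change IsUnit (residue A _)
    rw [derivative_sub, derivative_C, sub_zero, derivative_X_pow, eval_mul, eval_C, eval_pow,
      eval_X, map_mul, map_pow, ha₀]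
    exact (hn.map (residue A)).mul ((x : (ResidueField A)ˣ).isUnit.pow _)
  obtain ⟨a, hroot, hcong⟩ := HenselianRing.is_henselian (I := maximalIdeal A) _ hmonic a₀ h1 h2
  have hapow : a ^ n = 1 := by
    rw [IsRoot.def, eval_sub, eval_pow, eval_X, eval_C, sub_eq_zero] at hroot
    exact hroot
  have hres : residue A a = ((x : (ResidueField A)ˣ) : ResidueField A) := by
    rw [← ha₀, ← sub_eq_zero, ← map_sub, residue_eq_zero_iff]
    exact hcong
  haveI : NeZero n := ⟨hn0⟩
  refine ⟨rootsOfUnity.mkOfPowEq a hapow, ?_⟩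
  apply Subtype.ext
  apply Units.ext
  rw [coe_redRoots, rootsOfUnity.coe_mkOfPowEq, hres]

variable [Finite (ResidueField A)]

theorem card_units_residueField :
    Nat.card (ResidueField A)ˣ = Nat.card (ResidueField A) - 1 := Nat.card_units _

theorem isUnit_natCast_of_dvd {n : ℕ} (hn : n ∣ Nat.card (ResidueField A) - 1) :
    IsUnit (n : A) := by
  apply isUnit_of_isUnit_residue
  rw [map_natCast, isUnit_iff_ne_zero]
  intro h0
  obtain ⟨m, hm⟩ := hn
  have hQ : 1 < Nat.card (ResidueField A) := Finite.one_lt_card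
  have h1 : ((Nat.card (ResidueField A) : ℕ) : ResidueField A) = 0 := by
    haveI := Fintype.ofFinite (ResidueField A)
    rw [Nat.card_eq_fintype_card]
    exact Nat.cast_card_eq_zero _
  have h2 : ((Nat.card (ResidueField A) - 1 : ℕ) : ResidueField A) = -1 := by
    rw [Nat.cast_sub hQ.le, h1, zero_sub, Nat.cast_one]
  rw [hm, Nat.cast_mul, h0, zero_mul] at h2
  exact one_ne_zero (neg_eq_zero.mp h2.symm)

/-- `x ↦ x ^ ((Q - 1) / n)` from `kˣ` to `μ_n(k)`. -/
def powRes {n : ℕ} (hn : n ∣ Nat.card (ResidueField A) - 1) :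
    (ResidueField A)ˣ →* rootsOfUnity n (ResidueField A) where
  toFun x := ⟨x ^ ((Nat.card (ResidueField A) - 1) / n), by
    rw [mem_rootsOfUnity, ← pow_mul, Nat.div_mul_cancel hn, ← card_units_residueField,
      pow_card_eq_one']⟩
  map_one' := by ext; simp
  map_mul' x y := by ext; simp [mul_pow]

theorem coe_powRes {n : ℕ} (hn : n ∣ Nat.card (ResidueField A) - 1) (x : (ResidueField A)ˣ) :
    ((powRes hn x : rootsOfUnity n (ResidueField A)) : (ResidueField A)ˣ) =
      x ^ ((Nat.card (ResidueField A) - 1) / n) := rfl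

variable [HenselianRing A (maximalIdeal A)]

/-- `μ_n(A) ≃ μ_n(k)` for `n ∣ Q - 1`. -/
def redRootsEquiv {n : ℕ} (hn : n ∣ Nat.card (ResidueField A) - 1) :
    rootsOfUnity n A ≃* rootsOfUnity n (ResidueField A) :=
  MulEquiv.ofBijective (redRoots A n)
    ⟨redRoots_injective (isUnit_natCast_of_dvd hn), redRoots_surjective (isUnit_natCast_of_dvd hn)⟩

theorem redRootsEquiv_apply {n : ℕ} (hn : n ∣ Nat.card (ResidueField A) - 1)
    (ζ : rootsOfUnity n A) : redRootsEquiv hn ζ = redRoots A n ζ := rfl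

/-- **The tame symbol**: `theta hn u` is the unique `n`-th root of unity of `A` congruent to
`u ^ ((Q - 1) / n)` modulo `𝔪`. -/
def theta {n : ℕ} (hn : n ∣ Nat.card (ResidueField A) - 1) : Aˣ →* rootsOfUnity n A :=
  (redRootsEquiv hn).symm.toMonoidHom.comp ((powRes hn).comp redUnits)

theorem redRoots_theta {n : ℕ} (hn : n ∣ Nat.card (ResidueField A) - 1) (u : Aˣ) :
    redRoots A n (theta hn u) = powRes hn (redUnits u) := by
  rw [← redRootsEquiv_apply hn]
  exact (redRootsEquiv hn).apply_symm_apply _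

theorem residue_theta {n : ℕ} (hn : n ∣ Nat.card (ResidueField A) - 1) (u : Aˣ) :
    residue A (((theta hn u : rootsOfUnity n A) : Aˣ) : A) =
      residue A (u : A) ^ ((Nat.card (ResidueField A) - 1) / n) := by
  rw [← coe_redRoots, redRoots_theta, coe_powRes, Units.val_pow_eq_pow_val, coe_redUnits]

/-- Characterisation of `theta`. -/
theorem theta_eq_iff {n : ℕ} (hn : n ∣ Nat.card (ResidueField A) - 1) (u : Aˣ)
    (ζ : rootsOfUnity n A) :
    theta hn u = ζ ↔ residue A ((ζ : Aˣ) : A) =
      residue A (u : A) ^ ((Nat.card (ResidueField A) - 1) / n) := by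
  constructor
  · rintro rfl
    exact residue_theta hn u
  · intro h
    apply redRoots_injective (isUnit_natCast_of_dvd hn)
    apply Subtype.ext
    apply Units.ext
    rw [coe_redRoots, coe_redRoots, residue_theta, h]

theorem theta_surjective {n : ℕ} (hn : n ∣ Nat.card (ResidueField A) - 1) :
    Function.Surjective (theta (A := A) hn) := by
  intro ζ
  have h1 : ((redRoots A n ζ : rootsOfUnity n (ResidueField A)) : (ResidueField A)ˣ) ^ n = 1 :=
    (mem_rootsOfUnity _ _).mp (redRoots A n ζ).2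
  have hd : n ∣ Nat.card (ResidueField A)ˣ := by rwa [card_units_residueField]
  obtain ⟨x, hx⟩ := exists_pow_card_div_eq hd h1
  obtain ⟨u, rfl⟩ := redUnits_surjective x
  refine ⟨u, ?_⟩
  apply redRoots_injective (isUnit_natCast_of_dvd hn)
  rw [redRoots_theta]
  apply Subtype.ext
  rw [coe_powRes, ← card_units_residueField]
  exact hx

/-- The kernel of `theta` consists of the `n`-th powers. -/
theorem theta_eq_one_iff {n : ℕ} (hn : n ∣ Nat.card (ResidueField A) - 1) (u : Aˣ) :
    theta hn u = 1 ↔ ∃ v : Aˣ, v ^ n = u := by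
  have hd : n ∣ Nat.card (ResidueField A)ˣ := by rwa [card_units_residueField]
  have key : theta hn u = 1 ↔ redUnits u ^ (Nat.card (ResidueField A)ˣ / n) = 1 := by
    rw [← (redRoots_injective (isUnit_natCast_of_dvd hn)).eq_iff, redRoots_theta, map_one,
      Subtype.ext_iff, coe_powRes, card_units_residueField]
    rfl
  rw [key, pow_card_div_eq_one_iff hd]
  constructor
  · rintro ⟨y, hy⟩
    obtain ⟨w, rfl⟩ := redUnits_surjective y
    have h1 : u * (w ^ n)⁻¹ ∈ U1 := by
      rw [U1, MonoidHom.mem_ker, map_mul, map_inv, map_pow, hy, mul_inv_cancel]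
    obtain ⟨z, -, hz⟩ := exists_pow_eq (isUnit_natCast_of_dvd hn) h1
    refine ⟨z * w, ?_⟩
    rw [mul_pow, hz, inv_mul_cancel_right]
  · rintro ⟨v, rfl⟩
    exact ⟨redUnits v, by rw [map_pow]⟩

/-- Equivariance of `theta` under ring automorphisms. -/
theorem theta_map {n : ℕ} (hn : n ∣ Nat.card (ResidueField A) - 1) (σ : A ≃+* A) (u : Aˣ) :
    (((theta hn (Units.map (σ : A →* A) u) : rootsOfUnity n A) : Aˣ) : A) =
      σ (((theta hn u : rootsOfUnity n A) : Aˣ) : A) := by
  have hmem : ∀ a : A, a ∈ maximalIdeal A → σ a ∈ maximalIdeal A := by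
    intro a ha
    rw [mem_maximalIdeal, mem_nonunits_iff] at ha ⊢
    intro hu
    apply ha
    have := hu.map σ.symm
    rwa [RingEquiv.symm_apply_apply] at this
  have hζ : (Units.map (σ : A →* A) ((theta hn u : rootsOfUnity n A) : Aˣ)) ∈ rootsOfUnity n A := by
    rw [mem_rootsOfUnity, ← map_pow, (mem_rootsOfUnity _ _).mp (theta hn u).2, map_one]
  have h := (theta_eq_iff hn (Units.map (σ : A →* A) u) ⟨_, hζ⟩).mpr ?_
  · rw [h]
    rfl
  · show residue A (σ (((theta hn u : rootsOfUnity n A) : Aˣ) : A)) =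
      residue A (σ (u : A)) ^ ((Nat.card (ResidueField A) - 1) / n)
    rw [← map_pow, ← map_pow, ← sub_eq_zero, ← map_sub, residue_eq_zero_iff, ← map_sub]
    apply hmem
    rw [← residue_eq_zero_iff, map_sub, sub_eq_zero, map_pow]
    exact residue_theta hn u

end Theta

end Fermat.Agent.TW.LEulUnitsA23
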