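/-
Programme TW (S56), sub-programme C4 (local Euler characteristic, architect helper74), brick C4-LFa
(helper23), E-LEVEL: the unit structure of a `q`-adic field `E` (PT/LOC model) for a prime `p ≠ q`.

(1) `ord : Eˣ → ℤ` is surjective (`Structure14.ord_surjective`), invariant under automorphisms
    (`LEulDefsE23.ord_map`), with kernel `unitGroup q E` (`Structure14.mem_unitGroup_iff_ord`);
    `mem_unitGroup_of_pow_mem` : `x ^ n ∈ 𝒪ˣ ⇒ x ∈ 𝒪ˣ` (`n ≠ 0`).
(2) `UE_one_pow_bijOn` : for `p ≠ q`, `u ↦ u ^ p` is bijective on `UE 1 = 1 + 𝔪`.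
(3) `dvd_resCard_sub_one` : `ζ_p ∈ E`, `p ≠ q` ⇒ `p ∣ Q - 1`;
    `thetaE hp : unitGroup q E →* rootsOfUnity p E` for `p ∣ Q - 1` (the tame symbol
    `u ↦ u ^ ((Q - 1) / p) mod 𝔪`, lifted to `μ_p(E)`): `thetaE_surjective`, `thetaE_eq_one_iff`
    (kernel = `p`-th powers of units), `thetaE_map` (equivariance), `thetaE_spec`.
-/
import Mathlib
import Fermat.Agent.TW.LEulDefsE23
import Fermat.Agent.TW.LEulUnitsA23

set_option autoImplicit false
set_option linter.unusedSectionVars false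

open scoped Fermat.Agent.PT.LOC.Interface12
open Fermat.Agent.PT.LOC.Interface12 Fermat.Agent.PT.LOC.Structure14
  Fermat.Agent.PT.LOC.StructureTower27 Fermat.Agent.PT.LOC.Teichmuller14 IsLocalRing
  Fermat.Agent.TW.LEulDefsE23

namespace Fermat.Agent.TW.LEulUnitsAE23

noncomputable section

variable (q : ℕ) [Fact q.Prime] (E : Type) [Field E] [Algebra ℚ_[q] E]
  [FiniteDimensional ℚ_[q] E]

/-! ### (1) -/

theorem mem_unitGroup_of_pow_mem {n : ℕ} (hn : n ≠ 0) {x : Eˣ} (h : x ^ n ∈ unitGroup q E) :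
    x ∈ unitGroup q E := by
  rw [mem_unitGroup_iff_ord, ord_pow] at h
  rw [mem_unitGroup_iff_ord]
  rcases mul_eq_zero.mp h with h1 | h1
  · exact absurd (by exact_mod_cast h1) hn
  · exact h1

/-- A root of unity is a unit of the ring of integers. -/
theorem mem_unitGroup_of_pow_eq_one {n : ℕ} (hn : n ≠ 0) {x : Eˣ} (h : x ^ n = 1) :
    x ∈ unitGroup q E :=
  mem_unitGroup_of_pow_mem q E hn (h ▸ one_mem _)

/-! ### (2) -/

theorem natCast_q_mem_maximalIdeal : ((q : ℕ) : intRing q E) ∈ maximalIdeal (intRing q E) := by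
  rw [← maxId_eq_maximalIdeal]
  exact natCast_mem_maxId q E

/-- A prime `p ≠ q` is invertible in `𝒪`. -/
theorem isUnit_natCast {p : ℕ} (hp : p.Prime) (hqp : q ≠ p) : IsUnit ((p : ℕ) : intRing q E) := by
  by_contra hnu
  have hpm : ((p : ℕ) : intRing q E) ∈ maximalIdeal (intRing q E) := (mem_maximalIdeal _).mpr hnu
  have hcop : IsCoprime (p : ℤ) (q : ℤ) :=
    Nat.isCoprime_iff_coprime.mpr ((Nat.coprime_primes hp (Fact.out : q.Prime)).mpr (Ne.symm hqp))
  obtain ⟨a, b, hab⟩ := hcop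
  have h1 : ((a : ℤ) : intRing q E) * ((p : ℕ) : intRing q E) +
      ((b : ℤ) : intRing q E) * ((q : ℕ) : intRing q E) = 1 := by
    have := congrArg (Int.cast : ℤ → intRing q E) hab
    push_cast at this
    exact this
  have h2 : (1 : intRing q E) ∈ maximalIdeal (intRing q E) := by
    rw [← h1]
    exact add_mem (Ideal.mul_mem_left _ _ hpm)
      (Ideal.mul_mem_left _ _ (natCast_q_mem_maximalIdeal q E))
  exact (maximalIdeal (intRing q E)).ne_top_iff_one.mp (Ideal.IsMaximal.ne_top inferInstance) h2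

theorem mem_U1_iff_higherUnits {u : (intRing q E)ˣ} :
    u ∈ (LEulUnitsA23.U1 : Subgroup (intRing q E)ˣ) ↔
      u ∈ LEulUnitsB49.higherUnits (maximalIdeal (intRing q E)) 1 := by
  rw [LEulUnitsA23.mem_U1, LEulUnitsB49.mem_higherUnits, pow_one]

theorem incl_mem_UE_one_iff {u : (intRing q E)ˣ} :
    incl q E u ∈ UE q E 1 ↔ u ∈ (LEulUnitsA23.U1 : Subgroup (intRing q E)ˣ) := by
  rw [mem_U1_iff_higherUnits]
  constructor
  · rintro ⟨v, hv, hvu⟩
    rwa [← incl_injective q E hvu]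
  · intro h
    exact ⟨u, h, rfl⟩

/-- **(2)** For `p ≠ q` the `p`-th power map is bijective on `1 + 𝔪`. -/
theorem UE_one_pow_bijOn {p : ℕ} (hp : p.Prime) (hqp : q ≠ p) :
    Set.BijOn (fun u : Eˣ => u ^ p) (UE q E 1 : Set Eˣ) (UE q E 1 : Set Eˣ) := by
  have hpu := isUnit_natCast q E hp hqp
  refine ⟨fun u hu => pow_mem (SetLike.mem_coe.mp hu) p, ?_, ?_⟩
  · intro u hu v hv h
    obtain ⟨u', hu', rfl⟩ := Subgroup.mem_map.mp (SetLike.mem_coe.mp hu)
    obtain ⟨v', hv', rfl⟩ := Subgroup.mem_map.mp (SetLike.mem_coe.mp hv)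
    have h0 : incl q E u' ^ p = incl q E v' ^ p := h
    rw [← map_pow, ← map_pow] at h0
    have h1 := incl_injective q E h0
    rw [← mem_U1_iff_higherUnits] at hu' hv'
    rw [LEulUnitsA23.eq_of_pow_eq hpu (mul_mem hu' (inv_mem hv')) h1]
  · intro u hu
    obtain ⟨u', hu', rfl⟩ := Subgroup.mem_map.mp (SetLike.mem_coe.mp hu)
    rw [← mem_U1_iff_higherUnits] at hu'
    obtain ⟨v', hv', hvu⟩ := LEulUnitsA23.exists_pow_eq hpu hu'
    refine ⟨incl q E v', (incl_mem_UE_one_iff q E).mpr hv', ?_⟩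
    show incl q E v' ^ p = incl q E u'
    rw [← map_pow, hvu]

/-! ### (3) -/

theorem card_residueField : Nat.card (ResidueField (intRing q E)) = resCard q E :=
  card_resField q E

/-- The `p`-th roots of unity of `𝒪` and of `E` are the same. -/
theorem exists_rootsOfUnity_intRing {p : ℕ} (hp0 : p ≠ 0) (ζ : rootsOfUnity p E) :
    ∃ ζ' : rootsOfUnity p (intRing q E), incl q E (ζ' : (intRing q E)ˣ) = (ζ : Eˣ) := by
  have hζ : (ζ : Eˣ) ^ p = 1 := (mem_rootsOfUnity _ _).mp ζ.2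
  have hu : (ζ : Eˣ) ∈ unitGroup q E := mem_unitGroup_of_pow_eq_one q E hp0 hζ
  refine ⟨⟨ofUnitGroup q E ζ hu, ?_⟩, incl_ofUnitGroup q E ζ hu⟩
  rw [mem_rootsOfUnity]
  apply incl_injective q E
  rw [map_pow, incl_ofUnitGroup, hζ, map_one]

/-- **(3a)** If `E` contains a primitive `p`-th root of unity, `p ≠ q` prime, then `p ∣ Q - 1`. -/
theorem dvd_resCard_sub_one {p : ℕ} (hp : p.Prime) (hqp : q ≠ p) {ζ : E}
    (hζ : IsPrimitiveRoot ζ p) : p ∣ resCard q E - 1 := by
  have hpu := isUnit_natCast q E hp hqp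
  have hζu : IsUnit ζ := hζ.isUnit hp.ne_zero
  have hζp : hζu.unit ^ p = 1 := by
    apply Units.ext
    rw [Units.val_pow_eq_pow_val, IsUnit.unit_spec, hζ.pow_eq_one, Units.val_one]
  obtain ⟨ζ', hζ'⟩ := exists_rootsOfUnity_intRing q E hp.ne_zero ⟨hζu.unit, hζp⟩
  set x := LEulUnitsA23.redRoots (intRing q E) p ζ' with hx
  have hx1 : x ≠ 1 := by
    intro h
    have h1 : ζ' = 1 := LEulUnitsA23.redRoots_injective hpu (h.trans (map_one _).symm)
    rw [h1] at hζ'
    have h2 : ζ = 1 := by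
      have := congrArg (fun z : Eˣ => (z : E)) hζ'
      simpa using this.symm
    exact hζ.ne_one hp.one_lt h2
  have hxp : (x : (ResidueField (intRing q E))ˣ) ^ p = 1 := (mem_rootsOfUnity _ _).mp x.2
  have hord : orderOf (x : (ResidueField (intRing q E))ˣ) = p := by
    have : Fact p.Prime := ⟨hp⟩
    refine orderOf_eq_prime hxp ?_
    intro h
    exact hx1 (Subtype.ext h)
  rw [← card_residueField, ← LEulUnitsA23.card_units_residueField, ← hord]
  exact orderOf_dvd_natCard _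

variable {p : ℕ}

theorem dvd_card_sub_one (hp : p ∣ resCard q E - 1) :
    p ∣ Nat.card (ResidueField (intRing q E)) - 1 := by
  rwa [card_residueField]

/-- **(3b) The tame symbol** `𝒪ˣ → μ_p(E)`, `u ↦` the `p`-th root of unity congruent to
`u ^ ((Q - 1) / p)` modulo `𝔪`. -/
def thetaE (hp : p ∣ resCard q E - 1) : unitGroup q E →* rootsOfUnity p E :=
  (restrictRootsOfUnity ((intRing q E).val : intRing q E →* E) p).comp
    ((LEulUnitsA23.theta (A := intRing q E) (dvd_card_sub_one q E hp)).comp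
      (unitGroupEquiv q E).symm.toMonoidHom)

theorem coe_thetaE (hp : p ∣ resCard q E - 1) (u : unitGroup q E) :
    ((thetaE q E hp u : rootsOfUnity p E) : Eˣ) =
      incl q E (LEulUnitsA23.theta (A := intRing q E) (dvd_card_sub_one q E hp)
        ((unitGroupEquiv q E).symm u)) := rfl

/-- `thetaE u ≡ u ^ ((Q - 1) / p)` modulo `𝔪`. -/
theorem thetaE_spec (hp : p ∣ resCard q E - 1) (u : unitGroup q E) :
    (((thetaE q E hp u : rootsOfUnity p E) : Eˣ) : E) -
      (((u : Eˣ) : E)) ^ ((resCard q E - 1) / p) ∈ mPow q E 1 := by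
  have h := LEulUnitsA23.residue_theta (A := intRing q E) (dvd_card_sub_one q E hp)
    ((unitGroupEquiv q E).symm u)
  rw [card_residueField, ← map_pow, ← sub_eq_zero, ← map_sub, residue_eq_zero_iff] at h
  have h2 := (coe_mem_mPow q E (n := 1) _).mpr (by rw [pow_one]; exact h)
  have h3 : (((unitGroupEquiv q E).symm u : (intRing q E)ˣ) : intRing q E) =
      ⟨((u : Eˣ) : E), u.2.1⟩ := by
    rw [unitGroupEquiv_symm_eq]
    rfl
  rw [h3] at h2
  exact h2

theorem thetaE_surjective (hp : p ∣ resCard q E - 1) :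
    Function.Surjective (thetaE q E hp) := by
  intro ζ
  have hQ : 1 < resCard q E := one_lt_resCard q E
  have hp0 : p ≠ 0 := by
    rintro rfl
    rw [zero_dvd_iff] at hp
    omega
  obtain ⟨ζ', hζ'⟩ := exists_rootsOfUnity_intRing q E hp0 ζ
  obtain ⟨u', hu'⟩ := LEulUnitsA23.theta_surjective (A := intRing q E) (dvd_card_sub_one q E hp) ζ'
  refine ⟨unitGroupEquiv q E u', ?_⟩
  apply Subtype.ext
  rw [coe_thetaE, MulEquiv.symm_apply_apply, hu', hζ']

/-- The kernel of the tame symbol: the `p`-th powers of units. -/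
theorem thetaE_eq_one_iff (hp : p ∣ resCard q E - 1) (u : unitGroup q E) :
    thetaE q E hp u = 1 ↔ ∃ v ∈ unitGroup q E, v ^ p = (u : Eˣ) := by
  have key : thetaE q E hp u = 1 ↔
      LEulUnitsA23.theta (A := intRing q E) (dvd_card_sub_one q E hp)
        ((unitGroupEquiv q E).symm u) = 1 := by
    rw [Subtype.ext_iff, coe_thetaE]
    constructor
    · intro h
      apply Subtype.ext
      apply incl_injective q E
      rw [h]
      simp
    · intro h
      rw [h]
      simp
  rw [key, LEulUnitsA23.theta_eq_one_iff]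
  constructor
  · rintro ⟨v, hv⟩
    refine ⟨incl q E v, incl_mem_unitGroup q E v, ?_⟩
    rw [← map_pow, hv, incl_unitGroupEquiv_symm]
  · rintro ⟨v, hv, hvu⟩
    refine ⟨(unitGroupEquiv q E).symm ⟨v, hv⟩, ?_⟩
    apply incl_injective q E
    rw [map_pow, incl_unitGroupEquiv_symm, incl_unitGroupEquiv_symm]
    exact hvu

/-- Equivariance of the tame symbol. -/
theorem thetaE_map (hp : p ∣ resCard q E - 1) (σ : E ≃ₐ[ℚ_[q]] E) (u : unitGroup q E) :
    ((thetaE q E hp ⟨Units.map (σ : E →* E) u, (map_mem_unitGroup_iff q E σ u).mpr u.2⟩ :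
        rootsOfUnity p E) : Eˣ) =
      Units.map (σ : E →* E) ((thetaE q E hp u : rootsOfUnity p E) : Eˣ) := by
  apply Units.ext
  rw [coe_thetaE, coe_thetaE, coe_incl]
  have h1 : (unitGroupEquiv q E).symm
      ⟨Units.map (σ : E →* E) u, (map_mem_unitGroup_iff q E σ u).mpr u.2⟩ =
      Units.map (intAutQ q E σ : intRing q E →* intRing q E) ((unitGroupEquiv q E).symm u) := by
    apply incl_injective q E
    rw [incl_unitGroupEquiv_symm, incl_map, incl_unitGroupEquiv_symm]
  rw [h1, LEulUnitsA23.theta_map, coe_intAutQ]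
  rfl

end

end Fermat.Agent.TW.LEulUnitsAE23
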