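/-
Programme TW (S56), sub-programme C4 (local Euler characteristic, architect helper74), brick
C4-LF-ASM (helper10), part A: the interface shapes `LEulIface74.LFaPrime` and
`LEulIface74.LFaCount` (valuation sequence `1 → 𝒪ˣ → Eˣ → ℤ → 0` and finite index of `U⁽ⁿ⁾` in
counting form), from helper23's unit structure (`LEulDefsE23`, `LEulUnitsAE23`) and helper74's
counting calculus (`LocECCount74`).
-/
import Mathlib
import Fermat.Agent.TW.LEulIface74
import Fermat.Agent.TW.LocECGrpRing74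
import Fermat.Agent.TW.LEulUnitsAE23
import Fermat.Agent.TW.LEulCountB49
import Fermat.Agent.TW.LEulLatticeIdx10

set_option autoImplicit false
set_option linter.unusedSectionVars false

namespace Fermat.Agent.TW.LEulAsmA10

open Fermat.Agent.PT.LOC.Interface12 Fermat.Agent.PT.LOC.Structure14
open Fermat.Agent.TW.LocECCount74 Fermat.Agent.TW.LocECGrpRing74 Fermat.Agent.TW.LEulIface74
open Fermat.Agent.TW.LEulCountB49

noncomputable section

/-! ### The abstract count: finite-by-torsion-free quotients -/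

section Abstract

universe u v

variable {R : Type u} [Ring R] {p : ℕ}
variable {A X Z : Type v} [AddCommGroup A] [Module R A] [AddCommGroup X] [Module R X]
  [AddCommGroup Z] [Module R Z]

/-- If `X/S` is an extension of a `p`-torsion-free module `Z` by a finite module, then
`#Hom(A,S[p]) · #Hom(A,X/p) = #Hom(A,X[p]) · #Hom(A,S/p) · #Hom(A,Z/p)`. -/
theorem cnt_of_finite_by_torsionFree [Finite A] (hA : IsPProj R p A) (S : Submodule R X)
    (f : X →ₗ[R] Z) (hf : Function.Surjective f) (hS : S ≤ LinearMap.ker f)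
    (hZ : ∀ z : Z, p • z = 0 → z = 0)
    (hfin : Finite (LinearMap.ker (S.liftQ f hS))) :
    cnt R A (torP R p S) * cnt R A (cotP R p X) =
      cnt R A (torP R p X) * cnt R A (cotP R p S) * cnt R A (cotP R p Z) := by
  set g : (X ⧸ S) →ₗ[R] Z := S.liftQ f hS with hg
  have hgsurj : Function.Surjective g := by
    intro z
    obtain ⟨x, rfl⟩ := hf z
    exact ⟨Submodule.Quotient.mk x, rfl⟩
  set F : Submodule R (X ⧸ S) := LinearMap.ker g with hF
  have hsn := cnt_snake (p := p) S hA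
  let e : ((X ⧸ S) ⧸ F) ≃ₗ[R] Z := g.quotKerEquivOfSurjective hgsurj
  have hQF : torP R p ((X ⧸ S) ⧸ F) = ⊥ := by
    rw [eq_bot_iff]
    intro y hy
    rw [mem_torP] at hy
    have h1 : p • e y = 0 := by rw [← map_nsmul, hy, map_zero]
    have h2 : e y = 0 := hZ _ h1
    rw [Submodule.mem_bot]
    exact e.injective (h2.trans (map_zero e).symm)
  have h2 := cnt_of_torsionFree_quotient (p := p) F hA hQF
  have h3 := cnt_torP_eq_cnt_cotP_of_finite (p := p) hA F
  have hpos : 0 < cnt R A (cotP R p F) := cnt_pos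
  have h4 : cnt R A (cotP R p ((X ⧸ S) ⧸ F)) = cnt R A (cotP R p Z) :=
    LEulLatticeIdx10.cnt_cotP_congr e
  -- `#Hom(A, Q/p) = #Hom(A, Q[p]) · #Hom(A, Z/p)`
  have h5 : cnt R A (cotP R p (X ⧸ S)) = cnt R A (torP R p (X ⧸ S)) * cnt R A (cotP R p Z) := by
    rw [h3, h4] at h2
    have : cnt R A (cotP R p F) * cnt R A (cotP R p (X ⧸ S)) =
        cnt R A (cotP R p F) * (cnt R A (torP R p (X ⧸ S)) * cnt R A (cotP R p Z)) := by
      rw [h2]
      ring
    exact Nat.eq_of_mul_eq_mul_left hpos this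
  -- `Q[p]` is finite
  have hle : torP R p (X ⧸ S) ≤ F := by
    intro y hy
    rw [mem_torP] at hy
    rw [hF, LinearMap.mem_ker]
    apply hZ
    rw [← map_nsmul, hy, map_zero]
  have hfinT : Finite (torP R p (X ⧸ S)) :=
    Finite.of_injective (Submodule.inclusion hle) (Submodule.inclusion_injective hle)
  have hposT : 0 < cnt R A (torP R p (X ⧸ S)) := cnt_pos
  rw [h5] at hsn
  have : cnt R A (torP R p (X ⧸ S)) * (cnt R A (torP R p S) * cnt R A (cotP R p X)) =
      cnt R A (torP R p (X ⧸ S)) *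
        (cnt R A (torP R p X) * cnt R A (cotP R p S) * cnt R A (cotP R p Z)) := by
    calc _ = cnt R A (torP R p S) * cnt R A (torP R p (X ⧸ S)) * cnt R A (cotP R p X) := by ring
      _ = _ := by rw [hsn]; ring
  exact Nat.eq_of_mul_eq_mul_left hposT this

end Abstract

/-! ### The valuation on a units model -/

variable (q : ℕ) [Fact q.Prime] (E : Type) [Field E] [Algebra ℚ_[q] E]
  [FiniteDimensional ℚ_[q] E]

/-- **LF-A (`q ≠ p`)**: `x ↦ x ^ p` is bijective on `U⁽¹⁾`. -/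
theorem lfaPrime (p : ℕ) [Fact p.Prime] : LFaPrime q E p := by
  intro hqp u hu
  have hb := LEulUnitsAE23.UE_one_pow_bijOn q E (Fact.out : p.Prime) hqp
  have hu' : u ∈ (LEulDefsE23.UE q E 1 : Set Eˣ) := hu
  obtain ⟨v, hv, hvu⟩ := hb.surjOn hu'
  refine ⟨v, ⟨hv, hvu⟩, ?_⟩
  rintro w ⟨hw, hwu⟩
  exact hb.injOn hw hv (hwu.trans hvu.symm)

section Model

variable {E}
variable {Δ : Type} [Group Δ] (ι : Δ →* (E ≃ₐ[ℚ_[q]] E))
variable {X : Type} [AddCommGroup X] [Module (MonoidAlgebra ℤ Δ) X] (eX : X ≃+ Additive Eˣ)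
variable {Z : Type} [AddCommGroup Z] [Module (MonoidAlgebra ℤ Δ) Z] (eZ : Z ≃+ ℤ)

/-- The valuation on the model of `Eˣ`. -/
def ordX : X →+ ℤ where
  toFun x := ord q E (uOf eX x)
  map_zero' := by rw [uOf_zero, ord_one]
  map_add' x y := by rw [uOf_add, ord_mul]

theorem ordX_apply (x : X) : ordX q eX x = ord q E (uOf eX x) := rfl

theorem ordX_surjective : Function.Surjective (ordX q eX) := by
  intro k
  obtain ⟨u, hu⟩ := ord_surjective q E k
  exact ⟨eX.symm (Additive.ofMul u), by rw [ordX_apply, uOf_symm, hu]⟩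

theorem ordX_of_smul (hX : IsUnitsModel q E ι X eX) (δ : Δ) (x : X) :
    ordX q eX (MonoidAlgebra.of ℤ Δ δ • x) = ordX q eX x := by
  rw [ordX_apply, ordX_apply, uOf_of_smul ι eX hX]
  exact LEulDefsE23.ord_map q E (ι δ) (uOf eX x)

/-- The valuation as a `ℤ[Δ]`-linear map to a trivial model of `ℤ`. -/
def ordZ (hX : IsUnitsModel q E ι X eX) (hZ : IsTrivModel (Δ := Δ) Z) :
    X →ₗ[MonoidAlgebra ℤ Δ] Z :=
  linearMapOfEquivariant (eZ.symm.toAddMonoidHom.comp (ordX q eX)) (fun δ x => by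
    rw [hZ]
    show eZ.symm (ordX q eX (MonoidAlgebra.of ℤ Δ δ • x)) = eZ.symm (ordX q eX x)
    rw [ordX_of_smul q ι eX hX])

theorem ordZ_apply (hX : IsUnitsModel q E ι X eX) (hZ : IsTrivModel (Δ := Δ) Z) (x : X) :
    ordZ q ι eX eZ hX hZ x = eZ.symm (ordX q eX x) := rfl

theorem ordZ_eq_zero_iff (hX : IsUnitsModel q E ι X eX) (hZ : IsTrivModel (Δ := Δ) Z) (x : X) :
    ordZ q ι eX eZ hX hZ x = 0 ↔ uOf eX x ∈ unitGroup q E := by
  rw [ordZ_apply, mem_unitGroup_iff_ord, ← ordX_apply]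
  constructor
  · intro h
    have := congrArg eZ h
    rwa [AddEquiv.apply_symm_apply, map_zero] at this
  · intro h
    rw [h, map_zero]

theorem ordZ_surjective (hX : IsUnitsModel q E ι X eX) (hZ : IsTrivModel (Δ := Δ) Z) :
    Function.Surjective (ordZ q ι eX eZ hX hZ) := by
  intro z
  obtain ⟨x, hx⟩ := ordX_surjective q eX (eZ z)
  exact ⟨x, by rw [ordZ_apply, hx, AddEquiv.symm_apply_apply]⟩

include eZ in
theorem torsionFree_of_equiv_int (p : ℕ) [Fact p.Prime] (z : Z) (h : p • z = 0) : z = 0 := by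
  have h1 : p • eZ z = 0 := by rw [← map_nsmul, h, map_zero]
  rw [nsmul_eq_mul] at h1
  have hp0 : ((p : ℕ) : ℤ) ≠ 0 := by exact_mod_cast (Fact.out : p.Prime).ne_zero
  have h2 : eZ z = 0 := (mul_eq_zero.mp h1).resolve_left hp0
  exact eZ.injective (h2.trans (map_zero eZ).symm)

variable {n : ℕ} (S : Submodule (MonoidAlgebra ℤ Δ) X)
  (hS : ∀ x : X, x ∈ S ↔ Additive.toMul (eX x) ∈ UE q E n)

include hS in
theorem le_ker_ordZ (hX : IsUnitsModel q E ι X eX) (hZ : IsTrivModel (Δ := Δ) Z) :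
    S ≤ LinearMap.ker (ordZ q ι eX eZ hX hZ) := by
  intro x hx
  rw [LinearMap.mem_ker, ordZ_eq_zero_iff]
  exact LEulDefsE23.UE_le_unitGroup q E n ((hS x).mp hx)

include hS in
/-- `𝒪ˣ/U⁽ⁿ⁾` is finite, in the model. -/
theorem finite_ker_liftQ (hX : IsUnitsModel q E ι X eX) (hZ : IsTrivModel (Δ := Δ) Z) :
    Finite (LinearMap.ker (S.liftQ (ordZ q ι eX eZ hX hZ) (le_ker_ordZ q ι eX eZ S hS hX hZ))) := by
  classical
  have hfi := LEulDefsE23.finiteIndex_UE q E n
  have hfinQ : Finite (unitGroup q E ⧸ (LEulDefsE23.UE q E n).subgroupOf (unitGroup q E)) :=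
    Subgroup.finite_quotient_of_finiteIndex
  -- choose representatives
  have hrep : ∀ y : LinearMap.ker (S.liftQ (ordZ q ι eX eZ hX hZ)
      (le_ker_ordZ q ι eX eZ S hS hX hZ)), ∃ x : X, Submodule.Quotient.mk x = (y : X ⧸ S) :=
    fun y => Submodule.Quotient.mk_surjective S y.1
  choose r hr using hrep
  have hunit : ∀ y, uOf eX (r y) ∈ unitGroup q E := by
    intro y
    rw [← ordZ_eq_zero_iff q ι eX eZ hX hZ]
    have := y.2
    rw [LinearMap.mem_ker, ← hr y] at this
    exact this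
  refine Finite.of_injective
    (fun y => (QuotientGroup.mk ⟨uOf eX (r y), hunit y⟩ :
      unitGroup q E ⧸ (LEulDefsE23.UE q E n).subgroupOf (unitGroup q E))) ?_
  intro y y' h
  have h1 := QuotientGroup.eq.mp h
  rw [Subgroup.mem_subgroupOf] at h1
  have h2 : (uOf eX (r y))⁻¹ * uOf eX (r y') ∈ LEulDefsE23.UE q E n := h1
  have h3 : uOf eX (-(r y) + r y') = (uOf eX (r y))⁻¹ * uOf eX (r y') := by
    rw [uOf_add]
    congr 1
    apply eq_inv_of_mul_eq_one_left
    rw [← uOf_add, neg_add_cancel, uOf_zero]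
  have h4 : -(r y) + r y' ∈ S := (hS _).mpr (by
    show uOf eX (-(r y) + r y') ∈ LEulDefsE23.UE q E n
    rw [h3]
    exact h2)
  apply Subtype.ext
  rw [← hr y, ← hr y']
  rw [Submodule.Quotient.eq]
  have : r y - r y' = -(-(r y) + r y') := by abel
  rw [this]
  exact S.neg_mem h4

end Model

/-- **LF-A (count)**: the valuation sequence and the finite index of `U⁽ⁿ⁾`, in counting form. -/
theorem lfaCount (p : ℕ) [Fact p.Prime] {Δ : Type} [Group Δ] [Finite Δ]
    (ι : Δ →* (E ≃ₐ[ℚ_[q]] E)) : LFaCount q E p ι := by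
  intro X _ _ eX hX Z _ _ eZ hZ n S hS A _ _ _ _ hA
  exact cnt_of_finite_by_torsionFree hA S (ordZ q ι eX eZ hX hZ) (ordZ_surjective q ι eX eZ hX hZ)
    (le_ker_ordZ q ι eX eZ S hS hX hZ) (torsionFree_of_equiv_int eZ p)
    (finite_ker_liftQ q ι eX eZ S hS hX hZ)

end

end Fermat.Agent.TW.LEulAsmA10
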