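/-
Programme TW (S56), brick C4-LD2, helper64: the statement `LEulIface2_74.LD2Shape` of the C4
interface, proved for the level basis `pullBasis (localGaloisToGlobal q)` (`= levelLoc q`) of the
local Galois group and the mod `p` cyclotomic character `ε = cycloChar p ∘ localGaloisToGlobal q`.
-/
import Mathlib
import Fermat.Agent.PT.BR.DualTwist7
import Fermat.Agent.TW.LEulIface2_74
import Fermat.Agent.TW.LEulEfface64

set_option autoImplicit false
set_option linter.unusedSectionVars false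
set_option linter.style.haveILetI false

namespace Fermat.Agent.TW.LEulEffaceShape64

open ExtCitation
open Fermat.Agent.PT.PRO Fermat.Agent.PT.PRO.LevelCoh28 Fermat.Agent.PT.GLUE.Objects21
open Fermat.Agent.PT.BR Fermat.Agent.TW.LEulDual74 Fermat.Agent.TW.LEulIface2_74
open Fermat.Agent.S14.Fields (zeta zeta_spec)

variable (q : ℕ) [Fact q.Prime] (p : ℕ) [Fact p.Prime]

local notation "Ω" => PadicAlgCl q
local notation "Γq" => (PadicAlgCl q ≃ₐ[ℚ_[q]] PadicAlgCl q)

/-- An element of `Γ_q` fixing a primitive `p`-th root of unity of `ℚ̄_q` has trivial mod `p`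
cyclotomic character. -/
theorem cycloChar_eq_one_of_fix (ζ : Ωˣ) (hζ : IsPrimitiveRoot ζ p) (g : Γq) (hg : g • ζ = ζ) :
    cycloChar p (localGaloisToGlobal q g) = 1 := by
  haveI : NeZero p := ⟨(Fact.out : p.Prime).ne_zero⟩
  rw [DualTwist7.cycloChar_eq_one_iff]
  have hinj : Function.Injective (padicEmbedding q) := (padicEmbedding q).injective
  apply hinj
  rw [padicEmbedding_localGaloisToGlobal]
  have h1 : (padicEmbedding q (zeta p)) ^ p = 1 := by
    rw [← map_pow, (zeta_spec p).pow_eq_one, map_one]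
  have hζ' : IsPrimitiveRoot (ζ : Ω) p := IsPrimitiveRoot.coe_units_iff.2 hζ
  obtain ⟨i, -, hi⟩ := hζ'.eq_pow_of_pow_eq_one h1
  rw [← hi, map_pow]
  congr 1
  exact congrArg Units.val hg

/-- **`LD2Shape`** for any level basis equal to `levelLoc q`. -/
theorem ld2Shape_of_eq (𝓑 : LevelBasis Γq) (h𝓑 : 𝓑 = levelLoc q) :
    LD2Shape (p := p) q 𝓑 ((cycloChar p).comp (localGaloisToGlobal q)) := by
  subst h𝓑
  intro N hfd hN
  obtain ⟨ζ, hζ, V₀, hV₀, hn, hfix, htriv⟩ := LEulEfface64.exists_trivializing q p N hN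
  obtain ⟨V, hV, hVn, hVV₀, hdiv⟩ := LEulEffaceD64.exists_normal_le_dvd_relIndex q p V₀ hV₀
  refine ⟨V₀, hV₀, V, hV, hn, hVn, hVV₀, htriv, fun v hv => ?_, hdiv, fun x => ?_⟩
  · rw [MonoidHom.comp_apply]
    exact cycloChar_eq_one_of_fix q p ζ hζ v (hfix v hv)
  · rw [LEulEfface64.resH2_eq_zero_of_dvd q p N ζ hζ V₀ V ⟨V, hV, le_rfl⟩ hVV₀ hfix htriv hdiv]
    rfl

/-- **`LD2Shape`** for `pullBasis (localGaloisToGlobal q)`. -/
theorem ld2Shape :
    LD2Shape (p := p) q (LevelBridge13.pullBasis (localGaloisToGlobal q))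
      ((cycloChar p).comp (localGaloisToGlobal q)) :=
  ld2Shape_of_eq q p _ (Fermat.Agent.PT.GLUE.BasisCompare13.pullBasis_eq q)

end Fermat.Agent.TW.LEulEffaceShape64
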