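/-
Programme TW (S56), brick C4 (local Euler characteristic), helper64: the LOCAL ASSEMBLY.

`GWIface97.LocalEuler q M` for every `IsGood S M`, from the two remaining inputs for the local
Galois group at `q` with `𝓑q = pullBasis (primeLocalToGlobal q)`,
`εq = (cycloChar p).comp (primeLocalToGlobal q)`:
* `P : LEulDual74.PairData 𝓑q εq`                      (LD1, helper1),
* `LEulAsm64.BaseEverywhere 𝓑q εq (if q = p then 1 else 0)` (BASE numerics, helper10).
LD2 (`LEulEffaceShape64.ld2Shape`), LD3, ADD, ART, FIN are plugged in through `LEulAsm64.euler`.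
-/
import Mathlib
import Fermat.Agent.TW.LEulAsm64
import Fermat.Agent.TW.LEulEffaceShape64

set_option autoImplicit false
set_option linter.unusedSectionVars false
set_option linter.style.haveILetI false

open Module ExtCitation

namespace Fermat.Agent.TW.LEulAsmLoc64

open Fermat.Agent.PT.PRO Fermat.Agent.PT.PRO.LevelCoh28 Fermat.Agent.PT.BR
open Fermat.Agent.PT.BR.LevelBridge13
open Fermat.Agent.TW.Tate62.H0LES Fermat.Agent.TW.Tate62.EulerIneq
open Fermat.Agent.TW.LEulDual74 Fermat.Agent.TW.LEulIface2_74 Fermat.Agent.TW.LEulAsm64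
open Fermat.Agent.TW.GWIface97

local notation "Γ" => (AlgebraicClosure ℚ ≃ₐ[ℚ] AlgebraicClosure ℚ)

variable {p : ℕ} [Fact p.Prime]

/-- The local mod `p` cyclotomic character at `q`. -/
noncomputable abbrev epsLoc (p : ℕ) [Fact p.Prime] (q : Nat.Primes) :
    primeLocalGaloisGroup q →* (ZMod p)ˣ :=
  (cycloChar p).comp (primeLocalToGlobal q)

/-- LD2 in the `Nat.Primes` vocabulary. -/
theorem effaceable (q : Nat.Primes) :
    Effaceable (p := p) (pullBasis (primeLocalToGlobal q)) (epsLoc p q) :=
  haveI : Fact (q : ℕ).Prime := ⟨q.2⟩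
  LEulEffaceShape64.ld2Shape (q : ℕ) p

/-- The restriction to the local group of the Tate dual is the twisted dual of the restriction. -/
theorem h0l_dual (q : Nat.Primes) (M : Rep.{0} (ZMod p) Γ) :
    h0l q (dual M) =
      finrank (ZMod p) (H0 ((Rep.res (primeLocalToGlobal q) M).dualTwist (epsLoc p q))) := by
  refine LEulArtin64.finrank_H0_congr
    (A := Rep.res (primeLocalToGlobal q) (dual M))
    (B := (Rep.res (primeLocalToGlobal q) M).dualTwist (epsLoc p q))
    (LinearEquiv.refl (ZMod p) (Module.Dual (ZMod p) M)) ?_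
  intro g f
  show (M.dualTwist (cycloChar p)).ρ (primeLocalToGlobal q g) f =
    ((Rep.res (primeLocalToGlobal q) M).dualTwist (epsLoc p q)).ρ g f
  rw [Rep.dualTwist_ρ_apply, Rep.dualTwist_ρ_apply, ← map_inv]
  rfl

/-- **The local assembly.** -/
theorem localEuler_of (q : Nat.Primes)
    (P : PairData (pullBasis (primeLocalToGlobal q)) (epsLoc p q))
    (hBase : BaseEverywhere (p := p) (pullBasis (primeLocalToGlobal q)) (epsLoc p q)
      (if (q : ℕ) = p then 1 else 0))
    (S : Finset Nat.Primes) (M : Rep.{0} (ZMod p) Γ) (hM : IsGood S M) : LocalEuler q M := by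
  haveI := hM.fin
  have hfd : FiniteDimensional (ZMod p) (Rep.res (primeLocalToGlobal q) M) :=
    inferInstanceAs (FiniteDimensional (ZMod p) M)
  have hdisc : IsDiscrete (pullBasis (primeLocalToGlobal q)).sets
      (Rep.res (primeLocalToGlobal q) M) :=
    isDiscrete_pullSets M (primeLocalToGlobal q) hM.smooth
  obtain ⟨h1, h2, h3, h4⟩ := euler P (effaceable q) hBase _ hfd hdisc
  refine ⟨h1, h2, ?_, ?_⟩
  · rw [h0l_dual]
    exact h3
  · show finrank (ZMod p) (H1l q M) = h0l q M + finrank (ZMod p) (H2l q M) + _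
    rw [h4]
    show _ + _ + _ = finrank (ZMod p) (H0 (Rep.res (primeLocalToGlobal q) M)) + _ + _
    congr 1
    split_ifs
    · rw [one_mul]
    · rw [zero_mul]

end Fermat.Agent.TW.LEulAsmLoc64
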