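/-
Programme TW (S56), brick C4 (local Euler characteristic, architect helper74), helper23:
CONCRETE LOCAL BRIDGING for the final assembly of `GWIface97.LocalEuler`.

`Γ_q = Gal(ℚ̄_q/ℚ_q)`, `𝓑 = levelLoc q = pullBasis (localGaloisToGlobal q)`,
`ε = cycloChar p ∘ localGaloisToGlobal q`.
-/
import Mathlib
import Fermat.Agent.TW.LEulIface2_74
import Fermat.Agent.TW.LEulEfface74
import Fermat.Agent.TW.LEulEffaceShape64
import Fermat.Agent.TW.LEulArtin64
import Fermat.Agent.PT.GLUE.BasisCompare13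
import Fermat.Agent.TW.GWIface97
import Fermat.Agent.TW.LEulAsmLoc64

set_option autoImplicit false
set_option linter.unusedSectionVars false
set_option linter.style.haveILetI false

open Module

namespace Fermat.Agent.TW.LEulAsmLoc23

open ExtCitation
open Fermat.Agent.PT.PRO Fermat.Agent.PT.PRO.LevelCoh28 Fermat.Agent.PT.GLUE.Objects21
open Fermat.Agent.PT.BR
open Fermat.Agent.TW.Tate62.H0LES Fermat.Agent.TW.Tate62.EulerIneq
open Fermat.Agent.TW.Tate62.ChiAdditive
open Fermat.Agent.TW.LEulDual74 Fermat.Agent.TW.LEulIface2_74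
open Fermat.Agent.S14.Fields (zeta zeta_spec)

variable (q : ℕ) [Fact q.Prime] (p : ℕ) [Fact p.Prime]

local notation "Ω" => PadicAlgCl q
local notation "Γq" => (PadicAlgCl q ≃ₐ[ℚ_[q]] PadicAlgCl q)

/-- The local mod `p` cyclotomic character. -/
noncomputable def eps : Γq →* (ZMod p)ˣ := (cycloChar p).comp (localGaloisToGlobal q)

/-- The local cyclotomic character describes the action on ALL `p`-th roots of unity of
`ℚ̄_q`. -/
theorem eps_spec (ζ : Ω) (hζ : ζ ^ p = 1) (g : Γq) :
    g ζ = ζ ^ ((eps q p g : (ZMod p)ˣ) : ZMod p).val := by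
  haveI : NeZero p := ⟨(Fact.out : p.Prime).ne_zero⟩
  have hprim : IsPrimitiveRoot (padicEmbedding q (zeta p)) p :=
    (zeta_spec p).map_of_injective (padicEmbedding q).injective
  obtain ⟨i, -, hi⟩ := hprim.eq_pow_of_pow_eq_one hζ
  have hz : (localGaloisToGlobal q g) (zeta p) =
      zeta p ^ ((eps q p g : (ZMod p)ˣ) : ZMod p).val := by
    rw [eps, MonoidHom.comp_apply, val_cycloChar]
    exact Fermat.Agent.S14.Fields.apply_zeta p _
  rw [← hi, map_pow, ← padicEmbedding_localGaloisToGlobal, hz, map_pow, ← pow_mul, ← pow_mul,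
    mul_comm]

/-- The level basis of `Γ_q` (all open subgroups, up to cofinality). -/
noncomputable abbrev bas : LevelBasis Γq := LevelBridge13.pullBasis (localGaloisToGlobal q)

/-! ### The Krull-topology hypotheses of `BaseH1` -/

theorem krull_le : ∀ W ∈ (bas q).sets, ∃ F : IntermediateField ℚ_[q] Ω,
    FiniteDimensional ℚ_[q] F ∧ F.fixingSubgroup ≤ W := by
  rintro _ ⟨F, hF, rfl⟩
  exact ⟨LocInj13.localField q F, inferInstance, (LevelBridge13.comap_fixingSubgroup_eq q F).ge⟩

theorem krull_ge : ∀ F : IntermediateField ℚ_[q] Ω, FiniteDimensional ℚ_[q] F →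
    ∃ W ∈ (bas q).sets, W ≤ F.fixingSubgroup :=
  fun F hF => LevelBridge13.exists_le_of_mem_localSets q ⟨F, hF, rfl⟩

/-- `ε` is a level character. -/
theorem isLevelChar_eps : IsLevelChar (bas q).sets (eps q p) := by
  obtain ⟨ζ, hζ, V₀, hV₀, -, hfix, -⟩ :=
    LEulEfface64.exists_trivializing q p (Rep.trivial (ZMod p) Γq (ZMod p))
      (fun m => by
        obtain ⟨U, hU⟩ := (levelLoc q).isBasis.nonempty
        exact ⟨U, hU, fun s _ => rfl⟩)
  refine ⟨V₀, ?_, fun v hv => ?_⟩
  · rw [bas, Fermat.Agent.PT.GLUE.BasisCompare13.pullBasis_eq]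
    exact hV₀
  · exact LEulEffaceShape64.cycloChar_eq_one_of_fix q p ζ hζ v (hfix v hv)

/-- A normal member of the basis on which `ε` is trivial is the fixing subgroup of a finite
normal extension of `ℚ_q` containing the `p`-th roots of unity. -/
theorem exists_field_of_mem (V₀ : Subgroup Γq) (hV₀ : V₀ ∈ (bas q).sets) (hn : V₀.Normal)
    (hε : ∀ v ∈ V₀, eps q p v = 1) :
    ∃ L : IntermediateField ℚ_[q] Ω, FiniteDimensional ℚ_[q] L ∧ Normal ℚ_[q] L ∧
      L.fixingSubgroup = V₀ ∧ ∃ ζ : L, IsPrimitiveRoot ζ p := by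
  haveI : NeZero p := ⟨(Fact.out : p.Prime).ne_zero⟩
  haveI : Fact (1 < p) := ⟨(Fact.out : p.Prime).one_lt⟩
  obtain ⟨F, hF, rfl⟩ := hV₀
  have hfix : (LocInj13.localField q F).fixingSubgroup =
      F.fixingSubgroup.comap (localGaloisToGlobal q) :=
    (LevelBridge13.comap_fixingSubgroup_eq q F).symm
  have hgal : IsGalois ℚ_[q] (LocInj13.localField q F) := by
    rw [← InfiniteGalois.normal_iff_isGalois, hfix]
    exact hn
  have hprim : IsPrimitiveRoot (padicEmbedding q (zeta p)) p :=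
    (zeta_spec p).map_of_injective (padicEmbedding q).injective
  have hmem : padicEmbedding q (zeta p) ∈ LocInj13.localField q F := by
    rw [← InfiniteGalois.fixedField_fixingSubgroup (LocInj13.localField q F),
      IntermediateField.mem_fixedField_iff]
    intro g hg
    rw [hfix] at hg
    rw [eps_spec q p _ hprim.pow_eq_one g, hε g hg, Units.val_one, ZMod.val_one, pow_one]
  refine ⟨LocInj13.localField q F, inferInstance, hgal.to_normal, hfix, ⟨_, hmem⟩, ?_⟩
  exact IsPrimitiveRoot.coe_submonoidClass_iff.1 hprim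

/-! ### From `BaseAt` at the fixing subgroups of finite normal extensions containing `μ_p` to
`BaseEverywhere` -/

/-- **The bridge**: if the BASE formula holds at `Gal(ℚ̄_q/L)` for every finite normal `L/ℚ_q`
containing a primitive `p`-th root of unity (and whose fixing subgroup is a member of the basis),
then it holds "everywhere" in the sense of `LEulAsm64.BaseEverywhere`. -/
theorem baseEverywhere_of (c : ℕ)
    (hL : ∀ L : IntermediateField ℚ_[q] Ω, FiniteDimensional ℚ_[q] L → Normal ℚ_[q] L →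
      (∃ ζ : L, IsPrimitiveRoot ζ p) → L.fixingSubgroup ∈ (bas q).sets →
      BaseAt (p := p) (bas q) (eps q p) c L.fixingSubgroup) :
    LEulAsm64.BaseEverywhere (p := p) (bas q) (eps q p) c := by
  intro X hXfd hX
  have hbas : bas q = levelLoc q := Fermat.Agent.PT.GLUE.BasisCompare13.pullBasis_eq q
  have hX' : IsDiscrete (levelLoc q).sets X := by rw [← hbas]; exact hX
  obtain ⟨ζ, hζ, V₀, hV₀, hn, hfix, htriv⟩ := LEulEfface64.exists_trivializing q p X hX'
  have hV₀' : V₀ ∈ (bas q).sets := by rw [hbas]; exact hV₀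
  have hε : ∀ v ∈ V₀, eps q p v = 1 := fun v hv =>
    LEulEffaceShape64.cycloChar_eq_one_of_fix q p ζ hζ v (hfix v hv)
  obtain ⟨L, hLfd, hLn, hLV, hζL⟩ := exists_field_of_mem q p V₀ hV₀' hn hε
  refine ⟨V₀, hV₀', hn, htriv, hε, ?_⟩
  have := hL L hLfd hLn hζL (by rw [hLV]; exact hV₀')
  rwa [hLV] at this

/-- The same in the `Nat.Primes` vocabulary of `GWIface97` / `LEulAsmLoc64`. -/
theorem baseEverywhere_prime_of (q : Nat.Primes) (c : ℕ)
    (hL : haveI : Fact (q : ℕ).Prime := ⟨q.2⟩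
      ∀ L : IntermediateField ℚ_[(q : ℕ)] (PadicAlgCl (q : ℕ)),
      FiniteDimensional ℚ_[(q : ℕ)] L → Normal ℚ_[(q : ℕ)] L →
      (∃ ζ : L, IsPrimitiveRoot ζ p) → L.fixingSubgroup ∈ (bas (q : ℕ)).sets →
      BaseAt (p := p) (bas (q : ℕ)) (eps (q : ℕ) p) c L.fixingSubgroup) :
    LEulAsm64.BaseEverywhere (p := p) (LevelBridge13.pullBasis (primeLocalToGlobal q))
      (LEulAsmLoc64.epsLoc p q) c :=
  haveI : Fact (q : ℕ).Prime := ⟨q.2⟩
  baseEverywhere_of (q : ℕ) p c hL

end Fermat.Agent.TW.LEulAsmLoc23
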