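/-
Programme TW (S56), sub-programme C4 (local Euler characteristic, architect helper74), brick B1 `BaseH1`
(helper49), file a: the ABSTRACT part (group with a level basis, coefficients `𝔽_p`).

`G` a group with level basis `𝓑`, `V ∈ 𝓑.sets` normal, `N` a finite-dimensional `𝔽_p[G]`-module,
`ε : G →* 𝔽_pˣ`, `N^* = N.dualTwist ε`.

* `LevAdd p 𝓑 V hV : AddSubgroup (V → 𝔽_p)` : the additive level maps `V → 𝔽_p`;
* `EqHom` : additive maps `Ψ : N^* → LevAdd` with `Ψ (g • φ) v = ε g * Ψ φ (g⁻¹ v g)`;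
* `homInvEquiv : HomInv 𝓑 N V hV ≃ EqHom` (`f ↦ (φ ↦ φ ∘ f)`; the inverse by biduality);
* `eqHomEquiv : EqHom ≃ (A →ₗ[ℤ[Δ]] C)` for `π : G ↠ Δ`, `A` a `ℤ[Δ]`-model of `N^*`,
  `C` a `ℤ[Δ]`-model of `LevAdd` (with the twisted conjugation action);
* `card_H1_eq` : with `LEulRes49.resH1Equiv` (K1):
  `Finite (H1 𝓑 N) ∧ Nat.card (H1 𝓑 N) = cnt ℤ[Δ] A C`.
-/
import Mathlib
import Fermat.Prelude.Def_GroupCohomology_Selmer
import Fermat.Agent.TW.LEulRes49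
import Fermat.Agent.TW.LocECCount74
import Fermat.Agent.TW.LocECGrpRing74

set_option autoImplicit false
set_option linter.unusedSectionVars false

open Fermat.Agent.PT.PRO.LevelCoh28 Fermat.Agent.TW.LEulRes49
open Fermat.Agent.TW.LocECCount74 Fermat.Agent.TW.LocECGrpRing74

namespace Fermat.Agent.TW.LEulBase49a

noncomputable section

variable {p : ℕ} [Fact p.Prime] {G : Type} [Group G] (𝓑 : LevelBasis G) (N : Rep.{0} (ZMod p) G)
  (V : Subgroup G) [hVn : V.Normal] (hV : V ∈ 𝓑.sets)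

variable (p) in
/-- Additive level maps `V → 𝔽_p`. -/
def LevAdd : AddSubgroup (↥V → ZMod p) where
  carrier := {h | (∀ v w : ↥V, h (v * w) = h v + h w) ∧
    ∃ W ∈ 𝓑.sets, W ≤ V ∧ ∀ v : ↥V, (v : G) ∈ W → h v = 0}
  zero_mem' := ⟨fun _ _ => by simp, V, hV, le_rfl, fun _ _ => rfl⟩
  add_mem' := by
    rintro h h' ⟨h1, W, hW, hWV, h2⟩ ⟨h1', W', hW', hWV', h2'⟩
    refine ⟨fun v w => ?_, ?_⟩
    · simp only [Pi.add_apply, h1, h1']; abel
    · obtain ⟨W'', hW'', hle⟩ := 𝓑.isBasis.directed W hW W' hW'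
      refine ⟨W'', hW'', hle.trans (inf_le_left.trans hWV), fun v hv => ?_⟩
      simp only [Pi.add_apply, h2 v (inf_le_left (a := W) (hle hv)),
        h2' v (inf_le_right (a := W) (hle hv)), add_zero]
  neg_mem' := by
    rintro h ⟨h1, W, hW, hWV, h2⟩
    refine ⟨fun v w => ?_, W, hW, hWV, fun v hv => ?_⟩
    · simp only [Pi.neg_apply, h1, neg_add]
    · simp only [Pi.neg_apply, h2 v hv, neg_zero]

variable {𝓑 V}

omit hVn in
/-- Finitely many elements of `LevAdd` vanish on a common member of the basis. -/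
theorem exists_common_level {ι : Type*} [Finite ι] (h : ι → ↥(LevAdd p 𝓑 V hV)) :
    ∃ W ∈ 𝓑.sets, W ≤ V ∧ ∀ (i : ι) (v : ↥V), (v : G) ∈ W → (h i).1 v = 0 := by
  classical
  have _ := Fintype.ofFinite ι
  have key : ∀ s : Finset ι, ∃ W ∈ 𝓑.sets, W ≤ V ∧
      ∀ i ∈ s, ∀ v : ↥V, (v : G) ∈ W → (h i).1 v = 0 := by
    intro s
    induction s using Finset.induction_on with
    | empty => exact ⟨V, hV, le_rfl, fun i hi => absurd hi (Finset.notMem_empty i)⟩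
    | insert a s _ ih =>
      obtain ⟨W, hW, hWV, hvan⟩ := ih
      obtain ⟨-, W', hW', hWV', hvan'⟩ := (h a).2
      obtain ⟨W'', hW'', hle⟩ := 𝓑.isBasis.directed W hW W' hW'
      refine ⟨W'', hW'', hle.trans (inf_le_left.trans hWV), fun i hi v hv => ?_⟩
      rcases Finset.mem_insert.1 hi with rfl | hi
      · exact hvan' v (inf_le_right (a := W) (hle hv))
      · exact hvan i hi v (inf_le_left (a := W) (hle hv))
  obtain ⟨W, hW, hWV, hvan⟩ := key Finset.univ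
  exact ⟨W, hW, hWV, fun i v hv => hvan i (Finset.mem_univ i) v hv⟩

variable {N}

/-! ### `HomInv → EqHom` -/

theorem comp_mem_levAdd (f : ↥(HomInv 𝓑 N V hV)) (φ : Module.Dual (ZMod p) N) :
    (fun v => φ ((f : ↥V → N) v)) ∈ LevAdd p 𝓑 V hV := by
  obtain ⟨h1, ⟨W, hW, hWV, h2⟩, -⟩ := f.2
  refine ⟨fun v w => ?_, W, hW, hWV, fun v hv => ?_⟩
  · show φ ((f : ↥V → N) (v * w)) = φ ((f : ↥V → N) v) + φ ((f : ↥V → N) w)
    rw [h1, map_add]
  · show φ ((f : ↥V → N) v) = 0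
    rw [h2 v hv, map_zero]

/-- `f ↦ (φ ↦ φ ∘ f)`. -/
def psiOf (f : ↥(HomInv 𝓑 N V hV)) : Module.Dual (ZMod p) N →+ ↥(LevAdd p 𝓑 V hV) where
  toFun φ := ⟨fun v => φ ((f : ↥V → N) v), comp_mem_levAdd hV f φ⟩
  map_zero' := by
    apply Subtype.ext
    funext v
    rfl
  map_add' φ ψ := by
    apply Subtype.ext
    funext v
    rfl

theorem psiOf_apply (f : ↥(HomInv 𝓑 N V hV)) (φ : Module.Dual (ZMod p) N) (v : ↥V) :
    (psiOf hV f φ).1 v = φ ((f : ↥V → N) v) := rfl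

variable (𝓑 N V) in
/-- Equivariant additive maps `N^* → LevAdd`. -/
def EqHom (ε : G →* (ZMod p)ˣ) : Type :=
  {Ψ : Module.Dual (ZMod p) N →+ ↥(LevAdd p 𝓑 V hV) //
    ∀ (g : G) (φ : Module.Dual (ZMod p) N) (v : ↥V),
      (Ψ ((N.dualTwist ε).ρ g φ)).1 v =
        ((ε g : (ZMod p)ˣ) : ZMod p) *
          (Ψ φ).1 (conjV V g⁻¹ v)}

theorem psiOf_equivariant (ε : G →* (ZMod p)ˣ) (f : ↥(HomInv 𝓑 N V hV)) (g : G)
    (φ : Module.Dual (ZMod p) N) (v : ↥V) :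
    (psiOf hV f ((N.dualTwist ε).ρ g φ)).1 v =
      ((ε g : (ZMod p)ˣ) : ZMod p) *
        (psiOf hV f φ).1 (conjV V g⁻¹ v) := by
  rw [psiOf_apply, psiOf_apply, f.2.2.2 g⁻¹ v]
  rfl

/-! ### `EqHom → HomInv` (biduality) -/

variable [FiniteDimensional (ZMod p) N]

/-- Evaluation at `v` of an additive map into `LevAdd`. -/
def evalAt (Ψ : Module.Dual (ZMod p) N →+ ↥(LevAdd p 𝓑 V hV)) (v : ↥V) :
    Module.Dual (ZMod p) N →+ ZMod p :=
  (Pi.evalAddMonoidHom (fun _ : ↥V => ZMod p) v).comp ((LevAdd p 𝓑 V hV).subtype.comp Ψ)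

theorem evalAt_apply (Ψ : Module.Dual (ZMod p) N →+ ↥(LevAdd p 𝓑 V hV)) (v : ↥V)
    (φ : Module.Dual (ZMod p) N) :
    evalAt hV Ψ v φ = (Ψ φ).1 v := rfl

/-- The map `V → N` attached to `Ψ` by biduality. -/
def fOf (Ψ : Module.Dual (ZMod p) N →+ ↥(LevAdd p 𝓑 V hV)) (v : ↥V) : N :=
  (Module.evalEquiv (ZMod p) N).symm (AddMonoidHom.toZModLinearMap p (evalAt hV Ψ v))

theorem apply_fOf (Ψ : Module.Dual (ZMod p) N →+ ↥(LevAdd p 𝓑 V hV)) (v : ↥V)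
    (φ : Module.Dual (ZMod p) N) :
    φ (fOf hV Ψ v) = (Ψ φ).1 v := by
  unfold fOf
  rw [Module.apply_evalEquiv_symm_apply]
  rfl

omit [FiniteDimensional (ZMod p) N] in
theorem eq_of_forall_dual {x y : N} (h : ∀ φ : Module.Dual (ZMod p) N, φ x = φ y) :
    x = y := by
  rw [← sub_eq_zero, ← Module.forall_dual_apply_eq_zero_iff (ZMod p)]
  intro φ
  rw [map_sub, h φ, sub_self]

theorem fOf_mem (ε : G →* (ZMod p)ˣ) (Ψ : EqHom 𝓑 N V hV ε) : fOf hV Ψ.1 ∈ HomInv 𝓑 N V hV := by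
  refine ⟨fun v w => ?_, ?_, fun g v => ?_⟩
  · apply eq_of_forall_dual
    intro φ
    rw [map_add, apply_fOf, apply_fOf, apply_fOf, (Ψ.1 φ).2.1]
  · have : Finite (Module.Dual (ZMod p) N) := Module.finite_of_finite (ZMod p)
    obtain ⟨W, hW, hWV, hvan⟩ := exists_common_level hV (fun φ => Ψ.1 φ)
    refine ⟨W, hW, hWV, fun v hv => ?_⟩
    apply eq_of_forall_dual
    intro φ
    rw [apply_fOf, map_zero, hvan φ v hv]
  · apply eq_of_forall_dual
    intro φ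
    rw [apply_fOf]
    have h1 : φ (N.ρ g (fOf hV Ψ.1 v)) = (φ ∘ₗ N.ρ g) (fOf hV Ψ.1 v) := rfl
    rw [h1, apply_fOf]
    -- equivariance at `g`, for `φ ∘ ρ g`
    have h2 := Ψ.2 g (φ ∘ₗ N.ρ g) (conjV V g v)
    have h3 : (N.dualTwist ε).ρ g (φ ∘ₗ N.ρ g) = ((ε g : (ZMod p)ˣ) : ZMod p) • φ := by
      rw [Rep.dualTwist_ρ_apply]
      congr 1
      ext n
      rw [LinearMap.comp_apply, LinearMap.comp_apply, ← Module.End.mul_apply, ← map_mul,
        mul_inv_cancel, map_one, Module.End.one_apply]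
    have h4 : conjV V g⁻¹ (conjV V g v) = v := by
      apply Subtype.ext
      show g⁻¹ * (g * v * g⁻¹) * g⁻¹⁻¹ = v
      group
    rw [h3, h4] at h2
    have h5 : (Ψ.1 (((ε g : (ZMod p)ˣ) : ZMod p) • φ)).1
        (conjV V g v) = ((ε g : (ZMod p)ˣ) : ZMod p) *
          (Ψ.1 φ).1 (conjV V g v) := by
      have := ZMod.map_smul (evalAt hV Ψ.1 (conjV V g v)) ((ε g : (ZMod p)ˣ) : ZMod p) φ
      rw [evalAt_apply, evalAt_apply, smul_eq_mul] at this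
      exact this
    rw [h5] at h2
    exact (Units.mul_right_inj (ε g)).1 h2

/-- **Biduality**: `HomInv 𝓑 N V ≃ EqHom`. -/
def homInvEquiv (ε : G →* (ZMod p)ˣ) : ↥(HomInv 𝓑 N V hV) ≃ EqHom 𝓑 N V hV ε where
  toFun f := ⟨psiOf hV f, psiOf_equivariant hV ε f⟩
  invFun Ψ := ⟨fOf hV Ψ.1, fOf_mem hV ε Ψ⟩
  left_inv f := by
    apply Subtype.ext
    funext v
    apply eq_of_forall_dual
    intro φ
    rw [apply_fOf]
    rfl
  right_inv Ψ := by
    apply Subtype.ext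
    apply AddMonoidHom.ext
    intro φ
    apply Subtype.ext
    funext v
    exact apply_fOf hV Ψ.1 v φ

/-! ### `EqHom ≃ Hom_{ℤ[Δ]}(A, C)` -/

section Models

variable {Δ : Type} [Group Δ] (π : G →* Δ) (hπ : Function.Surjective π) (ε : G →* (ZMod p)ˣ)
variable {A : Type} [AddCommGroup A] [Module (MonoidAlgebra ℤ Δ) A]
  (eA : A ≃+ (N.dualTwist ε))
  (hA : ∀ (g : G) (a : A),
    eA (MonoidAlgebra.of ℤ Δ (π g) • a) = (N.dualTwist ε).ρ g (eA a))
variable {C : Type} [AddCommGroup C] [Module (MonoidAlgebra ℤ Δ) C]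
  (κ : C ≃+ ↥(LevAdd p 𝓑 V hV))
  (hκ : ∀ (g : G) (c : C) (v : ↥V),
    (κ (MonoidAlgebra.of ℤ Δ (π g) • c)).1 v =
      ((ε g : (ZMod p)ˣ) : ZMod p) * (κ c).1 (conjV V g⁻¹ v))

/-- `EqHom ≃ Hom_{ℤ[Δ]}(A, C)`. -/
def eqHomEquiv : EqHom 𝓑 N V hV ε ≃ (A →ₗ[MonoidAlgebra ℤ Δ] C) where
  toFun Ψ := linearMapOfEquivariant
    ((κ.symm.toAddMonoidHom.comp Ψ.1).comp eA.toAddMonoidHom) (by
      intro δ a
      obtain ⟨g, rfl⟩ := hπ δ
      show κ.symm (Ψ.1 (eA (MonoidAlgebra.of ℤ Δ (π g) • a))) =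
        MonoidAlgebra.of ℤ Δ (π g) • κ.symm (Ψ.1 (eA a))
      apply κ.injective
      apply Subtype.ext
      funext v
      rw [AddEquiv.apply_symm_apply, hA, hκ, AddEquiv.apply_symm_apply]
      exact Ψ.2 g (eA a) v)
  invFun Φ := ⟨(κ.toAddMonoidHom.comp Φ.toAddMonoidHom).comp eA.symm.toAddMonoidHom, by
      intro g φ v
      show (κ (Φ (eA.symm ((N.dualTwist ε).ρ g φ)))).1 v =
        _ * (κ (Φ (eA.symm φ))).1 (conjV V g⁻¹ v)
      have h1 : eA.symm ((N.dualTwist ε).ρ g φ) =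
          MonoidAlgebra.of ℤ Δ (π g) • eA.symm φ := by
        apply eA.injective
        rw [hA, AddEquiv.apply_symm_apply, AddEquiv.apply_symm_apply]
      rw [h1, map_smul, hκ]⟩
  left_inv Ψ := by
    apply Subtype.ext
    apply AddMonoidHom.ext
    intro φ
    show κ (κ.symm (Ψ.1 (eA (eA.symm φ)))) = Ψ.1 φ
    rw [AddEquiv.apply_symm_apply, AddEquiv.apply_symm_apply]
  right_inv Φ := by
    apply LinearMap.ext
    intro a
    show κ.symm (κ (Φ (eA.symm (eA a)))) = Φ a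
    rw [AddEquiv.symm_apply_apply, AddEquiv.symm_apply_apply]

include hπ hA hκ in
/-- **B1, abstract form.**  `#H¹(G, N) = #Hom_{ℤ[Δ]}(A, C)`. -/
theorem card_H1_eq (htriv : ∀ v ∈ V, ∀ n : N, N.ρ v n = n) (hm : (V.index : ZMod p) ≠ 0)
    [Finite C] :
    Finite (H1 𝓑 N) ∧ Nat.card (H1 𝓑 N) = cnt (MonoidAlgebra ℤ Δ) A C := by
  have hfinD : Finite (Module.Dual (ZMod p) N) := Module.finite_of_finite (ZMod p)
  have hfinA : Finite A := Finite.of_equiv _ eA.symm.toEquiv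
  let e : H1 𝓑 N ≃ (A →ₗ[MonoidAlgebra ℤ Δ] C) :=
    ((resH1Equiv hV htriv hm).toEquiv.trans (homInvEquiv hV ε)).trans
      (eqHomEquiv hV π hπ ε eA hA κ hκ)
  exact ⟨Finite.of_equiv _ e.symm, Nat.card_congr e⟩

end Models

end

end Fermat.Agent.TW.LEulBase49a
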