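/-
Programme TW (S56), sub-programme C4 (local Euler characteristic, architect helper74), brick B1 `BaseH1`
(helper49), file b: DISCRETE LOGARITHM with respect to a primitive `p`-th root of unity.

`R` a domain, `z : Rˣ` a primitive `p`-th root of unity (`p` prime).  `dlog hz : Rˣ → ZMod p` with
`dlog hz (z ^ n) = n`; on the `p`-th roots of unity it is the inverse of `a ↦ z ^ a.val`, additive,
and compatible with ring automorphisms (`dlog_map`).
-/
import Mathlib

set_option autoImplicit false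
set_option linter.unusedSectionVars false

namespace Fermat.Agent.TW.LEulBase49b

noncomputable section

variable {R : Type*} [CommRing R] [IsDomain R] {p : ℕ} [Fact p.Prime] {z : Rˣ}
  (hz : IsPrimitiveRoot z p)

instance neZero_of_fact : NeZero p := ⟨(Fact.out : p.Prime).ne_zero⟩

include hz in
theorem exists_pow_eq {x : Rˣ} (hx : x ^ p = 1) : ∃ i < p, z ^ i = x := by
  have hz' : IsPrimitiveRoot (z : R) p := IsPrimitiveRoot.coe_units_iff.2 hz
  have hx' : (x : R) ^ p = 1 := by rw [← Units.val_pow_eq_pow_val, hx, Units.val_one]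
  obtain ⟨i, hi, h⟩ := hz'.eq_pow_of_pow_eq_one hx'
  exact ⟨i, hi, Units.ext (by rw [Units.val_pow_eq_pow_val, h])⟩

open Classical in
/-- The discrete logarithm in base `z` (junk value `0` outside the `p`-th roots of unity). -/
def dlog (x : Rˣ) : ZMod p :=
  if hx : x ^ p = 1 then ((Classical.choose (exists_pow_eq hz hx) : ℕ) : ZMod p) else 0

theorem dlog_pow (n : ℕ) : dlog hz (z ^ n) = (n : ZMod p) := by
  have hzp : z ^ p = 1 := hz.pow_eq_one
  have hx : (z ^ n) ^ p = 1 := by rw [← pow_mul, mul_comm, pow_mul, hzp, one_pow]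
  unfold dlog
  rw [dif_pos hx]
  obtain ⟨hi, h⟩ := Classical.choose_spec (exists_pow_eq hz hx)
  have hp : 0 < p := (Fact.out : p.Prime).pos
  have h2 : z ^ n = z ^ (n % p) := pow_eq_pow_mod n hzp
  have h3 := hz.pow_inj hi (Nat.mod_lt n hp) (h.trans h2)
  rw [h3, ZMod.natCast_mod]

theorem dlog_one : dlog hz (1 : Rˣ) = 0 := by
  have := dlog_pow hz 0
  rwa [pow_zero, Nat.cast_zero] at this

theorem pow_dlog {x : Rˣ} (hx : x ^ p = 1) : z ^ (dlog hz x).val = x := by
  obtain ⟨i, hi, rfl⟩ := exists_pow_eq hz hx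
  rw [dlog_pow, ZMod.val_cast_of_lt hi]

theorem dlog_mul {x y : Rˣ} (hx : x ^ p = 1) (hy : y ^ p = 1) :
    dlog hz (x * y) = dlog hz x + dlog hz y := by
  obtain ⟨i, -, rfl⟩ := exists_pow_eq hz hx
  obtain ⟨j, -, rfl⟩ := exists_pow_eq hz hy
  rw [← pow_add, dlog_pow, dlog_pow, dlog_pow, Nat.cast_add]

theorem dlog_eq_zero_iff {x : Rˣ} (hx : x ^ p = 1) : dlog hz x = 0 ↔ x = 1 := by
  constructor
  · intro h
    have := pow_dlog hz hx
    rw [h, ZMod.val_zero, pow_zero] at this
    exact this.symm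
  · rintro rfl
    exact dlog_one hz

theorem dlog_pow_val (a : ZMod p) : dlog hz (z ^ a.val) = a := by
  rw [dlog_pow, ZMod.natCast_zmod_val]

include hz in
theorem pow_val_add (a b : ZMod p) : z ^ (a + b).val = z ^ a.val * z ^ b.val := by
  rw [ZMod.val_add, ← pow_eq_pow_mod _ hz.pow_eq_one, pow_add]

include hz in
theorem pow_val_pow (a : ZMod p) : (z ^ a.val) ^ p = 1 := by
  rw [← pow_mul, mul_comm, pow_mul, hz.pow_eq_one, one_pow]

/-- Compatibility with a ring automorphism `τ` with `τ z = z ^ c.val`. -/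
theorem dlog_map (τ : R ≃+* R) (c : ZMod p) (hτ : Units.map (τ : R →* R) z = z ^ c.val) {x : Rˣ}
    (hx : x ^ p = 1) : dlog hz (Units.map (τ : R →* R) x) = c * dlog hz x := by
  obtain ⟨i, -, rfl⟩ := exists_pow_eq hz hx
  rw [map_pow, hτ, ← pow_mul, dlog_pow, dlog_pow, Nat.cast_mul, ZMod.natCast_zmod_val]

end

end Fermat.Agent.TW.LEulBase49b
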