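/-
Programme TW (S56), sub-programme C4 (local Euler characteristic, architect helper74), brick C4-K2
(helper49): KUMMER THEORY IN LEVEL FORM.

`Ω/L` a Galois extension in which every element of `L` has a `p`-th root, all `p`-th roots of unity of `Ω`
lying in `L`;  `G = Gal(Ω/L)`.  `LevelHom p` is the group of homomorphisms `χ : G → Ωˣ` of exponent `p`
which are trivial on `Gal(Ω/E)` for some finite subextension `E`.  Then

  `kappa : Lˣ →* LevelHom p`,   `kappa b σ = σ β / β`  (`β ^ p = b`)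

is a surjective homomorphism with kernel the `p`-th powers (`kummerEquiv : Lˣ ⧸ (Lˣ)^p ≃* LevelHom p`),
equivariant for ring automorphisms of `Ω` preserving `L`.
-/
import Mathlib
import Fermat.Agent.PT.BR.InfGalois13

set_option autoImplicit false

open IntermediateField

namespace Fermat.Agent.TW.LEulKummer49

variable {L Ω : Type*} [Field L] [Field Ω] [Algebra L Ω]

section Defs

variable (L Ω) (p : ℕ)

/-- Homomorphisms `Gal(Ω/L) → Ωˣ` of exponent `p`, trivial on `Gal(Ω/E)` for some finite `E/L`. -/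
def LevelHom : Subgroup ((Ω ≃ₐ[L] Ω) → Ωˣ) where
  carrier := {χ | (∀ σ τ, χ (σ * τ) = χ σ * χ τ) ∧ (∀ σ, χ σ ^ p = 1) ∧
    ∃ E : IntermediateField L Ω, FiniteDimensional L E ∧ ∀ σ ∈ E.fixingSubgroup, χ σ = 1}
  one_mem' := ⟨fun _ _ => by simp, fun _ => by simp, ⊥, inferInstance, fun _ _ => rfl⟩
  mul_mem' := by
    rintro χ χ' ⟨h1, h2, E, hE, h3⟩ ⟨h1', h2', E', hE', h3'⟩
    refine ⟨fun σ τ => ?_, fun σ => ?_, E ⊔ E', inferInstance, fun σ hσ => ?_⟩
    · simp only [Pi.mul_apply, h1, h1']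
      exact mul_mul_mul_comm _ _ _ _
    · simp only [Pi.mul_apply, mul_pow, h2, h2', one_mul]
    · have hle : (E ⊔ E').fixingSubgroup ≤ E.fixingSubgroup :=
        IntermediateField.fixingSubgroup_antitone le_sup_left
      have hle' : (E ⊔ E').fixingSubgroup ≤ E'.fixingSubgroup :=
        IntermediateField.fixingSubgroup_antitone le_sup_right
      simp only [Pi.mul_apply, h3 σ (hle hσ), h3' σ (hle' hσ), one_mul]
  inv_mem' := by
    rintro χ ⟨h1, h2, E, hE, h3⟩
    refine ⟨fun σ τ => ?_, fun σ => ?_, E, hE, fun σ hσ => ?_⟩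
    · simp only [Pi.inv_apply, h1, mul_inv]
    · simp only [Pi.inv_apply, inv_pow, h2, inv_one]
    · simp only [Pi.inv_apply, h3 σ hσ, inv_one]

end Defs

/-- `σ ↦ σ β / β`. -/
def kap (β : Ωˣ) : (Ω ≃ₐ[L] Ω) → Ωˣ := fun σ => σ • β / β

theorem kap_apply (β : Ωˣ) (σ : Ω ≃ₐ[L] Ω) : kap β σ = σ • β / β := rfl

theorem kap_mul (β β' : Ωˣ) : kap (L := L) (β * β') = kap β * kap β' := by
  funext σ
  simp only [kap_apply, Pi.mul_apply, smul_mul']
  exact mul_div_mul_comm _ _ _ _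

theorem smul_unit_eq_of_mem_range (σ : Ω ≃ₐ[L] Ω) {u : Ωˣ}
    (hu : (u : Ω) ∈ Set.range (algebraMap L Ω)) : σ • u = u := by
  obtain ⟨x, hx⟩ := hu
  apply Units.ext
  rw [AlgEquiv.smul_units_def, Units.coe_map, MonoidHom.coe_coe, ← hx, AlgEquiv.commutes]

section Main

variable {p : ℕ} (hμ : ∀ ξ : Ω, ξ ^ p = 1 → ξ ∈ Set.range (algebraMap L Ω))

omit hμ in
theorem kap_pow_eq_one {β : Ωˣ} (hβ : (β : Ω) ^ p ∈ Set.range (algebraMap L Ω))
    (σ : Ω ≃ₐ[L] Ω) : kap β σ ^ p = 1 := by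
  have h : σ • (β ^ p) = β ^ p :=
    smul_unit_eq_of_mem_range σ (by rw [Units.val_pow_eq_pow_val]; exact hβ)
  rw [kap_apply, div_pow, ← smul_pow', h, div_self']

include hμ in
theorem kap_val_mem_range {β : Ωˣ} (hβ : (β : Ω) ^ p ∈ Set.range (algebraMap L Ω))
    (σ : Ω ≃ₐ[L] Ω) : ((kap β σ : Ωˣ) : Ω) ∈ Set.range (algebraMap L Ω) := by
  apply hμ
  rw [← Units.val_pow_eq_pow_val, kap_pow_eq_one hβ σ, Units.val_one]

include hμ in
theorem kap_map_mul {β : Ωˣ} (hβ : (β : Ω) ^ p ∈ Set.range (algebraMap L Ω))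
    (σ τ : Ω ≃ₐ[L] Ω) : kap β (σ * τ) = kap β σ * kap β τ := by
  have h1 : τ • β = kap β τ * β := by rw [kap_apply, div_mul_cancel]
  have h2 : σ • kap β τ = kap β τ := smul_unit_eq_of_mem_range σ (kap_val_mem_range hμ hβ τ)
  rw [kap_apply, mul_smul, h1, smul_mul', h2, mul_div_assoc, ← kap_apply, mul_comm]

include hμ in
theorem kap_mem_levelHom [IsGalois L Ω] {β : Ωˣ}
    (hβ : (β : Ω) ^ p ∈ Set.range (algebraMap L Ω)) : kap β ∈ LevelHom L Ω p := by
  refine ⟨kap_map_mul hμ hβ, kap_pow_eq_one hβ, L⟮(β : Ω)⟯,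
    IntermediateField.adjoin.finiteDimensional (Algebra.IsIntegral.isIntegral _), fun σ hσ => ?_⟩
  have h := (IntermediateField.mem_fixingSubgroup_iff _ σ).1 hσ (β : Ω)
    (IntermediateField.mem_adjoin_simple_self L (β : Ω))
  have h' : σ • β = β := by
    apply Units.ext
    rw [AlgEquiv.smul_units_def, Units.coe_map, MonoidHom.coe_coe]
    exact h
  rw [kap_apply, h', div_self']

include hμ in
/-- `kap β` only depends on `β ^ p`. -/
theorem kap_eq_of_pow_eq {β β' : Ωˣ} (h : β ^ p = β' ^ p) : kap (L := L) β = kap β' := by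
  have hξ : ((β' / β : Ωˣ) : Ω) ^ p = 1 := by
    rw [← Units.val_pow_eq_pow_val, div_pow, h, div_self', Units.val_one]
  funext σ
  have h1 : σ • (β' / β) = β' / β := smul_unit_eq_of_mem_range σ (hμ _ hξ)
  have h2 : β' = (β' / β) * β := by rw [div_mul_cancel]
  rw [kap_apply, kap_apply]
  conv_rhs => rw [h2, smul_mul', h1]
  rw [mul_div_mul_left_eq_div]

variable (hp : 0 < p) (hroot : ∀ b : L, ∃ β : Ω, β ^ p = algebraMap L Ω b)

/-- A chosen `p`-th root of `b ∈ Lˣ` in `Ωˣ`. -/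
noncomputable def root (b : Lˣ) : Ωˣ :=
  Units.mk0 (Classical.choose (hroot (b : L))) (by
    intro h0
    have h := Classical.choose_spec (hroot (b : L))
    rw [h0, zero_pow hp.ne'] at h
    exact (map_ne_zero_iff _ (algebraMap L Ω).injective).mpr b.ne_zero h.symm)

theorem root_pow (b : Lˣ) : ((root hp hroot b : Ωˣ) : Ω) ^ p = algebraMap L Ω (b : L) :=
  Classical.choose_spec (hroot (b : L))

theorem root_pow_mem_range (b : Lˣ) :
    ((root hp hroot b : Ωˣ) : Ω) ^ p ∈ Set.range (algebraMap L Ω) :=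
  ⟨(b : L), (root_pow hp hroot b).symm⟩

variable [IsGalois L Ω]

/-- **The Kummer map** `Lˣ → LevelHom p`, `b ↦ (σ ↦ σ β / β)`, `β ^ p = b`. -/
noncomputable def kappa : Lˣ →* LevelHom L Ω p where
  toFun b := ⟨kap (root hp hroot b), kap_mem_levelHom hμ (root_pow_mem_range hp hroot b)⟩
  map_one' := by
    apply Subtype.ext
    show kap (root hp hroot 1) = 1
    have h : root hp hroot (1 : Lˣ) ^ p = (1 : Ωˣ) ^ p := by
      apply Units.ext
      rw [Units.val_pow_eq_pow_val, root_pow, Units.val_one, map_one, one_pow, Units.val_one]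
    rw [kap_eq_of_pow_eq hμ h]
    funext σ
    rw [kap_apply, smul_one, div_one, Pi.one_apply]
  map_mul' b b' := by
    apply Subtype.ext
    show kap (root hp hroot (b * b')) = kap (root hp hroot b) * kap (root hp hroot b')
    have h : root hp hroot (b * b') ^ p = (root hp hroot b * root hp hroot b') ^ p := by
      apply Units.ext
      rw [Units.val_pow_eq_pow_val, root_pow, Units.val_mul, map_mul, Units.val_pow_eq_pow_val,
        Units.val_mul, mul_pow, root_pow, root_pow]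
    rw [kap_eq_of_pow_eq hμ h, kap_mul]

theorem kappa_eq_kap (b : Lˣ) {β : Ωˣ} (hβ : (β : Ω) ^ p = algebraMap L Ω (b : L)) :
    ((kappa hμ hp hroot b : LevelHom L Ω p) : (Ω ≃ₐ[L] Ω) → Ωˣ) = kap β := by
  show kap (root hp hroot b) = kap β
  apply kap_eq_of_pow_eq hμ
  apply Units.ext
  rw [Units.val_pow_eq_pow_val, root_pow, Units.val_pow_eq_pow_val, hβ]

theorem kappa_apply (b : Lˣ) {β : Ωˣ} (hβ : (β : Ω) ^ p = algebraMap L Ω (b : L))
    (σ : Ω ≃ₐ[L] Ω) :
    ((kappa hμ hp hroot b : LevelHom L Ω p) : (Ω ≃ₐ[L] Ω) → Ωˣ) σ = σ • β / β := by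
  rw [kappa_eq_kap hμ hp hroot b hβ, kap_apply]

/-- The kernel of the Kummer map is the group of `p`-th powers. -/
theorem kappa_eq_one_iff (b : Lˣ) : kappa hμ hp hroot b = 1 ↔ ∃ c : Lˣ, c ^ p = b := by
  constructor
  · intro h
    have h1 : ∀ σ : Ω ≃ₐ[L] Ω, σ ((root hp hroot b : Ωˣ) : Ω) = ((root hp hroot b : Ωˣ) : Ω) := by
      intro σ
      have h2 := congrArg (fun χ : LevelHom L Ω p => (χ : (Ω ≃ₐ[L] Ω) → Ωˣ) σ) h
      have h4 : σ • root hp hroot b / root hp hroot b = 1 := h2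
      have h5 : σ • root hp hroot b = root hp hroot b := div_eq_one.mp h4
      have := congrArg (fun u : Ωˣ => (u : Ω)) h5
      simpa [AlgEquiv.smul_units_def] using this
    obtain ⟨c, hc⟩ := (InfiniteGalois.mem_range_algebraMap_iff_fixed _).2 h1
    have hcp : c ^ p = (b : L) := by
      apply (algebraMap L Ω).injective
      rw [map_pow, hc, root_pow]
    have hc0 : c ≠ 0 := by
      intro h0
      rw [h0, zero_pow hp.ne'] at hcp
      exact b.ne_zero hcp.symm
    exact ⟨Units.mk0 c hc0, Units.ext (by rw [Units.val_pow_eq_pow_val, Units.val_mk0, hcp])⟩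
  · rintro ⟨c, rfl⟩
    apply Subtype.ext
    have hβ : ((Units.map (algebraMap L Ω : L →* Ω) c : Ωˣ) : Ω) ^ p
        = algebraMap L Ω ((c ^ p : Lˣ) : L) := by
      rw [Units.coe_map, MonoidHom.coe_coe, Units.val_pow_eq_pow_val, map_pow]
    rw [kappa_eq_kap hμ hp hroot (c ^ p) hβ]
    funext σ
    rw [kap_apply, smul_unit_eq_of_mem_range σ ⟨(c : L), rfl⟩, div_self']
    rfl

theorem kappa_ker : (kappa hμ hp hroot).ker = (powMonoidHom p : Lˣ →* Lˣ).range := by
  ext b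
  rw [MonoidHom.mem_ker, kappa_eq_one_iff, MonoidHom.mem_range]
  rfl

/-- **Surjectivity of the Kummer map** (Hilbert 90 in level form). -/
theorem kappa_surjective : Function.Surjective (kappa hμ hp hroot) := by
  rintro ⟨χ, h1, h2, E, hE, h3⟩
  have hval : ∀ σ, ((χ σ : Ωˣ) : Ω) ∈ Set.range (algebraMap L Ω) := fun σ =>
    hμ _ (by rw [← Units.val_pow_eq_pow_val, h2, Units.val_one])
  obtain ⟨β, hβ⟩ := Fermat.Agent.PT.BR.InfGalois13.hilbert90_level (K := L) (Ω := Ω)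
    (⊤ : Subgroup (Ω ≃ₐ[L] Ω)) E χ
    (fun g s hs => by rw [h1, h3 s hs, mul_one])
    (fun g => by
      obtain ⟨x, hx⟩ := hval g
      rw [← hx]
      exact E.algebraMap_mem x)
    (fun n _ n' _ => by
      rw [h1, smul_unit_eq_of_mem_range n (hval n'), mul_comm])
  have hχ : ∀ σ, χ σ = σ • β / β := fun σ => hβ σ (Subgroup.mem_top σ)
  -- `β ^ p` is fixed by the Galois group
  have hfix : ∀ σ : Ω ≃ₐ[L] Ω, σ ((β : Ω) ^ p) = (β : Ω) ^ p := by
    intro σ
    have h4 : σ • β = χ σ * β := by rw [hχ σ, div_mul_cancel]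
    have h5 : (σ • β) ^ p = β ^ p := by rw [h4, mul_pow, h2, one_mul]
    have := congrArg (fun u : Ωˣ => (u : Ω)) h5
    simpa [AlgEquiv.smul_units_def] using this
  obtain ⟨b, hb⟩ := (InfiniteGalois.mem_range_algebraMap_iff_fixed _).2 hfix
  have hb0 : b ≠ 0 := by
    intro h0
    rw [h0, map_zero] at hb
    exact (pow_ne_zero p β.ne_zero) hb.symm
  refine ⟨Units.mk0 b hb0, ?_⟩
  apply Subtype.ext
  rw [kappa_eq_kap hμ hp hroot (Units.mk0 b hb0) (β := β) (by rw [Units.val_mk0, hb])]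
  funext σ
  exact (hχ σ).symm

/-- **C4-K2.**  Kummer theory in level form: `Lˣ ⧸ (Lˣ)^p ≃* LevelHom p`. -/
noncomputable def kummerEquiv :
    Lˣ ⧸ (powMonoidHom p : Lˣ →* Lˣ).range ≃* LevelHom L Ω p :=
  (QuotientGroup.quotientMulEquivOfEq (kappa_ker hμ hp hroot).symm).trans
    (QuotientGroup.quotientKerEquivOfSurjective (kappa hμ hp hroot)
      (kappa_surjective hμ hp hroot))

theorem kummerEquiv_mk (b : Lˣ) :
    kummerEquiv hμ hp hroot (QuotientGroup.mk b) = kappa hμ hp hroot b := rfl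

include hμ hp hroot in
/-- Finiteness transfer. -/
theorem finite_levelHom_iff :
    Finite (LevelHom L Ω p) ↔ Finite (Lˣ ⧸ (powMonoidHom p : Lˣ →* Lˣ).range) :=
  (kummerEquiv hμ hp hroot).toEquiv.finite_iff.symm

/-- **Equivariance.**  Let `τ` be a ring automorphism of `Ω` inducing `τL` on `L`, and let
`v, v' ∈ Gal(Ω/L)` with `v ∘ τ = τ ∘ v'` (i.e. `v' = τ⁻¹ v τ`).  Then
`kappa (τL b) v = τ (kappa b v')`. -/
theorem kappa_equivariant (τ : Ω ≃+* Ω) (τL : L ≃+* L)
    (hτ : ∀ x : L, τ (algebraMap L Ω x) = algebraMap L Ω (τL x))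
    (v v' : Ω ≃ₐ[L] Ω) (hv : ∀ x : Ω, v (τ x) = τ (v' x)) (b : Lˣ) :
    ((kappa hμ hp hroot (Units.map (τL : L →* L) b) : LevelHom L Ω p) : (Ω ≃ₐ[L] Ω) → Ωˣ) v =
      Units.map (τ : Ω →* Ω)
        (((kappa hμ hp hroot b : LevelHom L Ω p) : (Ω ≃ₐ[L] Ω) → Ωˣ) v') := by
  have hβ : ((Units.map (τ : Ω →* Ω) (root hp hroot b) : Ωˣ) : Ω) ^ p
      = algebraMap L Ω ((Units.map (τL : L →* L) b : Lˣ) : L) := by
    rw [Units.coe_map, MonoidHom.coe_coe, ← map_pow, root_pow, hτ]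
    rfl
  rw [kappa_apply hμ hp hroot _ hβ, kappa_apply hμ hp hroot b (root_pow hp hroot b)]
  apply Units.ext
  simp only [AlgEquiv.smul_units_def, Units.val_div_eq_div_val, Units.coe_map, MonoidHom.coe_coe,
    map_div₀]
  rw [hv]

end Main

/-! ### The standing hypotheses in the usual situation -/

section Hyps

/-- If `L` contains a primitive `p`-th root of unity, all `p`-th roots of unity of `Ω` lie in `L`. -/
theorem roots_of_unity_mem_range {p : ℕ} (hp : 0 < p) {ζ : L} (hζ : IsPrimitiveRoot ζ p) (ξ : Ω)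
    (hξ : ξ ^ p = 1) : ξ ∈ Set.range (algebraMap L Ω) := by
  have : NeZero p := ⟨hp.ne'⟩
  have hζ' : IsPrimitiveRoot (algebraMap L Ω ζ) p := hζ.map_of_injective (algebraMap L Ω).injective
  obtain ⟨i, -, hi⟩ := hζ'.eq_pow_of_pow_eq_one hξ
  exact ⟨ζ ^ i, by rw [map_pow, hi]⟩

/-- In an algebraically closed `Ω` every element of `L` has a `p`-th root. -/
theorem exists_root_of_isAlgClosed [IsAlgClosed Ω] {p : ℕ} (hp : 0 < p) (b : L) :
    ∃ β : Ω, β ^ p = algebraMap L Ω b :=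
  IsAlgClosed.exists_pow_nat_eq _ hp

end Hyps

end Fermat.Agent.TW.LEulKummer49
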