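/-
Programme TW (S56), sub-programme C4 (local Euler characteristic, architect helper74), brick B1 `BaseH1`
(helper49), file c: the CONCRETE part (Kummer theory over `L ⊂ Ω = PadicAlgCl q`).

`L/ℚ_q` finite, `ζ ∈ L` a primitive `p`-th root of unity, `V₀ = Gal(Ω/L) ≤ U ≤ Gal(Ω/ℚ_q)`,
`V = V₀ ∩ U` as a subgroup of `U`.
* `toGalL : V ≃* (Ω ≃ₐ[L] Ω)`;
* `logChar` / `expChar` : level characters `Gal(Ω/L) → μ_p` ↔ additive level maps `V → 𝔽_p`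
  (`LEulBase49a.LevAdd`), using the two hypotheses comparing `𝓑` with the Krull topology;
* `kap0 : X →+ LevAdd` (`x ↦ dlog ∘ kappa (u(x))`), kernel `pX`, surjective (Kummer theory
  `LEulKummer49`), hence `kapEquiv : X/pX ≃+ LevAdd`, equivariant (`kapEquiv_of_smul`);
* `baseH1 : LEulIface2_74.BaseH1 (p := p) q`.
-/
import Mathlib
import Fermat.Agent.TW.LEulIface2_74
import Fermat.Agent.TW.LEulBase49a
import Fermat.Agent.TW.LEulBase49b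
import Fermat.Agent.TW.LEulKummer49
import Fermat.Agent.TW.LEulCountB49

set_option autoImplicit false
set_option linter.unusedSectionVars false

open Fermat.Agent.PT.PRO Fermat.Agent.PT.PRO.LevelCoh28
open Fermat.Agent.TW.LEulDual74 Fermat.Agent.TW.LocECCount74 Fermat.Agent.TW.LEulIface74
open Fermat.Agent.TW.LEulRes49 Fermat.Agent.TW.LEulKummer49
open Fermat.Agent.TW.LEulBase49a Fermat.Agent.TW.LEulBase49b

namespace Fermat.Agent.TW.LEulBase49c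

noncomputable section

variable {q : ℕ} [Fact q.Prime] {p : ℕ} [Fact p.Prime]


/-! ### `V = Gal((PadicAlgCl q)/L) ∩ U` and `Gal((PadicAlgCl q)/L)` -/

section Galois

variable (L : IntermediateField ℚ_[q] (PadicAlgCl q)) (U : Subgroup (PadicAlgCl q ≃ₐ[ℚ_[q]] PadicAlgCl q)) (hLU : L.fixingSubgroup ≤ U)

/-- `V = Gal((PadicAlgCl q)/L)` as a subgroup of `U`. -/
abbrev VU : Subgroup ↥U := L.fixingSubgroup.subgroupOf U

/-- `V ≃* Gal((PadicAlgCl q)/L)`. -/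
def toGalL : ↥(VU L U) ≃* ((PadicAlgCl q) ≃ₐ[↥L] (PadicAlgCl q)) :=
  (Subgroup.subgroupOfEquivOfLe hLU).trans (IntermediateField.fixingSubgroupEquiv L)

theorem toGalL_apply (v : ↥(VU L U)) (x : (PadicAlgCl q)) :
    toGalL L U hLU v x = ((v : ↥U) : (PadicAlgCl q ≃ₐ[ℚ_[q]] PadicAlgCl q)) x := rfl

theorem coe_toGalL_symm (σ : (PadicAlgCl q) ≃ₐ[↥L] (PadicAlgCl q)) (x : (PadicAlgCl q)) :
    ((((toGalL L U hLU).symm σ : ↥(VU L U)) : ↥U) : (PadicAlgCl q ≃ₐ[ℚ_[q]] PadicAlgCl q)) x = σ x := by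
  have := toGalL_apply L U hLU ((toGalL L U hLU).symm σ) x
  rw [MulEquiv.apply_symm_apply] at this
  exact this.symm

end Galois

/-! ### The root of unity -/

section Root

variable {L : IntermediateField ℚ_[q] (PadicAlgCl q)} (ζ : ↥L) (hζ : IsPrimitiveRoot ζ p)

/-- `ζ` as a unit of `(PadicAlgCl q)`. -/
def zU : (PadicAlgCl q)ˣ :=
  Units.mk0 ((ζ : ↥L) : (PadicAlgCl q)) (by
    have h := hζ.ne_zero (Fact.out : p.Prime).ne_zero
    intro h0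
    exact h (Subtype.ext h0))

theorem zU_prim : IsPrimitiveRoot (zU ζ hζ) p := by
  rw [← IsPrimitiveRoot.coe_units_iff]
  exact hζ.map_of_injective (algebraMap ↥L (PadicAlgCl q)).injective

include hζ in
theorem hmu (ξ : (PadicAlgCl q)) (hξ : ξ ^ p = 1) : ξ ∈ Set.range (algebraMap ↥L (PadicAlgCl q)) :=
  roots_of_unity_mem_range (Fact.out : p.Prime).pos hζ ξ hξ

/-- The Kummer map of `L` (with values in the level characters of `Gal((PadicAlgCl q)/L)`). -/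
def KAP : (↥L)ˣ →* ↥(LevelHom ↥L (PadicAlgCl q) p) :=
  kappa (hmu ζ hζ) (Fact.out : p.Prime).pos
    (fun b => exists_root_of_isAlgClosed (Fact.out : p.Prime).pos b)

end Root

/-! ### Level characters and additive level maps -/

section Level

variable (𝓑 : LevelBasis (PadicAlgCl q ≃ₐ[ℚ_[q]] PadicAlgCl q))
  (h𝓑1 : ∀ W ∈ 𝓑.sets, ∃ F : IntermediateField ℚ_[q] (PadicAlgCl q),
    FiniteDimensional ℚ_[q] F ∧ F.fixingSubgroup ≤ W)
  (h𝓑2 : ∀ F : IntermediateField ℚ_[q] (PadicAlgCl q), FiniteDimensional ℚ_[q] F →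
    ∃ W ∈ 𝓑.sets, W ≤ F.fixingSubgroup)
  (L : IntermediateField ℚ_[q] (PadicAlgCl q)) [FiniteDimensional ℚ_[q] L]
  (hL : L.fixingSubgroup ∈ 𝓑.sets)
  (ζ : ↥L) (hζ : IsPrimitiveRoot ζ p)
  (U : Subgroup (PadicAlgCl q ≃ₐ[ℚ_[q]] PadicAlgCl q)) (hLU : L.fixingSubgroup ≤ U)

include hL in
theorem hVU : VU L U ∈ (subBasis 𝓑 U).sets := ⟨L.fixingSubgroup, hL, rfl⟩

/-- The discrete logarithm of a level character, as a function on `V`. -/
def logChar (χ : ↥(LevelHom ↥L (PadicAlgCl q) p)) (v : ↥(VU L U)) : ZMod p :=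
  dlog (zU_prim ζ hζ) (χ.1 (toGalL L U hLU v))

include h𝓑2 in
theorem logChar_mem (χ : ↥(LevelHom ↥L (PadicAlgCl q) p)) :
    logChar L ζ hζ U hLU χ ∈ LevAdd p (subBasis 𝓑 U) (VU L U) (hVU 𝓑 L hL U) := by
  obtain ⟨h1, h2, E, hE, h3⟩ := χ.2
  refine ⟨fun v w => ?_, ?_⟩
  · unfold logChar
    rw [map_mul, h1, dlog_mul _ (h2 _) (h2 _)]
  · have hfd : FiniteDimensional ℚ_[q] ↥(E.restrictScalars ℚ_[q]) := by
      have h : Module.Finite ℚ_[q] ↥E := Module.Finite.trans ↥L ↥E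
      exact h
    obtain ⟨W', hW', hle⟩ := h𝓑2 (E.restrictScalars ℚ_[q]) hfd
    have hfix : ∀ g : (PadicAlgCl q ≃ₐ[ℚ_[q]] PadicAlgCl q), g ∈ W' → ∀ x : (PadicAlgCl q), x ∈ E → g x = x := by
      intro g hg x hx
      have := (IntermediateField.mem_fixingSubgroup_iff _ g).1 (hle hg) x
      exact this hx
    refine ⟨W'.subgroupOf U, ⟨W', hW', rfl⟩, ?_, ?_⟩
    · intro u hu
      rw [Subgroup.mem_subgroupOf] at hu ⊢
      rw [IntermediateField.mem_fixingSubgroup_iff]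
      intro x hx
      exact hfix (u : (PadicAlgCl q ≃ₐ[ℚ_[q]] PadicAlgCl q)) hu x (E.algebraMap_mem ⟨x, hx⟩)
    · intro v hv
      rw [Subgroup.mem_subgroupOf] at hv
      have hσ : toGalL L U hLU v ∈ E.fixingSubgroup := by
        rw [IntermediateField.mem_fixingSubgroup_iff]
        intro x hx
        rw [toGalL_apply]
        exact hfix _ hv x hx
      unfold logChar
      rw [h3 _ hσ]
      exact dlog_one _

/-- The character attached to an additive level map. -/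
def expChar (h : ↥(LevAdd p (subBasis 𝓑 U) (VU L U) (hVU 𝓑 L hL U))) (σ : (PadicAlgCl q) ≃ₐ[↥L] (PadicAlgCl q)) : (PadicAlgCl q)ˣ :=
  zU ζ hζ ^ (h.1 ((toGalL L U hLU).symm σ)).val

include h𝓑1 in
theorem expChar_mem (h : ↥(LevAdd p (subBasis 𝓑 U) (VU L U) (hVU 𝓑 L hL U))) :
    expChar 𝓑 L hL ζ hζ U hLU h ∈ LevelHom ↥L (PadicAlgCl q) p := by
  obtain ⟨h1, W, ⟨W', hW', rfl⟩, hWV, h2⟩ := h.2
  refine ⟨fun σ τ => ?_, fun σ => ?_, ?_⟩
  · unfold expChar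
    rw [map_mul, h1, pow_val_add (zU_prim ζ hζ)]
  · exact pow_val_pow (zU_prim ζ hζ) _
  · obtain ⟨F, hF, hFW⟩ := h𝓑1 W' hW'
    refine ⟨IntermediateField.extendScalars (le_sup_left : L ≤ L ⊔ F), ?_, ?_⟩
    · have e1 := IntermediateField.finrank_bot_mul_relfinrank (le_sup_left : L ≤ L ⊔ F)
      have e2 : 0 < Module.finrank ℚ_[q] ↥(L ⊔ F) := Module.finrank_pos
      rw [← e1, IntermediateField.relfinrank_eq_finrank_of_le (le_sup_left : L ≤ L ⊔ F)] at e2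
      exact Module.finite_of_finrank_pos (Nat.pos_of_mul_pos_left e2)
    · intro σ hσ
      have hv : ((((toGalL L U hLU).symm σ : ↥(VU L U)) : ↥U) : (PadicAlgCl q ≃ₐ[ℚ_[q]] PadicAlgCl q)) ∈ W' := by
        apply hFW
        rw [IntermediateField.mem_fixingSubgroup_iff]
        intro x hx
        rw [coe_toGalL_symm]
        have hxE : x ∈ IntermediateField.extendScalars (le_sup_left : L ≤ L ⊔ F) :=
          (IntermediateField.mem_extendScalars _).2 ((le_sup_right : F ≤ L ⊔ F) hx)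
        exact (IntermediateField.mem_fixingSubgroup_iff _ σ).1 hσ x hxE
      unfold expChar
      rw [h2 _ (Subgroup.mem_subgroupOf.2 hv), ZMod.val_zero, pow_zero]

theorem logChar_expChar (h : ↥(LevAdd p (subBasis 𝓑 U) (VU L U) (hVU 𝓑 L hL U)))
    (hmem : expChar 𝓑 L hL ζ hζ U hLU h ∈ LevelHom ↥L (PadicAlgCl q) p) :
    logChar L ζ hζ U hLU ⟨expChar 𝓑 L hL ζ hζ U hLU h, hmem⟩ = h.1 := by
  funext v
  show dlog (zU_prim ζ hζ)
    (zU ζ hζ ^ (h.1 ((toGalL L U hLU).symm (toGalL L U hLU v))).val) = h.1 v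
  rw [MulEquiv.symm_apply_apply, dlog_pow_val]

end Level

/-! ### The Kummer model `X/pX ≃+ LevAdd` -/

section Kummer

open Fermat.Agent.TW.LEulCountB49 (uOf uOf_add uOf_zero uOf_nsmul uOf_symm uOf_injective uOf_of_smul)

variable (𝓑 : LevelBasis (PadicAlgCl q ≃ₐ[ℚ_[q]] PadicAlgCl q))
  (h𝓑1 : ∀ W ∈ 𝓑.sets, ∃ F : IntermediateField ℚ_[q] (PadicAlgCl q),
    FiniteDimensional ℚ_[q] F ∧ F.fixingSubgroup ≤ W)
  (h𝓑2 : ∀ F : IntermediateField ℚ_[q] (PadicAlgCl q), FiniteDimensional ℚ_[q] F →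
    ∃ W ∈ 𝓑.sets, W ≤ F.fixingSubgroup)
  (L : IntermediateField ℚ_[q] (PadicAlgCl q)) [FiniteDimensional ℚ_[q] L]
  (hL : L.fixingSubgroup ∈ 𝓑.sets)
  (ζ : ↥L) (hζ : IsPrimitiveRoot ζ p)
  (U : Subgroup (PadicAlgCl q ≃ₐ[ℚ_[q]] PadicAlgCl q)) (hLU : L.fixingSubgroup ≤ U)
  {Δ : Type} [Group Δ]
  {X : Type} [AddCommGroup X] [Module (MonoidAlgebra ℤ Δ) X] (eX : X ≃+ Additive (↥L)ˣ)

/-- `x ↦ dlog ∘ kappa (u(x))`. -/
def kap0 : X →+ ↥(LevAdd p (subBasis 𝓑 U) (VU L U) (hVU 𝓑 L hL U)) where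
  toFun x := ⟨logChar L ζ hζ U hLU (KAP ζ hζ (uOf eX x)), logChar_mem 𝓑 h𝓑2 L hL ζ hζ U hLU _⟩
  map_zero' := by
    apply Subtype.ext
    funext v
    show dlog (zU_prim ζ hζ) ((KAP ζ hζ (uOf eX 0)).1 (toGalL L U hLU v)) = 0
    rw [uOf_zero, map_one]
    exact dlog_one _
  map_add' x y := by
    apply Subtype.ext
    funext v
    show dlog (zU_prim ζ hζ) ((KAP ζ hζ (uOf eX (x + y))).1 (toGalL L U hLU v)) =
      dlog (zU_prim ζ hζ) ((KAP ζ hζ (uOf eX x)).1 (toGalL L U hLU v)) +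
      dlog (zU_prim ζ hζ) ((KAP ζ hζ (uOf eX y)).1 (toGalL L U hLU v))
    rw [uOf_add, map_mul]
    exact dlog_mul _ ((KAP ζ hζ (uOf eX x)).2.2.1 _) ((KAP ζ hζ (uOf eX y)).2.2.1 _)

theorem kap0_apply (x : X) (v : ↥(VU L U)) :
    (kap0 𝓑 h𝓑2 L hL ζ hζ U hLU eX x).1 v =
      dlog (zU_prim ζ hζ) ((KAP ζ hζ (uOf eX x)).1 (toGalL L U hLU v)) := rfl

theorem kap0_eq_zero_iff (x : X) :
    kap0 𝓑 h𝓑2 L hL ζ hζ U hLU eX x = 0 ↔ x ∈ imP (MonoidAlgebra ℤ Δ) p X := by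
  have hp0 : 0 < p := (Fact.out : p.Prime).pos
  constructor
  · intro h
    have h1 : KAP ζ hζ (uOf eX x) = 1 := by
      apply Subtype.ext
      funext σ
      have h2 := congrArg (fun f : ↥(LevAdd p (subBasis 𝓑 U) (VU L U) (hVU 𝓑 L hL U)) =>
        f.1 ((toGalL L U hLU).symm σ)) h
      have h3 : dlog (zU_prim ζ hζ) ((KAP ζ hζ (uOf eX x)).1
          (toGalL L U hLU ((toGalL L U hLU).symm σ))) = 0 := h2
      rw [MulEquiv.apply_symm_apply, dlog_eq_zero_iff _ ((KAP ζ hζ (uOf eX x)).2.2.1 _)] at h3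
      exact h3
    obtain ⟨c, hc⟩ := (kappa_eq_one_iff (hmu ζ hζ) hp0
      (fun b => exists_root_of_isAlgClosed hp0 b) (uOf eX x)).1 h1
    refine ⟨eX.symm (Additive.ofMul c), ?_⟩
    apply uOf_injective eX
    rw [pMul_apply, uOf_nsmul, uOf_symm, hc]
  · rintro ⟨y, rfl⟩
    have h1 : KAP ζ hζ (uOf eX (p • y)) = 1 :=
      (kappa_eq_one_iff (hmu ζ hζ) hp0 (fun b => exists_root_of_isAlgClosed hp0 b) _).2
        ⟨uOf eX y, (uOf_nsmul eX p y).symm⟩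
    apply Subtype.ext
    funext v
    rw [pMul_apply, kap0_apply, h1]
    exact dlog_one _

include h𝓑1 in
theorem kap0_surjective : Function.Surjective (kap0 𝓑 h𝓑2 L hL ζ hζ U hLU eX) := by
  have hp0 : 0 < p := (Fact.out : p.Prime).pos
  intro h
  have hmem := expChar_mem 𝓑 h𝓑1 L hL ζ hζ U hLU h
  obtain ⟨b, hb⟩ := kappa_surjective (hmu ζ hζ) hp0
    (fun b => exists_root_of_isAlgClosed hp0 b) ⟨expChar 𝓑 L hL ζ hζ U hLU h, hmem⟩
  refine ⟨eX.symm (Additive.ofMul b), ?_⟩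
  apply Subtype.ext
  show logChar L ζ hζ U hLU (KAP ζ hζ (uOf eX (eX.symm (Additive.ofMul b)))) = h.1
  rw [uOf_symm]
  have : KAP ζ hζ b = ⟨expChar 𝓑 L hL ζ hζ U hLU h, hmem⟩ := hb
  rw [this]
  exact logChar_expChar 𝓑 L hL ζ hζ U hLU h hmem

/-- **The Kummer model.**  `X/pX ≃+ LevAdd`. -/
def kapEquiv : cotP (MonoidAlgebra ℤ Δ) p X ≃+
    ↥(LevAdd p (subBasis 𝓑 U) (VU L U) (hVU 𝓑 L hL U)) :=
  ((Submodule.Quotient.restrictScalarsEquiv ℤ (imP (MonoidAlgebra ℤ Δ) p X)).symm.trans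
    ((Submodule.quotEquivOfEq _ _ (by
        ext x
        rw [Submodule.restrictScalars_mem, LinearMap.mem_ker, AddMonoidHom.coe_toIntLinearMap]
        exact (kap0_eq_zero_iff (Δ := Δ) 𝓑 h𝓑2 L hL ζ hζ U hLU eX x).symm :
        (imP (MonoidAlgebra ℤ Δ) p X).restrictScalars ℤ =
          LinearMap.ker (kap0 𝓑 h𝓑2 L hL ζ hζ U hLU eX).toIntLinearMap)).trans
      ((kap0 𝓑 h𝓑2 L hL ζ hζ U hLU eX).toIntLinearMap.quotKerEquivOfSurjective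
        (kap0_surjective 𝓑 h𝓑1 h𝓑2 L hL ζ hζ U hLU eX)))).toAddEquiv

theorem kapEquiv_mk (x : X) :
    kapEquiv 𝓑 h𝓑1 h𝓑2 L hL ζ hζ U hLU eX
      (Submodule.Quotient.mk x : cotP (MonoidAlgebra ℤ Δ) p X) =
      kap0 𝓑 h𝓑2 L hL ζ hζ U hLU eX x := rfl

/-- Equivariance of the Kummer model: `u ∈ U` acts on `LevAdd` by `h ↦ ε(u) · h(u⁻¹ · u)`. -/
theorem kapEquiv_of_smul (π : ↥U →* Δ) (ι : Δ →* (↥L ≃ₐ[ℚ_[q]] ↥L))
    (hι : ∀ (u : ↥U) (x : ↥L), ((ι (π u) x : ↥L) : PadicAlgCl q) =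
      (u : PadicAlgCl q ≃ₐ[ℚ_[q]] PadicAlgCl q) (x : PadicAlgCl q))
    (ε : ↥U →* (ZMod p)ˣ)
    (hε : ∀ u : ↥U, (u : PadicAlgCl q ≃ₐ[ℚ_[q]] PadicAlgCl q) (ζ : PadicAlgCl q) =
      (ζ : PadicAlgCl q) ^ ((ε u : (ZMod p)ˣ) : ZMod p).val)
    (hX : IsUnitsModel q ↥L ι X eX) [hn : (VU L U).Normal]
    (u : ↥U) (c : cotP (MonoidAlgebra ℤ Δ) p X) (v : ↥(VU L U)) :
    (kapEquiv 𝓑 h𝓑1 h𝓑2 L hL ζ hζ U hLU eX (MonoidAlgebra.of ℤ Δ (π u) • c)).1 v =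
      ((ε u : (ZMod p)ˣ) : ZMod p) *
        (kapEquiv 𝓑 h𝓑1 h𝓑2 L hL ζ hζ U hLU eX c).1 (conjV (VU L U) u⁻¹ v) := by
  have hp0 : 0 < p := (Fact.out : p.Prime).pos
  obtain ⟨x, rfl⟩ := Submodule.Quotient.mk_surjective _ c
  rw [← Submodule.Quotient.mk_smul, kapEquiv_mk, kapEquiv_mk, kap0_apply, kap0_apply,
    uOf_of_smul ι eX hX]
  have hτ : ∀ y : ↥L, (u : PadicAlgCl q ≃ₐ[ℚ_[q]] PadicAlgCl q).toRingEquiv
      (algebraMap ↥L (PadicAlgCl q) y) = algebraMap ↥L (PadicAlgCl q) ((ι (π u)).toRingEquiv y) :=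
    fun y => (hι u y).symm
  have hv : ∀ y : PadicAlgCl q, (toGalL L U hLU v)
      ((u : PadicAlgCl q ≃ₐ[ℚ_[q]] PadicAlgCl q).toRingEquiv y) =
      (u : PadicAlgCl q ≃ₐ[ℚ_[q]] PadicAlgCl q).toRingEquiv
        ((toGalL L U hLU (conjV (VU L U) u⁻¹ v)) y) := by
    intro y
    rw [toGalL_apply, toGalL_apply]
    have e : (((conjV (VU L U) u⁻¹ v : ↥(VU L U)) : ↥U) :
        PadicAlgCl q ≃ₐ[ℚ_[q]] PadicAlgCl q) =
        (u : PadicAlgCl q ≃ₐ[ℚ_[q]] PadicAlgCl q)⁻¹ *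
          ((v : ↥U) : PadicAlgCl q ≃ₐ[ℚ_[q]] PadicAlgCl q) *
          (u : PadicAlgCl q ≃ₐ[ℚ_[q]] PadicAlgCl q) := by
      rw [conjV_coe, inv_inv]
      rfl
    rw [e]
    show ((v : ↥U) : PadicAlgCl q ≃ₐ[ℚ_[q]] PadicAlgCl q)
        ((u : PadicAlgCl q ≃ₐ[ℚ_[q]] PadicAlgCl q) y) =
      (u : PadicAlgCl q ≃ₐ[ℚ_[q]] PadicAlgCl q)
        (((u : PadicAlgCl q ≃ₐ[ℚ_[q]] PadicAlgCl q)⁻¹ *
          ((v : ↥U) : PadicAlgCl q ≃ₐ[ℚ_[q]] PadicAlgCl q) *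
          (u : PadicAlgCl q ≃ₐ[ℚ_[q]] PadicAlgCl q)) y)
    rw [AlgEquiv.mul_apply, AlgEquiv.mul_apply, AlgEquiv.aut_inv, AlgEquiv.apply_symm_apply]
  have key := kappa_equivariant (hmu ζ hζ) hp0 (fun b => exists_root_of_isAlgClosed hp0 b)
    (u : PadicAlgCl q ≃ₐ[ℚ_[q]] PadicAlgCl q).toRingEquiv (ι (π u)).toRingEquiv hτ
    (toGalL L U hLU v) (toGalL L U hLU (conjV (VU L U) u⁻¹ v)) hv (uOf eX x)
  have hmap : Units.map (((ι (π u) : ↥L ≃ₐ[ℚ_[q]] ↥L) : ↥L →+* ↥L) : ↥L →* ↥L) (uOf eX x) =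
      Units.map (((ι (π u)).toRingEquiv : ↥L ≃+* ↥L) : ↥L →* ↥L) (uOf eX x) := Units.ext rfl
  rw [hmap]
  have key' : (KAP ζ hζ (Units.map (((ι (π u)).toRingEquiv : ↥L ≃+* ↥L) : ↥L →* ↥L)
      (uOf eX x))).1 (toGalL L U hLU v) =
      Units.map (((u : PadicAlgCl q ≃ₐ[ℚ_[q]] PadicAlgCl q).toRingEquiv :
        PadicAlgCl q ≃+* PadicAlgCl q) : PadicAlgCl q →* PadicAlgCl q)
        ((KAP ζ hζ (uOf eX x)).1 (toGalL L U hLU (conjV (VU L U) u⁻¹ v))) := key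
  rw [key']
  have hτz : Units.map (((u : PadicAlgCl q ≃ₐ[ℚ_[q]] PadicAlgCl q).toRingEquiv :
      PadicAlgCl q ≃+* PadicAlgCl q) : PadicAlgCl q →* PadicAlgCl q) (zU ζ hζ) =
      zU ζ hζ ^ ((ε u : (ZMod p)ˣ) : ZMod p).val := by
    apply Units.ext
    rw [Units.val_pow_eq_pow_val]
    exact hε u
  exact dlog_map (zU_prim ζ hζ) _ _ hτz ((KAP ζ hζ (uOf eX x)).2.2.1 _)

omit [FiniteDimensional ℚ_[q] L] in
include eX in
/-- `X/pX` is finite if `Lˣ/(Lˣ)^p` is. -/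
theorem finite_cotP
    (hfin : Finite ((↥L)ˣ ⧸ (powMonoidHom p : (↥L)ˣ →* (↥L)ˣ).range)) :
    Finite (cotP (MonoidAlgebra ℤ Δ) p X) := by
  let φ : (↥L)ˣ →* Multiplicative (cotP (MonoidAlgebra ℤ Δ) p X) :=
    { toFun := fun b => Multiplicative.ofAdd
        (Submodule.Quotient.mk (eX.symm (Additive.ofMul b)))
      map_one' := by
        rw [ofMul_one, map_zero, Submodule.Quotient.mk_zero, ofAdd_zero]
      map_mul' := fun a b => by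
        rw [ofMul_mul, map_add, Submodule.Quotient.mk_add, ofAdd_add] }
  have hle : (powMonoidHom p : (↥L)ˣ →* (↥L)ˣ).range ≤ φ.ker := by
    rintro _ ⟨c, rfl⟩
    rw [MonoidHom.mem_ker]
    show Multiplicative.ofAdd (Submodule.Quotient.mk (eX.symm (Additive.ofMul (c ^ p)))) = 1
    rw [ofMul_pow, map_nsmul, ← ofAdd_zero]
    congr 1
    rw [Submodule.Quotient.mk_eq_zero]
    exact smul_mem_imP _
  have hsurj : Function.Surjective
      (QuotientGroup.lift (powMonoidHom p : (↥L)ˣ →* (↥L)ˣ).range φ hle) := by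
    intro c
    obtain ⟨x, hx⟩ := Submodule.Quotient.mk_surjective _ (Multiplicative.toAdd c)
    refine ⟨QuotientGroup.mk (Additive.toMul (eX x)), ?_⟩
    rw [QuotientGroup.lift_mk]
    show Multiplicative.ofAdd (Submodule.Quotient.mk (eX.symm (Additive.ofMul
      (Additive.toMul (eX x))))) = c
    rw [ofMul_toMul, AddEquiv.symm_apply_apply, hx, ofAdd_toAdd]
  exact Finite.of_surjective _ hsurj

end Kummer

end

/-- **B1.**  `#H¹(U, N) = #Hom_{ℤ[Δ]}(N^*, Lˣ/p)`: the interface shape `LEulIface2_74.BaseH1`. -/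
theorem baseH1 (q : ℕ) [Fact q.Prime] {p : ℕ} [Fact p.Prime] :
    LEulIface2_74.BaseH1 (p := p) q := by
  intro 𝓑 h𝓑1 h𝓑2 L _ _ hL ζ hζ U hLU hrel ε hε N _ htriv Δ _ _ π hπ hker ι hι X _ _ eX hX
    A _ _ eA hA hfin
  have hn : (VU L U).Normal := by
    have h : VU L U = π.ker := by
      ext u
      rw [MonoidHom.mem_ker, hker, Subgroup.mem_subgroupOf]
    rw [h]
    infer_instance
  have hfinC : Finite (cotP (MonoidAlgebra ℤ Δ) p X) := finite_cotP L eX hfin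
  have hm : ((VU L U).index : ZMod p) ≠ 0 := by
    rw [Ne, ZMod.natCast_eq_zero_iff]
    exact hrel
  exact card_H1_eq (hVU 𝓑 L hL U) π hπ ε eA hA
    (kapEquiv 𝓑 h𝓑1 h𝓑2 L hL ζ hζ U hLU eX)
    (kapEquiv_of_smul 𝓑 h𝓑1 h𝓑2 L hL ζ hζ U hLU eX π ι hι ε hε hX)
    (fun v hv n => htriv v (Subgroup.mem_subgroupOf.1 hv) n) hm

end Fermat.Agent.TW.LEulBase49c
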