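/-
Programme TW (S56), sub-programme C4 (local Euler characteristic, architect helper74), brick
C4-BASE-NUM (helper10), WIRING: the closed input `BaseEverywhere` of the local assembly
`LEulAsmLoc64.localEuler_of`, from `LEulBaseNum10.baseAt_local` and helper23's local bridging
(`LEulAsmLoc23`: `krull_le`, `krull_ge`, `eps_spec`, `baseEverywhere_prime_of`).  Consequently
`GWIface97.LocalEuler q M` follows from the local pairing data `PairData` (LD1) alone
(`localEuler_of_pairData`).
-/
import Mathlib
import Fermat.Agent.TW.LEulBaseNum10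
import Fermat.Agent.TW.LEulAsmLoc23

set_option autoImplicit false
set_option linter.unusedSectionVars false

open ExtCitation
open Fermat.Agent.PT.PRO Fermat.Agent.PT.PRO.LevelCoh28 Fermat.Agent.PT.BR
open Fermat.Agent.TW.LEulDual74 Fermat.Agent.TW.LEulIface2_74

namespace Fermat.Agent.TW.LEulBaseEvery10

variable {p : ℕ} [Fact p.Prime]

/-- **BASE** at every finite normal `L ∋ ζ_p`, for the local group at `q` with its canonical level
basis and the mod `p` cyclotomic character. -/
theorem baseAt_field (q : ℕ) [Fact q.Prime] (L : IntermediateField ℚ_[q] (PadicAlgCl q))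
    (hfd : FiniteDimensional ℚ_[q] L) (hn : Normal ℚ_[q] L) (hζ : ∃ ζ : L, IsPrimitiveRoot ζ p)
    (hmem : L.fixingSubgroup ∈ (LEulAsmLoc23.bas q).sets) :
    BaseAt (p := p) (LEulAsmLoc23.bas q) (LEulAsmLoc23.eps q p) (if q = p then 1 else 0)
      L.fixingSubgroup := by
  obtain ⟨ζ, hζ⟩ := hζ
  refine LEulBaseNum10.baseAt_local (LEulAsmLoc23.bas q) (LEulAsmLoc23.krull_le q)
    (LEulAsmLoc23.krull_ge q) L hmem ζ hζ (LEulAsmLoc23.eps q p) (fun g => ?_)
  refine LEulAsmLoc23.eps_spec q p (ζ : PadicAlgCl q) ?_ g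
  have := congrArg (fun z : L => (z : PadicAlgCl q)) hζ.pow_eq_one
  simpa using this

/-- **`BaseEverywhere`** for the local group at `q`. -/
theorem baseEverywhere (q : Nat.Primes) :
    LEulAsm64.BaseEverywhere (p := p) (LevelBridge13.pullBasis (primeLocalToGlobal q))
      (LEulAsmLoc64.epsLoc p q) (if (q : ℕ) = p then 1 else 0) :=
  haveI : Fact (q : ℕ).Prime := ⟨q.2⟩
  LEulAsmLoc23.baseEverywhere_prime_of p q _ (fun L hfd hn hζ hmem =>
    baseAt_field (q : ℕ) L hfd hn hζ hmem)

/-- **C4**: the local Euler characteristic formula from the local pairing data (LD1) alone. -/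
theorem localEuler_of_pairData (q : Nat.Primes)
    (P : PairData (LevelBridge13.pullBasis (primeLocalToGlobal q)) (LEulAsmLoc64.epsLoc p q))
    (S : Finset Nat.Primes)
    (M : Rep.{0} (ZMod p) (AlgebraicClosure ℚ ≃ₐ[ℚ] AlgebraicClosure ℚ))
    (hM : Fermat.Agent.TW.GWIface97.IsGood S M) : Fermat.Agent.TW.GWIface97.LocalEuler q M :=
  LEulAsmLoc64.localEuler_of q P (baseEverywhere q) S M hM

end Fermat.Agent.TW.LEulBaseEvery10
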