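/-
Programme TW (S56), sub-programme C4 (local Euler characteristic, architect helper74), helper49:
GALOIS-THEORETIC NUMERICS for the step BASE (consumers: C4-BASE-NUM, helper10).

`Ω = PadicAlgCl q`, `L/ℚ_q` finite normal inside `Ω`, `V₀ = L.fixingSubgroup ≤ U ≤ Gal(Ω/ℚ_q)`,
`π : U ↠ Δ` with kernel `V₀`, `ι : Δ →* Gal(L/ℚ_q)` compatible with the action of `U` on `L`
(the hypotheses of `LEulIface2_74.BaseH1`).  Then
* `iota_injective` : `ι` is injective;
* `card_eq_relIndex` : `#Δ = [U : V₀]`;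
* `range_iota` : `ι.range = U.map (restriction to L)`;
* `finrank_fixedField_eq_index` : `[L^Δ : ℚ_q] = [Gal(Ω/ℚ_q) : U]`.
Also the canonical data `Δ = U ⧸ V₀`, `π = mk`, `ι` = restriction (`canDelta`, `canPi`, `canIota`).
-/
import Mathlib
import Fermat.Prelude.Def_ExtEndgame_ProductionDatum

set_option autoImplicit false
set_option linter.unusedSectionVars false

namespace Fermat.Agent.TW.LEulBaseGal49

noncomputable section

variable {q : ℕ} [Fact q.Prime]
  (L : IntermediateField ℚ_[q] (PadicAlgCl q)) [FiniteDimensional ℚ_[q] L] [Normal ℚ_[q] L]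
  (U : Subgroup (PadicAlgCl q ≃ₐ[ℚ_[q]] PadicAlgCl q)) (hLU : L.fixingSubgroup ≤ U)

/-- Restriction `Gal(Ω/ℚ_q) → Gal(L/ℚ_q)`. -/
def resL : (PadicAlgCl q ≃ₐ[ℚ_[q]] PadicAlgCl q) →* (↥L ≃ₐ[ℚ_[q]] ↥L) :=
  AlgEquiv.restrictNormalHom (F := ℚ_[q]) (K₁ := PadicAlgCl q) ↥L

theorem resL_apply (g : PadicAlgCl q ≃ₐ[ℚ_[q]] PadicAlgCl q) (x : ↥L) :
    ((resL L g x : ↥L) : PadicAlgCl q) = g (x : PadicAlgCl q) :=
  AlgEquiv.restrictNormal_commutes g ↥L x

theorem resL_surjective : Function.Surjective (resL L) :=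
  AlgEquiv.restrictNormalHom_surjective (F := ℚ_[q]) (K₁ := ↥L) (PadicAlgCl q)

theorem ker_resL : (resL L).ker = L.fixingSubgroup := IntermediateField.restrictNormalHom_ker L

section Abstract

variable {L U}
variable {Δ : Type} [Group Δ] (π : ↥U →* Δ) (hπ : Function.Surjective π)
  (hker : ∀ u : ↥U, π u = 1 ↔ (u : PadicAlgCl q ≃ₐ[ℚ_[q]] PadicAlgCl q) ∈ L.fixingSubgroup)
  (ι : Δ →* (↥L ≃ₐ[ℚ_[q]] ↥L))
  (hι : ∀ (u : ↥U) (x : ↥L), ((ι (π u) x : ↥L) : PadicAlgCl q) =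
    (u : PadicAlgCl q ≃ₐ[ℚ_[q]] PadicAlgCl q) (x : PadicAlgCl q))

include hπ hker hι in
omit [FiniteDimensional ℚ_[q] L] [Normal ℚ_[q] L] in
theorem iota_injective : Function.Injective ι := by
  rw [injective_iff_map_eq_one]
  intro δ hδ
  obtain ⟨u, rfl⟩ := hπ δ
  rw [hker, IntermediateField.mem_fixingSubgroup_iff]
  intro x hx
  have := hι u ⟨x, hx⟩
  rw [hδ] at this
  exact this.symm

include hπ hker in
omit [FiniteDimensional ℚ_[q] L] [Normal ℚ_[q] L] in
theorem card_eq_relIndex : Nat.card Δ = L.fixingSubgroup.relIndex U := by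
  have h1 : π.ker = L.fixingSubgroup.subgroupOf U := by
    ext u
    rw [MonoidHom.mem_ker, hker, Subgroup.mem_subgroupOf]
  have h2 : π.range = ⊤ := MonoidHom.range_eq_top.2 hπ
  rw [Subgroup.relIndex, ← h1, Subgroup.index_ker, h2]
  exact (Nat.card_congr (Equiv.Set.univ Δ)).symm

include hπ hι in
theorem range_iota : ι.range = U.map (resL L) := by
  have key : ∀ u : ↥U, ι (π u) = resL L (u : PadicAlgCl q ≃ₐ[ℚ_[q]] PadicAlgCl q) := by
    intro u
    ext x
    rw [hι, resL_apply]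
  ext σ
  constructor
  · rintro ⟨δ, rfl⟩
    obtain ⟨u, rfl⟩ := hπ δ
    exact ⟨u, u.2, (key u).symm⟩
  · rintro ⟨g, hg, rfl⟩
    exact ⟨π ⟨g, hg⟩, key ⟨g, hg⟩⟩

include hLU hπ hι in
/-- `[L^Δ : ℚ_q] = [Gal(Ω/ℚ_q) : U]`. -/
theorem finrank_fixedField_eq_index :
    Module.finrank ℚ_[q] (IntermediateField.fixedField ι.range) = U.index := by
  have hgal : IsGalois ℚ_[q] ↥L := ⟨⟩
  rw [IntermediateField.finrank_eq_fixingSubgroup_index,
    IntermediateField.fixingSubgroup_fixedField, range_iota π hπ ι hι,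
    Subgroup.index_map_eq U (resL_surjective L) (by rw [ker_resL]; exact hLU)]

end Abstract

/-! ### The canonical data -/

/-- `V = V₀ ∩ U` is normal in `U`. -/
instance normal_subgroupOf : (L.fixingSubgroup.subgroupOf U).Normal := by
  have h : L.fixingSubgroup.Normal := by
    rw [← ker_resL]
    infer_instance
  exact h.subgroupOf U

/-- `Δ = U ⧸ V₀`. -/
abbrev canDelta : Type := ↥U ⧸ L.fixingSubgroup.subgroupOf U

/-- `π : U → U ⧸ V₀`. -/
def canPi : ↥U →* canDelta L U := QuotientGroup.mk' _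

theorem canPi_surjective : Function.Surjective (canPi L U) := QuotientGroup.mk'_surjective _

theorem canPi_eq_one_iff (u : ↥U) :
    canPi L U u = 1 ↔ (u : PadicAlgCl q ≃ₐ[ℚ_[q]] PadicAlgCl q) ∈ L.fixingSubgroup := by
  unfold canPi
  rw [QuotientGroup.mk'_apply, QuotientGroup.eq_one_iff, Subgroup.mem_subgroupOf]

/-- `ι : U ⧸ V₀ → Gal(L/ℚ_q)`, induced by restriction. -/
def canIota : canDelta L U →* (↥L ≃ₐ[ℚ_[q]] ↥L) :=
  QuotientGroup.lift _ ((resL L).comp U.subtype) (by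
    intro u hu
    rw [Subgroup.mem_subgroupOf, ← ker_resL] at hu
    exact hu)

theorem canIota_apply (u : ↥U) (x : ↥L) :
    ((canIota L U (canPi L U u) x : ↥L) : PadicAlgCl q) =
      (u : PadicAlgCl q ≃ₐ[ℚ_[q]] PadicAlgCl q) (x : PadicAlgCl q) :=
  resL_apply L _ x

theorem finite_canDelta : Finite (canDelta L U) := by
  have hfin : Finite (↥L ≃ₐ[ℚ_[q]] ↥L) := inferInstance
  exact Finite.of_injective (canIota L U)
    (iota_injective (canPi L U) (canPi_surjective L U) (canPi_eq_one_iff L U) (canIota L U)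
      (canIota_apply L U))

end

end Fermat.Agent.TW.LEulBaseGal49
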