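/-
Programme TW (S56), sub-programme C4 (local Euler characteristic, architect helper74), helper49:
proof of the interface shape `LEulIface74.LFfin`: `Eˣ/(Eˣ)^p` is finite, for ALL primes `q`, `p`.

* `wHom π hπ : Eˣ →* unitGroup q E`, `u ↦ u π^(-ord u)` (`π` a uniformizer), `ordMod n : Eˣ →* ℤ/n`;
* `finite_quot_range_pow_of_UE_le` : if some higher unit group `U⁽ᵐ⁾` consists of `p`-th powers then
  `(Eˣ)^p` has finite index in `Eˣ` (it contains the finite-index subgroup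
  `{u | p ∣ ord u, u π^(-ord u) ∈ U⁽ᵐ⁾}`);
* `lffin : LFfin q E p` : `q = p`: `U⁽²ᵉ⁺¹⁾ ⊆ (U⁽ᵉ⁺¹⁾)^p` (`LEulUnitsB49E.exists_pow_eq`);
  `q ≠ p`: `U⁽¹⁾ = (U⁽¹⁾)^p` (`LEulUnitsAE23.UE_one_pow_bijOn`, helper23).
-/
import Mathlib
import Fermat.Agent.TW.LEulIface74
import Fermat.Agent.TW.LEulUnitsB49E
import Fermat.Agent.TW.LEulUnitsAE23

set_option autoImplicit false
set_option linter.unusedSectionVars false

open Fermat.Agent.PT.LOC.Interface12 Fermat.Agent.PT.LOC.Structure14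

namespace Fermat.Agent.TW.LEulFinB49

noncomputable section

section Aux

variable (q : ℕ) [Fact q.Prime] (E : Type) [Field E] [Algebra ℚ_[q] E] [FiniteDimensional ℚ_[q] E]

/-- `u ↦ u π^(-ord u)` as a homomorphism `Eˣ →* 𝒪ˣ`. -/
def wHom (π : Eˣ) (hπ : IsUniformizer q E (π : E)) : Eˣ →* unitGroup q E where
  toFun u := ⟨u * π ^ (-(ord q E u)), mul_zpow_neg_ord_mem_unitGroup q E π hπ u⟩
  map_one' := by
    apply Subtype.ext
    show (1 : Eˣ) * π ^ (-(ord q E 1)) = 1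
    rw [ord_one, neg_zero, zpow_zero, one_mul]
  map_mul' u v := by
    apply Subtype.ext
    show (u * v) * π ^ (-(ord q E (u * v))) = (u * π ^ (-(ord q E u))) * (v * π ^ (-(ord q E v)))
    rw [ord_mul, neg_add, zpow_add, mul_mul_mul_comm]

theorem coe_wHom (π : Eˣ) (hπ : IsUniformizer q E (π : E)) (u : Eˣ) :
    ((wHom q E π hπ u : unitGroup q E) : Eˣ) = u * π ^ (-(ord q E u)) := rfl

theorem wHom_of_mem (π : Eˣ) (hπ : IsUniformizer q E (π : E)) (u : unitGroup q E) :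
    wHom q E π hπ (u : Eˣ) = u := by
  apply Subtype.ext
  rw [coe_wHom, (mem_unitGroup_iff_ord q E _).1 u.2, neg_zero, zpow_zero, mul_one]

theorem wHom_surjective (π : Eˣ) (hπ : IsUniformizer q E (π : E)) :
    Function.Surjective (wHom q E π hπ) := fun u => ⟨u, wHom_of_mem q E π hπ u⟩

/-- `ord` modulo `n`. -/
def ordMod (n : ℕ) : Eˣ →* Multiplicative (ZMod n) :=
  (AddMonoidHom.toMultiplicative (Int.castAddHom (ZMod n))).comp (ordHom q E)

theorem mem_ker_ordMod {n : ℕ} {u : Eˣ} : u ∈ (ordMod q E n).ker ↔ (n : ℤ) ∣ ord q E u := by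
  rw [MonoidHom.mem_ker, ← ZMod.intCast_zmod_eq_zero_iff_dvd]
  rfl

/-- If some higher unit group consists of `p`-th powers, then `Eˣ/(Eˣ)^p` is finite. -/
theorem finite_quot_range_pow_of_UE_le (p : ℕ) [NeZero p] (m : ℕ)
    (h : LEulIface74.UE q E m ≤ (powMonoidHom p : Eˣ →* Eˣ).range) :
    Finite (Eˣ ⧸ (powMonoidHom p : Eˣ →* Eˣ).range) := by
  obtain ⟨π, hπ⟩ := exists_isUniformizer q E
  have hN : ((LEulIface74.UE q E m).subgroupOf (unitGroup q E)).FiniteIndex :=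
    LEulDefsE23.finiteIndex_UE q E m
  have hK1 : (ordMod q E p).ker.FiniteIndex := inferInstance
  have hK2 : (((LEulIface74.UE q E m).subgroupOf (unitGroup q E)).comap
      (wHom q E π hπ)).FiniteIndex := by
    refine ⟨?_⟩
    rw [Subgroup.index_comap_of_surjective _ (wHom_surjective q E π hπ)]
    exact hN.index_ne_zero
  have hK : ((ordMod q E p).ker ⊓ ((LEulIface74.UE q E m).subgroupOf (unitGroup q E)).comap
      (wHom q E π hπ)).FiniteIndex := inferInstance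
  have hle : (ordMod q E p).ker ⊓ ((LEulIface74.UE q E m).subgroupOf (unitGroup q E)).comap
      (wHom q E π hπ) ≤ (powMonoidHom p : Eˣ →* Eˣ).range := by
    rintro u ⟨h1, h2⟩
    obtain ⟨k, hk⟩ := (mem_ker_ordMod q E).1 h1
    have h3 : u * π ^ (-(ord q E u)) ∈ LEulIface74.UE q E m := h2
    obtain ⟨v, hv⟩ := h h3
    refine ⟨v * π ^ k, ?_⟩
    rw [powMonoidHom_apply] at hv ⊢
    rw [mul_pow, hv, ← zpow_natCast (π ^ k) p, ← zpow_mul, mul_comm k, ← hk, mul_assoc,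
      ← zpow_add, neg_add_cancel, zpow_zero, mul_one]
  have := Subgroup.finiteIndex_of_le hle
  exact Subgroup.finite_quotient_of_finiteIndex

end Aux

/-- **LF-fin**: `Eˣ/(Eˣ)^p` is finite (interface shape `LEulIface74.LFfin`, all `q`, `p`). -/
theorem lffin (q : ℕ) [Fact q.Prime] (E : Type) [Field E] [Algebra ℚ_[q] E]
    [FiniteDimensional ℚ_[q] E] (p : ℕ) [Fact p.Prime] : LEulIface74.LFfin E p := by
  have hp : p.Prime := Fact.out
  have : NeZero p := ⟨hp.ne_zero⟩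
  by_cases hqp : q = p
  · subst hqp
    have hq2 : 2 ≤ q := hp.two_le
    have hlt : LEulUnitsB49E.eAbs q E < (q - 1) * (LEulUnitsB49E.eAbs q E + 1) := by
      have h1 : 1 * (LEulUnitsB49E.eAbs q E + 1) ≤ (q - 1) * (LEulUnitsB49E.eAbs q E + 1) :=
        Nat.mul_le_mul_right _ (by omega)
      omega
    apply finite_quot_range_pow_of_UE_le q E q
      ((LEulUnitsB49E.eAbs q E + 1) + LEulUnitsB49E.eAbs q E)
    intro v hv
    obtain ⟨u, -, huv⟩ := LEulUnitsB49E.exists_pow_eq q E hlt hv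
    exact ⟨u, huv⟩
  · apply finite_quot_range_pow_of_UE_le q E p 1
    intro v hv
    obtain ⟨u, -, huv⟩ := (LEulUnitsAE23.UE_one_pow_bijOn q E hp hqp).surjOn hv
    exact ⟨u, huv⟩

end

end Fermat.Agent.TW.LEulFinB49
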