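/-
Programme TW (S56), sub-programme C4 (local Euler characteristic, architect helper74), brick
C4-BASE-NUM (helper10), part M: **Maschke `p`-projectivity**.  For a finite group `Δ` of order prime
to `p`, every `ℤ[Δ]`-module `A` is `p`-projective in the sense of `LocECCount74.IsPProj`:
`ℤ[Δ]`-linear maps out of `A` lift along surjections of `ℤ[Δ]`-modules whose source is killed by `p`
(take an `𝔽_p`-linear section and average).  Mathlib + `LocECCount74`/`LocECGrpRing74` only.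
-/
import Mathlib
import Fermat.Agent.TW.LocECCount74
import Fermat.Agent.TW.LocECGrpRing74

set_option autoImplicit false

namespace Fermat.Agent.TW.LEulMaschke10

open Fermat.Agent.TW.LocECCount74 Fermat.Agent.TW.LocECGrpRing74

universe u v

variable {Δ : Type u} [Group Δ]

section Average

variable [Fintype Δ] {A Y : Type v} [AddCommGroup A] [Module (MonoidAlgebra ℤ Δ) A]
  [AddCommGroup Y] [Module (MonoidAlgebra ℤ Δ) Y]

variable (Δ) in
/-- The (unnormalised) average of an additive map. -/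
noncomputable def avg (g₀ : A →+ Y) : A →+ Y where
  toFun a := ∑ δ : Δ, MonoidAlgebra.of ℤ Δ δ • g₀ (MonoidAlgebra.of ℤ Δ δ⁻¹ • a)
  map_zero' := by simp
  map_add' a b := by
    simp only [smul_add, map_add, Finset.sum_add_distrib]

theorem avg_apply (g₀ : A →+ Y) (a : A) :
    avg Δ g₀ a = ∑ δ : Δ, MonoidAlgebra.of ℤ Δ δ • g₀ (MonoidAlgebra.of ℤ Δ δ⁻¹ • a) := rfl

theorem avg_of_smul (g₀ : A →+ Y) (γ : Δ) (a : A) :
    avg Δ g₀ (MonoidAlgebra.of ℤ Δ γ • a) = MonoidAlgebra.of ℤ Δ γ • avg Δ g₀ a := by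
  rw [avg_apply, avg_apply, Finset.smul_sum]
  refine Fintype.sum_equiv (Equiv.mulLeft γ⁻¹) _ _ (fun δ => ?_)
  rw [Equiv.coe_mulLeft, ← mul_smul, ← mul_smul, ← map_mul, ← map_mul, mul_inv_rev, inv_inv,
    mul_inv_cancel_left]

end Average

/-- **Maschke `p`-projectivity.** -/
theorem isPProj_of_not_dvd [Finite Δ] (p : ℕ) [Fact p.Prime] (hp : ¬ p ∣ Nat.card Δ)
    (A : Type v) [AddCommGroup A] [Module (MonoidAlgebra ℤ Δ) A] :
    IsPProj (MonoidAlgebra ℤ Δ) p A := by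
  classical
  intro Y Y'' _ _ _ _ π hπ hY f
  have : Fintype Δ := Fintype.ofFinite Δ
  have hY'' : ∀ y : Y'', p • y = 0 := by
    intro y
    obtain ⟨x, rfl⟩ := hπ y
    rw [← map_nsmul, hY, map_zero]
  -- an additive section
  obtain ⟨s, hs⟩ : ∃ s : Y'' →+ Y, ∀ y, π (s y) = y := by
    obtain ⟨iY⟩ : Nonempty (Module (ZMod p) Y) := ⟨AddCommGroup.zmodModule hY⟩
    obtain ⟨iY''⟩ : Nonempty (Module (ZMod p) Y'') := ⟨AddCommGroup.zmodModule hY''⟩
    let πz : Y →ₗ[ZMod p] Y'' := AddMonoidHom.toZModLinearMap p π.toAddMonoidHom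
    have hsurj : Function.Surjective πz := hπ
    obtain ⟨s, hs⟩ := πz.exists_rightInverse_of_surjective (LinearMap.range_eq_top.mpr hsurj)
    exact ⟨s.toAddMonoidHom, fun y => LinearMap.congr_fun hs y⟩
  -- the inverse of `#Δ` modulo `p`
  have hp1 : 1 < p := (Fact.out : p.Prime).one_lt
  have hcop : Nat.Coprime (Nat.card Δ) p :=
    ((Nat.Prime.coprime_iff_not_dvd (Fact.out : p.Prime)).mpr hp).symm
  obtain ⟨m', -, hm'⟩ := Nat.exists_mul_mod_eq_one_of_coprime hcop hp1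
  have hmm : Nat.card Δ * m' = p * (Nat.card Δ * m' / p) + 1 := by
    have := Nat.div_add_mod (Nat.card Δ * m') p
    rw [hm'] at this
    exact this.symm
  have hinv : ∀ y : Y'', (Nat.card Δ * m') • y = y := by
    intro y
    rw [hmm, add_smul, mul_smul, hY'', one_smul, zero_add]
  -- the averaged lift
  let g₀ : A →+ Y := s.comp f.toAddMonoidHom
  let g₁ : A →+ Y := m' • avg Δ g₀
  have hg₁ : ∀ (δ : Δ) (a : A),
      g₁ (MonoidAlgebra.of ℤ Δ δ • a) = MonoidAlgebra.of ℤ Δ δ • g₁ a := by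
    intro δ a
    show m' • avg Δ g₀ (MonoidAlgebra.of ℤ Δ δ • a) = MonoidAlgebra.of ℤ Δ δ • (m' • avg Δ g₀ a)
    rw [avg_of_smul, smul_comm]
  refine ⟨linearMapOfEquivariant g₁ hg₁, ?_⟩
  ext a
  show π (m' • avg Δ g₀ a) = f a
  rw [map_nsmul, avg_apply, map_sum]
  have hterm : ∀ δ : Δ, π (MonoidAlgebra.of ℤ Δ δ • g₀ (MonoidAlgebra.of ℤ Δ δ⁻¹ • a)) = f a := by
    intro δ
    rw [map_smul]
    show MonoidAlgebra.of ℤ Δ δ • π (s (f (MonoidAlgebra.of ℤ Δ δ⁻¹ • a))) = f a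
    rw [hs, map_smul, ← mul_smul, ← map_mul, mul_inv_cancel, map_one, one_smul]
  rw [Finset.sum_congr rfl (fun δ _ => hterm δ), Finset.sum_const, Finset.card_univ,
    ← Nat.card_eq_fintype_card, ← mul_smul, mul_comm]
  exact hinv (f a)

end Fermat.Agent.TW.LEulMaschke10
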