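/-
Programme TW (S56), sub-programme C4 (local Euler characteristic, architect helper74), helper49:
`BaseH1 ∘ LFCount` FOR THE CANONICAL DATA (consumers: C4-BASE-NUM, helper10).

`Ω = PadicAlgCl q`, `L/ℚ_q` finite normal with `ζ_p ∈ L`, `V₀ = L.fixingSubgroup ≤ U`, `p ∤ [U : V₀]`,
`N` a finite-dimensional `𝔽_p[U]`-module trivial on `V₀`.  With the canonical `Δ = U/V₀` and the
canonical `ℤ[Δ]`-models `A` of `N^* = N.dualTwist ε`, `X` of `Lˣ`, `Z` of `ℤ`: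

  `#H¹(U, N) = #Hom_Δ(A, μ_p(L)) · #Hom_Δ(A, ℤ/p) · (#A)^([q = p] · [Gal(Ω/ℚ_q) : U])`

(`card_H1_canonical`).  Inputs: `LEulBase49c.baseH1`, `LEulAsm10.lfCount`, `LEulFinB49.lffin`,
`LEulMaschke10.isPProj_of_not_dvd`, `LEulBaseGal49`, `LEulBaseModels49`.
-/
import Mathlib
import Fermat.Agent.TW.LEulBase49c
import Fermat.Agent.TW.LEulAsm10
import Fermat.Agent.TW.LEulFinB49
import Fermat.Agent.TW.LEulMaschke10
import Fermat.Agent.TW.LEulBaseGal49
import Fermat.Agent.TW.LEulBaseModels49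

set_option autoImplicit false
set_option linter.unusedSectionVars false

open Fermat.Agent.PT.PRO Fermat.Agent.PT.PRO.LevelCoh28
open Fermat.Agent.TW.LEulDual74 Fermat.Agent.TW.LocECCount74 Fermat.Agent.TW.LEulIface74
open Fermat.Agent.TW.LEulBaseGal49 Fermat.Agent.TW.LEulBaseModels49

namespace Fermat.Agent.TW.LEulBaseNum49

noncomputable section

variable {q : ℕ} [Fact q.Prime] {p : ℕ} [Fact p.Prime]
  (L : IntermediateField ℚ_[q] (PadicAlgCl q)) [FiniteDimensional ℚ_[q] L] [Normal ℚ_[q] L]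
  (ζ : ↥L) (hζ : IsPrimitiveRoot ζ p)
  (U : Subgroup (PadicAlgCl q ≃ₐ[ℚ_[q]] PadicAlgCl q))
  (ε : ↥U →* (ZMod p)ˣ)
  (hε : ∀ u : ↥U, (u : PadicAlgCl q ≃ₐ[ℚ_[q]] PadicAlgCl q) (ζ : PadicAlgCl q) =
    (ζ : PadicAlgCl q) ^ ((ε u : (ZMod p)ˣ) : ZMod p).val)

include hζ hε in
omit [FiniteDimensional ℚ_[q] L] [Normal ℚ_[q] L] in
/-- `ε` is trivial on `V₀ = Gal(Ω/L)`. -/
theorem eps_eq_one_of_mem (u : ↥U)
    (hu : (u : PadicAlgCl q ≃ₐ[ℚ_[q]] PadicAlgCl q) ∈ L.fixingSubgroup) : ε u = 1 := by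
  have hp : p.Prime := Fact.out
  have h1 : (u : PadicAlgCl q ≃ₐ[ℚ_[q]] PadicAlgCl q) (ζ : PadicAlgCl q) = (ζ : PadicAlgCl q) :=
    (IntermediateField.mem_fixingSubgroup_iff _ _).1 hu _ ζ.2
  have h2 : ((ζ : ↥L) : PadicAlgCl q) ^ ((ε u : (ZMod p)ˣ) : ZMod p).val =
      ((ζ : ↥L) : PadicAlgCl q) ^ 1 := by rw [← hε u, h1, pow_one]
  have hζ' : IsPrimitiveRoot ((ζ : ↥L) : PadicAlgCl q) p :=
    hζ.map_of_injective (algebraMap ↥L (PadicAlgCl q)).injective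
  have h3 := hζ'.pow_inj (ZMod.val_lt _) hp.one_lt h2
  apply Units.ext
  apply ZMod.val_injective p
  have : Fact (1 < p) := ⟨hp.one_lt⟩
  rw [h3, Units.val_one, ZMod.val_one]

variable (N : Rep.{0} (ZMod p) ↥U)
  (htriv : ∀ u : ↥U, (u : PadicAlgCl q ≃ₐ[ℚ_[q]] PadicAlgCl q) ∈ L.fixingSubgroup →
    ∀ n : N, N.ρ u n = n)

include hζ hε htriv in
/-- `ker π = V₀` acts trivially on `N^*`. -/
theorem dualTwist_trivial (u : ↥U) (hu : canPi L U u = 1) (φ : N.dualTwist ε) :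
    (N.dualTwist ε).ρ u φ = φ := by
  rw [canPi_eq_one_iff] at hu
  have hu' : ((u⁻¹ : ↥U) : PadicAlgCl q ≃ₐ[ℚ_[q]] PadicAlgCl q) ∈ L.fixingSubgroup :=
    L.fixingSubgroup.inv_mem hu
  rw [Rep.dualTwist_ρ_apply, eps_eq_one_of_mem L ζ hζ U ε hε u hu, Units.val_one, one_smul]
  ext n
  rw [LinearMap.comp_apply, htriv u⁻¹ hu' n]

/-- The canonical `ℤ[Δ]`-model of `N^*`. -/
abbrev ACan : Type :=
  AMod (canPi L U) (canPi_surjective L U) (N.dualTwist ε) (dualTwist_trivial L ζ hζ U ε hε N htriv)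

/-- `ACan ≃+ N^*`. -/
def eACan : ACan L ζ hζ U ε hε N htriv ≃+ (N.dualTwist ε) :=
  eAMod (canPi L U) (canPi_surjective L U) (N.dualTwist ε) (dualTwist_trivial L ζ hζ U ε hε N htriv)

variable (𝓑 : LevelBasis (PadicAlgCl q ≃ₐ[ℚ_[q]] PadicAlgCl q))
  (h𝓑1 : ∀ W ∈ 𝓑.sets, ∃ F : IntermediateField ℚ_[q] (PadicAlgCl q),
    FiniteDimensional ℚ_[q] F ∧ F.fixingSubgroup ≤ W)
  (h𝓑2 : ∀ F : IntermediateField ℚ_[q] (PadicAlgCl q), FiniteDimensional ℚ_[q] F →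
    ∃ W ∈ 𝓑.sets, W ≤ F.fixingSubgroup)
  (hL : L.fixingSubgroup ∈ 𝓑.sets) (hLU : L.fixingSubgroup ≤ U)
  (hrel : ¬ p ∣ L.fixingSubgroup.relIndex U) [FiniteDimensional (ZMod p) N]

include h𝓑1 h𝓑2 hL hLU hrel in
/-- **BASE, counting form**, for the canonical data. -/
theorem card_H1_canonical :
    Finite (H1 (subBasis 𝓑 U) N) ∧
    Nat.card (H1 (subBasis 𝓑 U) N) =
      cnt (MonoidAlgebra ℤ (canDelta L U)) (ACan L ζ hζ U ε hε N htriv)
          (torP (MonoidAlgebra ℤ (canDelta L U)) p (XMod (canIota L U))) *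
        cnt (MonoidAlgebra ℤ (canDelta L U)) (ACan L ζ hζ U ε hε N htriv)
          (cotP (MonoidAlgebra ℤ (canDelta L U)) p (ZTriv (canDelta L U))) *
        Nat.card (ACan L ζ hζ U ε hε N htriv) ^ (if q = p then U.index else 0) := by
  have hfinΔ : Finite (canDelta L U) := finite_canDelta L U
  have hinj : Function.Injective (canIota L U) :=
    iota_injective (canPi L U) (canPi_surjective L U) (canPi_eq_one_iff L U) (canIota L U)
      (canIota_apply L U)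
  have hcard : ¬ p ∣ Nat.card (canDelta L U) := by
    rw [card_eq_relIndex (canPi L U) (canPi_surjective L U) (canPi_eq_one_iff L U)]
    exact hrel
  have hfinD : Finite (N.dualTwist ε) := Module.finite_of_finite (ZMod p)
  have hfinA : Finite (ACan L ζ hζ U ε hε N htriv) :=
    Finite.of_equiv _ (eACan L ζ hζ U ε hε N htriv).symm.toEquiv
  have hpA : ∀ a : ACan L ζ hζ U ε hε N htriv, p • a = 0 := by
    intro a
    apply (eACan L ζ hζ U ε hε N htriv).injective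
    rw [map_nsmul, map_zero, ← Nat.cast_smul_eq_nsmul (ZMod p), ZMod.natCast_self, zero_smul]
  have hPP := LEulMaschke10.isPProj_of_not_dvd p hcard (ACan L ζ hζ U ε hε N htriv)
  have hB := LEulBase49c.baseH1 q (p := p) 𝓑 h𝓑1 h𝓑2 L hL ζ hζ U hLU hrel ε hε N htriv
    (canPi L U) (canPi_surjective L U) (canPi_eq_one_iff L U) (canIota L U) (canIota_apply L U)
    (XMod (canIota L U)) (eXMod (canIota L U)) (isUnitsModel_XMod (canIota L U))
    (ACan L ζ hζ U ε hε N htriv) (eACan L ζ hζ U ε hε N htriv)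
    (fun u a => eAMod_of_smul (canPi L U) (canPi_surjective L U) (N.dualTwist ε)
      (dualTwist_trivial L ζ hζ U ε hε N htriv) u a)
    (LEulFinB49.lffin q ↥L p)
  have hC := LEulAsm10.lfCount q ↥L p (canIota L U) hinj hcard
    (XMod (canIota L U)) (eXMod (canIota L U)) (isUnitsModel_XMod (canIota L U))
    (ZTriv (canDelta L U)) (eZTriv (canDelta L U)) (isTrivModel_ZTriv (canDelta L U))
    (ACan L ζ hζ U ε hε N htriv) hpA hPP
  rw [finrank_fixedField_eq_index hLU (canPi L U) (canPi_surjective L U) (canIota L U)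
    (canIota_apply L U)] at hC
  exact ⟨hB.1, hB.2.trans hC⟩

end

end Fermat.Agent.TW.LEulBaseNum49
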