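/-
Programme TW (S56), sub-programme C4 (local Euler characteristic, architect helper74), brick
C4-BASE-NUM (helper10), part A: ABSTRACT COUNTS.

`H` a group, `π : H ↠ Δ`, `N` a finite-dimensional `𝔽_p[H]`-module, `ε : H →* 𝔽_pˣ`,
`A` a `ℤ[Δ]`-model of `N^* = N.dualTwist ε`.
* `cnt_twist_eq_card_H0` : for `T` a `ℤ[Δ]`-model of `𝔽_p(ε)`: `#Hom_{ℤ[Δ]}(A, T) = #H⁰(H, N)`
  (biduality);
* `cnt_triv_eq_card_H0` : for `C` with trivial action, `#C = p`, and `p ∤ #Δ`:
  `#Hom_{ℤ[Δ]}(A, C) = #H⁰(H, N^*)` (Maschke: invariants = coinvariants).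
-/
import Mathlib
import Fermat.Prelude.Def_GroupCohomology_Selmer
import Fermat.Agent.TW.Tate62.H0LES
import Fermat.Agent.TW.LocECCount74
import Fermat.Agent.TW.LocECGrpRing74
import Fermat.Agent.TW.LEulLatticeCore10
import Fermat.Agent.TW.LEulMaschke10

set_option autoImplicit false
set_option linter.unusedSectionVars false

namespace Fermat.Agent.TW.LEulBaseNumA10

open Fermat.Agent.TW.LocECCount74 Fermat.Agent.TW.LocECGrpRing74
open Fermat.Agent.TW.Tate62.H0LES

noncomputable section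

variable {p : ℕ} [Fact p.Prime] {H : Type} [Group H] {Δ : Type} [Group Δ] (π : H →* Δ)
  (hπ : Function.Surjective π)
  (N : Rep.{0} (ZMod p) H) (ε : H →* (ZMod p)ˣ)
  {A : Type} [AddCommGroup A] [Module (MonoidAlgebra ℤ Δ) A] (eA : A ≃+ (N.dualTwist ε))
  (hA : ∀ (u : H) (a : A), eA (MonoidAlgebra.of ℤ Δ (π u) • a) = (N.dualTwist ε).ρ u (eA a))

/-- The functional on `N` attached to an element of the model of `N^*`. -/
def fnl (a : A) : Module.Dual (ZMod p) N := eA a

theorem fnl_add (a b : A) : fnl N ε eA (a + b) = fnl N ε eA a + fnl N ε eA b := map_add eA a b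

theorem fnl_zero : fnl N ε eA 0 = 0 := map_zero eA

theorem fnl_symm (φ : Module.Dual (ZMod p) N) : fnl N ε eA (eA.symm φ) = φ :=
  eA.apply_symm_apply φ

include hA in
theorem fnl_of_smul (u : H) (a : A) (n : N) :
    fnl N ε eA (MonoidAlgebra.of ℤ Δ (π u) • a) n =
      ((ε u : (ZMod p)ˣ) : ZMod p) * fnl N ε eA a (N.ρ u⁻¹ n) := by
  unfold fnl
  rw [hA u a]
  rfl

/-! ### `Hom(A, 𝔽_p(ε)) = H⁰(N)` -/

section Twist

variable {T : Type} [AddCommGroup T] [Module (MonoidAlgebra ℤ Δ) T] (eT : T ≃+ ZMod p)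
  (hT : ∀ (u : H) (t : T),
    eT (MonoidAlgebra.of ℤ Δ (π u) • t) = ((ε u : (ZMod p)ˣ) : ZMod p) * eT t)

include hπ hA hT in
/-- The `ℤ[Δ]`-linear map `A → T` attached to an invariant of `N`. -/
def homOfInv (n : H0 N) : A →ₗ[MonoidAlgebra ℤ Δ] T :=
  linearMapOfEquivariant
    { toFun := fun a => eT.symm (fnl N ε eA a (n : N))
      map_zero' := by rw [fnl_zero, LinearMap.zero_apply, map_zero]
      map_add' := fun a b => by rw [fnl_add, LinearMap.add_apply, map_add] }
    (fun δ a => by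
      obtain ⟨u, rfl⟩ := hπ δ
      show eT.symm (fnl N ε eA (MonoidAlgebra.of ℤ Δ (π u) • a) (n : N)) =
        MonoidAlgebra.of ℤ Δ (π u) • eT.symm (fnl N ε eA a (n : N))
      apply eT.injective
      rw [hT, AddEquiv.apply_symm_apply, AddEquiv.apply_symm_apply, fnl_of_smul π N ε eA hA]
      have hn : N.ρ u⁻¹ (n : N) = (n : N) := n.2 u⁻¹
      rw [hn])

theorem homOfInv_apply (n : H0 N) (a : A) :
    homOfInv π hπ N ε eA hA eT hT n a = eT.symm (fnl N ε eA a (n : N)) := rfl

include hπ hA hT in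
theorem homOfInv_injective : Function.Injective (homOfInv π hπ N ε eA hA eT hT) := by
  intro n n' h
  apply Subtype.ext
  rw [← sub_eq_zero, ← Module.forall_dual_apply_eq_zero_iff (ZMod p)]
  intro φ
  have h1 := LinearMap.congr_fun h (eA.symm φ)
  rw [homOfInv_apply, homOfInv_apply, fnl_symm] at h1
  have h2 := eT.symm.injective h1
  rw [map_sub, h2, sub_self]

include hπ hA hT in
theorem homOfInv_surjective [FiniteDimensional (ZMod p) N] :
    Function.Surjective (homOfInv π hπ N ε eA hA eT hT) := by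
  intro ψ
  -- the functional on the dual
  let Ψ₀ : Module.Dual (ZMod p) N →+ ZMod p :=
    { toFun := fun φ => eT (ψ (eA.symm φ))
      map_zero' := by
        have : eA.symm (0 : Module.Dual (ZMod p) N) = 0 := map_zero eA.symm
        rw [this, map_zero, map_zero]
      map_add' := fun φ φ' => by
        have : eA.symm (φ + φ' : Module.Dual (ZMod p) N) = eA.symm φ + eA.symm φ' :=
          map_add eA.symm φ φ'
        rw [this, map_add, map_add] }
  let Ψ : Module.Dual (ZMod p) (Module.Dual (ZMod p) N) := AddMonoidHom.toZModLinearMap p Ψ₀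
  have hΨ : ∀ φ : Module.Dual (ZMod p) N, Ψ φ = eT (ψ (eA.symm φ)) := fun φ => rfl
  set n : N := (Module.evalEquiv (ZMod p) N).symm Ψ with hn
  have hev : ∀ φ : Module.Dual (ZMod p) N, φ n = Ψ φ := fun φ =>
    Module.apply_evalEquiv_symm_apply (ZMod p) N φ Ψ
  -- equivariance of `Ψ`
  have hΨeq : ∀ (u : H) (φ : Module.Dual (ZMod p) N),
      Ψ ((N.dualTwist ε).ρ u φ) = ((ε u : (ZMod p)ˣ) : ZMod p) * Ψ φ := by
    intro u φ
    rw [hΨ, hΨ]
    have h1 : eA.symm ((N.dualTwist ε).ρ u φ) = MonoidAlgebra.of ℤ Δ (π u) • eA.symm φ := by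
      apply eA.injective
      rw [hA, AddEquiv.apply_symm_apply, AddEquiv.apply_symm_apply]
    rw [h1, map_smul, hT]
  -- `n` is invariant
  have hinv : ∀ u : H, N.ρ u n = n := by
    intro u
    rw [← sub_eq_zero, ← Module.forall_dual_apply_eq_zero_iff (ZMod p)]
    intro φ
    have h1 := hΨeq u⁻¹ φ
    rw [← hev, ← hev] at h1
    have h2 : ((N.dualTwist ε).ρ u⁻¹ φ) n =
        ((ε u⁻¹ : (ZMod p)ˣ) : ZMod p) * φ (N.ρ u⁻¹⁻¹ n) := rfl
    rw [h2, inv_inv] at h1
    have h3 : φ (N.ρ u n) = φ n := by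
      have hu : IsUnit (((ε u⁻¹ : (ZMod p)ˣ) : ZMod p)) := (ε u⁻¹).isUnit
      exact hu.mul_left_cancel h1
    rw [map_sub, h3, sub_self]
  refine ⟨⟨n, hinv⟩, ?_⟩
  ext a
  rw [homOfInv_apply]
  apply eT.injective
  rw [AddEquiv.apply_symm_apply]
  show fnl N ε eA a n = eT (ψ a)
  rw [hev, hΨ]
  unfold fnl
  rw [AddEquiv.symm_apply_apply]

include hπ hA hT in
/-- **`#Hom_{ℤ[Δ]}(N^*, 𝔽_p(ε)) = #H⁰(N)`**. -/
theorem cnt_twist_eq_card_H0 [FiniteDimensional (ZMod p) N] :
    cnt (MonoidAlgebra ℤ Δ) A T = Nat.card (H0 N) :=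
  (Nat.card_congr (Equiv.ofBijective _
    ⟨homOfInv_injective π hπ N ε eA hA eT hT, homOfInv_surjective π hπ N ε eA hA eT hT⟩)).symm

end Twist

/-! ### `Hom(A, 𝔽_p) = H⁰(N^*)` for `p ∤ #Δ` -/

section Triv

variable (Δ) in
/-- The `Δ`-invariants of a `ℤ[Δ]`-module, as an additive subgroup. -/
def invSub (B : Type) [AddCommGroup B] [Module (MonoidAlgebra ℤ Δ) B] : AddSubgroup B where
  carrier := {b | ∀ δ : Δ, MonoidAlgebra.of ℤ Δ δ • b = b}
  zero_mem' := fun δ => smul_zero _
  add_mem' := fun {a b} ha hb δ => by rw [smul_add, ha δ, hb δ]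
  neg_mem' := fun {a} ha δ => by rw [smul_neg, ha δ]

theorem mem_invSub {B : Type} [AddCommGroup B] [Module (MonoidAlgebra ℤ Δ) B] {b : B} :
    b ∈ invSub Δ B ↔ ∀ δ : Δ, MonoidAlgebra.of ℤ Δ δ • b = b := Iff.rfl

variable {B C : Type} [AddCommGroup B] [Module (MonoidAlgebra ℤ Δ) B]
  [AddCommGroup C] [Module (MonoidAlgebra ℤ Δ) C]

/-- Maps to a module with trivial action are determined by (and arbitrary on) the invariants, if
`#Δ` is invertible. -/
theorem card_hom_triv [Finite Δ] (hp : ¬ p ∣ Nat.card Δ) (hB : ∀ b : B, p • b = 0)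
    (hC : ∀ c : C, p • c = 0) (hCt : ∀ (δ : Δ) (c : C), MonoidAlgebra.of ℤ Δ δ • c = c) :
    Nat.card (B →ₗ[MonoidAlgebra ℤ Δ] C) = Nat.card (invSub Δ B →+ C) := by
  classical
  have : Fintype Δ := Fintype.ofFinite Δ
  have hp1 : 1 < p := (Fact.out : p.Prime).one_lt
  have hcop : Nat.Coprime (Nat.card Δ) p :=
    ((Nat.Prime.coprime_iff_not_dvd (Fact.out : p.Prime)).mpr hp).symm
  obtain ⟨m', -, hm'⟩ := Nat.exists_mul_mod_eq_one_of_coprime hcop hp1
  have hmm : m' * Fintype.card Δ = p * (Nat.card Δ * m' / p) + 1 := by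
    have := Nat.div_add_mod (Nat.card Δ * m') p
    rw [hm'] at this
    rw [← Nat.card_eq_fintype_card, mul_comm]
    exact this.symm
  have hinvB : ∀ b : B, (m' * Fintype.card Δ) • b = b := by
    intro b
    rw [hmm, add_smul, mul_smul, hB, one_smul, zero_add]
  have hinvC : ∀ c : C, (m' * Fintype.card Δ) • c = c := by
    intro c
    rw [hmm, add_smul, mul_smul, hC, one_smul, zero_add]
  -- the averaging projector
  let e₀ : B →+ B :=
    { toFun := fun b => m' • ∑ δ : Δ, MonoidAlgebra.of ℤ Δ δ • b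
      map_zero' := by simp
      map_add' := fun a b => by simp only [smul_add, Finset.sum_add_distrib] }
  have he₀ : ∀ b, e₀ b = m' • ∑ δ : Δ, MonoidAlgebra.of ℤ Δ δ • b := fun b => rfl
  have he₀mem : ∀ b, e₀ b ∈ invSub Δ B := by
    intro b γ
    rw [he₀, smul_comm, Finset.smul_sum]
    congr 1
    refine Fintype.sum_equiv (Equiv.mulLeft γ) _ _ (fun δ => ?_)
    rw [Equiv.coe_mulLeft, ← mul_smul, ← map_mul]
  have he₀inv : ∀ b ∈ invSub Δ B, e₀ b = b := by
    intro b hb
    rw [he₀, Finset.sum_congr rfl (fun δ _ => hb δ), Finset.sum_const, Finset.card_univ,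
      ← mul_smul]
    exact hinvB b
  have he₀smul : ∀ (γ : Δ) (b : B), e₀ (MonoidAlgebra.of ℤ Δ γ • b) = e₀ b := by
    intro γ b
    rw [he₀, he₀]
    congr 1
    refine Fintype.sum_equiv (Equiv.mulRight γ) _ _ (fun δ => ?_)
    rw [Equiv.coe_mulRight, ← mul_smul, ← map_mul]
  refine Nat.card_congr
    { toFun := fun f => (f : B →+ C).comp (invSub Δ B).subtype
      invFun := fun g => linearMapOfEquivariant
        (g.comp (e₀.codRestrict (invSub Δ B) he₀mem)) (fun δ b => by
          rw [hCt]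
          show g ⟨e₀ (MonoidAlgebra.of ℤ Δ δ • b), _⟩ = g ⟨e₀ b, _⟩
          congr 1
          exact Subtype.ext (he₀smul δ b))
      left_inv := fun f => by
        ext b
        show f (e₀ b) = f b
        rw [he₀, map_nsmul, map_sum]
        have : ∀ δ : Δ, f (MonoidAlgebra.of ℤ Δ δ • b) = f b := fun δ => by
          rw [map_smul, hCt]
        rw [Finset.sum_congr rfl (fun δ _ => this δ), Finset.sum_const, Finset.card_univ,
          ← mul_smul]
        exact hinvC (f b)
      right_inv := fun g => by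
        ext b
        show g ⟨e₀ (b : B), _⟩ = g b
        congr 1
        exact Subtype.ext (he₀inv b b.2) }

include hπ hA in
/-- The invariants of the model of `N^*` are the invariants of `N^*`. -/
theorem card_invSub_eq : Nat.card (invSub Δ A) = Nat.card (H0 (N.dualTwist ε)) := by
  refine Nat.card_congr
    { toFun := fun a => ⟨eA a, fun u => by
        have := a.2 (π u)
        rw [← hA u a, this]⟩
      invFun := fun φ => ⟨eA.symm φ, fun δ => by
        obtain ⟨u, rfl⟩ := hπ δ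
        apply eA.injective
        rw [hA, AddEquiv.apply_symm_apply]
        exact φ.2 u⟩
      left_inv := fun a => Subtype.ext (eA.symm_apply_apply a)
      right_inv := fun φ => Subtype.ext (eA.apply_symm_apply φ) }

include hπ hA in
/-- **`#Hom_{ℤ[Δ]}(N^*, 𝔽_p) = #H⁰(N^*)`** for `p ∤ #Δ`. -/
theorem cnt_triv_eq_card_H0 [Finite Δ] [FiniteDimensional (ZMod p) N] (hp : ¬ p ∣ Nat.card Δ)
    (hC : ∀ c : C, p • c = 0) (hCt : ∀ (δ : Δ) (c : C), MonoidAlgebra.of ℤ Δ δ • c = c)
    (hcard : Nat.card C = p) :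
    cnt (MonoidAlgebra ℤ Δ) A C = Nat.card (H0 (N.dualTwist ε)) := by
  have hAp : ∀ a : A, p • a = 0 := by
    intro a
    apply eA.injective
    rw [map_nsmul, map_zero]
    have : (p : ZMod p) = 0 := ZMod.natCast_self p
    rw [← Nat.cast_smul_eq_nsmul (ZMod p), this, zero_smul]
  have hfinA : Finite A := by
    have : Finite (N.dualTwist ε) :=
      Module.finite_of_finite (ZMod p) (M := Module.Dual (ZMod p) N)
    exact Finite.of_equiv _ eA.symm.toEquiv
  have hfinC : Finite C := Nat.finite_of_card_ne_zero (by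
    rw [hcard]
    exact (Fact.out : p.Prime).ne_zero)
  unfold cnt
  rw [card_hom_triv hp hAp hC hCt]
  have h1 := LEulLatticeCore10.card_addMonoidHom_of_elementary (A := invSub Δ A) (Q := C) (p := p)
    (fun a => Subtype.ext (by
      rw [AddSubgroup.coe_nsmul]
      exact hAp a)) hC (d := 1) (by rw [hcard, pow_one])
  rw [h1, pow_one]
  exact card_invSub_eq π hπ N ε eA hA

end Triv

end

end Fermat.Agent.TW.LEulBaseNumA10
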