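/-
Programme TW (S56), sub-programme C4 (local Euler characteristic, architect helper74), brick
C4-BASE-NUM (helper10), part B: the pieces of the `LFCount` formula, identified.

* `torEquiv : X[p] ≃+ ZMod p` for a units model `X` of a field `E ∋ ζ_p`, with
  `torEquiv_of_smul` (the action is through the cyclotomic character);
* `cotZ_*` : `Z/pZ` for a trivial model `Z` of `ℤ`: trivial action, killed by `p`, of order `p`;
* `finrank_fixedField_eq_index` : `[L^Δ : F] = [G : U]` for `L.fixingSubgroup ≤ U ≤ G = Gal(Ω/F)`.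
-/
import Mathlib
import Fermat.Agent.TW.LEulIface74
import Fermat.Agent.TW.LocECGrpRing74
import Fermat.Agent.TW.LEulCountB49
import Fermat.Agent.TW.LEulLatticeIdx10

set_option autoImplicit false
set_option linter.unusedSectionVars false

namespace Fermat.Agent.TW.LEulBaseNumB10

open Fermat.Agent.TW.LocECCount74 Fermat.Agent.TW.LocECGrpRing74 Fermat.Agent.TW.LEulIface74
open Fermat.Agent.TW.LEulCountB49

noncomputable section

/-! ### `μ_p` inside a units model -/

section Tor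

variable {p : ℕ} [Fact p.Prime] {q : ℕ} [Fact q.Prime] {E : Type} [Field E] [Algebra ℚ_[q] E]
  [FiniteDimensional ℚ_[q] E] {Δ : Type} [Group Δ] (ι : Δ →* (E ≃ₐ[ℚ_[q]] E))
  {X : Type} [AddCommGroup X] [Module (MonoidAlgebra ℤ Δ) X] (eX : X ≃+ Additive Eˣ)
  {ζ : Eˣ} (hζ : IsPrimitiveRoot ζ p)

include hζ in
theorem zeta_pow_mod (n : ℕ) : ζ ^ (n % p) = ζ ^ n := by
  conv_rhs => rw [← Nat.div_add_mod n p, pow_add, pow_mul, hζ.pow_eq_one, one_pow, one_mul]

/-- `a ↦ ζ^a`, into the `p`-torsion of the model. -/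
def torHom : ZMod p →+ torP (MonoidAlgebra ℤ Δ) p X where
  toFun a := ⟨eX.symm (Additive.ofMul (ζ ^ a.val)), by
    rw [mem_torP]
    apply uOf_injective eX
    rw [uOf_nsmul, uOf_symm, uOf_zero, ← pow_mul, mul_comm, pow_mul, hζ.pow_eq_one, one_pow]⟩
  map_zero' := by
    apply Subtype.ext
    apply uOf_injective eX
    show uOf eX (eX.symm (Additive.ofMul (ζ ^ (0 : ZMod p).val))) = uOf eX 0
    rw [uOf_symm, uOf_zero, ZMod.val_zero, pow_zero]
  map_add' a b := by
    apply Subtype.ext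
    apply uOf_injective eX
    show uOf eX (eX.symm (Additive.ofMul (ζ ^ (a + b).val))) =
      uOf eX (eX.symm (Additive.ofMul (ζ ^ a.val)) + eX.symm (Additive.ofMul (ζ ^ b.val)))
    rw [uOf_add, uOf_symm, uOf_symm, uOf_symm, ZMod.val_add, zeta_pow_mod hζ, pow_add]

theorem uOf_torHom (a : ZMod p) :
    uOf eX ((torHom (Δ := Δ) eX hζ a : torP (MonoidAlgebra ℤ Δ) p X) : X) = ζ ^ a.val :=
  uOf_symm eX _

theorem torHom_bijective : Function.Bijective (torHom (Δ := Δ) eX hζ) := by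
  have hp0 : p ≠ 0 := (Fact.out : p.Prime).ne_zero
  constructor
  · intro a b h
    have h1 : ζ ^ a.val = ζ ^ b.val := by
      rw [← uOf_torHom (Δ := Δ) eX hζ a, ← uOf_torHom (Δ := Δ) eX hζ b, h]
    have h2 := hζ.pow_inj (ZMod.val_lt a) (ZMod.val_lt b) h1
    exact ZMod.val_injective p h2
  · intro t
    have ht : uOf eX (t : X) ^ p = 1 := by
      rw [← uOf_nsmul, mem_torP.mp t.2, uOf_zero]
    have ht' : ((uOf eX (t : X) : Eˣ) : E) ^ p = 1 := by
      rw [← Units.val_pow_eq_pow_val, ht, Units.val_one]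
    obtain ⟨i, -, hi⟩ := (IsPrimitiveRoot.coe_units_iff.mpr hζ).eq_pow_of_pow_eq_one ht'
    refine ⟨(i : ZMod p), ?_⟩
    apply Subtype.ext
    apply uOf_injective eX
    rw [uOf_torHom, ZMod.val_natCast, zeta_pow_mod hζ]
    apply Units.ext
    rw [Units.val_pow_eq_pow_val, hi]

/-- `X[p] ≃ ZMod p`, `ζ^a ↦ a`. -/
def torEquiv : torP (MonoidAlgebra ℤ Δ) p X ≃+ ZMod p :=
  (AddEquiv.ofBijective (torHom (Δ := Δ) eX hζ) (torHom_bijective eX hζ)).symm

theorem torEquiv_torHom (a : ZMod p) : torEquiv (Δ := Δ) eX hζ (torHom eX hζ a) = a :=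
  (AddEquiv.ofBijective (torHom (Δ := Δ) eX hζ) (torHom_bijective eX hζ)).symm_apply_apply a

theorem torHom_torEquiv (t : torP (MonoidAlgebra ℤ Δ) p X) :
    torHom eX hζ (torEquiv (Δ := Δ) eX hζ t) = t :=
  (AddEquiv.ofBijective (torHom (Δ := Δ) eX hζ) (torHom_bijective eX hζ)).apply_symm_apply t

/-- The group acts on `X[p] = μ_p` through the cyclotomic character. -/
theorem torEquiv_of_smul (hX : IsUnitsModel q E ι X eX) (δ : Δ) (e : ZMod p)
    (he : ι δ (ζ : E) = (ζ : E) ^ e.val) (t : torP (MonoidAlgebra ℤ Δ) p X) :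
    torEquiv eX hζ (MonoidAlgebra.of ℤ Δ δ • t) = e * torEquiv eX hζ t := by
  obtain ⟨a, rfl⟩ := (torHom_bijective (Δ := Δ) eX hζ).2 t
  rw [torEquiv_torHom]
  have key : MonoidAlgebra.of ℤ Δ δ • torHom (Δ := Δ) eX hζ a = torHom eX hζ (e * a) := by
    apply Subtype.ext
    apply uOf_injective eX
    show uOf eX (MonoidAlgebra.of ℤ Δ δ • ((torHom (Δ := Δ) eX hζ a :
      torP (MonoidAlgebra ℤ Δ) p X) : X)) = _
    rw [uOf_of_smul ι eX hX, uOf_torHom, uOf_torHom, ZMod.val_mul, zeta_pow_mod hζ, map_pow]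
    have h1 : Units.map (((ι δ : E ≃ₐ[ℚ_[q]] E) : E →+* E) : E →* E) ζ = ζ ^ e.val := by
      apply Units.ext
      rw [Units.val_pow_eq_pow_val]
      exact he
    rw [h1, ← pow_mul]
  rw [key, torEquiv_torHom]

end Tor

/-! ### `Z/pZ` for a trivial model of `ℤ` -/

section CotZ

variable {p : ℕ} [Fact p.Prime] {Δ : Type} [Group Δ]
  {Z : Type} [AddCommGroup Z] [Module (MonoidAlgebra ℤ Δ) Z] (eZ : Z ≃+ ℤ)

theorem cotZ_triv (hZ : IsTrivModel (Δ := Δ) Z) (δ : Δ) (c : cotP (MonoidAlgebra ℤ Δ) p Z) :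
    MonoidAlgebra.of ℤ Δ δ • c = c := by
  obtain ⟨z, rfl⟩ := Submodule.Quotient.mk_surjective _ c
  rw [← Submodule.Quotient.mk_smul, hZ]

include eZ in
theorem card_cotZ : Nat.card (cotP (MonoidAlgebra ℤ Δ) p Z) = p := by
  rw [LEulLatticeIdx10.card_cotP, ← AddSubgroup.index_map_equiv _ eZ]
  have h : (LEulLatticeIdx10.pSub Z p).map (eZ : Z →+ ℤ) = AddSubgroup.zmultiples (p : ℤ) := by
    ext k
    rw [AddSubgroup.mem_map, AddSubgroup.mem_zmultiples_iff]
    constructor
    · rintro ⟨z, ⟨y, rfl⟩, rfl⟩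
      refine ⟨eZ y, ?_⟩
      show eZ y • (p : ℤ) = eZ (p • y)
      rw [map_nsmul, smul_eq_mul, nsmul_eq_mul, mul_comm]
    · rintro ⟨m, rfl⟩
      refine ⟨p • eZ.symm m, ⟨eZ.symm m, rfl⟩, ?_⟩
      show eZ (p • eZ.symm m) = m • (p : ℤ)
      rw [map_nsmul, AddEquiv.apply_symm_apply, smul_eq_mul, nsmul_eq_mul, mul_comm]
  rw [h, Int.index_zmultiples, Int.natAbs_natCast]

end CotZ

/-! ### Degrees and indices -/

section Index

variable {F Ω : Type} [Field F] [Field Ω] [Algebra F Ω] [Normal F Ω]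
  (L : IntermediateField F Ω) [FiniteDimensional F L] [Normal F L] [Algebra.IsSeparable F L]
  (U : Subgroup (Ω ≃ₐ[F] Ω)) (hLU : L.fixingSubgroup ≤ U)
  {Δ : Type} [Group Δ] (π : ↥U →* Δ) (hπ : Function.Surjective π)
  (hker : ∀ u : ↥U, π u = 1 ↔ (u : Ω ≃ₐ[F] Ω) ∈ L.fixingSubgroup)
  (ι : Δ →* (↥L ≃ₐ[F] ↥L))
  (hι : ∀ (u : ↥U) (x : ↥L), ((ι (π u) x : ↥L) : Ω) = (u : Ω ≃ₐ[F] Ω) (x : Ω))

include hπ hker hι in
theorem injective_of_compat : Function.Injective ι := by
  rw [injective_iff_map_eq_one]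
  intro δ hδ
  obtain ⟨u, rfl⟩ := hπ δ
  rw [hker]
  rw [IntermediateField.mem_fixingSubgroup_iff]
  intro x hx
  have := hι u ⟨x, hx⟩
  rw [hδ] at this
  exact this.symm

include hπ hker in
theorem card_eq_relIndex : Nat.card Δ = L.fixingSubgroup.relIndex U := by
  have h1 : π.ker = L.fixingSubgroup.subgroupOf U := by
    ext u
    rw [MonoidHom.mem_ker, hker, Subgroup.mem_subgroupOf]
  have h2 := Subgroup.index_ker π
  rw [MonoidHom.range_eq_top.mpr hπ, Subgroup.card_top, h1] at h2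
  exact h2.symm

include hLU hπ hker hι in
/-- `[L^Δ : F] = [G : U]`. -/
theorem finrank_fixedField_eq_index [Finite Δ] :
    Module.finrank F (IntermediateField.fixedField ι.range) = U.index := by
  have hgal : IsGalois F L := ⟨⟩
  have hinj := injective_of_compat L U π hπ hker ι hι
  have h1 : Module.finrank (IntermediateField.fixedField ι.range) L = Nat.card Δ := by
    rw [IntermediateField.finrank_fixedField_eq_card]
    exact (Nat.card_congr (MonoidHom.ofInjective hinj).toEquiv).symm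
  have h2 := Module.finrank_mul_finrank F (IntermediateField.fixedField ι.range) L
  have h3 : Module.finrank F L = L.fixingSubgroup.index := by
    rw [← IsGalois.card_aut_eq_finrank F L, ← IntermediateField.restrictNormalHom_ker L,
      Subgroup.index_ker,
      MonoidHom.range_eq_top.mpr (AlgEquiv.restrictNormalHom_surjective (K₁ := L) Ω),
      Subgroup.card_top]
  have h4 := Subgroup.relIndex_mul_index hLU
  rw [← card_eq_relIndex L U π hπ hker] at h4
  rw [h1, h3, ← h4, mul_comm] at h2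
  exact Nat.eq_of_mul_eq_mul_left Nat.card_pos h2

end Index

end

end Fermat.Agent.TW.LEulBaseNumB10
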