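/-
Programme TW (S56), sub-programme C4 (local Euler characteristic, architect helper74), brick
C4-BASE-NUM (helper10), FINAL: **BASE** for the local group.

`Ω = PadicAlgCl q`, `L/ℚ_q` finite normal with `ζ_p ∈ L`, `V₀ = Gal(Ω/L) ∈ 𝓑`, `ε` the mod `p`
cyclotomic character: for every `U ⊇ V₀` with `p ∤ [U : V₀]` and every finite-dimensional `U`-module
`N` trivial on `V₀`:
`h¹(U, N) = h⁰(U, N) + h⁰(U, N^*) + [q = p] · [G : U] · dim N`
(`baseAt_local : LEulIface2_74.BaseAt 𝓑 ε (if q = p then 1 else 0) L.fixingSubgroup`).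

Inputs: `LEulBaseNum49.card_H1_canonical` (helper49: `BaseH1 ∘ LFCount` for the canonical data),
`LEulBaseNumA10` (`#Hom(N^*, μ_p) = #H⁰(N)`, `#Hom(N^*, ℤ/p) = #H⁰(N^*)`), `LEulBaseNumB10`.
-/
import Mathlib
import Fermat.Agent.TW.LEulBaseNum49
import Fermat.Agent.TW.LEulBaseNumA10
import Fermat.Agent.TW.LEulBaseNumB10
import Fermat.Agent.TW.LEulIface2_74

set_option autoImplicit false
set_option linter.unusedSectionVars false

open Fermat.Agent.PT.PRO Fermat.Agent.PT.PRO.LevelCoh28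
open Fermat.Agent.TW.Tate62.H0LES
open Fermat.Agent.TW.LEulDual74 Fermat.Agent.TW.LocECCount74 Fermat.Agent.TW.LEulIface74
open Fermat.Agent.TW.LEulBaseGal49 Fermat.Agent.TW.LEulBaseModels49 Fermat.Agent.TW.LEulBaseNum49

namespace Fermat.Agent.TW.LEulBaseNum10

/-- The cardinality of a finite-dimensional `𝔽_p`-vector space. -/
theorem card_eq_pow_finrank {p : ℕ} [Fact p.Prime] (V : Type) [AddCommGroup V]
    [Module (ZMod p) V] [Module.Finite (ZMod p) V] :
    Nat.card V = p ^ Module.finrank (ZMod p) V := by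
  rw [Module.natCard_eq_pow_finrank (K := ZMod p) (V := V), Nat.card_zmod]

/-- **BASE** for the local group. -/
theorem baseAt_local {q : ℕ} [Fact q.Prime] {p : ℕ} [Fact p.Prime]
    (𝓑 : LevelBasis (PadicAlgCl q ≃ₐ[ℚ_[q]] PadicAlgCl q))
    (h𝓑1 : ∀ W ∈ 𝓑.sets, ∃ F : IntermediateField ℚ_[q] (PadicAlgCl q),
      FiniteDimensional ℚ_[q] F ∧ F.fixingSubgroup ≤ W)
    (h𝓑2 : ∀ F : IntermediateField ℚ_[q] (PadicAlgCl q), FiniteDimensional ℚ_[q] F →
      ∃ W ∈ 𝓑.sets, W ≤ F.fixingSubgroup)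
    (L : IntermediateField ℚ_[q] (PadicAlgCl q)) [FiniteDimensional ℚ_[q] L] [Normal ℚ_[q] L]
    (hL : L.fixingSubgroup ∈ 𝓑.sets) (ζ : ↥L) (hζ : IsPrimitiveRoot ζ p)
    (ε : (PadicAlgCl q ≃ₐ[ℚ_[q]] PadicAlgCl q) →* (ZMod p)ˣ)
    (hε : ∀ g : PadicAlgCl q ≃ₐ[ℚ_[q]] PadicAlgCl q, g (ζ : PadicAlgCl q) =
      (ζ : PadicAlgCl q) ^ ((ε g : (ZMod p)ˣ) : ZMod p).val) :
    LEulIface2_74.BaseAt 𝓑 ε (if q = p then 1 else 0) L.fixingSubgroup := by
  intro U hLU hrel N hNfd htriv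
  have hp : p.Prime := Fact.out
  set ε' : ↥U →* (ZMod p)ˣ := ε.comp U.subtype with hε'def
  have hε' : ∀ u : ↥U, (u : PadicAlgCl q ≃ₐ[ℚ_[q]] PadicAlgCl q) (ζ : PadicAlgCl q) =
      (ζ : PadicAlgCl q) ^ ((ε' u : (ZMod p)ˣ) : ZMod p).val := fun u => hε u
  obtain ⟨hfin, hcard⟩ :=
    card_H1_canonical L ζ hζ U ε' hε' N htriv 𝓑 h𝓑1 h𝓑2 hL hLU hrel
  have hfinΔ : Finite (canDelta L U) := finite_canDelta L U
  have hpΔ : ¬ p ∣ Nat.card (canDelta L U) := by
    rw [LEulBaseGal49.card_eq_relIndex (canPi L U) (canPi_surjective L U) (canPi_eq_one_iff L U)]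
    exact hrel
  -- the unit `ζ`
  have hζunit : IsUnit ζ := hζ.isUnit hp.ne_zero
  have hζu : IsPrimitiveRoot hζunit.unit p := by
    rw [← IsPrimitiveRoot.coe_units_iff, IsUnit.unit_spec]
    exact hζ
  -- (n1)
  have hn1 : cnt (MonoidAlgebra ℤ (canDelta L U)) (ACan L ζ hζ U ε' hε' N htriv)
      (torP (MonoidAlgebra ℤ (canDelta L U)) p (XMod (canIota L U))) = Nat.card (H0 N) := by
    refine LEulBaseNumA10.cnt_twist_eq_card_H0 (canPi L U) (canPi_surjective L U) N ε'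
      (eACan L ζ hζ U ε' hε' N htriv)
      (fun u a => eAMod_of_smul (canPi L U) (canPi_surjective L U) (N.dualTwist ε')
        (dualTwist_trivial L ζ hζ U ε' hε' N htriv) u a)
      (LEulBaseNumB10.torEquiv (eXMod (canIota L U)) hζu) ?_
    intro u t
    refine LEulBaseNumB10.torEquiv_of_smul (canIota L U) (eXMod (canIota L U)) hζu
      (isUnitsModel_XMod (canIota L U)) (canPi L U u) _ ?_ t
    rw [IsUnit.unit_spec]
    apply Subtype.ext
    rw [canIota_apply, hε' u]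
    rfl
  -- (n2)
  have hn2 : cnt (MonoidAlgebra ℤ (canDelta L U)) (ACan L ζ hζ U ε' hε' N htriv)
      (cotP (MonoidAlgebra ℤ (canDelta L U)) p (ZTriv (canDelta L U))) =
      Nat.card (H0 (N.dualTwist ε')) :=
    LEulBaseNumA10.cnt_triv_eq_card_H0 (canPi L U) (canPi_surjective L U) N ε'
      (eACan L ζ hζ U ε' hε' N htriv)
      (fun u a => eAMod_of_smul (canPi L U) (canPi_surjective L U) (N.dualTwist ε')
        (dualTwist_trivial L ζ hζ U ε' hε' N htriv) u a)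
      hpΔ (fun c => cotP_smul c)
      (LEulBaseNumB10.cotZ_triv (isTrivModel_ZTriv (canDelta L U)))
      (LEulBaseNumB10.card_cotZ (eZTriv (canDelta L U)))
  -- (n3)
  have hn3 : Nat.card (ACan L ζ hζ U ε' hε' N htriv) = p ^ Module.finrank (ZMod p) N := by
    rw [Nat.card_congr (eACan L ζ hζ U ε' hε' N htriv).toEquiv]
    have := card_eq_pow_finrank (p := p) (Module.Dual (ZMod p) N)
    rw [Subspace.dual_finrank_eq] at this
    exact this
  -- cardinalities to dimensions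
  have hfd1 : FiniteDimensional (ZMod p) (H1 (subBasis 𝓑 U) N) := Module.Finite.of_finite
  refine ⟨hfd1, ?_⟩
  have hfdD : FiniteDimensional (ZMod p) (N.dualTwist ε') :=
    inferInstanceAs (FiniteDimensional (ZMod p) (Module.Dual (ZMod p) N))
  have c1 := card_eq_pow_finrank (p := p) (H1 (subBasis 𝓑 U) N)
  have c0 := card_eq_pow_finrank (p := p) (H0 N)
  have c0' := card_eq_pow_finrank (p := p) (H0 (N.dualTwist ε'))
  rw [hn1, hn2, hn3, c1, c0, c0', ← pow_mul, ← pow_add, ← pow_add] at hcard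
  have hexp := Nat.pow_right_injective hp.two_le hcard
  rw [hexp]
  by_cases hqp : q = p
  · rw [if_pos hqp, if_pos hqp]
    ring
  · rw [if_neg hqp, if_neg hqp]
    ring

end Fermat.Agent.TW.LEulBaseNum10
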