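/-
Programme TW (S56), brick C4 (local Euler characteristic), helper23: the closed BASE input
`LEulAsm64.BaseEverywhere` of the local assembly `LEulAsmLoc64.localEuler_of`, from helper10's
`LEulBaseNum10.baseAt_local` and the bridging lemmas of `LEulAsmLoc23`.  Consequently
`GWIface97.LocalEuler q M` now depends only on LD1 (`LEulDual74.PairData`).
-/
import Mathlib
import Fermat.Agent.TW.LEulAsmLoc23
import Fermat.Agent.TW.LEulBaseNum10

set_option autoImplicit false
set_option linter.unusedSectionVars false
set_option linter.style.haveILetI false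

open Module

namespace Fermat.Agent.TW.LEulBaseEverywhere23

open ExtCitation
open Fermat.Agent.PT.PRO Fermat.Agent.PT.PRO.LevelCoh28 Fermat.Agent.PT.BR
open Fermat.Agent.TW.LEulDual74 Fermat.Agent.TW.LEulIface2_74
open Fermat.Agent.TW.LEulAsmLoc23 Fermat.Agent.TW.GWIface97

local notation "Γ" => (AlgebraicClosure ℚ ≃ₐ[ℚ] AlgebraicClosure ℚ)

variable {p : ℕ} [Fact p.Prime]

/-- BASE at every trivialising level, `q : ℕ` prime. -/
theorem baseEverywhere_nat (q : ℕ) [Fact q.Prime] :
    LEulAsm64.BaseEverywhere (p := p) (bas q) (eps q p) (if q = p then 1 else 0) :=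
  baseEverywhere_of q p _ fun L hfd hn hζ hmem => by
    obtain ⟨ζ, hζ⟩ := hζ
    haveI := hfd
    haveI := hn
    refine LEulBaseNum10.baseAt_local (bas q) (krull_le q) (krull_ge q) L hmem ζ hζ (eps q p)
      fun g => eps_spec q p (ζ : PadicAlgCl q) ?_ g
    have := hζ.pow_eq_one
    exact_mod_cast congrArg (fun x : ↥L => (x : PadicAlgCl q)) this

/-- **BASE**, in the `Nat.Primes` vocabulary of `LEulAsmLoc64.localEuler_of`. -/
theorem baseEverywhere (q : Nat.Primes) :
    LEulAsm64.BaseEverywhere (p := p) (LevelBridge13.pullBasis (primeLocalToGlobal q))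
      (LEulAsmLoc64.epsLoc p q) (if (q : ℕ) = p then 1 else 0) :=
  haveI : Fact (q : ℕ).Prime := ⟨q.2⟩
  baseEverywhere_nat (q : ℕ)

/-- **C4 modulo LD1**: the local Euler characteristic formula and local duality `h² = h⁰` of the
dual, given the natural perfect local pairings. -/
theorem localEuler_of_pairData (q : Nat.Primes)
    (P : PairData (LevelBridge13.pullBasis (primeLocalToGlobal q)) (LEulAsmLoc64.epsLoc p q))
    (S : Finset Nat.Primes) (M : Rep.{0} (ZMod p) Γ) (hM : IsGood S M) : LocalEuler q M :=
  LEulAsmLoc64.localEuler_of q P (baseEverywhere q) S M hM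

end Fermat.Agent.TW.LEulBaseEverywhere23
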