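/-
Programme TW (S56), sub-programme C4 (local Euler characteristic, architect helper74), helper49:
CANONICAL `ℤ[Δ]`-MODELS for the step BASE (consumers: C4-BASE-NUM, helper10).

* `quotAct π hπ M hM : Δ →* AddMonoid.End M` : for `π : G ↠ Δ` and a representation `M` of `G` on
  which `ker π` acts trivially, the induced additive action of `Δ`; `AMod`, `eAMod`,
  `eAMod_of_smul` : its canonical `ℤ[Δ]`-model;
* `unitsAct ι`, `XMod ι`, `eXMod ι`, `isUnitsModel_XMod` : the canonical model of `Eˣ`;
* `ZTriv Δ`, `eZTriv`, `isTrivModel_ZTriv` : `ℤ` with trivial action.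
-/
import Mathlib
import Fermat.Agent.TW.LEulIface74
import Fermat.Agent.TW.LocECGrpRing74

set_option autoImplicit false
set_option linter.unusedSectionVars false

open Fermat.Agent.TW.LocECGrpRing74 Fermat.Agent.TW.LEulIface74

namespace Fermat.Agent.TW.LEulBaseModels49

noncomputable section

/-! ### Actions factoring through a quotient -/

section QuotAct

variable {k G Δ : Type} [CommRing k] [Group G] [Group Δ] (π : G →* Δ)
  (hπ : Function.Surjective π) (M : Rep.{0} k G)
  (hM : ∀ g : G, π g = 1 → ∀ m : M, M.ρ g m = m)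

/-- The underlying additive action of a representation. -/
def rhoAdd : G →* AddMonoid.End M where
  toFun g := (M.ρ g).toAddMonoidHom
  map_one' := by
    ext m
    show M.ρ 1 m = m
    rw [map_one, Module.End.one_apply]
  map_mul' g h := by
    ext m
    show M.ρ (g * h) m = M.ρ g (M.ρ h m)
    rw [map_mul, Module.End.mul_apply]

theorem rhoAdd_apply (g : G) (m : M) : rhoAdd M g m = M.ρ g m := rfl

/-- The induced action of `Δ = G / ker π`. -/
def quotAct : Δ →* AddMonoid.End M :=
  (QuotientGroup.lift π.ker (rhoAdd M) (by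
    intro g hg
    rw [MonoidHom.mem_ker] at hg ⊢
    ext m
    exact hM g hg m)).comp
    (QuotientGroup.quotientKerEquivOfSurjective π hπ).symm.toMonoidHom

theorem quotAct_apply (g : G) (m : M) : quotAct π hπ M hM (π g) m = M.ρ g m := by
  have h : (QuotientGroup.quotientKerEquivOfSurjective π hπ).symm (π g) =
      (QuotientGroup.mk g : G ⧸ π.ker) := by
    rw [MulEquiv.symm_apply_eq]
    rfl
  unfold quotAct
  rw [MonoidHom.comp_apply, MulEquiv.coe_toMonoidHom, h, QuotientGroup.lift_mk]
  rfl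

/-- The canonical `ℤ[Δ]`-model of `M`. -/
abbrev AMod : Type := Model (quotAct π hπ M hM)

/-- `AMod ≃+ M`. -/
def eAMod : AMod π hπ M hM ≃+ M := modelEquiv (quotAct π hπ M hM)

theorem eAMod_of_smul (g : G) (a : AMod π hπ M hM) :
    eAMod π hπ M hM (MonoidAlgebra.of ℤ Δ (π g) • a) = M.ρ g (eAMod π hπ M hM a) := by
  unfold eAMod
  rw [modelEquiv_of_smul, quotAct_apply]

end QuotAct

/-! ### The canonical model of `Eˣ` -/

section Units

variable {q : ℕ} [Fact q.Prime] {E : Type} [Field E] [Algebra ℚ_[q] E] [FiniteDimensional ℚ_[q] E]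
  {Δ : Type} [Group Δ] (ι : Δ →* (E ≃ₐ[ℚ_[q]] E))

/-- The action of `Δ` on `Eˣ` (written additively). -/
def unitsAct : Δ →* AddMonoid.End (Additive Eˣ) where
  toFun δ := MonoidHom.toAdditive
    (Units.map (((ι δ : E ≃ₐ[ℚ_[q]] E) : E →+* E) : E →* E))
  map_one' := by
    ext x
    show (ι 1) (((Additive.toMul x : Eˣ) : E)) = ((Additive.toMul x : Eˣ) : E)
    rw [map_one]
    rfl
  map_mul' δ δ' := by
    ext x
    show (ι (δ * δ')) (((Additive.toMul x : Eˣ) : E)) =
      ι δ (ι δ' (((Additive.toMul x : Eˣ) : E)))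
    rw [map_mul]
    rfl

/-- The canonical `ℤ[Δ]`-model of `Eˣ`. -/
abbrev XMod : Type := Model (unitsAct ι)

/-- `XMod ≃+ Additive Eˣ`. -/
def eXMod : XMod ι ≃+ Additive Eˣ := modelEquiv (unitsAct ι)

theorem isUnitsModel_XMod : IsUnitsModel q E ι (XMod ι) (eXMod ι) := by
  intro δ x
  unfold eXMod
  rw [modelEquiv_of_smul]
  rfl

end Units

/-! ### `ℤ` with trivial action -/

section Triv

variable (Δ : Type) [Group Δ]

/-- `ℤ` with trivial `Δ`-action. -/
abbrev ZTriv : Type := Model (1 : Δ →* AddMonoid.End ℤ)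

/-- `ZTriv ≃+ ℤ`. -/
def eZTriv : ZTriv Δ ≃+ ℤ := modelEquiv (1 : Δ →* AddMonoid.End ℤ)

theorem isTrivModel_ZTriv : IsTrivModel (Δ := Δ) (ZTriv Δ) := by
  intro δ z
  apply (eZTriv Δ).injective
  unfold eZTriv
  rw [modelEquiv_of_smul]
  rfl

end Triv

end

end Fermat.Agent.TW.LEulBaseModels49
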