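/-
Programme TW (S56), sub-programme C4: BRIDGE (helper49) between the two copies of the E-level vocabulary
(`LEulDefsE23` of helper23 and `LEulUnitsB49E` of helper49, written in parallel): the definitions agree,
and the C4-LFb results are restated in the vocabulary of `LEulDefsE23`.
-/
import Mathlib
import Fermat.Agent.TW.LEulDefsE23
import Fermat.Agent.TW.LEulUnitsB49E

set_option autoImplicit false
set_option linter.unusedSectionVars false

open scoped Fermat.Agent.PT.LOC.Interface12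
open Fermat.Agent.PT.LOC.Interface12 Fermat.Agent.PT.LOC.Structure14

namespace Fermat.Agent.TW.LEulBridge49

variable (p : ℕ) [Fact p.Prime] (E : Type) [Field E] [Algebra ℚ_[p] E] [FiniteDimensional ℚ_[p] E]

theorem mPow_eq (n : ℕ) : LEulUnitsB49E.mPow p E n = LEulDefsE23.mPow p E n := rfl

theorem incl_eq : LEulUnitsB49E.incl p E = LEulDefsE23.incl p E := rfl

theorem UE_eq (n : ℕ) : LEulUnitsB49E.UE p E n = LEulDefsE23.UE p E n := rfl

/-- `p x ∈ 𝔪^(n+e) ↔ x ∈ 𝔪^n` (vocabulary of `LEulDefsE23`). -/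
theorem natCast_mul_mem_mPow_iff {n : ℕ} {x : E} :
    (p : E) * x ∈ LEulDefsE23.mPow p E (n + LEulUnitsB49E.eAbs p E) ↔
      x ∈ LEulDefsE23.mPow p E n :=
  LEulUnitsB49E.natCast_mul_mem_mPow_iff p E

theorem exists_natCast_mul_eq {n : ℕ} {y : E}
    (hy : y ∈ LEulDefsE23.mPow p E (n + LEulUnitsB49E.eAbs p E)) :
    ∃ x ∈ LEulDefsE23.mPow p E n, (p : E) * x = y :=
  LEulUnitsB49E.exists_natCast_mul_eq p E hy

theorem mul_sub_one_sub_mem_mPow {n k : ℕ} (hk : k ≤ n) {u u' : Eˣ}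
    (hu : u ∈ LEulDefsE23.UE p E n) (hu' : u' ∈ LEulDefsE23.UE p E n) :
    (((u * u' : Eˣ) : E) - 1) - (((u : E) - 1) + ((u' : E) - 1)) ∈
      LEulDefsE23.mPow p E (n + k) :=
  LEulUnitsB49E.mul_sub_one_sub_mem_mPow p E hk hu hu'

theorem exists_mem_UE_sub_one_eq {n : ℕ} (hn : 1 ≤ n) {x : E}
    (hx : x ∈ LEulDefsE23.mPow p E n) : ∃ u ∈ LEulDefsE23.UE p E n, (u : E) - 1 = x :=
  LEulUnitsB49E.exists_mem_UE_sub_one_eq p E hn hx

theorem pow_mem_UE {n : ℕ} (hn : LEulUnitsB49E.eAbs p E ≤ (p - 1) * n) {u : Eˣ}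
    (hu : u ∈ LEulDefsE23.UE p E n) :
    u ^ p ∈ LEulDefsE23.UE p E (n + LEulUnitsB49E.eAbs p E) :=
  LEulUnitsB49E.pow_mem_UE p E hn hu

theorem eq_one_of_pow_eq_one {n : ℕ} (hn : LEulUnitsB49E.eAbs p E < (p - 1) * n) {u : Eˣ}
    (hu : u ∈ LEulDefsE23.UE p E n) (hup : u ^ p = 1) : u = 1 :=
  LEulUnitsB49E.eq_one_of_pow_eq_one p E hn hu hup

theorem exists_pow_eq {n : ℕ} (hn : LEulUnitsB49E.eAbs p E < (p - 1) * n) {v : Eˣ}
    (hv : v ∈ LEulDefsE23.UE p E (n + LEulUnitsB49E.eAbs p E)) :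
    ∃ u ∈ LEulDefsE23.UE p E n, u ^ p = v :=
  LEulUnitsB49E.exists_pow_eq p E hn hv

/-- The `p`-th power map `UE n → UE (n + e)` in the vocabulary of `LEulDefsE23`. -/
noncomputable def powP {n : ℕ} (hn : LEulUnitsB49E.eAbs p E ≤ (p - 1) * n) :
    LEulDefsE23.UE p E n →* LEulDefsE23.UE p E (n + LEulUnitsB49E.eAbs p E) :=
  LEulUnitsB49E.powP p E hn

theorem powP_coe {n : ℕ} (hn : LEulUnitsB49E.eAbs p E ≤ (p - 1) * n)
    (u : LEulDefsE23.UE p E n) :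
    ((powP p E hn u : LEulDefsE23.UE p E (n + LEulUnitsB49E.eAbs p E)) : Eˣ) = (u : Eˣ) ^ p :=
  rfl

theorem powP_bijective {n : ℕ} (hn : LEulUnitsB49E.eAbs p E < (p - 1) * n) :
    Function.Bijective (powP p E hn.le) :=
  LEulUnitsB49E.powP_bijective p E hn

end Fermat.Agent.TW.LEulBridge49
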