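/-
Programme TW (S56), brick C4-LD2 (H² of the local group is effaceable by restriction), helper64.
File `LEulEffaceA64`: the FINITE-GROUP step.

For a finite group `Q`, a `Q`-module `C` with a fundamental class (`Interface8.IsFundClassFull`),
subgroups `K ≤ H ≤ Q` and a natural number `p` with `p * #K ∣ #H`: a 2-cochain `c` which is a
cocycle on `H` and such that `p • c` is a coboundary on `H`, is a coboundary on `K`.
Everything is stated for cochains `Q × Q → C` defined on the whole group, with the cocycle and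
coboundary conditions imposed on a subgroup only (no subtypes in the statements).
-/
import Mathlib
import Fermat.Agent.PT.FG.Interface8

set_option autoImplicit false
set_option linter.unusedSectionVars false

open CategoryTheory groupCohomology

namespace Fermat.Agent.TW.LEulEffaceA64

open Fermat.Agent.PT.FG.Interface8

variable {Q : Type} [Group Q]

/-- `c` satisfies the 2-cocycle identity on the subgroup `H`. -/
def IsCocycleOn₂ (C : Rep ℤ Q) (H : Subgroup Q) (c : Q × Q → C) : Prop :=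
  ∀ g ∈ H, ∀ h ∈ H, ∀ j ∈ H, c (g * h, j) + c (g, h) = C.ρ g (c (h, j)) + c (g, h * j)

/-- `c` is the coboundary of `b` on the subgroup `H`. -/
def IsCoboundaryOn₂ (C : Rep ℤ Q) (H : Subgroup Q) (c : Q × Q → C) : Prop :=
  ∃ b : Q → C, ∀ g ∈ H, ∀ h ∈ H, C.ρ g (b h) - b (g * h) + b g = c (g, h)

/-- Restriction of a 2-cochain to a subgroup. -/
def resCochain₂ (C : Rep ℤ Q) (H : Subgroup Q) (c : Q × Q → C) : H × H → resSub H C :=
  fun x => c ((x.1 : Q), (x.2 : Q))

theorem resCochain₂_mem_cocycles₂ {C : Rep ℤ Q} {H : Subgroup Q} {c : Q × Q → C}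
    (hc : IsCocycleOn₂ C H c) : resCochain₂ C H c ∈ cocycles₂ (resSub H C) := by
  rw [mem_cocycles₂_iff]
  intro g h j
  exact hc g g.2 h h.2 j j.2

theorem isCoboundaryOn₂_iff {C : Rep ℤ Q} {H : Subgroup Q} {c : Q × Q → C} :
    IsCoboundaryOn₂ C H c ↔ resCochain₂ C H c ∈ coboundaries₂ (resSub H C) := by
  classical
  constructor
  · rintro ⟨b, hb⟩
    refine ⟨fun h : H => b h, ?_⟩
    funext ⟨g, h⟩
    rw [d₁₂_hom_apply]
    exact hb g g.2 h h.2
  · rintro ⟨b, hb⟩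
    refine ⟨fun g => if hg : g ∈ H then b ⟨g, hg⟩ else 0, fun g hg h hh => ?_⟩
    have := congrFun hb (⟨g, hg⟩, ⟨h, hh⟩)
    rw [d₁₂_hom_apply] at this
    simp only [dif_pos hh, dif_pos hg, dif_pos (H.mul_mem hg hh)]
    exact this

theorem IsCocycleOn₂.mono {C : Rep ℤ Q} {H K : Subgroup Q} (hKH : K ≤ H) {c : Q × Q → C}
    (hc : IsCocycleOn₂ C H c) : IsCocycleOn₂ C K c :=
  fun g hg h hh j hj => hc g (hKH hg) h (hKH hh) j (hKH hj)

theorem IsCoboundaryOn₂.mono {C : Rep ℤ Q} {H K : Subgroup Q} (hKH : K ≤ H) {c : Q × Q → C}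
    (hc : IsCoboundaryOn₂ C H c) : IsCoboundaryOn₂ C K c := by
  obtain ⟨b, hb⟩ := hc
  exact ⟨b, fun g hg h hh => hb g (hKH hg) h (hKH hh)⟩

/-- The restriction of the class of a cocycle `σ` of `Q` to a subgroup is the class of the
restricted cochain. -/
theorem resMap_H2π (C : Rep ℤ Q) (H : Subgroup Q) (σ : cocycles₂ C)
    (hσ : resCochain₂ C H (σ : Q × Q → C) ∈ cocycles₂ (resSub H C)) :
    resMap H C 2 (H2π C σ) = H2π (resSub H C) ⟨resCochain₂ C H (σ : Q × Q → C), hσ⟩ := by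
  have := H2π_comp_map_apply H.subtype (𝟙 (resSub H C)) σ
  rw [this]
  congr 1

theorem IsCoboundaryOn₂.add {C : Rep ℤ Q} {H : Subgroup Q} {c c' : Q × Q → C}
    (hc : IsCoboundaryOn₂ C H c) (hc' : IsCoboundaryOn₂ C H c') : IsCoboundaryOn₂ C H (c + c') := by
  obtain ⟨b, hb⟩ := hc
  obtain ⟨b', hb'⟩ := hc'
  refine ⟨b + b', fun g hg h hh => ?_⟩
  simp only [Pi.add_apply, map_add, ← hb g hg h hh, ← hb' g hg h hh]
  abel

theorem isCoboundaryOn₂_iff_H2π {C : Rep ℤ Q} {H : Subgroup Q} {c : Q × Q → C}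
    (hc : IsCocycleOn₂ C H c) :
    IsCoboundaryOn₂ C H c ↔
      H2π (resSub H C) ⟨resCochain₂ C H c, resCochain₂_mem_cocycles₂ hc⟩ = 0 := by
  rw [isCoboundaryOn₂_iff, H2π_eq_zero_iff]
  exact Iff.rfl

theorem IsCocycleOn₂.sub_zsmul {C : Rep ℤ Q} {H : Subgroup Q} {c σ : Q × Q → C}
    (hc : IsCocycleOn₂ C H c) (hσ : IsCocycleOn₂ C H σ) (m : ℤ) :
    IsCocycleOn₂ C H (c - m • σ) := by
  intro g hg h hh j hj
  have h1 := hc g hg h hh j hj
  have h2 := hσ g hg h hh j hj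
  simp only [Pi.sub_apply, Pi.smul_apply, map_sub, map_zsmul]
  have h3 : m • σ (g * h, j) + m • σ (g, h) = m • (C.ρ g) (σ (h, j)) + m • σ (g, h * j) := by
    rw [← smul_add, h2, smul_add]
  calc c (g * h, j) - m • σ (g * h, j) + (c (g, h) - m • σ (g, h))
      = (c (g * h, j) + c (g, h)) - (m • σ (g * h, j) + m • σ (g, h)) := by abel
    _ = (C.ρ g (c (h, j)) + c (g, h * j)) - (m • (C.ρ g) (σ (h, j)) + m • σ (g, h * j)) := by
        rw [h1, h3]
    _ = _ := by abel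

theorem IsCocycleOn₂.zsmul {C : Rep ℤ Q} {H : Subgroup Q} {σ : Q × Q → C}
    (hσ : IsCocycleOn₂ C H σ) (m : ℤ) : IsCocycleOn₂ C H (m • σ) := by
  intro g hg h hh j hj
  have h2 := hσ g hg h hh j hj
  simp only [Pi.smul_apply, map_zsmul]
  rw [← smul_add, h2, smul_add]

/-- **The finite-level step**: if `(C, u)` satisfies the class-formation hypotheses, `K ≤ H` are
subgroups with `p * #K ∣ #H`, then a cochain which is a cocycle on `H` and whose `p`-th multiple
is a coboundary on `H`, is a coboundary on `K`. -/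
theorem isCoboundaryOn₂_of_torsion [Finite Q] (C : Rep ℤ Q) (u : H2 C)
    (hu : IsFundClassFull C u) (H K : Subgroup Q) (hKH : K ≤ H) (p : ℕ)
    (hdiv : p * Nat.card K ∣ Nat.card H) (c : Q × Q → C) (hc : IsCocycleOn₂ C H c)
    (hpc : IsCoboundaryOn₂ C H (p • c)) : IsCoboundaryOn₂ C K c := by
  induction u using H2_induction_on with
  | h σ =>
  have hσ : ∀ H' : Subgroup Q, IsCocycleOn₂ C H' (σ : Q × Q → C) :=
    fun H' g _ h _ j _ => (mem_cocycles₂_iff _).1 σ.2 g h j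
  have hordH : addOrderOf (H2π (resSub H C)
      ⟨resCochain₂ C H σ, resCochain₂_mem_cocycles₂ (hσ H)⟩) = Nat.card H := by
    rw [← resMap_H2π]; exact hu.order H
  have hordK : addOrderOf (H2π (resSub K C)
      ⟨resCochain₂ C K σ, resCochain₂_mem_cocycles₂ (hσ K)⟩) = Nat.card K := by
    rw [← resMap_H2π]; exact hu.order K
  have hcardH := hu.card H
  have hHpos : 0 < Nat.card H := Nat.card_pos
  have hKpos : 0 < Nat.card K := Nat.card_pos
  have : Finite (H2 (resSub H C)) :=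
    Nat.finite_of_card_ne_zero (by rw [hcardH]; exact hHpos.ne')
  have htop : AddSubgroup.zmultiples (H2π (resSub H C)
      ⟨resCochain₂ C H σ, resCochain₂_mem_cocycles₂ (hσ H)⟩) = ⊤ := by
    rw [← AddSubgroup.card_eq_iff_eq_top, Nat.card_zmultiples, hordH, hcardH]
  have hxmem : H2π (resSub H C) ⟨resCochain₂ C H c, resCochain₂_mem_cocycles₂ hc⟩ ∈
      AddSubgroup.zmultiples (H2π (resSub H C)
        ⟨resCochain₂ C H σ, resCochain₂_mem_cocycles₂ (hσ H)⟩) := htop ▸ AddSubgroup.mem_top _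
  obtain ⟨m, hm⟩ := AddSubgroup.mem_zmultiples_iff.1 hxmem
  -- `c - m • σ` is a coboundary on `H`
  have h1 : IsCoboundaryOn₂ C H (c - m • (σ : Q × Q → C)) := by
    rw [isCoboundaryOn₂_iff_H2π (hc.sub_zsmul (hσ H) m)]
    have : (⟨resCochain₂ C H (c - m • (σ : Q × Q → C)),
        resCochain₂_mem_cocycles₂ (hc.sub_zsmul (hσ H) m)⟩ : cocycles₂ (resSub H C)) =
        ⟨resCochain₂ C H c, resCochain₂_mem_cocycles₂ hc⟩ -
          m • ⟨resCochain₂ C H σ, resCochain₂_mem_cocycles₂ (hσ H)⟩ := by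
      apply Subtype.ext
      rfl
    rw [this, map_sub, map_zsmul, hm, sub_self]
  -- `p • m • gH = 0`
  have h2 : (p : ℤ) • m • H2π (resSub H C)
      ⟨resCochain₂ C H σ, resCochain₂_mem_cocycles₂ (hσ H)⟩ = 0 := by
    rw [hm]
    have hpc' : IsCocycleOn₂ C H ((p : ℤ) • c) := hc.zsmul (p : ℤ)
    have hpc2 : IsCoboundaryOn₂ C H ((p : ℤ) • c) := by
      obtain ⟨b, hb⟩ := hpc
      refine ⟨b, fun g hg h hh => ?_⟩
      rw [hb g hg h hh]
      simp only [Pi.smul_apply, natCast_zsmul]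
    rw [isCoboundaryOn₂_iff_H2π hpc'] at hpc2
    have : (⟨resCochain₂ C H ((p : ℤ) • c), resCochain₂_mem_cocycles₂ hpc'⟩ :
        cocycles₂ (resSub H C)) =
        (p : ℤ) • ⟨resCochain₂ C H c, resCochain₂_mem_cocycles₂ hc⟩ := by
      apply Subtype.ext
      rfl
    rw [this, map_zsmul] at hpc2
    exact hpc2
  rw [smul_smul, ← addOrderOf_dvd_iff_zsmul_eq_zero, hordH] at h2
  -- arithmetic: `#K ∣ m`
  have hp0 : p ≠ 0 := by
    rintro rfl
    rw [zero_mul, zero_dvd_iff] at hdiv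
    exact hHpos.ne' hdiv
  have h3 : ((Nat.card K : ℕ) : ℤ) ∣ m := by
    obtain ⟨t, ht⟩ := hdiv
    rw [ht] at h2
    have h4 : ((p : ℤ) * ((Nat.card K : ℕ) : ℤ)) * (t : ℤ) ∣ (p : ℤ) * m := by
      exact_mod_cast h2
    have h5 : (p : ℤ) * (((Nat.card K : ℕ) : ℤ) * (t : ℤ)) ∣ (p : ℤ) * m := by
      rwa [← mul_assoc]
    have h6 := (mul_dvd_mul_iff_left (by exact_mod_cast hp0 : (p : ℤ) ≠ 0)).1 h5
    exact (dvd_mul_right _ _).trans h6
  -- `m • σ` is a coboundary on `K`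
  have h7 : IsCoboundaryOn₂ C K (m • (σ : Q × Q → C)) := by
    rw [isCoboundaryOn₂_iff_H2π ((hσ K).zsmul m)]
    have : (⟨resCochain₂ C K (m • (σ : Q × Q → C)),
        resCochain₂_mem_cocycles₂ ((hσ K).zsmul m)⟩ : cocycles₂ (resSub K C)) =
        m • ⟨resCochain₂ C K σ, resCochain₂_mem_cocycles₂ (hσ K)⟩ := by
      apply Subtype.ext
      rfl
    rw [this, map_zsmul, ← addOrderOf_dvd_iff_zsmul_eq_zero, hordK]
    exact h3
  have h8 := (h1.mono hKH).add h7
  rwa [sub_add_cancel] at h8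

end Fermat.Agent.TW.LEulEffaceA64
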