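/-
Programme TW (S56), brick C4-LD2 (H² of the local group is effaceable by restriction), helper64.
File `LEulEffaceB64`: DESCENT to a finite level.

For a group `G`, a normal subgroup `W` of finite index, a `G`-module `Y` (over `ℤ`) such that the
finite level `(G ⧸ W, Y^W)` carries a fundamental class: if `W ≤ V ≤ V₀` with `p ∣ [V₀ : V]`, a
level-`W` 2-cochain `α` which is a cocycle on `V₀` and such that `p • α` is the coboundary on `V₀`
of a level-`W` cochain, is on `V` the coboundary of a level-`W` 1-cochain.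
-/
import Mathlib
import Fermat.Agent.PT.PRO.HyperColim18
import Fermat.Agent.TW.LEulEffaceA64

set_option autoImplicit false
set_option linter.unusedSectionVars false

open CategoryTheory groupCohomology

namespace Fermat.Agent.TW.LEulEffaceB64

open Fermat.Agent.PT.FG.Interface8 Fermat.Agent.PT.PRO.GlobalDuality20
  Fermat.Agent.PT.PRO.HyperColim18 Fermat.Agent.TW.LEulEffaceA64

variable {G : Type} [Group G]

/-- Cardinalities of the images in `G ⧸ W` of two subgroups `W ≤ V ≤ V₀`. -/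
theorem card_map_mk_eq (W V V₀ : Subgroup G) [W.Normal] [Finite (G ⧸ W)] (hWV : W ≤ V)
    (hVV₀ : V ≤ V₀) :
    Nat.card (V₀.map (QuotientGroup.mk' W)) =
      Nat.card (V.map (QuotientGroup.mk' W)) * V.relIndex V₀ := by
  have hsurj : Function.Surjective (QuotientGroup.mk' W) := QuotientGroup.mk'_surjective W
  have hker : ∀ U : Subgroup G, W ≤ U → (QuotientGroup.mk' W).ker ≤ U := fun U hU => by
    rwa [QuotientGroup.ker_mk']
  have h1 : (V₀.map (QuotientGroup.mk' W)).index = V₀.index :=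
    Subgroup.index_map_eq V₀ hsurj (hker V₀ (hWV.trans hVV₀))
  have h2 : (V.map (QuotientGroup.mk' W)).index = V.index :=
    Subgroup.index_map_eq V hsurj (hker V hWV)
  have h3 := Subgroup.card_mul_index (V₀.map (QuotientGroup.mk' W))
  have h4 := Subgroup.card_mul_index (V.map (QuotientGroup.mk' W))
  have h5 := Subgroup.relIndex_mul_index hVV₀
  rw [h1] at h3
  rw [h2, ← h5] at h4
  have h0 : V₀.index ≠ 0 := by
    intro h0
    rw [h0, mul_zero] at h3
    exact (Nat.card_pos (α := G ⧸ W)).ne' h3.symm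
  have h6 : Nat.card (V₀.map (QuotientGroup.mk' W)) * V₀.index =
      Nat.card (V.map (QuotientGroup.mk' W)) * V.relIndex V₀ * V₀.index := by
    rw [h3, mul_assoc, h4]
  exact Nat.eq_of_mul_eq_mul_right (Nat.pos_of_ne_zero h0) h6

variable {Y : Type} [AddCommGroup Y]

/-- **Descent**: see the header. -/
theorem exists_level_coboundary (ρ : Representation ℤ G Y) (W : Subgroup G) [W.Normal]
    [Finite (G ⧸ W)] (u : H2 (Rep.of (fixedRep W ρ)))
    (hu : IsFundClassFull (Rep.of (fixedRep W ρ)) u)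
    (V₀ V : Subgroup G) (hWV : W ≤ V) (hVV₀ : V ≤ V₀) (p : ℕ) (hdiv : p ∣ V.relIndex V₀)
    (α : G × G → Y) (hα : IsLevelAt₂ ρ W α)
    (hcoc : ∀ g ∈ V₀, ∀ h ∈ V₀, ∀ j ∈ V₀,
      α (g * h, j) + α (g, h) = ρ g (α (h, j)) + α (g, h * j))
    (hp : ∃ b : G → Y, IsLevelAt₁ ρ W b ∧
      ∀ g ∈ V₀, ∀ h ∈ V₀, ρ g (b h) - b (g * h) + b g = p • α (g, h)) :
    ∃ β : G → Y, IsLevelAt₁ ρ W β ∧
      ∀ g ∈ V, ∀ h ∈ V, ρ g (β h) - β (g * h) + β g = α (g, h) := by
  have hα' : ∀ g h : G, ((desc₂ α hα ((g : G ⧸ W), (h : G ⧸ W)) : fixedSub W ρ) : Y) = α (g, h) :=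
    fun g h => congrFun (infl₂_desc₂ α hα) (g, h)
  have hcard := card_map_mk_eq W V V₀ hWV hVV₀
  have hdiv' : p * Nat.card (V.map (QuotientGroup.mk' W)) ∣
      Nat.card (V₀.map (QuotientGroup.mk' W)) := by
    obtain ⟨t, ht⟩ := hdiv
    rw [hcard, ht]
    exact ⟨t, by ring⟩
  have key := isCoboundaryOn₂_of_torsion (Rep.of (fixedRep W ρ)) u hu
    (V₀.map (QuotientGroup.mk' W)) (V.map (QuotientGroup.mk' W)) (Subgroup.map_mono hVV₀) p hdiv'
    (desc₂ α hα) ?_ ?_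
  · obtain ⟨b, hb⟩ := key
    refine ⟨infl₁ b, isLevelAt₁_infl₁ b, fun g hg h hh => ?_⟩
    have := hb (g : G ⧸ W) ⟨g, hg, rfl⟩ (h : G ⧸ W) ⟨h, hh, rfl⟩
    have h2 := congrArg (fun y : fixedSub W ρ => (y : Y)) this
    simp only [hα'] at h2
    exact h2
  · rintro _ ⟨g, hg, rfl⟩ _ ⟨h, hh, rfl⟩ _ ⟨j, hj, rfl⟩
    apply Subtype.ext
    have := hcoc g hg h hh j hj
    simp only [QuotientGroup.mk'_apply]
    rw [← QuotientGroup.mk_mul, ← QuotientGroup.mk_mul]
    show ((desc₂ α hα ((g * h : G), (j : G ⧸ W)) : fixedSub W ρ) : Y) +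
      ((desc₂ α hα ((g : G ⧸ W), (h : G ⧸ W)) : fixedSub W ρ) : Y) =
      ρ g ((desc₂ α hα ((h : G ⧸ W), (j : G ⧸ W)) : fixedSub W ρ) : Y) +
      ((desc₂ α hα ((g : G ⧸ W), ((h * j : G) : G ⧸ W)) : fixedSub W ρ) : Y)
    rw [hα', hα', hα', hα']
    exact this
  · obtain ⟨b, hb, hbα⟩ := hp
    have hb' : ∀ g : G, ((desc₁ b hb (g : G ⧸ W) : fixedSub W ρ) : Y) = b g :=
      fun g => congrFun (infl₁_desc₁ b hb) g
    refine ⟨desc₁ b hb, ?_⟩
    rintro _ ⟨g, hg, rfl⟩ _ ⟨h, hh, rfl⟩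
    apply Subtype.ext
    have := hbα g hg h hh
    simp only [QuotientGroup.mk'_apply]
    rw [← QuotientGroup.mk_mul]
    show ρ g ((desc₁ b hb (h : G ⧸ W) : fixedSub W ρ) : Y) -
      ((desc₁ b hb ((g * h : G) : G ⧸ W) : fixedSub W ρ) : Y) +
      ((desc₁ b hb (g : G ⧸ W) : fixedSub W ρ) : Y) =
      p • ((desc₂ α hα ((g : G ⧸ W), (h : G ⧸ W)) : fixedSub W ρ) : Y)
    rw [hb', hb', hb', hα']
    exact this

end Fermat.Agent.TW.LEulEffaceB64
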