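/-
Programme TW (S56), brick C4-LD2 (H² of the local group is effaceable by restriction), helper64.
File `LEulEffaceC64`: the SCALAR case over the local Galois group `Γ_q = Gal(ℚ̄_q/ℚ_q)`.

If `V₀ ≤ Γ_q` fixes a primitive `p`-th root of unity `ζ`, `V ≤ V₀` is open with `p ∣ [V₀ : V]`,
then every level 2-cochain `a : Γ_q × Γ_q → ZMod p` which is a (trivial-action) cocycle on `V₀`
is on `V` the coboundary of a level 1-cochain `Γ_q → ZMod p`.

Proof: `α = ζ^a` is a cocycle on `V₀` with values in `μ_p ⊂ ℚ̄_qˣ` killed by `p`; by the local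
class formation at a finite level (`LEulEffaceB64.exists_level_coboundary`) it is a coboundary
`dβ` on `V`; `β^p` is a 1-cocycle on `V`, hence `β^p = dε₀` by Hilbert 90
(`InfGalois13.hilbert90_level`); with `ε^p = ε₀` the cochain `β / dε` has values in `μ_p` and
coboundary `α` on `V`; take logarithms in base `ζ`.
-/
import Mathlib
import Fermat.Agent.PT.GLUE.LocalSide11
import Fermat.Agent.TW.LEulEffaceB64

set_option autoImplicit false
set_option linter.unusedSectionVars false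
set_option linter.style.haveILetI false

open CategoryTheory groupCohomology

namespace Fermat.Agent.TW.LEulEffaceC64

open Fermat.Agent.PT.PRO Fermat.Agent.PT.PRO.LevelCoh28 Fermat.Agent.PT.GLUE.Objects21
open Fermat.Agent.PT.GLUE.LocalSide11 Fermat.Agent.PT.PRO.GlobalDuality20
open Fermat.Agent.PT.FG.Interface8 Fermat.Agent.TW.LEulEffaceB64

/-! ### The exponential `ZMod p → μ_p` in base `ζ` -/

section Exp

variable {Ω : Type*} [Field Ω] (p : ℕ) [Fact p.Prime] (ζ : Ωˣ) (h1 : ζ ^ p = 1)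

/-- `x ↦ ζ ^ x`, additively. -/
noncomputable def expZ : ZMod p →+ Additive Ωˣ :=
  ZMod.lift p ⟨zmultiplesHom (Additive Ωˣ) (Additive.ofMul ζ), by
    rw [zmultiplesHom_apply, natCast_zsmul, ← ofMul_pow, h1, ofMul_one]⟩

theorem expZ_intCast (m : ℤ) : expZ p ζ h1 (m : ZMod p) = m • Additive.ofMul ζ := by
  rw [expZ, ZMod.lift_coe]
  rfl

theorem expZ_injective (hζ : IsPrimitiveRoot ζ p) : Function.Injective (expZ p ζ h1) := by
  rw [expZ, ZMod.lift_injective]
  intro m hm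
  rw [zmultiplesHom_apply] at hm
  have h2 : ζ ^ m = 1 := by
    have := congrArg Additive.toMul hm
    simpa using this
  rw [hζ.zpow_eq_one_iff_dvd] at h2
  exact (ZMod.intCast_zmod_eq_zero_iff_dvd m p).2 h2

theorem exists_expZ_eq (hζ : IsPrimitiveRoot ζ p) (y : Additive Ωˣ) (hy : p • y = 0) :
    ∃ x : ZMod p, expZ p ζ h1 x = y := by
  haveI : NeZero p := ⟨(Fact.out : p.Prime).ne_zero⟩
  have hmem : Additive.toMul y ∈ rootsOfUnity p Ω := by
    rw [mem_rootsOfUnity]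
    have := congrArg Additive.toMul hy
    simpa using this
  obtain ⟨i, -, hi⟩ := hζ.eq_pow_of_mem_rootsOfUnity hmem
  refine ⟨((i : ℤ) : ZMod p), ?_⟩
  rw [expZ_intCast, natCast_zsmul]
  apply Additive.toMul.injective
  simpa using hi

end Exp

/-! ### The scalar case -/

section Local

variable (q : ℕ) [Fact q.Prime]

local notation "Ω" => PadicAlgCl q
local notation "Γq" => (PadicAlgCl q ≃ₐ[ℚ_[q]] PadicAlgCl q)

local instance isAlgClosurePadic64 : IsAlgClosure ℚ_[q] Ω := ⟨inferInstance, inferInstance⟩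
local instance isGaloisPadic64 : IsGalois ℚ_[q] Ω := IsAlgClosure.isGalois ℚ_[q] Ω

/-- **The scalar case of the effacement of `H²`.** -/
theorem exists_scalar_coboundary (p : ℕ) [Fact p.Prime] (ζ : Ωˣ) (hζ : IsPrimitiveRoot ζ p)
    (V₀ V : Subgroup Γq) (hV : ∃ W ∈ (levelLoc q).sets, W ≤ V) (hVV₀ : V ≤ V₀)
    (hfix : ∀ g ∈ V₀, g • ζ = ζ) (hdiv : p ∣ V.relIndex V₀)
    (a : Γq × Γq → ZMod p) (ha : IsLevel₂ (levelLoc q).sets a)
    (hcoc : ∀ g ∈ V₀, ∀ h ∈ V₀, ∀ j ∈ V₀,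
      a (g * h, j) + a (g, h) = a (h, j) + a (g, h * j)) :
    ∃ b : Γq → ZMod p, IsLevel₁ (levelLoc q).sets b ∧
      ∀ g ∈ V, ∀ h ∈ V, b h - b (g * h) + b g = a (g, h) := by
  classical
  have h𝓤 := (levelLoc q).isBasis
  have h1 : ζ ^ p = 1 := hζ.pow_eq_one
  -- the module `ℚ̄_qˣ`, with the instances of `Additive`
  set ρ : Representation ℤ Γq (Additive Ωˣ) := Representation.ofMulDistribMulAction Γq Ωˣ with hρ
  have hρdef : ∀ (g : Γq) (y : Additive Ωˣ), ρ g y = Additive.ofMul (g • Additive.toMul y) :=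
    fun _ _ => rfl
  have hρmul : ∀ (g h : Γq) (y : Additive Ωˣ), ρ (g * h) y = ρ g (ρ h y) := fun g h y => by
    rw [map_mul, Module.End.mul_apply]
  set E : ZMod p →+ Additive Ωˣ := expZ p ζ h1 with hE
  -- the group `V₀` acts trivially on the image of `E`
  have hρE : ∀ g ∈ V₀, ∀ x : ZMod p, ρ g (E x) = E x := by
    intro g hg x
    obtain ⟨m, rfl⟩ := ZMod.intCast_surjective x
    rw [hE, expZ_intCast, map_zsmul, hρdef, toMul_ofMul, hfix g hg]
  -- a normal level `W ≤ V` under which `a` is invariant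
  obtain ⟨U, hU, haU⟩ := ha
  obtain ⟨W₀, hW₀, hW₀V⟩ := hV
  obtain ⟨W₁, hW₁, hW₁le⟩ := h𝓤.directed U hU W₀ hW₀
  obtain ⟨W, hW, hWW₁, hWn⟩ := h𝓤.normalCore W₁ hW₁
  haveI := hWn
  haveI := finite_quotient_of_mem_levelLoc q hW
  have hWU : W ≤ U := hWW₁.trans (hW₁le.trans inf_le_left)
  have hWV : W ≤ V := (hWW₁.trans (hW₁le.trans inf_le_right)).trans hW₀V
  obtain ⟨u, hu⟩ : ∃ u : H2 (Rep.of (HyperColim18.fixedRep W ρ)),
      IsFundClassFull (Rep.of (HyperColim18.fixedRep W ρ)) u :=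
    exists_isFundClassFull_of_mem_levelLoc q hW
  -- the cochain `α = ζ ^ a`
  let α : Γq × Γq → Additive Ωˣ := fun x => E (a x)
  have hα : IsLevelAt₂ ρ W α :=
    ⟨fun g g' s s' hs hs' => congrArg E (haU g g' s (hWU hs) s' (hWU hs')),
     fun x s hs => hρE s (hVV₀ (hWV hs)) _⟩
  have hcocα : ∀ g ∈ V₀, ∀ h ∈ V₀, ∀ j ∈ V₀,
      α (g * h, j) + α (g, h) = ρ g (α (h, j)) + α (g, h * j) := by
    intro g hg h hh j hj
    rw [hρE g hg]
    show E _ + E _ = E _ + E _
    rw [← map_add, ← map_add, hcoc g hg h hh j hj]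
  have hpα : ∀ x, p • α x = 0 := by
    intro x
    show p • E (a x) = 0
    rw [← map_nsmul, nsmul_eq_mul, CharP.cast_eq_zero, zero_mul, map_zero]
  obtain ⟨β, hβ, hβα⟩ := exists_level_coboundary ρ W u hu V₀ V hWV hVV₀ p hdiv α hα
    hcocα ⟨fun _ => 0, ⟨fun _ _ _ => rfl, fun _ s _ => map_zero _⟩, fun g _ h _ => by
      rw [hpα, map_zero, sub_zero, add_zero]⟩
  -- Hilbert 90 for `β ^ p`
  obtain ⟨F, hF, hWF⟩ := exists_eq_fixingSubgroup_of_mem_levelLoc q hW
  let c : Γq → Ωˣ := fun g => (Additive.toMul (β g)) ^ p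
  have hcinv : ∀ g, ∀ s ∈ F.fixingSubgroup, c (g * s) = c g := by
    intro g s hs
    show (Additive.toMul (β (g * s))) ^ p = _
    rw [hβ.1 g s (hWF ▸ hs)]
  have hcval : ∀ g, ((c g : Ωˣ) : Ω) ∈ F := by
    intro g
    have h : FixedBy (unitsLoc q).ρ F.fixingSubgroup (β g) := fun s hs => hβ.2 g s (hWF ▸ hs)
    have h2 : ((Additive.toMul (β g) : Ωˣ) : Ω) ∈ F := (fixedBy_unitsLoc_iff q F _).1 h
    show (((Additive.toMul (β g)) ^ p : Ωˣ) : Ω) ∈ F
    rw [Units.val_pow_eq_pow_val]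
    exact pow_mem h2 p
  have hpβ : ∀ n ∈ V, ∀ n' ∈ V, p • β (n * n') = p • (ρ n (β n')) + p • β n := by
    intro n hn n' hn'
    have h := hβα n hn n' hn'
    have h2 : β (n * n') = ρ n (β n') + β n - α (n, n') := by
      rw [← h]
      abel
    rw [h2, nsmul_sub, hpα, sub_zero, nsmul_add]
  have hccoc : ∀ n ∈ V, ∀ n' ∈ V, c (n * n') = n • c n' * c n := by
    intro n hn n' hn'
    have h := congrArg (Additive.toMul (α := Ωˣ)) (hpβ n hn n' hn')
    rw [toMul_add, toMul_nsmul, toMul_nsmul, toMul_nsmul, hρdef, toMul_ofMul, ← smul_pow'] at h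
    exact h
  obtain ⟨ε₀, hε₀⟩ := Fermat.Agent.PT.BR.InfGalois13.hilbert90_level V F c hcinv hcval hccoc
  -- a `p`-th root `ε` of `ε₀`
  obtain ⟨z, hz⟩ := IsAlgClosed.exists_pow_nat_eq ((ε₀ : Ωˣ) : Ω) (Fact.out : p.Prime).pos
  have hz0 : z ≠ 0 := by
    rintro rfl
    rw [zero_pow (Fact.out : p.Prime).ne_zero] at hz
    exact ε₀.ne_zero hz.symm
  have hε : (Units.mk0 z hz0) ^ p = ε₀ := Units.ext (by simpa using hz)
  set e : Additive Ωˣ := Additive.ofMul (Units.mk0 z hz0) with he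
  have hpe : p • e = Additive.ofMul ε₀ := by
    rw [he, ← ofMul_pow, hε]
  -- the corrected cochain
  let β' : Γq → Additive Ωˣ := fun g => β g - (ρ g e - e)
  have hβ'level : IsLevel₁ (levelLoc q).sets β' := by
    obtain ⟨U', hU', hfixe⟩ := isDiscrete_unitsLoc q e
    have hfixe' : ∀ s ∈ U', ρ s e = e := hfixe
    obtain ⟨W', hW', hW'le⟩ := h𝓤.directed W hW U' hU'
    refine ⟨W', hW', fun g s hs => ?_⟩
    show β (g * s) - (ρ (g * s) e - e) = β g - (ρ g e - e)
    rw [hβ.1 g s ((hW'le.trans inf_le_left) hs), hρmul, hfixe' s ((hW'le.trans inf_le_right) hs)]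
  have hβ'p : ∀ n ∈ V, p • β' n = 0 := by
    intro n hn
    have h := congrArg (Additive.ofMul (α := Ωˣ)) (hε₀ n hn)
    have h2 : p • β n = ρ n (Additive.ofMul ε₀) - Additive.ofMul ε₀ := h
    show p • (β n - (ρ n e - e)) = 0
    rw [nsmul_sub, nsmul_sub, ← map_nsmul, hpe, h2, sub_self]
  have hβ'α : ∀ g ∈ V, ∀ h ∈ V, ρ g (β' h) - β' (g * h) + β' g = α (g, h) := by
    intro g hg h hh
    rw [← hβα g hg h hh]
    show ρ g (β h - (ρ h e - e)) - (β (g * h) - (ρ (g * h) e - e)) + (β g - (ρ g e - e)) = _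
    rw [hρmul, map_sub, map_sub]
    abel
  -- logarithms
  let lg : Additive Ωˣ → ZMod p := fun y => if h : ∃ x, E x = y then h.choose else 0
  have hlg : ∀ y : Additive Ωˣ, p • y = 0 → E (lg y) = y := fun y hy => by
    have h : ∃ x, E x = y := exists_expZ_eq p ζ h1 hζ y hy
    simp only [lg, dif_pos h]
    exact h.choose_spec
  refine ⟨lg ∘ β', hβ'level.comp lg, fun g hg h hh => ?_⟩
  apply expZ_injective p ζ h1 hζ
  show E (lg (β' h) - lg (β' (g * h)) + lg (β' g)) = E (a (g, h))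
  rw [map_add, map_sub, hlg _ (hβ'p h hh), hlg _ (hβ'p _ (V.mul_mem hg hh)),
    hlg _ (hβ'p g hg)]
  have h3 := hβ'α g hg h hh
  rw [← hlg _ (hβ'p h hh), hρE g (hVV₀ hg), hlg _ (hβ'p h hh)] at h3
  exact h3

end Local

end Fermat.Agent.TW.LEulEffaceC64
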