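/-
Programme TW (S56), sub-programme C4 (local Euler characteristic, architect helper74), brick C4-LFa
(helper23), FINAL FORM: the statement shapes of `TW/LEulIface74.lean`.

* `lfaPrime : LEulIface74.LFaPrime q E p`   (`q ≠ p`: `1 + 𝔪` is uniquely `p`-divisible);
* `lfFin_of_UE_le`, `lfFin : LEulIface74.LFfin q E p`   (`Eˣ/(Eˣ)^p` is finite, all `q`, `p`);
* `lfaCount : LEulIface74.LFaCount q E p ι`   (valuation sequence + finite index, in counting form).
-/
import Mathlib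
import Fermat.Agent.TW.LEulIface74
import Fermat.Agent.TW.LEulUnitsAE23
import Fermat.Agent.TW.LEulBridge49
import Fermat.Agent.TW.LocECGrpRing74

set_option autoImplicit false
set_option linter.unusedSectionVars false
set_option linter.style.haveILetI false

open scoped Fermat.Agent.PT.LOC.Interface12
open Fermat.Agent.PT.LOC.Interface12 Fermat.Agent.PT.LOC.Structure14
  Fermat.Agent.PT.LOC.StructureTower27 IsLocalRing
  Fermat.Agent.TW.LEulDefsE23 Fermat.Agent.TW.LocECCount74 Fermat.Agent.TW.LocECGrpRing74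

namespace Fermat.Agent.TW.LEulLFa23

noncomputable section

variable (q : ℕ) [Fact q.Prime] (E : Type) [Field E] [Algebra ℚ_[q] E]
  [FiniteDimensional ℚ_[q] E]

theorem UE_eq (n : ℕ) : LEulIface74.UE q E n = LEulDefsE23.UE q E n := rfl

theorem mPow_eq (n : ℕ) : LEulIface74.mPow q E n = LEulDefsE23.mPow q E n := rfl

/-! ### `LFaPrime` -/

/-- **LF-A (`q ≠ p`)**. -/
theorem lfaPrime (p : ℕ) [Fact p.Prime] : LEulIface74.LFaPrime q E p := by
  intro hqp u hu
  have hb := LEulUnitsAE23.UE_one_pow_bijOn q E (Fact.out : p.Prime) hqp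
  obtain ⟨v, hv, hvu⟩ := hb.surjOn hu
  exact ⟨v, ⟨hv, hvu⟩, fun w hw => hb.injOn hw.1 hv (hw.2.trans hvu.symm)⟩

/-! ### `LFfin` -/

/-- The "unit part" `x ↦ x π^(-ord x)` with respect to a uniformizer. -/
def unitPart (π : Eˣ) (hπ : IsUniformizer q E (π : E)) : Eˣ →* unitGroup q E where
  toFun x := ⟨x * π ^ (-(ord q E x)), mul_zpow_neg_ord_mem_unitGroup q E π hπ x⟩
  map_one' := Subtype.ext (by simp [ord_one])
  map_mul' x y := Subtype.ext (by
    show x * y * π ^ (-(ord q E (x * y))) = x * π ^ (-(ord q E x)) * (y * π ^ (-(ord q E y)))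
    rw [ord_mul, neg_add, zpow_add, mul_mul_mul_comm])

theorem coe_unitPart (π : Eˣ) (hπ : IsUniformizer q E (π : E)) (x : Eˣ) :
    ((unitPart q E π hπ x : unitGroup q E) : Eˣ) = x * π ^ (-(ord q E x)) := rfl

/-- `x ↦ ord x mod p`. -/
def ordModP (p : ℕ) : Eˣ →* Multiplicative (ZMod p) :=
  (AddMonoidHom.toMultiplicative (Int.castAddHom (ZMod p))).comp (ordHom q E)

theorem ordModP_eq_one_iff (p : ℕ) [NeZero p] (x : Eˣ) :
    ordModP q E p x = 1 ↔ (p : ℤ) ∣ ord q E x := by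
  rw [← ZMod.intCast_zmod_eq_zero_iff_dvd]
  exact Iff.rfl

/-- The quotient `𝒪ˣ/U⁽ⁿ⁾`. -/
abbrev UnitQuot (n : ℕ) : Type :=
  unitGroup q E ⧸ (LEulDefsE23.UE q E n).subgroupOf (unitGroup q E)

instance finite_unitQuot (n : ℕ) : Finite (UnitQuot q E n) := by
  haveI := finiteIndex_UE q E n
  exact Subgroup.finite_quotient_of_finiteIndex

/-- `x ↦` the class of the unit part in `𝒪ˣ/U⁽ⁿ⁾`. -/
def unitPartMod (π : Eˣ) (hπ : IsUniformizer q E (π : E)) (n : ℕ) : Eˣ →* UnitQuot q E n :=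
  (QuotientGroup.mk' ((LEulDefsE23.UE q E n).subgroupOf (unitGroup q E))).comp (unitPart q E π hπ)

theorem mem_ker_unitPartMod (π : Eˣ) (hπ : IsUniformizer q E (π : E)) (n : ℕ) (x : Eˣ) :
    x ∈ (unitPartMod q E π hπ n).ker ↔ x * π ^ (-(ord q E x)) ∈ LEulDefsE23.UE q E n := by
  rw [MonoidHom.mem_ker, unitPartMod, MonoidHom.comp_apply, QuotientGroup.mk'_apply,
    QuotientGroup.eq_one_iff, Subgroup.mem_subgroupOf, coe_unitPart]

instance finiteIndex_ker_unitPartMod (π : Eˣ) (hπ : IsUniformizer q E (π : E)) (n : ℕ) :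
    (unitPartMod q E π hπ n).ker.FiniteIndex := by
  haveI : Finite (Eˣ ⧸ (unitPartMod q E π hπ n).ker) :=
    Finite.of_injective _ (QuotientGroup.kerLift_injective _)
  exact Subgroup.finiteIndex_of_finite_quotient

instance finiteIndex_ker_ordModP (p : ℕ) [NeZero p] : (ordModP q E p).ker.FiniteIndex := by
  haveI : Finite (Eˣ ⧸ (ordModP q E p).ker) :=
    Finite.of_injective _ (QuotientGroup.kerLift_injective _)
  exact Subgroup.finiteIndex_of_finite_quotient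

/-- If some `U⁽ⁿ⁾` consists of `p`-th powers then `Eˣ/(Eˣ)^p` is finite. -/
theorem lfFin_of_UE_le (p : ℕ) (hp0 : p ≠ 0) (n : ℕ)
    (h : LEulDefsE23.UE q E n ≤ (powMonoidHom p : Eˣ →* Eˣ).range) :
    Finite (Eˣ ⧸ (powMonoidHom p : Eˣ →* Eˣ).range) := by
  haveI : NeZero p := ⟨hp0⟩
  obtain ⟨π, hπ⟩ := exists_isUniformizer q E
  have hle : (unitPartMod q E π hπ n).ker ⊓ (ordModP q E p).ker ≤
      (powMonoidHom p : Eˣ →* Eˣ).range := by
    intro x hx
    rw [Subgroup.mem_inf, mem_ker_unitPartMod, MonoidHom.mem_ker, ordModP_eq_one_iff] at hx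
    obtain ⟨h1, m, hm⟩ := hx
    obtain ⟨v, hv⟩ := h h1
    refine ⟨v * π ^ m, ?_⟩
    rw [powMonoidHom_apply] at hv ⊢
    rw [mul_pow, hv, ← zpow_natCast, ← zpow_mul, mul_comm m, ← hm, mul_assoc, ← zpow_add,
      neg_add_cancel, zpow_zero, mul_one]
  haveI := Subgroup.finiteIndex_of_le hle
  exact Subgroup.finite_quotient_of_finiteIndex

/-- `Eˣ/(Eˣ)^q` is finite (`U^(n+e) ⊆ (U^(n))^q` for `e < (q - 1) n`). -/
theorem lfFin_self : LEulIface74.LFfin E q := by
  have hq : q.Prime := Fact.out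
  set e := LEulUnitsB49E.eAbs q E with he
  have hn : e < (q - 1) * (e + 1) := by
    have h1 : 1 ≤ q - 1 := by have := hq.two_le; omega
    nlinarith
  refine lfFin_of_UE_le q E q hq.ne_zero (e + 1 + e) ?_
  intro v hv
  obtain ⟨u, -, hu⟩ := LEulBridge49.exists_pow_eq q E hn hv
  exact ⟨u, hu⟩

include q in
/-- **LF-fin**: `Eˣ/(Eˣ)^p` is finite. -/
theorem lfFin (p : ℕ) [Fact p.Prime] : LEulIface74.LFfin E p := by
  have hp : p.Prime := Fact.out
  by_cases hqp : q = p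
  · exact hqp ▸ lfFin_self q E
  · refine lfFin_of_UE_le q E p hp.ne_zero 1 ?_
    intro u hu
    obtain ⟨v, -, hv⟩ := (LEulUnitsAE23.UE_one_pow_bijOn q E hp hqp).surjOn hu
    exact ⟨v, hv⟩

/-! ### `LFaCount` -/

section Count

variable {R : Type} [Ring R] {p : ℕ}

/-- `X/pX` is functorial for linear equivalences. -/
def cotEquiv {X X' : Type} [AddCommGroup X] [Module R X] [AddCommGroup X'] [Module R X']
    (e : X ≃ₗ[R] X') : cotP R p X ≃ₗ[R] cotP R p X' :=
  Submodule.Quotient.equiv (imP R p X) (imP R p X') e (by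
    ext y
    constructor
    · rintro ⟨_, ⟨x, rfl⟩, rfl⟩
      exact ⟨e x, by simp⟩
    · rintro ⟨x', rfl⟩
      exact ⟨p • e.symm x', ⟨e.symm x', rfl⟩, by simp⟩)

theorem cnt_cotP_congr {A X X' : Type} [AddCommGroup A] [Module R A] [AddCommGroup X] [Module R X]
    [AddCommGroup X'] [Module R X'] (e : X ≃ₗ[R] X') :
    cnt R A (cotP R p X) = cnt R A (cotP R p X') :=
  cnt_congr (cotEquiv e)

end Count

theorem unitsMap_coe_eq (σ : E ≃ₐ[ℚ_[q]] E) (u : Eˣ) :
    Units.map (((σ : E ≃ₐ[ℚ_[q]] E) : E →+* E) : E →* E) u = Units.map (σ : E →* E) u :=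
  Units.ext rfl

/-- **LF-A (count)**. -/
theorem lfaCount (p : ℕ) [Fact p.Prime] {Δ : Type} [Group Δ] [Finite Δ]
    (ι : Δ →* (E ≃ₐ[ℚ_[q]] E)) : LEulIface74.LFaCount q E p ι := by
  intro X _ _ eX hX Z _ _ eZ hZ n S hS A _ _ _ hpA hA
  have hp : p.Prime := Fact.out
  -- the valuation `X → Z`
  let ordAdd : Additive Eˣ →+ ℤ :=
    AddMonoidHom.mk' (fun x => ord q E (Additive.toMul x)) (fun a b => ord_mul q E _ _)
  let f : X →+ Z := eZ.symm.toAddMonoidHom.comp (ordAdd.comp eX.toAddMonoidHom)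
  have hf_apply : ∀ x, f x = eZ.symm (ord q E (Additive.toMul (eX x))) := fun _ => rfl
  have hf : ∀ (δ : Δ) (x : X), f (MonoidAlgebra.of ℤ Δ δ • x) = MonoidAlgebra.of ℤ Δ δ • f x := by
    intro δ x
    rw [hZ, hf_apply, hf_apply, hX δ x, toMul_ofMul, unitsMap_coe_eq, ord_map]
  let fL : X →ₗ[MonoidAlgebra ℤ Δ] Z := linearMapOfEquivariant f hf
  have hfL : ∀ x, fL x = eZ.symm (ord q E (Additive.toMul (eX x))) := fun _ => rfl
  have hsurj : Function.Surjective fL := by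
    intro z
    obtain ⟨u, hu⟩ := ord_surjective q E (eZ z)
    refine ⟨eX.symm (Additive.ofMul u), ?_⟩
    rw [hfL, AddEquiv.apply_symm_apply, toMul_ofMul, hu, AddEquiv.symm_apply_apply]
  have hker : ∀ x, x ∈ LinearMap.ker fL ↔ Additive.toMul (eX x) ∈ unitGroup q E := by
    intro x
    rw [LinearMap.mem_ker, hfL, mem_unitGroup_iff_ord, AddEquiv.map_eq_zero_iff]
  have hle : S ≤ LinearMap.ker fL := by
    intro x hx
    rw [hker]
    exact UE_le_unitGroup q E n ((hS x).mp hx)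
  -- `Q = X/S` and its finite submodule `F = 𝒪ˣ/U⁽ⁿ⁾`
  set F : Submodule (MonoidAlgebra ℤ Δ) (X ⧸ S) := (LinearMap.ker fL).map S.mkQ with hF
  let e1 : ((X ⧸ S) ⧸ F) ≃ₗ[MonoidAlgebra ℤ Δ] Z :=
    (Submodule.quotientQuotientEquivQuotient S (LinearMap.ker fL) hle).trans
      (fL.quotKerEquivOfSurjective hsurj)
  have htf : torP (MonoidAlgebra ℤ Δ) p ((X ⧸ S) ⧸ F) = ⊥ := by
    rw [eq_bot_iff]
    intro y hy
    rw [mem_torP] at hy
    have h1 : p • eZ (e1 y) = 0 := by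
      rw [← map_nsmul, ← map_nsmul, hy, map_zero, map_zero]
    rw [nsmul_eq_mul, mul_eq_zero] at h1
    rcases h1 with h1 | h1
    · exact absurd (by exact_mod_cast h1) hp.ne_zero
    · rw [Submodule.mem_bot]
      exact e1.injective (eZ.injective (by rw [h1, map_zero, map_zero]))
  -- finiteness of `F`
  haveI hfinF : Finite F := by
    haveI := finiteIndex_UE q E n
    haveI : Finite (unitGroup q E ⧸ (LEulDefsE23.UE q E n).subgroupOf (unitGroup q E)) :=
      Subgroup.finite_quotient_of_finiteIndex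
    let g : unitGroup q E → F := fun u =>
      ⟨S.mkQ (eX.symm (Additive.ofMul (u : Eˣ))), Submodule.mem_map_of_mem (by
        rw [hker, AddEquiv.apply_symm_apply, toMul_ofMul]
        exact u.2)⟩
    have hg : ∀ u v : unitGroup q E,
        QuotientGroup.leftRel ((LEulDefsE23.UE q E n).subgroupOf (unitGroup q E)) u v →
        g u = g v := by
      intro u v huv
      rw [QuotientGroup.leftRel_apply, Subgroup.mem_subgroupOf] at huv
      apply Subtype.ext
      show S.mkQ _ = S.mkQ _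
      rw [Submodule.mkQ_apply, Submodule.mkQ_apply, Submodule.Quotient.eq, ← neg_mem_iff, neg_sub,
        hS, map_sub, AddEquiv.apply_symm_apply, AddEquiv.apply_symm_apply]
      have : Additive.toMul (Additive.ofMul (v : Eˣ) - Additive.ofMul (u : Eˣ)) =
          ((u⁻¹ * v : unitGroup q E) : Eˣ) := by
        rw [sub_eq_add_neg, add_comm]
        rfl
      rw [this]
      exact huv
    let gbar : (unitGroup q E ⧸ (LEulDefsE23.UE q E n).subgroupOf (unitGroup q E)) → F :=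
      Quotient.lift g hg
    refine Finite.of_surjective gbar ?_
    rintro ⟨_, ⟨x, hx, rfl⟩⟩
    rw [SetLike.mem_coe, hker] at hx
    refine ⟨QuotientGroup.mk ⟨Additive.toMul (eX x), hx⟩, ?_⟩
    apply Subtype.ext
    show S.mkQ (eX.symm (Additive.ofMul (Additive.toMul (eX x)))) = S.mkQ x
    rw [ofMul_toMul, AddEquiv.symm_apply_apply]
  -- the counts
  have hsn := cnt_snake (p := p) S hA
  have h2 := cnt_of_torsionFree_quotient (p := p) F hA htf
  have h3 := cnt_torP_eq_cnt_cotP_of_finite (p := p) hA F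
  have hposF : 0 < cnt (MonoidAlgebra ℤ Δ) A (cotP (MonoidAlgebra ℤ Δ) p F) := cnt_pos
  have h4 : cnt (MonoidAlgebra ℤ Δ) A (cotP (MonoidAlgebra ℤ Δ) p (X ⧸ S)) =
      cnt (MonoidAlgebra ℤ Δ) A (torP (MonoidAlgebra ℤ Δ) p (X ⧸ S)) *
        cnt (MonoidAlgebra ℤ Δ) A (cotP (MonoidAlgebra ℤ Δ) p Z) := by
    rw [h3, cnt_cotP_congr (p := p) (A := A) e1] at h2
    have : cnt (MonoidAlgebra ℤ Δ) A (cotP (MonoidAlgebra ℤ Δ) p F) *
        cnt (MonoidAlgebra ℤ Δ) A (cotP (MonoidAlgebra ℤ Δ) p (X ⧸ S)) =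
        cnt (MonoidAlgebra ℤ Δ) A (cotP (MonoidAlgebra ℤ Δ) p F) *
          (cnt (MonoidAlgebra ℤ Δ) A (torP (MonoidAlgebra ℤ Δ) p (X ⧸ S)) *
            cnt (MonoidAlgebra ℤ Δ) A (cotP (MonoidAlgebra ℤ Δ) p Z)) := by
      rw [h2]
      ring
    exact Nat.eq_of_mul_eq_mul_left hposF this
  -- `(X/S)[p]` is finite
  have hsub : torP (MonoidAlgebra ℤ Δ) p (X ⧸ S) ≤ F := by
    intro y hy
    rw [mem_torP] at hy
    have h1 : F.mkQ y ∈ torP (MonoidAlgebra ℤ Δ) p ((X ⧸ S) ⧸ F) := by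
      rw [mem_torP, ← map_nsmul, hy, map_zero]
    rw [htf, Submodule.mem_bot, Submodule.mkQ_apply, Submodule.Quotient.mk_eq_zero] at h1
    exact h1
  haveI : Finite (torP (MonoidAlgebra ℤ Δ) p (X ⧸ S)) :=
    Finite.of_injective (Submodule.inclusion hsub) (Submodule.inclusion_injective hsub)
  have hposT : 0 < cnt (MonoidAlgebra ℤ Δ) A (torP (MonoidAlgebra ℤ Δ) p (X ⧸ S)) := cnt_pos
  rw [h4] at hsn
  have : cnt (MonoidAlgebra ℤ Δ) A (torP (MonoidAlgebra ℤ Δ) p (X ⧸ S)) *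
      (cnt (MonoidAlgebra ℤ Δ) A (torP (MonoidAlgebra ℤ Δ) p S) *
        cnt (MonoidAlgebra ℤ Δ) A (cotP (MonoidAlgebra ℤ Δ) p X)) =
      cnt (MonoidAlgebra ℤ Δ) A (torP (MonoidAlgebra ℤ Δ) p (X ⧸ S)) *
        (cnt (MonoidAlgebra ℤ Δ) A (torP (MonoidAlgebra ℤ Δ) p X) *
          cnt (MonoidAlgebra ℤ Δ) A (cotP (MonoidAlgebra ℤ Δ) p S) *
          cnt (MonoidAlgebra ℤ Δ) A (cotP (MonoidAlgebra ℤ Δ) p Z)) := by
    calc _ = cnt (MonoidAlgebra ℤ Δ) A (torP (MonoidAlgebra ℤ Δ) p S) *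
          cnt (MonoidAlgebra ℤ Δ) A (torP (MonoidAlgebra ℤ Δ) p (X ⧸ S)) *
          cnt (MonoidAlgebra ℤ Δ) A (cotP (MonoidAlgebra ℤ Δ) p X) := by ring
      _ = _ := by rw [hsn]; ring
  exact Nat.eq_of_mul_eq_mul_left hposT this

end

end Fermat.Agent.TW.LEulLFa23
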