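/-
Programme TW (S56), sub-programme C4 (local Euler characteristic, architect helper74), brick C4-K1
(helper49): PRIME-TO-`p` RESTRICTION in level cohomology, for an abstract group `G` with a level basis `𝓑`.

`V ∈ 𝓑.sets` normal, acting trivially on the discrete module `A` over the field `k`, with
`(V.index : k) ≠ 0`.  Then restriction to `V` is a `k`-linear isomorphism

  `H1 𝓑 A  ≃ₗ[k]  HomInv 𝓑 A V`,

where `HomInv 𝓑 A V` is the `k`-module of maps `f : V → A` which are additive, vanish on some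
`W ∈ 𝓑.sets`, `W ≤ V`, and are conjugation-equivariant: `f (g v g⁻¹) = g • f v`.

* injectivity: a cocycle vanishing on `V` is inflated from the finite group `G ⧸ V` of invertible order,
  hence a coboundary (averaging);
* surjectivity: the transfer cocycle `c g = m⁻¹ ∑_{x ∈ G ⧸ V} s(g x) • f (s(g x)⁻¹ g s(x))`,
  `s : G ⧸ V → G` a section.
-/
import Mathlib
import Fermat.Agent.PT.PRO.LevelCoh28

set_option autoImplicit false

universe u

open CategoryTheory groupCohomology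
open Fermat.Agent.PT.PRO.LevelCoh28

namespace Fermat.Agent.TW.LEulRes49

variable {k G : Type u} [Field k] [Group G] (𝓑 : LevelBasis G) (A : Rep.{u} k G)
  (V : Subgroup G) [hVn : V.Normal]

/-- Conjugation by `g`, as a map `V → V` (`V` normal). -/
def conjV (g : G) (v : ↥V) : ↥V := ⟨g * v * g⁻¹, hVn.conj_mem v v.2 g⟩

@[simp] theorem conjV_coe (g : G) (v : ↥V) : ((conjV V g v : ↥V) : G) = g * v * g⁻¹ := rfl

/-- The `k`-module of additive, level, conjugation-equivariant maps `V → A`. -/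
def HomInv (hV : V ∈ 𝓑.sets) : Submodule k (↥V → A) where
  carrier := {f | (∀ v w : ↥V, f (v * w) = f v + f w) ∧
    (∃ W ∈ 𝓑.sets, W ≤ V ∧ ∀ v : ↥V, (v : G) ∈ W → f v = 0) ∧
    ∀ (g : G) (v : ↥V), f (conjV V g v) = A.ρ g (f v)}
  zero_mem' := ⟨fun _ _ => by simp, ⟨V, hV, le_rfl, fun _ _ => rfl⟩, fun _ _ => by simp⟩
  add_mem' := by
    rintro f f' ⟨h1, ⟨W, hW, hWV, h2⟩, h3⟩ ⟨h1', ⟨W', hW', hWV', h2'⟩, h3'⟩
    refine ⟨fun v w => ?_, ?_, fun g v => ?_⟩
    · simp only [Pi.add_apply, h1, h1']; abel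
    · obtain ⟨W'', hW'', hle⟩ := 𝓑.isBasis.directed W hW W' hW'
      refine ⟨W'', hW'', hle.trans (inf_le_left.trans hWV), fun v hv => ?_⟩
      simp only [Pi.add_apply, h2 v (inf_le_left (a := W) (hle hv)),
        h2' v (inf_le_right (a := W) (hle hv)), add_zero]
    · simp only [Pi.add_apply, h3, h3', map_add]
  smul_mem' := by
    rintro c f ⟨h1, ⟨W, hW, hWV, h2⟩, h3⟩
    refine ⟨fun v w => ?_, ⟨W, hW, hWV, fun v hv => ?_⟩, fun g v => ?_⟩
    · simp only [Pi.smul_apply, h1, smul_add]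
    · simp only [Pi.smul_apply, h2 v hv, smul_zero]
    · simp only [Pi.smul_apply, h3, map_smul]

variable {𝓑 A V}

/-! ### The restriction map -/

section Restriction

variable (hV : V ∈ 𝓑.sets) (htriv : ∀ v ∈ V, ∀ a : A, A.ρ v a = a)

theorem cocycle_one {c : G → A} (hc : c ∈ cocycles₁ A) : c 1 = 0 := by
  have h := (mem_cocycles₁_iff c).1 hc 1 1
  rw [mul_one, map_one, Module.End.one_apply] at h
  exact left_eq_add.mp h

include htriv in
theorem res_mem_HomInv {c : G → A} (hc : c ∈ Z1 𝓑 A) :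
    (fun v : ↥V => c (v : G)) ∈ HomInv 𝓑 A V hV := by
  have hcoc := (mem_cocycles₁_iff c).1 hc.1
  have h1 := cocycle_one hc.1
  refine ⟨fun v w => ?_, ?_, fun g v => ?_⟩
  · show c ((v : G) * (w : G)) = c v + c w
    rw [hcoc, htriv v v.2, add_comm]
  · obtain ⟨U, hU, hinv⟩ := hc.2
    obtain ⟨W, hW, hle⟩ := 𝓑.isBasis.directed U hU V hV
    refine ⟨W, hW, hle.trans inf_le_right, fun v hv => ?_⟩
    have := hinv 1 (v : G) (inf_le_left (a := U) (hle hv))
    rw [one_mul] at this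
    show c (v : G) = 0
    rw [this, h1]
  · show c (g * (v : G) * g⁻¹) = A.ρ g (c v)
    have h2 : A.ρ g (c g⁻¹) + c g = 0 := by
      rw [← hcoc, mul_inv_cancel, h1]
    rw [hcoc, hcoc g, map_mul, Module.End.mul_apply, htriv v v.2]
    calc A.ρ g (c g⁻¹) + (A.ρ g (c v) + c g) = A.ρ g (c v) + (A.ρ g (c g⁻¹) + c g) := by abel
      _ = A.ρ g (c v) := by rw [h2, add_zero]

/-- Restriction of level cocycles to `V`. -/
def resZ1 : ↥(Z1 𝓑 A) →ₗ[k] ↥(HomInv 𝓑 A V hV) where
  toFun c := ⟨fun v : ↥V => (c : G → A) (v : G), res_mem_HomInv hV htriv c.2⟩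
  map_add' _ _ := rfl
  map_smul' _ _ := rfl

theorem resZ1_apply (c : ↥(Z1 𝓑 A)) (v : ↥V) :
    ((resZ1 hV htriv c : ↥(HomInv 𝓑 A V hV)) : ↥V → A) v = (c : G → A) (v : G) := rfl

include htriv in
theorem resZ1_eq_zero_of_coboundary {c : ↥(Z1 𝓑 A)} (hc : (c : G → A) ∈ coboundaries₁ A) :
    resZ1 hV htriv c = 0 := by
  obtain ⟨a, ha⟩ := hc
  apply Subtype.ext
  funext v
  show (c : G → A) (v : G) = 0
  rw [← ha, d₀₁_hom_apply, htriv v v.2, sub_self]

/-- Restriction `H¹(G, A) → HomInv`. -/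
def resH1 : H1 𝓑 A →ₗ[k] ↥(HomInv 𝓑 A V hV) :=
  Submodule.liftQ _ (resZ1 hV htriv) (fun c hc => by
    rw [Submodule.mem_comap, Submodule.subtype_apply] at hc
    exact LinearMap.mem_ker.mpr (resZ1_eq_zero_of_coboundary hV htriv hc))

@[simp] theorem resH1_mk (c : ↥(Z1 𝓑 A)) :
    resH1 hV htriv (H1mk 𝓑 A c) = resZ1 hV htriv c := rfl

end Restriction

/-! ### Injectivity: averaging over `G ⧸ V` -/

section Injective

variable (hV : V ∈ 𝓑.sets) (htriv : ∀ v ∈ V, ∀ a : A, A.ρ v a = a)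

omit hVn in
/-- A cocycle vanishing on `V` is constant on the cosets of `V`. -/
theorem cocycle_mul_right_of_res_zero {c : G → A} (hc : c ∈ cocycles₁ A)
    (h0 : ∀ v ∈ V, c v = 0) (g : G) {v : G} (hv : v ∈ V) : c (g * v) = c g := by
  rw [(mem_cocycles₁_iff c).1 hc, h0 v hv, map_zero, zero_add]

omit hVn in
include hV in
/-- A level cocycle vanishing on `V` is a coboundary, if `(V.index : k) ≠ 0`. -/
theorem mem_coboundaries_of_res_zero (hm : (V.index : k) ≠ 0) {c : G → A}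
    (hc : c ∈ cocycles₁ A) (h0 : ∀ v ∈ V, c v = 0) : c ∈ coboundaries₁ A := by
  classical
  have := 𝓑.isBasis.finiteIndex V hV
  have : Finite (G ⧸ V) := Subgroup.finite_quotient_of_finiteIndex
  let _ : Fintype (G ⧸ V) := Fintype.ofFinite _
  have hcoc := (mem_cocycles₁_iff c).1 hc
  -- the induced function on the quotient
  let cbar : G ⧸ V → A := fun x => Quotient.liftOn' x c (by
    intro a b hab
    have hab' : a⁻¹ * b ∈ V := QuotientGroup.leftRel_apply.mp hab
    have := cocycle_mul_right_of_res_zero hc h0 a hab'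
    rw [mul_inv_cancel_left] at this
    exact this.symm)
  have hcbar : ∀ t : G, cbar (QuotientGroup.mk t) = c t := fun _ => rfl
  have hact : ∀ (g : G) (x : G ⧸ V), cbar (g • x) = A.ρ g (cbar x) + c g := by
    intro g x
    induction x using QuotientGroup.induction_on with
    | H t =>
      show cbar (QuotientGroup.mk (g * t)) = _
      rw [hcbar, hcbar, hcoc]
  set S : A := ∑ x : G ⧸ V, cbar x with hS
  have hcard : (Fintype.card (G ⧸ V) : k) = (V.index : k) := by
    rw [Subgroup.index, Nat.card_eq_fintype_card]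
  have hsum : ∀ g : G, S = A.ρ g S + (V.index : k) • c g := by
    intro g
    have h1 : ∑ x : G ⧸ V, cbar (g • x) = S :=
      Equiv.sum_comp (MulAction.toPerm g : Equiv.Perm (G ⧸ V)) cbar
    calc S = ∑ x : G ⧸ V, cbar (g • x) := h1.symm
      _ = ∑ x : G ⧸ V, (A.ρ g (cbar x) + c g) := by simp only [hact]
      _ = A.ρ g S + (V.index : k) • c g := by
        rw [Finset.sum_add_distrib, ← map_sum, Finset.sum_const, Finset.card_univ, ← hcard,
          Nat.cast_smul_eq_nsmul]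
  refine ⟨-((V.index : k)⁻¹ • S), ?_⟩
  funext g
  rw [d₀₁_hom_apply]
  have h2 := hsum g
  have h3 : c g = (V.index : k)⁻¹ • (S - A.ρ g S) := by
    have : (V.index : k) • c g = S - A.ρ g S := by
      rw [eq_sub_iff_add_eq, add_comm]; exact h2.symm
    rw [← this, smul_smul, inv_mul_cancel₀ hm, one_smul]
  rw [h3, map_neg, map_smul, smul_sub]
  abel

include hV htriv in
theorem resH1_injective (hm : (V.index : k) ≠ 0) :
    Function.Injective (resH1 (𝓑 := 𝓑) (A := A) hV htriv) := by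
  rw [← LinearMap.ker_eq_bot, LinearMap.ker_eq_bot']
  intro x hx
  obtain ⟨c, rfl⟩ := H1mk_surjective 𝓑 A x
  rw [resH1_mk] at hx
  rw [H1mk_eq_zero_iff]
  refine mem_coboundaries_of_res_zero hV hm c.2.1 fun v hv => ?_
  have := congrArg (fun f : ↥(HomInv 𝓑 A V hV) => (f : ↥V → A) ⟨v, hv⟩) hx
  exact this

end Injective

/-! ### Surjectivity: the transfer cocycle -/

section Transfer

variable (V)

/-- A section of `G → G ⧸ V`. -/
noncomputable def sec (x : G ⧸ V) : G := Quotient.out x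

omit hVn in
theorem mk_sec (x : G ⧸ V) : (QuotientGroup.mk (sec V x) : G ⧸ V) = x := QuotientGroup.out_eq' x

omit hVn in
theorem sec_inv_mul_mem (g : G) (x : G ⧸ V) : (sec V (g • x))⁻¹ * g * sec V x ∈ V := by
  rw [mul_assoc, ← QuotientGroup.eq, mk_sec]
  conv_lhs => rw [← mk_sec V x]
  rfl

/-- `h(g, x) = s(g x)⁻¹ g s(x) ∈ V`. -/
noncomputable def hco (g : G) (x : G ⧸ V) : ↥V := ⟨(sec V (g • x))⁻¹ * g * sec V x, sec_inv_mul_mem V g x⟩

omit hVn in
theorem hco_mul (g g' : G) (x : G ⧸ V) : hco V (g * g') x = hco V g (g' • x) * hco V g' x := by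
  apply Subtype.ext
  show (sec V ((g * g') • x))⁻¹ * (g * g') * sec V x =
    ((sec V (g • g' • x))⁻¹ * g * sec V (g' • x)) * ((sec V (g' • x))⁻¹ * g' * sec V x)
  rw [mul_smul]
  group

omit hVn in
theorem mul_sec (g : G) (x : G ⧸ V) : g * sec V x = sec V (g • x) * (hco V g x : G) := by
  show g * sec V x = sec V (g • x) * ((sec V (g • x))⁻¹ * g * sec V x)
  group

variable {V}

omit hVn in
theorem rho_sec (htriv : ∀ v ∈ V, ∀ a : A, A.ρ v a = a) (g : G) (x : G ⧸ V) (a : A) :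
    A.ρ (sec V (g • x)) a = A.ρ g (A.ρ (sec V x) a) := by
  rw [← Module.End.mul_apply, ← map_mul, mul_sec, map_mul, Module.End.mul_apply,
    htriv _ (hco V g x).2]

variable [Fintype (G ⧸ V)]

/-- The transfer cocycle attached to `f : V → A`. -/
noncomputable def tr (f : ↥V → A) (g : G) : A :=
  (V.index : k)⁻¹ • ∑ x : G ⧸ V, A.ρ (sec V (g • x)) (f (hco V g x))

omit hVn in
theorem tr_mul (htriv : ∀ v ∈ V, ∀ a : A, A.ρ v a = a) {f : ↥V → A}
    (hadd : ∀ v w : ↥V, f (v * w) = f v + f w) (g g' : G) :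
    tr (A := A) f (g * g') = A.ρ g (tr (A := A) f g') + tr (A := A) f g := by
  unfold tr
  rw [map_smul, ← smul_add, map_sum]
  congr 1
  have h1 : ∑ x : G ⧸ V, A.ρ (sec V (g • g' • x)) (f (hco V g (g' • x))) =
      ∑ y : G ⧸ V, A.ρ (sec V (g • y)) (f (hco V g y)) :=
    Equiv.sum_comp (MulAction.toPerm g' : Equiv.Perm (G ⧸ V))
      (fun y => A.ρ (sec V (g • y)) (f (hco V g y)))
  rw [← h1, ← Finset.sum_add_distrib]
  refine Finset.sum_congr rfl fun x _ => ?_
  rw [hco_mul, hadd, map_add, mul_smul, add_comm]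
  congr 1
  exact rho_sec htriv g (g' • x) _

theorem tr_of_mem (hm : (V.index : k) ≠ 0)
    {f : ↥V → A} (hconj : ∀ (g : G) (v : ↥V), f (conjV V g v) = A.ρ g (f v)) (v : ↥V) :
    tr (A := A) f (v : G) = f v := by
  have hfix : ∀ x : G ⧸ V, (v : G) • x = x := by
    intro x
    induction x using QuotientGroup.induction_on with
    | H t =>
      show (QuotientGroup.mk ((v : G) * t) : G ⧸ V) = QuotientGroup.mk t
      rw [QuotientGroup.eq]
      have h := hVn.conj_mem (v : G)⁻¹ (V.inv_mem v.2) t⁻¹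
      have e : ((v : G) * t)⁻¹ * t = t⁻¹ * (v : G)⁻¹ * t⁻¹⁻¹ := by group
      rw [e]; exact h
  have hterm : ∀ x : G ⧸ V, A.ρ (sec V ((v : G) • x)) (f (hco V (v : G) x)) = f v := by
    intro x
    have e : hco V (v : G) x = conjV V (sec V x)⁻¹ v := by
      apply Subtype.ext
      show (sec V ((v : G) • x))⁻¹ * (v : G) * sec V x = (sec V x)⁻¹ * (v : G) * (sec V x)⁻¹⁻¹
      rw [hfix x, inv_inv]
    rw [e, hconj, hfix x, ← Module.End.mul_apply, ← map_mul, mul_inv_cancel, map_one,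
      Module.End.one_apply]
  unfold tr
  rw [Finset.sum_congr rfl (fun x _ => hterm x), Finset.sum_const, Finset.card_univ,
    ← Nat.cast_smul_eq_nsmul k, smul_smul]
  have hcard : (Fintype.card (G ⧸ V) : k) = (V.index : k) := by
    rw [Subgroup.index, Nat.card_eq_fintype_card]
  rw [hcard, inv_mul_cancel₀ hm, one_smul]

end Transfer

/-! ### The isomorphism -/

section Main

variable (hV : V ∈ 𝓑.sets) (htriv : ∀ v ∈ V, ∀ a : A, A.ρ v a = a)

include hV htriv in
theorem resH1_surjective (hm : (V.index : k) ≠ 0) :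
    Function.Surjective (resH1 (𝓑 := 𝓑) (A := A) hV htriv) := by
  classical
  have := 𝓑.isBasis.finiteIndex V hV
  have : Finite (G ⧸ V) := Subgroup.finite_quotient_of_finiteIndex
  let _ : Fintype (G ⧸ V) := Fintype.ofFinite _
  intro f
  obtain ⟨hadd, ⟨W, hW, hWV, hvan⟩, hconj⟩ := f.2
  have hcoc : tr (A := A) (f : ↥V → A) ∈ cocycles₁ A :=
    (mem_cocycles₁_iff _).2 fun g h => tr_mul htriv hadd g h
  have hlev : IsLevel₁ 𝓑.sets (tr (A := A) (f : ↥V → A)) := by
    refine ⟨W, hW, fun g s hs => ?_⟩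
    rw [tr_mul htriv hadd, show s = ((⟨s, hWV hs⟩ : ↥V) : G) from rfl, tr_of_mem hm hconj,
      hvan ⟨s, hWV hs⟩ hs, map_zero, zero_add]
  refine ⟨H1mk 𝓑 A ⟨tr (A := A) (f : ↥V → A), hcoc, hlev⟩, ?_⟩
  rw [resH1_mk]
  apply Subtype.ext
  funext v
  exact tr_of_mem hm hconj v

/-- **C4-K1.**  Restriction to a normal open subgroup `V` of invertible index acting trivially on `A`
is an isomorphism of `H¹` onto the additive, level, conjugation-equivariant maps `V → A`. -/
noncomputable def resH1Equiv (hm : (V.index : k) ≠ 0) : H1 𝓑 A ≃ₗ[k] ↥(HomInv 𝓑 A V hV) :=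
  LinearEquiv.ofBijective (resH1 hV htriv)
    ⟨resH1_injective hV htriv hm, resH1_surjective hV htriv hm⟩

@[simp] theorem resH1Equiv_mk (hm : (V.index : k) ≠ 0) (c : ↥(Z1 𝓑 A)) (v : ↥V) :
    ((resH1Equiv hV htriv hm (H1mk 𝓑 A c) : ↥(HomInv 𝓑 A V hV)) : ↥V → A) v = (c : G → A) (v : G) :=
  rfl

end Main

end Fermat.Agent.TW.LEulRes49
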