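/-
Programme TW (S56), brick C3-(iii)d (helper68): the "`ℤ`-form" of an additive function.
An abelian group `A` killed by `p` with a `ℤ`-linear action of `G` is canonically a
`ZMod p`-representation; `zForm f` evaluates `f` on it.  This lets one do all module constructions
(sub, quotient, ...) over `ℤ`, where instances are canonical.
Pure Mathlib + AddFun68.
-/
import Fermat.Agent.TW.AddFun68

set_option autoImplicit false
set_option linter.style.haveILetI false
set_option linter.unusedSectionVars false

namespace Fermat.Agent.TW.ZForm68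

open Representation Fermat.Agent.TW.AddFun68

variable {p : ℕ} [Fact p.Prime] {G : Type} [Group G]

/-- Upgrade a `ℤ`-linear representation on a `p`-torsion group to a `ZMod p`-representation. -/
def toZModRep {A : Type} [AddCommGroup A] (hA : ∀ x : A, p • x = 0)
    (ρ : Representation ℤ G A) :
    @Representation (ZMod p) G A _ _ _ (AddCommGroup.zmodModule hA) :=
  letI := AddCommGroup.zmodModule hA
  { toFun := fun g => AddMonoidHom.toZModLinearMap p (ρ g).toAddMonoidHom
    map_one' := by ext x; simp
    map_mul' := fun g h => by ext x; simp }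

theorem toZModRep_apply {A : Type} [AddCommGroup A] (hA : ∀ x : A, p • x = 0)
    (ρ : Representation ℤ G A) (g : G) (x : A) :
    letI := AddCommGroup.zmodModule hA
    toZModRep hA ρ g x = ρ g x := rfl

/-- The `ℤ`-form of a function on `ZMod p`-representations. -/
def zForm (f : RepFun p G) (A : Type) [AddCommGroup A] (hA : ∀ x : A, p • x = 0)
    (ρ : Representation ℤ G A) : ℤ :=
  @f A _ (AddCommGroup.zmodModule hA) (toZModRep hA ρ)

/-- Values of `f` do not depend on the choice of the (unique) `ZMod p`-module structure. -/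
theorem f_congr_inst (f : RepFun p G) {V : Type} [AddCommGroup V]
    (i₁ i₂ : Module (ZMod p) V)
    (ρ₁ : @Representation (ZMod p) G V _ _ _ i₁) (ρ₂ : @Representation (ZMod p) G V _ _ _ i₂)
    (h : ∀ g x, ρ₁ g x = ρ₂ g x) : @f V _ i₁ ρ₁ = @f V _ i₂ ρ₂ := by
  obtain rfl : i₁ = i₂ := Subsingleton.elim _ _
  congr
  ext g x
  exact h g x

/-- The underlying `ℤ`-representation of a `ZMod p`-representation. -/
def ofZModRep {V : Type} [AddCommGroup V] [Module (ZMod p) V]
    (ρ : Representation (ZMod p) G V) : Representation ℤ G V where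
  toFun g := (ρ g).restrictScalars ℤ
  map_one' := by ext; simp
  map_mul' g h := by ext; simp

theorem ofZModRep_apply {V : Type} [AddCommGroup V] [Module (ZMod p) V]
    (ρ : Representation (ZMod p) G V) (g : G) (x : V) : ofZModRep ρ g x = ρ g x := rfl

theorem smul_eq_zero_of_module {V : Type} [AddCommGroup V] [Module (ZMod p) V] (x : V) :
    p • x = 0 := by
  have : (p : ZMod p) • x = 0 := by rw [ZMod.natCast_self, zero_smul]
  rwa [Nat.cast_smul_eq_nsmul] at this

/-- `zForm f` of the underlying `ℤ`-representation recovers `f`. -/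
theorem zForm_ofZModRep (f : RepFun p G) {V : Type} [AddCommGroup V] [Module (ZMod p) V]
    (ρ : Representation (ZMod p) G V) :
    zForm f V smul_eq_zero_of_module (ofZModRep ρ) = f V ρ :=
  f_congr_inst f _ _ _ _ (fun _ _ => rfl)

variable {f : RepFun p G}

/-- Additivity of the `ℤ`-form. -/
theorem zForm_additive (hf : IsAdditiveFun p G f)
    {A' A A'' : Type} [AddCommGroup A'] [AddCommGroup A] [AddCommGroup A'']
    [Finite A'] [Finite A] [Finite A'']
    (hA' : ∀ x : A', p • x = 0) (hA : ∀ x : A, p • x = 0) (hA'' : ∀ x : A'', p • x = 0)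
    (ρ' : Representation ℤ G A') (ρ : Representation ℤ G A) (ρ'' : Representation ℤ G A'')
    (i : A' →+ A) (q : A →+ A'')
    (hi : ∀ g x, i (ρ' g x) = ρ g (i x)) (hq : ∀ g x, q (ρ g x) = ρ'' g (q x))
    (hinj : Function.Injective i) (hsurj : Function.Surjective q)
    (hex : ∀ x, q x = 0 ↔ ∃ y, i y = x) :
    zForm f A hA ρ = zForm f A' hA' ρ' + zForm f A'' hA'' ρ'' := by
  letI := AddCommGroup.zmodModule hA'
  letI := AddCommGroup.zmodModule hA
  letI := AddCommGroup.zmodModule hA''
  haveI : Module.Finite (ZMod p) A' := Module.Finite.of_finite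
  haveI : Module.Finite (ZMod p) A := Module.Finite.of_finite
  haveI : Module.Finite (ZMod p) A'' := Module.Finite.of_finite
  refine hf A' A A'' (toZModRep hA' ρ') (toZModRep hA ρ) (toZModRep hA'' ρ'')
    ⟨AddMonoidHom.toZModLinearMap p i, fun g => ?_⟩
    ⟨AddMonoidHom.toZModLinearMap p q, fun g => ?_⟩ hinj hsurj ?_
  · ext x
    exact hi g x
  · ext x
    exact hq g x
  · ext x
    simp only [LinearMap.mem_range, LinearMap.mem_ker]
    exact (hex x).symm

/-- Isomorphism invariance of the `ℤ`-form. -/
theorem zForm_equiv (hf : IsAdditiveFun p G f)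
    {A B : Type} [AddCommGroup A] [AddCommGroup B] [Finite A] [Finite B]
    (hA : ∀ x : A, p • x = 0) (hB : ∀ x : B, p • x = 0)
    (ρ : Representation ℤ G A) (σ : Representation ℤ G B)
    (e : A ≃+ B) (he : ∀ g x, e (ρ g x) = σ g (e x)) :
    zForm f A hA ρ = zForm f B hB σ := by
  letI := AddCommGroup.zmodModule hA
  letI := AddCommGroup.zmodModule hB
  haveI : Module.Finite (ZMod p) A := Module.Finite.of_finite
  haveI : Module.Finite (ZMod p) B := Module.Finite.of_finite
  refine hf.map_equiv (ρ := toZModRep hA ρ) (σ := toZModRep hB σ) ?_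
  refine IntertwiningMap.ofBijective
    ⟨AddMonoidHom.toZModLinearMap p e.toAddMonoidHom, fun g => ?_⟩ e.bijective
  ext x
  exact he g x

end Fermat.Agent.TW.ZForm68
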