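/-
Programme TW (S56), brick C3-(iii)e (helper68): Brauer–Nesbitt for additive functions.
`G`-stable lattices `A₁ ≤ A₂` of finite index in a torsion-free abelian group with `G`-action have
reductions mod `p` on which every additive function takes the same value
(`zForm_red_eq_of_le`).  Everything is phrased in the `ℤ`-form of `ZForm68`.
Pure Mathlib + AddFun68 + ZForm68.
-/
import Fermat.Agent.TW.ZForm68

set_option autoImplicit false
set_option linter.style.haveILetI false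
set_option linter.unusedSectionVars false

namespace Fermat.Agent.TW.Lattice68

open Representation Fermat.Agent.TW.AddFun68 Fermat.Agent.TW.ZForm68

variable {p : ℕ} [Fact p.Prime] {G : Type} [Group G]

section defs

variable {𝕍 : Type} [AddCommGroup 𝕍] (ρ : Representation ℤ G 𝕍)

/-- `G`-stability of a `ℤ`-submodule. -/
def Stable (A : Submodule ℤ 𝕍) : Prop := ∀ g, A ≤ A.comap (ρ g)

/-- `p • A ≤ B`. -/
def PLe (p : ℕ) (A B : Submodule ℤ 𝕍) : Prop := ∀ a ∈ A, p • a ∈ B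

/-- The subquotient `A / (A ∩ B)`. -/
abbrev SQ (A B : Submodule ℤ 𝕍) : Type := ↥A ⧸ B.submoduleOf A

variable {ρ}

theorem stable_submoduleOf {A B : Submodule ℤ 𝕍} (hA : Stable ρ A) (hB : Stable ρ B) (g : G) :
    B.submoduleOf A ≤ (B.submoduleOf A).comap (ρ.subrepresentation A hA g) := by
  intro x hx
  exact hB g hx

/-- The representation on the subquotient. -/
def sqRep {A B : Submodule ℤ 𝕍} (hA : Stable ρ A) (hB : Stable ρ B) :
    Representation ℤ G (SQ A B) :=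
  (ρ.subrepresentation A hA).quotient (B.submoduleOf A) (stable_submoduleOf hA hB)

theorem sqRep_mk {A B : Submodule ℤ 𝕍} (hA : Stable ρ A) (hB : Stable ρ B) (g : G) (x : A) :
    sqRep hA hB g (Submodule.Quotient.mk x) =
      Submodule.Quotient.mk ⟨ρ g x, hA g x.2⟩ := rfl

theorem sq_ptors {A B : Submodule ℤ 𝕍} (h : PLe p A B) (x : SQ A B) : p • x = 0 := by
  induction x using Submodule.Quotient.induction_on with
  | _ x =>
    rw [← Submodule.Quotient.mk_smul, Submodule.Quotient.mk_eq_zero]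
    exact h x x.2

theorem sq_finite {A B : Submodule ℤ 𝕍} (hfg : A.FG) (h : PLe p A B) : Finite (SQ A B) := by
  haveI : Module.Finite ℤ ↥A := Module.Finite.of_fg hfg
  haveI : Module.Finite ℤ (SQ A B) := Module.Finite.quotient ℤ _
  refine Module.finite_of_fg_torsion (SQ A B) ?_
  intro x
  refine ⟨⟨(p : ℤ), ?_⟩, ?_⟩
  · rw [mem_nonZeroDivisors_iff_ne_zero]
    exact_mod_cast (Fact.out : p.Prime).ne_zero
  · change (p : ℤ) • x = 0
    rw [Nat.cast_smul_eq_nsmul]
    exact sq_ptors h x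

theorem PLe.mono_left {A A' B : Submodule ℤ 𝕍} (h : PLe p A B) (hA : A' ≤ A) : PLe p A' B :=
  fun a ha => h a (hA ha)

theorem PLe.mono_right {A B B' : Submodule ℤ 𝕍} (h : PLe p A B) (hB : B ≤ B') : PLe p A B' :=
  fun a ha => hB (h a ha)

theorem fg_of_le {A B : Submodule ℤ 𝕍} (hfg : A.FG) (hBA : B ≤ A) : B.FG := by
  haveI : IsNoetherian ℤ ↥A := isNoetherian_of_fg_of_noetherian A hfg
  have : (B.submoduleOf A).FG := IsNoetherian.noetherian _
  have h2 : (B.submoduleOf A).map A.subtype = B := by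
    rw [Submodule.submoduleOf, Submodule.map_comap_subtype, inf_eq_right.mpr hBA]
  rw [← h2]
  exact this.map _

end defs

section ses

variable {𝕍 : Type} [AddCommGroup 𝕍] {ρ : Representation ℤ G 𝕍} {f : RepFun p G}

/-- Additivity on a chain `C ≤ B ≤ A` of stable lattices with `p • A ≤ C`. -/
theorem zForm_SQ_add (hf : IsAdditiveFun p G f) {A B C : Submodule ℤ 𝕍}
    (hA : Stable ρ A) (hB : Stable ρ B) (hC : Stable ρ C) (hCB : C ≤ B) (hBA : B ≤ A)
    (hfg : A.FG) (hp : PLe p A C) :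
    zForm f (SQ A C) (sq_ptors hp) (sqRep hA hC) =
      zForm f (SQ B C) (sq_ptors (hp.mono_left hBA)) (sqRep hB hC) +
      zForm f (SQ A B) (sq_ptors (hp.mono_right hCB)) (sqRep hA hB) := by
  haveI := sq_finite hfg hp
  haveI := sq_finite (fg_of_le hfg hBA) (hp.mono_left hBA)
  haveI := sq_finite hfg (hp.mono_right hCB)
  have h1 : C.submoduleOf B ≤ (C.submoduleOf A).comap (Submodule.inclusion hBA) := by
    intro x hx
    exact hx
  have h2 : C.submoduleOf A ≤ (B.submoduleOf A).comap LinearMap.id := by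
    intro x hx
    exact hCB hx
  refine zForm_additive hf _ _ _ _ _ _
    (Submodule.mapQ _ _ (Submodule.inclusion hBA) h1).toAddMonoidHom
    (Submodule.mapQ _ _ LinearMap.id h2).toAddMonoidHom ?_ ?_ ?_ ?_ ?_
  · intro g x
    induction x using Submodule.Quotient.induction_on with
    | _ x => rfl
  · intro g x
    induction x using Submodule.Quotient.induction_on with
    | _ x => rfl
  · intro x y hxy
    induction x using Submodule.Quotient.induction_on with
    | _ x =>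
    induction y using Submodule.Quotient.induction_on with
    | _ y =>
      simp only [LinearMap.toAddMonoidHom_coe, Submodule.mapQ_apply] at hxy
      rw [Submodule.Quotient.eq] at hxy ⊢
      exact hxy
  · intro x
    induction x using Submodule.Quotient.induction_on with
    | _ x => exact ⟨Submodule.Quotient.mk x, rfl⟩
  · intro x
    induction x using Submodule.Quotient.induction_on with
    | _ x =>
      simp only [LinearMap.toAddMonoidHom_coe, Submodule.mapQ_apply, LinearMap.id_coe, id_eq]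
      rw [Submodule.Quotient.mk_eq_zero]
      constructor
      · intro hx
        exact ⟨Submodule.Quotient.mk ⟨x, hx⟩, rfl⟩
      · rintro ⟨y, hy⟩
        induction y using Submodule.Quotient.induction_on with
        | _ y =>
          simp only [Submodule.mapQ_apply] at hy
          rw [Submodule.Quotient.eq] at hy
          have h3 : ((Submodule.inclusion hBA y - x : ↥A) : 𝕍) ∈ C := hy
          have h4 : (y : 𝕍) - (x : 𝕍) ∈ C := h3
          have h5 : (x : 𝕍) = (y : 𝕍) - ((y : 𝕍) - (x : 𝕍)) := by abel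
          change (x : 𝕍) ∈ B
          rw [h5]
          exact B.sub_mem y.2 (hCB h4)

end ses

section transport

variable {𝕍 𝕎 : Type} [AddCommGroup 𝕍] [AddCommGroup 𝕎] {ρ : Representation ℤ G 𝕍}
  {σ : Representation ℤ G 𝕎} {f : RepFun p G}

theorem stable_map {φ : 𝕍 →ₗ[ℤ] 𝕎} (hφ : ∀ g x, φ (ρ g x) = σ g (φ x)) {A : Submodule ℤ 𝕍}
    (hA : Stable ρ A) : Stable σ (A.map φ) := by
  rintro g _ ⟨x, hx, rfl⟩
  exact ⟨ρ g x, hA g hx, hφ g x⟩

theorem PLe.map {φ : 𝕍 →ₗ[ℤ] 𝕎} {A B : Submodule ℤ 𝕍} (h : PLe p A B) :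
    PLe p (A.map φ) (B.map φ) := by
  rintro _ ⟨x, hx, rfl⟩
  exact ⟨p • x, h x hx, map_nsmul φ p x⟩

/-- Transport of subquotients along an injective equivariant map. -/
theorem zForm_SQ_map (hf : IsAdditiveFun p G f) (φ : 𝕍 →ₗ[ℤ] 𝕎) (hinj : Function.Injective φ)
    (hφ : ∀ g x, φ (ρ g x) = σ g (φ x)) {A B : Submodule ℤ 𝕍}
    (hA : Stable ρ A) (hB : Stable ρ B) (hfg : A.FG) (hp : PLe p A B) :
    zForm f (SQ A B) (sq_ptors hp) (sqRep hA hB) =
      zForm f (SQ (A.map φ) (B.map φ)) (sq_ptors hp.map)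
        (sqRep (stable_map hφ hA) (stable_map hφ hB)) := by
  haveI := sq_finite hfg hp
  haveI := sq_finite (hfg.map φ) (hp.map (φ := φ))
  have hmap : (B.submoduleOf A).map (Submodule.equivMapOfInjective φ hinj A).toLinearMap =
      (B.map φ).submoduleOf (A.map φ) := by
    ext ⟨y, hy⟩
    simp only [Submodule.mem_map]
    constructor
    · rintro ⟨x, hx, hxy⟩
      have : φ x = y := congrArg Subtype.val hxy
      exact ⟨x, hx, this⟩
    · rintro ⟨x, hx, hxy⟩
      obtain ⟨x', hx', hxy'⟩ := hy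
      have hxx : x = x' := hinj (hxy.trans hxy'.symm)
      subst hxx
      exact ⟨⟨x, hx'⟩, hx, Subtype.ext hxy⟩
  refine zForm_equiv hf _ _ _ _
    (Submodule.Quotient.equiv _ _ (Submodule.equivMapOfInjective φ hinj A) hmap).toAddEquiv ?_
  intro g x
  induction x using Submodule.Quotient.induction_on with
  | _ x =>
    change Submodule.Quotient.mk _ = Submodule.Quotient.mk _
    congr 1
    exact Subtype.ext (hφ g x)

end transport

section chain

variable {𝕍 : Type} [AddCommGroup 𝕍] [NoZeroSMulDivisors ℤ 𝕍] {ρ : Representation ℤ G 𝕍}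
  {f : RepFun p G}

/-- Multiplication by the integer `n` as a `ℤ`-linear map. -/
def nmul (𝕍 : Type) [AddCommGroup 𝕍] (n : ℕ) : 𝕍 →ₗ[ℤ] 𝕍 := (n : ℤ) • LinearMap.id

omit [NoZeroSMulDivisors ℤ 𝕍] in
theorem nmul_apply (n : ℕ) (x : 𝕍) : nmul 𝕍 n x = n • x := by
  simp [nmul]

theorem nmul_injective {n : ℕ} (hn : n ≠ 0) : Function.Injective (nmul 𝕍 n) := by
  intro x y h
  rw [nmul_apply, nmul_apply] at h
  have h' : (n : ℤ) • x = (n : ℤ) • y := by
    rw [Nat.cast_smul_eq_nsmul, Nat.cast_smul_eq_nsmul]; exact h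
  exact smul_right_injective 𝕍 (by exact_mod_cast hn : (n : ℤ) ≠ 0) h'

omit [NoZeroSMulDivisors ℤ 𝕍] in
theorem nmul_equivariant (n : ℕ) (g : G) (x : 𝕍) : nmul 𝕍 n (ρ g x) = ρ g (nmul 𝕍 n x) := by
  rw [nmul_apply, nmul_apply, map_nsmul]

/-- `n • A`. -/
def nS (n : ℕ) (A : Submodule ℤ 𝕍) : Submodule ℤ 𝕍 := A.map (nmul 𝕍 n)

omit [NoZeroSMulDivisors ℤ 𝕍] in
theorem mem_nS {n : ℕ} {A : Submodule ℤ 𝕍} {x : 𝕍} : x ∈ nS n A ↔ ∃ a ∈ A, n • a = x := by
  simp only [nS, Submodule.mem_map, nmul_apply]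

omit [NoZeroSMulDivisors ℤ 𝕍] in
theorem nS_le_self (n : ℕ) (A : Submodule ℤ 𝕍) : nS n A ≤ A := by
  intro x hx
  obtain ⟨a, ha, rfl⟩ := mem_nS.mp hx
  exact A.smul_of_tower_mem n ha

omit [NoZeroSMulDivisors ℤ 𝕍] in
theorem nS_mono (n : ℕ) {A B : Submodule ℤ 𝕍} (h : A ≤ B) : nS n A ≤ nS n B :=
  Submodule.map_mono h

omit [NoZeroSMulDivisors ℤ 𝕍] in
theorem stable_nS (n : ℕ) {A : Submodule ℤ 𝕍} (hA : Stable ρ A) : Stable ρ (nS n A) :=
  stable_map (nmul_equivariant n) hA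

omit [NoZeroSMulDivisors ℤ 𝕍] in
theorem pLe_nS (A : Submodule ℤ 𝕍) : PLe p A (nS p A) :=
  fun a ha => mem_nS.mpr ⟨a, ha, rfl⟩

/-- The reduction mod `p` of a stable lattice, as a value of the `ℤ`-form. -/
noncomputable def redVal (f : RepFun p G) (ρ : Representation ℤ G 𝕍) (A : Submodule ℤ 𝕍)
    (hA : Stable ρ A) : ℤ :=
  zForm f (SQ A (nS p A)) (sq_ptors (pLe_nS A)) (sqRep hA (stable_nS p hA))

/-- One step of the chain: `p • L ≤ L' ≤ L`. -/
theorem redVal_step (hf : IsAdditiveFun p G f) {L L' : Submodule ℤ 𝕍}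
    (hL : Stable ρ L) (hL' : Stable ρ L') (hle : L' ≤ L) (hp : PLe p L L') (hfg : L.FG) :
    redVal f ρ L' hL' = redVal f ρ L hL := by
  have hpL : nS p L ≤ L' := by
    intro x hx
    obtain ⟨a, ha, rfl⟩ := mem_nS.mp hx
    exact hp a ha
  have h1 := zForm_SQ_add hf hL' (stable_nS p hL) (stable_nS p hL') (nS_mono p hle) hpL
    (fg_of_le hfg hle) (pLe_nS L')
  have h2 := zForm_SQ_add hf hL hL' (stable_nS p hL) hpL hle hfg (pLe_nS L)
  have h3 := zForm_SQ_map hf (nmul 𝕍 p) (nmul_injective (Fact.out : p.Prime).ne_zero)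
    (nmul_equivariant (ρ := ρ) p) hL hL' hfg hp
  unfold redVal
  change _ = _ at h3
  rw [h1, h2, h3]
  exact add_comm _ _

/-- Lattices of index prime to `p` have isomorphic reductions. -/
theorem redVal_coprime (hf : IsAdditiveFun p G f) {A B : Submodule ℤ 𝕍}
    (hA : Stable ρ A) (hB : Stable ρ B) (hle : A ≤ B) (n : ℕ) (hn : Nat.Coprime n p)
    (hnB : ∀ b ∈ B, n • b ∈ A) (hfg : B.FG) :
    redVal f ρ A hA = redVal f ρ B hB := by
  haveI := sq_finite (p := p) (fg_of_le hfg hle) (pLe_nS A)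
  haveI := sq_finite (p := p) hfg (pLe_nS B)
  have h0 : (nS p A).submoduleOf A ≤
      ((nS p B).submoduleOf B).comap (Submodule.inclusion hle) := by
    intro x hx
    exact nS_mono p hle hx
  obtain ⟨u, v, huv⟩ : ∃ u v : ℤ, u * n + v * p = 1 := by
    have := Int.isCoprime_iff_gcd_eq_one.mpr (by exact_mod_cast hn : Int.gcd (n : ℤ) (p : ℤ) = 1)
    obtain ⟨u, v, h⟩ := this
    exact ⟨u, v, h⟩
  have key : ∀ y : 𝕍, y = u • (n • y) + v • (p • y) := by
    intro y
    rw [← Nat.cast_smul_eq_nsmul ℤ n, ← Nat.cast_smul_eq_nsmul ℤ p, smul_smul, smul_smul,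
      ← add_smul, huv, one_smul]
  have hbij : Function.Bijective (Submodule.mapQ _ _ (Submodule.inclusion hle) h0) := by
    constructor
    · rw [← LinearMap.ker_eq_bot, LinearMap.ker_eq_bot']
      intro x hx
      induction x using Submodule.Quotient.induction_on with
      | _ x =>
        rw [Submodule.mapQ_apply, Submodule.Quotient.mk_eq_zero] at hx
        rw [Submodule.Quotient.mk_eq_zero]
        obtain ⟨y, hy, hxy⟩ := mem_nS.mp (show (x : 𝕍) ∈ nS p B from hx)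
        refine mem_nS.mpr ⟨y, ?_, hxy⟩
        rw [key y, hxy]
        exact A.add_mem (A.smul_mem u (hnB y hy)) (A.smul_mem v x.2)
    · intro y
      induction y using Submodule.Quotient.induction_on with
      | _ y =>
        refine ⟨Submodule.Quotient.mk ⟨u • (n • (y : 𝕍)), A.smul_mem u (hnB y y.2)⟩, ?_⟩
        rw [Submodule.mapQ_apply, Submodule.Quotient.eq]
        change ((u • (n • (y : 𝕍))) - (y : 𝕍)) ∈ nS p B
        have hk := key (y : 𝕍)
        have h1 : u • (n • (y : 𝕍)) - (y : 𝕍) = p • (-(v • (y : 𝕍))) := by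
          calc u • (n • (y : 𝕍)) - (y : 𝕍)
              = u • (n • (y : 𝕍)) - (u • (n • (y : 𝕍)) + v • (p • (y : 𝕍))) := by rw [← hk]
            _ = -(v • (p • (y : 𝕍))) := by abel
            _ = p • (-(v • (y : 𝕍))) := by rw [smul_neg, smul_comm p v]
        rw [h1]
        exact mem_nS.mpr ⟨_, B.neg_mem (B.smul_mem v y.2), rfl⟩
  unfold redVal
  refine zForm_equiv hf _ _ _ _ (LinearEquiv.ofBijective _ hbij).toAddEquiv ?_
  intro g x
  induction x using Submodule.Quotient.induction_on with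
  | _ x => rfl

omit [NoZeroSMulDivisors ℤ 𝕍] in
theorem redVal_congr {A B : Submodule ℤ 𝕍} (h : A = B) (hA : Stable ρ A) (hB : Stable ρ B) :
    redVal f ρ A hA = redVal f ρ B hB := by
  subst h; rfl

omit [NoZeroSMulDivisors ℤ 𝕍] in
theorem stable_sup {A B : Submodule ℤ 𝕍} (hA : Stable ρ A) (hB : Stable ρ B) :
    Stable ρ (A ⊔ B) := by
  intro g x hx
  obtain ⟨a, ha, b, hb, rfl⟩ := Submodule.mem_sup.mp hx
  rw [Submodule.mem_comap, map_add]
  exact Submodule.add_mem_sup (hA g ha) (hB g hb)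

/-- The chain lattices `A₁ ⊔ p ^ i • A₂`. -/
def chainL (p : ℕ) (A₁ A₂ : Submodule ℤ 𝕍) (i : ℕ) : Submodule ℤ 𝕍 := A₁ ⊔ nS (p ^ i) A₂

omit [NoZeroSMulDivisors ℤ 𝕍] in
theorem stable_chainL {A₁ A₂ : Submodule ℤ 𝕍} (h₁ : Stable ρ A₁) (h₂ : Stable ρ A₂) (i : ℕ) :
    Stable ρ (chainL p A₁ A₂ i) :=
  stable_sup h₁ (stable_nS _ h₂)

omit [NoZeroSMulDivisors ℤ 𝕍] in
theorem chainL_le {A₁ A₂ : Submodule ℤ 𝕍} (hle : A₁ ≤ A₂) (i : ℕ) : chainL p A₁ A₂ i ≤ A₂ :=
  sup_le hle (nS_le_self _ _)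

omit [NoZeroSMulDivisors ℤ 𝕍] in
theorem chainL_zero {A₁ A₂ : Submodule ℤ 𝕍} (hle : A₁ ≤ A₂) : chainL p A₁ A₂ 0 = A₂ := by
  apply le_antisymm (chainL_le hle 0)
  intro x hx
  refine Submodule.mem_sup_right (mem_nS.mpr ⟨x, hx, ?_⟩)
  simp

omit [NoZeroSMulDivisors ℤ 𝕍] in
theorem chainL_succ_le (A₁ A₂ : Submodule ℤ 𝕍) (i : ℕ) :
    chainL p A₁ A₂ (i + 1) ≤ chainL p A₁ A₂ i := by
  refine sup_le le_sup_left ?_
  intro x hx
  obtain ⟨a, ha, rfl⟩ := mem_nS.mp hx
  refine Submodule.mem_sup_right (mem_nS.mpr ⟨p • a, A₂.smul_of_tower_mem p ha, ?_⟩)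
  rw [pow_succ, mul_smul]

omit [NoZeroSMulDivisors ℤ 𝕍] in
theorem pLe_chainL (A₁ A₂ : Submodule ℤ 𝕍) (i : ℕ) :
    PLe p (chainL p A₁ A₂ i) (chainL p A₁ A₂ (i + 1)) := by
  intro x hx
  obtain ⟨a, ha, b, hb, rfl⟩ := Submodule.mem_sup.mp hx
  obtain ⟨c, hc, rfl⟩ := mem_nS.mp hb
  rw [smul_add]
  refine Submodule.add_mem_sup (A₁.smul_of_tower_mem p ha) (mem_nS.mpr ⟨c, hc, ?_⟩)
  rw [pow_succ', mul_smul]

/-- **Brauer–Nesbitt for additive functions.**  Stable lattices `A₁ ≤ A₂` with `N • A₂ ≤ A₁`,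
`N ≠ 0`, have the same value of every additive function on their reductions mod `p`. -/
theorem redVal_eq_of_le (hf : IsAdditiveFun p G f) {A₁ A₂ : Submodule ℤ 𝕍}
    (h₁ : Stable ρ A₁) (h₂ : Stable ρ A₂) (hle : A₁ ≤ A₂) (hfg : A₂.FG)
    (N : ℕ) (hN : N ≠ 0) (hNA : ∀ a ∈ A₂, N • a ∈ A₁) :
    redVal f ρ A₁ h₁ = redVal f ρ A₂ h₂ := by
  obtain ⟨m, n', hn', rfl⟩ := Nat.exists_eq_pow_mul_and_not_dvd hN p
    (Fact.out : p.Prime).ne_one
  have hchain : ∀ i, redVal f ρ (chainL p A₁ A₂ i) (stable_chainL h₁ h₂ i) =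
      redVal f ρ A₂ h₂ := by
    intro i
    induction i with
    | zero => exact redVal_congr (chainL_zero hle) _ _
    | succ i ih =>
      rw [← ih]
      exact redVal_step hf (stable_chainL h₁ h₂ i) (stable_chainL h₁ h₂ (i + 1))
        (chainL_succ_le A₁ A₂ i) (pLe_chainL A₁ A₂ i) (fg_of_le hfg (chainL_le hle i))
  rw [← hchain m]
  refine redVal_coprime hf h₁ (stable_chainL h₁ h₂ m) le_sup_left n' ?_ ?_
    (fg_of_le hfg (chainL_le hle m))
  · exact ((Nat.Prime.coprime_iff_not_dvd (Fact.out : p.Prime)).mpr hn').symm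
  · intro b hb
    obtain ⟨a, ha, c, hc, rfl⟩ := Submodule.mem_sup.mp hb
    obtain ⟨d, hd, rfl⟩ := mem_nS.mp hc
    rw [smul_add]
    refine A₁.add_mem (A₁.smul_of_tower_mem n' ha) ?_
    have := hNA d hd
    rwa [mul_comm, mul_smul] at this

end chain

section redmap

variable {𝕍 𝕎 : Type} [AddCommGroup 𝕍] [AddCommGroup 𝕎] {ρ : Representation ℤ G 𝕍}
  {σ : Representation ℤ G 𝕎} {f : RepFun p G}

theorem map_nS (φ : 𝕍 →ₗ[ℤ] 𝕎) (n : ℕ) (A : Submodule ℤ 𝕍) :
    (nS n A).map φ = nS n (A.map φ) := by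
  ext y
  simp only [Submodule.mem_map, mem_nS]
  constructor
  · rintro ⟨x, ⟨a, ha, rfl⟩, rfl⟩
    exact ⟨φ a, ⟨a, ha, rfl⟩, (map_nsmul φ n a).symm⟩
  · rintro ⟨b, ⟨a, ha, rfl⟩, rfl⟩
    exact ⟨n • a, ⟨a, ha, rfl⟩, map_nsmul φ n a⟩

/-- The reduction value is invariant under injective equivariant maps. -/
theorem redVal_map (hf : IsAdditiveFun p G f) (φ : 𝕍 →ₗ[ℤ] 𝕎) (hinj : Function.Injective φ)
    (hφ : ∀ g x, φ (ρ g x) = σ g (φ x)) {A : Submodule ℤ 𝕍} (hA : Stable ρ A) (hfg : A.FG) :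
    redVal f σ (A.map φ) (stable_map hφ hA) = redVal f ρ A hA := by
  have h := zForm_SQ_map hf φ hinj hφ hA (stable_nS p hA) hfg (pLe_nS A)
  unfold redVal
  rw [h]
  have key : ∀ (B B' : Submodule ℤ 𝕎) (hB : Stable σ B) (hB' : Stable σ B') (hBB' : B = B')
      (h1 : PLe p (A.map φ) B) (h2 : PLe p (A.map φ) B'),
      zForm f (SQ (A.map φ) B') (sq_ptors h2) (sqRep (stable_map hφ hA) hB') =
        zForm f (SQ (A.map φ) B) (sq_ptors h1) (sqRep (stable_map hφ hA) hB) := by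
    intro B B' hB hB' hBB' h1 h2
    subst hBB'
    rfl
  exact key ((nS p A).map φ) (nS p (A.map φ)) (stable_map hφ (stable_nS p hA))
    (stable_nS p (stable_map hφ hA)) (map_nS φ p A) (pLe_nS A).map (pLe_nS _)

end redmap

end Fermat.Agent.TW.Lattice68
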