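/-
Programme TW (S56), pillar (S), brick 159 = LOC-TW, FINAL (helper9).

`locTW : SIface72.LocTW 𝒪 p`, unconditional: `LocTW9.locTW_of` applied to helper66's
`LocalGen66.exists_frobenius_global` (the image of the local Galois group at `q` contains a
Frobenius element at the canonical place over `q`).
-/
import Fermat.Agent.TW.LocTW9
import Fermat.Agent.TW.LocalGen66

set_option autoImplicit false

open IsLocalRing

namespace Fermat.Agent.TW.LocTWFinal9

/-- The local Galois groups contain Frobenius elements (helper66). -/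
theorem localFrobExists : Fermat.Agent.TW.LocTW9.LocalFrobExists :=
  fun q => Fermat.Agent.TW.LocalGen66.exists_frobenius_global q

variable (p : ℕ) [Fact p.Prime]
variable (𝒪 : Type) [CommRing 𝒪] [IsDomain 𝒪] [IsDiscreteValuationRing 𝒪]
  [IsAdicComplete (maximalIdeal 𝒪) 𝒪] [Finite (ResidueField 𝒪)]

/-- **LOC-TW**, unconditional: for a Taylor–Wiles prime `q`,
`dim_{𝔽_p} H⁰(ℚ_q, ad⁰ρbar(1)) ≤ [k : 𝔽_p]`. -/
theorem locTW : Fermat.Agent.TW.SIface72.LocTW 𝒪 p :=
  Fermat.Agent.TW.LocTW9.locTW_of p 𝒪 localFrobExists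

end Fermat.Agent.TW.LocTWFinal9
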