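/-
Programme TW (S56), brick LOC-UNIP (helper66), file 1: pure linear algebra.

* `exists_conj_sub` : `V` of dimension `2` over a field with `2 ≠ 0`, `N` a nonzero endomorphism with
  `N * N = 0`, `C` an endomorphism with `tr C = 0` and `tr (C * N) = 0`.  Then
  `C = (1 + N) * X * (1 - N) - X` for some trace-zero `X`
  (i.e. the image of `Ad(1 + N) - 1` on `End V` is the space of such `C`).
* `liftEnd r D` : the endomorphism `(v, w) ↦ (r v, r w + D (r v))` of `V × V`
  (the matrix of `(1 + ε D) r` on `V[ε]`), with its multiplication rule.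
-/
import Mathlib

set_option autoImplicit false

namespace Fermat.Agent.TW.UnipLin66

open Module

variable {k : Type*} [Field k] {V : Type*} [AddCommGroup V] [Module k V]

/-! ### The endomorphism of `V × V` attached to a pair `(r, D)` -/

/-- `(v, w) ↦ (r v, r w + D (r v))`. -/
def liftEnd (r D : Module.End k V) : Module.End k (V × V) :=
  LinearMap.prod (r ∘ₗ LinearMap.fst k V V)
    (r ∘ₗ LinearMap.snd k V V + (D * r) ∘ₗ LinearMap.fst k V V)

@[simp]
theorem liftEnd_apply (r D : Module.End k V) (x : V × V) :
    liftEnd r D x = (r x.1, r x.2 + D (r x.1)) := rfl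

theorem liftEnd_one_zero : liftEnd (1 : Module.End k V) 0 = 1 := by
  refine LinearMap.ext fun x => ?_
  simp

theorem liftEnd_mul (r D r' D' s : Module.End k V) (hs : s * r = 1) :
    liftEnd r D * liftEnd r' D' = liftEnd (r * r') (D + r * D' * s) := by
  refine LinearMap.ext fun x => ?_
  have h : ∀ v, s (r v) = v := fun v => by
    have := congrArg (fun f : Module.End k V => f v) hs
    simpa using this
  simp only [Module.End.mul_apply, liftEnd_apply, LinearMap.add_apply, map_add, h]
  refine Prod.ext rfl ?_
  simp only
  abel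

theorem liftEnd_injective {r D r' D' : Module.End k V} (s : Module.End k V) (hs : r * s = 1)
    (h : liftEnd r D = liftEnd r' D') : r = r' ∧ D = D' := by
  have hr : r = r' := by
    refine LinearMap.ext fun v => ?_
    have := congrArg (fun f : Module.End k (V × V) => (f (v, 0)).1) h
    simpa using this
  refine ⟨hr, ?_⟩
  subst hr
  refine LinearMap.ext fun v => ?_
  have h1 := congrArg (fun f : Module.End k (V × V) => (f (s v, 0)).2) h
  have h2 : r (s v) = v := by
    have := congrArg (fun f : Module.End k V => f v) hs
    simpa using this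
  simpa [h2] using h1

/-- If `n * n = 0` then `(liftEnd (1 + n) D - 1) ^ 4 = 0`. -/
theorem liftEnd_sub_one_pow_four (n D : Module.End k V) (hn : n * n = 0) :
    (liftEnd (1 + n) D - 1) ^ 4 = 0 := by
  have hn' : ∀ v, n (n v) = 0 := fun v => by
    have := congrArg (fun f : Module.End k V => f v) hn
    simpa using this
  have h1 : ∀ x : V × V, (liftEnd (1 + n) D - 1) x = (n x.1, n x.2 + D (x.1 + n x.1)) := by
    intro x
    refine Prod.ext ?_ ?_
    · simp
    · simp only [LinearMap.sub_apply, liftEnd_apply, LinearMap.add_apply, Module.End.one_apply,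
        Prod.snd_sub]
      abel
  refine LinearMap.ext fun x => ?_
  simp only [pow_succ, pow_zero, one_mul, Module.End.mul_apply, h1, hn', map_add, map_zero,
    add_zero, zero_add, LinearMap.zero_apply]
  refine Prod.ext ?_ ?_ <;> simp

/-! ### The `2 × 2` computation -/

/-- **Image of `Ad(1 + N) - 1`** for a nonzero square-zero `N` in dimension `2`. -/
theorem exists_conj_sub (h2 : (2 : k) ≠ 0) (hV : Module.finrank k V = 2)
    (N C : Module.End k V) (hN2 : N * N = 0) (hN : N ≠ 0)
    (hC : LinearMap.trace k V C = 0) (hCN : LinearMap.trace k V (C * N) = 0) :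
    ∃ X : Module.End k V, LinearMap.trace k V X = 0 ∧ (1 + N) * X * (1 - N) - X = C := by
  classical
  have hN' : ∀ v, N (N v) = 0 := fun v => by
    have := congrArg (fun f : Module.End k V => f v) hN2
    simpa using this
  obtain ⟨e, he⟩ : ∃ e, N e ≠ 0 := by
    by_contra hcon
    push Not at hcon
    exact hN (LinearMap.ext fun v => by simpa using hcon v)
  have hli : LinearIndependent k ![N e, e] := by
    rw [LinearIndependent.pair_iff]
    intro s t hst
    have h1 : t • N e = 0 := by
      have := congrArg N hst
      simpa [hN'] using this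
    have ht : t = 0 := by
      rcases smul_eq_zero.mp h1 with h | h
      · exact h
      · exact absurd h he
    rw [ht, zero_smul, add_zero] at hst
    rcases smul_eq_zero.mp hst with h | h
    · exact ⟨h, ht⟩
    · exact absurd h he
  have hcard : Fintype.card (Fin 2) = Module.finrank k V := by simp [hV]
  let b : Basis (Fin 2) k V := basisOfLinearIndependentOfCardEqFinrank hli hcard
  have hb0 : b 0 = N e := by simp [b]
  have hb1 : b 1 = e := by simp [b]
  let φ := LinearMap.toMatrixAlgEquiv b
  have hφ : ∀ f : Module.End k V, LinearMap.toMatrix b b f = φ f := fun f => rfl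
  have hφN : φ N = !![0, 1; 0, 0] := by
    ext i j
    rw [LinearMap.toMatrixAlgEquiv_apply]
    fin_cases j
    · have : N (b 0) = 0 := by rw [hb0, hN']
      fin_cases i <;> simp [this]
    · have : N (b 1) = b 0 := by rw [hb1, hb0]
      fin_cases i <;> simp [this]
  set Cm := φ C with hCm
  have hCm' : Cm = !![Cm 0 0, Cm 0 1; Cm 1 0, Cm 1 1] := Matrix.eta_fin_two Cm
  have htr : Cm 0 0 + Cm 1 1 = 0 := by
    have := LinearMap.trace_eq_matrix_trace k b C
    rw [hC, hφ, Matrix.trace_fin_two] at this
    exact this.symm
  have htrN : Cm 1 0 = 0 := by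
    have := LinearMap.trace_eq_matrix_trace k b (C * N)
    rw [hCN] at this
    have h3 : LinearMap.toMatrix b b (C * N) = Cm * !![0, 1; 0, 0] := by
      rw [← hφN, hCm, ← map_mul, hφ]
    rw [h3, Matrix.trace_fin_two] at this
    simp [Matrix.mul_apply, Fin.sum_univ_two] at this
    exact this.symm
  set a := Cm 0 0 with ha
  set bb := Cm 0 1 with hbb
  have hd : Cm 1 1 = -a := by linear_combination htr
  refine ⟨φ.symm !![-(a + bb) / 2, 0; a, (a + bb) / 2], ?_, ?_⟩
  · have := LinearMap.trace_eq_matrix_trace k b (φ.symm !![-(a + bb) / 2, 0; a, (a + bb) / 2])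
    rw [this]
    have h4 : LinearMap.toMatrix b b (φ.symm !![-(a + bb) / 2, 0; a, (a + bb) / 2])
        = !![-(a + bb) / 2, 0; a, (a + bb) / 2] := by
      rw [hφ]; exact φ.apply_symm_apply _
    rw [h4, Matrix.trace_fin_two]
    simp only [Matrix.of_apply, Matrix.cons_val', Matrix.cons_val_zero, Matrix.cons_val_one,
      Matrix.cons_val_fin_one]
    ring
  · apply φ.injective
    rw [map_sub, map_mul, map_mul, map_add, map_sub, map_one, hφN, φ.apply_symm_apply]
    rw [← hCm, hCm', htrN, hd]
    ext i j
    fin_cases i <;> fin_cases j <;>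
      simp [Matrix.mul_apply, Fin.sum_univ_two, Matrix.one_apply] <;> field_simp <;> ring

end Fermat.Agent.TW.UnipLin66
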