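/-
Programme TW (S56), brick LOC-UNIP (helper66), file 2: the local condition at `q ∈ Smin ∖ {p}`.

`ρbar` a residual representation over a field `k` of characteristic `p` odd, `q ≠ p` a prime, `P` a
valuation subring of `ℚ̄` over `q`, `I = P.inertiaSubgroupIn ℚ`.  Assume `ρbar` is unipotent on `I`
(`charpoly = (X - 1)^2`) and ramified at `P`.  Let `c` be a deformation cocycle
(`Interface.IsDefCocycle`) satisfying the unipotent condition of `Interface.IsSelmerCocycle` at `P`,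
i.e. `tr (c σ * ρbar σ) = 0` for `σ ∈ I`.  Then

* `exists_coboundary_on_inertia` : there is a trace-zero `X` with `c σ = conj σ X - X` for all
  `σ ∈ I`, i.e. the class of `c` dies in `H¹(I, ad⁰ ρbar)`: the local condition is `H¹_ur`.

Proof: the lift `σ ↦ (1 + ε c σ) ρbar σ` is a homomorphism `G_ℚ → Aut(V × V)` of finite level whose
restriction to `I` has `p`-power order values, so by brick TAME (`Tame22.Hom.exists_generator_of_hom`)
its restriction to `I` is cyclic, generated by the image of some `τ₀ ∈ I`; then `N = ρbar τ₀ - 1` is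
nonzero of square zero and `c τ₀` lies in the image of `Ad(1 + N) - 1` (`UnipLin66.exists_conj_sub`).
-/
import Mathlib
import Fermat.Agent.TW.Interface
import Fermat.Agent.TW.Tame22.Hom
import Fermat.Agent.TW.UnipLin66

set_option autoImplicit false

open Polynomial

namespace Fermat.Agent.TW.Unip66

open Fermat.Agent.TW.Interface Fermat.Agent.TW.UnipLin66

variable {k : Type} [Field k] (ρbar : ResidualGaloisRep k)

/-! ### Elementary facts on `conj` and cocycles -/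

theorem rho_inv_mul (σ : GalQ) : ρbar.ρ σ⁻¹ * ρbar.ρ σ = 1 := by
  rw [← map_mul, inv_mul_cancel, map_one]

theorem rho_mul_inv (σ : GalQ) : ρbar.ρ σ * ρbar.ρ σ⁻¹ = 1 := by
  rw [← map_mul, mul_inv_cancel, map_one]

theorem conj_one (X : Module.End k ρbar.V) : conj ρbar 1 X = X := by
  simp [conj]

theorem conj_mul (σ τ : GalQ) (X : Module.End k ρbar.V) :
    conj ρbar (σ * τ) X = conj ρbar σ (conj ρbar τ X) := by
  simp only [conj, map_mul, mul_inv_rev, mul_assoc]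

theorem conj_add (σ : GalQ) (X Y : Module.End k ρbar.V) :
    conj ρbar σ (X + Y) = conj ρbar σ X + conj ρbar σ Y := by
  simp only [conj, mul_add, add_mul]

theorem conj_sub (σ : GalQ) (X Y : Module.End k ρbar.V) :
    conj ρbar σ (X - Y) = conj ρbar σ X - conj ρbar σ Y := by
  simp only [conj, mul_sub, sub_mul]

theorem conj_zero (σ : GalQ) : conj ρbar σ (0 : Module.End k ρbar.V) = 0 := by
  simp [conj]

/-- `conj σ` only depends on `ρbar σ`. -/
theorem conj_congr {σ τ : GalQ} (h : ρbar.ρ σ = ρbar.ρ τ) (X : Module.End k ρbar.V) :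
    conj ρbar σ X = conj ρbar τ X := by
  have h' : ρbar.ρ σ⁻¹ = ρbar.ρ τ⁻¹ := by
    calc ρbar.ρ σ⁻¹ = ρbar.ρ σ⁻¹ * (ρbar.ρ τ * ρbar.ρ τ⁻¹) := by rw [rho_mul_inv, mul_one]
      _ = ρbar.ρ σ⁻¹ * (ρbar.ρ σ * ρbar.ρ τ⁻¹) := by rw [h]
      _ = ρbar.ρ τ⁻¹ := by rw [← mul_assoc, rho_inv_mul, one_mul]
  simp only [conj, h, h']

variable {ρbar}

theorem map_one_of_map_mul {c : GalQ → Module.End k ρbar.V}
    (hc : ∀ σ τ : GalQ, c (σ * τ) = c σ + conj ρbar σ (c τ)) : c 1 = 0 := by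
  have h := hc 1 1
  rw [mul_one, conj_one] at h
  exact add_eq_left.mp h.symm

/-- The coboundary of `X`. -/
noncomputable def cob (ρbar : ResidualGaloisRep k) (X : Module.End k ρbar.V) (σ : GalQ) : Module.End k ρbar.V :=
  conj ρbar σ X - X

theorem cob_map_mul (X : Module.End k ρbar.V) (σ τ : GalQ) :
    cob ρbar X (σ * τ) = cob ρbar X σ + conj ρbar σ (cob ρbar X τ) := by
  simp only [cob, conj_mul, conj_sub]
  abel

/-- The zero set of a cocycle is a subgroup. -/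
def zeroSubgroup (c : GalQ → Module.End k ρbar.V)
    (hc : ∀ σ τ : GalQ, c (σ * τ) = c σ + conj ρbar σ (c τ)) : Subgroup GalQ where
  carrier := {σ | c σ = 0}
  one_mem' := map_one_of_map_mul hc
  mul_mem' {σ τ} hσ hτ := by
    change c (σ * τ) = 0
    rw [hc, show c σ = 0 from hσ, show c τ = 0 from hτ, conj_zero, add_zero]
  inv_mem' {σ} hσ := by
    change c σ⁻¹ = 0
    have h := hc σ⁻¹ σ
    rw [inv_mul_cancel, map_one_of_map_mul hc, show c σ = 0 from hσ, conj_zero, add_zero] at h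
    exact h.symm

/-! ### The lift as a homomorphism to `Aut(V × V)` -/

/-- `σ ↦ (1 + ε c σ) ρbar σ` acting on `V × V`. -/
noncomputable def liftHom (c : GalQ → Module.End k ρbar.V)
    (hc : ∀ σ τ : GalQ, c (σ * τ) = c σ + conj ρbar σ (c τ)) :
    GalQ →* Module.End k (ρbar.V × ρbar.V) where
  toFun σ := liftEnd (ρbar.ρ σ) (c σ)
  map_one' := by rw [map_one, map_one_of_map_mul hc, liftEnd_one_zero]
  map_mul' σ τ := by
    rw [liftEnd_mul _ _ _ _ (ρbar.ρ σ⁻¹) (rho_inv_mul ρbar σ), hc, map_mul]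
    rfl

theorem liftHom_apply (c : GalQ → Module.End k ρbar.V)
    (hc : ∀ σ τ : GalQ, c (σ * τ) = c σ + conj ρbar σ (c τ)) (σ : GalQ) :
    liftHom c hc σ = liftEnd (ρbar.ρ σ) (c σ) := rfl

theorem liftHom_eq_iff (c : GalQ → Module.End k ρbar.V)
    (hc : ∀ σ τ : GalQ, c (σ * τ) = c σ + conj ρbar σ (c τ)) (σ τ : GalQ)
    (h : liftHom c hc σ = liftHom c hc τ) : ρbar.ρ σ = ρbar.ρ τ ∧ c σ = c τ :=
  liftEnd_injective (ρbar.ρ σ⁻¹) (rho_mul_inv ρbar σ) h

/-! ### The main theorem -/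

/-- A unipotent endomorphism (`charpoly = (X - 1)^2`) is `1 + n` with `n * n = 0`. -/
theorem sub_one_mul_self_of_charpoly {f : Module.End k ρbar.V}
    (h : LinearMap.charpoly f = (X - 1) ^ 2) : (f - 1) * (f - 1) = 0 := by
  have h1 := LinearMap.aeval_self_charpoly f
  rw [h] at h1
  simpa [pow_two] using h1

/-- **LOC-UNIP (a)**: the unipotent local condition at a ramified unipotent prime `q ≠ p` forces
the cocycle to be a coboundary on the inertia group. -/
theorem exists_coboundary_on_inertia {p : ℕ} [Fact p.Prime] [CharP k p] (hp2 : p ≠ 2)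
    {q : ℕ} (hq : q.Prime) (hpq : p ≠ q)
    (P : ValuationSubring (AlgebraicClosure ℚ)) (hP : P.LiesOverPrime q)
    (hunip : ∀ σ ∈ P.inertiaSubgroupIn ℚ, LinearMap.charpoly (ρbar.ρ σ) = (X - 1) ^ 2)
    (hram : ∃ σ ∈ P.inertiaSubgroupIn ℚ, ρbar.ρ σ ≠ 1)
    {c : GalQ → Module.End k ρbar.V} (hc : IsDefCocycle ρbar c)
    (htr : ∀ σ ∈ P.inertiaSubgroupIn ℚ, LinearMap.trace k ρbar.V (c σ * ρbar.ρ σ) = 0) :
    ∃ X : Module.End k ρbar.V, LinearMap.trace k ρbar.V X = 0 ∧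
      ∀ σ ∈ P.inertiaSubgroupIn ℚ, c σ = conj ρbar σ X - X := by
  have hp : p.Prime := Fact.out
  -- the lift homomorphism, with values in the unit group
  set g₀ := liftHom c hc.map_mul with hg₀
  set g : GalQ →* (Module.End k (ρbar.V × ρbar.V))ˣ := g₀.toHomUnits with hg
  have hgval : ∀ σ, ((g σ : (Module.End k (ρbar.V × ρbar.V))ˣ) : Module.End k (ρbar.V × ρbar.V))
      = liftEnd (ρbar.ρ σ) (c σ) := fun σ => rfl
  -- finite level
  obtain ⟨L₁, hL₁fin, hL₁⟩ := ρbar.factorsThroughFiniteLevel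
  obtain ⟨F, hFfin, hF⟩ := hc.level
  have := hL₁fin
  have := hFfin
  have hc1 : c 1 = 0 := map_one_of_map_mul hc.map_mul
  have hlevel : ∀ σ : GalQ, (∀ x ∈ L₁ ⊔ F, σ x = x) → g σ = 1 := by
    intro σ hσ
    have h1 : ρbar.ρ σ = 1 := hL₁ σ fun x hx => hσ x ((le_sup_left : L₁ ≤ L₁ ⊔ F) hx)
    have h2 : c σ = 0 := by
      have := hF 1 σ fun x hx => hσ x ((le_sup_right : F ≤ L₁ ⊔ F) hx)
      rw [one_mul, hc1] at this
      exact this
    apply Units.ext
    rw [hgval, h1, h2, liftEnd_one_zero]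
    rfl
  -- `p`-power order on inertia
  have : CharP (Module.End k (ρbar.V × ρbar.V)) p := by
    have : Nontrivial (Module.End k (ρbar.V × ρbar.V)) := by
      have : Nontrivial ρbar.V := Module.nontrivial_of_finrank_pos (R := k) (by
        rw [ρbar.finrank_eq]; norm_num)
      infer_instance
    exact charP_of_injective_algebraMap
      (FaithfulSMul.algebraMap_injective k (Module.End k (ρbar.V × ρbar.V))) p
  have hpow : ∀ τ ∈ P.inertiaSubgroupIn ℚ, ∃ b : ℕ, g τ ^ (p ^ b) = 1 := by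
    intro τ hτ
    refine ⟨2, Units.ext ?_⟩
    rw [Units.val_pow_eq_pow_val, hgval, Units.val_one]
    have hn : (ρbar.ρ τ - 1) * (ρbar.ρ τ - 1) = 0 := sub_one_mul_self_of_charpoly (hunip τ hτ)
    have h4 := liftEnd_sub_one_pow_four (ρbar.ρ τ - 1) (c τ) hn
    rw [add_sub_cancel] at h4
    set T := liftEnd (ρbar.ρ τ) (c τ) with hT
    have h5 : T = 1 + (T - 1) := by abel
    rw [h5, add_pow_char_pow_of_commute p 2 (Commute.one_left _), one_pow]
    have h6 : (T - 1) ^ p ^ 2 = 0 := by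
      have hp4 : 4 ≤ p ^ 2 := by
        have := hp.two_le
        nlinarith
      rw [← Nat.sub_add_cancel hp4, pow_add, h4, mul_zero]
    rw [h6, add_zero]
  -- cyclicity from brick TAME
  obtain ⟨τ₀, hτ₀, hgen⟩ := Fermat.Agent.TW.Tame22.Hom.exists_generator_of_hom g hq hp hpq P hP
    (L₁ ⊔ F) hlevel hpow
  -- consequences: every `τ ∈ I` agrees with a power of `τ₀` for `ρbar` and `c`
  have hpowers : ∀ τ ∈ P.inertiaSubgroupIn ℚ, ∃ n : ℤ,
      ρbar.ρ τ = ρbar.ρ (τ₀ ^ n) ∧ c τ = c (τ₀ ^ n) := by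
    intro τ hτ
    obtain ⟨n, hn⟩ := hgen τ hτ
    refine ⟨n, ?_⟩
    rw [← map_zpow] at hn
    have := congrArg (fun u : (Module.End k (ρbar.V × ρbar.V))ˣ =>
      (u : Module.End k (ρbar.V × ρbar.V))) hn
    exact liftHom_eq_iff c hc.map_mul τ (τ₀ ^ n) this
  -- the generator
  set N := ρbar.ρ τ₀ - 1 with hN
  have hN2 : N * N = 0 := sub_one_mul_self_of_charpoly (hunip τ₀ hτ₀)
  have hρτ₀ : ρbar.ρ τ₀ = 1 + N := by rw [hN]; abel
  have hρτ₀inv : ρbar.ρ τ₀⁻¹ = 1 - N := by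
    have h1 : (1 + N) * (1 - N) = 1 := by
      rw [mul_sub, mul_one, add_mul, one_mul, hN2]; abel
    calc ρbar.ρ τ₀⁻¹ = ρbar.ρ τ₀⁻¹ * ((1 + N) * (1 - N)) := by rw [h1, mul_one]
      _ = (ρbar.ρ τ₀⁻¹ * ρbar.ρ τ₀) * (1 - N) := by rw [hρτ₀, mul_assoc]
      _ = 1 - N := by rw [rho_inv_mul, one_mul]
  have hNne : N ≠ 0 := by
    intro h0
    obtain ⟨σ, hσ, hσne⟩ := hram
    obtain ⟨n, hn, -⟩ := hpowers σ hσ
    apply hσne
    rw [hn]
    have : ρbar.ρ τ₀ = 1 := by rw [hρτ₀, h0, add_zero]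
    have h1 : ∀ m : ℕ, ρbar.ρ (τ₀ ^ m) = 1 := fun m => by rw [map_pow, this, one_pow]
    rcases Int.eq_nat_or_neg n with ⟨m, rfl | rfl⟩
    · rw [zpow_natCast]; exact h1 m
    · rw [zpow_neg, zpow_natCast]
      have h2 := rho_inv_mul ρbar (τ₀ ^ m)
      rw [h1 m, mul_one] at h2
      exact h2
  have h2k : (2 : k) ≠ 0 := by
    intro h
    have h' : ((2 : ℕ) : k) = 0 := by exact_mod_cast h
    rw [CharP.cast_eq_zero_iff k p] at h'
    exact hp2 ((Nat.prime_dvd_prime_iff_eq hp Nat.prime_two).mp h')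
  have htrC : LinearMap.trace k ρbar.V (c τ₀) = 0 := hc.trace_eq_zero τ₀
  have htrCN : LinearMap.trace k ρbar.V (c τ₀ * N) = 0 := by
    have := htr τ₀ hτ₀
    rw [hρτ₀, mul_add, mul_one, map_add, htrC, zero_add] at this
    exact this
  obtain ⟨X, hX0, hX⟩ := exists_conj_sub h2k ρbar.finrank_eq N (c τ₀) hN2 hNne htrC htrCN
  refine ⟨X, hX0, ?_⟩
  -- `c - cob X` is a cocycle vanishing at `τ₀`, hence on its powers
  set c' : GalQ → Module.End k ρbar.V := fun σ => c σ - cob ρbar X σ with hc'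
  have hc'mul : ∀ σ τ : GalQ, c' (σ * τ) = c' σ + conj ρbar σ (c' τ) := by
    intro σ τ
    simp only [hc', hc.map_mul, cob_map_mul, conj_sub]
    abel
  have hc'τ₀ : c' τ₀ = 0 := by
    simp only [hc', cob, conj, hρτ₀, hρτ₀inv, hX, sub_self]
  have hzp : ∀ n : ℤ, c' (τ₀ ^ n) = 0 := fun n =>
    (zeroSubgroup c' hc'mul).zpow_mem (show τ₀ ∈ zeroSubgroup c' hc'mul from hc'τ₀) n
  intro σ hσ
  obtain ⟨n, hn1, hn2⟩ := hpowers σ hσ
  have h3 := hzp n
  simp only [hc', cob, sub_eq_zero] at h3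
  rw [hn2, h3, conj_congr ρbar hn1]

end Fermat.Agent.TW.Unip66
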