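/-
Programme TW (S56), pillar (S), brick **LOC-UNIP** (helper66): the local condition at the primes
`q ≠ p` of `Smin` (where `ρbar` is ramified and unipotent on inertia).

`locUnip_of : PlaceTrans → SIface72.LocUnip 𝒪 p`, with `L_q := GWIface2_97.H1ur q M` (unramified classes):

* `#H1ur q M ≤ #H⁰(ℚ_q, M)` is `LocUr66.card_H1ur_le`;
* for a deformation cocycle `c` with `tr (c σ ∘ ρbar σ) = 0` on inertia at `q`, `Unip66` gives a
  trace-zero `X` with `c = d X` on the inertia group of `primeLocalPlace q`, so `c - dX` is a level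
  cocycle of the local Galois group vanishing on `localInertia q`.

`PlaceTrans` (all places of `ℚ̄` over `q` are conjugate) is only used to move "`ρbar` is ramified at
SOME place over `q`" to the chosen place `primeLocalPlace q`.
-/
import Mathlib
import Fermat.Agent.TW.SIface72
import Fermat.Agent.TW.Unip66
import Fermat.Agent.TW.LocUr66

set_option autoImplicit false

open scoped Pointwise
open Polynomial IsLocalRing
open ExtCitation groupCohomology
open Fermat.Agent.PT.PRO Fermat.Agent.PT.BR Fermat.Agent.PT.BR.LevelBridge13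
open Fermat.Agent.TW.Interface Fermat.Agent.TW.GWIface97 Fermat.Agent.TW.GWIface2_97
open Fermat.Agent.TW.SDefs72

namespace Fermat.Agent.TW.LocUnip66

local notation "Γ" => (AlgebraicClosure ℚ ≃ₐ[ℚ] AlgebraicClosure ℚ)
local notation "Qbar" => AlgebraicClosure ℚ

/-- **(TR)** the Galois group acts transitively on the places of `ℚ̄` over a prime `q`. -/
def PlaceTrans : Prop :=
  ∀ q : ℕ, q.Prime → ∀ A B : ValuationSubring Qbar, A.LiesOverPrime q → B.LiesOverPrime q →
    ∃ γ : Γ, γ • A = B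

section Generic

variable {k : Type} [Field k] (ρbar : ResidualGaloisRep k) (p : ℕ) [Fact p.Prime]
  (hchar : (p : k) = 0)

theorem rho_inv_eq_one {σ : Γ} (h : ρbar.ρ σ = 1) : ρbar.ρ σ⁻¹ = 1 := by
  have h1 : ρbar.ρ σ * ρbar.ρ σ⁻¹ = 1 := by rw [← map_mul, mul_inv_cancel, map_one]
  rwa [h, one_mul] at h1

/-- `ad0F` is smooth. -/
theorem smooth_ad0F (m : ad0F ρbar p hchar) :
    ∃ F : IntermediateField ℚ Qbar, FiniteDimensional ℚ F ∧
      ∀ s ∈ F.fixingSubgroup, (ad0F ρbar p hchar).ρ s m = m := by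
  obtain ⟨L, hL, h1⟩ := ρbar.factorsThroughFiniteLevel
  refine ⟨L, hL, fun s hs => ?_⟩
  have hs1 : ρbar.ρ s = 1 := h1 s fun x hx => hs ⟨x, hx⟩
  apply ad0F.val_injective ρbar p hchar
  rw [ad0F.val_ρ]
  unfold conj
  rw [hs1, rho_inv_eq_one ρbar hs1, one_mul, mul_one]

/-- `ad0F` is finite when `k` is. -/
theorem finite_ad0F' [Finite k] : Finite (ad0F ρbar p hchar) := by
  have hV : Finite ρbar.V := Module.finite_of_finite k
  have hE : Finite (Module.End k ρbar.V) := Module.finite_of_finite k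
  exact Subtype.finite

theorem val_add' (x y : ad0F ρbar p hchar) :
    ad0F.val ρbar p hchar (x + y) = ad0F.val ρbar p hchar x + ad0F.val ρbar p hchar y := rfl

theorem val_sub' (x y : ad0F ρbar p hchar) :
    ad0F.val ρbar p hchar (x - y) = ad0F.val ρbar p hchar x - ad0F.val ρbar p hchar y := rfl

/-- The restriction of a deformation cocycle to the local Galois group is a level cocycle. -/
theorem comp_mem_Z1 (q : Nat.Primes) {c : Γ → Module.End k ρbar.V} (hc : IsDefCocycle ρbar c) :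
    (toAd0 ρbar p hchar c ∘ primeLocalToGlobal q) ∈
      LevelCoh28.Z1 (pullBasis (primeLocalToGlobal q))
        (Rep.res (primeLocalToGlobal q) (ad0F ρbar p hchar)) := by
  rw [LevelCoh28.mem_Z1_iff]
  constructor
  · rw [mem_cocycles₁_iff]
    intro g h
    apply ad0F.val_injective ρbar p hchar
    show ad0F.val ρbar p hchar (toAd0 ρbar p hchar c (primeLocalToGlobal q (g * h))) =
      ad0F.val ρbar p hchar ((ad0F ρbar p hchar).ρ (primeLocalToGlobal q g)
        (toAd0 ρbar p hchar c (primeLocalToGlobal q h)) +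
          toAd0 ρbar p hchar c (primeLocalToGlobal q g))
    rw [val_add', ad0F.val_ρ, val_toAd0 ρbar p hchar hc.trace_eq_zero,
      val_toAd0 ρbar p hchar hc.trace_eq_zero, val_toAd0 ρbar p hchar hc.trace_eq_zero, map_mul,
      hc.map_mul, add_comm]
  · obtain ⟨F, hF, hlev⟩ := hc.level
    refine ⟨F.fixingSubgroup.comap (primeLocalToGlobal q), ⟨F, hF, rfl⟩, fun g s hs => ?_⟩
    show toAd0 ρbar p hchar c (primeLocalToGlobal q (g * s)) =
      toAd0 ρbar p hchar c (primeLocalToGlobal q g)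
    apply ad0F.val_injective ρbar p hchar
    rw [val_toAd0 ρbar p hchar hc.trace_eq_zero, val_toAd0 ρbar p hchar hc.trace_eq_zero, map_mul]
    exact hlev _ _ (fun x hx => hs ⟨x, hx⟩)

/-- Ramification at some place over `q` gives ramification at any given place over `q`. -/
theorem exists_ram_at (hTR : PlaceTrans) {q : ℕ} (hq : q.Prime) (hram : ¬ ρbar.IsUnramifiedAt q)
    (P₀ : ValuationSubring Qbar) (hP₀ : P₀.LiesOverPrime q) :
    ∃ σ ∈ P₀.inertiaSubgroupIn ℚ, ρbar.ρ σ ≠ 1 := by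
  unfold ResidualGaloisRep.IsUnramifiedAt at hram
  push Not at hram
  obtain ⟨A, hA, σ, hσ, hne⟩ := hram
  obtain ⟨γ, hγ⟩ := hTR q hq A P₀ hA hP₀
  refine ⟨γ * σ * γ⁻¹, ?_, fun h1 => hne ?_⟩
  · rw [← hγ]
    exact UnramBridge13.conj_mem_inertiaSubgroupIn hq hA γ hσ
  · have h2 : ρbar.ρ σ = ρbar.ρ γ⁻¹ * ρbar.ρ (γ * σ * γ⁻¹) * ρbar.ρ γ := by
      rw [← map_mul, ← map_mul]
      congr 1
      group
    rw [h2, h1, mul_one, ← map_mul, inv_mul_cancel, map_one]

/-- **LOC-UNIP (c)**: the local class of a deformation cocycle satisfying the unipotent condition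
at a ramified unipotent prime `q ≠ p` is unramified. -/
theorem locCls_mem_H1ur [Finite k] (hp2 : p ≠ 2) (q : Nat.Primes) (hqp : (q : ℕ) ≠ p)
    (hunip : ∀ σ ∈ (primeLocalPlace q).inertiaSubgroupIn ℚ,
      LinearMap.charpoly (ρbar.ρ σ) = (X - 1) ^ 2)
    (hram : ∃ σ ∈ (primeLocalPlace q).inertiaSubgroupIn ℚ, ρbar.ρ σ ≠ 1)
    {c : Γ → Module.End k ρbar.V} (hc : IsDefCocycle ρbar c)
    (htr : ∀ σ ∈ (primeLocalPlace q).inertiaSubgroupIn ℚ,
      LinearMap.trace k ρbar.V (c σ * ρbar.ρ σ) = 0) :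
    locCls ρbar p hchar q c ∈ H1ur q (ad0F ρbar p hchar) := by
  have hp : p.Prime := Fact.out
  have : CharP k p := (CharP.charP_iff_prime_eq_zero hp).2 hchar
  obtain ⟨Y, hY0, hY⟩ := Unip66.exists_coboundary_on_inertia (ρbar := ρbar) hp2 q.2 hqp.symm
    (primeLocalPlace q) (LocalGen66.liesOverPrime_primeLocalPlace q) hunip hram hc htr
  have hZ := comp_mem_Z1 ρbar p hchar q hc
  have hfin : Finite (ad0F ρbar p hchar) := finite_ad0F' ρbar p hchar
  have hfd : FiniteDimensional (ZMod p) (ad0F ρbar p hchar) := Module.Finite.of_finite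
  have hdisc : LevelCoh28.IsDiscrete (pullBasis (primeLocalToGlobal q)).sets
      (Rep.res (primeLocalToGlobal q) (ad0F ρbar p hchar)) :=
    isDiscrete_pullSets (M := ad0F ρbar p hchar) (primeLocalToGlobal q) (smooth_ad0F ρbar p hchar)
  let x : ad0F ρbar p hchar := ad0F.of ρbar p hchar (Ad0.mk ρbar Y hY0)
  have hb : (d₀₁ (Rep.res (primeLocalToGlobal q) (ad0F ρbar p hchar))).hom x ∈
      LevelCoh28.Z1 (pullBasis (primeLocalToGlobal q))
        (Rep.res (primeLocalToGlobal q) (ad0F ρbar p hchar)) :=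
    LevelCoh28.coboundaries₁_le_Z1 hdisc ⟨x, rfl⟩
  unfold locCls
  rw [dif_pos hZ]
  have hsplit : LevelCoh28.H1mk (pullBasis (primeLocalToGlobal q))
      (Rep.res (primeLocalToGlobal q) (ad0F ρbar p hchar)) ⟨_, hZ⟩ =
      LevelCoh28.H1mk (pullBasis (primeLocalToGlobal q))
        (Rep.res (primeLocalToGlobal q) (ad0F ρbar p hchar)) (⟨_, hZ⟩ - ⟨_, hb⟩) := by
    rw [map_sub, eq_comm, sub_eq_self, LevelCoh28.H1mk_eq_zero_iff]
    exact ⟨x, rfl⟩
  rw [hsplit]
  apply Submodule.mem_map_of_mem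
  intro g hg
  have hg' : primeLocalToGlobal q g ∈ (primeLocalPlace q).inertiaSubgroupIn ℚ := hg
  show toAd0 ρbar p hchar c (primeLocalToGlobal q g) -
    ((ad0F ρbar p hchar).ρ (primeLocalToGlobal q g) x - x) = 0
  rw [sub_eq_zero]
  apply ad0F.val_injective ρbar p hchar
  rw [val_toAd0 ρbar p hchar hc.trace_eq_zero, val_sub', ad0F.val_ρ]
  exact hY _ hg'

end Generic

section Final

variable (𝒪 : Type) [CommRing 𝒪] [IsDomain 𝒪] [IsDiscreteValuationRing 𝒪]
  [IsAdicComplete (maximalIdeal 𝒪) 𝒪] [Finite (ResidueField 𝒪)]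
variable (p : ℕ) [Fact p.Prime]

/-- **LOC-UNIP**, modulo the transitivity of the Galois action on the places over `q`. -/
theorem locUnip_of (hTR : PlaceTrans) : SIface72.LocUnip 𝒪 p := by
  intro ρbar S Smin h q hqp hram hunip
  have hfin : Finite (SIface72.MM 𝒪 p ρbar (SIface72.hchar h)) :=
    finite_ad0F' ρbar p (SIface72.hchar h)
  have hP₀ := LocalGen66.liesOverPrime_primeLocalPlace q
  refine ⟨H1ur q (SIface72.MM 𝒪 p ρbar (SIface72.hchar h)), LocUr66.card_H1ur_le q _,
    fun c hc htr => ?_⟩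
  exact locCls_mem_H1ur ρbar p (SIface72.hchar h) h.hp2 q hqp (fun σ hσ => hunip _ hP₀ σ hσ)
    (exists_ram_at ρbar hTR q.2 hram _ hP₀) hc (fun σ hσ => htr _ hP₀ σ hσ)

end Final

end Fermat.Agent.TW.LocUnip66
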