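/-
Programme TW (S56), pillar (S), brick **LOC-UNIP**, final form (helper66):
`locUnip : SIface72.LocUnip 𝒪 p`, unconditional.

`LocUnip66.locUnip_of` + the transitivity of the Galois action on the places of `ℚ̄` over a prime
(`TWP59/Places24.exists_smul_eq`, helper24).
-/
import Mathlib
import Fermat.Agent.TW.LocUnip66
import Fermat.Agent.TW.TWP59.Places24

set_option autoImplicit false

open IsLocalRing

namespace Fermat.Agent.TW.LocUnipFinal66

/-- All places of `ℚ̄` over a prime `q` are conjugate. -/
theorem placeTrans : LocUnip66.PlaceTrans :=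
  fun q hq A B hA hB => TWP59.Places24.exists_smul_eq q hq A B hA hB

variable (𝒪 : Type) [CommRing 𝒪] [IsDomain 𝒪] [IsDiscreteValuationRing 𝒪]
  [IsAdicComplete (maximalIdeal 𝒪) 𝒪] [Finite (ResidueField 𝒪)]
variable (p : ℕ) [Fact p.Prime]

/-- **LOC-UNIP** (brick of pillar (S)): at a prime `q ≠ p` where `ρbar` is ramified and unipotent on
inertia, the unramified classes `H1ur q (ad⁰ ρbar)` have at most `#H⁰(ℚ_q, ad⁰ ρbar)` elements and
contain the local classes of all deformation cocycles satisfying the unipotent condition at `q`. -/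
theorem locUnip : SIface72.LocUnip 𝒪 p :=
  LocUnip66.locUnip_of 𝒪 p placeTrans

end Fermat.Agent.TW.LocUnipFinal66
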