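/-
Programme TW (S56), sub-programme C (Greenberg–Wiles), arithmetic input (NZ) of the tail (helper65).
Part A (Mathlib only): the order of `q` modulo `p ^ n` has unbounded `p`-part.

* `exists_pow_dvd_orderOf` : for primes `p`, `1 < q` prime to `p`, and every `N` there is `n > 0` such that
  every unit `u` of `ZMod (p ^ n)` with `(u : ZMod (p ^ n)) = q` has order divisible by `p ^ N`;
* `dvd_of_pow_dvd_mul` : if `p ^ (v + 1) ∣ a * b` and `¬ p ^ (v + 1) ∣ b` then `p ∣ a`.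
-/
import Mathlib

set_option autoImplicit false

namespace Fermat.Agent.TW.NZArith65

/-- if `f ∣ p ^ m * c` then `p ^ N ∣ f` or `f ∣ p ^ (N - 1) * c` (for `N ≥ 1`). -/
theorem pow_dvd_or_dvd {p : ℕ} (hp : p.Prime) {f m c N : ℕ} (hN : 1 ≤ N) (hf : f ∣ p ^ m * c) :
    p ^ N ∣ f ∨ f ∣ p ^ (N - 1) * c := by
  obtain ⟨f₁, f₂, h1, h2, rfl⟩ := Nat.dvd_mul.1 hf
  obtain ⟨a, -, rfl⟩ := (Nat.dvd_prime_pow hp).1 h1
  by_cases ha : N ≤ a
  · left
    exact (pow_dvd_pow p ha).trans (dvd_mul_right _ _)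
  · right
    push Not at ha
    exact mul_dvd_mul (pow_dvd_pow p (by omega)) h2

/-- the order of `q` modulo `p ^ n` has unbounded `p`-part. -/
theorem exists_pow_dvd_orderOf {p q : ℕ} (hp : p.Prime) (hq : 1 < q) (N : ℕ) :
    ∃ n : ℕ, 0 < n ∧ ∀ u : (ZMod (p ^ n))ˣ, ((u : ZMod (p ^ n)) = (q : ZMod (p ^ n))) →
      p ^ N ∣ orderOf u := by
  rcases Nat.eq_zero_or_pos N with rfl | hN
  · exact ⟨1, one_pos, fun u _ => by simp⟩
  -- choose `n` with `q ^ (p ^ (N - 1) * (p - 1)) < p ^ n`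
  set X := q ^ (p ^ (N - 1) * (p - 1)) with hX
  obtain ⟨n, hn⟩ : ∃ n : ℕ, X < p ^ n := ⟨X, Nat.lt_pow_self hp.one_lt⟩
  have hn0 : 0 < n := by
    rcases Nat.eq_zero_or_pos n with rfl | h
    · rw [pow_zero] at hn
      have : 1 ≤ X := Nat.one_le_pow _ _ (by omega)
      omega
    · exact h
  refine ⟨n, hn0, fun u hu => ?_⟩
  have : NeZero (p ^ n) := ⟨pow_ne_zero _ hp.ne_zero⟩
  have hcard : orderOf u ∣ p ^ (n - 1) * (p - 1) := by
    have h1 : orderOf u ∣ Fintype.card (ZMod (p ^ n))ˣ := orderOf_dvd_card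
    rwa [ZMod.card_units_eq_totient, Nat.totient_prime_pow hp hn0] at h1
  rcases pow_dvd_or_dvd hp hN hcard with h | h
  · exact h
  · exfalso
    have h1 : u ^ (p ^ (N - 1) * (p - 1)) = 1 := orderOf_dvd_iff_pow_eq_one.1 h
    have h2 : ((u ^ (p ^ (N - 1) * (p - 1)) : (ZMod (p ^ n))ˣ) : ZMod (p ^ n)) = 1 := by
      rw [h1]; rfl
    rw [Units.val_pow_eq_pow_val, hu, ← Nat.cast_pow, ← hX] at h2
    have h3 : ((X : ℕ) : ZMod (p ^ n)) = ((1 : ℕ) : ZMod (p ^ n)) := by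
      rw [h2, Nat.cast_one]
    rw [ZMod.natCast_eq_natCast_iff] at h3
    have hX1 : 1 ≤ X := Nat.one_le_pow _ _ (by omega)
    have h4 : p ^ n ∣ X - 1 := (Nat.modEq_iff_dvd' hX1).1 h3.symm
    have hXgt : 1 < X := by
      rw [hX]
      apply Nat.one_lt_pow _ hq
      have h5 : 0 < p ^ (N - 1) := pow_pos hp.pos _
      have h6 : 0 < p - 1 := by have := hp.two_le; omega
      exact (Nat.mul_pos h5 h6).ne'
    have h7 : p ^ n ≤ X - 1 := Nat.le_of_dvd (by omega) h4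
    omega

/-- if `p ^ (v + 1) ∣ a * b` and `¬ p ^ (v + 1) ∣ b` then `p ∣ a`. -/
theorem dvd_of_pow_dvd_mul {p : ℕ} (hp : p.Prime) {a b v : ℕ} (h : p ^ (v + 1) ∣ a * b)
    (hb : ¬ p ^ (v + 1) ∣ b) : p ∣ a := by
  by_contra ha
  have hcop : Nat.Coprime (p ^ (v + 1)) a :=
    Nat.Coprime.pow_left _ ((Nat.Prime.coprime_iff_not_dvd hp).2 ha)
  exact hb (hcop.dvd_of_dvd_mul_left h)

end Fermat.Agent.TW.NZArith65
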