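/-
Programme TW (S56), sub-programme C (Greenberg–Wiles), arithmetic input (NZ) of the tail (helper65).
Part B: in `K̄_q = PadicAlgCl q`, the stabiliser `W_n ≤ G_q` of a primitive `p ^ n`-th root of unity has
index with unbounded `p`-part.

* `chi`, `chi_spec`, `mem_ker_chi`     : the cyclotomic character of `G_q` on `μ_m`;
* `exists_frob_pow`                     : a Frobenius lift raises prime-to-`q` roots of unity to the `q`-th power;
* `norm_sub_one_pow_totient`            : `‖ζ - 1‖ ^ φ(p^(k+1)) = ‖p‖` in `K̄_p`;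
* `totient_dvd_card_range`              : `φ(p^(k+1)) ∣ #(range χ)` for `q = p`;
* `exists_pow_dvd_index`                : `∀ N, ∃ n > 0, ∀ ζ` primitive `p^n`-th root, `p ^ N ∣ [G_q : Stab ζ]`;
* `exists_dvd_relIndex`                 : `∀ U` of finite index `∃ n > 0, ∀ ζ, p ∣ [U : U ⊓ Stab ζ]`.
-/
import Fermat.Agent.TW.NZArith65
import Fermat.Agent.TW.B5.LD65a
import Fermat.Agent.TW.B5.LG83B

set_option autoImplicit false
set_option linter.unusedSectionVars false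

namespace Fermat.Agent.TW.NZLocal65

open Fermat.Agent.TW.B5.Iface Fermat.Agent.TW.B5.IfaceLG Fermat.Agent.TW.B5.LGTame65
  Fermat.Agent.TW.NZArith65

noncomputable section

variable {q : ℕ} [hq : Fact q.Prime]

/-! ### The cyclotomic character -/

section Chi

variable {m : ℕ} [NeZero m] {ζ : Kbar q} (hζ : IsPrimitiveRoot ζ m)

/-- the cyclotomic character of `G_q` on `μ_m`. -/
def chi : Gp q →* (ZMod m)ˣ := hζ.autToPow ℚ_[q]

theorem chi_spec (g : Gp q) : g ζ = ζ ^ ((chi hζ g : (ZMod m)ˣ) : ZMod m).val :=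
  (hζ.autToPow_spec ℚ_[q] g).symm

include hζ in
theorem modEq_of_pow_eq {a b : ℕ} (h : ζ ^ a = ζ ^ b) : a ≡ b [MOD m] := by
  have hζ0 : ζ ≠ 0 := hζ.ne_zero (NeZero.ne m)
  wlog hab : a ≤ b generalizing a b
  · exact (this h.symm (le_of_not_ge hab)).symm
  have h1 : ζ ^ (b - a) = 1 := by
    have : ζ ^ a * ζ ^ (b - a) = ζ ^ a * 1 := by
      rw [← pow_add, Nat.add_sub_cancel' hab, mul_one, h]
    exact mul_left_cancel₀ (pow_ne_zero _ hζ0) this
  have h2 := (hζ.pow_eq_one_iff_dvd _).1 h1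
  exact (Nat.modEq_iff_dvd' hab).2 h2

include hζ in
theorem pow_mod_eq (a : ℕ) : ζ ^ (a % m) = ζ ^ a := by
  conv_rhs => rw [← Nat.mod_add_div a m]
  rw [pow_add, pow_mul, hζ.pow_eq_one, one_pow, mul_one]

theorem chi_eq_of_apply {g : Gp q} {a : ℕ} (h : g ζ = ζ ^ a) :
    ((chi hζ g : (ZMod m)ˣ) : ZMod m) = (a : ZMod m) := by
  have h1 := chi_spec hζ g
  rw [h] at h1
  have h2 : a ≡ ((chi hζ g : (ZMod m)ˣ) : ZMod m).val [MOD m] := modEq_of_pow_eq hζ h1
  rw [← ZMod.natCast_zmod_val ((chi hζ g : (ZMod m)ˣ) : ZMod m)]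
  exact ((ZMod.natCast_eq_natCast_iff _ _ _).2 h2).symm

theorem mem_ker_chi (g : Gp q) : g ∈ (chi hζ).ker ↔ g ζ = ζ := by
  rw [MonoidHom.mem_ker]
  constructor
  · intro h
    have h1 := chi_spec hζ g
    rw [h, Units.val_one, ZMod.val_one_eq_one_mod, pow_mod_eq hζ, pow_one] at h1
    exact h1
  · intro h
    have h1 : g ζ = ζ ^ 1 := by rw [h, pow_one]
    have h2 := chi_eq_of_apply hζ h1
    apply Units.ext
    rw [h2, Nat.cast_one, Units.val_one]

/-- the stabiliser of `ζ`. -/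
def stab (ζ : Kbar q) : Subgroup (Gp q) := MulAction.stabilizer (Gp q) ζ

theorem mem_stab {ζ : Kbar q} (g : Gp q) : g ∈ stab ζ ↔ g ζ = ζ := Iff.rfl

theorem ker_chi_eq : (chi hζ).ker = stab ζ := by
  ext g
  rw [mem_ker_chi, mem_stab]

theorem index_stab : (stab ζ).index = Nat.card (chi hζ).range := by
  rw [← ker_chi_eq hζ, Subgroup.index_ker]

theorem orderOf_chi_dvd_index (g : Gp q) : orderOf (chi hζ g) ∣ (stab ζ).index := by
  rw [index_stab hζ, ← Subgroup.orderOf_mk (chi hζ g) (MonoidHom.mem_range.2 ⟨g, rfl⟩)]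
  exact orderOf_dvd_natCard _

end Chi

/-! ### Frobenius on roots of unity of order prime to `q` -/

theorem norm_root_eq_one' {m : ℕ} (hm : m ≠ 0) {ζ : Kbar q} (hζ : ζ ^ m = 1) : ‖ζ‖ = 1 := by
  have h : ‖ζ‖ ^ m = 1 := by rw [← norm_pow, hζ, norm_one]
  exact (pow_eq_one_iff_of_nonneg (norm_nonneg _) hm).1 h

theorem exists_frob_pow {m : ℕ} (hm : ¬ q ∣ m) {ζ : Kbar q} (hζ : ζ ^ m = 1) :
    ∃ φ : Gp q, φ ζ = ζ ^ q := by
  have hm0 : m ≠ 0 := by rintro rfl; exact hm (dvd_zero q)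
  have hfin : FiniteDimensional ℚ_[q] (IntermediateField.adjoin ℚ_[q] {ζ}) :=
    IntermediateField.adjoin.finiteDimensional (Algebra.IsIntegral.isIntegral ζ)
  obtain ⟨φ, hφ⟩ := Fermat.Agent.TW.B5.LG83B.existsFrobLift q _ hfin
  refine ⟨φ, ?_⟩
  have h1 := hφ ζ (IntermediateField.mem_adjoin_simple_self ℚ_[q] ζ)
    (norm_root_eq_one' hm0 hζ).le
  refine Fermat.Agent.TW.B5.LG83B.eq_of_norm_sub_lt_one q hm ?_ ?_ h1
  · rw [← map_pow, hζ, map_one]
  · rw [← pow_mul, mul_comm, pow_mul, hζ, one_pow]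

/-- **Case `q ≠ p`.** -/
theorem exists_pow_dvd_index_of_ne {p : ℕ} (hp : p.Prime) (hpq : p ≠ q) (N : ℕ) :
    ∃ n : ℕ, 0 < n ∧ ∀ ζ : Kbar q, IsPrimitiveRoot ζ (p ^ n) → p ^ N ∣ (stab ζ).index := by
  obtain ⟨n, hn0, hn⟩ := exists_pow_dvd_orderOf hp hq.out.one_lt N
  refine ⟨n, hn0, fun ζ hζ => ?_⟩
  have : NeZero (p ^ n) := ⟨pow_ne_zero _ hp.ne_zero⟩
  have hqm : ¬ q ∣ p ^ n := fun h =>
    hpq ((Nat.prime_dvd_prime_iff_eq hq.out hp).1 (hq.out.dvd_of_dvd_pow h)).symm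
  obtain ⟨φ, hφ⟩ := exists_frob_pow hqm hζ.pow_eq_one
  exact (hn (chi hζ φ) (chi_eq_of_apply hζ hφ)).trans (orderOf_chi_dvd_index hζ φ)

/-! ### Case `q = p` -/

section Same

variable {p : ℕ} [hp : Fact p.Prime]

theorem norm_sub_one_eq_of_prim {m : ℕ} [NeZero m] {ζ μ : Kbar p} (hζ : IsPrimitiveRoot ζ m)
    (hμ : IsPrimitiveRoot μ m) : ‖μ - 1‖ = ‖ζ - 1‖ := by
  obtain ⟨i, -, hi⟩ := hζ.eq_pow_of_pow_eq_one hμ.pow_eq_one
  obtain ⟨j, -, hj⟩ := hμ.eq_pow_of_pow_eq_one hζ.pow_eq_one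
  apply le_antisymm
  · rw [← hi]
    exact Fermat.Agent.TW.B5.LG83T.norm_pow_sub_one_le p
      (norm_root_eq_one' (NeZero.ne m) hζ.pow_eq_one) i
  · rw [← hj]
    exact Fermat.Agent.TW.B5.LG83T.norm_pow_sub_one_le p
      (norm_root_eq_one' (NeZero.ne m) hμ.pow_eq_one) j

/-- `‖ζ - 1‖ ^ φ(p^(k+1)) = ‖p‖` for a primitive `p^(k+1)`-th root of unity. -/
theorem norm_sub_one_pow_totient (k : ℕ) {ζ : Kbar p} (hζ : IsPrimitiveRoot ζ (p ^ (k + 1))) :
    ‖ζ - 1‖ ^ (p ^ (k + 1)).totient = ‖(p : Kbar p)‖ := by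
  have : NeZero (p ^ (k + 1)) := ⟨pow_ne_zero _ hp.out.ne_zero⟩
  have h1 : (Polynomial.cyclotomic (p ^ (k + 1)) (Kbar p)).eval 1 = (p : Kbar p) :=
    Polynomial.eval_one_cyclotomic_prime_pow k
  rw [Polynomial.cyclotomic_eq_prod_X_sub_primitiveRoots hζ, Polynomial.eval_prod] at h1
  simp only [Polynomial.eval_sub, Polynomial.eval_X, Polynomial.eval_C] at h1
  rw [← h1, norm_prod]
  have h2 : ∀ μ ∈ primitiveRoots (p ^ (k + 1)) (Kbar p), ‖(1 : Kbar p) - μ‖ = ‖ζ - 1‖ := by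
    intro μ hμ
    have hμ' : IsPrimitiveRoot μ (p ^ (k + 1)) :=
      (mem_primitiveRoots (pow_pos hp.out.pos _)).1 hμ
    rw [← norm_neg, neg_sub]
    exact norm_sub_one_eq_of_prim hζ hμ'
  rw [Finset.prod_congr rfl h2, Finset.prod_const, hζ.card_primitiveRoots]

open Classical in
/-- **Case `q = p`**: `φ(p^(k+1))` divides the index of the stabiliser of `ζ`. -/
theorem totient_dvd_index (k : ℕ) {ζ : Kbar p} (hζ : IsPrimitiveRoot ζ (p ^ (k + 1))) :
    (p ^ (k + 1)).totient ∣ (stab ζ).index := by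
  have hm : NeZero (p ^ (k + 1)) := ⟨pow_ne_zero _ hp.out.ne_zero⟩
  set m := p ^ (k + 1) with hmdef
  set χ := chi hζ with hχ
  -- the finite set `R = range χ`
  set R : Finset (ZMod m)ˣ := Finset.univ.filter (fun u => u ∈ χ.range) with hR
  have hRmem : ∀ u, u ∈ R ↔ u ∈ χ.range := fun u => by simp [hR]
  have hcard : R.card = (stab ζ).index := by
    rw [index_stab hζ, Nat.card_eq_fintype_card, Fintype.card_subtype]
  -- the norm element
  set P : Kbar p := ∏ u ∈ R, (ζ ^ ((u : (ZMod m)ˣ) : ZMod m).val - 1) with hP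
  have hζ1 : ζ ≠ 1 := by
    intro h
    have h1 := (hζ.pow_eq_one_iff_dvd 1).1 (by rw [h, one_pow])
    have h2 : m ≤ 1 := Nat.le_of_dvd one_pos h1
    have h3 : p ^ 1 ≤ m := Nat.pow_le_pow_right hp.out.pos (by omega)
    have := hp.out.two_le
    rw [pow_one] at h3
    omega
  have ha0 : 0 < ‖ζ - 1‖ := norm_pos_iff.2 (sub_ne_zero.2 hζ1)
  have hfac : ∀ u ∈ R, ‖ζ ^ ((u : (ZMod m)ˣ) : ZMod m).val - 1‖ = ‖ζ - 1‖ := by
    intro u hu
    obtain ⟨h, rfl⟩ := (hRmem u).1 hu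
    rw [← chi_spec hζ h]
    have : h ζ - 1 = h (ζ - 1) := by rw [map_sub, map_one]
    rw [this, Fermat.Agent.TW.B5.LGTame65.norm_map]
  have hnormP : ‖P‖ = ‖ζ - 1‖ ^ (stab ζ).index := by
    rw [hP, norm_prod, Finset.prod_congr rfl hfac, Finset.prod_const, hcard]
  -- invariance
  have hinv : ∀ g : Gp p, g P = P := by
    intro g
    rw [hP, map_prod]
    have h1 : ∀ u ∈ R, g (ζ ^ ((u : (ZMod m)ˣ) : ZMod m).val - 1)
        = ζ ^ (((χ g * u : (ZMod m)ˣ) : (ZMod m)ˣ) : ZMod m).val - 1 := by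
      intro u _
      rw [map_sub, map_one, map_pow, chi_spec hζ g, ← pow_mul, Units.val_mul, ZMod.val_mul,
        pow_mod_eq hζ]
    rw [Finset.prod_congr rfl h1]
    refine Finset.prod_nbij' (fun u => χ g * u) (fun u => (χ g)⁻¹ * u) ?_ ?_ ?_ ?_ ?_
    · intro u hu
      rw [hRmem] at hu ⊢
      exact χ.range.mul_mem ⟨g, rfl⟩ hu
    · intro u hu
      rw [hRmem] at hu ⊢
      exact χ.range.mul_mem (χ.range.inv_mem ⟨g, rfl⟩) hu
    · intro u _
      simp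
    · intro u _
      simp
    · intro u _
      rfl
  -- `P` is rational
  have hPbot : P ∈ (⊥ : IntermediateField ℚ_[p] (Kbar p)) :=
    Fermat.Agent.TW.B5.Kummer47.mem_of_fixed P fun τ _ => hinv τ
  obtain ⟨r, hr⟩ := IntermediateField.mem_bot.1 hPbot
  have hP0 : P ≠ 0 := by
    rw [← norm_ne_zero_iff, hnormP]
    exact (pow_pos ha0 _).ne'
  have hr0 : r ≠ 0 := by
    rintro rfl
    rw [map_zero] at hr
    exact hP0 hr.symm
  have hnormr : ‖P‖ = (p : ℝ) ^ (-r.valuation) := by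
    rw [← hr, PadicAlgCl.norm_extends, Padic.norm_eq_zpow_neg_valuation hr0]
  -- compare exponents
  have hp1 : (1 : ℝ) < (p : ℝ) := by exact_mod_cast hp.out.one_lt
  have hp0 : (0 : ℝ) < (p : ℝ) := lt_trans zero_lt_one hp1
  have h1 : ‖ζ - 1‖ ^ (stab ζ).index = (p : ℝ) ^ (-r.valuation) := by rw [← hnormP, hnormr]
  have h2 : ‖ζ - 1‖ ^ m.totient = (p : ℝ) ^ (-1 : ℤ) := by
    rw [norm_sub_one_pow_totient k hζ, norm_p p, zpow_neg_one]
  have h3 : ((p : ℝ) ^ (-r.valuation)) ^ m.totient = ((p : ℝ) ^ (-1 : ℤ)) ^ (stab ζ).index := by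
    rw [← h1, ← h2, ← pow_mul, ← pow_mul, mul_comm]
  rw [← zpow_natCast, ← zpow_natCast, ← zpow_mul, ← zpow_mul] at h3
  have h4 : -r.valuation * (m.totient : ℤ) = -1 * ((stab ζ).index : ℤ) :=
    zpow_right_injective₀ hp0 hp1.ne' h3
  have h5 : ((m.totient : ℕ) : ℤ) ∣ (((stab ζ).index : ℕ) : ℤ) :=
    ⟨r.valuation, by linarith⟩
  exact Int.natCast_dvd_natCast.1 h5

end Same

/-! ### The index of the stabiliser has unbounded `p`-part -/

/-- for every `N` there is `n > 0` such that `p ^ N` divides the index of the stabiliser of every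
primitive `p ^ n`-th root of unity of `K̄_q`. -/
theorem exists_pow_dvd_index (p : ℕ) [hp : Fact p.Prime] (N : ℕ) :
    ∃ n : ℕ, 0 < n ∧ ∀ ζ : Kbar q, IsPrimitiveRoot ζ (p ^ n) → p ^ N ∣ (stab ζ).index := by
  by_cases hpq : p = q
  · subst hpq
    refine ⟨N + 1, Nat.succ_pos _, fun ζ hζ => ?_⟩
    have h := totient_dvd_index N hζ
    rw [Nat.totient_prime_pow_succ hp.out] at h
    exact (dvd_mul_right _ _).trans h
  · exact exists_pow_dvd_index_of_ne hp.out hpq N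

/-- **(NZ), group form.**  For every subgroup `U` of finite index of `G_q` there is `n > 0` such that
`p ∣ [U : V]` for every `V ≤ U` fixing a primitive `p ^ n`-th root of unity. -/
theorem exists_dvd_relIndex (p : ℕ) [hp : Fact p.Prime] (U : Subgroup (Gp q)) (hU : U.index ≠ 0) :
    ∃ n : ℕ, 0 < n ∧ ∀ ζ : Kbar q, IsPrimitiveRoot ζ (p ^ n) → ∀ V : Subgroup (Gp q), V ≤ U →
      V ≤ stab ζ → p ∣ V.relIndex U := by
  obtain ⟨n, hn0, hn⟩ := exists_pow_dvd_index (q := q) p (padicValNat p U.index + 1)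
  refine ⟨n, hn0, fun ζ hζ V hVU hVζ => ?_⟩
  have h1 : p ^ (padicValNat p U.index + 1) ∣ V.relIndex U * U.index := by
    rw [Subgroup.relIndex_mul_index hVU]
    exact (hn ζ hζ).trans (Subgroup.index_dvd_of_le hVζ)
  exact dvd_of_pow_dvd_mul hp.out h1 (pow_succ_padicValNat_not_dvd hU)

end

end Fermat.Agent.TW.NZLocal65
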