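/-
Programme TW (S56), sub-programme C (Greenberg–Wiles), brick C2 (tail), arithmetic input (helper65):

  `locDegInf : P20LocS44.DegInf (levelLocS q S).sets p`   for `p ∈ S`,

i.e. `p^∞` divides the degree of `(ℚ_S)_q / ℚ_q`: every normal level `U` of `Γ_q` coming from `G_S`
contains a normal level `V` coming from `G_S` with `p ∣ [U : V]` (`V` = level of `F · ℚ(μ_{p^n})`).
-/
import Mathlib
import Fermat.Agent.TW.NZLocal65
import Fermat.Agent.TW.P20LocS44
import Fermat.Agent.TW.TWP59.KeyAux24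
import Fermat.Agent.PT.GLUE.Objects21

set_option autoImplicit false

namespace Fermat.Agent.TW.NZLocS65

open Fermat.Agent.PT.GLUE.Objects21 ExtCitation Fermat.Agent.TW.B5.Iface
  Fermat.Agent.TW.SelAd24a Fermat.Agent.TW.TWP59.KeyAux24

local notation "Γ" => (AlgebraicClosure ℚ ≃ₐ[ℚ] AlgebraicClosure ℚ)
local notation "Qb" => AlgebraicClosure ℚ

variable (p : ℕ) [Fact p.Prime]

/-- `ℚ(ζ)` for a primitive `p^(k+1)`-th root of unity: unramified outside `p`. -/
theorem isUnramifiedOutside_adjoin {k : ℕ} {ζ : Qb} (hζ : IsPrimitiveRoot ζ (p ^ (k + 1))) :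
    (IntermediateField.adjoin ℚ {ζ}).IsUnramifiedOutside {pPrime p} := by
  refine ⟨IntermediateField.adjoin.finiteDimensional (Algebra.IsIntegral.isIntegral ζ), ?_⟩
  intro q hqS A hA g hg
  have hqp : (q : ℕ) ≠ p := by
    intro h
    apply hqS
    rw [Finset.mem_singleton]
    exact Subtype.ext h
  exact mem_fixingSubgroup_adjoin_simple (inertia_apply_rootOfUnity p q.2 hqp A hA hg hζ.pow_eq_one)

/-- the fixing subgroup of `ℚ(ζ)` is `Cn p k`. -/
theorem fixingSubgroup_adjoin {k : ℕ} {ζ : Qb} (hζ : IsPrimitiveRoot ζ (p ^ (k + 1))) :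
    (IntermediateField.adjoin ℚ {ζ}).fixingSubgroup = Cn p k := by
  have : NeZero (p ^ (k + 1)) := ⟨pow_ne_zero _ (Fact.out : p.Prime).ne_zero⟩
  ext σ
  constructor
  · intro hσ
    rw [mem_Cn_iff]
    intro t ht
    have hσζ : σ ζ = ζ := by
      rw [IntermediateField.mem_fixingSubgroup_iff] at hσ
      exact hσ ζ (IntermediateField.mem_adjoin_simple_self ℚ ζ)
    obtain ⟨i, _, rfl⟩ := hζ.eq_pow_of_pow_eq_one ht
    rw [map_pow, hσζ]
  · intro hσ
    rw [mem_Cn_iff] at hσ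
    exact mem_fixingSubgroup_adjoin_simple (hσ ζ hζ.pow_eq_one)

/-- **(NZ) for the intermediate local datum** `(Γ_q, levelLocS q S)`. -/
theorem locDegInf (S : Finset Nat.Primes) (hpS : pPrime p ∈ S) (q : ℕ) [Fact q.Prime] :
    Fermat.Agent.TW.P20LocS44.DegInf (levelLocS q S).sets p := by
  rintro _ ⟨_, ⟨F, hF, rfl⟩, rfl⟩ hUn
  have hUfin := (levelLocS q S).isBasis.finiteIndex
    (Subgroup.comap (localGaloisToGlobal q) F.fixingSubgroup) ⟨_, ⟨F, hF, rfl⟩, rfl⟩
  obtain ⟨n, hn0, hn⟩ := NZLocal65.exists_dvd_relIndex (q := q) p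
    (Subgroup.comap (localGaloisToGlobal q) F.fixingSubgroup) hUfin.index_ne_zero
  obtain ⟨k, rfl⟩ := Nat.exists_eq_succ_of_ne_zero hn0.ne'
  obtain ⟨ζ, hζ⟩ := Fermat.Agent.ES.J.CycloChar8.exists_primitiveRoot p (k + 1)
  have hζ' : IsPrimitiveRoot (padicEmbedding q ζ) (p ^ (k + 1)) :=
    hζ.map_of_injective (padicEmbedding q).toRingHom.injective
  have hE := isUnramifiedOutside_adjoin p hζ
  have hF' : (F ⊔ IntermediateField.adjoin ℚ {ζ}).IsUnramifiedOutside S :=
    hF.sup (hE.mono (Finset.singleton_subset_iff.2 hpS))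
  have hVeq : Subgroup.comap (localGaloisToGlobal q)
      (F ⊔ IntermediateField.adjoin ℚ {ζ}).fixingSubgroup =
      Subgroup.comap (localGaloisToGlobal q) F.fixingSubgroup ⊓
        Subgroup.comap (localGaloisToGlobal q) (Cn p k) := by
    rw [IntermediateField.fixingSubgroup_sup, Subgroup.comap_inf, fixingSubgroup_adjoin p hζ]
  refine ⟨_, ⟨_, ⟨F ⊔ IntermediateField.adjoin ℚ {ζ}, hF', rfl⟩, rfl⟩, ?_, ?_, ?_⟩
  · rw [hVeq]
    have h2 : (Subgroup.comap (localGaloisToGlobal q) (Cn p k)).Normal :=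
      (Cn_normal p k).comap _
    exact Subgroup.normal_inf_normal _ _
  · rw [hVeq]
    exact inf_le_left
  · refine hn _ hζ' _ (by rw [hVeq]; exact inf_le_left) ?_
    rw [hVeq]
    intro g hg
    have hg2 : localGaloisToGlobal q g ∈ Cn p k := hg.2
    rw [mem_Cn_iff] at hg2
    rw [NZLocal65.mem_stab, ← padicEmbedding_localGaloisToGlobal, hg2 ζ hζ.pow_eq_one]

end Fermat.Agent.TW.NZLocS65
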