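/-
Programme TW (S56), brick C2 (tail of Poitou–Tate), helper44.

`P20Acyclic44`: two more acyclicity statements for a finite group `G` (raw cochains), complementing
`PT/PRO/IndTN20` (`fun_H1`, `fun_H2`, `homFun_H0`, `homFun_H1`):

* `fun_H0`    : every invariant of `Fun(G, N)` (diagonal action) is a norm (`Ĥ⁰ = 0`);
* `homFun_H2` : `H²(G, Hom(Fun(G, N), C)) = 0`.
-/
import Mathlib
import Fermat.Agent.PT.PRO.IndTN20

set_option autoImplicit false
set_option linter.unusedSectionVars false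

namespace Fermat.Agent.TW.P20Acyclic44

open Fermat.Agent.PT.PRO.HyperLevel25 Fermat.Agent.PT.PRO.IndRes20 Fermat.Agent.PT.PRO.IndTN20

variable {k : Type*} [CommRing k] {G : Type*} [Group G] [Fintype G] [DecidableEq G]
variable {N : Type*} [AddCommGroup N] [Module k N] (ρ : Representation k G N)

/-- `Ĥ⁰(G, Fun(G, N)) = 0`: every invariant function is the norm of `δ₁ (φ 1)`. -/
theorem fun_H0 (φ : G → N) (hφ : ∀ g, diagRep ρ g φ = φ) :
    φ = ∑ g : G, diagRep ρ g (dl k 1 (φ 1)) := by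
  funext x
  rw [Finset.sum_apply]
  have h1 : ∀ g : G, diagRep ρ g (dl k 1 (φ 1)) x = if g = x then ρ x (φ 1) else 0 := by
    intro g
    rw [diagRep_dl, mul_one]
    simp only [dl, LinearMap.single_apply, Pi.single_apply]
    by_cases h : g = x
    · subst h; simp
    · have h' : x ≠ g := fun e => h e.symm
      simp [h, h']
  rw [Finset.sum_congr rfl (fun g _ => h1 g), Finset.sum_ite_eq' Finset.univ x]
  simp only [Finset.mem_univ, if_true]
  have h2 := congrFun (hφ x) x
  rw [diagRep_apply, inv_mul_cancel] at h2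
  exact h2.symm

variable {C : Type*} [AddCommGroup C] [Module k C] (ρC : Representation k G C)

/-- `H²(G, Hom(Fun(G, N), C)) = 0`. -/
theorem homFun_H2 (c : G × G → ((G → N) →ₗ[k] C)) (hc : dTwo (homFun ρ ρC) c = 0) :
    ∃ b : G → ((G → N) →ₗ[k] C), c = dOne (homFun ρ ρC) b := by
  refine ⟨fun g => ∑ x : G, homFun ρ ρC x (c (x⁻¹, g)) ∘ₗ dl k x ∘ₗ LinearMap.proj x, ?_⟩
  funext ⟨g, h⟩
  refine LinearMap.ext fun φ => ?_
  -- the value of `b` on a delta function
  have hb : ∀ (g y : G) (n : N),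
      (∑ x : G, homFun ρ ρC x (c (x⁻¹, g)) ∘ₗ dl k x ∘ₗ LinearMap.proj x) (dl k y n) =
        homFun ρ ρC y (c (y⁻¹, g)) (dl k y n) := by
    intro g y n
    rw [LinearMap.sum_apply, Finset.sum_eq_single y]
    · simp only [LinearMap.comp_apply, LinearMap.proj_apply, dl, LinearMap.single_apply,
        Pi.single_eq_same]
    · intro x _ hxy
      simp only [LinearMap.comp_apply, LinearMap.proj_apply, dl, LinearMap.single_apply,
        Pi.single_eq_of_ne hxy, map_zero]
    · intro hy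
      exact absurd (Finset.mem_univ y) hy
  -- the cocycle identity at `(y⁻¹, g, h)`
  have hcoc : ∀ y : G, c (g, h) = homFun ρ ρC y (c (y⁻¹ * g, h)) -
      homFun ρ ρC y (c (y⁻¹, g * h)) + homFun ρ ρC y (c (y⁻¹, g)) := by
    intro y
    have h0 := congrFun hc (y⁻¹, g, h)
    rw [dTwo_apply, Pi.zero_apply] at h0
    have h1 : homFun ρ ρC y⁻¹ (c (g, h)) =
        c (y⁻¹ * g, h) - c (y⁻¹, g * h) + c (y⁻¹, g) := by
      rw [← sub_eq_zero, ← h0]; abel
    have h2 := congrArg (homFun ρ ρC y) h1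
    rw [← Module.End.mul_apply, ← map_mul, mul_inv_cancel, map_one, Module.End.one_apply] at h2
    rw [h2, map_add, map_sub]
  -- it suffices to check on delta functions
  conv_lhs => rw [← sum_dl (k := k) φ, map_sum]
  conv_rhs => rw [← sum_dl (k := k) φ, map_sum]
  refine Finset.sum_congr rfl fun y _ => ?_
  rw [dOne_apply, LinearMap.add_apply, LinearMap.sub_apply, hb, hb]
  have h3 : homFun ρ ρC g (∑ x : G, homFun ρ ρC x (c (x⁻¹, h)) ∘ₗ dl k x ∘ₗ LinearMap.proj x)
      (dl k y (φ y)) = homFun ρ ρC y (c (y⁻¹ * g, h)) (dl k y (φ y)) := by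
    rw [Representation.linHom_apply, LinearMap.comp_apply, LinearMap.comp_apply, diagRep_dl, hb]
    have e1 : homFun ρ ρC y (c (y⁻¹ * g, h)) =
        homFun ρ ρC g (homFun ρ ρC (g⁻¹ * y) (c (y⁻¹ * g, h))) := by
      rw [← Module.End.mul_apply, ← map_mul, mul_inv_cancel_left]
    rw [e1, Representation.linHom_apply (ρV := diagRep ρ) (ρW := ρC) g, LinearMap.comp_apply,
      LinearMap.comp_apply, diagRep_dl]
    have e2 : (g⁻¹ * y)⁻¹ = y⁻¹ * g := by group
    rw [e2]
  rw [h3]
  conv_lhs => rw [hcoc y]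
  simp only [LinearMap.add_apply, LinearMap.sub_apply]

end Fermat.Agent.TW.P20Acyclic44
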