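/-
Programme TW (S56), sub-programme C, brick C2 (tail of Poitou–Tate), owner helper44.

`P20TailLoc44`: **the local input (H1) of the tail assembly (helper25's T6) at the S55 objects**
(`GLUE/Objects21`), for any raw resolution `R : IndRes20.Res ℤ Γ P1 P0 M` (`P₀`, `P₁` finite free,
`M` finite killed by `p`):

* kernels of the `(2,0)` pairing: `lk20At_unitsLoc` (full local datum `(Γ_q, levelLoc q, ℚ̄_qˣ)`),
  `lk20At_unitsLocS`, `rk20At_unitsLocS` (intermediate local datum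
  `(Γ_q, levelLocS q S, ((ℚ_S)_q)ˣ)`; the right kernel needs `LocDegInf p S q`: `p^∞` divides the
  local degree of `ℚ_S` at `q`, proved in `NZLoc94.DegInf.locDegInf`);
* counts: `card_ℍ2_unitsLoc_le`, `card_ℍ2_unitsLocS_eq`, `card_ℍ2_unitsLoc_eq`
  (`#ℍ²(Γ_q; K(P; ℚ̄_qˣ)) = #H⁰(Γ_q, M)`: local duality in degree `(2,0)`);
* **(H1)** `S2h_surjective`, `S2h_bijective` :
  `Λ²_q : ℍ²(Γ; K(P; I_{S,q})) → ℍ²(Γ_q; K(P; ℚ̄_qˣ))` is surjective / bijective.
-/
import Mathlib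
import Fermat.Agent.PT.GLUE.LocHyperFinal13
import Fermat.Agent.PT.GLUE.LocalFund11
import Fermat.Agent.PT.GLUE.LocS2_29
import Fermat.Agent.PT.PRO.InvFund18
import Fermat.Agent.TW.P20Obj44
import Fermat.Agent.TW.P20LocS44

set_option autoImplicit false

open CategoryTheory Module groupCohomology ExtCitation
open Fermat.Agent.PT Fermat.Agent.PT.PRO Fermat.Agent.PT.GLUE Fermat.Agent.PT.GLUE.Objects21
open Fermat.Agent.PT.PRO.HyperLevel25 Fermat.Agent.PT.PRO.Resolved4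
open Fermat.Agent.PT.PRO.HyperRes25 Fermat.Agent.PT.PRO.PairingRes1
open Fermat.Agent.PT.GLUE.LocS2_29
open Fermat.Agent.PT.PRO.IndRes20 Fermat.Agent.PT.PRO.Setup20 Fermat.Agent.PT.PRO.Objects20
open Fermat.Agent.PT.PRO.InvP4 Fermat.Agent.PT.PRO.GlobalHypP8
open Fermat.Agent.PT.GLUE.LocHyper13 Fermat.Agent.PT.BR.InfLocal13
open Fermat.Agent.TW.P20Obj44 Fermat.Agent.TW.P20Fund44 Fermat.Agent.TW.P20LocS44
open Fermat.Agent.TW.P20Count44 Fermat.Agent.TW.P20Pair44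

namespace Fermat.Agent.TW.P20TailLoc44

local notation "Γ" => (AlgebraicClosure ℚ ≃ₐ[ℚ] AlgebraicClosure ℚ)

variable {p : ℕ} [Fact p.Prime]

/-- **The arithmetic input** (now a theorem: `NZLoc94.DegInf.locDegInf`): `p^∞` divides the degree
of `(ℚ_S)_q / ℚ_q`, i.e. every normal level `U` of `Gal((ℚ_S)_q/ℚ_q)` contains a normal level `V`
with `p ∣ [U : V]`. -/
def LocDegInf (p : ℕ) (S : Finset Nat.Primes) (q : ℕ) [Fact q.Prime] : Prop :=
  DegInf (levelLocS q S).sets p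

/-! ### The local data -/

section Local

variable (S : Finset Nat.Primes) (q : ℕ) [Fact q.Prime]

theorem levelLocS_subset : (levelLocS q S).sets ⊆ (levelLoc q).sets := by
  rintro _ ⟨U, hU, rfl⟩
  exact ⟨U, levelSetS_subset_levelSetAll S hU, rfl⟩

/-- **Fundamental classes at all finite levels of the intermediate local datum**
`(Γ_q, levelLocS q S, ((ℚ_S)_q)ˣ)`. -/
theorem fundFixed_unitsLocS (p : ℕ) [Fact p.Prime] :
    FundHyp12.FundFixed (unitsLocS S q).ρ (levelLocS q S).sets p :=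
  fundFixed_of_isInvIncl (isInvIncl_inclS S q) p (levelLocS_subset S q) (isInfData_loc S q).N_le
    (LocalFund11.fundFixed_unitsLoc q p)

variable {P1 P0 M : Type} [AddCommGroup P1] [Module ℤ P1] [AddCommGroup P0] [Module ℤ P0]
  [AddCommGroup M] [Module ℤ M] [Module.Free ℤ P0] [Module.Finite ℤ P0] [Module.Free ℤ P1]
  [Module.Finite ℤ P1]
variable (R : IndRes20.Res ℤ Γ P1 P0 M) (h0 : IsDiscrete (levelS S).sets R.ρ0)
  (hpM : ∀ m : M, p • m = 0)
  (h𝒰q : IsLevelBasis (levelLoc q).sets) (h𝒰qS : IsLevelBasis (levelLocS q S).sets)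
  (hr : IsLevelHom (localGaloisToGlobal q) (levelLoc q).sets (levelS S).sets)
  (hrS : IsLevelHom (localGaloisToGlobal q) (levelLocS q S).sets (levelS S).sets)
  (hW : IsDiscrete (levelLoc q).sets (unitsLoc q).ρ)
  (hWS : IsDiscrete (levelLocS q S).sets (unitsLocS S q).ρ)

include hpM in
/-- **(LK20) for the full local datum** `(Γ_q, levelLoc q, ℚ̄_qˣ)`. -/
theorem lk20At_unitsLoc :
    LK20At (R.comap (localGaloisToGlobal q)) (comap_disc0 R h0 _ hr) h𝒰q (unitsLoc q).ρ hW :=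
  lk20At_of_hypL20Datum
    (hypL20Datum_of_isFundClass (R.comap (localGaloisToGlobal q)) (unitsLoc q).ρ h𝒰q hpM hW
      (trivFam_sub _ _) (trivFam_normal _ _)
      (trivFam_cofinal _ h𝒰q (comap_disc0 R h0 _ hr)) (trivFam_triv0 _ _)
      (LocalFund11.fundFixed_unitsLoc q p))

include hpM in
/-- **(LK20) for the intermediate local datum** `(Γ_q, levelLocS q S, ((ℚ_S)_q)ˣ)`. -/
theorem lk20At_unitsLocS :
    LK20At (R.comap (localGaloisToGlobal q)) (comap_disc0 R h0 _ hrS) h𝒰qS (unitsLocS S q).ρ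
      hWS :=
  lk20At_of_hypL20Datum
    (hypL20Datum_of_isFundClass (R.comap (localGaloisToGlobal q)) (unitsLocS S q).ρ h𝒰qS hpM hWS
      (trivFam_sub _ _) (trivFam_normal _ _)
      (trivFam_cofinal _ h𝒰qS (comap_disc0 R h0 _ hrS)) (trivFam_triv0 _ _)
      (fundFixed_unitsLocS S q p))

include hpM in
/-- **(RK20) for the intermediate local datum**, from `LocDegInf`. -/
theorem rk20At_unitsLocS (hdeg : LocDegInf p S q) :
    RK20At (R.comap (localGaloisToGlobal q)) (comap_disc0 R h0 _ hrS) h𝒰qS (unitsLocS S q).ρ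
      hWS :=
  rk20At_of_hypR20Datum
    (hypR20Datum_of_isFundClass (R.comap (localGaloisToGlobal q)) (unitsLocS S q).ρ h𝒰qS hpM hWS
      (trivFam_sub _ _) (trivFam_normal _ _)
      (trivFam_cofinal _ h𝒰qS (comap_disc0 R h0 _ hrS)) (trivFam_triv0 _ _)
      (fundFixed_unitsLocS S q p)
      (normZero_trivFam (R.comap (localGaloisToGlobal q)) h𝒰qS hpM hdeg))

/-- The invariant map of the full local datum. -/
theorem exists_inv_unitsLoc :
    ∃ τ : pTor p (Hlev2 h𝒰q (unitsLoc q).ρ hW) →+ ZMod p, Function.Injective τ :=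
  InvFund18.exists_inv_of_isFundClass (unitsLoc q).ρ h𝒰q hW (LocalFund11.fundFixed_unitsLoc q p)

/-- The invariant map of the intermediate local datum. -/
theorem exists_inv_unitsLocS :
    ∃ τ : pTor p (Hlev2 h𝒰qS (unitsLocS S q).ρ hWS) →+ ZMod p, Function.Injective τ :=
  InvFund18.exists_inv_of_isFundClass (unitsLocS S q).ρ h𝒰qS hWS (fundFixed_unitsLocS S q p)

include hpM in
/-- `#ℍ²(Γ_q; K(P; ℚ̄_qˣ)) ≤ #H⁰(Γ_q, M)`. -/
theorem card_ℍ2_unitsLoc_le [Finite M] :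
    Finite ((KX (R.comap (localGaloisToGlobal q)) (comap_disc0 R h0 _ hr) h𝒰q (unitsLoc q).ρ
      hW).ℍ2 h𝒰q) ∧
    Nat.card ((KX (R.comap (localGaloisToGlobal q)) (comap_disc0 R h0 _ hr) h𝒰q (unitsLoc q).ρ
      hW).ℍ2 h𝒰q) ≤
      Nat.card (Hlev0 h𝒰q (R.comap (localGaloisToGlobal q)).ρM
        (toResolved (R.comap (localGaloisToGlobal q)) (comap_disc0 R h0 _ hr)).discM) := by
  obtain ⟨τ, hτ⟩ := exists_inv_unitsLoc (p := p) q h𝒰q hW
  have : Finite (Hlev0 h𝒰q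
      (toResolved (R.comap (localGaloisToGlobal q)) (comap_disc0 R h0 _ hr)).ρM
      (toResolved (R.comap (localGaloisToGlobal q)) (comap_disc0 R h0 _ hr)).discM) :=
    finite_Hlev0 h𝒰q _ _
  obtain ⟨hfin, hle, -⟩ := card_ℍ2_le
    (evP (R.comap (localGaloisToGlobal q)) (comap_disc0 R h0 _ hr) h𝒰q (unitsLoc q).ρ hW)
    h𝒰q hW hpM τ hτ (lk20At_unitsLoc S q R h0 hpM h𝒰q hr hW)
  exact ⟨hfin, hle⟩

include hpM in
/-- `#ℍ²(Γ_q; K(P; ((ℚ_S)_q)ˣ)) = #H⁰(Γ_q, M)`. -/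
theorem card_ℍ2_unitsLocS_eq [Finite M] (hdeg : LocDegInf p S q) :
    Finite ((KX (R.comap (localGaloisToGlobal q)) (comap_disc0 R h0 _ hrS) h𝒰qS
      (unitsLocS S q).ρ hWS).ℍ2 h𝒰qS) ∧
    Nat.card ((KX (R.comap (localGaloisToGlobal q)) (comap_disc0 R h0 _ hrS) h𝒰qS
      (unitsLocS S q).ρ hWS).ℍ2 h𝒰qS) =
      Nat.card (Hlev0 h𝒰qS (R.comap (localGaloisToGlobal q)).ρM
        (toResolved (R.comap (localGaloisToGlobal q)) (comap_disc0 R h0 _ hrS)).discM) := by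
  obtain ⟨τ, hτ⟩ := exists_inv_unitsLocS (p := p) S q h𝒰qS hWS
  have : Finite (Hlev0 h𝒰qS
      (toResolved (R.comap (localGaloisToGlobal q)) (comap_disc0 R h0 _ hrS)).ρM
      (toResolved (R.comap (localGaloisToGlobal q)) (comap_disc0 R h0 _ hrS)).discM) :=
    finite_Hlev0 h𝒰qS _ _
  exact card_ℍ2_eq
    (evP (R.comap (localGaloisToGlobal q)) (comap_disc0 R h0 _ hrS) h𝒰qS (unitsLocS S q).ρ hWS)
    h𝒰qS hWS hpM τ hτ (lk20At_unitsLocS S q R h0 hpM h𝒰qS hrS hWS)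
    (rk20At_unitsLocS S q R h0 hpM h𝒰qS hrS hWS hdeg)

include hpM in
/-- **By-product (local duality in degree `(2,0)`)**: `#ℍ²(Γ_q; K(P; ℚ̄_qˣ)) = #H⁰(Γ_q, M)`. -/
theorem card_ℍ2_unitsLoc_eq [Finite M] (hdeg : LocDegInf p S q) :
    Nat.card ((KX (R.comap (localGaloisToGlobal q)) (comap_disc0 R h0 _ hr) h𝒰q (unitsLoc q).ρ
      hW).ℍ2 h𝒰q) =
      Nat.card (Hlev0 h𝒰q (R.comap (localGaloisToGlobal q)).ρM
        (toResolved (R.comap (localGaloisToGlobal q)) (comap_disc0 R h0 _ hr)).discM) := by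
  classical
  have h𝒰qS : IsLevelBasis (levelLocS q S).sets :=
    LevelCompare13.isLevelBasis_iff.1 (levelLocS q S).isBasis
  have hrS : IsLevelHom (localGaloisToGlobal q) (levelLocS q S).sets (levelS S).sets :=
    LocI13.isLevelHom_levelLocS S q
  have hWS : IsDiscrete (levelLocS q S).sets (unitsLocS S q).ρ := isDiscrete_unitsLocS S q
  obtain ⟨hfin, hle⟩ := card_ℍ2_unitsLoc_le S q R h0 hpM h𝒰q hr hW
  obtain ⟨-, heq⟩ := card_ℍ2_unitsLocS_eq S q R h0 hpM h𝒰qS hrS hWS hdeg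
  have hH0 := card_Hlev0_eq h𝒰q h𝒰qS (R.comap (localGaloisToGlobal q)).ρM
    (toResolved (R.comap (localGaloisToGlobal q)) (comap_disc0 R h0 _ hr)).discM
    (toResolved (R.comap (localGaloisToGlobal q)) (comap_disc0 R h0 _ hrS)).discM
  refine le_antisymm hle ?_
  rw [hH0, ← heq]
  haveI : Finite (((PairingRes1.comapResolved (localGaloisToGlobal q) hr (toResolved R h0)).K h𝒰q
      (unitsLoc q).ρ hW).ℍ2 h𝒰q) := hfin
  exact Nat.card_le_card_of_injective _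
    (InfLevelMap13.infℍ2_injective (isInfData_loc S q)
      (isInvInclCx_loc (localGaloisToGlobal q) (levelS S) (isInvIncl_inclS S q) (toResolved R h0)
        h𝒰q h𝒰qS hr hrS (isInfData_loc S q) hW hWS) h𝒰q h𝒰qS
      (h90_loc (localGaloisToGlobal q) (levelS S) (toResolved R h0) h𝒰q hr hrS
        (isInfData_loc S q) hW (h90_unitsLoc S q)))

end Local

end Fermat.Agent.TW.P20TailLoc44
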