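/-
Programme TW (S56), brick C3-(iii)h (helper68): permutation lattices.
If the rational permutation representations `ℚ[X]` and `ℚ[Y]` of two finite `G`-sets are
isomorphic, every additive function takes the same value on `𝔽_p[X]` and `𝔽_p[Y]`
(`map_permRep_eq_of_equiv`).
Pure Mathlib + AddFun68 + ZForm68 + Lattice68 + PermRep68.
-/
import Fermat.Agent.TW.Lattice68
import Fermat.Agent.TW.PermRep68

set_option autoImplicit false
set_option linter.style.haveILetI false
set_option linter.unusedSectionVars false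

namespace Fermat.Agent.TW.PermLattice68

open Representation Fermat.Agent.TW.AddFun68 Fermat.Agent.TW.ZForm68 Fermat.Agent.TW.Lattice68
  Fermat.Agent.TW.PermRep68

variable {p : ℕ} [Fact p.Prime] (G : Type) [Group G]

section lattice

variable (X : Type) [MulAction G X]

/-- The `ℤ`-linear action of `G` on `X → ℚ`. -/
def qRep : Representation ℤ G (X → ℚ) where
  toFun g := (permRep ℚ G X g).restrictScalars ℤ
  map_one' := by ext u x; simp
  map_mul' g h := by ext u x; simp

theorem qRep_apply (g : G) (u : X → ℚ) (x : X) : qRep G X g u x = u (g⁻¹ • x) := rfl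

/-- The `ℤ`-linear action of `G` on `X → ℤ`. -/
def zRep : Representation ℤ G (X → ℤ) := permRep ℤ G X

theorem zRep_apply (g : G) (u : X → ℤ) (x : X) : zRep G X g u x = u (g⁻¹ • x) := rfl

/-- Coordinatewise cast `ℤ^X → ℚ^X`. -/
def castMap : (X → ℤ) →ₗ[ℤ] (X → ℚ) := (Int.castAddHom ℚ).toIntLinearMap.compLeft X

theorem castMap_apply (u : X → ℤ) (x : X) : castMap X u x = (u x : ℚ) := rfl

theorem castMap_injective : Function.Injective (castMap X) :=
  fun _ _ h => funext fun x => Int.cast_injective (congrFun h x)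

theorem castMap_equivariant (g : G) (u : X → ℤ) :
    castMap X (zRep G X g u) = qRep G X g (castMap X u) := rfl

/-- The standard lattice `ℤ^X ⊆ ℚ^X`. -/
def intL : Submodule ℤ (X → ℚ) := (⊤ : Submodule ℤ (X → ℤ)).map (castMap X)

theorem mem_intL {v : X → ℚ} : v ∈ intL X ↔ ∃ u : X → ℤ, castMap X u = v := by
  simp [intL]

theorem castMap_mem_intL (u : X → ℤ) : castMap X u ∈ intL X := (mem_intL X).mpr ⟨u, rfl⟩

theorem stable_top : Stable (zRep G X) ⊤ := fun _ _ _ => trivial

theorem stable_intL : Stable (qRep G X) (intL X) :=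
  stable_map (castMap_equivariant G X) (stable_top G X)

theorem intL_fg [Finite X] : (intL X).FG :=
  Module.Finite.fg_top.map _

/-- Reduction mod `p`, `ℤ^X → (ZMod p)^X`, on the top submodule. -/
def redMap : ↥(⊤ : Submodule ℤ (X → ℤ)) →ₗ[ℤ] (X → ZMod p) :=
  ((Int.castAddHom (ZMod p)).toIntLinearMap.compLeft X) ∘ₗ (⊤ : Submodule ℤ (X → ℤ)).subtype

theorem redMap_apply (u : ↥(⊤ : Submodule ℤ (X → ℤ))) (x : X) :
    redMap (p := p) X u x = ((u : X → ℤ) x : ZMod p) := rfl

theorem redMap_surjective : Function.Surjective (redMap (p := p) X) := by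
  intro w
  choose u hu using fun x => ZMod.intCast_surjective (w x)
  refine ⟨⟨u, trivial⟩, ?_⟩
  funext x
  rw [redMap_apply, hu]

theorem ker_redMap :
    LinearMap.ker (redMap (p := p) X) = (nS p (⊤ : Submodule ℤ (X → ℤ))).submoduleOf ⊤ := by
  ext ⟨u, hu⟩
  rw [LinearMap.mem_ker]
  change _ ↔ u ∈ nS p (⊤ : Submodule ℤ (X → ℤ))
  rw [mem_nS]
  constructor
  · intro h
    have hdvd : ∀ x, (p : ℤ) ∣ u x := by
      intro x
      have := congrFun h x
      rw [redMap_apply] at this
      exact (ZMod.intCast_zmod_eq_zero_iff_dvd _ _).mp this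
    choose u' hu' using hdvd
    refine ⟨u', trivial, ?_⟩
    funext x
    simp only [Pi.smul_apply, hu', nsmul_eq_mul]
  · rintro ⟨u', -, hb⟩
    funext x
    rw [redMap_apply]
    have := congrFun hb x
    simp only [Pi.smul_apply, nsmul_eq_mul] at this
    change ((u x : ℤ) : ZMod p) = 0
    rw [← this]
    simp

variable {G} in
/-- The reduction of `ℤ^X` is the permutation representation over `ZMod p`. -/
theorem redVal_top [Finite X] {f : RepFun p G} (hf : IsAdditiveFun p G f) :
    redVal f (zRep G X) ⊤ (stable_top G X) = f (X → ZMod p) (permRep (ZMod p) G X) := by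
  rw [← zForm_ofZModRep f (permRep (ZMod p) G X)]
  unfold redVal
  haveI := sq_finite (p := p) (Module.Finite.fg_top (R := ℤ) (M := X → ℤ))
    (pLe_nS (⊤ : Submodule ℤ (X → ℤ)))
  refine zForm_equiv hf _ _ _ _
    ((Submodule.quotEquivOfEq _ _ (ker_redMap (p := p) X).symm).trans
      ((redMap (p := p) X).quotKerEquivOfSurjective (redMap_surjective X))).toAddEquiv ?_
  intro g x
  induction x using Submodule.Quotient.induction_on with
  | _ x => rfl

variable {G} in
/-- The reduction of the standard lattice is the permutation representation over `ZMod p`. -/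
theorem redVal_intL [Finite X] {f : RepFun p G} (hf : IsAdditiveFun p G f) :
    redVal f (qRep G X) (intL X) (stable_intL G X) =
      f (X → ZMod p) (permRep (ZMod p) G X) := by
  rw [← redVal_top X hf]
  exact redVal_map hf (castMap X) (castMap_injective X) (castMap_equivariant G X)
    (stable_top G X) Module.Finite.fg_top

end lattice

section denominators

variable (X : Type) [Fintype X]

theorem exists_nsmul_mem_intL (v : X → ℚ) : ∃ N : ℕ, N ≠ 0 ∧ N • v ∈ intL X := by
  refine ⟨∏ x, (v x).den, ?_, ?_⟩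
  · exact Finset.prod_ne_zero_iff.mpr fun x _ => (v x).den_nz
  · refine (mem_intL X).mpr ⟨fun x => (((∏ y, (v y).den) / (v x).den : ℕ) : ℤ) * (v x).num, ?_⟩
    funext x
    have hdvd : (v x).den ∣ ∏ y, (v y).den := Finset.dvd_prod_of_mem _ (Finset.mem_univ x)
    obtain ⟨c, hc⟩ := hdvd
    have hpos : 0 < (v x).den := (v x).den_pos
    rw [castMap_apply, Pi.smul_apply, hc, Nat.mul_div_cancel_left c hpos]
    push_cast
    rw [nsmul_eq_mul]
    push_cast
    have := Rat.mul_den_eq_num (v x)
    calc (c : ℚ) * ((v x).num : ℚ) = c * (v x * (v x).den) := by rw [this]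
      _ = ((v x).den : ℚ) * c * v x := by ring

theorem exists_nsmul_le_intL (A : Submodule ℤ (X → ℚ)) (hA : A.FG) :
    ∃ N : ℕ, N ≠ 0 ∧ ∀ a ∈ A, N • a ∈ intL X := by
  classical
  obtain ⟨s, rfl⟩ := hA
  choose Nv hNv0 hNv using exists_nsmul_mem_intL X
  refine ⟨∏ v ∈ s, Nv v, Finset.prod_ne_zero_iff.mpr fun v _ => hNv0 v, ?_⟩
  intro a ha
  induction ha using Submodule.span_induction with
  | mem v hv =>
    obtain ⟨c, hc⟩ := Finset.dvd_prod_of_mem Nv hv
    rw [hc, mul_comm, mul_smul]
    exact (intL X).smul_of_tower_mem c (hNv v)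
  | zero => rw [smul_zero]; exact (intL X).zero_mem
  | add x y _ _ hx hy => rw [smul_add]; exact (intL X).add_mem hx hy
  | smul c x _ hx => rw [smul_comm]; exact (intL X).smul_mem c hx

end denominators

section main

variable {G} {f : RepFun p G}

/-- **Comparison of permutation modules.**  If `ℚ[X] ≅ ℚ[Y]` as `G`-representations, then every
additive function takes the same value on `𝔽_p[X]` and `𝔽_p[Y]`. -/
theorem map_permRep_eq_of_equiv (hf : IsAdditiveFun p G f) (X Y : Type) [Fintype X] [Fintype Y]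
    [MulAction G X] [MulAction G Y] (φ : (permRep ℚ G X).Equiv (permRep ℚ G Y)) :
    f (X → ZMod p) (permRep (ZMod p) G X) = f (Y → ZMod p) (permRep (ZMod p) G Y) := by
  rw [← redVal_intL X hf, ← redVal_intL Y hf]
  -- the ℤ-linear versions of φ and φ⁻¹
  let Φ : (X → ℚ) →ₗ[ℤ] (Y → ℚ) := φ.toLinearEquiv.toLinearMap.restrictScalars ℤ
  let Ψ : (Y → ℚ) →ₗ[ℤ] (X → ℚ) := φ.toLinearEquiv.symm.toLinearMap.restrictScalars ℤ
  have hΦΨ : ∀ y, Φ (Ψ y) = y := fun y => φ.toLinearEquiv.apply_symm_apply y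
  have hΦinj : Function.Injective Φ := φ.toLinearEquiv.injective
  have hΦeq : ∀ g x, Φ (qRep G X g x) = qRep G Y g (Φ x) := fun g x =>
    φ.toIntertwiningMap.isIntertwining _ _ g x
  -- the lattices
  let A' : Submodule ℤ (Y → ℚ) := (intL X).map Φ
  have hA' : Stable (qRep G Y) A' := stable_map hΦeq (stable_intL G X)
  let A : Submodule ℤ (Y → ℚ) := intL Y ⊔ A'
  have hA : Stable (qRep G Y) A := stable_sup (stable_intL G Y) hA'
  have hAfg : A.FG := (intL_fg Y).sup ((intL_fg X).map Φ)
  obtain ⟨N₁, hN₁, hN₁A⟩ := exists_nsmul_le_intL Y A hAfg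
  obtain ⟨N₂, hN₂, hN₂A⟩ := exists_nsmul_le_intL X (A.map Ψ) (hAfg.map Ψ)
  have h1 : redVal f (qRep G Y) (intL Y) (stable_intL G Y) = redVal f (qRep G Y) A hA :=
    redVal_eq_of_le hf _ _ le_sup_left hAfg N₁ hN₁ hN₁A
  have h2 : redVal f (qRep G Y) A' hA' = redVal f (qRep G Y) A hA := by
    refine redVal_eq_of_le hf _ _ le_sup_right hAfg N₂ hN₂ ?_
    intro a ha
    have := hN₂A (Ψ a) ⟨a, ha, rfl⟩
    refine ⟨N₂ • Ψ a, this, ?_⟩
    rw [map_nsmul, hΦΨ]
  have h3 : redVal f (qRep G Y) A' hA' = redVal f (qRep G X) (intL X) (stable_intL G X) :=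
    redVal_map hf Φ hΦinj hΦeq (stable_intL G X) (intL_fg X)
  rw [h1, ← h2, h3]

end main

end Fermat.Agent.TW.PermLattice68
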