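/-
Programme TW (S56), brick B5, glue (H) → (R) (helper48): `B5.Iface.FontainePm p K₀ L`
(shape of the Hopf-algebra side, `K₀ ≤ L`) implies `Ram50.Converse.PmHyp 𝒪_L A p`
(shape consumed by the ramification chapter), `A = 𝒪_L ∩ K₀` as a subring of `𝒪_L`.
-/
import Mathlib
import Fermat.Agent.TW.B5.Iface
import Fermat.Agent.TW.Ram50.Converse

set_option autoImplicit false
set_option linter.unusedSectionVars false
set_option linter.style.haveILetI false

open IsLocalRing IsDiscreteValuationRing
open Fermat.Agent.TW.B5.Iface Fermat.Agent.TW.Ram50.Converse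

namespace Fermat.Agent.TW.PmGlue48

noncomputable section

variable (p : ℕ) [hp : Fact p.Prime]

/-- The integers of `L` lying in `K₀`, as a subring of `𝒪_L`. -/
def baseSubring (K₀ L : IntermediateField ℚ_[p] (Kbar p)) : Subring (intSubring p L) :=
  (intSubring p K₀).comap (intSubring p L).subtype

variable (K₀ L : IntermediateField ℚ_[p] (Kbar p))

theorem mem_baseSubring_iff (b : intSubring p L) :
    b ∈ baseSubring p K₀ L ↔ (b : Kbar p) ∈ intSubring p K₀ := Iff.rfl

/-- `𝒪_L ∩ K₀ → 𝒪_{K₀}`. -/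
def toBase : baseSubring p K₀ L →+* intSubring p K₀ where
  toFun a := ⟨((a : intSubring p L) : Kbar p), a.2⟩
  map_one' := rfl
  map_mul' _ _ := rfl
  map_zero' := rfl
  map_add' _ _ := rfl

/-- `𝒪_{K₀} → 𝒪_L ∩ K₀` for `K₀ ≤ L`. -/
def ofBase (hle : K₀ ≤ L) : intSubring p K₀ →+* baseSubring p K₀ L where
  toFun a := ⟨⟨(a : Kbar p), ⟨hle a.2.1, a.2.2⟩⟩, a.2⟩
  map_one' := rfl
  map_mul' _ _ := rfl
  map_zero' := rfl
  map_add' _ _ := rfl

theorem ofBase_toBase (hle : K₀ ≤ L) (a : baseSubring p K₀ L) :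
    ofBase p K₀ L hle (toBase p K₀ L a) = a := rfl

theorem ofBase_surjective (hle : K₀ ≤ L) : Function.Surjective (ofBase p K₀ L hle) :=
  fun a => ⟨toBase p K₀ L a, rfl⟩

theorem ofBase_injective (hle : K₀ ≤ L) : Function.Injective (ofBase p K₀ L hle) := by
  intro a b h
  apply Subtype.ext
  exact congrArg (fun x : baseSubring p K₀ L => ((x : intSubring p L) : Kbar p)) h

/-- **Glue.**  `(P_m)` in the shape of `B5.Iface` gives `(P_m)` in the shape of `Ram50`. -/
theorem pmHyp_of_fontainePm (hle : K₀ ≤ L) (h : FontainePm p K₀ L) :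
    PmHyp (intSubring p L) (baseSubring p K₀ L) p := by
  intro C _ _ _ _ _ hinj N hN hη
  obtain ⟨η⟩ := hη
  letI algAC : Algebra (intSubring p K₀) C :=
    ((algebraMap (baseSubring p K₀ L) C).comp (ofBase p K₀ L hle)).toAlgebra
  have hAinj : Function.Injective (algebraMap (intSubring p K₀) C) :=
    hinj.comp (ofBase_injective p K₀ L hle)
  haveI : Module.Finite (intSubring p K₀) C := by
    letI : Algebra (intSubring p K₀) (baseSubring p K₀ L) := (ofBase p K₀ L hle).toAlgebra
    haveI : IsScalarTower (intSubring p K₀) (baseSubring p K₀ L) C :=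
      IsScalarTower.of_algebraMap_eq (fun _ => rfl)
    haveI : Module.Finite (intSubring p K₀) (baseSubring p K₀ L) :=
      Module.Finite.of_surjective
        (Algebra.linearMap (intSubring p K₀) (baseSubring p K₀ L)) (ofBase_surjective p K₀ L hle)
    exact Module.Finite.trans (baseSubring p K₀ L) C
  haveI : NoZeroSMulDivisors (intSubring p K₀) C := ⟨fun {c x} hcx => by
    rw [Algebra.smul_def] at hcx
    rcases mul_eq_zero.mp hcx with h0 | h0
    · exact Or.inl (hAinj (by rw [h0, map_zero]))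
    · exact Or.inr h0⟩
  -- the valuation of `p`
  have hpC0 : (p : C) ≠ 0 := by
    have h1 : (p : C) = algebraMap (intSubring p K₀) C ((p : ℕ) : intSubring p K₀) := by
      rw [map_natCast]
    rw [h1]
    intro h0
    have h2 : ((p : ℕ) : intSubring p K₀) = 0 := hAinj (by rw [h0, map_zero])
    have h3 : ((p : ℕ) : Kbar p) = 0 := by
      have := congrArg (fun x : intSubring p K₀ => (x : Kbar p)) h2
      simpa using this
    exact (Nat.cast_ne_zero.mpr hp.out.ne_zero) h3
  obtain ⟨ϖ, hϖ⟩ := exists_irreducible C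
  obtain ⟨e, u, hu⟩ := eq_unit_mul_pow_irreducible hpC0 hϖ
  have hval : addVal C (p : C) = e := by rw [hu, addVal_def' u hϖ e]
  have heC : Ideal.span {(p : C)} = IsLocalRing.maximalIdeal C ^ e := by
    rw [hϖ.maximalIdeal_eq, Ideal.span_singleton_pow, hu]
    exact Ideal.span_singleton_mul_left_unit u.isUnit _
  have hN' : p * e < (p - 1) * N := by
    rw [hval] at hN
    exact_mod_cast hN
  obtain ⟨ι, hι⟩ := h C N e heC hN' (η : intSubring p L →+* C ⧸ IsLocalRing.maximalIdeal C ^ N) (by
    intro a ha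
    have h1 : (⟨(a : Kbar p), ha⟩ : intSubring p L) =
        algebraMap (baseSubring p K₀ L) (intSubring p L) (ofBase p K₀ L hle a) := rfl
    rw [h1]
    exact η.commutes _)
  refine ⟨{ toRingHom := ι, commutes' := fun a => ?_ }⟩
  have h1 : algebraMap (baseSubring p K₀ L) (intSubring p L) a =
      ⟨((toBase p K₀ L a : intSubring p K₀) : Kbar p), (a : intSubring p L).2⟩ := rfl
  show ι (algebraMap (baseSubring p K₀ L) (intSubring p L) a) = _
  rw [h1, hι (toBase p K₀ L a) (a : intSubring p L).2]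
  rfl

end

end Fermat.Agent.TW.PmGlue48
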