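/-
Programme TW (S56), pillar (S): clauses (3) and (4) of `SIface72.Bridge`, GIVEN clause (1)
(`toAd0 c` is a level-`T` cocycle) as a hypothesis (helper57).

* `cohomologous_of_cls_eq` : equal classes ⇒ `Cohomologous`;
* `cohomologous_zero_of_cls_eq_zero` : trivial class ⇒ `Cohomologous 0 c`.
-/
import Mathlib
import Fermat.Agent.TW.SBridgeLoc57

set_option autoImplicit false
set_option linter.unusedSectionVars false

open ExtCitation groupCohomology
open Fermat.Agent.PT.PRO Fermat.Agent.PT.BR Fermat.Agent.PT.BR.LevelBridge13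
open Fermat.Agent.TW.Interface Fermat.Agent.TW.GWIface97
open Fermat.Agent.TW.SDefs72 Fermat.Agent.TW.LocCls57

namespace Fermat.Agent.TW.SBridgeGlob57

local notation "Γ" => (AlgebraicClosure ℚ ≃ₐ[ℚ] AlgebraicClosure ℚ)

variable {k : Type} [Field k] (ρbar : ResidualGaloisRep k) (p : ℕ) [Fact p.Prime]
  (hchar : ((p : ℕ) : k) = 0)

/-- A trace-zero cochain whose `toAd0` is a coboundary is a coboundary. -/
theorem exists_of_mem_coboundaries {c : Γ → Module.End k ρbar.V}
    (hc : ∀ σ, LinearMap.trace k ρbar.V (c σ) = 0)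
    (h : toAd0 ρbar p hchar c ∈ coboundaries₁ (ad0F ρbar p hchar)) :
    ∃ X : Module.End k ρbar.V, LinearMap.trace k ρbar.V X = 0 ∧
      ∀ σ : Γ, c σ = conj ρbar σ X - X := by
  obtain ⟨x, hx⟩ := h
  refine ⟨ad0F.val ρbar p hchar x, Ad0.trace_val _, fun σ => ?_⟩
  have h1 := congrFun hx σ
  have h2 := congrArg (ad0F.val ρbar p hchar) h1
  rw [val_toAd0 ρbar p hchar hc] at h2
  rw [← h2]
  rfl

/-- **Clause (4) of `SIface72.Bridge`** (given clause (1)). -/
theorem cohomologous_zero_of_cls_eq_zero (T : Finset ℕ) {c : Γ → Module.End k ρbar.V}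
    (hc : IsDefCocycle ρbar c)
    (hZ : toAd0 ρbar p hchar c ∈ LevelCoh28.Z1 (globalBasis (toPrimes T)) (ad0F ρbar p hchar))
    (h0 : cls ρbar p hchar T c = 0) : Cohomologous ρbar 0 c := by
  rw [SBridgeLoc57.cls_eq ρbar p hchar T hZ, LevelCoh28.H1mk_eq_zero_iff] at h0
  obtain ⟨X, -, hX⟩ := exists_of_mem_coboundaries ρbar p hchar hc.trace_eq_zero h0
  exact ⟨X, fun σ => by rw [Pi.zero_apply, sub_zero, hX σ]⟩

/-- **Clause (3) of `SIface72.Bridge`** (given clause (1)). -/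
theorem cohomologous_of_cls_eq (T : Finset ℕ) {c c' : Γ → Module.End k ρbar.V}
    (hc : IsDefCocycle ρbar c) (hc' : IsDefCocycle ρbar c')
    (hZ : toAd0 ρbar p hchar c ∈ LevelCoh28.Z1 (globalBasis (toPrimes T)) (ad0F ρbar p hchar))
    (hZ' : toAd0 ρbar p hchar c' ∈ LevelCoh28.Z1 (globalBasis (toPrimes T)) (ad0F ρbar p hchar))
    (h : cls ρbar p hchar T c = cls ρbar p hchar T c') : Cohomologous ρbar c c' := by
  rw [SBridgeLoc57.cls_eq ρbar p hchar T hZ, SBridgeLoc57.cls_eq ρbar p hchar T hZ', eq_comm,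
    ← sub_eq_zero, ← map_sub, LevelCoh28.H1mk_eq_zero_iff] at h
  have hd : IsDefCocycle ρbar (c' - c) := isDefCocycle_sub hc' hc
  have hsub : toAd0 ρbar p hchar (c' - c) = toAd0 ρbar p hchar c' - toAd0 ρbar p hchar c := by
    have := toAd0_add ρbar p hchar hd.trace_eq_zero hc.trace_eq_zero
    rw [sub_add_cancel] at this
    rw [this, add_sub_cancel_right]
  have h' : toAd0 ρbar p hchar (c' - c) ∈ coboundaries₁ (ad0F ρbar p hchar) := by
    rw [hsub]
    exact h
  obtain ⟨X, -, hX⟩ := exists_of_mem_coboundaries ρbar p hchar hd.trace_eq_zero h'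
  exact ⟨X, fun σ => by rw [← hX σ, Pi.sub_apply]⟩

end Fermat.Agent.TW.SBridgeGlob57
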