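/-
Programme TW (S56), sub-programme C, brick C2 (tail of Poitou–Tate), owners helper44 + helper25.

`TailEq44.tailEq` : **`GWIface2_97.TailEq S M`, UNCONDITIONALLY** (for `p ≠ 2`, `p ∈ S`, `M` good):
`dim im(H²(G_S, M) → ∏_{q ∈ S} H²(ℚ_q, M)) + h⁰(G_ℚ, M^∨(1)) = ∑_{q ∈ S} h²(ℚ_q, M)`.

Wiring of
* helper25's tail assembly `GWTail25E.tailEq_of_P20`,
* the `(2,0)`-track inputs (H1) `P20TailH1_44.S2h_surjective` + `P20TailLoc44.card_ℍ2_unitsLoc_le`
  and (H2) `P20Tail44.card_range_toCS`,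
* the arithmetic input `NZLoc94.DegInf.locDegInf` (helper94): `p^∞` divides the local degree of
  `ℚ_S` at every prime `q`.
-/
import Mathlib
import Fermat.Agent.TW.GWTail25E
import Fermat.Agent.TW.P20Tail44
import Fermat.Agent.TW.P20TailH1_44
import Fermat.Agent.TW.NZLoc94.DegInf

set_option autoImplicit false

namespace Fermat.Agent.TW.TailEq44

open Function CategoryTheory Module groupCohomology ExtCitation
open Fermat.Agent.PT Fermat.Agent.PT.PRO Fermat.Agent.PT.GLUE Fermat.Agent.PT.GLUE.Objects21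
open Fermat.Agent.PT.PRO.HyperLevel25 Fermat.Agent.PT.PRO.Resolved4
open Fermat.Agent.PT.PRO.HyperRes25 Fermat.Agent.PT.PRO.PairingRes1
open Fermat.Agent.PT.PRO.IntRep20 Fermat.Agent.PT.PRO.LevelEquiv29
open Fermat.Agent.PT.PRO.ProdDict10 Fermat.Agent.PT.GLUE.LocS2_29
open Fermat.Agent.PT.PRO.IndRes20 Fermat.Agent.PT.PRO.Setup20 Fermat.Agent.PT.PRO.Objects20
open Fermat.Agent.TW.GWIface97 Fermat.Agent.TW.GWIface2_97
open Fermat.Agent.TW.P20TailLoc44 Fermat.Agent.TW.P20TailGlob44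

local notation "Γ" => (AlgebraicClosure ℚ ≃ₐ[ℚ] AlgebraicClosure ℚ)

variable {p : ℕ} [Fact p.Prime]

/-- `LocDegInf` holds at every prime as soon as `p ∈ S` (helper94). -/
theorem locDegInf {S : Finset Nat.Primes} (hpS : pPrime p ∈ S) (q : ℕ) [Fact q.Prime] :
    LocDegInf p S q :=
  Fermat.Agent.TW.NZLoc94.DegInf.locDegInf p S hpS q

/-- **(C2) the tail of the Poitou–Tate sequence, both halves, unconditionally.** -/
theorem tailEq (hp2 : p ≠ 2) {S : Finset Nat.Primes} (hpS : pPrime p ∈ S)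
    {M : Rep.{0} (ZMod p) Γ} (hM : IsGood S M) : TailEq S M :=
  GWTail25E.tailEq_of_P20 hpS hM
    (fun A _ _ h0 q =>
      ⟨(card_ℍ2_unitsLoc_le S ((q : Nat.Primes) : ℕ) (HpAt29.freeRes (IntRep20.intRep A)) h0
          (nsmul_eq_zero_rep A) (basis (levelLoc ((q : Nat.Primes) : ℕ)))
          (isLevelHom_loc S ((q : Nat.Primes) : ℕ))
          (isDiscrete_unitsLoc ((q : Nat.Primes) : ℕ))).1,
        P20TailH1_44.S2h_surjective S ((q : Nat.Primes) : ℕ)
          (HpAt29.freeRes (IntRep20.intRep A)) h0 (nsmul_eq_zero_rep A)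
          (basis (levelLoc ((q : Nat.Primes) : ℕ))) (isLevelHom_loc S ((q : Nat.Primes) : ℕ))
          (isDiscrete_unitsLoc ((q : Nat.Primes) : ℕ)) (locDegInf hpS _) (basis (levelS S))
          (isDiscrete_ISq' S q)⟩)
    (fun A _ _ h0 =>
      (P20Tail44.card_range_toCS S A h0 hp2 hpS ⟨pPrime p, hpS⟩ (locDegInf hpS _)).2)

end Fermat.Agent.TW.TailEq44
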