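import Mathlib
import Fermat.Agent.S53.EvalNilp
import Fermat.Agent.S53.CompleteQuot

/-!
# Programme TW (S56), brick A1: tangent count ⇒ surjection from a power series ring (helper63)

Pure commutative algebra, independent of the Galois side.

`𝒪` a complete local ring, `R` a complete Noetherian local `𝒪`-algebra whose structure map is local
and induces a surjection on residue fields, `k = ResidueField 𝒪` finite, `k[ε] = DualNumber k` with
any `𝒪`-algebra structure whose structure map is `c ↦ inl (residue c)` (hypothesis `halg`; e.g. the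
`letI` one inside `GaloisRep.TangentFinite`).

* `exists_surjective_of_span` : if `x : Fin r → m_R` spans `m_R / (m_R ^ 2 + m_𝒪 R)` then there is a
  surjective `𝒪`-algebra map `γ : 𝒪⟦X_1..X_r⟧ → R` with `γ (X i) = x i`.
* `Der`, `tangentEquiv` : `𝒪`-algebra maps `R → k[ε]` are the same as derivation-like functionals
  `R → k`, which form a `k`-vector space.
* `exists_der` : separation of `m_R / (m_R ^ 2 + m_𝒪 R)` by such functionals.
* `finite_tangentHom` : for Noetherian `R` and finite `k` there are finitely many maps `R → k[ε]`.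
* `exists_generators_of_card_le` : if there are at most `|k| ^ r` maps `R → k[ε]` then `m_R` is
  generated by `r` elements modulo `m_R ^ 2 + m_𝒪 R`.
* `exists_surjective_of_card_le` : the combination:
  `Nat.card (R →ₐ[𝒪] k[ε]) ≤ |k| ^ r → ∃ γ : 𝒪⟦X_1..X_r⟧ →ₐ[𝒪] R, Surjective γ`.
* `exists_surjective_of_injective` : the same with an injection of `R →ₐ[𝒪] k[ε]` into a finite
  type with at most `|k| ^ r` elements.
-/

set_option autoImplicit false
set_option linter.unusedSectionVars false
set_option linter.style.haveILetI false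

namespace Fermat.Agent.TW.TangentSurj63

open IsLocalRing Fermat.Agent.S53

section Eval

variable {𝒪 : Type} [CommRing 𝒪]
variable {R : Type} [CommRing R] [IsLocalRing R]
  [IsAdicComplete (maximalIdeal R) R] [Algebra 𝒪 R]

/-- Evaluation of power series at a tuple of elements of the maximal ideal of a complete local
ring. -/
theorem exists_eval {r : ℕ} (x : Fin r → R) (hx : ∀ i, x i ∈ maximalIdeal R) :
    ∃ γ : MvPowerSeries (Fin r) 𝒪 →ₐ[𝒪] R, ∀ i, γ (MvPowerSeries.X i) = x i := by
  have hu : ∀ n : ℕ, Ideal.span (Set.range fun i => quotPowMk (𝒪 := 𝒪) R n (x i)) ^ (n + 1) = ⊥ := by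
    intro n
    rw [eq_bot_iff, ← maximalIdeal_quotPow_pow R n]
    refine Ideal.pow_right_mono ?_ _
    rw [Ideal.span_le]
    rintro _ ⟨i, rfl⟩
    rw [maximalIdeal_quotPow]
    exact Ideal.mem_map_of_mem _ (hx i)
  let f : ∀ n : ℕ, MvPowerSeries (Fin r) 𝒪 →ₐ[𝒪] QuotPow R n := fun n =>
    evalNilp (fun i => quotPowMk (𝒪 := 𝒪) R n (x i)) (n + 1) (hu n)
  have hf : ∀ n : ℕ, (quotPowFactor (𝒪 := 𝒪) R (Nat.le_succ n)).comp (f (n + 1)) = f n := by
    intro n
    apply eq_evalNilp
    intro i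
    rw [AlgHom.comp_apply]
    show quotPowFactor (𝒪 := 𝒪) R (Nat.le_succ n) (evalNilp _ _ (hu (n + 1)) (MvPowerSeries.X i)) = _
    rw [evalNilp_X]
    rfl
  obtain ⟨γ, hγ⟩ := exists_lift_of_compatible R f hf
  refine ⟨γ, fun i => ?_⟩
  rw [IsHausdorff.eq_iff_smodEq (I := maximalIdeal R)]
  intro n
  have h1 : quotPowMk (𝒪 := 𝒪) R n (γ (MvPowerSeries.X i)) = quotPowMk (𝒪 := 𝒪) R n (x i) := by
    have := DFunLike.congr_fun (hγ n) (MvPowerSeries.X i)
    rw [AlgHom.comp_apply] at this
    rw [this]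
    exact evalNilp_X _ _ (hu n) i
  have h2 : γ (MvPowerSeries.X i) - x i ∈ maximalIdeal R ^ (n + 1) := by
    rw [← Ideal.Quotient.eq]
    exact h1
  rw [SModEq.sub_mem, smul_eq_mul, Ideal.mul_top]
  exact Ideal.pow_le_pow_right (Nat.le_succ n) h2

end Eval

section Surj

variable {𝒪 : Type} [CommRing 𝒪] [IsLocalRing 𝒪] [IsPrecomplete (maximalIdeal 𝒪) 𝒪]
variable {R : Type} [CommRing R] [IsLocalRing R] [IsNoetherianRing R]
  [IsAdicComplete (maximalIdeal R) R] [Algebra 𝒪 R]

/-- Nakayama: generation of `m_R` modulo `m_R ^ 2 + m_𝒪 R` implies generation modulo `m_𝒪 R`. -/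
theorem maximalIdeal_le_span_sup_map {ι : Type*} (x : ι → R)
    (hspan : maximalIdeal R ≤ Ideal.span (Set.range x) ⊔ maximalIdeal R ^ 2 ⊔
      (maximalIdeal 𝒪).map (algebraMap 𝒪 R)) :
    maximalIdeal R ≤ Ideal.span (Set.range x) ⊔ (maximalIdeal 𝒪).map (algebraMap 𝒪 R) := by
  refine Submodule.le_of_le_smul_of_le_jacobson_bot (I := maximalIdeal R)
    (IsNoetherian.noetherian _) (IsLocalRing.jacobson_eq_maximalIdeal ⊥ bot_ne_top).ge ?_
  rw [smul_eq_mul, ← pow_two]
  refine hspan.trans ?_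
  rw [sup_right_comm]

/-- If `X + m_𝒪 R = m_R` then `𝒪 → R ⧸ X` is surjective (`𝒪` complete). -/
theorem algebraMap_quotient_surjective [IsLocalHom (algebraMap 𝒪 R)]
    (hres : Function.Surjective (IsLocalRing.residue R ∘ algebraMap 𝒪 R))
    (X : Ideal R)
    (hX : maximalIdeal R ≤ X ⊔ (maximalIdeal 𝒪).map (algebraMap 𝒪 R)) :
    Function.Surjective (algebraMap 𝒪 (R ⧸ X)) := by
  have hmap : (maximalIdeal 𝒪).map (algebraMap 𝒪 R) ≤ maximalIdeal R := by
    rw [Ideal.map_le_iff_le_comap]
    intro a ha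
    exact Ideal.mem_comap.mpr (map_nonunit (algebraMap 𝒪 R) a ha)
  haveI : IsHausdorff (maximalIdeal 𝒪) (R ⧸ X) := IsHausdorff.of_map (S := R) hmap
  have key : Function.Surjective (Algebra.linearMap 𝒪 (R ⧸ X)) := by
    apply surjective_of_mkQ_comp_surjective (I := maximalIdeal 𝒪)
    intro q
    obtain ⟨n, rfl⟩ := Submodule.mkQ_surjective _ q
    obtain ⟨y, rfl⟩ := Ideal.Quotient.mk_surjective n
    obtain ⟨c, hc⟩ := hres (IsLocalRing.residue R y)
    have hm : y - algebraMap 𝒪 R c ∈ maximalIdeal R := by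
      rw [← IsLocalRing.residue_eq_zero_iff, map_sub]
      simp only [Function.comp_apply] at hc
      rw [hc, sub_self]
    obtain ⟨ξ, hξ, μ, hμ, hsum⟩ := Submodule.mem_sup.mp (hX hm)
    refine ⟨c, ?_⟩
    rw [LinearMap.comp_apply, Algebra.linearMap_apply, eq_comm, ← sub_eq_zero, ← map_sub,
      Submodule.mkQ_apply, Submodule.Quotient.mk_eq_zero]
    have h1 : Ideal.Quotient.mk X y - algebraMap 𝒪 (R ⧸ X) c = Ideal.Quotient.mk X μ := by
      have h2 : algebraMap 𝒪 (R ⧸ X) c = Ideal.Quotient.mk X (algebraMap 𝒪 R c) := rfl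
      rw [h2, ← map_sub, ← hsum, map_add, Ideal.Quotient.eq_zero_iff_mem.mpr hξ, zero_add]
    rw [h1]
    -- `μ ∈ m_𝒪 R` maps into `m_𝒪 • ⊤`
    refine Submodule.span_induction (p := fun μ _ => Ideal.Quotient.mk X μ ∈
      (maximalIdeal 𝒪 • ⊤ : Submodule 𝒪 (R ⧸ X))) ?_ ?_ ?_ ?_ hμ
    · rintro _ ⟨a, ha, rfl⟩
      have h3 : Ideal.Quotient.mk X (algebraMap 𝒪 R a) = a • (1 : R ⧸ X) := by
        rw [Algebra.smul_def, mul_one]; rfl
      rw [h3]
      exact Submodule.smul_mem_smul ha Submodule.mem_top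
    · rw [map_zero]; exact Submodule.zero_mem _
    · intro u v _ _ hu hv
      rw [map_add]; exact Submodule.add_mem _ hu hv
    · intro b u hu0 hu
      rw [smul_eq_mul, map_mul]
      -- closure of `m_𝒪 • ⊤` under multiplication by ring elements
      refine Submodule.smul_induction_on (p := fun w => Ideal.Quotient.mk X b * w ∈
        (maximalIdeal 𝒪 • ⊤ : Submodule 𝒪 (R ⧸ X))) hu ?_ ?_
      · intro a ha w _
        rw [mul_smul_comm]
        exact Submodule.smul_mem_smul ha Submodule.mem_top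
      · intro w w' hw hw'
        rw [mul_add]; exact Submodule.add_mem _ hw hw'
  intro q
  obtain ⟨c, hc⟩ := key q
  exact ⟨c, hc⟩

/-- **Surjection from generators of the relative cotangent space.** -/
theorem exists_surjective_of_span [IsLocalHom (algebraMap 𝒪 R)]
    (hres : Function.Surjective (IsLocalRing.residue R ∘ algebraMap 𝒪 R))
    {r : ℕ} (x : Fin r → R) (hx : ∀ i, x i ∈ maximalIdeal R)
    (hspan : maximalIdeal R ≤ Ideal.span (Set.range x) ⊔ maximalIdeal R ^ 2 ⊔
      (maximalIdeal 𝒪).map (algebraMap 𝒪 R)) :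
    ∃ γ : MvPowerSeries (Fin r) 𝒪 →ₐ[𝒪] R,
      (∀ i, γ (MvPowerSeries.X i) = x i) ∧ Function.Surjective γ := by
  obtain ⟨γ, hγ⟩ := exists_eval (𝒪 := 𝒪) x hx
  refine ⟨γ, hγ, ?_⟩
  set V : Ideal (MvPowerSeries (Fin r) 𝒪) :=
    Ideal.span (Set.range (MvPowerSeries.X : Fin r → MvPowerSeries (Fin r) 𝒪)) with hV
  have hVmap : V.map (γ : MvPowerSeries (Fin r) 𝒪 →+* R) = Ideal.span (Set.range x) := by
    rw [hV, Ideal.map_span, ← Set.range_comp]
    congr 2
    funext i
    exact hγ i
  have hle : Ideal.span (Set.range x) ≤ maximalIdeal R := by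
    rw [Ideal.span_le]
    rintro _ ⟨i, rfl⟩
    exact hx i
  have hne : V.map (γ : MvPowerSeries (Fin r) 𝒪 →+* R) ≠ ⊤ := by
    rw [hVmap]
    intro h
    rw [h] at hle
    exact (maximalIdeal.isMaximal R).ne_top (top_le_iff.mp hle)
  haveI : IsHausdorff (V.map (γ : MvPowerSeries (Fin r) 𝒪 →+* R)) R :=
    IsHausdorff.of_isLocalRing _ R hne
  have hsurj := algebraMap_quotient_surjective hres (Ideal.span (Set.range x))
    (maximalIdeal_le_span_sup_map x hspan)
  have := surjective_of_mk_map_comp_surjective (I := V) (γ : MvPowerSeries (Fin r) 𝒪 →+* R) ?_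
  · exact this
  · intro q
    obtain ⟨y, rfl⟩ := Ideal.Quotient.mk_surjective q
    obtain ⟨c, hc⟩ := hsurj (Ideal.Quotient.mk _ y)
    refine ⟨MvPowerSeries.C c, ?_⟩
    rw [RingHom.comp_apply]
    have h1 : (γ : MvPowerSeries (Fin r) 𝒪 →+* R) (MvPowerSeries.C c) = algebraMap 𝒪 R c := by
      have := γ.commutes c
      rwa [MvPowerSeries.algebraMap_apply, Algebra.algebraMap_self, RingHom.id_apply] at this
    rw [h1, Ideal.Quotient.eq, hVmap, ← Ideal.Quotient.eq]
    exact hc

end Surj

/-- Linear algebra: a subspace of the dual of a space of dimension `≤ r` is spanned by `r`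
elements. -/
theorem exists_fin_span_eq_top {K D : Type*} [Field K] [AddCommGroup D] [Module K D]
    [Module.Finite K D] (r : ℕ) (hd : Module.finrank K D ≤ r)
    (U : Submodule K (Module.Dual K D)) :
    ∃ w : Fin r → U, Submodule.span K (Set.range w) = ⊤ := by
  have hU : Module.finrank K U ≤ r := by
    refine le_trans (Submodule.finrank_le _) ?_
    rw [Subspace.dual_finrank_eq]
    exact hd
  haveI : Module.Free K U := Module.Free.of_divisionRing (K := K) (V := U)
  let b := Module.finBasis K U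
  refine ⟨fun i => if h : i.1 < Module.finrank K U then b ⟨i.1, h⟩ else 0, ?_⟩
  rw [eq_top_iff, ← b.span_eq]
  refine Submodule.span_mono ?_
  rintro _ ⟨j, rfl⟩
  refine ⟨⟨j.1, lt_of_lt_of_le j.2 hU⟩, ?_⟩
  show (if h : j.1 < Module.finrank K U then b ⟨j.1, h⟩ else 0) = b j
  rw [dif_pos j.2]

section Count

variable {𝒪 : Type} [CommRing 𝒪] [IsLocalRing 𝒪]
variable {R : Type} [CommRing R] [IsLocalRing R] [Algebra 𝒪 R] [IsLocalHom (algebraMap 𝒪 R)]

theorem exists_sub_mem (hres : Function.Surjective (IsLocalRing.residue R ∘ algebraMap 𝒪 R))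
    (a : R) : ∃ c : 𝒪, a - algebraMap 𝒪 R c ∈ maximalIdeal R := by
  obtain ⟨c, hc⟩ := hres (IsLocalRing.residue R a)
  refine ⟨c, ?_⟩
  rw [← IsLocalRing.residue_eq_zero_iff, map_sub]
  simp only [Function.comp_apply] at hc
  rw [hc, sub_self]

theorem algebraMap_mem_iff (c : 𝒪) :
    algebraMap 𝒪 R c ∈ maximalIdeal R ↔ c ∈ maximalIdeal 𝒪 := by
  constructor
  · intro h
    by_contra hc
    have hu : IsUnit c := by
      by_contra hn
      exact hc ((mem_maximalIdeal c).mpr hn)
    exact (mem_maximalIdeal _).mp h (hu.map (algebraMap 𝒪 R))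
  · intro h
    exact map_nonunit (algebraMap 𝒪 R) c h

/-- The residue fields of `𝒪` and `R` are identified. -/
noncomputable def resEquiv (hres : Function.Surjective (IsLocalRing.residue R ∘ algebraMap 𝒪 R)) :
    ResidueField 𝒪 ≃+* ResidueField R :=
  RingEquiv.ofBijective (ResidueField.map (algebraMap 𝒪 R))
    ⟨(ResidueField.map (algebraMap 𝒪 R)).injective, fun y => by
      obtain ⟨c, hc⟩ := hres y
      exact ⟨IsLocalRing.residue 𝒪 c, by rw [ResidueField.map_residue]; exact hc⟩⟩

theorem resEquiv_residue (hres : Function.Surjective (IsLocalRing.residue R ∘ algebraMap 𝒪 R))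
    (c : 𝒪) : resEquiv hres (IsLocalRing.residue 𝒪 c) = IsLocalRing.residue R (algebraMap 𝒪 R c) :=
  ResidueField.map_residue (algebraMap 𝒪 R) c

/-- The canonical `𝒪`-algebra map `R → k` (`k` the residue field of `𝒪`). -/
noncomputable def resK (hres : Function.Surjective (IsLocalRing.residue R ∘ algebraMap 𝒪 R)) :
    R →ₐ[𝒪] ResidueField 𝒪 :=
  { toRingHom := ((resEquiv hres).symm : ResidueField R →+* ResidueField 𝒪).comp
      (IsLocalRing.residue R)
    commutes' := fun c => by
      show (resEquiv hres).symm (IsLocalRing.residue R (algebraMap 𝒪 R c)) = _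
      rw [RingEquiv.symm_apply_eq, ResidueField.algebraMap_eq]
      exact (resEquiv_residue hres c).symm }

theorem resK_apply (hres : Function.Surjective (IsLocalRing.residue R ∘ algebraMap 𝒪 R)) (a : R) :
    resK hres a = (resEquiv hres).symm (IsLocalRing.residue R a) := rfl

variable (hres : Function.Surjective (IsLocalRing.residue R ∘ algebraMap 𝒪 R))

theorem resK_algebraMap (c : 𝒪) : resK hres (algebraMap 𝒪 R c) = IsLocalRing.residue 𝒪 c := by
  rw [AlgHom.commutes, ResidueField.algebraMap_eq]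

theorem resK_eq_zero_iff (a : R) : resK hres a = 0 ↔ a ∈ maximalIdeal R := by
  rw [← IsLocalRing.residue_eq_zero_iff, resK_apply, RingEquiv.symm_apply_eq, map_zero]

/-- Uniqueness of the residue map. -/
theorem eq_resK (g : R →+* ResidueField 𝒪)
    (hg : ∀ c : 𝒪, g (algebraMap 𝒪 R c) = IsLocalRing.residue 𝒪 c) (y : R) :
    g y = resK hres y := by
  have h0 : ∀ u ∈ maximalIdeal R, g u = 0 := by
    intro u hu
    by_contra ha
    obtain ⟨c, hc⟩ := IsLocalRing.residue_surjective (g u)
    have hcu : IsUnit c := by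
      by_contra hn
      rw [(IsLocalRing.residue_eq_zero_iff c).mpr ((mem_maximalIdeal c).mpr hn)] at hc
      exact ha hc.symm
    have hv : IsUnit (algebraMap 𝒪 R c - u) := by
      by_contra hn
      have h1 : algebraMap 𝒪 R c - u ∈ maximalIdeal R := (mem_maximalIdeal _).mpr hn
      have h2 : algebraMap 𝒪 R c ∈ maximalIdeal R := by
        have := Ideal.add_mem _ h1 hu
        rwa [sub_add_cancel] at this
      exact (mem_maximalIdeal _).mp h2 (hcu.map (algebraMap 𝒪 R))
    have h3 : g (algebraMap 𝒪 R c - u) = 0 := by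
      rw [map_sub, hg, hc, sub_self]
    have := hv.map g
    rw [h3] at this
    exact not_isUnit_zero this
  obtain ⟨c, hc⟩ := exists_sub_mem hres y
  have h1 : y = algebraMap 𝒪 R c + (y - algebraMap 𝒪 R c) := by ring
  rw [h1, map_add, map_add, hg, resK_algebraMap, h0 _ hc, (resK_eq_zero_iff hres _).mpr hc]

/-- Derivation-like functionals `R → k` (the tangent space of `R` relative to `𝒪`). -/
def Der : Submodule (ResidueField 𝒪) (R →+ ResidueField 𝒪) where
  carrier := {lam | (∀ c : 𝒪, lam (algebraMap 𝒪 R c) = 0) ∧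
    ∀ y z, lam (y * z) = resK hres y * lam z + resK hres z * lam y}
  add_mem' := by
    rintro a b ⟨ha1, ha2⟩ ⟨hb1, hb2⟩
    refine ⟨fun c => ?_, fun y z => ?_⟩
    · rw [AddMonoidHom.add_apply, ha1, hb1, add_zero]
    · rw [AddMonoidHom.add_apply, AddMonoidHom.add_apply, AddMonoidHom.add_apply, ha2, hb2]
      ring
  zero_mem' := ⟨fun _ => rfl, fun y z => by simp⟩
  smul_mem' := by
    rintro t a ⟨ha1, ha2⟩
    refine ⟨fun c => ?_, fun y z => ?_⟩
    · rw [AddMonoidHom.smul_apply, ha1, smul_zero]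
    · rw [AddMonoidHom.smul_apply, AddMonoidHom.smul_apply, AddMonoidHom.smul_apply, ha2]
      simp only [smul_eq_mul]
      ring

theorem mem_Der {lam : R →+ ResidueField 𝒪} : lam ∈ Der hres ↔
    (∀ c : 𝒪, lam (algebraMap 𝒪 R c) = 0) ∧
    ∀ y z, lam (y * z) = resK hres y * lam z + resK hres z * lam y := Iff.rfl

variable [alg : Algebra 𝒪 (DualNumber (ResidueField 𝒪))]
  (halg : ∀ c : 𝒪, algebraMap 𝒪 (DualNumber (ResidueField 𝒪)) c =
    TrivSqZeroExt.inl (IsLocalRing.residue 𝒪 c))

/-- The tangent homomorphism `x ↦ res x + lam x ε`. -/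
noncomputable def tangentHom (lam : Der hres) : R →ₐ[𝒪] DualNumber (ResidueField 𝒪) where
  toFun x := TrivSqZeroExt.inl (resK hres x) + TrivSqZeroExt.inr (lam.1 x)
  map_one' := by
    have h1 : lam.1 1 = 0 := by simpa using lam.2.1 1
    rw [h1, map_one]
    simp
  map_mul' x y := by
    apply TrivSqZeroExt.ext
    · simp
    · simp [lam.2.2]
      ring
  map_zero' := by simp
  map_add' x y := by
    simp only [map_add, TrivSqZeroExt.inl_add, TrivSqZeroExt.inr_add]
    abel
  commutes' c := by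
    show TrivSqZeroExt.inl (resK hres (algebraMap 𝒪 R c)) +
      TrivSqZeroExt.inr (lam.1 (algebraMap 𝒪 R c)) = _
    rw [lam.2.1, resK_algebraMap, halg]
    simp

theorem tangentHom_apply (lam : Der hres) (x : R) :
    tangentHom hres halg lam x =
      TrivSqZeroExt.inl (resK hres x) + TrivSqZeroExt.inr (lam.1 x) := rfl

include halg in
theorem fst_apply (f : R →ₐ[𝒪] DualNumber (ResidueField 𝒪)) (y : R) :
    TrivSqZeroExt.fst (f y) = resK hres y := by
  have := eq_resK hres ((TrivSqZeroExt.fstHom (ResidueField 𝒪) (ResidueField 𝒪)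
    (ResidueField 𝒪)).toRingHom.comp f.toRingHom) (fun c => by
      show TrivSqZeroExt.fst (f (algebraMap 𝒪 R c)) = _
      rw [f.commutes, halg, TrivSqZeroExt.fst_inl]) y
  exact this

/-- The functional attached to a tangent homomorphism. -/
noncomputable def derOf (f : R →ₐ[𝒪] DualNumber (ResidueField 𝒪)) : Der hres :=
  ⟨{ toFun := fun x => TrivSqZeroExt.snd (f x)
     map_zero' := by rw [map_zero, TrivSqZeroExt.snd_zero]
     map_add' := fun x y => by rw [map_add, TrivSqZeroExt.snd_add] }, by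
    refine ⟨fun c => ?_, fun y z => ?_⟩
    · show TrivSqZeroExt.snd (f (algebraMap 𝒪 R c)) = 0
      rw [f.commutes, halg, TrivSqZeroExt.snd_inl]
    · show TrivSqZeroExt.snd (f (y * z)) = resK hres y * TrivSqZeroExt.snd (f z) +
        resK hres z * TrivSqZeroExt.snd (f y)
      rw [map_mul, TrivSqZeroExt.snd_mul, fst_apply hres halg f, fst_apply hres halg f]
      simp [smul_eq_mul, mul_comm]⟩

theorem derOf_apply (f : R →ₐ[𝒪] DualNumber (ResidueField 𝒪)) (x : R) :
    (derOf hres halg f).1 x = TrivSqZeroExt.snd (f x) := rfl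

/-- Tangent homomorphisms are the same as derivation-like functionals. -/
noncomputable def tangentEquiv : Der hres ≃ (R →ₐ[𝒪] DualNumber (ResidueField 𝒪)) where
  toFun := tangentHom hres halg
  invFun := derOf hres halg
  left_inv lam := by
    apply Subtype.ext
    apply AddMonoidHom.ext
    intro x
    rw [derOf_apply, tangentHom_apply]
    simp
  right_inv f := by
    apply AlgHom.ext
    intro x
    rw [tangentHom_apply, derOf_apply]
    apply TrivSqZeroExt.ext
    · simp [fst_apply hres halg f]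
    · simp

theorem resK_eq_of_sub_mem {y : R} {c : 𝒪} (h : y - algebraMap 𝒪 R c ∈ maximalIdeal R) :
    resK hres y = IsLocalRing.residue 𝒪 c := by
  have h1 : y = algebraMap 𝒪 R c + (y - algebraMap 𝒪 R c) := by ring
  rw [h1, map_add, resK_algebraMap, (resK_eq_zero_iff hres _).mpr h, add_zero]

/-- **Separation.** An element of `m_R` outside an ideal `J ⊇ m_R ^ 2 + m_𝒪 R` is detected by a
derivation-like functional vanishing on `J`. -/
theorem exists_der (J : Ideal R) (hJm : J ≤ maximalIdeal R) (hsq : maximalIdeal R ^ 2 ≤ J)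
    (hO : ∀ c ∈ maximalIdeal 𝒪, algebraMap 𝒪 R c ∈ J)
    (x : R) (hx : x ∈ maximalIdeal R) (hxJ : x ∉ J) :
    ∃ lam : Der hres, (∀ y ∈ J, lam.1 y = 0) ∧ lam.1 x ≠ 0 := by
  have hM : Module.IsTorsionBySet 𝒪 (R ⧸ J) (maximalIdeal 𝒪 : Set 𝒪) := by
    intro q a
    obtain ⟨b, rfl⟩ := Ideal.Quotient.mk_surjective q
    have h1 : (a : 𝒪) • (Ideal.Quotient.mk J b) = Ideal.Quotient.mk J (algebraMap 𝒪 R a * b) := by
      rw [← Algebra.smul_def]; rfl
    rw [h1, Ideal.Quotient.eq_zero_iff_mem]
    exact J.mul_mem_right _ (hO a a.2)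
  letI : Module (ResidueField 𝒪) (R ⧸ J) := (hM.module : Module (𝒪 ⧸ maximalIdeal 𝒪) (R ⧸ J))
  have hsmul : ∀ (c : 𝒪) (q : R ⧸ J), (IsLocalRing.residue 𝒪 c) • q = c • q := fun c q =>
    Module.IsTorsionBySet.mk_smul hM c q
  have hsmul' : ∀ (c : 𝒪) (b : R), (IsLocalRing.residue 𝒪 c) • (Ideal.Quotient.mk J b) =
      Ideal.Quotient.mk J (algebraMap 𝒪 R c * b) := by
    intro c b
    rw [hsmul, ← Algebra.smul_def]; rfl
  have hv : Ideal.Quotient.mk J x ∉
      Submodule.span (ResidueField 𝒪) {(Ideal.Quotient.mk J (1 : R))} := by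
    rw [Submodule.mem_span_singleton]
    rintro ⟨κ, hκ⟩
    obtain ⟨c, rfl⟩ := IsLocalRing.residue_surjective κ
    rw [hsmul', mul_one, Ideal.Quotient.eq] at hκ
    have h1 : algebraMap 𝒪 R c ∈ maximalIdeal R := by
      have := add_mem (hJm hκ) hx
      simpa using this
    have h2 : c ∈ maximalIdeal 𝒪 := (algebraMap_mem_iff c).mp h1
    apply hxJ
    have := sub_mem (hO c h2) hκ
    simpa using this
  obtain ⟨Λ, hΛx, hΛ1⟩ := Submodule.exists_le_ker_of_notMem hv
  have hΛone : Λ (Ideal.Quotient.mk J (1 : R)) = 0 :=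
    hΛ1 (Submodule.subset_span rfl)
  let lam : R →+ ResidueField 𝒪 :=
    { toFun := fun b => Λ (Ideal.Quotient.mk J b)
      map_zero' := by rw [map_zero, map_zero]
      map_add' := fun a b => by rw [map_add, map_add] }
  have hlam : ∀ b, lam b = Λ (Ideal.Quotient.mk J b) := fun _ => rfl
  have hJ0 : ∀ y ∈ J, lam y = 0 := by
    intro y hy
    rw [hlam, Ideal.Quotient.eq_zero_iff_mem.mpr hy, map_zero]
  have hlin : ∀ (c : 𝒪) (b : R), lam (algebraMap 𝒪 R c * b) =
      IsLocalRing.residue 𝒪 c * lam b := by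
    intro c b
    rw [hlam, ← hsmul', map_smul, smul_eq_mul, hlam]
  have hconst : ∀ c : 𝒪, lam (algebraMap 𝒪 R c) = 0 := by
    intro c
    have := hlin c 1
    rw [mul_one, hlam 1, hΛone, mul_zero] at this
    exact this
  refine ⟨⟨lam, hconst, ?_⟩, hJ0, hΛx⟩
  intro y z
  obtain ⟨c, hc⟩ := exists_sub_mem hres y
  obtain ⟨c', hc'⟩ := exists_sub_mem hres z
  have hy : resK hres y = IsLocalRing.residue 𝒪 c := resK_eq_of_sub_mem hres hc
  have hz : resK hres z = IsLocalRing.residue 𝒪 c' := resK_eq_of_sub_mem hres hc'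
  have h1 : y * z = (y - algebraMap 𝒪 R c) * (z - algebraMap 𝒪 R c') + algebraMap 𝒪 R c' * y
      + algebraMap 𝒪 R c * z - algebraMap 𝒪 R (c * c') := by
    rw [map_mul]; ring
  have h2 : lam ((y - algebraMap 𝒪 R c) * (z - algebraMap 𝒪 R c')) = 0 := by
    apply hJ0
    apply hsq
    rw [pow_two]
    exact Ideal.mul_mem_mul hc hc'
  rw [h1, map_sub, map_add, map_add, h2, hlin, hlin, hconst, hy, hz]
  ring

/-- Evaluation of derivation-like functionals at an element of `R`. -/
noncomputable def evDer (y : R) : Module.Dual (ResidueField 𝒪) (Der hres) where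
  toFun lam := lam.1 y
  map_add' _ _ := rfl
  map_smul' _ _ := rfl

theorem evDer_apply (y : R) (lam : Der hres) : evDer hres y lam = lam.1 y := rfl

theorem evDer_add (y z : R) : evDer hres (y + z) = evDer hres y + evDer hres z := by
  apply LinearMap.ext
  intro lam
  rw [LinearMap.add_apply, evDer_apply, evDer_apply, evDer_apply, map_add]

theorem evDer_algebraMap_mul (c : 𝒪) (y : R) :
    evDer hres (algebraMap 𝒪 R c * y) = IsLocalRing.residue 𝒪 c • evDer hres y := by
  apply LinearMap.ext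
  intro lam
  rw [LinearMap.smul_apply, evDer_apply, evDer_apply, lam.2.2, lam.2.1, resK_algebraMap,
    mul_zero, add_zero, smul_eq_mul]

/-- The image of `m_R` under evaluation, a `k`-subspace of the dual of the tangent space. -/
noncomputable def evSub : Submodule (ResidueField 𝒪) (Module.Dual (ResidueField 𝒪) (Der hres)) where
  carrier := {φ | ∃ y ∈ maximalIdeal R, evDer hres y = φ}
  add_mem' := by
    rintro _ _ ⟨y, hy, rfl⟩ ⟨z, hz, rfl⟩
    exact ⟨y + z, Ideal.add_mem _ hy hz, evDer_add hres y z⟩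
  zero_mem' := ⟨0, Ideal.zero_mem _, by
    apply LinearMap.ext
    intro lam
    rw [evDer_apply, map_zero, LinearMap.zero_apply]⟩
  smul_mem' := by
    rintro a _ ⟨y, hy, rfl⟩
    obtain ⟨c, rfl⟩ := IsLocalRing.residue_surjective a
    exact ⟨algebraMap 𝒪 R c * y, Ideal.mul_mem_left _ _ hy, evDer_algebraMap_mul hres c y⟩

theorem mem_of_evDer_eq_zero {z : R} (hz : z ∈ maximalIdeal R) (h0 : evDer hres z = 0) :
    z ∈ maximalIdeal R ^ 2 ⊔ (maximalIdeal 𝒪).map (algebraMap 𝒪 R) := by
  by_contra hzJ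
  have hJm : maximalIdeal R ^ 2 ⊔ (maximalIdeal 𝒪).map (algebraMap 𝒪 R) ≤ maximalIdeal R := by
    refine sup_le (Ideal.pow_le_self two_ne_zero) ?_
    rw [Ideal.map_le_iff_le_comap]
    intro a ha
    exact Ideal.mem_comap.mpr ((algebraMap_mem_iff a).mpr ha)
  obtain ⟨lam, -, hlam⟩ := exists_der hres _ hJm le_sup_left
    (fun c hc => (le_sup_right : (maximalIdeal 𝒪).map (algebraMap 𝒪 R) ≤ _)
      (Ideal.mem_map_of_mem _ hc)) z hz hzJ
  apply hlam
  rw [← evDer_apply, h0, LinearMap.zero_apply]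

variable [Finite (ResidueField 𝒪)]

include hres halg in
theorem finrank_Der_le [Finite (R →ₐ[𝒪] DualNumber (ResidueField 𝒪))] (r : ℕ)
    (hcard : Nat.card (R →ₐ[𝒪] DualNumber (ResidueField 𝒪)) ≤ Nat.card (ResidueField 𝒪) ^ r) :
    ∃ _ : Module.Finite (ResidueField 𝒪) (Der hres),
      Module.finrank (ResidueField 𝒪) (Der hres) ≤ r := by
  have hfin : Finite (Der hres) := Finite.of_equiv _ (tangentEquiv hres halg).symm
  have hmf : Module.Finite (ResidueField 𝒪) (Der hres) := Module.Finite.of_finite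
  refine ⟨hmf, ?_⟩
  have h1 : Nat.card (Der hres) = Nat.card (ResidueField 𝒪) ^
      Module.finrank (ResidueField 𝒪) (Der hres) :=
    @Module.natCard_eq_pow_finrank (ResidueField 𝒪) (Der hres) _ _ _ hmf
  have h2 : Nat.card (R →ₐ[𝒪] DualNumber (ResidueField 𝒪)) = Nat.card (Der hres) :=
    (Nat.card_congr (tangentEquiv hres halg)).symm
  rw [h2, h1] at hcard
  exact (Nat.pow_le_pow_iff_right Finite.one_lt_card).mp hcard

include hres halg in
/-- **Tangent count ⇒ generators.** -/
theorem exists_generators_of_card_le [Finite (R →ₐ[𝒪] DualNumber (ResidueField 𝒪))] (r : ℕ)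
    (hcard : Nat.card (R →ₐ[𝒪] DualNumber (ResidueField 𝒪)) ≤ Nat.card (ResidueField 𝒪) ^ r) :
    ∃ x : Fin r → R, (∀ i, x i ∈ maximalIdeal R) ∧
      maximalIdeal R ≤ Ideal.span (Set.range x) ⊔ maximalIdeal R ^ 2 ⊔
        (maximalIdeal 𝒪).map (algebraMap 𝒪 R) := by
  classical
  obtain ⟨hmf, hd⟩ := finrank_Der_le hres halg r hcard
  obtain ⟨w, hw⟩ := @exists_fin_span_eq_top (ResidueField 𝒪) (Der hres) _ _ _ hmf r hd (evSub hres)
  have hx : ∀ i, ∃ y ∈ maximalIdeal R, evDer hres y = (w i).1 := fun i => (w i).2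
  choose x hxm hxw using hx
  refine ⟨x, hxm, ?_⟩
  intro y hy
  have hyU : (⟨evDer hres y, y, hy, rfl⟩ : evSub hres) ∈
      Submodule.span (ResidueField 𝒪) (Set.range w) := by
    rw [hw]; exact Submodule.mem_top
  obtain ⟨a, ha⟩ := (Submodule.mem_span_range_iff_exists_fun _).mp hyU
  choose c hc using fun i => IsLocalRing.residue_surjective (a i)
  have hsum : ∑ i, algebraMap 𝒪 R (c i) * x i ∈ Ideal.span (Set.range x) :=
    Ideal.sum_mem _ fun i _ => Ideal.mul_mem_left _ _ (Ideal.subset_span ⟨i, rfl⟩)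
  have hsumm : ∑ i, algebraMap 𝒪 R (c i) * x i ∈ maximalIdeal R :=
    Ideal.sum_mem _ fun i _ => Ideal.mul_mem_left _ _ (hxm i)
  have hev : evDer hres (y - ∑ i, algebraMap 𝒪 R (c i) * x i) = 0 := by
    have h1 : evDer hres (∑ i, algebraMap 𝒪 R (c i) * x i) = evDer hres y := by
      have h2 : ∀ s : Finset (Fin r), evDer hres (∑ i ∈ s, algebraMap 𝒪 R (c i) * x i) =
          ∑ i ∈ s, a i • (w i).1 := by
        intro s
        induction s using Finset.induction_on with
        | empty =>
          rw [Finset.sum_empty, Finset.sum_empty]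
          apply LinearMap.ext
          intro lam
          rw [evDer_apply, map_zero, LinearMap.zero_apply]
        | insert i s hi ih =>
          rw [Finset.sum_insert hi, Finset.sum_insert hi, evDer_add, ih, evDer_algebraMap_mul,
            hc, hxw]
      rw [h2]
      have h3 := congrArg Subtype.val ha
      rw [Submodule.coe_sum] at h3
      simpa using h3
    apply LinearMap.ext
    intro lam
    rw [evDer_apply, map_sub, ← evDer_apply, ← evDer_apply hres (∑ i, algebraMap 𝒪 R (c i) * x i),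
      h1, sub_self, LinearMap.zero_apply]
  have hz := mem_of_evDer_eq_zero hres (Ideal.sub_mem _ hy hsumm) hev
  have h4 : y = ∑ i, algebraMap 𝒪 R (c i) * x i + (y - ∑ i, algebraMap 𝒪 R (c i) * x i) := by ring
  rw [h4, sup_assoc]
  exact Submodule.add_mem_sup hsum hz

include hres halg in
/-- For Noetherian `R` and finite `k` there are only finitely many tangent homomorphisms. -/
theorem finite_tangentHom [IsNoetherianRing R] :
    Finite (R →ₐ[𝒪] DualNumber (ResidueField 𝒪)) := by
  classical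
  obtain ⟨s, hs⟩ := (IsNoetherian.noetherian (maximalIdeal R) : (maximalIdeal R).FG)
  have hinj : Function.Injective (fun (lam : Der hres) (g : s) => lam.1 g.1) := by
    intro lam lam' h
    apply Subtype.ext
    apply AddMonoidHom.ext
    intro y
    have hδ : (lam - lam').1 ∈ Der hres := (lam - lam').2
    have hδs : ∀ g ∈ s, (lam - lam').1 g = 0 := by
      intro g hg
      have := congrFun h ⟨g, hg⟩
      simp only at this
      rw [Submodule.coe_sub, AddMonoidHom.sub_apply, this, sub_self]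
    have hδm : ∀ u ∈ maximalIdeal R, (lam - lam').1 u = 0 := by
      intro u hu
      rw [← hs] at hu
      induction hu using Submodule.span_induction with
      | mem g hg => exact hδs g hg
      | zero => exact map_zero _
      | add a b _ _ ha hb => rw [map_add, ha, hb, add_zero]
      | smul a b hb ih =>
        have hbm : b ∈ maximalIdeal R := by
          rw [← hs]; exact hb
        rw [smul_eq_mul, hδ.2, ih, (resK_eq_zero_iff hres b).mpr hbm, mul_zero, zero_mul, add_zero]
    obtain ⟨c, hc⟩ := exists_sub_mem hres y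
    have h1 : (lam - lam').1 y = 0 := by
      have h2 : y = algebraMap 𝒪 R c + (y - algebraMap 𝒪 R c) := by ring
      rw [h2, map_add, hδ.1, hδm _ hc, add_zero]
    rw [Submodule.coe_sub, AddMonoidHom.sub_apply, sub_eq_zero] at h1
    exact h1
  haveI : Finite (Der hres) := Finite.of_injective _ hinj
  exact Finite.of_equiv _ (tangentEquiv hres halg)

end Count

section Main

variable {𝒪 : Type} [CommRing 𝒪] [IsLocalRing 𝒪] [IsPrecomplete (maximalIdeal 𝒪) 𝒪]
  [Finite (ResidueField 𝒪)]
variable {R : Type} [CommRing R] [IsLocalRing R] [IsNoetherianRing R]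
  [IsAdicComplete (maximalIdeal R) R] [Algebra 𝒪 R] [IsLocalHom (algebraMap 𝒪 R)]
variable [alg : Algebra 𝒪 (DualNumber (ResidueField 𝒪))]

/-- **Brick A1.** If there are at most `|k| ^ r` `𝒪`-algebra maps `R → k[ε]` then `R` is a quotient
of `𝒪⟦X_1, …, X_r⟧`. -/
theorem exists_surjective_of_card_le
    (hres : Function.Surjective (IsLocalRing.residue R ∘ algebraMap 𝒪 R))
    (halg : ∀ c : 𝒪, algebraMap 𝒪 (DualNumber (ResidueField 𝒪)) c =
      TrivSqZeroExt.inl (IsLocalRing.residue 𝒪 c))
    (r : ℕ)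
    (hcard : Nat.card (R →ₐ[𝒪] DualNumber (ResidueField 𝒪)) ≤ Nat.card (ResidueField 𝒪) ^ r) :
    ∃ γ : MvPowerSeries (Fin r) 𝒪 →ₐ[𝒪] R, Function.Surjective γ := by
  haveI := finite_tangentHom hres halg
  obtain ⟨x, hx, hspan⟩ := exists_generators_of_card_le hres halg r hcard
  obtain ⟨γ, -, hγ⟩ := exists_surjective_of_span hres x hx hspan
  exact ⟨γ, hγ⟩

/-- Variant of brick A1 with an injection into a finite type of cardinality `≤ |k| ^ r`. -/
theorem exists_surjective_of_injective
    (hres : Function.Surjective (IsLocalRing.residue R ∘ algebraMap 𝒪 R))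
    (halg : ∀ c : 𝒪, algebraMap 𝒪 (DualNumber (ResidueField 𝒪)) c =
      TrivSqZeroExt.inl (IsLocalRing.residue 𝒪 c))
    (r : ℕ) {T : Type*} [Finite T] (ι : (R →ₐ[𝒪] DualNumber (ResidueField 𝒪)) → T)
    (hι : Function.Injective ι) (hT : Nat.card T ≤ Nat.card (ResidueField 𝒪) ^ r) :
    ∃ γ : MvPowerSeries (Fin r) 𝒪 →ₐ[𝒪] R, Function.Surjective γ :=
  exists_surjective_of_card_le hres halg r ((Nat.card_le_card_of_injective ι hι).trans hT)

end Main


end Fermat.Agent.TW.TangentSurj63
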